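import Mathlib

/-!
# Newton iteration for an `m`-th root with pole control by two auxiliary divisors

Abstract deformation lemma (Mathlib only).  `L ⊆ F` fields, `A` a valuation subring of `L`,
`O` a SUBRING of `F` with `O ∩ L = A` (for good reduction `O` is a valuation ring of `F`, for a
nodal special fibre `O` is the intersection of two valuation rings).  `Dvd O a y` means
`y ∈ a • O`, `Small A O y` means `y ∈ 𝔪_A • O`.
-/

set_option autoImplicit false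

namespace Fermat.Agent.Lib.Red.Deform

variable {L F : Type*} [Field L] [Field F] [Algebra L F]

/-- `y ∈ a • O`. -/
def Dvd (O : Subring F) (a : L) (y : F) : Prop := ∃ o ∈ O, y = algebraMap L F a * o

/-- `y ∈ 𝔪_A • O`. -/
def Small (A : ValuationSubring L) (O : Subring F) (y : F) : Prop :=
  ∃ a : L, A.valuation a < 1 ∧ Dvd O a y

section basic

variable {A : ValuationSubring L} {O : Subring F}

theorem dvd_zero (a : L) : Dvd O a (0 : F) := ⟨0, O.zero_mem, by simp⟩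

theorem Dvd.add {a : L} {y y' : F} (h : Dvd O a y) (h' : Dvd O a y') : Dvd O a (y + y') := by
  obtain ⟨o, ho, rfl⟩ := h
  obtain ⟨o', ho', rfl⟩ := h'
  exact ⟨o + o', O.add_mem ho ho', by ring⟩

theorem Dvd.neg {a : L} {y : F} (h : Dvd O a y) : Dvd O a (-y) := by
  obtain ⟨o, ho, rfl⟩ := h
  exact ⟨-o, O.neg_mem ho, by ring⟩

theorem Dvd.sub {a : L} {y y' : F} (h : Dvd O a y) (h' : Dvd O a y') : Dvd O a (y - y') := by
  rw [sub_eq_add_neg]; exact h.add h'.neg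

theorem Dvd.mul_mem {a : L} {y o : F} (h : Dvd O a y) (ho : o ∈ O) : Dvd O a (y * o) := by
  obtain ⟨o', ho', rfl⟩ := h
  exact ⟨o' * o, O.mul_mem ho' ho, by ring⟩

theorem Dvd.mem_mul {a : L} {y o : F} (ho : o ∈ O) (h : Dvd O a y) : Dvd O a (o * y) := by
  rw [mul_comm]; exact h.mul_mem ho

theorem Dvd.mul {a b : L} {y y' : F} (h : Dvd O a y) (h' : Dvd O b y') :
    Dvd O (a * b) (y * y') := by
  obtain ⟨o, ho, rfl⟩ := h
  obtain ⟨o', ho', rfl⟩ := h'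
  exact ⟨o * o', O.mul_mem ho ho', by rw [map_mul]; ring⟩

theorem Dvd.smul {a : L} {y : F} (c : L) (h : Dvd O a y) :
    Dvd O (c * a) (algebraMap L F c * y) := by
  obtain ⟨o, ho, rfl⟩ := h
  exact ⟨o, ho, by rw [map_mul]; ring⟩

theorem Dvd.of_smul {a c : L} {y : F} (hc : c ≠ 0) (h : Dvd O (c * a) (algebraMap L F c * y)) :
    Dvd O a y := by
  obtain ⟨o, ho, h⟩ := h
  refine ⟨o, ho, ?_⟩
  have hc' : algebraMap L F c ≠ 0 := by simpa using hc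
  rw [map_mul, mul_assoc] at h
  exact mul_left_cancel₀ hc' h

theorem dvd_one_iff {y : F} : Dvd O (1 : L) y ↔ y ∈ O := by
  constructor
  · rintro ⟨o, ho, rfl⟩; simpa using ho
  · intro h; exact ⟨y, h, by simp⟩

theorem Dvd.mono (hOA : ∀ x : L, algebraMap L F x ∈ O ↔ x ∈ A) {a b : L} {y : F}
    (hab : A.valuation a ≤ A.valuation b) (h : Dvd O a y) : Dvd O b y := by
  obtain ⟨o, ho, rfl⟩ := h
  by_cases hb : b = 0
  · subst hb
    have ha : a = 0 := by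
      have : A.valuation a ≤ 0 := by simpa using hab
      have h0 : A.valuation a = 0 := le_antisymm this zero_le
      exact (Valuation.zero_iff _).1 h0
    subst ha
    exact ⟨0, O.zero_mem, by simp⟩
  · have hmem : a / b ∈ A := by
      rw [← A.valuation_le_one_iff, map_div₀]
      exact div_le_one_of_le₀ hab zero_le
    refine ⟨algebraMap L F (a / b) * o, O.mul_mem ((hOA _).2 hmem) ho, ?_⟩
    rw [← mul_assoc, ← map_mul, mul_div_cancel₀ a hb]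

theorem Dvd.mem (hOA : ∀ x : L, algebraMap L F x ∈ O ↔ x ∈ A) {a : L} {y : F}
    (ha : a ∈ A) (h : Dvd O a y) : y ∈ O := by
  obtain ⟨o, ho, rfl⟩ := h
  exact O.mul_mem ((hOA _).2 ha) ho

theorem Small.mem (hOA : ∀ x : L, algebraMap L F x ∈ O ↔ x ∈ A) {y : F}
    (h : Small A O y) : y ∈ O := by
  obtain ⟨a, ha, h⟩ := h
  exact h.mem hOA ((A.valuation_le_one_iff a).1 ha.le)

theorem small_zero : Small A O (0 : F) := ⟨0, by simp, dvd_zero 0⟩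

theorem Small.add (hOA : ∀ x : L, algebraMap L F x ∈ O ↔ x ∈ A) {y y' : F}
    (h : Small A O y) (h' : Small A O y') : Small A O (y + y') := by
  obtain ⟨a, ha, h⟩ := h
  obtain ⟨a', ha', h'⟩ := h'
  rcases le_total (A.valuation a) (A.valuation a') with hle | hle
  · exact ⟨a', ha', (h.mono hOA hle).add h'⟩
  · exact ⟨a, ha, h.add (h'.mono hOA hle)⟩

theorem Small.neg {y : F} (h : Small A O y) : Small A O (-y) := by
  obtain ⟨a, ha, h⟩ := h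
  exact ⟨a, ha, h.neg⟩

theorem Small.sub (hOA : ∀ x : L, algebraMap L F x ∈ O ↔ x ∈ A) {y y' : F}
    (h : Small A O y) (h' : Small A O y') : Small A O (y - y') := by
  rw [sub_eq_add_neg]; exact h.add hOA h'.neg

theorem Small.mul_mem {y o : F} (h : Small A O y) (ho : o ∈ O) : Small A O (y * o) := by
  obtain ⟨a, ha, h⟩ := h
  exact ⟨a, ha, h.mul_mem ho⟩

theorem Small.mem_mul {y o : F} (ho : o ∈ O) (h : Small A O y) : Small A O (o * y) := by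
  rw [mul_comm]; exact h.mul_mem ho

theorem small_algebraMap_iff (hOA : ∀ x : L, algebraMap L F x ∈ O ↔ x ∈ A) (c : L) :
    Small A O (algebraMap L F c) ↔ A.valuation c < 1 := by
  constructor
  · rintro ⟨a, ha, o, ho, h⟩
    by_cases ha0 : a = 0
    · subst ha0
      have : c = 0 := by simpa using h
      subst this; simp
    · have ha' : algebraMap L F a ≠ 0 := by simpa using ha0
      have ho' : o = algebraMap L F (c / a) := by
        rw [map_div₀]; field_simp; rw [h]; ring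
      have hmem : c / a ∈ A := (hOA _).1 (ho' ▸ ho)
      have h1 : A.valuation (c / a) ≤ 1 := (A.valuation_le_one_iff _).2 hmem
      have hc : c = (c / a) * a := by field_simp
      rw [hc, map_mul]
      calc A.valuation (c / a) * A.valuation a ≤ 1 * A.valuation a := by gcongr
        _ = A.valuation a := one_mul _
        _ < 1 := ha
  · intro h
    exact ⟨c, h, 1, O.one_mem, by simp⟩

theorem not_small_one (hOA : ∀ x : L, algebraMap L F x ∈ O ↔ x ∈ A) : ¬ Small A O (1 : F) := by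
  intro h
  have := (small_algebraMap_iff hOA (1 : L)).1 (by simpa using h)
  simp at this

/-- If `y ≡ 1` then `y ∈ O`. -/
theorem mem_of_small_sub_one (hOA : ∀ x : L, algebraMap L F x ∈ O ↔ x ∈ A) {y : F}
    (h : Small A O (y - 1)) : y ∈ O := by
  have := O.add_mem (h.mem hOA) O.one_mem
  simpa using this

theorem small_mul_sub_one (hOA : ∀ x : L, algebraMap L F x ∈ O ↔ x ∈ A) {y z : F}
    (hy : Small A O (y - 1)) (hz : Small A O (z - 1)) : Small A O (y * z - 1) := by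
  have : y * z - 1 = (y - 1) * z + (z - 1) := by ring
  rw [this]
  exact (hy.mul_mem (mem_of_small_sub_one hOA hz)).add hOA hz

theorem small_pow_sub_one (hOA : ∀ x : L, algebraMap L F x ∈ O ↔ x ∈ A) {y : F}
    (hy : Small A O (y - 1)) (n : ℕ) : Small A O (y ^ n - 1) := by
  induction n with
  | zero => simpa using (small_zero : Small A O (0 : F))
  | succ n ih => rw [pow_succ]; exact small_mul_sub_one hOA ih hy

theorem Dvd.small {a : L} {y : F} (ha : A.valuation a < 1) (h : Dvd O a y) : Small A O y :=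
  ⟨a, ha, h⟩

end basic

section algebra

/-- binomial expansion to first order -/
theorem exists_add_pow_eq {R : Type*} [CommRing R] (x e : R) (n : ℕ) :
    ∃ B : R, (x + e) ^ (n + 1) = x ^ (n + 1) + ((n : R) + 1) * x ^ n * e + e ^ 2 * B := by
  induction n with
  | zero => exact ⟨0, by simp⟩
  | succ n ih =>
    obtain ⟨B, hB⟩ := ih
    refine ⟨x * B + ((n : R) + 1) * x ^ n + e * B, ?_⟩
    rw [pow_succ, hB]
    push_cast
    ring

/-- the algebra of one Newton step -/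
theorem newton_algebra {R : Type*} [CommRing R] (s₁ s₂ u g ψ₁ ψ₂ c a w B : R) (k : ℕ)
    (h1 : s₁ = s₂ + a * u)
    (h2 : s₁ ^ (k + 1) * g = c + a * ψ₁)
    (h3 : s₂ ^ (k + 1) * g = c + a * ψ₂)
    (h4 : w * ((k : R) + 1) * c = 1)
    (h5 : s₁ ^ (k + 1) = s₂ ^ (k + 1) + ((k : R) + 1) * s₂ ^ k * (a * u) + a ^ 2 * B) :
    s₁ * (1 - a * w * ψ₁) - s₂ * (1 - a * w * ψ₂)
      = a ^ 2 * (-(u * w * ((k : R) + 1) * ψ₂ + u * ψ₁ * w + s₂ * w * B * g)) := by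
  have e1 : a * (ψ₁ - ψ₂) = (((k : R) + 1) * s₂ ^ k * (a * u) + a ^ 2 * B) * g := by
    have : a * (ψ₁ - ψ₂) = s₁ ^ (k + 1) * g - s₂ ^ (k + 1) * g := by rw [h2, h3]; ring
    rw [this, h5]; ring
  have e2 : a * w * s₂ * (ψ₁ - ψ₂) = a * u + a ^ 2 * (w * ((k : R) + 1) * ψ₂ * u + w * s₂ * B * g) := by
    have : a * w * s₂ * (ψ₁ - ψ₂) = w * s₂ * (a * (ψ₁ - ψ₂)) := by ring
    rw [this, e1]
    have e3 : w * s₂ * ((((k : R) + 1) * s₂ ^ k * (a * u) + a ^ 2 * B) * g)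
        = w * ((k : R) + 1) * a * u * (s₂ ^ (k + 1) * g) + a ^ 2 * (w * s₂ * B * g) := by ring
    rw [e3, h3]
    have e4 : w * ((k : R) + 1) * a * u * (c + a * ψ₂) + a ^ 2 * (w * s₂ * B * g)
        = (w * ((k : R) + 1) * c) * (a * u) + a ^ 2 * (w * ((k : R) + 1) * ψ₂ * u + w * s₂ * B * g) := by
      ring
    rw [e4, h4]; ring
  have e5 : s₁ * (1 - a * w * ψ₁) - s₂ * (1 - a * w * ψ₂)
      = a * u - a ^ 2 * (u * w * ψ₁) - a * w * s₂ * (ψ₁ - ψ₂) := by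
    rw [h1]; ring
  rw [e5, e2]; ring

end algebra

section main

variable (A : ValuationSubring L) (O : Subring F)

/-- **Transfer lemma**: a best approximation `x₀ ∈ U` of `x ∈ V` is as good as any approximation
`x' ∈ W`, provided `V ∩ (W + 𝔐) ⊆ U + 𝔐` on the unit ball (a statement about reductions). -/
theorem transfer
    (hOA : ∀ x : L, algebraMap L F x ∈ O ↔ x ∈ A)
    (hval : ∀ y : F, y ≠ 0 → ∃ c : L, c ≠ 0 ∧ algebraMap L F c * y ∈ O ∧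
      ¬ Small A O (algebraMap L F c * y))
    (U V W : Submodule L F) (hUV : U ≤ V) (hUW : U ≤ W)
    (hres : ∀ u₁ ∈ V, ∀ u₂ ∈ W, u₁ ∈ O → Small A O (u₁ - u₂) → ∃ u₀ ∈ U, Small A O (u₁ - u₀))
    {x x' x₀ : F} (hx : x ∈ V) (hx' : x' ∈ W) (hx₀ : x₀ ∈ U)
    (hbest : ∀ u ∈ U, ∀ a : L, Dvd O a (x - u) → Dvd O a (x - x₀))
    {b : L} (hxx' : Dvd O b (x - x')) : Dvd O b (x - x₀) := by
  by_contra hcon
  have hy : x - x₀ ≠ 0 := by
    intro h; rw [h] at hcon; exact hcon (dvd_zero b)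
  obtain ⟨c, hc, hcO, hcS⟩ := hval _ hy
  have hcF : algebraMap L F c ≠ 0 := by simpa using hc
  have hvc : A.valuation c ≠ 0 := (Valuation.ne_zero_iff _).2 hc
  have hlt : A.valuation (c * b) < 1 := by
    by_contra hge
    rw [not_lt] at hge
    apply hcon
    have h1 : Dvd O c⁻¹ (x - x₀) := ⟨algebraMap L F c * (x - x₀), hcO, by
      rw [← mul_assoc, ← map_mul, inv_mul_cancel₀ hc, map_one, one_mul]⟩
    refine h1.mono hOA ?_
    rw [map_inv₀]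
    rw [map_mul] at hge
    calc (A.valuation c)⁻¹ = (A.valuation c)⁻¹ * 1 := (mul_one _).symm
      _ ≤ (A.valuation c)⁻¹ * (A.valuation c * A.valuation b) := by gcongr
      _ = A.valuation b := by rw [← mul_assoc, inv_mul_cancel₀ hvc, one_mul]
  -- the two normalised elements
  have hu₁V : algebraMap L F c * (x - x₀) ∈ V := by
    rw [← Algebra.smul_def]; exact V.smul_mem c (V.sub_mem hx (hUV hx₀))
  have hu₂W : algebraMap L F c * (x' - x₀) ∈ W := by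
    rw [← Algebra.smul_def]; exact W.smul_mem c (W.sub_mem hx' (hUW hx₀))
  have hsmall : Small A O (algebraMap L F c * (x - x₀) - algebraMap L F c * (x' - x₀)) := by
    refine ⟨c * b, hlt, ?_⟩
    have : algebraMap L F c * (x - x₀) - algebraMap L F c * (x' - x₀)
        = algebraMap L F c * (x - x') := by ring
    rw [this]; exact hxx'.smul c
  obtain ⟨u₀, hu₀, a, ha, hdv⟩ := hres _ hu₁V _ hu₂W hcO hsmall
  -- `x₀ + c⁻¹ u₀ ∈ U` approximates `x` to within `c⁻¹ a`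
  have hmem : x₀ + algebraMap L F c⁻¹ * u₀ ∈ U := by
    rw [← Algebra.smul_def]; exact U.add_mem hx₀ (U.smul_mem _ hu₀)
  have h2 : Dvd O (c⁻¹ * a) (x - (x₀ + algebraMap L F c⁻¹ * u₀)) := by
    have : x - (x₀ + algebraMap L F c⁻¹ * u₀)
        = algebraMap L F c⁻¹ * (algebraMap L F c * (x - x₀) - u₀) := by
      rw [map_inv₀]; field_simp; ring
    rw [this]; exact hdv.smul c⁻¹
  have h3 := hbest _ hmem _ h2
  apply hcS
  refine ⟨a, ha, ?_⟩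
  have h4 := h3.smul c
  rwa [← mul_assoc, mul_inv_cancel₀ hc, one_mul] at h4

/-- The invariant of the iteration: two sections congruent modulo `a`. -/
def Inv (V1 : ℕ → ℕ → Submodule L F) (N₁ : ℕ) (a : L) : Prop :=
  ∃ s₁ ∈ V1 N₁ 0, ∃ s₂ ∈ V1 0 N₁, Small A O (s₁ - 1) ∧ Small A O (s₂ - 1) ∧ Dvd O a (s₁ - s₂)

variable {A O}

/-- **Newton step**: sections congruent modulo `a` can be improved to sections congruent
modulo `a ^ 2`. -/
theorem newton_step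
    (hOA : ∀ x : L, algebraMap L F x ∈ O ↔ x ∈ A)
    (hval : ∀ y : F, y ≠ 0 → ∃ c : L, c ≠ 0 ∧ algebraMap L F c * y ∈ O ∧
      ¬ Small A O (algebraMap L F c * y))
    (m : ℕ) (hm : A.valuation (m : L) = 1)
    (V0 V1 : ℕ → ℕ → Submodule L F)
    (hmono0 : ∀ n₁ n₂ n₁' n₂', n₁ ≤ n₁' → n₂ ≤ n₂' → V0 n₁ n₂ ≤ V0 n₁' n₂')
    (hmono1 : ∀ n₁ n₂ n₁' n₂', n₁ ≤ n₁' → n₂ ≤ n₂' → V1 n₁ n₂ ≤ V1 n₁' n₂')
    (hone : (1 : F) ∈ V0 0 0)
    (g : F) (hg : Small A O (g - 1))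
    (hpow : ∀ n₁ n₂, ∀ s ∈ V1 n₁ n₂, s ^ m * g ∈ V0 (m * n₁) (m * n₂))
    (hmul : ∀ n₁ n₂ n₁' n₂', ∀ s ∈ V1 n₁ n₂, ∀ η ∈ V0 n₁' n₂', s * η ∈ V1 (n₁ + n₁') (n₂ + n₂'))
    (N₁ : ℕ)
    (hBA0 : ∀ n, ∀ x ∈ V0 n 0, ∃ c : L, ∀ c' : L, ∀ a : L,
      Dvd O a (x - algebraMap L F c') → Dvd O a (x - algebraMap L F c))
    (hBA1 : ∀ K, N₁ ≤ K → ∀ x ∈ V1 K 0, ∃ x₀ ∈ V1 N₁ 0, ∀ u ∈ V1 N₁ 0, ∀ a : L,
      Dvd O a (x - u) → Dvd O a (x - x₀))
    (hBA1' : ∀ K, N₁ ≤ K → ∀ x ∈ V1 0 K, ∃ x₀ ∈ V1 0 N₁, ∀ u ∈ V1 0 N₁, ∀ a : L,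
      Dvd O a (x - u) → Dvd O a (x - x₀))
    (hres0 : ∀ n, ∀ u₁ ∈ V0 n 0, ∀ u₂ ∈ V0 0 n, u₁ ∈ O → Small A O (u₁ - u₂) →
      ∃ c : L, Small A O (u₁ - algebraMap L F c))
    (hres1 : ∀ K, N₁ ≤ K → ∀ u₁ ∈ V1 K 0, ∀ u₂ ∈ V1 N₁ K, u₁ ∈ O → Small A O (u₁ - u₂) →
      ∃ u₀ ∈ V1 N₁ 0, Small A O (u₁ - u₀))
    (hres1' : ∀ K, N₁ ≤ K → ∀ u₁ ∈ V1 0 K, ∀ u₂ ∈ V1 K N₁, u₁ ∈ O → Small A O (u₁ - u₂) →
      ∃ u₀ ∈ V1 0 N₁, Small A O (u₁ - u₀))
    {a : L} (ha : A.valuation a < 1) (ha0 : a ≠ 0) (h : Inv A O V1 N₁ a) :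
    Inv A O V1 N₁ (a ^ 2) := by
  obtain ⟨s₁, hs₁V, s₂, hs₂V, hs₁, hs₂, hd⟩ := h
  -- `m = k + 1`
  obtain ⟨k, rfl⟩ : ∃ k, m = k + 1 := by
    rcases m with _ | k
    · simp at hm
    · exact ⟨k, rfl⟩
  have haA : a ∈ A := (A.valuation_le_one_iff a).1 ha.le
  have haO : algebraMap L F a ∈ O := (hOA a).2 haA
  have haF : algebraMap L F a ≠ 0 := by simpa using ha0
  have hs₁O : s₁ ∈ O := mem_of_small_sub_one hOA hs₁
  have hs₂O : s₂ ∈ O := mem_of_small_sub_one hOA hs₂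
  have hgO : g ∈ O := mem_of_small_sub_one hOA hg
  obtain ⟨u, huO, hsu⟩ := hd
  have h1 : s₁ = s₂ + algebraMap L F a * u := by rw [← hsu]; ring
  -- binomial expansion inside `O`
  obtain ⟨B, hBO, h5⟩ : ∃ B ∈ O, s₁ ^ (k + 1) = s₂ ^ (k + 1)
      + ((k : F) + 1) * s₂ ^ k * (algebraMap L F a * u) + algebraMap L F a ^ 2 * B := by
    obtain ⟨B₀, hB₀⟩ := exists_add_pow_eq (⟨s₂, hs₂O⟩ : O) (⟨algebraMap L F a * u, O.mul_mem haO huO⟩ : O) k
    refine ⟨u ^ 2 * (B₀ : F), O.mul_mem (O.pow_mem huO 2) B₀.2, ?_⟩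
    have := congrArg (fun z : O => (z : F)) hB₀
    simp only [Subring.coe_add, Subring.coe_mul, Subring.coe_pow, Subring.coe_natCast,
      Subring.coe_one] at this
    rw [h1, this]; ring
  -- the two functions `φ_i = s_i ^ m * g`
  set φ₁ : F := s₁ ^ (k + 1) * g with hφ₁
  set φ₂ : F := s₂ ^ (k + 1) * g with hφ₂
  have hφ₁V : φ₁ ∈ V0 ((k + 1) * N₁) 0 := by
    have := hpow N₁ 0 s₁ hs₁V; simpa using this
  have hφ₂V : φ₂ ∈ V0 0 ((k + 1) * N₁) := by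
    have := hpow 0 N₁ s₂ hs₂V; simpa using this
  have hφ₁S : Small A O (φ₁ - 1) := small_mul_sub_one hOA (small_pow_sub_one hOA hs₁ _) hg
  have hφ₂S : Small A O (φ₂ - 1) := small_mul_sub_one hOA (small_pow_sub_one hOA hs₂ _) hg
  have hkO : ((k : F) + 1) ∈ O := O.add_mem (natCast_mem O k) O.one_mem
  have hφd : Dvd O a (φ₁ - φ₂) := by
    refine ⟨(((k : F) + 1) * s₂ ^ k * u + algebraMap L F a * B) * g,
      O.mul_mem (O.add_mem (O.mul_mem (O.mul_mem hkO (O.pow_mem hs₂O k)) huO)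
        (O.mul_mem haO hBO)) hgO, ?_⟩
    rw [hφ₁, hφ₂, h5]; ring
  -- the common constant `c`
  have hone' : (1 : F) ∈ V0 ((k + 1) * N₁) 0 :=
    hmono0 0 0 _ _ (Nat.zero_le _) le_rfl hone
  have hone'' : (1 : F) ∈ V0 0 ((k + 1) * N₁) :=
    hmono0 0 0 _ _ le_rfl (Nat.zero_le _) hone
  obtain ⟨c, hc⟩ := hBA0 _ φ₁ hφ₁V
  have hc1 : Dvd O a (φ₁ - algebraMap L F c) := by
    refine transfer A O hOA hval (Submodule.span L {(1 : F)}) (V0 ((k + 1) * N₁) 0)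
      (V0 0 ((k + 1) * N₁)) ?_ ?_ ?_ hφ₁V hφ₂V ?_ ?_ hφd
    · rw [Submodule.span_le]; simpa using hone'
    · rw [Submodule.span_le]; simpa using hone''
    · intro u₁ hu₁ u₂ hu₂ hu₁O hsm
      obtain ⟨c', hc'⟩ := hres0 _ u₁ hu₁ u₂ hu₂ hu₁O hsm
      refine ⟨algebraMap L F c', ?_, hc'⟩
      rw [Algebra.algebraMap_eq_smul_one]
      exact Submodule.smul_mem _ _ (Submodule.subset_span rfl)
    · rw [Algebra.algebraMap_eq_smul_one]
      exact Submodule.smul_mem _ _ (Submodule.subset_span rfl)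
    · intro u₀ hu₀ a' ha'
      obtain ⟨c', rfl⟩ := Submodule.mem_span_singleton.1 hu₀
      rw [← Algebra.algebraMap_eq_smul_one] at ha'
      exact hc c' a' ha'
  have hc2 : Dvd O a (φ₂ - algebraMap L F c) := by
    have := hc1.sub hφd
    have e : φ₁ - algebraMap L F c - (φ₁ - φ₂) = φ₂ - algebraMap L F c := by ring
    rwa [e] at this
  -- `c` is a unit of `A`
  have hcS : Small A O (algebraMap L F (c - 1)) := by
    have := hφ₁S.sub hOA (hc1.small ha)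
    have e : φ₁ - 1 - (φ₁ - algebraMap L F c) = algebraMap L F (c - 1) := by
      rw [map_sub, map_one]; ring
    rwa [e] at this
  have hvc1 : A.valuation (c - 1) < 1 := (small_algebraMap_iff hOA _).1 hcS
  have hvc : A.valuation c = 1 := by
    have h11 : A.valuation (c - 1) < A.valuation (1 : L) := by simpa using hvc1
    have := Valuation.map_add_eq_of_lt_left A.valuation h11
    simpa using this
  have hc0 : c ≠ 0 := by
    intro h0; rw [h0, map_zero] at hvc; exact zero_ne_one hvc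
  have hk0 : ((k + 1 : ℕ) : L) ≠ 0 := by
    intro h0; rw [h0, map_zero] at hm; exact zero_ne_one hm
  obtain ⟨ψ₁, hψ₁O, hψ₁⟩ := hc1
  obtain ⟨ψ₂, hψ₂O, hψ₂⟩ := hc2
  have hψ₁V : ψ₁ ∈ V0 ((k + 1) * N₁) 0 := by
    have e : ψ₁ = a⁻¹ • (φ₁ - c • (1 : F)) := by
      rw [Algebra.smul_def, Algebra.smul_def, mul_one, hψ₁, map_inv₀, ← mul_assoc,
        inv_mul_cancel₀ haF, one_mul]
    rw [e]
    exact Submodule.smul_mem _ _ (Submodule.sub_mem _ hφ₁V (Submodule.smul_mem _ _ hone'))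
  have hψ₂V : ψ₂ ∈ V0 0 ((k + 1) * N₁) := by
    have e : ψ₂ = a⁻¹ • (φ₂ - c • (1 : F)) := by
      rw [Algebra.smul_def, Algebra.smul_def, mul_one, hψ₂, map_inv₀, ← mul_assoc,
        inv_mul_cancel₀ haF, one_mul]
    rw [e]
    exact Submodule.smul_mem _ _ (Submodule.sub_mem _ hφ₂V (Submodule.smul_mem _ _ hone''))
  -- the unit `w = (m c)⁻¹`
  set w : L := (((k + 1 : ℕ) : L) * c)⁻¹ with hw
  have hvw : A.valuation w = 1 := by
    rw [hw, map_inv₀, map_mul, hm, hvc, one_mul, inv_one]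
  have hwA : w ∈ A := (A.valuation_le_one_iff w).1 hvw.le
  have hwO : algebraMap L F w ∈ O := (hOA w).2 hwA
  have h4 : algebraMap L F w * ((k : F) + 1) * algebraMap L F c = 1 := by
    have : w * ((k + 1 : ℕ) : L) * c = 1 := by
      rw [hw, mul_assoc, inv_mul_cancel₀ (mul_ne_zero hk0 hc0)]
    have := congrArg (algebraMap L F) this
    rw [map_mul, map_mul, map_natCast, map_one] at this
    push_cast at this
    exact this
  have h2 : s₁ ^ (k + 1) * g = algebraMap L F c + algebraMap L F a * ψ₁ := by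
    rw [← hψ₁]; ring
  have h3 : s₂ ^ (k + 1) * g = algebraMap L F c + algebraMap L F a * ψ₂ := by
    rw [← hψ₂]; ring
  -- the corrected sections
  set K : ℕ := N₁ + (k + 1) * N₁ with hK
  have hN₁K : N₁ ≤ K := Nat.le_add_right _ _
  set t₁ : F := s₁ * (1 - algebraMap L F a * algebraMap L F w * ψ₁) with ht₁
  set t₂ : F := s₂ * (1 - algebraMap L F a * algebraMap L F w * ψ₂) with ht₂
  have ht₁V : t₁ ∈ V1 K 0 := by
    have e : t₁ = s₁ - (a * w) • (s₁ * ψ₁) := by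
      rw [ht₁, Algebra.smul_def, map_mul]; ring
    rw [e]
    refine Submodule.sub_mem _ (hmono1 N₁ 0 K 0 hN₁K le_rfl hs₁V) (Submodule.smul_mem _ _ ?_)
    have := hmul N₁ 0 _ 0 s₁ hs₁V ψ₁ hψ₁V
    simpa [hK] using this
  have ht₂V : t₂ ∈ V1 0 K := by
    have e : t₂ = s₂ - (a * w) • (s₂ * ψ₂) := by
      rw [ht₂, Algebra.smul_def, map_mul]; ring
    rw [e]
    refine Submodule.sub_mem _ (hmono1 0 N₁ 0 K le_rfl hN₁K hs₂V) (Submodule.smul_mem _ _ ?_)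
    have := hmul 0 N₁ 0 _ s₂ hs₂V ψ₂ hψ₂V
    simpa [hK] using this
  have ht₁S : Small A O (t₁ - 1) := by
    have e : t₁ - 1 = (s₁ - 1) - algebraMap L F a * (algebraMap L F w * ψ₁ * s₁) := by
      rw [ht₁]; ring
    rw [e]
    exact hs₁.sub hOA ⟨a, ha, _, O.mul_mem (O.mul_mem hwO hψ₁O) hs₁O, rfl⟩
  have ht₂S : Small A O (t₂ - 1) := by
    have e : t₂ - 1 = (s₂ - 1) - algebraMap L F a * (algebraMap L F w * ψ₂ * s₂) := by
      rw [ht₂]; ring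
    rw [e]
    exact hs₂.sub hOA ⟨a, ha, _, O.mul_mem (O.mul_mem hwO hψ₂O) hs₂O, rfl⟩
  have hkey : Dvd O (a ^ 2) (t₁ - t₂) := by
    refine ⟨-(u * algebraMap L F w * ((k : F) + 1) * ψ₂ + u * ψ₁ * algebraMap L F w
        + s₂ * algebraMap L F w * B * g), ?_, ?_⟩
    · refine O.neg_mem (O.add_mem (O.add_mem ?_ ?_) ?_)
      · exact O.mul_mem (O.mul_mem (O.mul_mem huO hwO) hkO) hψ₂O
      · exact O.mul_mem (O.mul_mem huO hψ₁O) hwO
      · exact O.mul_mem (O.mul_mem (O.mul_mem hs₂O hwO) hBO) hgO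
    · rw [map_pow]
      exact newton_algebra s₁ s₂ u g ψ₁ ψ₂ (algebraMap L F c) (algebraMap L F a)
        (algebraMap L F w) B k h1 h2 h3 h4 h5
  have ha2 : A.valuation (a ^ 2) < 1 := by
    rw [map_pow]; exact pow_lt_one₀ zero_le ha two_ne_zero
  -- truncation
  obtain ⟨r₁, hr₁V, hr₁⟩ := hBA1 K hN₁K t₁ ht₁V
  obtain ⟨r₂, hr₂V, hr₂⟩ := hBA1' K hN₁K t₂ ht₂V
  have hd₁ : Dvd O (a ^ 2) (t₁ - r₁) :=
    transfer A O hOA hval (V1 N₁ 0) (V1 K 0) (V1 N₁ K) (hmono1 _ _ _ _ hN₁K le_rfl)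
      (hmono1 _ _ _ _ le_rfl (Nat.zero_le _)) (hres1 K hN₁K) ht₁V
      (hmono1 0 K N₁ K (Nat.zero_le _) le_rfl ht₂V) hr₁V hr₁ hkey
  have hd₂ : Dvd O (a ^ 2) (t₂ - r₂) := by
    refine transfer A O hOA hval (V1 0 N₁) (V1 0 K) (V1 K N₁) (hmono1 _ _ _ _ le_rfl hN₁K)
      (hmono1 _ _ _ _ (Nat.zero_le _) le_rfl) (hres1' K hN₁K) ht₂V
      (hmono1 K 0 K N₁ le_rfl (Nat.zero_le _) ht₁V) hr₂V hr₂ ?_
    have := hkey.neg
    rwa [neg_sub] at this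
  refine ⟨r₁, hr₁V, r₂, hr₂V, ?_, ?_, ?_⟩
  · have := ht₁S.sub hOA (hd₁.small ha2)
    have e : t₁ - 1 - (t₁ - r₁) = r₁ - 1 := by ring
    rwa [e] at this
  · have := ht₂S.sub hOA (hd₂.small ha2)
    have e : t₂ - 1 - (t₂ - r₂) = r₂ - 1 := by ring
    rwa [e] at this
  · have := (hkey.sub hd₁).add hd₂
    have e : t₁ - t₂ - (t₁ - r₁) + (t₂ - r₂) = r₁ - r₂ := by ring
    rwa [e] at this

/-- **Deformation lemma** (Newton iteration for an `m`-th root with pole control by two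
auxiliary divisors).  In the application `V0 n₁ n₂ = L(n₁E₁ + n₂E₂)`,
`V1 n₁ n₂ = L(D + n₁E₁ + n₂E₂)`, `g` trivialises `m • D`, and the conclusion says that
`L(D) = V1 N₁ 0 ⊓ V1 0 N₁` is nonzero, i.e. `D` is principal. -/
theorem exists_common_ne_zero
    (hOA : ∀ x : L, algebraMap L F x ∈ O ↔ x ∈ A)
    (hval : ∀ y : F, y ≠ 0 → ∃ c : L, c ≠ 0 ∧ algebraMap L F c * y ∈ O ∧
      ¬ Small A O (algebraMap L F c * y))
    (harch : ∀ a Δ : L, A.valuation a < 1 → Δ ≠ 0 → ∃ k : ℕ, A.valuation (a ^ k) < A.valuation Δ)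
    (m : ℕ) (hm : A.valuation (m : L) = 1)
    (V0 V1 : ℕ → ℕ → Submodule L F)
    (hmono0 : ∀ n₁ n₂ n₁' n₂', n₁ ≤ n₁' → n₂ ≤ n₂' → V0 n₁ n₂ ≤ V0 n₁' n₂')
    (hmono1 : ∀ n₁ n₂ n₁' n₂', n₁ ≤ n₁' → n₂ ≤ n₂' → V1 n₁ n₂ ≤ V1 n₁' n₂')
    (hone : (1 : F) ∈ V0 0 0)
    (g : F) (hg : Small A O (g - 1))
    (hpow : ∀ n₁ n₂, ∀ s ∈ V1 n₁ n₂, s ^ m * g ∈ V0 (m * n₁) (m * n₂))
    (hmul : ∀ n₁ n₂ n₁' n₂', ∀ s ∈ V1 n₁ n₂, ∀ η ∈ V0 n₁' n₂', s * η ∈ V1 (n₁ + n₁') (n₂ + n₂'))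
    (N₁ : ℕ)
    (hBA0 : ∀ n, ∀ x ∈ V0 n 0, ∃ c : L, ∀ c' : L, ∀ a : L,
      Dvd O a (x - algebraMap L F c') → Dvd O a (x - algebraMap L F c))
    (hBA1 : ∀ K, N₁ ≤ K → ∀ x ∈ V1 K 0, ∃ x₀ ∈ V1 N₁ 0, ∀ u ∈ V1 N₁ 0, ∀ a : L,
      Dvd O a (x - u) → Dvd O a (x - x₀))
    (hBA1' : ∀ K, N₁ ≤ K → ∀ x ∈ V1 0 K, ∃ x₀ ∈ V1 0 N₁, ∀ u ∈ V1 0 N₁, ∀ a : L,
      Dvd O a (x - u) → Dvd O a (x - x₀))
    (hres0 : ∀ n, ∀ u₁ ∈ V0 n 0, ∀ u₂ ∈ V0 0 n, u₁ ∈ O → Small A O (u₁ - u₂) →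
      ∃ c : L, Small A O (u₁ - algebraMap L F c))
    (hres1 : ∀ K, N₁ ≤ K → ∀ u₁ ∈ V1 K 0, ∀ u₂ ∈ V1 N₁ K, u₁ ∈ O → Small A O (u₁ - u₂) →
      ∃ u₀ ∈ V1 N₁ 0, Small A O (u₁ - u₀))
    (hres1' : ∀ K, N₁ ≤ K → ∀ u₁ ∈ V1 0 K, ∀ u₂ ∈ V1 K N₁, u₁ ∈ O → Small A O (u₁ - u₂) →
      ∃ u₀ ∈ V1 0 N₁, Small A O (u₁ - u₀))
    (hstart : ∃ s₁ ∈ V1 N₁ 0, ∃ s₂ ∈ V1 0 N₁, Small A O (s₁ - 1) ∧ Small A O (s₂ - 1))
    (hangle : (∀ s ∈ V1 N₁ 0, s ∈ V1 0 N₁ → s = 0) → ∃ Δ : L, Δ ≠ 0 ∧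
      ∀ s₁ ∈ V1 N₁ 0, ∀ s₂ ∈ V1 0 N₁, ∀ a : L,
        Dvd O a (s₁ - s₂) → Dvd O a (algebraMap L F Δ * s₁)) :
    ∃ s ∈ V1 N₁ 0, s ∈ V1 0 N₁ ∧ s ≠ 0 := by
  by_contra hcon
  have hzero : ∀ s ∈ V1 N₁ 0, s ∈ V1 0 N₁ → s = 0 := by
    intro s hs hs'
    by_contra hne
    exact hcon ⟨s, hs, hs', hne⟩
  obtain ⟨Δ, hΔ, hΔs⟩ := hangle hzero
  obtain ⟨s₁, hs₁V, s₂, hs₂V, hs₁, hs₂⟩ := hstart
  -- an element `≡ 1` is not small
  have hns : ∀ s : F, Small A O (s - 1) → ¬ Small A O s := by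
    intro s h1 h2
    have := h2.sub hOA h1
    rw [sub_sub_cancel] at this
    exact not_small_one hOA this
  have hne : s₁ - s₂ ≠ 0 := by
    intro h
    have h12 : s₁ = s₂ := sub_eq_zero.1 h
    have h0 : s₁ = 0 := hzero s₁ hs₁V (h12 ▸ hs₂V)
    apply hns s₁ hs₁
    rw [h0]; exact small_zero
  obtain ⟨a₀, ha₀, hd₀⟩ : Small A O (s₁ - s₂) := by
    have := hs₁.sub hOA hs₂
    have e : s₁ - 1 - (s₂ - 1) = s₁ - s₂ := by ring
    rwa [e] at this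
  have ha₀0 : a₀ ≠ 0 := by
    rintro rfl
    obtain ⟨o, _, ho⟩ := hd₀
    apply hne; rw [ho]; simp
  -- iterate
  have hiter : ∀ n : ℕ, Inv A O V1 N₁ (a₀ ^ (2 ^ n)) := by
    intro n
    induction n with
    | zero =>
      rw [pow_zero, pow_one]
      exact ⟨s₁, hs₁V, s₂, hs₂V, hs₁, hs₂, hd₀⟩
    | succ n ih =>
      have hlt : A.valuation (a₀ ^ (2 ^ n)) < 1 := by
        rw [map_pow]; exact pow_lt_one₀ zero_le ha₀ (by positivity)
      have := newton_step hOA hval m hm V0 V1 hmono0 hmono1 hone g hg hpow hmul N₁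
        hBA0 hBA1 hBA1' hres0 hres1 hres1' hlt (pow_ne_zero _ ha₀0) ih
      rwa [← pow_mul, ← pow_succ] at this
  obtain ⟨k, hk⟩ := harch a₀ Δ ha₀ hΔ
  obtain ⟨t₁, ht₁V, t₂, ht₂V, ht₁, -, hd⟩ := hiter k
  have h1 := hΔs t₁ ht₁V t₂ ht₂V _ hd
  have h2 : Dvd O (Δ⁻¹ * a₀ ^ (2 ^ k)) t₁ := by
    apply Dvd.of_smul hΔ
    rwa [← mul_assoc, mul_inv_cancel₀ hΔ, one_mul]
  apply hns t₁ ht₁
  refine ⟨_, ?_, h2⟩
  have hΔv : A.valuation Δ ≠ 0 := (Valuation.ne_zero_iff _).2 hΔ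
  have hle : A.valuation (a₀ ^ (2 ^ k)) ≤ A.valuation (a₀ ^ k) := by
    rw [map_pow, map_pow]
    exact pow_le_pow_of_le_one zero_le ha₀.le (Nat.lt_two_pow_self).le
  rw [map_mul, map_inv₀]
  calc (A.valuation Δ)⁻¹ * A.valuation (a₀ ^ (2 ^ k))
      ≤ (A.valuation Δ)⁻¹ * A.valuation (a₀ ^ k) := by gcongr
    _ < (A.valuation Δ)⁻¹ * A.valuation Δ := by
        exact mul_lt_mul_of_pos_left hk (inv_pos.2 (zero_lt_iff.2 hΔv))
    _ = 1 := inv_mul_cancel₀ hΔv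

end main

end Fermat.Agent.Lib.Red.Deform
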