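/-
# The lattice lemma (improvement procedure)

`L` an algebraically closed field, `A` a valuation subring of `L`, `V` a torsion-free module over
`L[X]`, `O ⊆ V` an `A[X]`-submodule on which the "Gauss units" `X - c` (`c ∈ A`) and `1 - t X`
(`t ∈ A`) act invertibly.  A family `β` in `V` is *orthonormal* if it lies in `O` and every
`L[X]`-combination of `β` lying in `O` has coefficients in `A[X]`.

**Theorem** (`exists_orthonormal_basis`).  Let `M ⊆ V` be an `L[X]`-submodule containing an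
orthonormal family `β` with `D • M ⊆ span β` for some `D ≠ 0`.  Then `M` has an orthonormal
`L[X]`-basis `β'` (same cardinality).  In particular (`exists_fg`) `M ∩ O = ⊕ A[X] β'_i` is a
finitely generated `A[X]`-module.

No hypothesis on the rank or discreteness of the valuation is needed: termination is by the
degree of `D` and by the number of "used" indices at each root of `D`.
-/
import Mathlib

set_option autoImplicit false

open Polynomial

namespace Fermat.Agent.Lib.Red.Lattice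

variable {L : Type*} [Field L] (A : ValuationSubring L)

/-- A polynomial with all coefficients in the valuation ring `A`. -/
def IsInt (e : L[X]) : Prop := ∀ j, e.coeff j ∈ A

variable {A}

theorem isInt_zero : IsInt A (0 : L[X]) := fun j => by rw [coeff_zero]; exact zero_mem A

theorem IsInt.add {e f : L[X]} (he : IsInt A e) (hf : IsInt A f) : IsInt A (e + f) := fun j => by
  rw [coeff_add]; exact add_mem (he j) (hf j)

theorem IsInt.sub {e f : L[X]} (he : IsInt A e) (hf : IsInt A f) : IsInt A (e - f) := fun j => by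
  rw [coeff_sub]; exact sub_mem (he j) (hf j)

theorem IsInt.neg {e : L[X]} (he : IsInt A e) : IsInt A (-e) := fun j => by
  rw [coeff_neg]; exact neg_mem (he j)

theorem isInt_C {a : L} (ha : a ∈ A) : IsInt A (C a) := fun j => by
  rw [coeff_C]; split_ifs
  · exact ha
  · exact zero_mem A

theorem isInt_one : IsInt A (1 : L[X]) := by
  rw [← C_1]; exact isInt_C (one_mem A)

theorem isInt_X : IsInt A (X : L[X]) := fun j => by
  rw [coeff_X]; split_ifs
  · exact one_mem A
  · exact zero_mem A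

theorem IsInt.mul {e f : L[X]} (he : IsInt A e) (hf : IsInt A f) : IsInt A (e * f) := fun j => by
  rw [coeff_mul]
  exact sum_mem fun x _ => mul_mem (he x.1) (hf x.2)

theorem isInt_X_sub_C {c : L} (hc : c ∈ A) : IsInt A (X - C c) := isInt_X.sub (isInt_C hc)

theorem isInt_one_sub_C_mul_X {t : L} (ht : t ∈ A) : IsInt A (1 - C t * X) :=
  isInt_one.sub ((isInt_C ht).mul isInt_X)

/-- Division by the Gauss unit `X - c`, `c ∈ A`. -/
theorem isInt_of_X_sub_C_mul {c : L} (hc : c ∈ A) {e : L[X]} (h : IsInt A ((X - C c) * e)) :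
    IsInt A e := by
  have key : ∀ k j : ℕ, e.natDegree + 1 ≤ j + k → e.coeff j ∈ A := by
    intro k
    induction k with
    | zero =>
      intro j hj
      rw [coeff_eq_zero_of_natDegree_lt (by omega)]
      exact zero_mem A
    | succ k ih =>
      intro j hj
      have h1 := ih (j + 1) (by omega)
      have h2 := h (j + 1)
      rw [coeff_X_sub_C_mul] at h2
      have h3 : e.coeff j = (e.coeff j - c * e.coeff (j + 1)) + c * e.coeff (j + 1) := by ring
      rw [h3]
      exact add_mem h2 (mul_mem hc h1)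
  exact fun j => key (e.natDegree + 1) j (by omega)

/-- Division by the Gauss unit `1 - t X`, `t ∈ A`. -/
theorem isInt_of_one_sub_C_mul_X_mul {t : L} (ht : t ∈ A) {e : L[X]}
    (h : IsInt A ((1 - C t * X) * e)) : IsInt A e := by
  have hexp : (1 - C t * X) * e = e - C t * (X * e) := by ring
  intro j
  induction j with
  | zero =>
    have h0 := h 0
    rw [hexp, coeff_sub, coeff_C_mul, coeff_X_mul_zero, mul_zero, sub_zero] at h0
    exact h0
  | succ j ih =>
    have h1 := h (j + 1)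
    rw [hexp, coeff_sub, coeff_C_mul, coeff_X_mul] at h1
    have h3 : e.coeff (j + 1) = (e.coeff (j + 1) - t * e.coeff j) + t * e.coeff j := by ring
    rw [h3]
    exact add_mem h1 (mul_mem ht ih)

variable (A)
variable {V : Type*} [AddCommGroup V] [Module L[X] V]

/-- An orthonormal family: it lies in `O`, and every `L[X]`-combination lying in `O` has
coefficients in `A[X]`. -/
def Orthonormal (O : AddSubgroup V) {n : ℕ} (β : Fin n → V) : Prop :=
  (∀ i, β i ∈ O) ∧ ∀ e : Fin n → L[X], ∑ i, e i • β i ∈ O → ∀ i, IsInt A (e i)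

/-- A "Gauss unit" for `O`: a polynomial over `A` which can be divided out in `A[X]` and which
acts invertibly on `O`. -/
structure IsGaussUnit (O : AddSubgroup V) (lam : L[X]) : Prop where
  isInt : IsInt A lam
  div : ∀ e : L[X], IsInt A (lam * e) → IsInt A e
  unit : ∀ v : V, lam • v ∈ O → v ∈ O

variable {A}

theorem sum_update_smul {n : ℕ} (β : Fin n → V) (i0 : Fin n) (w : V) (e : Fin n → L[X]) :
    ∑ i, e i • Function.update β i0 w i = ∑ i, e i • β i + e i0 • (w - β i0) := by
  have h : ∀ i, e i • Function.update β i0 w i =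
      e i • β i + (if i = i0 then e i0 • (w - β i0) else 0) := by
    intro i
    by_cases h : i = i0
    · subst h
      simp [smul_sub]
    · simp [h]
  rw [Finset.sum_congr rfl (fun i _ => h i), Finset.sum_add_distrib, Finset.sum_ite_eq']
  simp

/-- **The improvement step** preserves orthonormality. -/
theorem orthonormal_update {O : AddSubgroup V}
    (hO : ∀ g : L[X], IsInt A g → ∀ v ∈ O, g • v ∈ O)
    {n : ℕ} {β : Fin n → V} (hβ : Orthonormal A O β) (i0 : Fin n) (b : Fin n → L)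
    (hb0 : b i0 = 1) (hb : ∀ i, b i ∈ A) {lam : L[X]} (hlam : IsGaussUnit A O lam) {w : V}
    (hw : lam • w = ∑ i, C (b i) • β i) :
    Orthonormal A O (Function.update β i0 w) := by
  have hwO : w ∈ O := hlam.unit w (by
    rw [hw]
    exact sum_mem fun i _ => hO _ (isInt_C (hb i)) _ (hβ.1 i))
  refine ⟨fun i => ?_, fun e he i => ?_⟩
  · by_cases h : i = i0
    · subst h
      simpa using hwO
    · rw [Function.update_of_ne h]
      exact hβ.1 i
  · rw [sum_update_smul] at he
    have h1 := hO lam hlam.isInt _ he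
    have h2 : lam • (∑ i, e i • β i + e i0 • (w - β i0)) =
        ∑ i, (lam * e i + e i0 * C (b i) - (if i = i0 then lam * e i0 else 0)) • β i := by
      have h5 : ∀ i, (lam * e i + e i0 * C (b i) - (if i = i0 then lam * e i0 else 0)) • β i =
          lam • e i • β i + e i0 • C (b i) • β i - (if i = i0 then lam • e i0 • β i0 else 0) := by
        intro i
        by_cases h : i = i0
        · subst h
          simp [mul_smul]
        · simp [h, add_smul, mul_smul]
      rw [Finset.sum_congr rfl (fun i _ => h5 i), Finset.sum_sub_distrib, Finset.sum_add_distrib,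
        Finset.sum_ite_eq', if_pos (Finset.mem_univ _), ← Finset.smul_sum, ← Finset.smul_sum,
        ← hw, smul_add, smul_sub, smul_sub, smul_comm lam (e i0) w]
      abel
    rw [h2] at h1
    have h3 := hβ.2 _ h1
    have hi0 : IsInt A (e i0) := by
      have h4 := h3 i0
      simp only [if_true, hb0, C_1, mul_one, add_sub_cancel_left] at h4
      exact h4
    by_cases h : i = i0
    · subst h
      exact hi0
    · have h4 := h3 i
      simp only [if_neg h, sub_zero] at h4
      apply hlam.div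
      have h6 : lam * e i = (lam * e i + e i0 * C (b i)) - e i0 * C (b i) := by ring
      rw [h6]
      exact h4.sub (hi0.mul (isInt_C (hb i)))

theorem mem_span_update {n : ℕ} {β : Fin n → V} (i0 : Fin n) (b : Fin n → L) (hb0 : b i0 = 1)
    {lam : L[X]} {w : V} (hw : lam • w = ∑ i, C (b i) • β i) :
    β i0 ∈ Submodule.span L[X] (Set.range (Function.update β i0 w)) := by
  set S := Submodule.span L[X] (Set.range (Function.update β i0 w)) with hS
  have hwS : w ∈ S := Submodule.subset_span ⟨i0, by simp⟩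
  have hβS : ∀ i, i ≠ i0 → β i ∈ S := fun i hi =>
    Submodule.subset_span ⟨i, by rw [Function.update_of_ne hi]⟩
  have h1 : β i0 = lam • w - ∑ i, (if i = i0 then 0 else C (b i) • β i) := by
    rw [hw]
    have h : ∀ i, C (b i) • β i =
        (if i = i0 then C (b i) • β i else 0) + (if i = i0 then 0 else C (b i) • β i) := by
      intro i
      split_ifs <;> simp
    rw [Finset.sum_congr rfl (fun i _ => h i), Finset.sum_add_distrib, Finset.sum_ite_eq']
    simp [hb0]
  rw [h1]
  refine S.sub_mem (S.smul_mem _ hwS) (S.sum_mem fun i _ => ?_)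
  split_ifs with h
  · exact S.zero_mem
  · exact S.smul_mem _ (hβS i h)

theorem span_le_span_update {n : ℕ} {β : Fin n → V} (i0 : Fin n) (b : Fin n → L) (hb0 : b i0 = 1)
    {lam : L[X]} {w : V} (hw : lam • w = ∑ i, C (b i) • β i) :
    Submodule.span L[X] (Set.range β) ≤
      Submodule.span L[X] (Set.range (Function.update β i0 w)) := by
  rw [Submodule.span_le]
  rintro _ ⟨i, rfl⟩
  by_cases h : i = i0
  · subst h
    exact mem_span_update i b hb0 hw
  · exact Submodule.subset_span ⟨i, by rw [Function.update_of_ne h]⟩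

variable (A)

/-- The invariant of the inner loop at a root `c`: `Λ₀` is the lattice at the start of the loop,
`U` the set of indices already used. -/
structure Inv (O : AddSubgroup V) (M Λ₀ : Submodule L[X] V) (c : L) {n : ℕ}
    (U : Finset (Fin n)) (β : Fin n → V) : Prop where
  mem : ∀ i, β i ∈ M
  orth : Orthonormal A O β
  le : Λ₀ ≤ Submodule.span L[X] (Set.range β)
  tors : ∀ i, (X - C c) • β i ∈ Λ₀
  used : ∀ w ∈ M, (X - C c) • w ∈ Λ₀ → ∀ a : Fin n → L,
    (X - C c) • w = ∑ i, C (a i) • β i → ∀ i ∈ U, a i = 0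

variable {A}
variable [NoZeroSMulDivisors L[X] V]

/-- One improvement step of the inner loop. -/
theorem step {O : AddSubgroup V}
    (hO : ∀ g : L[X], IsInt A g → ∀ v ∈ O, g • v ∈ O)
    (hu1 : ∀ c ∈ A, ∀ v : V, (X - C c) • v ∈ O → v ∈ O)
    (hu2 : ∀ t ∈ A, ∀ v : V, (1 - C t * X) • v ∈ O → v ∈ O)
    {M Λ₀ : Submodule L[X] V} {c : L} {n : ℕ} {U : Finset (Fin n)} {β : Fin n → V}
    (h : Inv A O M Λ₀ c U β) {w : V} (hwM : w ∈ M) (hw : (X - C c) • w ∈ Λ₀)
    (hw' : w ∉ Submodule.span L[X] (Set.range β)) :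
    ∃ (i0 : Fin n) (β' : Fin n → V), i0 ∉ U ∧ Inv A O M Λ₀ c (insert i0 U) β' := by
  classical
  set S := Submodule.span L[X] (Set.range β) with hS
  have hβS : ∀ i, β i ∈ S := fun i => Submodule.subset_span ⟨i, rfl⟩
  obtain ⟨e, he⟩ := (Submodule.mem_span_range_iff_exists_fun L[X]).mp (h.le hw)
  obtain ⟨a, q, heq⟩ : ∃ (a : Fin n → L) (q : Fin n → L[X]),
      ∀ i, e i = C (a i) + (X - C c) * q i := by
    refine ⟨fun i => (e i).eval c, fun i => e i /ₘ (X - C c), fun i => ?_⟩
    have h1 := modByMonic_add_div (e i) (X - C c)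
    rw [modByMonic_X_sub_C_eq_C_eval] at h1
    exact h1.symm
  set w' : V := w - ∑ i, q i • β i with hw'def
  have hw'M : w' ∈ M := M.sub_mem hwM (M.sum_mem fun i _ => M.smul_mem _ (h.mem i))
  have hw'eq : (X - C c) • w' = ∑ i, C (a i) • β i := by
    rw [hw'def, smul_sub, ← he, Finset.smul_sum, ← Finset.sum_sub_distrib]
    refine Finset.sum_congr rfl fun i _ => ?_
    rw [heq i, add_smul, mul_smul]
    abel
  have hw'Λ : (X - C c) • w' ∈ Λ₀ := by
    rw [hw'def, smul_sub, Finset.smul_sum]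
    refine Λ₀.sub_mem hw (Λ₀.sum_mem fun i _ => ?_)
    rw [smul_comm]
    exact Λ₀.smul_mem _ (h.tors i)
  have hw'S : w' ∉ S := fun hc => hw' (by
    have h1 : w = w' + ∑ i, q i • β i := by
      rw [hw'def]
      abel
    rw [h1]
    exact S.add_mem hc (S.sum_mem fun i _ => S.smul_mem _ (hβS i)))
  have hXc : (X - C c : L[X]) ≠ 0 := X_sub_C_ne_zero c
  have ha0 : ∃ j, a j ≠ 0 := by
    by_contra hcon
    push Not at hcon
    have h1 : (X - C c) • w' = 0 := by
      rw [hw'eq]
      simp [hcon]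
    rcases smul_eq_zero.mp h1 with h0 | h0
    · exact hXc h0
    · exact hw'S (h0 ▸ S.zero_mem)
  obtain ⟨j0, hj0⟩ := ha0
  have hUa := h.used w' hw'M hw'Λ a hw'eq
  obtain ⟨i0, -, hi0⟩ := Finset.exists_max_image Finset.univ (fun i => A.valuation (a i))
    ⟨j0, Finset.mem_univ _⟩
  have hai0 : a i0 ≠ 0 := by
    intro h0
    have h1 := hi0 j0 (Finset.mem_univ _)
    rw [h0, map_zero] at h1
    exact hj0 ((map_eq_zero _).mp (le_antisymm h1 zero_le))
  have hi0U : i0 ∉ U := fun hU => hai0 (hUa i0 hU)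
  have hbA : ∀ i, a i / a i0 ∈ A := fun i => by
    rw [← A.valuation_le_one_iff, map_div₀]
    exact div_le_one_of_le₀ (hi0 i (Finset.mem_univ _)) zero_le
  obtain ⟨lam, ν, hlam, hν, hlamw⟩ : ∃ (lam : L[X]) (ν : L), IsGaussUnit A O lam ∧ ν ≠ 0 ∧
      lam • (C ν • w') = ∑ i, C (a i / a i0) • β i := by
    by_cases hc : c ∈ A
    · refine ⟨X - C c, (a i0)⁻¹, ⟨isInt_X_sub_C hc, fun e => isInt_of_X_sub_C_mul hc,
        hu1 c hc⟩, inv_ne_zero hai0, ?_⟩
      rw [smul_comm, hw'eq, Finset.smul_sum]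
      refine Finset.sum_congr rfl fun i _ => ?_
      rw [smul_smul, ← C_mul, div_eq_inv_mul]
    · have hc0 : c ≠ 0 := fun h0 => hc (h0 ▸ zero_mem A)
      have ht : c⁻¹ ∈ A := (A.mem_or_inv_mem c).resolve_left hc
      refine ⟨1 - C c⁻¹ * X, -c * (a i0)⁻¹, ⟨isInt_one_sub_C_mul_X ht,
        fun e => isInt_of_one_sub_C_mul_X_mul ht, hu2 c⁻¹ ht⟩,
        mul_ne_zero (neg_ne_zero.mpr hc0) (inv_ne_zero hai0), ?_⟩
      have hcc : (C c⁻¹ : L[X]) * C c = 1 := by
        rw [← C_mul, inv_mul_cancel₀ hc0, C_1]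
      have hfac : (1 - C c⁻¹ * X : L[X]) * C (-c * (a i0)⁻¹) = C ((a i0)⁻¹) * (X - C c) := by
        rw [C_mul, C_neg]
        linear_combination (C ((a i0)⁻¹) * X) * hcc
      rw [smul_smul, hfac, mul_smul, hw'eq, Finset.smul_sum]
      refine Finset.sum_congr rfl fun i _ => ?_
      rw [smul_smul, ← C_mul, div_eq_inv_mul]
  set w'' : V := C ν • w' with hw''
  have hCν : (C ν⁻¹ : L[X]) * C ν = 1 := by
    rw [← C_mul, inv_mul_cancel₀ hν, C_1]
  have hw''M : w'' ∈ M := M.smul_mem _ hw'M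
  have hw''S : w'' ∉ S := fun hc => hw'S (by
    have h1 : w' = C ν⁻¹ • w'' := by
      rw [hw'', smul_smul, hCν, one_smul]
    rw [h1]
    exact S.smul_mem _ hc)
  have hw''Λ : (X - C c) • w'' ∈ Λ₀ := by
    rw [hw'', smul_comm]
    exact Λ₀.smul_mem _ hw'Λ
  have hb0 : a i0 / a i0 = 1 := div_self hai0
  refine ⟨i0, Function.update β i0 w'', hi0U, ?_, ?_, ?_, ?_, ?_⟩
  · intro i
    by_cases hi : i = i0
    · subst hi
      simpa using hw''M
    · rw [Function.update_of_ne hi]
      exact h.mem i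
  · exact orthonormal_update hO h.orth i0 (fun i => a i / a i0) hb0 hbA hlam hlamw
  · exact h.le.trans (span_le_span_update i0 (fun i => a i / a i0) hb0 hlamw)
  · intro i
    by_cases hi : i = i0
    · subst hi
      simpa using hw''Λ
    · rw [Function.update_of_ne hi]
      exact h.tors i
  · intro w₁ hw₁M hw₁Λ a' ha' i hi
    rw [sum_update_smul] at ha'
    have ha'0 : a' i0 = 0 := by
      by_contra hne
      apply hw''S
      have h1 : C (a' i0) • w'' = (X - C c) • w₁ - ∑ i, C (a' i) • β i + C (a' i0) • β i0 := by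
        rw [ha', smul_sub]
        abel
      have h2 : w'' = C (a' i0)⁻¹ • (C (a' i0) • w'') := by
        rw [smul_smul, ← C_mul, inv_mul_cancel₀ hne, C_1, one_smul]
      rw [h2, h1]
      exact S.smul_mem _ (S.add_mem (S.sub_mem (h.le hw₁Λ)
        (S.sum_mem fun i _ => S.smul_mem _ (hβS i))) (S.smul_mem _ (hβS i0)))
    rw [ha'0, C_0, zero_smul, add_zero] at ha'
    rcases Finset.mem_insert.mp hi with rfl | hiU
    · exact ha'0
    · exact h.used w₁ hw₁M hw₁Λ a' ha' i hiU

/-- The inner loop: after at most `n` improvement steps the `(X - c)`-torsion layer of `M` over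
`Λ₀` is contained in the span of the orthonormal family. -/
theorem inner {O : AddSubgroup V}
    (hO : ∀ g : L[X], IsInt A g → ∀ v ∈ O, g • v ∈ O)
    (hu1 : ∀ c ∈ A, ∀ v : V, (X - C c) • v ∈ O → v ∈ O)
    (hu2 : ∀ t ∈ A, ∀ v : V, (1 - C t * X) • v ∈ O → v ∈ O)
    {M Λ₀ : Submodule L[X] V} {c : L} {n : ℕ} :
    ∀ (k : ℕ) (U : Finset (Fin n)) (β : Fin n → V), (Finset.univ \ U).card = k →
      Inv A O M Λ₀ c U β →
      ∃ β' : Fin n → V, (∀ i, β' i ∈ M) ∧ Orthonormal A O β' ∧
        Λ₀ ≤ Submodule.span L[X] (Set.range β') ∧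
        ∀ w ∈ M, (X - C c) • w ∈ Λ₀ → w ∈ Submodule.span L[X] (Set.range β') := by
  classical
  intro k
  induction k with
  | zero =>
    intro U β hk h
    refine ⟨β, h.mem, h.orth, h.le, fun w hwM hw => ?_⟩
    by_contra hw'
    obtain ⟨i0, β', hi0, -⟩ := step hO hu1 hu2 h hwM hw hw'
    have h1 : i0 ∈ Finset.univ \ U := by simp [hi0]
    rw [Finset.card_eq_zero.mp hk] at h1
    exact absurd h1 (Finset.notMem_empty _)
  | succ k ih =>
    intro U β hk h
    by_cases hall : ∀ w ∈ M, (X - C c) • w ∈ Λ₀ → w ∈ Submodule.span L[X] (Set.range β)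
    · exact ⟨β, h.mem, h.orth, h.le, hall⟩
    · push Not at hall
      obtain ⟨w, hwM, hw, hw'⟩ := hall
      obtain ⟨i0, β', hi0, h'⟩ := step hO hu1 hu2 h hwM hw hw'
      refine ih (insert i0 U) β' ?_ h'
      have h1 : Finset.univ \ insert i0 U = (Finset.univ \ U).erase i0 := by
        ext x
        simp only [Finset.mem_sdiff, Finset.mem_univ, Finset.mem_insert, true_and,
          Finset.mem_erase]
        tauto
      rw [h1, Finset.card_erase_of_mem (by simp [hi0]), hk]
      rfl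

/-- **The lattice lemma.** -/
theorem exists_orthonormal_basis [IsAlgClosed L] {O : AddSubgroup V}
    (hO : ∀ g : L[X], IsInt A g → ∀ v ∈ O, g • v ∈ O)
    (hu1 : ∀ c ∈ A, ∀ v : V, (X - C c) • v ∈ O → v ∈ O)
    (hu2 : ∀ t ∈ A, ∀ v : V, (1 - C t * X) • v ∈ O → v ∈ O)
    (M : Submodule L[X] V) {n : ℕ} (β : Fin n → V) (hβM : ∀ i, β i ∈ M)
    (hβ : Orthonormal A O β) (D : L[X]) (hD : D ≠ 0)
    (hDM : ∀ v ∈ M, D • v ∈ Submodule.span L[X] (Set.range β)) :
    ∃ β' : Fin n → V, (∀ i, β' i ∈ M) ∧ Orthonormal A O β' ∧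
      M ≤ Submodule.span L[X] (Set.range β') := by
  have key : ∀ (d : ℕ) (β : Fin n → V) (D : L[X]), D ≠ 0 → D.natDegree = d →
      (∀ i, β i ∈ M) → Orthonormal A O β →
      (∀ v ∈ M, D • v ∈ Submodule.span L[X] (Set.range β)) →
      ∃ β' : Fin n → V, (∀ i, β' i ∈ M) ∧ Orthonormal A O β' ∧
        M ≤ Submodule.span L[X] (Set.range β') := by
    intro d
    induction d using Nat.strong_induction_on with
    | _ d ih =>
      intro β D hD hd hβM hβ hDM
      by_cases hdeg : D.natDegree = 0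
      · have hC := eq_C_of_natDegree_eq_zero hdeg
        have hc0 : D.coeff 0 ≠ 0 := fun h0 => hD (by rw [hC, h0, C_0])
        refine ⟨β, hβM, hβ, fun v hv => ?_⟩
        have h1 := hDM v hv
        have h2 : v = C (D.coeff 0)⁻¹ • (C (D.coeff 0) • v) := by
          rw [smul_smul, ← C_mul, inv_mul_cancel₀ hc0, C_1, one_smul]
        rw [h2, ← hC]
        exact Submodule.smul_mem _ _ h1
      · have hdeg' : D.degree ≠ 0 := fun h0 =>
          hdeg (natDegree_eq_of_degree_eq_some h0)
        obtain ⟨c, hc⟩ := IsAlgClosed.exists_root D hdeg'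
        obtain ⟨D', rfl⟩ := dvd_iff_isRoot.mpr hc
        have hD' : D' ≠ 0 := fun h0 => hD (by rw [h0, mul_zero])
        have hnd : ((X - C c) * D').natDegree = D'.natDegree + 1 := by
          rw [natDegree_mul (X_sub_C_ne_zero c) hD', natDegree_X_sub_C, add_comm]
        have hinv : Inv A O M (Submodule.span L[X] (Set.range β)) c (∅ : Finset (Fin n)) β :=
          ⟨hβM, hβ, le_refl _,
            fun i => Submodule.smul_mem _ _ (Submodule.subset_span ⟨i, rfl⟩),
            fun _ _ _ _ _ i hi => absurd hi (Finset.notMem_empty i)⟩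
        obtain ⟨β₁, hβ₁M, hβ₁, -, hβ₁t⟩ := inner hO hu1 hu2 _ ∅ β rfl hinv
        refine ih D'.natDegree (by omega) β₁ D' hD' rfl hβ₁M hβ₁ (fun v hv => ?_)
        apply hβ₁t _ (M.smul_mem _ hv)
        rw [smul_smul]
        exact hDM v hv
  exact key D.natDegree β D hD rfl hβM hβ hDM

/-- **Finite generation of `M ∩ O` over `A[X]`** (free form). -/
theorem exists_fg [IsAlgClosed L] {O : AddSubgroup V}
    (hO : ∀ g : L[X], IsInt A g → ∀ v ∈ O, g • v ∈ O)
    (hu1 : ∀ c ∈ A, ∀ v : V, (X - C c) • v ∈ O → v ∈ O)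
    (hu2 : ∀ t ∈ A, ∀ v : V, (1 - C t * X) • v ∈ O → v ∈ O)
    (M : Submodule L[X] V) {n : ℕ} (β : Fin n → V) (hβM : ∀ i, β i ∈ M)
    (hβ : Orthonormal A O β) (D : L[X]) (hD : D ≠ 0)
    (hDM : ∀ v ∈ M, D • v ∈ Submodule.span L[X] (Set.range β)) :
    ∃ β' : Fin n → V, (∀ i, β' i ∈ M) ∧ (∀ i, β' i ∈ O) ∧
      ∀ v ∈ M, v ∈ O → ∃ e : Fin n → L[X], (∀ i, IsInt A (e i)) ∧ v = ∑ i, e i • β' i := by
  obtain ⟨β', hβ'M, hβ', hle⟩ := exists_orthonormal_basis hO hu1 hu2 M β hβM hβ D hD hDM
  refine ⟨β', hβ'M, hβ'.1, fun v hvM hvO => ?_⟩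
  obtain ⟨e, he⟩ := (Submodule.mem_span_range_iff_exists_fun L[X]).mp (hle hvM)
  exact ⟨e, hβ'.2 e (by rw [he]; exact hvO), he.symm⟩

/-! ### Concrete form: a field `F ⊇ L` and a transcendental `x ∈ F` -/

section Field

variable {F : Type*} [Field F] [Algebra L F]

/-- The lattice lemma for an `L[x]`-stable additive subgroup `M` of a field `F ⊇ L(x)`
(`e ∈ L[X]` acts by multiplication with `aeval x e`). -/
theorem exists_orthonormal_basis_field [IsAlgClosed L] (A : ValuationSubring L) (x : F)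
    (hx : ∀ e : L[X], e ≠ 0 → aeval x e ≠ 0) (O : AddSubgroup F)
    (hOA : ∀ a ∈ A, ∀ v ∈ O, algebraMap L F a * v ∈ O) (hOx : ∀ v ∈ O, x * v ∈ O)
    (hu1 : ∀ c ∈ A, ∀ v : F, (x - algebraMap L F c) * v ∈ O → v ∈ O)
    (hu2 : ∀ t ∈ A, ∀ v : F, (1 - algebraMap L F t * x) * v ∈ O → v ∈ O)
    (M : AddSubgroup F) (hM : ∀ (e : L[X]) (v : F), v ∈ M → aeval x e * v ∈ M)
    {n : ℕ} (β : Fin n → F) (hβM : ∀ i, β i ∈ M) (hβO : ∀ i, β i ∈ O)
    (hβ : ∀ e : Fin n → L[X], ∑ i, aeval x (e i) * β i ∈ O → ∀ i j, (e i).coeff j ∈ A)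
    (D : L[X]) (hD : D ≠ 0)
    (hDM : ∀ v ∈ M, ∃ e : Fin n → L[X], aeval x D * v = ∑ i, aeval x (e i) * β i) :
    ∃ β' : Fin n → F, (∀ i, β' i ∈ M) ∧ (∀ i, β' i ∈ O) ∧
      (∀ e : Fin n → L[X], ∑ i, aeval x (e i) * β' i ∈ O → ∀ i j, (e i).coeff j ∈ A) ∧
      (∀ v ∈ M, ∃ e : Fin n → L[X], v = ∑ i, aeval x (e i) * β' i) ∧
      (∀ v ∈ M, v ∈ O → ∃ e : Fin n → L[X], (∀ i j, (e i).coeff j ∈ A) ∧
        v = ∑ i, aeval x (e i) * β' i) := by
  let _ : Module L[X] F := Module.compHom F (aeval x : L[X] →ₐ[L] F).toRingHom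
  have hsmul : ∀ (e : L[X]) (v : F), e • v = aeval x e * v := fun _ _ => rfl
  have _ : NoZeroSMulDivisors L[X] F := ⟨fun {e v} h => by
    rw [hsmul] at h
    rcases mul_eq_zero.mp h with h0 | h0
    · left
      by_contra hne
      exact hx e hne h0
    · exact Or.inr h0⟩
  have hxpow : ∀ (j : ℕ) (v : F), v ∈ O → x ^ j * v ∈ O := by
    intro j
    induction j with
    | zero => intro v hv; simpa using hv
    | succ j ih =>
      intro v hv
      rw [pow_succ, mul_assoc]
      exact ih _ (hOx v hv)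
  have hO : ∀ g : L[X], IsInt A g → ∀ v ∈ O, g • v ∈ O := by
    intro g hg v hv
    rw [hsmul, aeval_eq_sum_range, Finset.sum_mul]
    refine sum_mem fun j _ => ?_
    rw [Algebra.smul_def, mul_assoc]
    exact hOA _ (hg j) _ (hxpow j v hv)
  have hu1' : ∀ c ∈ A, ∀ v : F, (X - C c : L[X]) • v ∈ O → v ∈ O := by
    intro c hc v hv
    rw [hsmul, map_sub, aeval_X, aeval_C] at hv
    exact hu1 c hc v hv
  have hu2' : ∀ t ∈ A, ∀ v : F, (1 - C t * X : L[X]) • v ∈ O → v ∈ O := by
    intro t ht v hv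
    rw [hsmul, map_sub, map_one, map_mul, aeval_X, aeval_C] at hv
    exact hu2 t ht v hv
  let M' : Submodule L[X] F :=
    { carrier := M
      add_mem' := fun ha hb => M.add_mem ha hb
      zero_mem' := M.zero_mem
      smul_mem' := fun e v hv => hM e v hv }
  have hβ' : Orthonormal A O β := ⟨hβO, fun e he i j => hβ e he i j⟩
  have hDM' : ∀ v ∈ M', D • v ∈ Submodule.span L[X] (Set.range β) := by
    intro v hv
    obtain ⟨e, he⟩ := hDM v hv
    rw [hsmul, he]
    exact Submodule.sum_mem _ fun i _ =>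
      Submodule.smul_mem _ (e i) (Submodule.subset_span ⟨i, rfl⟩)
  obtain ⟨β₁, hβ₁M, hβ₁, hle⟩ :=
    exists_orthonormal_basis hO hu1' hu2' M' β hβM hβ' D hD hDM'
  have hrep : ∀ v ∈ M, ∃ e : Fin n → L[X], v = ∑ i, aeval x (e i) * β₁ i := by
    intro v hv
    obtain ⟨e, he⟩ := (Submodule.mem_span_range_iff_exists_fun L[X]).mp (hle hv)
    exact ⟨e, he.symm⟩
  refine ⟨β₁, hβ₁M, hβ₁.1, fun e he i j => hβ₁.2 e he i j, hrep, fun v hvM hvO => ?_⟩
  obtain ⟨e, he⟩ := hrep v hvM
  have he' : ∑ i, e i • β₁ i = v := he.symm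
  exact ⟨e, fun i j => hβ₁.2 e (by rw [he']; exact hvO) i j, he⟩

end Field

end Fermat.Agent.Lib.Red.Lattice
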