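import Mathlib

/-!
# Lattices in finite-dimensional subspaces of a "coordinatised" normed space

`L` a field with a valuation subring `A`, `F` an `L`-vector space with a family of coordinate
functionals `lam j : F →ₗ[L] L` (in the applications: the `q`-expansion coefficients, for one
or two `q`-expansions).  An element is *integral* if all its coordinates lie in `A`; `Bd a y`
means "`‖y‖ ≤ |a|`" (all coordinates have valuation `≤ v a`).  Under the attainment hypothesis
`Att` (every nonzero `y` has a multiple which is integral with a unit coordinate) every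
finite-dimensional subspace has an *echelon basis* (orthonormal basis with dual coordinates).
Consequences: best approximations exist and two subspaces with zero intersection make a
bounded angle.  Mathlib only.
-/

set_option autoImplicit false

namespace Fermat.Agent.Lib.Red.CoordLat

open Finset

variable {L F : Type*} [Field L] [AddCommGroup F] [Module L F]
variable (A : ValuationSubring L) {J : Type*} (lam : J → F →ₗ[L] L)

/-- "`‖y‖ ≤ |a|`": all coordinates have valuation at most `v a`. -/
def Bd (a : L) (y : F) : Prop := ∀ j, A.valuation (lam j y) ≤ A.valuation a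

/-- Attainment: every nonzero element has a multiple of norm exactly one, the norm being
attained at some coordinate. -/
def Att : Prop := ∀ y : F, y ≠ 0 → ∃ c : L, c ≠ 0 ∧ Bd A lam 1 (c • y) ∧
  ∃ j, A.valuation (lam j (c • y)) = 1

variable {A lam}

theorem Bd.add {a : L} {y y' : F} (h : Bd A lam a y) (h' : Bd A lam a y') :
    Bd A lam a (y + y') := by
  intro j
  rw [map_add]
  exact le_trans (Valuation.map_add _ _ _) (max_le (h j) (h' j))

theorem Bd.neg {a : L} {y : F} (h : Bd A lam a y) : Bd A lam a (-y) := by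
  intro j
  rw [map_neg, Valuation.map_neg]
  exact h j

theorem Bd.sub {a : L} {y y' : F} (h : Bd A lam a y) (h' : Bd A lam a y') :
    Bd A lam a (y - y') := by
  rw [sub_eq_add_neg]; exact h.add h'.neg

theorem bd_zero (a : L) : Bd A lam a (0 : F) := by
  intro j; simp

theorem Bd.smul {a : L} {y : F} (c : L) (h : Bd A lam a y) : Bd A lam (c * a) (c • y) := by
  intro j
  rw [map_smul, smul_eq_mul, map_mul, map_mul]
  gcongr
  exact h j

theorem Bd.mono {a b : L} {y : F} (hab : A.valuation a ≤ A.valuation b) (h : Bd A lam a y) :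
    Bd A lam b y := fun j => le_trans (h j) hab

/-- a combination with bounded coefficients of integral elements is bounded -/
theorem bd_sum {n : ℕ} {a : L} (c : Fin n → L) (b : Fin n → F)
    (hc : ∀ i, A.valuation (c i) ≤ A.valuation a) (hb : ∀ i, Bd A lam 1 (b i)) :
    Bd A lam a (∑ i, c i • b i) := by
  intro j
  rw [map_sum]
  refine Valuation.map_sum_le _ fun i _ => ?_
  rw [map_smul, smul_eq_mul, map_mul]
  calc A.valuation (c i) * A.valuation (lam j (b i))
      ≤ A.valuation a * A.valuation (1 : L) := by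
        gcongr
        · exact hc i
        · exact hb i j
    _ = A.valuation a := by rw [map_one, mul_one]

variable (A lam)

/-- An echelon basis of a subspace: integral vectors `b i` and pivot coordinates `p i` with
`lam (p i) (b l) = δ_il`, spanning `V`. -/
structure Echelon (V : Submodule L F) (n : ℕ) where
  b : Fin n → F
  p : Fin n → J
  mem : ∀ i, b i ∈ V
  int : ∀ i, Bd A lam 1 (b i)
  dual : ∀ i l, lam (p i) (b l) = if i = l then 1 else 0
  expand : ∀ y ∈ V, y = ∑ i, lam (p i) y • b i

variable {A lam}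

/-- Existence of echelon bases, by induction on the dimension. -/
theorem exists_echelon_aux (hatt : Att A lam) :
    ∀ (n : ℕ) (V : Submodule L F) [FiniteDimensional L V], Module.finrank L V = n →
      Nonempty (Echelon A lam V n) := by
  intro n
  induction n with
  | zero =>
    intro V _ hV
    have hbot : V = ⊥ := Submodule.finrank_eq_zero.1 hV
    refine ⟨⟨Fin.elim0, Fin.elim0, fun i => i.elim0, fun i => i.elim0, fun i => i.elim0, ?_⟩⟩
    intro y hy
    rw [hbot, Submodule.mem_bot] at hy
    simp [hy]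
  | succ n ih =>
    intro V _ hV
    -- a nonzero vector
    have hne : V ≠ ⊥ := by
      intro h
      rw [h, finrank_bot] at hV
      exact Nat.succ_ne_zero n hV.symm
    obtain ⟨y, hyV, hy0⟩ := Submodule.exists_mem_ne_zero_of_ne_bot hne
    obtain ⟨c, hc, hint, j₀, hj₀⟩ := hatt y hy0
    set d : L := lam j₀ (c • y) with hd
    have hd0 : d ≠ 0 := by
      intro h
      rw [h, map_zero] at hj₀
      exact zero_ne_one hj₀
    -- normalised vector with `lam j₀ = 1`
    set y₁ : F := d⁻¹ • (c • y) with hy₁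
    have hy₁V : y₁ ∈ V := V.smul_mem _ (V.smul_mem _ hyV)
    have hy₁int : Bd A lam 1 y₁ := by
      have := hint.smul d⁻¹
      refine this.mono ?_
      rw [mul_one, map_inv₀, hj₀, inv_one, map_one]
    have hy₁j : lam j₀ y₁ = 1 := by
      rw [hy₁, map_smul, smul_eq_mul, inv_mul_cancel₀ hd0]
    -- the hyperplane
    set V' : Submodule L F := V ⊓ LinearMap.ker (lam j₀) with hV'
    have hV'le : V' ≤ V := inf_le_left
    have hdecomp : ∀ z ∈ V, z - lam j₀ z • y₁ ∈ V' := by
      intro z hz
      refine Submodule.mem_inf.2 ⟨V.sub_mem hz (V.smul_mem _ hy₁V), LinearMap.mem_ker.2 ?_⟩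
      rw [map_sub, map_smul, hy₁j, smul_eq_mul, mul_one, sub_self]
    have hfin' : FiniteDimensional L V' := Submodule.finiteDimensional_of_le hV'le
    have hrank : Module.finrank L V' = n := by
      -- `V = V' ⊕ L y₁`
      have hsup : V' ⊔ Submodule.span L {y₁} = V := by
        apply le_antisymm
        · exact sup_le hV'le ((Submodule.span_singleton_le_iff_mem _ _).2 hy₁V)
        · intro z hz
          have : z = (z - lam j₀ z • y₁) + lam j₀ z • y₁ := by abel
          rw [this]
          exact Submodule.add_mem_sup (hdecomp z hz)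
            (Submodule.smul_mem _ _ (Submodule.mem_span_singleton_self _))
      have hinf : V' ⊓ Submodule.span L {y₁} = ⊥ := by
        rw [eq_bot_iff]
        intro z hz
        obtain ⟨hz1, hz2⟩ := Submodule.mem_inf.1 hz
        obtain ⟨t, rfl⟩ := Submodule.mem_span_singleton.1 hz2
        have hker : lam j₀ (t • y₁) = 0 := LinearMap.mem_ker.1 (Submodule.mem_inf.1 hz1).2
        rw [map_smul, hy₁j, smul_eq_mul, mul_one] at hker
        rw [hker, zero_smul]; exact Submodule.zero_mem _
      have hy₁0 : y₁ ≠ 0 := by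
        intro h; rw [h, map_zero] at hy₁j; exact zero_ne_one hy₁j
      have h1 := Submodule.finrank_sup_add_finrank_inf_eq V' (Submodule.span L {y₁})
      rw [hsup, hinf, finrank_bot, add_zero, finrank_span_singleton hy₁0, hV] at h1
      omega
    obtain ⟨E⟩ := ih V' hrank
    -- clear the other pivots from `y₁`
    set y₂ : F := y₁ - ∑ i, lam (E.p i) y₁ • E.b i with hy₂
    have hsumV' : ∑ i, lam (E.p i) y₁ • E.b i ∈ V' :=
      Submodule.sum_mem _ fun i _ => Submodule.smul_mem _ _ (E.mem i)
    have hy₂V : y₂ ∈ V := V.sub_mem hy₁V (hV'le hsumV')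
    have hy₂j : lam j₀ y₂ = 1 := by
      have h0 : lam j₀ (∑ i, lam (E.p i) y₁ • E.b i) = 0 :=
        LinearMap.mem_ker.1 (Submodule.mem_inf.1 hsumV').2
      rw [hy₂, map_sub, h0, sub_zero, hy₁j]
    have hy₂p : ∀ i, lam (E.p i) y₂ = 0 := by
      intro i
      rw [hy₂, map_sub, map_sum]
      have : ∑ l, lam (E.p i) (lam (E.p l) y₁ • E.b l) = lam (E.p i) y₁ := by
        rw [Finset.sum_eq_single i]
        · rw [map_smul, E.dual, if_pos rfl, smul_eq_mul, mul_one]
        · intro l _ hl
          rw [map_smul, E.dual, if_neg (Ne.symm hl), smul_zero]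
        · intro h; exact absurd (Finset.mem_univ i) h
      rw [this, sub_self]
    have hy₂int : Bd A lam 1 y₂ := by
      refine hy₁int.sub (bd_sum _ _ (fun i => ?_) E.int)
      exact hy₁int (E.p i)
    have hbj : ∀ l, lam j₀ (E.b l) = 0 := fun l =>
      LinearMap.mem_ker.1 (Submodule.mem_inf.1 (E.mem l)).2
    refine ⟨⟨Fin.cons y₂ E.b, Fin.cons j₀ E.p, ?_, ?_, ?_, ?_⟩⟩
    · intro i
      refine Fin.cases ?_ (fun i => ?_) i
      · simpa using hy₂V
      · simpa using hV'le (E.mem i)
    · intro i
      refine Fin.cases ?_ (fun i => ?_) i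
      · simpa using hy₂int
      · simpa using E.int i
    · intro i l
      refine Fin.cases ?_ (fun i => ?_) i
      · refine Fin.cases ?_ (fun l => ?_) l
        · simpa using hy₂j
        · simp only [Fin.cons_zero, Fin.cons_succ]
          rw [hbj l, if_neg (Fin.succ_ne_zero l).symm]
      · refine Fin.cases ?_ (fun l => ?_) l
        · simp only [Fin.cons_zero, Fin.cons_succ]
          rw [hy₂p i, if_neg (Fin.succ_ne_zero i)]
        · simp only [Fin.cons_succ]
          rw [E.dual i l]
          simp [Fin.succ_inj]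
    · intro z hz
      rw [Fin.sum_univ_succ]
      simp only [Fin.cons_zero, Fin.cons_succ]
      have h3 : ∀ i, lam (E.p i) (z - lam j₀ z • y₂) = lam (E.p i) z := by
        intro i
        rw [map_sub, map_smul, hy₂p i, smul_zero, sub_zero]
      -- `z - lam j₀ z • y₂ ∈ V'` and expand it
      have hz' : z - lam j₀ z • y₂ ∈ V' := by
        refine Submodule.mem_inf.2 ⟨V.sub_mem hz (V.smul_mem _ hy₂V), LinearMap.mem_ker.2 ?_⟩
        rw [map_sub, map_smul, hy₂j, smul_eq_mul, mul_one, sub_self]
      have h4 := E.expand _ hz'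
      simp only [h3] at h4
      rw [← h4]; abel

theorem exists_echelon (hatt : Att A lam) (V : Submodule L F) [FiniteDimensional L V] :
    ∃ n : ℕ, Nonempty (Echelon A lam V n) :=
  ⟨_, exists_echelon_aux hatt _ V rfl⟩

namespace Echelon

variable {V : Submodule L F} {n : ℕ} (E : Echelon A lam V n)

/-- The projection onto `V` along the pivot coordinates. -/
def proj : F →ₗ[L] F := ∑ i, (lam (E.p i)).smulRight (E.b i)

theorem proj_apply (x : F) : E.proj x = ∑ i, lam (E.p i) x • E.b i := by
  simp [proj, LinearMap.sum_apply]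

theorem proj_mem (x : F) : E.proj x ∈ V := by
  rw [proj_apply]
  exact Submodule.sum_mem _ fun i _ => Submodule.smul_mem _ _ (E.mem i)

theorem proj_of_mem {y : F} (hy : y ∈ V) : E.proj y = y := by
  rw [proj_apply]; exact (E.expand y hy).symm

theorem bd_proj {a : L} {x : F} (h : Bd A lam a x) : Bd A lam a (E.proj x) := by
  rw [proj_apply]
  exact bd_sum _ _ (fun i => h (E.p i)) E.int

theorem coord_sum (c : Fin n → L) (i : Fin n) : lam (E.p i) (∑ l, c l • E.b l) = c i := by
  rw [map_sum, Finset.sum_eq_single i]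
  · rw [map_smul, E.dual, if_pos rfl, smul_eq_mul, mul_one]
  · intro l _ hl
    rw [map_smul, E.dual, if_neg (Ne.symm hl), smul_zero]
  · intro h; exact absurd (Finset.mem_univ i) h

theorem bd_iff {a : L} {y : F} (hy : y ∈ V) :
    Bd A lam a y ↔ ∀ i, A.valuation (lam (E.p i) y) ≤ A.valuation a := by
  constructor
  · intro h i; exact h _
  · intro h
    rw [E.expand y hy]
    exact bd_sum _ _ h E.int

end Echelon

/-- **Best approximation**: every `x` has a best approximation in a finite-dimensional
subspace `U`. -/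
theorem exists_best (hatt : Att A lam) (U : Submodule L F) [FiniteDimensional L U] (x : F) :
    ∃ x₀ ∈ U, ∀ u ∈ U, ∀ a : L, Bd A lam a (x - u) → Bd A lam a (x - x₀) := by
  obtain ⟨n, ⟨E⟩⟩ := exists_echelon hatt U
  refine ⟨E.proj x, E.proj_mem x, fun u hu a h => ?_⟩
  have h1 : Bd A lam a (E.proj (x - u)) := E.bd_proj h
  rw [map_sub, E.proj_of_mem hu] at h1
  have : x - E.proj x = (x - u) - (E.proj x - u) := by abel
  rw [this]
  exact h.sub h1

/-- **Bounded angle**: two finite-dimensional subspaces with zero intersection. -/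
theorem exists_angle (hatt : Att A lam) (U₁ U₂ : Submodule L F) [FiniteDimensional L U₁]
    [FiniteDimensional L U₂] (hU : U₁ ⊓ U₂ = ⊥) :
    ∃ Δ : L, Δ ≠ 0 ∧ ∀ s₁ ∈ U₁, ∀ s₂ ∈ U₂, ∀ a : L,
      Bd A lam a (s₁ - s₂) → Bd A lam a (Δ • s₁) := by
  classical
  obtain ⟨n₂, ⟨E₂⟩⟩ := exists_echelon hatt U₂
  set π₂ : F →ₗ[L] F := LinearMap.id - E₂.proj with hπ₂
  have hπ₂app : ∀ x, π₂ x = x - E₂.proj x := fun x => by simp [hπ₂]
  have hπ₂bd : ∀ (a : L) (x : F), Bd A lam a x → Bd A lam a (π₂ x) := by
    intro a x h; rw [hπ₂app]; exact h.sub (E₂.bd_proj h)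
  have hπ₂U : ∀ s ∈ U₂, π₂ s = 0 := by
    intro s hs; rw [hπ₂app, E₂.proj_of_mem hs, sub_self]
  have hπ₂ker : ∀ s, π₂ s = 0 → s ∈ U₂ := by
    intro s hs
    rw [hπ₂app, sub_eq_zero] at hs
    rw [hs]; exact E₂.proj_mem s
  set U₁' : Submodule L F := U₁.map π₂ with hU₁'
  obtain ⟨n', ⟨E'⟩⟩ := exists_echelon hatt U₁'
  have hex : ∀ l, ∃ t ∈ U₁, π₂ t = E'.b l := fun l => by
    have h := E'.mem l
    exact Submodule.mem_map.1 h
  choose t htU ht using hex
  have hsc : ∀ l, ∃ c : L, c ≠ 0 ∧ Bd A lam 1 (c • t l) := by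
    intro l
    by_cases h0 : t l = 0
    · exact ⟨1, one_ne_zero, by rw [h0, smul_zero]; exact bd_zero 1⟩
    · obtain ⟨c, hc, hb, _⟩ := hatt (t l) h0
      exact ⟨c, hc, hb⟩
  choose c hc hcb using hsc
  -- a common scaling
  obtain ⟨Δ, hΔ, hΔb⟩ : ∃ Δ : L, Δ ≠ 0 ∧ ∀ l, Bd A lam 1 (Δ • t l) := by
    by_cases hn : Nonempty (Fin n')
    · obtain ⟨l₀, -, hmin⟩ := Finset.exists_min_image (Finset.univ : Finset (Fin n'))
        (fun l => A.valuation (c l)) Finset.univ_nonempty
      refine ⟨c l₀, hc l₀, fun l => ?_⟩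
      have : c l₀ • t l = (c l₀ / c l) • (c l • t l) := by
        rw [smul_smul, div_mul_cancel₀ _ (hc l)]
      rw [this]
      refine ((hcb l).smul (c l₀ / c l)).mono ?_
      rw [mul_one, map_one, map_div₀]
      exact div_le_one_of_le₀ (hmin l (Finset.mem_univ l)) zero_le
    · exact ⟨1, one_ne_zero, fun l => (hn ⟨l⟩).elim⟩
  refine ⟨Δ, hΔ, fun s₁ hs₁ s₂ hs₂ a h => ?_⟩
  have h1 : Bd A lam a (π₂ s₁) := by
    have := hπ₂bd a _ h
    rwa [map_sub, hπ₂U s₂ hs₂, sub_zero] at this
  have hmem : π₂ s₁ ∈ U₁' := Submodule.mem_map_of_mem hs₁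
  have hexp := E'.expand _ hmem
  have hcoef : ∀ l, A.valuation (lam (E'.p l) (π₂ s₁)) ≤ A.valuation a := fun l => h1 _
  -- `s₁ = ∑ c'_l • t l`
  have hs₁eq : s₁ = ∑ l, lam (E'.p l) (π₂ s₁) • t l := by
    have hdiff : s₁ - ∑ l, lam (E'.p l) (π₂ s₁) • t l ∈ U₁ ⊓ U₂ := by
      refine Submodule.mem_inf.2 ⟨U₁.sub_mem hs₁ (Submodule.sum_mem _ fun l _ =>
        Submodule.smul_mem _ _ (htU l)), hπ₂ker _ ?_⟩
      rw [map_sub, map_sum]
      simp only [map_smul, ht]
      rw [← hexp, sub_self]
    rw [hU, Submodule.mem_bot, sub_eq_zero] at hdiff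
    exact hdiff
  have : Δ • s₁ = ∑ l, lam (E'.p l) (π₂ s₁) • (Δ • t l) := by
    conv_lhs => rw [hs₁eq]
    rw [Finset.smul_sum]
    exact Finset.sum_congr rfl fun l _ => smul_comm _ _ _
  rw [this]
  exact bd_sum _ _ hcoef hΔb

/-- the coordinates separate points -/
theorem eq_zero_of_coords (hatt : Att A lam) {y : F} (h : ∀ j, lam j y = 0) : y = 0 := by
  by_contra hy
  obtain ⟨c, _, _, j, hj⟩ := hatt y hy
  rw [map_smul, h j, smul_zero, map_zero] at hj
  exact zero_ne_one hj

end Fermat.Agent.Lib.Red.CoordLat
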