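import Mathlib
import Fermat.Agent.Lib.Red.Deform
import Fermat.Agent.Lib.Red.CoordLat

/-!
# Lattices `V ∩ O` and their reductions

Bridge between the coordinate description of `Lib/Red/CoordLat.lean` and the `Dvd / Small`
calculus of `Lib/Red/Deform.lean` for a subring `O` of a field `F ⊇ L`:
* `dvd_iff_bd`, `hval_of_att` : the hypotheses of the deformation lemma;
* `exists_best_dvd`, `exists_angle_dvd` : (BA) and (ANGLE) of the deformation lemma;
* `redSub V` : the reduction of the lattice `V ∩ O`, a `k`-subspace of the special fibre, and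
  `finrank_redSub : finrank k (redSub V) = finrank L V`.
-/

set_option autoImplicit false

namespace Fermat.Agent.Lib.Red.CoordLat

open Deform

variable {L F : Type*} [Field L] [Field F] [Algebra L F]
variable {A : ValuationSubring L} {O : Subring F} {J : Type*} {lam : J → F →ₗ[L] L}

theorem dvd_iff_bd (hatt : Att A lam) (hO : ∀ y : F, y ∈ O ↔ Bd A lam 1 y) (a : L) (y : F) :
    Dvd O a y ↔ Bd A lam a y := by
  constructor
  · rintro ⟨o, ho, rfl⟩
    have := ((hO o).1 ho).smul a
    rwa [mul_one, Algebra.smul_def] at this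
  · intro h
    by_cases ha : a = 0
    · subst ha
      have hy : y = 0 := by
        apply eq_zero_of_coords hatt
        intro j
        have := h j
        rw [map_zero] at this
        exact (Valuation.zero_iff _).1 (le_antisymm this zero_le)
      rw [hy]; exact dvd_zero 0
    · refine ⟨a⁻¹ • y, (hO _).2 ?_, ?_⟩
      · have := h.smul a⁻¹
        rwa [inv_mul_cancel₀ ha] at this
      · rw [← Algebra.smul_def, smul_smul, mul_inv_cancel₀ ha, one_smul]

theorem hval_of_att (hatt : Att A lam) (hO : ∀ y : F, y ∈ O ↔ Bd A lam 1 y) :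
    ∀ y : F, y ≠ 0 → ∃ c : L, c ≠ 0 ∧ algebraMap L F c * y ∈ O ∧
      ¬ Small A O (algebraMap L F c * y) := by
  intro y hy
  obtain ⟨c, hc, hb, j, hj⟩ := hatt y hy
  refine ⟨c, hc, ?_, ?_⟩
  · rw [← Algebra.smul_def]; exact (hO _).2 hb
  · rintro ⟨a, ha, hd⟩
    rw [← Algebra.smul_def] at hd
    have := (dvd_iff_bd hatt hO a _).1 hd j
    rw [hj] at this
    exact absurd ha (not_lt.2 this)

theorem exists_best_dvd (hatt : Att A lam) (hO : ∀ y : F, y ∈ O ↔ Bd A lam 1 y)
    (U : Submodule L F) [FiniteDimensional L U] (x : F) :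
    ∃ x₀ ∈ U, ∀ u ∈ U, ∀ a : L, Dvd O a (x - u) → Dvd O a (x - x₀) := by
  obtain ⟨x₀, hx₀, h⟩ := exists_best hatt U x
  exact ⟨x₀, hx₀, fun u hu a hd =>
    (dvd_iff_bd hatt hO a _).2 (h u hu a ((dvd_iff_bd hatt hO a _).1 hd))⟩

theorem exists_angle_dvd (hatt : Att A lam) (hO : ∀ y : F, y ∈ O ↔ Bd A lam 1 y)
    (U₁ U₂ : Submodule L F) [FiniteDimensional L U₁] [FiniteDimensional L U₂]
    (hU : U₁ ⊓ U₂ = ⊥) :
    ∃ Δ : L, Δ ≠ 0 ∧ ∀ s₁ ∈ U₁, ∀ s₂ ∈ U₂, ∀ a : L,
      Dvd O a (s₁ - s₂) → Dvd O a (algebraMap L F Δ * s₁) := by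
  obtain ⟨Δ, hΔ, h⟩ := exists_angle hatt U₁ U₂ hU
  refine ⟨Δ, hΔ, fun s₁ hs₁ s₂ hs₂ a hd => ?_⟩
  rw [← Algebra.smul_def]
  exact (dvd_iff_bd hatt hO a _).2 (h s₁ hs₁ s₂ hs₂ a ((dvd_iff_bd hatt hO a _).1 hd))

/-- `finrank V = n` for an echelon basis of length `n`. -/
theorem Echelon.finrank_eq {V : Submodule L F} {n : ℕ} (E : Echelon A lam V n) :
    Module.finrank L V = n := by
  classical
  let e : V ≃ₗ[L] (Fin n → L) :=
    { toFun := fun y i => lam (E.p i) (y : F)
      map_add' := fun y z => by ext i; simp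
      map_smul' := fun c y => by ext i; simp
      invFun := fun c => ⟨∑ i, c i • E.b i,
        Submodule.sum_mem _ fun i _ => Submodule.smul_mem _ _ (E.mem i)⟩
      left_inv := fun y => by
        apply Subtype.ext
        exact (E.expand y y.2).symm
      right_inv := fun c => by
        ext i
        exact E.coord_sum c i }
  rw [e.finrank_eq, Module.finrank_fin_fun]

section reduction

variable {k Ft : Type*} [Field k] [CommRing Ft] [Algebra k Ft]

/-- The reduction of the lattice `V ∩ O`. -/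
def redSub (hOA : ∀ x : L, algebraMap L F x ∈ O ↔ x ∈ A) (red : O →+* Ft) (π : A →+* k)
    (hπ : Function.Surjective π)
    (hconst : ∀ a : A, red ⟨algebraMap L F (a : L), (hOA _).2 a.2⟩ = algebraMap k Ft (π a))
    (V : Submodule L F) : Submodule k Ft where
  carrier := {t | ∃ y : O, (y : F) ∈ V ∧ red y = t}
  add_mem' := by
    rintro _ _ ⟨y, hy, rfl⟩ ⟨z, hz, rfl⟩
    exact ⟨y + z, V.add_mem hy hz, map_add _ _ _⟩
  zero_mem' := ⟨0, V.zero_mem, map_zero _⟩
  smul_mem' := by
    rintro κ _ ⟨y, hy, rfl⟩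
    obtain ⟨a, rfl⟩ := hπ κ
    refine ⟨⟨algebraMap L F (a : L), (hOA _).2 a.2⟩ * y, ?_, ?_⟩
    · show algebraMap L F (a : L) * (y : F) ∈ V
      rw [← Algebra.smul_def]; exact V.smul_mem _ hy
    · rw [map_mul, hconst, Algebra.smul_def]

theorem mem_redSub (hOA : ∀ x : L, algebraMap L F x ∈ O ↔ x ∈ A) (red : O →+* Ft)
    (π : A →+* k) (hπ : Function.Surjective π)
    (hconst : ∀ a : A, red ⟨algebraMap L F (a : L), (hOA _).2 a.2⟩ = algebraMap k Ft (π a))
    (V : Submodule L F) (t : Ft) :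
    t ∈ redSub hOA red π hπ hconst V ↔ ∃ y : O, (y : F) ∈ V ∧ red y = t := Iff.rfl

theorem redSub_mono (hOA : ∀ x : L, algebraMap L F x ∈ O ↔ x ∈ A) (red : O →+* Ft)
    (π : A →+* k) (hπ : Function.Surjective π)
    (hconst : ∀ a : A, red ⟨algebraMap L F (a : L), (hOA _).2 a.2⟩ = algebraMap k Ft (π a))
    {V W : Submodule L F} (h : V ≤ W) :
    redSub hOA red π hπ hconst V ≤ redSub hOA red π hπ hconst W := by
  rintro t ⟨y, hy, rfl⟩
  exact ⟨y, h hy, rfl⟩

/-- **Dimension of the reduced lattice**: `dim_k red(V ∩ O) = dim_L V`. -/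
theorem finrank_redSub (hatt : Att A lam) (hO : ∀ y : F, y ∈ O ↔ Bd A lam 1 y)
    (hOA : ∀ x : L, algebraMap L F x ∈ O ↔ x ∈ A) (red : O →+* Ft) (π : A →+* k)
    (hπ : Function.Surjective π) (hπker : ∀ a : A, π a = 0 ↔ A.valuation (a : L) < 1)
    (hconst : ∀ a : A, red ⟨algebraMap L F (a : L), (hOA _).2 a.2⟩ = algebraMap k Ft (π a))
    (hker : ∀ y : O, red y = 0 ↔ Small A O (y : F))
    (V : Submodule L F) [FiniteDimensional L V] :
    Module.finrank k (redSub hOA red π hπ hconst V) = Module.finrank L V := by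
  classical
  obtain ⟨n, ⟨E⟩⟩ := exists_echelon hatt V
  rw [E.finrank_eq]
  -- the basis vectors as elements of `O`
  have hbO : ∀ i, E.b i ∈ O := fun i => (hO _).2 (E.int i)
  set bO : Fin n → O := fun i => ⟨E.b i, hbO i⟩ with hbOdef
  set cO : A → O := fun a => ⟨algebraMap L F (a : L), (hOA _).2 a.2⟩ with hcO
  set β : Fin n → Ft := fun i => red (bO i) with hβ
  -- reduction of an `A`-combination
  have hcomb : ∀ a : Fin n → A,
      red (∑ i, cO (a i) * bO i) = ∑ i, π (a i) • β i := by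
    intro a
    rw [map_sum]
    refine Finset.sum_congr rfl fun i _ => ?_
    rw [map_mul, hconst, Algebra.smul_def]
  have hcoe : ∀ a : Fin n → A,
      ((∑ i, cO (a i) * bO i : O) : F) = ∑ i, (a i : L) • E.b i := by
    intro a
    rw [AddSubmonoidClass.coe_finsetSum]
    refine Finset.sum_congr rfl fun i _ => ?_
    show algebraMap L F (a i : L) * E.b i = _
    rw [Algebra.smul_def]
  -- linear independence
  have hind : LinearIndependent k β := by
    rw [Fintype.linearIndependent_iff]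
    intro κ hκ i
    choose a ha using fun i => hπ (κ i)
    have h0 : red (∑ i, cO (a i) * bO i) = 0 := by
      rw [hcomb]; simp only [ha]; exact hκ
    obtain ⟨a₀, ha₀, hd⟩ := (hker _).1 h0
    have hb := (dvd_iff_bd hatt hO a₀ _).1 hd (E.p i)
    rw [hcoe, E.coord_sum] at hb
    have : π (a i) = 0 := (hπker _).2 (lt_of_le_of_lt hb ha₀)
    rw [← ha i, this]
  -- span
  have hspan : redSub hOA red π hπ hconst V = Submodule.span k (Set.range β) := by
    apply le_antisymm
    · rintro t ⟨y, hy, rfl⟩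
      -- coordinates of `y` lie in `A`
      have hyb : Bd A lam 1 (y : F) := (hO _).1 y.2
      have hcA : ∀ i, lam (E.p i) (y : F) ∈ A := fun i => by
        have := hyb (E.p i)
        rw [map_one] at this
        exact (A.valuation_le_one_iff _).1 this
      set a : Fin n → A := fun i => ⟨lam (E.p i) (y : F), hcA i⟩ with hadef
      have hy' : y = ∑ i, cO (a i) * bO i := by
        apply Subtype.ext
        rw [hcoe]
        exact E.expand _ hy
      rw [hy', hcomb]
      exact Submodule.sum_mem _ fun i _ =>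
        Submodule.smul_mem _ _ (Submodule.subset_span ⟨i, rfl⟩)
    · rw [Submodule.span_le]
      rintro _ ⟨i, rfl⟩
      exact ⟨bO i, E.mem i, rfl⟩
  rw [hspan, finrank_span_eq_card hind, Fintype.card_fin]

end reduction

end Fermat.Agent.Lib.Red.CoordLat
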