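import Mathlib
import Fermat.Agent.Lib.Red.Deform
import Fermat.Agent.Lib.Red.CoordLat
import Fermat.Agent.Lib.Red.CoordLatRed

/-!
# Orthonormal bases of finite-dimensional subspaces (`HasOrtho`)

`L ⊆ F` fields, `A` a valuation subring of `L`, `O` a subring of `F` with `O ∩ L = A`.
`HasOrtho A O V` : the finite-dimensional `L`-subspace `V` of `F` has an orthonormal basis, i.e.
the lattice `V ∩ O` is `⊕ A b i`.  This is the interface ("LAT") consumed by the nodal
deformation argument; all the consumer lemmas of `CoordLat` / `CoordLatRed` are restated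
relative to it:

* `HasOrtho.mono` : subspaces of a space with an orthonormal basis have one;
* `HasOrtho.exists_best_dvd`, `HasOrtho.exists_angle_dvd` : best approximation and the angle
  lemma in the `Dvd` vocabulary of `Deform`;
* `HasOrtho.finrank_redSub` : `dim_k red(V ∩ O) = dim_L V`;
* `HasOrtho.mul_unit` : transport along multiplication by a unit of `O`;
* `hasOrtho_of_polyBasis` : source — an orthonormal `L[x]`-basis of an `L[x]`-module `M ⊆ F`
  (the conclusion of the lattice lemma `Lib/Red/Lattice.lean`) gives orthonormal `L`-bases of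
  all finite-dimensional `L`-subspaces of `M`.
-/

set_option autoImplicit false

namespace Fermat.Agent.Lib.Red.CoordLat

open Deform Polynomial

variable {L F : Type*} [Field L] [Field F] [Algebra L F]

/-- `V` has an orthonormal basis with respect to `O`: `V ∩ O = ⊕ A b i`. -/
def HasOrtho (A : ValuationSubring L) (O : Subring F) (V : Submodule L F) : Prop :=
  ∃ (n : ℕ) (b : Fin n → F), LinearIndependent L b ∧ Submodule.span L (Set.range b) = V ∧
    (∀ i, b i ∈ O) ∧ ∀ c : Fin n → L, ∑ i, c i • b i ∈ O → ∀ i, c i ∈ A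

variable {A : ValuationSubring L} {O : Subring F}

theorem HasOrtho.finiteDimensional {V : Submodule L F} (h : HasOrtho A O V) :
    FiniteDimensional L V := by
  obtain ⟨n, b, -, hspan, -, -⟩ := h
  rw [← hspan]
  exact FiniteDimensional.span_of_finite L (Set.finite_range b)

/-- Coordinates on a subspace with an orthonormal basis. -/
theorem HasOrtho.exists_coords (hOA : ∀ x : L, algebraMap L F x ∈ O ↔ x ∈ A)
    {W : Submodule L F} (h : HasOrtho A O W) :
    ∃ (n : ℕ) (lam : Fin n → W →ₗ[L] L), Att A lam ∧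
      ∀ y : W, (y : F) ∈ O ↔ Bd A lam 1 y := by
  classical
  obtain ⟨n, b, hli, rfl, hbO, hint⟩ := h
  let B : Module.Basis (Fin n) L (Submodule.span L (Set.range b)) := Module.Basis.span hli
  have hB : ∀ i, ((B i : Submodule.span L (Set.range b)) : F) = b i := fun i =>
    congrArg Subtype.val (Module.Basis.span_apply hli i)
  have hexp : ∀ y : Submodule.span L (Set.range b), (y : F) = ∑ i, B.repr y i • b i := by
    intro y
    conv_lhs => rw [← B.sum_repr y]
    rw [AddSubmonoidClass.coe_finsetSum]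
    refine Finset.sum_congr rfl fun i _ => ?_
    rw [Submodule.coe_smul, hB]
  refine ⟨n, fun i => B.coord i, ?_, ?_⟩
  · intro y hy
    have hne : ∃ i, B.repr y i ≠ 0 := by
      by_contra hcon
      push Not at hcon
      apply hy
      apply B.repr.injective
      ext i
      simp [hcon i]
    obtain ⟨i1, hi1⟩ := hne
    obtain ⟨i0, -, hmax⟩ := Finset.exists_max_image Finset.univ
      (fun i => A.valuation (B.repr y i)) ⟨i1, Finset.mem_univ _⟩
    have hi0 : B.repr y i0 ≠ 0 := by
      intro h0
      have := hmax i1 (Finset.mem_univ _)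
      rw [h0, map_zero] at this
      exact hi1 ((Valuation.zero_iff _).1 (le_antisymm this zero_le))
    refine ⟨(B.repr y i0)⁻¹, inv_ne_zero hi0, ?_, i0, ?_⟩
    · intro j
      show A.valuation (B.coord j ((B.repr y i0)⁻¹ • y)) ≤ A.valuation 1
      rw [map_smul, Module.Basis.coord_apply, smul_eq_mul, map_mul, map_inv₀, map_one]
      have hv0 : A.valuation (B.repr y i0) ≠ 0 := (Valuation.ne_zero_iff _).2 hi0
      rw [inv_mul_le_iff₀ (zero_lt_iff.2 hv0), mul_one]
      exact hmax j (Finset.mem_univ _)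
    · show A.valuation (B.coord i0 ((B.repr y i0)⁻¹ • y)) = 1
      rw [map_smul, Module.Basis.coord_apply, smul_eq_mul, inv_mul_cancel₀ hi0, map_one]
  · intro y
    constructor
    · intro hyO j
      show A.valuation (B.coord j y) ≤ A.valuation 1
      rw [map_one, Module.Basis.coord_apply]
      have := hint (fun i => B.repr y i) (by rw [← hexp]; exact hyO) j
      exact (A.valuation_le_one_iff _).2 this
    · intro hbd
      rw [hexp]
      refine O.sum_mem fun i _ => ?_
      rw [Algebra.smul_def]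
      refine O.mul_mem ((hOA _).2 ?_) (hbO i)
      have := hbd i
      rw [map_one] at this
      exact (A.valuation_le_one_iff _).1 this

/-- `Dvd` versus `Bd` on a coordinatised subspace. -/
theorem dvd_iff_bd_rel {W : Submodule L F} {J : Type*} {lam : J → W →ₗ[L] L}
    (hatt : Att A lam) (hO : ∀ y : W, (y : F) ∈ O ↔ Bd A lam 1 y) (a : L) (y : W) :
    Dvd O a (y : F) ↔ Bd A lam a y := by
  constructor
  · rintro ⟨o, ho, e⟩
    by_cases ha : a = 0
    · subst ha
      have hy : y = 0 := by
        apply Subtype.ext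
        rw [e]; simp
      rw [hy]; exact bd_zero 0
    · have hoW : o ∈ W := by
        have : o = a⁻¹ • (y : F) := by
          rw [e, ← Algebra.smul_def, smul_smul, inv_mul_cancel₀ ha, one_smul]
        rw [this]; exact W.smul_mem _ y.2
      have hb : Bd A lam 1 (⟨o, hoW⟩ : W) := (hO ⟨o, hoW⟩).1 ho
      have hy : y = a • (⟨o, hoW⟩ : W) := by
        apply Subtype.ext
        rw [Submodule.coe_smul, e, Algebra.smul_def]
      rw [hy]
      have := hb.smul a
      rwa [mul_one] at this
  · intro h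
    by_cases ha : a = 0
    · subst ha
      have hy : y = 0 := by
        apply eq_zero_of_coords hatt
        intro j
        have := h j
        rw [map_zero] at this
        exact (Valuation.zero_iff _).1 (le_antisymm this zero_le)
      rw [hy]; exact dvd_zero 0
    · refine ⟨((a⁻¹ • y : W) : F), (hO _).2 ?_, ?_⟩
      · have := h.smul a⁻¹
        rwa [inv_mul_cancel₀ ha] at this
      · rw [Submodule.coe_smul, ← Algebra.smul_def, smul_smul, mul_inv_cancel₀ ha, one_smul]

/-- Subspaces of a space with an orthonormal basis have an orthonormal basis. -/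
theorem HasOrtho.mono (hOA : ∀ x : L, algebraMap L F x ∈ O ↔ x ∈ A)
    {V W : Submodule L F} (h : HasOrtho A O W) (hVW : V ≤ W) : HasOrtho A O V := by
  classical
  have := h.finiteDimensional
  obtain ⟨n, lam, hatt, hO⟩ := h.exists_coords hOA
  obtain ⟨r, ⟨E⟩⟩ := exists_echelon hatt (V.comap W.subtype)
  have hcoe : ∀ c : Fin r → L, ((∑ i, c i • E.b i : W) : F) = ∑ i, c i • (E.b i : F) := by
    intro c
    rw [AddSubmonoidClass.coe_finsetSum]
    exact Finset.sum_congr rfl fun i _ => Submodule.coe_smul _ _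
  refine ⟨r, fun i => (E.b i : F), ?_, ?_, fun i => (hO _).2 (E.int i), ?_⟩
  · rw [Fintype.linearIndependent_iff]
    intro c hc i
    have h0 : (∑ i, c i • E.b i : W) = 0 := by
      apply Subtype.ext
      rw [hcoe, hc]; rfl
    have := E.coord_sum c i
    rw [h0, map_zero] at this
    exact this.symm
  · apply le_antisymm
    · rw [Submodule.span_le]
      rintro _ ⟨i, rfl⟩
      exact E.mem i
    · intro y hy
      have hy' : (⟨y, hVW hy⟩ : W) ∈ V.comap W.subtype := hy
      have := congrArg (fun z : W => (z : F)) (E.expand _ hy')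
      simp only at this
      rw [hcoe] at this
      rw [this]
      exact Submodule.sum_mem _ fun i _ =>
        Submodule.smul_mem _ _ (Submodule.subset_span ⟨i, rfl⟩)
  · intro c hc i
    have hb : Bd A lam 1 (∑ i, c i • E.b i : W) := (hO _).1 (by rw [hcoe]; exact hc)
    have := hb (E.p i)
    rw [E.coord_sum, map_one] at this
    exact (A.valuation_le_one_iff _).1 this

/-- **Best approximation** relative to a space with an orthonormal basis. -/
theorem HasOrtho.exists_best_dvd (hOA : ∀ x : L, algebraMap L F x ∈ O ↔ x ∈ A)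
    {W : Submodule L F} (h : HasOrtho A O W) (U : Submodule L F) (hU : U ≤ W)
    (x : F) (hx : x ∈ W) :
    ∃ x₀ ∈ U, ∀ u ∈ U, ∀ a : L, Dvd O a (x - u) → Dvd O a (x - x₀) := by
  have := h.finiteDimensional
  obtain ⟨n, lam, hatt, hO⟩ := h.exists_coords hOA
  obtain ⟨x₀, hx₀, hb⟩ := exists_best hatt (U.comap W.subtype) ⟨x, hx⟩
  refine ⟨x₀, hx₀, fun u hu a hd => ?_⟩
  have h1 : Bd A lam a ((⟨x, hx⟩ : W) - ⟨u, hU hu⟩) :=
    (dvd_iff_bd_rel hatt hO a _).1 hd
  exact (dvd_iff_bd_rel hatt hO a _).2 (hb ⟨u, hU hu⟩ hu a h1)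

/-- **Angle lemma** relative to a space with an orthonormal basis. -/
theorem HasOrtho.exists_angle_dvd (hOA : ∀ x : L, algebraMap L F x ∈ O ↔ x ∈ A)
    {W : Submodule L F} (h : HasOrtho A O W) (U₁ U₂ : Submodule L F) (hU₁ : U₁ ≤ W)
    (hU₂ : U₂ ≤ W) (hU : U₁ ⊓ U₂ = ⊥) :
    ∃ Δ : L, Δ ≠ 0 ∧ ∀ s₁ ∈ U₁, ∀ s₂ ∈ U₂, ∀ a : L,
      Dvd O a (s₁ - s₂) → Dvd O a (algebraMap L F Δ * s₁) := by
  have := h.finiteDimensional
  obtain ⟨n, lam, hatt, hO⟩ := h.exists_coords hOA
  have hinf : U₁.comap W.subtype ⊓ U₂.comap W.subtype = ⊥ := by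
    rw [eq_bot_iff]
    rintro y ⟨h1, h2⟩
    have : (y : F) ∈ U₁ ⊓ U₂ := ⟨h1, h2⟩
    rw [hU] at this
    exact Subtype.ext this
  obtain ⟨Δ, hΔ, hb⟩ := exists_angle hatt (U₁.comap W.subtype) (U₂.comap W.subtype) hinf
  refine ⟨Δ, hΔ, fun s₁ hs₁ s₂ hs₂ a hd => ?_⟩
  have h1 : Bd A lam a ((⟨s₁, hU₁ hs₁⟩ : W) - ⟨s₂, hU₂ hs₂⟩) :=
    (dvd_iff_bd_rel hatt hO a _).1 hd
  have h2 := (dvd_iff_bd_rel hatt hO a _).2 (hb ⟨s₁, hU₁ hs₁⟩ hs₁ ⟨s₂, hU₂ hs₂⟩ hs₂ a h1)
  rw [← Algebra.smul_def]
  exact h2

/-- Transport of an orthonormal basis along multiplication by a unit of `O`. -/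
theorem HasOrtho.mul_unit {V V' : Submodule L F} (h : HasOrtho A O V) (u : F) (hu0 : u ≠ 0)
    (hu : u ∈ O) (hu' : u⁻¹ ∈ O) (hV' : ∀ y : F, y ∈ V' ↔ u⁻¹ * y ∈ V) : HasOrtho A O V' := by
  classical
  obtain ⟨n, b, hli, rfl, hbO, hint⟩ := h
  have hsum : ∀ c : Fin n → L, ∑ i, c i • (u * b i) = u * ∑ i, c i • b i := by
    intro c
    rw [Finset.mul_sum]
    exact Finset.sum_congr rfl fun i _ => by rw [mul_smul_comm]
  refine ⟨n, fun i => u * b i, ?_, ?_, fun i => O.mul_mem hu (hbO i), ?_⟩
  · rw [Fintype.linearIndependent_iff] at hli ⊢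
    intro c hc
    rw [hsum] at hc
    exact hli c ((mul_eq_zero.1 hc).resolve_left hu0)
  · apply le_antisymm
    · rw [Submodule.span_le]
      rintro _ ⟨i, rfl⟩
      show u * b i ∈ V'
      rw [hV', inv_mul_cancel_left₀ hu0]
      exact Submodule.subset_span ⟨i, rfl⟩
    · intro y hy
      rw [hV'] at hy
      obtain ⟨c, hc⟩ := (Submodule.mem_span_range_iff_exists_fun L).1 hy
      have : y = ∑ i, c i • (u * b i) := by
        rw [hsum, hc, mul_inv_cancel_left₀ hu0]
      rw [this]
      exact Submodule.sum_mem _ fun i _ =>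
        Submodule.smul_mem _ _ (Submodule.subset_span ⟨i, rfl⟩)
  · intro c hc
    apply hint c
    have := O.mul_mem hu' hc
    rwa [hsum, inv_mul_cancel_left₀ hu0] at this

section reduction

variable {k Ft : Type*} [Field k] [CommRing Ft] [Algebra k Ft]

/-- **Dimension of the reduced lattice** for a space with an orthonormal basis. -/
theorem HasOrtho.finrank_redSub {V : Submodule L F} (h : HasOrtho A O V)
    (hOA : ∀ x : L, algebraMap L F x ∈ O ↔ x ∈ A) (red : O →+* Ft) (π : A →+* k)
    (hπ : Function.Surjective π) (hπker : ∀ a : A, π a = 0 ↔ A.valuation (a : L) < 1)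
    (hconst : ∀ a : A, red ⟨algebraMap L F (a : L), (hOA _).2 a.2⟩ = algebraMap k Ft (π a))
    (hker : ∀ y : O, red y = 0 ↔ Small A O (y : F)) :
    Module.finrank k (redSub hOA red π hπ hconst V) = Module.finrank L V := by
  classical
  obtain ⟨n, b, hli, rfl, hbO, hint⟩ := h
  rw [finrank_span_eq_card hli, Fintype.card_fin]
  set bO : Fin n → O := fun i => ⟨b i, hbO i⟩ with hbOdef
  set cO : A → O := fun a => ⟨algebraMap L F (a : L), (hOA _).2 a.2⟩ with hcO
  set β : Fin n → Ft := fun i => red (bO i) with hβ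
  have hcomb : ∀ a : Fin n → A,
      red (∑ i, cO (a i) * bO i) = ∑ i, π (a i) • β i := by
    intro a
    rw [map_sum]
    refine Finset.sum_congr rfl fun i _ => ?_
    rw [map_mul, hconst, Algebra.smul_def]
  have hcoe : ∀ a : Fin n → A,
      ((∑ i, cO (a i) * bO i : O) : F) = ∑ i, (a i : L) • b i := by
    intro a
    rw [AddSubmonoidClass.coe_finsetSum]
    refine Finset.sum_congr rfl fun i _ => ?_
    show algebraMap L F (a i : L) * b i = _
    rw [Algebra.smul_def]
  have hind : LinearIndependent k β := by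
    rw [Fintype.linearIndependent_iff]
    intro κ hκ i
    choose a ha using fun i => hπ (κ i)
    have h0 : red (∑ i, cO (a i) * bO i) = 0 := by
      rw [hcomb]; simp only [ha]; exact hκ
    obtain ⟨a₀, ha₀, o, ho, hd⟩ := (hker _).1 h0
    rw [hcoe] at hd
    by_cases ha0 : a₀ = 0
    · subst ha0
      rw [map_zero, zero_mul] at hd
      have := (Fintype.linearIndependent_iff.1 hli) (fun i => (a i : L)) hd i
      have hai : a i = 0 := Subtype.ext this
      rw [← ha i, hai, map_zero]
    · have ho' : ∑ i, (a₀⁻¹ * (a i : L)) • b i = o := by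
        have : ∑ i, (a₀⁻¹ * (a i : L)) • b i = a₀⁻¹ • ∑ i, (a i : L) • b i := by
          rw [Finset.smul_sum]
          exact Finset.sum_congr rfl fun i _ => by rw [smul_smul]
        rw [this, hd, ← Algebra.smul_def, smul_smul, inv_mul_cancel₀ ha0, one_smul]
      have hmem := hint (fun i => a₀⁻¹ * (a i : L)) (by rw [ho']; exact ho) i
      have hv : A.valuation (a i : L) ≤ A.valuation a₀ := by
        have h1 := (A.valuation_le_one_iff _).2 hmem
        rw [map_mul, map_inv₀] at h1
        have hv0 : A.valuation a₀ ≠ 0 := (Valuation.ne_zero_iff _).2 ha0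
        rwa [inv_mul_le_iff₀ (zero_lt_iff.2 hv0), mul_one] at h1
      have : π (a i) = 0 := (hπker _).2 (lt_of_le_of_lt hv ha₀)
      rw [← ha i, this]
  have hspan : redSub hOA red π hπ hconst (Submodule.span L (Set.range b)) =
      Submodule.span k (Set.range β) := by
    apply le_antisymm
    · rintro t ⟨y, hy, rfl⟩
      obtain ⟨c, hc⟩ := (Submodule.mem_span_range_iff_exists_fun L).1 hy
      have hcA : ∀ i, c i ∈ A := hint c (by rw [hc]; exact y.2)
      set a : Fin n → A := fun i => ⟨c i, hcA i⟩ with hadef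
      have hy' : y = ∑ i, cO (a i) * bO i := by
        apply Subtype.ext
        rw [hcoe]
        exact hc.symm
      rw [hy', hcomb]
      exact Submodule.sum_mem _ fun i _ =>
        Submodule.smul_mem _ _ (Submodule.subset_span ⟨i, rfl⟩)
    · rw [Submodule.span_le]
      rintro _ ⟨i, rfl⟩
      exact ⟨bO i, Submodule.subset_span ⟨i, rfl⟩, rfl⟩
  rw [hspan, finrank_span_eq_card hind, Fintype.card_fin]

end reduction

/-- **Source of orthonormal bases**: an orthonormal `L[x]`-basis `β` of an `L[x]`-module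
`M ⊆ F` gives an orthonormal `L`-basis of every finite-dimensional `L`-subspace of `M`. -/
theorem hasOrtho_of_polyBasis (hOA : ∀ x : L, algebraMap L F x ∈ O ↔ x ∈ A)
    (hA : ∃ a : L, a ∉ A) (x : F) (hx : x ∈ O) {n : ℕ} (β : Fin n → F) (hβO : ∀ i, β i ∈ O)
    (hβ : ∀ e : Fin n → L[X], ∑ i, aeval x (e i) * β i ∈ O → ∀ i j, (e i).coeff j ∈ A)
    (V : Submodule L F) [FiniteDimensional L V]
    (hV : ∀ v ∈ V, ∃ e : Fin n → L[X], v = ∑ i, aeval x (e i) * β i) : HasOrtho A O V := by
  classical
  obtain ⟨a₁, ha₁⟩ := hA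
  -- the parametrisation
  let Φ : (Fin n → L[X]) →ₗ[L] F :=
    { toFun := fun e => ∑ i, aeval x (e i) * β i
      map_add' := fun e f => by
        rw [← Finset.sum_add_distrib]
        exact Finset.sum_congr rfl fun i _ => by rw [Pi.add_apply, map_add, add_mul]
      map_smul' := fun c e => by
        rw [RingHom.id_apply, Finset.smul_sum]
        exact Finset.sum_congr rfl fun i _ => by
          rw [Pi.smul_apply, map_smul, smul_mul_assoc] }
  have hΦ : ∀ e, Φ e = ∑ i, aeval x (e i) * β i := fun _ => rfl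
  -- coordinates
  let lam : Fin n × ℕ → (Fin n → L[X]) →ₗ[L] L := fun ij =>
    (Polynomial.lcoeff L ij.2).comp (LinearMap.proj ij.1)
  have hlam : ∀ (ij : Fin n × ℕ) (e : Fin n → L[X]), lam ij e = (e ij.1).coeff ij.2 :=
    fun _ _ => rfl
  have hbdO : ∀ e : Fin n → L[X], Φ e ∈ O ↔ Bd A lam 1 e := by
    intro e
    constructor
    · intro h ij
      rw [map_one, hlam]
      exact (A.valuation_le_one_iff _).2 (hβ e h ij.1 ij.2)
    · intro h
      rw [hΦ]
      refine O.sum_mem fun i _ => O.mul_mem ?_ (hβO i)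
      rw [aeval_eq_sum_range]
      refine O.sum_mem fun j _ => ?_
      rw [Algebra.smul_def]
      refine O.mul_mem ((hOA _).2 ?_) (O.pow_mem hx j)
      have := h (i, j)
      rw [map_one, hlam] at this
      exact (A.valuation_le_one_iff _).1 this
  -- injectivity
  have hinj : Function.Injective Φ := by
    rw [← LinearMap.ker_eq_bot, LinearMap.ker_eq_bot']
    intro e he
    funext i
    ext j
    by_contra hne
    have hne' : (e i).coeff j ≠ 0 := by simpa using hne
    have h0 : Φ ((a₁ * ((e i).coeff j)⁻¹) • e) ∈ O := by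
      rw [map_smul, he, smul_zero]; exact O.zero_mem
    have := hβ _ h0 i j
    rw [Pi.smul_apply, coeff_smul, smul_eq_mul, mul_assoc, inv_mul_cancel₀ hne', mul_one] at this
    exact ha₁ this
  -- attainment
  have hatt : Att A lam := by
    intro e he
    have hne : ∃ ij : Fin n × ℕ, (e ij.1).coeff ij.2 ≠ 0 := by
      by_contra hcon
      push Not at hcon
      apply he
      funext i
      ext j
      simpa using hcon (i, j)
    obtain ⟨ij1, hij1⟩ := hne
    let S : Finset (Fin n × ℕ) := Finset.univ.sigma (fun i => (e i).support) |>.map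
      ⟨fun p => (p.1, p.2), fun p q hpq => by
        cases p; cases q; simp only [Prod.mk.injEq] at hpq; obtain ⟨rfl, rfl⟩ := hpq; rfl⟩
    have hS : ∀ ij : Fin n × ℕ, ij ∈ S ↔ (e ij.1).coeff ij.2 ≠ 0 := by
      intro ij
      simp only [S, Finset.mem_map, Finset.mem_sigma, Finset.mem_univ, true_and,
        Polynomial.mem_support_iff]
      constructor
      · rintro ⟨p, hp, rfl⟩; exact hp
      · intro h; exact ⟨⟨ij.1, ij.2⟩, h, rfl⟩
    obtain ⟨ij0, hij0S, hmax⟩ := Finset.exists_max_image S
      (fun ij => A.valuation ((e ij.1).coeff ij.2)) ⟨ij1, (hS _).2 hij1⟩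
    have hij0 : (e ij0.1).coeff ij0.2 ≠ 0 := (hS _).1 hij0S
    have hv0 : A.valuation ((e ij0.1).coeff ij0.2) ≠ 0 := (Valuation.ne_zero_iff _).2 hij0
    refine ⟨((e ij0.1).coeff ij0.2)⁻¹, inv_ne_zero hij0, ?_, ij0, ?_⟩
    · intro ij
      rw [map_smul, hlam, smul_eq_mul, map_mul, map_inv₀, map_one,
        inv_mul_le_iff₀ (zero_lt_iff.2 hv0), mul_one]
      by_cases hz : (e ij.1).coeff ij.2 = 0
      · rw [hz, map_zero]; exact zero_le
      · exact hmax ij ((hS _).2 hz)
    · rw [map_smul, hlam, smul_eq_mul, inv_mul_cancel₀ hij0, map_one]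
  -- the preimage of `V` is finite-dimensional
  have hfd : FiniteDimensional L (V.comap Φ) := by
    let ι : (V.comap Φ) →ₗ[L] V :=
      { toFun := fun e => ⟨Φ e, e.2⟩
        map_add' := fun e f => Subtype.ext (map_add Φ _ _)
        map_smul' := fun c e => Subtype.ext (map_smul Φ _ _) }
    have hι : Function.Injective ι := by
      intro e f hef
      apply Subtype.ext
      apply hinj
      exact congrArg (fun z : V => (z : F)) hef
    exact FiniteDimensional.of_injective ι hι
  obtain ⟨r, ⟨E⟩⟩ := exists_echelon hatt (V.comap Φ)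
  have hsum : ∀ c : Fin r → L, ∑ i, c i • Φ (E.b i) = Φ (∑ i, c i • E.b i) := by
    intro c
    rw [map_sum]
    exact Finset.sum_congr rfl fun i _ => by rw [map_smul]
  refine ⟨r, fun i => Φ (E.b i), ?_, ?_, fun i => (hbdO _).2 (E.int i), ?_⟩
  · rw [Fintype.linearIndependent_iff]
    intro c hc i
    rw [hsum] at hc
    have h0 : ∑ i, c i • E.b i = 0 := hinj (by rw [hc, map_zero])
    have := E.coord_sum c i
    rw [h0, map_zero] at this
    exact this.symm
  · apply le_antisymm
    · rw [Submodule.span_le]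
      rintro _ ⟨i, rfl⟩
      exact E.mem i
    · intro y hy
      obtain ⟨e, rfl⟩ := hV y hy
      have he : e ∈ V.comap Φ := hy
      have h1 : Φ e = ∑ i, lam (E.p i) e • Φ (E.b i) := by
        rw [hsum]
        exact congrArg Φ (E.expand e he)
      rw [← hΦ, h1]
      exact Submodule.sum_mem _ fun i _ =>
        Submodule.smul_mem _ _ (Submodule.subset_span ⟨i, rfl⟩)
  · intro c hc i
    rw [hsum] at hc
    have hb : Bd A lam 1 (∑ i, c i • E.b i) := (hbdO _).1 hc
    have := hb (E.p i)
    rw [E.coord_sum, map_one] at this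
    exact (A.valuation_le_one_iff _).1 this

end Fermat.Agent.Lib.Red.CoordLat
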