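/-
ESJ / RED-G (1): the Gauss ring of `L((q))` at a valuation subring `A` of the field `L`.

`gaussRing A π : Subring (LaurentSeries L)` is the set of series `y` with `s * y = P` for series
`s, P` with coefficients in `A` and `s` nonzero modulo `π : A →+* k` (`k` a field, e.g. the
residue field of `A`); `red A π : gaussRing A π →+* LaurentSeries k` is the reduction map
(`P̄ / s̄`).  No discreteness of `A` is assumed.
-/
import Mathlib
import Fermat.Prelude.Def_ModularCurve_LaurentCoeff

set_option autoImplicit false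

namespace Fermat.Agent.Lib.Red

open HahnSeries ModularCurve

noncomputable section

variable {L : Type*} [Field L] (A : ValuationSubring L) {k : Type*} [Field k] (π : A →+* k)

/-- inclusion of series with coefficients in `A` into series over `L` -/
def incl : LaurentSeries A →+* LaurentSeries L := coeffMap A.subtype

theorem incl_coeff (g : LaurentSeries A) (n : ℤ) : (incl A g).coeff n = (g.coeff n : L) := rfl

theorem incl_injective : Function.Injective (incl A) := by
  intro g g' h
  apply HahnSeries.ext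
  funext n
  apply Subtype.ext
  exact congrArg (fun f => f.coeff n) h

theorem exists_incl_eq (f : LaurentSeries L) (hf : ∀ n, f.coeff n ∈ A) :
    ∃ g, incl A g = f := by
  refine ⟨⟨fun n => ⟨f.coeff n, hf n⟩, f.isPWO_support.mono ?_⟩, ?_⟩
  · intro n hn
    simp only [Function.mem_support, ne_eq] at hn ⊢
    intro h0
    exact hn (Subtype.ext h0)
  · ext n
    rfl

theorem incl_C (a : A) : incl A (HahnSeries.C a) = HahnSeries.C (a : L) := by
  rw [incl, HahnSeries.C_apply, HahnSeries.C_apply, coeffMap_single]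
  rfl

/-- coefficientwise reduction of series with coefficients in `A` -/
def rbar : LaurentSeries A →+* LaurentSeries k := coeffMap π

variable {A} in
theorem rbar_coeff (g : LaurentSeries A) (n : ℤ) : (rbar A π g).coeff n = π (g.coeff n) := rfl

theorem rbar_C (a : A) : rbar A π (HahnSeries.C a) = HahnSeries.C (π a) := by
  rw [rbar, HahnSeries.C_apply, HahnSeries.C_apply, coeffMap_single]

/-- The Gauss ring: the localisation of the `A`-integral Laurent series at the series which are
nonzero modulo `π`, inside `L((q))`. -/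
def gaussRing : Subring (LaurentSeries L) where
  carrier := {y | ∃ s P : LaurentSeries A, rbar A π s ≠ 0 ∧ incl A s * y = incl A P}
  mul_mem' := by
    rintro y z ⟨s, P, hs, h⟩ ⟨s', P', hs', h'⟩
    refine ⟨s * s', P * P', ?_, ?_⟩
    · rw [map_mul]
      exact mul_ne_zero hs hs'
    · rw [map_mul, map_mul, ← h, ← h']
      ring
  one_mem' := ⟨1, 1, by rw [map_one]; exact one_ne_zero, by rw [map_one, mul_one]⟩
  add_mem' := by
    rintro y z ⟨s, P, hs, h⟩ ⟨s', P', hs', h'⟩
    refine ⟨s * s', P * s' + P' * s, ?_, ?_⟩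
    · rw [map_mul]
      exact mul_ne_zero hs hs'
    · rw [map_mul, map_add, map_mul, map_mul, ← h, ← h']
      ring
  zero_mem' := ⟨1, 0, by rw [map_one]; exact one_ne_zero, by rw [map_zero, mul_zero]⟩
  neg_mem' := by
    rintro y ⟨s, P, hs, h⟩
    exact ⟨s, -P, hs, by rw [map_neg, ← h]; ring⟩

theorem mem_gaussRing_iff (y : LaurentSeries L) : y ∈ gaussRing A π ↔
    ∃ s P : LaurentSeries A, rbar A π s ≠ 0 ∧ incl A s * y = incl A P := Iff.rfl

theorem incl_mem_gaussRing (g : LaurentSeries A) : incl A g ∈ gaussRing A π :=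
  ⟨1, g, by rw [map_one]; exact one_ne_zero, by rw [map_one, one_mul]⟩

theorem red_aux {y : LaurentSeries L} {s P s' P' : LaurentSeries A}
    (hs : rbar A π s ≠ 0) (h : incl A s * y = incl A P)
    (hs' : rbar A π s' ≠ 0) (h' : incl A s' * y = incl A P') :
    rbar A π P / rbar A π s = rbar A π P' / rbar A π s' := by
  have h1 : P * s' = P' * s := by
    apply incl_injective A
    rw [map_mul, map_mul, ← h, ← h']
    ring
  rw [div_eq_div_iff hs hs', ← map_mul, ← map_mul, h1]

/-- the residue map as a function -/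
def redFun (y : gaussRing A π) : LaurentSeries k :=
  rbar A π (Classical.choose (Classical.choose_spec y.2)) / rbar A π (Classical.choose y.2)

theorem redFun_eq (y : gaussRing A π) {s P : LaurentSeries A} (hs : rbar A π s ≠ 0)
    (h : incl A s * (y : LaurentSeries L) = incl A P) :
    redFun A π y = rbar A π P / rbar A π s :=
  red_aux A π (Classical.choose_spec (Classical.choose_spec y.2)).1
    (Classical.choose_spec (Classical.choose_spec y.2)).2 hs h

/-- The residue map `gaussRing A π → k((q))`. -/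
def red : gaussRing A π →+* LaurentSeries k where
  toFun := redFun A π
  map_one' := by
    rw [redFun_eq A π 1 (s := 1) (P := 1) (by rw [map_one]; exact one_ne_zero)
      (by rw [map_one, one_mul]; rfl), map_one, div_one]
  map_mul' := by
    intro y z
    obtain ⟨s, P, hs, h⟩ := (mem_gaussRing_iff A π _).mp y.2
    obtain ⟨s', P', hs', h'⟩ := (mem_gaussRing_iff A π _).mp z.2
    rw [redFun_eq A π y hs h, redFun_eq A π z hs' h',
      redFun_eq A π (y * z) (s := s * s') (P := P * P')
        (by rw [map_mul]; exact mul_ne_zero hs hs')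
        (by
          rw [Subring.coe_mul, map_mul, map_mul, ← h, ← h']
          ring),
      map_mul, map_mul, div_mul_div_comm]
  map_zero' := by
    rw [redFun_eq A π 0 (s := 1) (P := 0) (by rw [map_one]; exact one_ne_zero)
      (by rw [map_zero]; exact mul_zero _), map_zero, zero_div]
  map_add' := by
    intro y z
    obtain ⟨s, P, hs, h⟩ := (mem_gaussRing_iff A π _).mp y.2
    obtain ⟨s', P', hs', h'⟩ := (mem_gaussRing_iff A π _).mp z.2
    rw [redFun_eq A π y hs h, redFun_eq A π z hs' h',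
      redFun_eq A π (y + z) (s := s * s') (P := P * s' + s * P')
        (by rw [map_mul]; exact mul_ne_zero hs hs')
        (by
          rw [Subring.coe_add, map_mul, map_add, map_mul, map_mul, ← h, ← h']
          ring),
      map_add, map_mul, map_mul, map_mul, div_add_div _ _ hs hs']

theorem red_eq (y : gaussRing A π) {s P : LaurentSeries A} (hs : rbar A π s ≠ 0)
    (h : incl A s * (y : LaurentSeries L) = incl A P) :
    red A π y = rbar A π P / rbar A π s :=
  redFun_eq A π y hs h

/-- `red` restricted to `A`-integral series is the coefficientwise reduction. -/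
theorem red_incl (g : LaurentSeries A) :
    red A π ⟨incl A g, incl_mem_gaussRing A π g⟩ = rbar A π g := by
  rw [red_eq A π _ (s := 1) (P := g) (by rw [map_one]; exact one_ne_zero)
    (by rw [map_one, one_mul]), map_one, div_one]

/-- the same with an arbitrary membership proof -/
theorem red_incl' (g : LaurentSeries A) (h : incl A g ∈ gaussRing A π) :
    red A π ⟨incl A g, h⟩ = rbar A π g :=
  red_incl A π g

/-! ### Constants -/

theorem C_mem_gaussRing {a : L} (ha : a ∈ A) : HahnSeries.C a ∈ gaussRing A π := by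
  have h := incl_mem_gaussRing A π (HahnSeries.C (⟨a, ha⟩ : A))
  rwa [incl_C] at h

theorem red_C {a : L} (ha : a ∈ A) (h : HahnSeries.C a ∈ gaussRing A π) :
    red A π ⟨HahnSeries.C a, h⟩ = HahnSeries.C (π ⟨a, ha⟩) := by
  have h1 := red_incl A π (HahnSeries.C (⟨a, ha⟩ : A))
  rw [rbar_C] at h1
  rw [← h1]
  congr 1
  exact Subtype.ext (incl_C A ⟨a, ha⟩).symm

/-! ### Units and quotients -/

theorem inv_mem_gaussRing {y : LaurentSeries L} (hy : y ∈ gaussRing A π)
    (hne : red A π ⟨y, hy⟩ ≠ 0) : y⁻¹ ∈ gaussRing A π := by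
  obtain ⟨s, P, hs, hsP⟩ := (mem_gaussRing_iff A π _).mp hy
  rw [red_eq A π ⟨y, hy⟩ hs hsP] at hne
  have hP : rbar A π P ≠ 0 := fun h0 => hne (by rw [h0, zero_div])
  have hy0 : y ≠ 0 := by
    rintro rfl
    rw [mul_zero] at hsP
    apply hP
    have : P = 0 := incl_injective A (by rw [← hsP, map_zero])
    rw [this, map_zero]
  refine ⟨P, s, hP, ?_⟩
  rw [← hsP, mul_assoc, mul_inv_cancel₀ hy0, mul_one]

theorem red_inv {y : LaurentSeries L} (hy : y ∈ gaussRing A π)
    (hne : red A π ⟨y, hy⟩ ≠ 0) (hinv : y⁻¹ ∈ gaussRing A π) :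
    red A π ⟨y⁻¹, hinv⟩ = (red A π ⟨y, hy⟩)⁻¹ := by
  have hy0 : y ≠ 0 := by
    rintro rfl
    apply hne
    have : (⟨0, hy⟩ : gaussRing A π) = 0 := rfl
    rw [this, map_zero]
  have h1 : (⟨y⁻¹, hinv⟩ : gaussRing A π) * ⟨y, hy⟩ = 1 :=
    Subtype.ext (inv_mul_cancel₀ hy0)
  have h2 := congrArg (red A π) h1
  rw [map_mul, map_one] at h2
  exact eq_inv_of_mul_eq_one_left h2

theorem div_mem_gaussRing {y z : LaurentSeries L} (hy : y ∈ gaussRing A π)
    (hz : z ∈ gaussRing A π) (hne : red A π ⟨z, hz⟩ ≠ 0) : y / z ∈ gaussRing A π := by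
  rw [div_eq_mul_inv]
  exact (gaussRing A π).mul_mem hy (inv_mem_gaussRing A π hz hne)

theorem red_div {y z : LaurentSeries L} (hy : y ∈ gaussRing A π)
    (hz : z ∈ gaussRing A π) (hne : red A π ⟨z, hz⟩ ≠ 0) (h : y / z ∈ gaussRing A π) :
    red A π ⟨y / z, h⟩ = red A π ⟨y, hy⟩ / red A π ⟨z, hz⟩ := by
  have hinv := inv_mem_gaussRing A π hz hne
  have h1 : (⟨y / z, h⟩ : gaussRing A π) = ⟨y, hy⟩ * ⟨z⁻¹, hinv⟩ :=
    Subtype.ext (div_eq_mul_inv y z)
  rw [h1, map_mul, red_inv A π hz hne hinv, div_eq_mul_inv]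

/-! ### Scaling by constants -/

/-- If `π` kills the non-units of `A`: a constant `a ∉ A` has `a⁻¹ ∈ A` with `π a⁻¹ = 0`. -/
theorem pi_inv_eq_zero (hπ : ∀ a : A, ¬ IsUnit a → π a = 0) {a : L} (ha : a ∉ A)
    (hinv : a⁻¹ ∈ A) : π ⟨a⁻¹, hinv⟩ = 0 := by
  apply hπ
  intro hu
  obtain ⟨b, hb⟩ := hu.exists_right_inv
  have hb' : a⁻¹ * (b : L) = 1 := congrArg Subtype.val hb
  have ha0 : a ≠ 0 := by
    rintro rfl
    exact ha A.zero_mem
  have : (b : L) = a := by
    field_simp at hb'
    exact hb'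
  exact ha (this ▸ b.2)

/-- **Key scaling lemma.**  If `y` and `C a * y` are in the Gauss ring and `C a * y` has nonzero
reduction, then `a⁻¹ ∈ A`. -/
theorem inv_mem_of_red_ne_zero (hπ : ∀ a : A, ¬ IsUnit a → π a = 0) {a : L}
    {y : LaurentSeries L} (hy : y ∈ gaussRing A π) (hay : HahnSeries.C a * y ∈ gaussRing A π)
    (hne : red A π ⟨HahnSeries.C a * y, hay⟩ ≠ 0) : a⁻¹ ∈ A := by
  by_contra hinv
  have ha : a ∈ A := (A.mem_or_inv_mem a).resolve_right hinv
  have hnu : ¬ IsUnit (⟨a, ha⟩ : A) := by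
    intro hu
    obtain ⟨b, hb⟩ := hu.exists_right_inv
    have hb' : a * (b : L) = 1 := congrArg Subtype.val hb
    have : (b : L) = a⁻¹ := eq_inv_of_mul_eq_one_right hb'
    exact hinv (this ▸ b.2)
  have hC := C_mem_gaussRing A π ha
  have h1 : (⟨HahnSeries.C a * y, hay⟩ : gaussRing A π) = ⟨HahnSeries.C a, hC⟩ * ⟨y, hy⟩ := rfl
  rw [h1, map_mul, red_C A π ha hC, hπ _ hnu, map_zero, zero_mul] at hne
  exact hne rfl

/-- If `C a * y` is in the Gauss ring with nonzero reduction, and `y` is in the Gauss ring, then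
`red y = C (π a⁻¹) * red (C a * y)`. -/
theorem red_eq_C_mul (hπ : ∀ a : A, ¬ IsUnit a → π a = 0) {a : L} (ha0 : a ≠ 0)
    {y : LaurentSeries L} (hy : y ∈ gaussRing A π) (hay : HahnSeries.C a * y ∈ gaussRing A π)
    (hne : red A π ⟨HahnSeries.C a * y, hay⟩ ≠ 0) :
    ∃ hinv : a⁻¹ ∈ A, red A π ⟨y, hy⟩ =
      HahnSeries.C (π ⟨a⁻¹, hinv⟩) * red A π ⟨HahnSeries.C a * y, hay⟩ := by
  have hinv := inv_mem_of_red_ne_zero A π hπ hy hay hne
  refine ⟨hinv, ?_⟩
  have hC := C_mem_gaussRing A π hinv
  have h1 : (⟨y, hy⟩ : gaussRing A π) = ⟨HahnSeries.C a⁻¹, hC⟩ * ⟨HahnSeries.C a * y, hay⟩ := by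
    apply Subtype.ext
    show y = HahnSeries.C a⁻¹ * (HahnSeries.C a * y)
    rw [← mul_assoc, ← map_mul, inv_mul_cancel₀ ha0, map_one, one_mul]
  rw [h1, map_mul, red_C A π hinv hC]

end

end Fermat.Agent.Lib.Red
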