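/-
ESJ / RED-G (2): the abstract tower for the Gauss valuation at a valuation subring `A` of the
constant field `L` (no discreteness; scaling by constants of `L` replaces `π`-adic induction).

`GoodV A π F κ`: every nonzero `y ∈ F` is `a⁻¹ • P / s` with `a ∈ Lˣ` and `P, s` series with
coefficients in `A`, lying in `F`, whose reductions are nonzero and lie in `κ`.

* `GoodV.red_mem`   : `red (F ∩ gaussRing) ⊆ κ`;
* `GoodV.base`      : the invariant for `L(x)`, `x` an `A`-integral series with transcendental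
                      reduction;
* `GoodV.step`      : propagation along `F ⊆ F(x)` when `x^n ∈ ∑_{t<n} F x^t` and
                      `1, x̄, …, x̄^(n-1)` are independent over `κ`;
* `GoodV.coeff_mem` : in the situation of `step`, `∑ c_t x^t ∈ gaussRing` forces all
                      `c_t ∈ gaussRing` (good basis).
-/
import Mathlib
import Fermat.Agent.Lib.Red.GaussRing
import Fermat.Agent.S28.Tower

set_option autoImplicit false

namespace Fermat.Agent.Lib.Red

open HahnSeries ModularCurve Polynomial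

noncomputable section

variable {L : Type*} [Field L] (A : ValuationSubring L) {k : Type*} [Field k] (π : A →+* k)

/-- The invariant carried along the tower. -/
def GoodV (F : IntermediateField L (LaurentSeries L))
    (κ : IntermediateField k (LaurentSeries k)) : Prop :=
  ∀ y ∈ F, y ≠ 0 → ∃ (a : L) (P s : LaurentSeries A), a ≠ 0 ∧ incl A P ∈ F ∧ incl A s ∈ F ∧
    rbar A π P ≠ 0 ∧ rbar A π s ≠ 0 ∧ rbar A π P ∈ κ ∧ rbar A π s ∈ κ ∧
    HahnSeries.C a * y * incl A s = incl A P

theorem C_eq_algebraMap {K : Type*} [Field K] (c : K) :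
    (HahnSeries.C c : LaurentSeries K) = algebraMap K (LaurentSeries K) c := by
  rw [algebraMap_laurentSeries_eq_single, HahnSeries.C_apply]

theorem C_mem {K : Type*} [Field K] (F : IntermediateField K (LaurentSeries K)) (c : K) :
    (HahnSeries.C c : LaurentSeries K) ∈ F := by
  rw [C_eq_algebraMap]
  exact F.algebraMap_mem c

variable {A π}

/-- Membership in the Gauss ring of a quotient of integral series. -/
theorem mem_gaussRing_of_mul_eq {z : LaurentSeries L} {P s : LaurentSeries A}
    (hs : rbar A π s ≠ 0) (h : z * incl A s = incl A P) : z ∈ gaussRing A π :=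
  ⟨s, P, hs, by rw [mul_comm]; exact h⟩

theorem red_of_mul_eq {z : LaurentSeries L} {P s : LaurentSeries A}
    (hs : rbar A π s ≠ 0) (h : z * incl A s = incl A P) (hz : z ∈ gaussRing A π) :
    red A π ⟨z, hz⟩ = rbar A π P / rbar A π s :=
  red_eq A π ⟨z, hz⟩ hs (by rw [mul_comm]; exact h)

namespace GoodV

variable {F : IntermediateField L (LaurentSeries L)} {κ : IntermediateField k (LaurentSeries k)}

/-- Scaling form: a nonzero element of `F` has a constant multiple in the Gauss ring with nonzero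
reduction, lying in `κ`. -/
theorem exists_scaling (h : GoodV A π F κ) {y : LaurentSeries L} (hy : y ∈ F) (hy0 : y ≠ 0) :
    ∃ a : L, a ≠ 0 ∧ ∃ hmem : HahnSeries.C a * y ∈ gaussRing A π,
      red A π ⟨_, hmem⟩ ≠ 0 ∧ red A π ⟨_, hmem⟩ ∈ κ := by
  obtain ⟨a, P, s, ha, -, -, hP, hs, hPκ, hsκ, heq⟩ := h y hy hy0
  have hmem : HahnSeries.C a * y ∈ gaussRing A π := mem_gaussRing_of_mul_eq hs heq
  refine ⟨a, ha, hmem, ?_, ?_⟩
  · rw [red_of_mul_eq hs heq hmem]
    exact div_ne_zero hP hs
  · rw [red_of_mul_eq hs heq hmem]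
    exact κ.div_mem hPκ hsκ

/-- The reduction of `F ∩ gaussRing` lies in `κ`. -/
theorem red_mem (h : GoodV A π F κ) (hπ : ∀ a : A, ¬ IsUnit a → π a = 0)
    (y : gaussRing A π) (hy : (y : LaurentSeries L) ∈ F) : red A π y ∈ κ := by
  by_cases hy0 : (y : LaurentSeries L) = 0
  · have : y = 0 := Subtype.ext hy0
    rw [this, map_zero]
    exact κ.zero_mem
  · obtain ⟨a, ha, hmem, hne, hκ⟩ := h.exists_scaling hy hy0
    obtain ⟨hinv, hred⟩ := red_eq_C_mul A π hπ ha y.2 hmem hne
    have : red A π y = red A π ⟨(y : LaurentSeries L), y.2⟩ := rfl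
    rw [this, hred]
    exact κ.mul_mem (C_mem κ _) hκ

/-- `F ∩ gaussRing` is a valuation ring of `F`. -/
theorem mem_or_inv_mem (h : GoodV A π F κ) {y : LaurentSeries L} (hy : y ∈ F) :
    y ∈ gaussRing A π ∨ y⁻¹ ∈ gaussRing A π := by
  by_cases hy0 : y = 0
  · left
    rw [hy0]
    exact (gaussRing A π).zero_mem
  · obtain ⟨a, ha, hmem, hne, -⟩ := h.exists_scaling hy hy0
    rcases A.mem_or_inv_mem a with haA | haA
    · right
      have hinv := inv_mem_gaussRing A π hmem hne
      have : y⁻¹ = HahnSeries.C a * (HahnSeries.C a * y)⁻¹ := by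
        have hCa : (HahnSeries.C a : LaurentSeries L) ≠ 0 := by
          intro h0
          exact ha (HahnSeries.C_injective (by rw [h0, map_zero]))
        rw [mul_inv, ← mul_assoc, mul_inv_cancel₀ hCa, one_mul]
      rw [this]
      exact (gaussRing A π).mul_mem (C_mem_gaussRing A π haA) hinv
    · left
      have : y = HahnSeries.C a⁻¹ * (HahnSeries.C a * y) := by
        rw [← mul_assoc, ← map_mul, inv_mul_cancel₀ ha, map_one, one_mul]
      rw [this]
      exact (gaussRing A π).mul_mem (C_mem_gaussRing A π haA) hmem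

theorem mono (h : GoodV A π F κ) {κ' : IntermediateField k (LaurentSeries k)} (hκ : κ ≤ κ') :
    GoodV A π F κ' := by
  intro y hy hy0
  obtain ⟨a, P, s, ha, hPF, hsF, hP, hs, hPκ, hsκ, heq⟩ := h y hy hy0
  exact ⟨a, P, s, ha, hPF, hsF, hP, hs, hκ hPκ, hκ hsκ, heq⟩

end GoodV

/-! ### Polynomials: primitive scaling -/

/-- A polynomial over `L` with coefficients in `A` comes from a polynomial over `A`. -/
theorem exists_map_subtype_eq (R : Polynomial L) (hR : ∀ i, R.coeff i ∈ A) :
    ∃ R₀ : Polynomial A, R₀.map A.subtype = R := by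
  refine ⟨∑ i ∈ R.support, Polynomial.monomial i (⟨R.coeff i, hR i⟩ : A), ?_⟩
  rw [Polynomial.map_sum]
  conv_rhs => rw [R.as_sum_support]
  refine Finset.sum_congr rfl fun i _ => ?_
  rw [Polynomial.map_monomial]
  rfl

/-- Primitive scaling: a nonzero polynomial over `L` is a constant multiple of a polynomial over
`A` which is nonzero modulo `π`. -/
theorem exists_primitive_scaling (π : A →+* k) (P : Polynomial L) (hP : P ≠ 0) :
    ∃ c : L, c ≠ 0 ∧ ∃ P₀ : Polynomial A, P₀.map A.subtype = Polynomial.C c * P ∧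
      P₀.map π ≠ 0 := by
  have hne : P.support.Nonempty := Polynomial.nonempty_support_iff.mpr hP
  obtain ⟨i₀, hi₀, hmax⟩ := P.support.exists_max_image (fun i => A.valuation (P.coeff i)) hne
  have hc0 : P.coeff i₀ ≠ 0 := Polynomial.mem_support_iff.mp hi₀
  set c : L := (P.coeff i₀)⁻¹ with hc
  have hcoeff : ∀ i, (Polynomial.C c * P).coeff i ∈ A := by
    intro i
    rw [Polynomial.coeff_C_mul]
    by_cases hi : i ∈ P.support
    · rw [← A.valuation_le_one_iff, map_mul, hc, map_inv₀]
      have h1 := hmax i hi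
      have h2 : A.valuation (P.coeff i₀) ≠ 0 := (Valuation.ne_zero_iff _).mpr hc0
      rw [inv_mul_le_iff₀ (lt_of_le_of_ne zero_le h2.symm), mul_one]
      exact h1
    · rw [Polynomial.notMem_support_iff.mp hi, mul_zero]
      exact A.zero_mem
  obtain ⟨P₀, hP₀⟩ := exists_map_subtype_eq (Polynomial.C c * P) hcoeff
  refine ⟨c, inv_ne_zero hc0, P₀, hP₀, ?_⟩
  intro h0
  have h1 : (P₀.map π).coeff i₀ = 0 := by rw [h0, Polynomial.coeff_zero]
  rw [Polynomial.coeff_map] at h1
  have h2 : P₀.coeff i₀ = 1 := by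
    apply Subtype.ext
    have := congrArg (fun R => R.coeff i₀) hP₀
    simp only [Polynomial.coeff_map, Polynomial.coeff_C_mul] at this
    rw [hc, inv_mul_cancel₀ hc0] at this
    exact this
  rw [h2, map_one] at h1
  exact one_ne_zero h1

/-- Evaluation of an `A`-polynomial at an `A`-integral series commutes with `incl`. -/
theorem incl_eval₂ (P₀ : Polynomial A) (X : LaurentSeries A) :
    incl A (P₀.eval₂ (HahnSeries.C : A →+* LaurentSeries A) X) =
      (P₀.map A.subtype).eval₂ (HahnSeries.C : L →+* LaurentSeries L) (incl A X) := by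
  rw [Polynomial.hom_eval₂, Polynomial.eval₂_map]
  congr 1
  ext a : 1
  exact incl_C A a

/-- Evaluation of an `A`-polynomial at an `A`-integral series commutes with `rbar`. -/
theorem rbar_eval₂ (π : A →+* k) (P₀ : Polynomial A) (X : LaurentSeries A) :
    rbar A π (P₀.eval₂ (HahnSeries.C : A →+* LaurentSeries A) X) =
      (P₀.map π).eval₂ (HahnSeries.C : k →+* LaurentSeries k) (rbar A π X) := by
  rw [Polynomial.hom_eval₂, Polynomial.eval₂_map]
  congr 1
  ext a : 1
  exact rbar_C A π a

theorem aeval_eq_eval₂_C {K : Type*} [Field K] (P : Polynomial K) (x : LaurentSeries K) :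
    Polynomial.aeval x P = P.eval₂ (HahnSeries.C : K →+* LaurentSeries K) x := by
  rw [Polynomial.aeval_def]
  congr 1
  ext c : 1
  exact (C_eq_algebraMap c).symm

/-! ### The base of the tower -/

/-- **Base.**  For an `A`-integral series `X` whose reduction is transcendental over `k`, the
field `L(X)` satisfies the invariant with residue field `k(X̄)`. -/
theorem GoodV.base (X : LaurentSeries A)
    (htr : ∀ p : Polynomial k, p.eval₂ (HahnSeries.C : k →+* LaurentSeries k) (rbar A π X) = 0 →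
      p = 0) :
    GoodV A π (IntermediateField.adjoin L {incl A X}) (IntermediateField.adjoin k {rbar A π X}) := by
  intro y hy hy0
  obtain ⟨P, Q, rfl⟩ := (IntermediateField.mem_adjoin_simple_iff L _).mp hy
  have hQx : Polynomial.aeval (incl A X) Q ≠ 0 := by
    intro h0
    rw [h0, div_zero] at hy0
    exact hy0 rfl
  have hPx : Polynomial.aeval (incl A X) P ≠ 0 := by
    intro h0
    rw [h0, zero_div] at hy0
    exact hy0 rfl
  have hP : P ≠ 0 := by
    rintro rfl
    exact hPx (map_zero _)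
  have hQ : Q ≠ 0 := by
    rintro rfl
    exact hQx (map_zero _)
  obtain ⟨cP, hcP, P₀, hP₀, hP₀π⟩ := exists_primitive_scaling π P hP
  obtain ⟨cQ, hcQ, Q₀, hQ₀, hQ₀π⟩ := exists_primitive_scaling π Q hQ
  set PP : LaurentSeries A := P₀.eval₂ (HahnSeries.C : A →+* LaurentSeries A) X with hPP
  set QQ : LaurentSeries A := Q₀.eval₂ (HahnSeries.C : A →+* LaurentSeries A) X with hQQ
  have key : ∀ (R : Polynomial L) (c : L) (R₀ : Polynomial A),
      R₀.map A.subtype = Polynomial.C c * R →
      incl A (R₀.eval₂ (HahnSeries.C : A →+* LaurentSeries A) X) =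
        HahnSeries.C c * Polynomial.aeval (incl A X) R := by
    intro R c R₀ hR₀
    rw [incl_eval₂, hR₀, aeval_eq_eval₂_C, Polynomial.eval₂_mul, Polynomial.eval₂_C]
  have h1 := key P cP P₀ hP₀
  have h2 := key Q cQ Q₀ hQ₀
  have hmemK : ∀ R₀ : Polynomial A, rbar A π (R₀.eval₂ (HahnSeries.C : A →+* LaurentSeries A) X) ∈
      IntermediateField.adjoin k {rbar A π X} := by
    intro R₀
    rw [rbar_eval₂, ← aeval_eq_eval₂_C]
    exact IntermediateField.algebra_adjoin_le_adjoin k _
      (Polynomial.aeval_mem_adjoin_singleton k _)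
  have hmemL : ∀ R : Polynomial L, Polynomial.aeval (incl A X) R ∈
      IntermediateField.adjoin L {incl A X} := fun R =>
    IntermediateField.algebra_adjoin_le_adjoin L _
      (Polynomial.aeval_mem_adjoin_singleton L _)
  refine ⟨cP / cQ, PP, QQ, div_ne_zero hcP hcQ, ?_, ?_, ?_, ?_, hmemK P₀, hmemK Q₀, ?_⟩
  · rw [hPP, h1]
    exact (IntermediateField.adjoin L {incl A X}).mul_mem (C_mem _ _) (hmemL P)
  · rw [hQQ, h2]
    exact (IntermediateField.adjoin L {incl A X}).mul_mem (C_mem _ _) (hmemL Q)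
  · rw [hPP, rbar_eval₂]
    exact fun h0 => hP₀π (htr _ h0)
  · rw [hQQ, rbar_eval₂]
    exact fun h0 => hQ₀π (htr _ h0)
  · rw [hPP, hQQ, h1, h2, map_div₀]
    have hCQ : (HahnSeries.C cQ : LaurentSeries L) ≠ 0 := fun h0 =>
      hcQ (HahnSeries.C_injective (by rw [h0, map_zero]))
    field_simp

/-! ### The tower step -/

theorem closure_union_eq_adjoin' {F E : Type*} [Field F] [Field E] [Algebra F E]
    (M : IntermediateField F E) (x : E) :
    Subfield.closure ((M.toSubfield : Set E) ∪ {x})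
      = (IntermediateField.adjoin F ((M : Set E) ∪ {x})).toSubfield := by
  rw [IntermediateField.adjoin_toSubfield]
  congr 1
  have h : Set.range (algebraMap F E) ⊆ (M : Set E) ∪ {x} := by
    rintro _ ⟨a, rfl⟩
    exact Or.inl (M.algebraMap_mem a)
  rw [Set.union_eq_self_of_subset_left h]
  rfl

variable {F : IntermediateField L (LaurentSeries L)} {κ : IntermediateField k (LaurentSeries k)}

/-- Common scaling of finitely many elements of `F`, with a common integral denominator. -/
theorem GoodV.scaling_fin (h : GoodV A π F κ) {n : ℕ} (c : Fin n → LaurentSeries L)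
    (hc : ∀ t, c t ∈ F) (hne : ∃ t, c t ≠ 0) :
    ∃ (b : L) (Q : Fin n → LaurentSeries A) (s : LaurentSeries A), b ≠ 0 ∧ incl A s ∈ F ∧
      rbar A π s ≠ 0 ∧ rbar A π s ∈ κ ∧
      (∀ t, incl A (Q t) ∈ F ∧ rbar A π (Q t) ∈ κ ∧
        HahnSeries.C b * c t * incl A s = incl A (Q t)) ∧
      ∃ t₀, rbar A π (Q t₀) ≠ 0 := by
  classical
  -- data for each coefficient
  have H : ∀ t, ∃ (a : L) (P s : LaurentSeries A), a ≠ 0 ∧ incl A P ∈ F ∧ incl A s ∈ F ∧
      rbar A π s ≠ 0 ∧ rbar A π P ∈ κ ∧ rbar A π s ∈ κ ∧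
      HahnSeries.C a * c t * incl A s = incl A P ∧ (c t ≠ 0 → rbar A π P ≠ 0) := by
    intro t
    by_cases ht : c t = 0
    · refine ⟨1, 0, 1, one_ne_zero, ?_, ?_, ?_, ?_, ?_, ?_, fun h0 => absurd ht h0⟩
      · rw [map_zero]; exact F.zero_mem
      · rw [map_one]; exact F.one_mem
      · rw [map_one]; exact one_ne_zero
      · rw [map_zero]; exact κ.zero_mem
      · rw [map_one]; exact κ.one_mem
      · rw [ht, mul_zero, zero_mul, map_zero]
    · obtain ⟨a, P, s, ha, hPF, hsF, hP, hs, hPκ, hsκ, heq⟩ := h (c t) (hc t) ht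
      exact ⟨a, P, s, ha, hPF, hsF, hs, hPκ, hsκ, heq, fun _ => hP⟩
  choose a P s ha hPF hsF hs hPκ hsκ heq hPne using H
  -- the index of minimal valuation among the nonzero coefficients
  set S : Finset (Fin n) := Finset.univ.filter (fun t => c t ≠ 0) with hS
  have hSne : S.Nonempty := by
    obtain ⟨t, ht⟩ := hne
    exact ⟨t, by simp [hS, ht]⟩
  obtain ⟨t₀, ht₀S, hmin⟩ := S.exists_min_image (fun t => A.valuation (a t)) hSne
  have ht₀ : c t₀ ≠ 0 := (Finset.mem_filter.mp ht₀S).2
  set b : L := a t₀ with hb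
  have hbA : ∀ t, c t ≠ 0 → b / a t ∈ A := by
    intro t ht
    rw [← A.valuation_le_one_iff, map_div₀]
    have h1 := hmin t (by simp [hS, ht])
    have h2 : A.valuation (a t) ≠ 0 := (Valuation.ne_zero_iff _).mpr (ha t)
    rw [div_le_iff₀ (lt_of_le_of_ne zero_le h2.symm), one_mul]
    exact h1
  -- the scaling constants as elements of `A`
  set E : Fin n → A := fun t => if ht : c t ≠ 0 then ⟨b / a t, hbA t ht⟩ else 0 with hE
  have hσF : incl A (∏ t, s t) ∈ F := by
    rw [map_prod]
    exact F.prod_mem fun t _ => hsF t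
  have hσne : rbar A π (∏ t, s t) ≠ 0 := by
    rw [map_prod]
    exact Finset.prod_ne_zero_iff.mpr fun t _ => hs t
  have hσκ : rbar A π (∏ t, s t) ∈ κ := by
    rw [map_prod]
    exact κ.prod_mem fun t _ => hsκ t
  have hQeq : ∀ t, HahnSeries.C b * c t * incl A (∏ t, s t) =
      incl A (HahnSeries.C (E t) * P t * ∏ t' ∈ Finset.univ.erase t, s t') := by
    intro t
    rw [map_mul, map_mul, map_prod, map_prod, incl_C,
      ← Finset.mul_prod_erase Finset.univ (fun t' => incl A (s t')) (Finset.mem_univ t)]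
    by_cases ht : c t = 0
    · have hEt : E t = 0 := by rw [hE]; simp only; rw [dif_neg (not_not.mpr ht)]
      rw [ht, hEt]
      simp
    · have hEt : ((E t : A) : L) = b / a t := by rw [hE]; simp only; rw [dif_pos ht]
      rw [hEt, ← heq t, map_div₀]
      have hCa : (HahnSeries.C (a t) : LaurentSeries L) ≠ 0 := fun h0 =>
        ha t (HahnSeries.C_injective (by rw [h0, map_zero]))
      field_simp
  refine ⟨b, fun t => HahnSeries.C (E t) * P t * ∏ t' ∈ Finset.univ.erase t, s t', ∏ t, s t,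
    ha t₀, hσF, hσne, hσκ, fun t => ⟨?_, ?_, hQeq t⟩, t₀, ?_⟩
  · rw [← hQeq t]
    exact F.mul_mem (F.mul_mem (C_mem F b) (hc t)) hσF
  · rw [map_mul, map_mul, map_prod, rbar_C]
    exact κ.mul_mem (κ.mul_mem (C_mem κ _) (hPκ t)) (κ.prod_mem fun t' _ => hsκ t')
  · rw [map_mul, map_mul, map_prod, rbar_C]
    have hEt : E t₀ = 1 := by
      apply Subtype.ext
      rw [hE]
      simp only
      rw [dif_pos ht₀]
      show b / a t₀ = 1
      rw [hb, div_self (ha t₀)]
    rw [hEt, map_one, map_one, one_mul]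
    exact mul_ne_zero (hPne t₀ ht₀) (Finset.prod_ne_zero_iff.mpr fun t' _ => hs t')

/-- **Tower step.**  Adjoin an `A`-integral series `X` with `X^n ∈ ∑_{t<n} F X^t` whose reduction
has the powers `1, X̄, …, X̄^(n-1)` independent over `κ`. -/
theorem GoodV.step (h : GoodV A π F κ) (X : LaurentSeries A) {n : ℕ}
    (hdeg : ∃ a : Fin n → LaurentSeries L, (∀ t, a t ∈ F) ∧
      incl A X ^ n = ∑ t, a t * incl A X ^ (t : ℕ))
    (hind : ∀ c : Fin n → LaurentSeries k, (∀ t, c t ∈ κ) →
      ∑ t, c t * rbar A π X ^ (t : ℕ) = 0 → ∀ t, c t = 0) :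
    GoodV A π (IntermediateField.adjoin L ((F : Set (LaurentSeries L)) ∪ {incl A X}))
      (IntermediateField.adjoin k ((κ : Set (LaurentSeries k)) ∪ {rbar A π X})) := by
  intro y hy hy0
  set F' := IntermediateField.adjoin L ((F : Set (LaurentSeries L)) ∪ {incl A X}) with hF'
  set κ' := IntermediateField.adjoin k ((κ : Set (LaurentSeries k)) ∪ {rbar A π X}) with hκ'
  have hFle : ∀ z ∈ F, z ∈ F' := fun z hz =>
    IntermediateField.subset_adjoin L _ (Or.inl hz)
  have hxF' : incl A X ∈ F' := IntermediateField.subset_adjoin L _ (Or.inr rfl)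
  have hκle : ∀ z ∈ κ, z ∈ κ' := fun z hz =>
    IntermediateField.subset_adjoin k _ (Or.inl hz)
  have hxκ' : rbar A π X ∈ κ' := IntermediateField.subset_adjoin k _ (Or.inr rfl)
  have hy' : y ∈ Subfield.closure ((F.toSubfield : Set (LaurentSeries L)) ∪ {incl A X}) := by
    rw [closure_union_eq_adjoin']
    exact hy
  obtain ⟨c, hcF, hyc⟩ := Fermat.Agent.S28.Tower.exists_repr (F := F.toSubfield) hdeg hy'
  have hne : ∃ t, c t ≠ 0 := by
    by_contra hall
    push Not at hall
    apply hy0
    rw [hyc]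
    exact Finset.sum_eq_zero fun t _ => by rw [hall t, zero_mul]
  obtain ⟨b, Q, s, hb, hsF, hs, hsκ, hQ, t₀, ht₀⟩ := h.scaling_fin c hcF hne
  set P : LaurentSeries A := ∑ t, Q t * X ^ (t : ℕ) with hP
  have hPeq : HahnSeries.C b * y * incl A s = incl A P := by
    rw [hP, map_sum, hyc, Finset.mul_sum, Finset.sum_mul]
    refine Finset.sum_congr rfl fun t _ => ?_
    rw [map_mul, map_pow, ← (hQ t).2.2]
    ring
  have hPbar : rbar A π P = ∑ t, rbar A π (Q t) * rbar A π X ^ (t : ℕ) := by
    rw [hP, map_sum]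
    exact Finset.sum_congr rfl fun t _ => by rw [map_mul, map_pow]
  refine ⟨b, P, s, hb, ?_, hFle _ hsF, ?_, hs, ?_, hκle _ hsκ, hPeq⟩
  · rw [← hPeq]
    exact F'.mul_mem (F'.mul_mem (C_mem F' b) hy) (hFle _ hsF)
  · intro h0
    rw [hPbar] at h0
    exact ht₀ (hind (fun t => rbar A π (Q t)) (fun t => (hQ t).2.1) h0 t₀)
  · rw [hPbar]
    exact κ'.sum_mem fun t _ => κ'.mul_mem (hκle _ (hQ t).2.1) (pow_mem hxκ' _)

/-- **Good basis.**  In the situation of `GoodV.step`: if `∑ c_t X^t` (with `c_t ∈ F`) lies in the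
Gauss ring, then every `c_t` lies in the Gauss ring. -/
theorem GoodV.coeff_mem (h : GoodV A π F κ) (hπ : ∀ a : A, ¬ IsUnit a → π a = 0)
    (X : LaurentSeries A) {n : ℕ}
    (hind : ∀ c : Fin n → LaurentSeries k, (∀ t, c t ∈ κ) →
      ∑ t, c t * rbar A π X ^ (t : ℕ) = 0 → ∀ t, c t = 0)
    (c : Fin n → LaurentSeries L) (hcF : ∀ t, c t ∈ F)
    (hmem : ∑ t, c t * incl A X ^ (t : ℕ) ∈ gaussRing A π) : ∀ t, c t ∈ gaussRing A π := by
  by_cases hne : ∃ t, c t ≠ 0
  · obtain ⟨b, Q, s, hb, hsF, hs, hsκ, hQ, t₀, ht₀⟩ := h.scaling_fin c hcF hne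
    set y : LaurentSeries L := ∑ t, c t * incl A X ^ (t : ℕ) with hy
    set P : LaurentSeries A := ∑ t, Q t * X ^ (t : ℕ) with hP
    have hPeq : HahnSeries.C b * y * incl A s = incl A P := by
      rw [hP, map_sum, hy, Finset.mul_sum, Finset.sum_mul]
      refine Finset.sum_congr rfl fun t _ => ?_
      rw [map_mul, map_pow, ← (hQ t).2.2]
      ring
    have hPbar : rbar A π P = ∑ t, rbar A π (Q t) * rbar A π X ^ (t : ℕ) := by
      rw [hP, map_sum]
      exact Finset.sum_congr rfl fun t _ => by rw [map_mul, map_pow]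
    have hPne : rbar A π P ≠ 0 := by
      intro h0
      rw [hPbar] at h0
      exact ht₀ (hind (fun t => rbar A π (Q t)) (fun t => (hQ t).2.1) h0 t₀)
    have hby : HahnSeries.C b * y ∈ gaussRing A π := mem_gaussRing_of_mul_eq hs hPeq
    have hred : red A π ⟨_, hby⟩ ≠ 0 := by
      rw [red_of_mul_eq hs hPeq hby]
      exact div_ne_zero hPne hs
    have hinv : b⁻¹ ∈ A := inv_mem_of_red_ne_zero A π hπ hmem hby hred
    intro t
    have hbc : HahnSeries.C b * c t ∈ gaussRing A π := mem_gaussRing_of_mul_eq hs (hQ t).2.2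
    have : c t = HahnSeries.C b⁻¹ * (HahnSeries.C b * c t) := by
      rw [← mul_assoc, ← map_mul, inv_mul_cancel₀ hb, map_one, one_mul]
    rw [this]
    exact (gaussRing A π).mul_mem (C_mem_gaussRing A π hinv) hbc
  · push Not at hne
    intro t
    rw [hne t]
    exact (gaussRing A π).zero_mem

end

end Fermat.Agent.Lib.Red
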