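/-
ESJ / RED-G (3): the Gauss valuation of the modular function field `L·F_N` at a valuation
subring `A` of the constant field `L` (characteristic `0`), with residue characteristic prime
to `N`.

Inputs (hypotheses, to be discharged by the S28 library): the modular equations
`TD.ModEq r` and the base cases `TD.BaseCase r` for the primes `r ∣ N`.

* `goodV_FF` : `GoodV A π (TD.FF L n m) (TD.FF k n m)` for `n ∣ N`, all `m ≠ 0` (reversed tower);
* `laurentBaseChange_eq_FF`, `fullC_eq_FF` : the Prelude fields are `TD.FF _ N 1`;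
* `coeffMap_mem_fullC` : an `A`-integral series of `L·F_N` reduces into the mod-`ℓ` function
  field;
* `mem_or_inv_mem_gaussRing` : `L·F_N ∩ gaussRing` is a valuation ring of `L·F_N`;
* `principalGeneratedByIntegral` : the Prelude predicate `PrincipalGeneratedByIntegral`.
-/
import Mathlib
import Fermat.Prelude.Def_ModularCurve_ReductionModL
import Fermat.Agent.Lib.Red.GaussTower
import Fermat.Agent.S28.StepModL
import Fermat.Agent.S28.StepModLCore
import Fermat.Agent.S28.StepCore
import Fermat.Agent.S28.Char0Bridge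
import Fermat.Agent.S28.RouteT.Gen
import Fermat.Agent.S28.RouteT.Induction
import Fermat.Agent.S28.GaussBase

set_option autoImplicit false

namespace Fermat.Agent.Lib.Red

open HahnSeries ModularCurve Polynomial AlgebraicCurve Fermat.Agent.S28

noncomputable section

/-! ### Generalities on `coeffMap` and the generators -/

/-- Change of coefficients maps `adjoin K S` into `adjoin K' (coeffMap f '' S)`. -/
theorem coeffMap_mem_adjoin {K K' : Type*} [Field K] [Field K'] (f : K →+* K')
    (S : Set (LaurentSeries K)) {y : LaurentSeries K} (hy : y ∈ IntermediateField.adjoin K S) :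
    coeffMap f y ∈ IntermediateField.adjoin K' (coeffMap f '' S) := by
  have hle : (IntermediateField.adjoin K S).toSubfield ≤
      (IntermediateField.adjoin K' (coeffMap f '' S)).toSubfield.comap (coeffMap f) := by
    rw [IntermediateField.adjoin_toSubfield, Subfield.closure_le]
    rintro x (⟨a, rfl⟩ | hx)
    · show coeffMap f (algebraMap K (LaurentSeries K) a) ∈
        IntermediateField.adjoin K' (coeffMap f '' S)
      have h1 : coeffMap f (algebraMap K (LaurentSeries K) a)
          = algebraMap K' (LaurentSeries K') (f a) := by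
        rw [algebraMap_laurentSeries_eq_single, algebraMap_laurentSeries_eq_single,
          coeffMap_single]
      rw [h1]
      exact IntermediateField.algebraMap_mem _ _
    · exact IntermediateField.subset_adjoin K' _ ⟨x, hx, rfl⟩
  exact hle hy

/-- `J(q^e)` is transcendental over the constants. -/
theorem Jd_eval₂_eq_zero (k : Type*) [Field k] {e : ℕ} (he : e ≠ 0) (p : Polynomial k)
    (h : p.eval₂ (HahnSeries.C : k →+* LaurentSeries k) (TD.Jd k e) = 0) : p = 0 := by
  have : NeZero e := ⟨he⟩
  rw [TD.Jd_eq k e] at h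
  have h1 : qExpand k e (p.eval₂ (HahnSeries.C : k →+* LaurentSeries k) (jqModC k)) = 0 := by
    rw [Polynomial.hom_eval₂]
    have hc : (qExpand k e).comp (HahnSeries.C : k →+* LaurentSeries k) = HahnSeries.C := by
      ext c : 1
      exact qExpand_C e c
    rw [hc]
    exact h
  have h2 : p.eval₂ (HahnSeries.C : k →+* LaurentSeries k) (jqModC k) = 0 :=
    qExpand_injective e (by rw [h1, map_zero])
  exact GaussBase.eq_zero_of_eval₂_jqModC k p h2

section Tower

variable {L : Type*} [Field L] [Algebra ℚ L] (A : ValuationSubring L) {k : Type} [Field k]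
  (π : A →+* k)

omit [Algebra ℚ L] in
theorem incl_Jd (e : ℕ) : incl A (TD.Jd A e) = TD.Jd L e := TD.coeffMap_Jd A.subtype e

omit [Algebra ℚ L] in
theorem rbar_Jd (e : ℕ) : rbar A π (TD.Jd A e) = TD.Jd k e := TD.coeffMap_Jd π e

/-- The degree relation of the reversed step over `L` (base change of `Char0Bridge.step_TD`). -/
theorem hdeg_L {p : ℕ} (D : TD.ModEq p) (hp : 1 < p) (N' : ℕ) {m : ℕ} (hm : m ≠ 0) :
    ∃ a : Fin (if p ∣ N' then p else p + 1) → LaurentSeries L,
      (∀ t, a t ∈ TD.FF L N' (m * p)) ∧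
      TD.Jd L m ^ (if p ∣ N' then p else p + 1) = ∑ t, a t * TD.Jd L m ^ (t : ℕ) := by
  obtain ⟨a, -, ha, hrel⟩ := Char0Bridge.step_TD D hp N' hm
  refine ⟨fun t => coeffMap (algebraMap ℚ L) (a t),
    fun t => StepModLCore.coeffMap_mem_FF (algebraMap ℚ L) N' (m * p) (ha t), ?_⟩
  have h := congrArg (coeffMap (algebraMap ℚ L)) hrel
  rw [map_pow, map_sum, TD.coeffMap_Jd] at h
  rw [h]
  exact Finset.sum_congr rfl fun t _ => by rw [map_mul, map_pow, TD.coeffMap_Jd]

/-- Generation of the reversed step over `L` (base change of `RouteT.generation`). -/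
theorem hgen_L (N' p m : ℕ) (hN' : N' ≠ 0) (hm : m ≠ 0) (hp : p.Prime)
    (hME : ∀ r : ℕ, r.Prime → r ∣ N' * p → Nonempty (TD.ModEq r)) :
    TD.FF L (N' * p) m = IntermediateField.adjoin L
      ((TD.FF L N' (m * p) : Set (LaurentSeries L)) ∪ {TD.Jd L m}) := by
  apply le_antisymm
  · have hgen := RouteT.generation N' p m hN' hm hp hME
    have hle : IntermediateField.adjoin L
        ((fun d => TD.Jd L (m * d)) '' {d | d ∣ N' * p}) ≤
        IntermediateField.adjoin L
          ((TD.FF L N' (m * p) : Set (LaurentSeries L)) ∪ {TD.Jd L m}) := by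
      rw [IntermediateField.adjoin_le_iff]
      rintro _ ⟨d, hd, rfl⟩
      have h1 : TD.Jd ℚ (m * d) ∈ TD.FF ℚ (N' * p) m := TD.Jd_mem_FF ℚ hd
      rw [hgen] at h1
      have h2 := coeffMap_mem_adjoin (algebraMap ℚ L) _ h1
      rw [TD.coeffMap_Jd] at h2
      refine IntermediateField.adjoin.mono L _ _ ?_ h2
      rintro _ ⟨z, hz | hz, rfl⟩
      · exact Or.inl (StepModLCore.coeffMap_mem_FF (algebraMap ℚ L) N' (m * p) hz)
      · right
        rw [Set.mem_singleton_iff] at hz
        rw [hz, TD.coeffMap_Jd]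
        exact Set.mem_singleton _
    exact hle
  · rw [IntermediateField.adjoin_le_iff]
    rintro z (hz | hz)
    · exact RouteT.FF_le_FF_mul L N' p m hz
    · rw [Set.mem_singleton_iff] at hz
      rw [hz]
      exact RouteT.Jd_mem_FF_self L (N' * p) m

/-- The easy inclusion of the generation statement, over any field. -/
theorem adjoin_le_FF (K : Type*) [Field K] (N' p m : ℕ) :
    IntermediateField.adjoin K ((TD.FF K N' (m * p) : Set (LaurentSeries K)) ∪ {TD.Jd K m}) ≤
      TD.FF K (N' * p) m := by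
  rw [IntermediateField.adjoin_le_iff]
  rintro z (hz | hz)
  · exact RouteT.FF_le_FF_mul K N' p m hz
  · rw [Set.mem_singleton_iff] at hz
    rw [hz]
    exact RouteT.Jd_mem_FF_self K (N' * p) m

/-- **The Gauss valuation along the reversed tower.**  For `n ∣ N` and every `m ≠ 0` the field
`L(J(q^(m d)) : d ∣ n)` satisfies the invariant `GoodV` with residue field
`k(J̄(q^(m d)) : d ∣ n)`. -/
theorem goodV_FF (N : ℕ) (hN : N ≠ 0) (hNk : (N : k) ≠ 0)
    (hME : ∀ r : ℕ, r.Prime → r ∣ N → Nonempty (TD.ModEq r))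
    (hBC : ∀ r : ℕ, r.Prime → r ∣ N → TD.BaseCase r) :
    ∀ n : ℕ, n ≠ 0 → n ∣ N → ∀ m : ℕ, m ≠ 0 → GoodV A π (TD.FF L n m) (TD.FF k n m) := by
  intro n
  induction n using Nat.strong_induction_on with
  | _ n ih =>
    intro hn hnN m hm
    by_cases h1 : n = 1
    · subst h1
      rw [StepCore.FF_one_left, StepCore.FF_one_left, ← incl_Jd A, ← rbar_Jd A π]
      refine GoodV.base (TD.Jd A m) ?_
      rw [rbar_Jd]
      exact Jd_eval₂_eq_zero k hm
    · set p := n.minFac with hp_def
      have hp : p.Prime := Nat.minFac_prime h1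
      obtain ⟨n', hn'⟩ : ∃ n', n = n' * p := ⟨n / p, (Nat.div_mul_cancel (Nat.minFac_dvd n)).symm⟩
      have hn'0 : n' ≠ 0 := by
        rintro rfl
        exact hn (by rw [hn', zero_mul])
      have hn'lt : n' < n := by
        rw [hn']
        exact lt_mul_of_one_lt_right (Nat.pos_of_ne_zero hn'0) hp.one_lt
      have hn'N : n' ∣ N := (Dvd.intro _ hn'.symm).trans hnN
      have hdvd : n' * p ∣ N := hn' ▸ hnN
      have hpN : p ∣ N := (Dvd.intro_left n' rfl).trans hdvd
      have hmp : m * p ≠ 0 := Nat.mul_ne_zero hm hp.ne_zero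
      have hG := ih n' hn'lt hn'0 hn'N (m * p) hmp
      obtain ⟨D⟩ := hME p hp hpN
      have hdeg := hdeg_L (L := L) D hp.one_lt n' hm
      have hind := StepModL.hind_of_level k N hN hNk hME hBC n' p m hp hdvd hm
      have hstep := hG.step (TD.Jd A m) (n := if p ∣ n' then p else p + 1)
        (by rw [incl_Jd]; exact hdeg)
        (by rw [rbar_Jd]; exact hind)
      rw [incl_Jd, rbar_Jd, ← hgen_L n' p m hn'0 hm hp
        (fun r hr hrd => hME r hr (hrd.trans hdvd)), ← hn'] at hstep
      refine hstep.mono ?_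
      rw [hn']
      exact adjoin_le_FF k n' p m

end Tower

/-! ### The Prelude fields -/

/-- The base change of the full modular function field is `TD.FF L N 1`. -/
theorem laurentBaseChange_eq_FF (L : Type*) [Field L] [Algebra ℚ L] (N : ℕ) [NeZero N] :
    laurentBaseChange L (modularFunctionFieldFull N) = TD.FF L N 1 := by
  rw [← TD.FF_rat_one N]
  apply le_antisymm
  · unfold laurentBaseChange
    rw [IntermediateField.adjoin_le_iff]
    rintro _ ⟨z, hz, rfl⟩
    exact StepModLCore.coeffMap_mem_FF (algebraMap ℚ L) N 1 hz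
  · unfold TD.FF
    rw [IntermediateField.adjoin_le_iff]
    rintro _ ⟨d, hd, rfl⟩
    have h1 : TD.Jd ℚ (1 * d) ∈ TD.FF ℚ N 1 := TD.Jd_mem_FF ℚ hd
    have h2 := coeffEmb_mem_laurentBaseChange L (F₀ := TD.FF ℚ N 1) h1
    have h3 : coeffEmb L (TD.Jd ℚ (1 * d)) = TD.Jd L (1 * d) := TD.coeffMap_Jd _ _
    rw [h3] at h2
    exact h2

/-- The Prelude's mod-`ℓ` function field is `TD.FF k N 1`. -/
theorem fullC_eq_FF (k : Type*) [Field k] (N : ℕ) [NeZero N] :
    modularFunctionFieldFullC k N = TD.FF k N 1 := by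
  unfold TD.FF modularFunctionFieldFullC divisorExpansionsC
  congr 1
  ext x
  constructor
  · rintro ⟨d, hne, hd, rfl⟩
    exact ⟨d, hd, by simp only [one_mul]; exact TD.Jd_eq k d⟩
  · rintro ⟨d, hd, rfl⟩
    have hd0 : d ≠ 0 := fun h => NeZero.ne N (by simpa [h] using hd)
    have : NeZero d := ⟨hd0⟩
    exact ⟨d, ⟨hd0⟩, hd, by simp only [one_mul]; exact TD.Jd_eq k d⟩

/-! ### Consequences at level `N` -/

section Level

variable {L : Type*} [Field L] [Algebra ℚ L] (A : ValuationSubring L) {k : Type} [Field k]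
  (π : A →+* k) (N : ℕ) [NeZero N]

/-- The invariant for the Prelude fields. -/
theorem goodV_full (hNk : (N : k) ≠ 0)
    (hME : ∀ r : ℕ, r.Prime → r ∣ N → Nonempty (TD.ModEq r))
    (hBC : ∀ r : ℕ, r.Prime → r ∣ N → TD.BaseCase r) :
    GoodV A π (laurentBaseChange L (modularFunctionFieldFull N)) (modularFunctionFieldFullC k N) := by
  rw [laurentBaseChange_eq_FF, fullC_eq_FF]
  exact goodV_FF A π N (NeZero.ne N) hNk hME hBC N (NeZero.ne N) dvd_rfl 1 one_ne_zero

/-- An `A`-integral series lying in `L·F_N` reduces into the mod-`ℓ` function field. -/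
theorem coeffMap_mem_fullC (hπ : ∀ a : A, ¬ IsUnit a → π a = 0) (hNk : (N : k) ≠ 0)
    (hME : ∀ r : ℕ, r.Prime → r ∣ N → Nonempty (TD.ModEq r))
    (hBC : ∀ r : ℕ, r.Prime → r ∣ N → TD.BaseCase r) (y : LaurentSeries A)
    (hy : coeffMap A.subtype y ∈ laurentBaseChange L (modularFunctionFieldFull N)) :
    coeffMap π y ∈ modularFunctionFieldFullC k N := by
  have h := (goodV_full A π N hNk hME hBC).red_mem hπ ⟨incl A y, incl_mem_gaussRing A π y⟩ hy
  rwa [red_incl] at h

/-- `L·F_N ∩ gaussRing` is a valuation ring of `L·F_N`. -/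
theorem mem_or_inv_mem_gaussRing (hNk : (N : k) ≠ 0)
    (hME : ∀ r : ℕ, r.Prime → r ∣ N → Nonempty (TD.ModEq r))
    (hBC : ∀ r : ℕ, r.Prime → r ∣ N → TD.BaseCase r) {y : LaurentSeries L}
    (hy : y ∈ laurentBaseChange L (modularFunctionFieldFull N)) :
    y ∈ gaussRing A π ∨ y⁻¹ ∈ gaussRing A π :=
  (goodV_full A π N hNk hME hBC).mem_or_inv_mem hy

/-- the order of a nonzero constant at a place is `0` -/
theorem ord_algebraMap {K F : Type*} [Field K] [Field F] [Algebra K F] (v : Place K F) {a : K}
    (ha : a ≠ 0) : v.ord (algebraMap K F a) = 0 := by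
  have hu : IsUnit (algebraMap K v.toValuationSubring a) := (Ne.isUnit ha).map _
  have h := v.ord_coe_unit hu.unit
  rwa [IsUnit.unit_spec, Place.coe_algebraMap] at h

/-- **`PrincipalGeneratedByIntegral`**: every principal divisor of `L·F_N` is a difference of
divisors of `A`-integral series with nonzero reduction in the mod-`ℓ` function field.  (`hfin`:
principal divisors exist, i.e. every nonzero function has finitely many zeros and poles.) -/
theorem principalGeneratedByIntegral (hNk : (N : k) ≠ 0)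
    (hME : ∀ r : ℕ, r.Prime → r ∣ N → Nonempty (TD.ModEq r))
    (hBC : ∀ r : ℕ, r.Prime → r ∣ N → TD.BaseCase r)
    (hfin : ∀ f : laurentBaseChange L (modularFunctionFieldFull N), f ≠ 0 →
      ∃ D : Divisor L (laurentBaseChange L (modularFunctionFieldFull N)), ∀ P, D P = P.ord f) :
    PrincipalGeneratedByIntegral A π N := by
  intro D hD
  obtain ⟨f, hf0, hDf⟩ := hD
  have hf0' : (f : LaurentSeries L) ≠ 0 := fun h => hf0 (Subtype.ext h)
  obtain ⟨a, P, s, ha, hPF, hsF, hP, hs, hPκ, hsκ, heq⟩ :=
    goodV_full A π N hNk hME hBC (f : LaurentSeries L) f.2 hf0'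
  set fP : laurentBaseChange L (modularFunctionFieldFull N) := ⟨incl A P, hPF⟩ with hfP
  set fs : laurentBaseChange L (modularFunctionFieldFull N) := ⟨incl A s, hsF⟩ with hfs
  have hfs0 : fs ≠ 0 := by
    intro h0
    have h1 : incl A s = 0 := congrArg Subtype.val h0
    have h2 : s = 0 := incl_injective A (by rw [h1, map_zero])
    exact hs (by rw [h2, map_zero])
  have hfP0 : fP ≠ 0 := by
    intro h0
    have h1 : incl A P = 0 := congrArg Subtype.val h0
    have h2 : P = 0 := incl_injective A (by rw [h1, map_zero])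
    exact hP (by rw [h2, map_zero])
  have hrel : algebraMap L (laurentBaseChange L (modularFunctionFieldFull N)) a * f * fs = fP := by
    apply Subtype.ext
    show algebraMap L (LaurentSeries L) a * (f : LaurentSeries L) * incl A s = incl A P
    rw [← C_eq_algebraMap]
    exact heq
  have hca0 : algebraMap L (laurentBaseChange L (modularFunctionFieldFull N)) a ≠ 0 := by
    rw [Ne, map_eq_zero]
    exact ha
  obtain ⟨DP, hDP⟩ := hfin fP hfP0
  obtain ⟨Ds, hDs⟩ := hfin fs hfs0
  have hDeq : D = DP - Ds := by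
    ext v
    rw [Finsupp.sub_apply, hDf v, hDP v, hDs v, ← hrel, v.ord_mul (mul_ne_zero hca0 hf0) hfs0,
      v.ord_mul hca0 hf0, ord_algebraMap v ha]
    ring
  rw [hDeq]
  refine AddSubgroup.sub_mem _ (AddSubgroup.subset_closure ?_) (AddSubgroup.subset_closure ?_)
  · exact ⟨P, hPF, hPκ, hP, hDP⟩
  · exact ⟨s, hsF, hsκ, hs, hDs⟩

end Level

end

end Fermat.Agent.Lib.Red
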