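/-
ESJ / RED: the inputs `hME`, `hBC` of `Lib/Red/Level.lean` are theorems (S28's modular equation
package `ModEqX.exists_modEqData` and the base case `BaseCaseA`), so the Gauss-valuation results
hold unconditionally.
-/
import Mathlib
import Fermat.Agent.Lib.Red.Level
import Fermat.Agent.S28.ModEqX.Main
import Fermat.Agent.S28.BaseCaseA

set_option autoImplicit false

namespace Fermat.Agent.Lib.Red

open HahnSeries ModularCurve Polynomial AlgebraicCurve Fermat.Agent.S28

noncomputable section

/-- The modular equation of every prime level. -/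
theorem modEq_all (r : ℕ) (hr : r.Prime) : Nonempty (TD.ModEq r) := by
  have : NeZero r := ⟨hr.ne_zero⟩
  obtain ⟨D⟩ := ModEqX.exists_modEqData r hr
  exact ⟨Char0Bridge.modEqDataToTD D⟩

/-- The base case of every prime level. -/
theorem baseCase_all (r : ℕ) (hr : r.Prime) : TD.BaseCase r := by
  have : NeZero r := ⟨hr.ne_zero⟩
  obtain ⟨D⟩ := ModEqX.exists_modEqData r hr
  intro K _ hK
  have h := BaseCaseA.not_mem_adjoin_of_modEqData (K := K) hr D hK
  rw [TD.Jd_eq_jqNModC K r, TD.Jd_one]
  exact h

variable {L : Type*} [Field L] [Algebra ℚ L] (A : ValuationSubring L) {k : Type} [Field k]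
  (π : A →+* k) (N : ℕ) [NeZero N]

/-- `GoodV` along the reversed tower, unconditionally. -/
theorem goodV_FF' (hNk : (N : k) ≠ 0) :
    ∀ n : ℕ, n ≠ 0 → n ∣ N → ∀ m : ℕ, m ≠ 0 → GoodV A π (TD.FF L n m) (TD.FF k n m) :=
  goodV_FF A π N (NeZero.ne N) hNk (fun r hr _ => modEq_all r hr) (fun r hr _ => baseCase_all r hr)

/-- The invariant for the Prelude fields, unconditionally. -/
theorem goodV_full' (hNk : (N : k) ≠ 0) :
    GoodV A π (laurentBaseChange L (modularFunctionFieldFull N)) (modularFunctionFieldFullC k N) :=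
  goodV_full A π N hNk (fun r hr _ => modEq_all r hr) (fun r hr _ => baseCase_all r hr)

/-- An `A`-integral series lying in `L·F_N` reduces into the mod-`ℓ` function field. -/
theorem coeffMap_mem_fullC' (hπ : ∀ a : A, ¬ IsUnit a → π a = 0) (hNk : (N : k) ≠ 0)
    (y : LaurentSeries A)
    (hy : coeffMap A.subtype y ∈ laurentBaseChange L (modularFunctionFieldFull N)) :
    coeffMap π y ∈ modularFunctionFieldFullC k N :=
  coeffMap_mem_fullC A π N hπ hNk (fun r hr _ => modEq_all r hr)
    (fun r hr _ => baseCase_all r hr) y hy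

/-- `L·F_N ∩ gaussRing` is a valuation ring of `L·F_N`. -/
theorem mem_or_inv_mem_gaussRing' (hNk : (N : k) ≠ 0) {y : LaurentSeries L}
    (hy : y ∈ laurentBaseChange L (modularFunctionFieldFull N)) :
    y ∈ gaussRing A π ∨ y⁻¹ ∈ gaussRing A π :=
  mem_or_inv_mem_gaussRing A π N hNk (fun r hr _ => modEq_all r hr)
    (fun r hr _ => baseCase_all r hr) hy

/-- **`PrincipalGeneratedByIntegral`**, with only the finiteness of divisors of functions as
hypothesis. -/
theorem principalGeneratedByIntegral' (hNk : (N : k) ≠ 0)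
    (hfin : ∀ f : laurentBaseChange L (modularFunctionFieldFull N), f ≠ 0 →
      ∃ D : Divisor L (laurentBaseChange L (modularFunctionFieldFull N)), ∀ P, D P = P.ord f) :
    PrincipalGeneratedByIntegral A π N :=
  principalGeneratedByIntegral A π N hNk (fun r hr _ => modEq_all r hr)
    (fun r hr _ => baseCase_all r hr) hfin

end

end Fermat.Agent.Lib.Red
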