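/-
ESJ / RED (V0): the Gauss valuation ring `O_w` of the modular function field `L·F_N` at a
valuation subring `A` of the constant field `L`, as a `ValuationSubring`, with its residue map
onto the mod-`ℓ` function field.

* `Ow A π N hNk : ValuationSubring ↥(L·F_N)`  (`f ∈ Ow ↔ (f : L((q))) ∈ gaussRing A π`);
* `redF A π N hπ hNk : Ow →+* ↥(modularFunctionFieldFullC k N)`;
* `redF_eq_zero_iff` (kernel = nonunits), `redF_surjective` (for surjective `π`);
* `exists_scaling` : every nonzero function is a constant times a unit of `Ow`;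
* `algebraMap_mem_Ow_iff`, `redF_algebraMap`, `redF_incl`.
-/
import Mathlib
import Fermat.Agent.Lib.Red.Unconditional

set_option autoImplicit false

namespace Fermat.Agent.Lib.Red

open HahnSeries ModularCurve Polynomial AlgebraicCurve Fermat.Agent.S28

noncomputable section

variable {L : Type*} [Field L] [Algebra ℚ L] (A : ValuationSubring L) {k : Type} [Field k]
  (π : A →+* k) (N : ℕ) [NeZero N]

/-- The Gauss valuation ring of `L·F_N`. -/
def Ow (hNk : (N : k) ≠ 0) :
    ValuationSubring ↥(laurentBaseChange L (modularFunctionFieldFull N)) where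
  carrier := {f | (f : LaurentSeries L) ∈ gaussRing A π}
  mul_mem' := fun {a b} ha hb => (gaussRing A π).mul_mem ha hb
  one_mem' := (gaussRing A π).one_mem
  add_mem' := fun {a b} ha hb => (gaussRing A π).add_mem ha hb
  zero_mem' := (gaussRing A π).zero_mem
  neg_mem' := fun {a} ha => (gaussRing A π).neg_mem ha
  mem_or_inv_mem' := fun f => by
    rcases mem_or_inv_mem_gaussRing' A π N hNk f.2 with h | h
    · exact Or.inl h
    · exact Or.inr h

variable {A π N}

theorem mem_Ow_iff (hNk : (N : k) ≠ 0)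
    (f : ↥(laurentBaseChange L (modularFunctionFieldFull N))) :
    f ∈ Ow A π N hNk ↔ (f : LaurentSeries L) ∈ gaussRing A π := Iff.rfl

variable (A π N)

/-- The inclusion of `Ow` into the Gauss ring. -/
def OwToGauss (hNk : (N : k) ≠ 0) : Ow A π N hNk →+* gaussRing A π :=
  (((laurentBaseChange L (modularFunctionFieldFull N)).val.toRingHom).comp
    (Ow A π N hNk).subtype).codRestrict (gaussRing A π) (fun f => f.2)

/-- The residue map of the Gauss valuation ring, with values in the mod-`ℓ` function field. -/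
def redF (hπ : ∀ a : A, ¬ IsUnit a → π a = 0) (hNk : (N : k) ≠ 0) :
    Ow A π N hNk →+* ↥(modularFunctionFieldFullC k N) :=
  ((red A π).comp (OwToGauss A π N hNk)).codRestrict (modularFunctionFieldFullC k N)
    (fun f => (goodV_full' A π N hNk).red_mem hπ (OwToGauss A π N hNk f)
      (f : ↥(laurentBaseChange L (modularFunctionFieldFull N))).2)

variable {A π N}

theorem coe_OwToGauss (hNk : (N : k) ≠ 0) (f : Ow A π N hNk) :
    (OwToGauss A π N hNk f : LaurentSeries L) =
      ((f : ↥(laurentBaseChange L (modularFunctionFieldFull N))) : LaurentSeries L) := rfl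

theorem coe_redF (hπ : ∀ a : A, ¬ IsUnit a → π a = 0) (hNk : (N : k) ≠ 0)
    (f : Ow A π N hNk) :
    ((redF A π N hπ hNk f : ↥(modularFunctionFieldFullC k N)) : LaurentSeries k) =
      red A π (OwToGauss A π N hNk f) := rfl

/-- The kernel of the residue map is the maximal ideal. -/
theorem redF_eq_zero_iff (hπ : ∀ a : A, ¬ IsUnit a → π a = 0) (hNk : (N : k) ≠ 0)
    (f : Ow A π N hNk) : redF A π N hπ hNk f = 0 ↔ ¬ IsUnit f := by
  constructor
  · intro h hu
    have := hu.map (redF A π N hπ hNk)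
    rw [h] at this
    exact not_isUnit_zero this
  · intro hnu
    by_contra hne
    apply hnu
    have hne' : red A π ⟨(f : ↥(laurentBaseChange L (modularFunctionFieldFull N))), f.2⟩ ≠ 0 :=
      fun h0 => hne (Subtype.ext h0)
    have hinv := inv_mem_gaussRing A π f.2 hne'
    have hf0 : (f : ↥(laurentBaseChange L (modularFunctionFieldFull N))) ≠ 0 := by
      intro h0
      apply hne
      have : f = 0 := Subtype.ext h0
      rw [this, map_zero]
    refine IsUnit.of_mul_eq_one (⟨(f : ↥(laurentBaseChange L (modularFunctionFieldFull N)))⁻¹,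
      hinv⟩ : Ow A π N hNk) ?_
    apply Subtype.ext
    exact mul_inv_cancel₀ hf0

/-- A constant lies in `Ow` iff it lies in `A`. -/
theorem algebraMap_mem_Ow_iff (hπ : ∀ a : A, ¬ IsUnit a → π a = 0) (hNk : (N : k) ≠ 0) (a : L) :
    algebraMap L ↥(laurentBaseChange L (modularFunctionFieldFull N)) a ∈ Ow A π N hNk ↔ a ∈ A := by
  constructor
  · intro h
    by_contra ha
    have h' : (HahnSeries.C a : LaurentSeries L) ∈ gaussRing A π := by
      rw [C_eq_algebraMap]
      exact h
    have ha0 : a ≠ 0 := fun h0 => ha (h0 ▸ A.zero_mem)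
    have hinv : a⁻¹ ∈ A := (A.mem_or_inv_mem a).resolve_left ha
    have hpi := pi_inv_eq_zero A π hπ ha
    have h1 : red A π ⟨_, h'⟩ * red A π ⟨_, C_mem_gaussRing A π hinv⟩ = 1 := by
      rw [← map_mul]
      have : (⟨_, h'⟩ : gaussRing A π) * ⟨_, C_mem_gaussRing A π hinv⟩ = 1 := by
        apply Subtype.ext
        show (HahnSeries.C a : LaurentSeries L) * HahnSeries.C a⁻¹ = 1
        rw [← map_mul, mul_inv_cancel₀ ha0, map_one]
      rw [this, map_one]
    rw [red_C A π hinv, hpi, map_zero, mul_zero] at h1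
    exact zero_ne_one h1
  · intro ha
    show (algebraMap L (LaurentSeries L) a) ∈ gaussRing A π
    rw [← C_eq_algebraMap]
    exact C_mem_gaussRing A π ha

theorem redF_algebraMap (hπ : ∀ a : A, ¬ IsUnit a → π a = 0) (hNk : (N : k) ≠ 0) (a : A) :
    redF A π N hπ hNk ⟨algebraMap L _ (a : L),
      (algebraMap_mem_Ow_iff hπ hNk (a : L)).mpr a.2⟩ =
      algebraMap k ↥(modularFunctionFieldFullC k N) (π a) := by
  apply Subtype.ext
  rw [coe_redF]
  have e : OwToGauss A π N hNk ⟨algebraMap L _ (a : L),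
      (algebraMap_mem_Ow_iff hπ hNk (a : L)).mpr a.2⟩ =
      ⟨HahnSeries.C (a : L), C_mem_gaussRing A π a.2⟩ :=
    Subtype.ext (C_eq_algebraMap (a : L)).symm
  rw [e, red_C A π a.2, C_eq_algebraMap]
  rfl

/-- The residue of an `A`-integral series of `L·F_N` is its coefficientwise reduction. -/
theorem coe_redF_incl (hπ : ∀ a : A, ¬ IsUnit a → π a = 0) (hNk : (N : k) ≠ 0)
    (y : LaurentSeries A) (hy : incl A y ∈ laurentBaseChange L (modularFunctionFieldFull N)) :
    ((redF A π N hπ hNk ⟨⟨incl A y, hy⟩, incl_mem_gaussRing A π y⟩ :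
      ↥(modularFunctionFieldFullC k N)) : LaurentSeries k) = rbar A π y := by
  rw [coe_redF]
  exact red_incl A π y

/-- Every nonzero function is a nonzero constant times a unit of `Ow`. -/
theorem exists_scaling_Ow (hπ : ∀ a : A, ¬ IsUnit a → π a = 0) (hNk : (N : k) ≠ 0)
    (f : ↥(laurentBaseChange L (modularFunctionFieldFull N))) (hf : f ≠ 0) :
    ∃ a : L, a ≠ 0 ∧ ∃ h : algebraMap L _ a * f ∈ Ow A π N hNk,
      redF A π N hπ hNk ⟨_, h⟩ ≠ 0 := by
  have hf' : (f : LaurentSeries L) ≠ 0 := fun h => hf (Subtype.ext h)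
  obtain ⟨a, ha, hmem, hne, -⟩ := (goodV_full' A π N hNk).exists_scaling f.2 hf'
  have hmem' : algebraMap L ↥(laurentBaseChange L (modularFunctionFieldFull N)) a * f ∈
      Ow A π N hNk := by
    show algebraMap L (LaurentSeries L) a * (f : LaurentSeries L) ∈ gaussRing A π
    rw [← C_eq_algebraMap]
    exact hmem
  refine ⟨a, ha, hmem', ?_⟩
  intro h0
  apply hne
  have h1 := congrArg Subtype.val h0
  rw [coe_redF] at h1
  have h2 : (⟨HahnSeries.C a * (f : LaurentSeries L), hmem⟩ : gaussRing A π) =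
      ⟨((algebraMap L ↥(laurentBaseChange L (modularFunctionFieldFull N)) a * f :
        ↥(laurentBaseChange L (modularFunctionFieldFull N))) : LaurentSeries L), hmem'⟩ := by
    apply Subtype.ext
    show HahnSeries.C a * (f : LaurentSeries L) =
      algebraMap L (LaurentSeries L) a * (f : LaurentSeries L)
    rw [C_eq_algebraMap]
  rw [h2]
  exact h1

/-- The residue map is surjective onto the mod-`ℓ` function field. -/
theorem redF_surjective (hπ : ∀ a : A, ¬ IsUnit a → π a = 0) (hsurj : Function.Surjective π)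
    (hNk : (N : k) ≠ 0) : Function.Surjective (redF A π N hπ hNk) := by
  rintro ⟨z, hz⟩
  have key : ∀ z ∈ TD.FF k N 1, ∃ f : Ow A π N hNk,
      ((redF A π N hπ hNk f : ↥(modularFunctionFieldFullC k N)) : LaurentSeries k) = z := by
    intro z hz
    unfold TD.FF at hz
    induction hz using IntermediateField.adjoin_induction with
    | mem x hx =>
      obtain ⟨d, hd, rfl⟩ := hx
      have hmem : incl A (TD.Jd A (1 * d)) ∈ laurentBaseChange L (modularFunctionFieldFull N) := by
        rw [incl_Jd, laurentBaseChange_eq_FF]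
        exact TD.Jd_mem_FF L hd
      refine ⟨⟨⟨incl A (TD.Jd A (1 * d)), hmem⟩, incl_mem_gaussRing A π _⟩, ?_⟩
      rw [coe_redF_incl hπ hNk, rbar_Jd]
    | algebraMap x =>
      obtain ⟨a, rfl⟩ := hsurj x
      refine ⟨⟨algebraMap L _ (a : L), (algebraMap_mem_Ow_iff hπ hNk (a : L)).mpr a.2⟩, ?_⟩
      rw [redF_algebraMap hπ hNk a]
      rfl
    | add x y _ _ hx hy =>
      obtain ⟨f, rfl⟩ := hx
      obtain ⟨g, rfl⟩ := hy
      exact ⟨f + g, by rw [map_add]; rfl⟩
    | inv x _ hx =>
      obtain ⟨f, rfl⟩ := hx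
      by_cases h0 : redF A π N hπ hNk f = 0
      · refine ⟨0, ?_⟩
        rw [h0, map_zero]
        simp
      · have hu : IsUnit f := by
          by_contra hnu
          exact h0 ((redF_eq_zero_iff hπ hNk f).mpr hnu)
        obtain ⟨u, rfl⟩ := hu
        refine ⟨((u⁻¹ : (Ow A π N hNk)ˣ) : Ow A π N hNk), ?_⟩
        have h1 : redF A π N hπ hNk ((u⁻¹ : (Ow A π N hNk)ˣ) : Ow A π N hNk) *
            redF A π N hπ hNk (u : Ow A π N hNk) = 1 := by
          rw [← map_mul, Units.inv_mul, map_one]
        have h2 := eq_inv_of_mul_eq_one_left h1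
        rw [h2]
        rfl
    | mul x y _ _ hx hy =>
      obtain ⟨f, rfl⟩ := hx
      obtain ⟨g, rfl⟩ := hy
      exact ⟨f * g, by rw [map_mul]; rfl⟩
  have hz' : z ∈ TD.FF k N 1 := by
    rw [← fullC_eq_FF]
    exact hz
  obtain ⟨f, hf⟩ := key z hz'
  exact ⟨f, Subtype.ext hf⟩

end

end Fermat.Agent.Lib.Red
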