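/-
ESJ / RED (V2, abstract): good bases of a valued field extension.

Setting: a field `F` with a valuation subring `O` and residue map `red : O →+* E` onto a field
`E` (kernel = nonunits); a subfield situation `F₀ → F`, `E₀ → E` with a valuation subring `O₀`
of `F₀` and `red₀ : O₀ →+* E₀` compatible with `(O, red)`.

A *good family* is a finite family `b i ∈ O` whose reductions are linearly independent over
`E₀`.  Then

* `coeff_mem` : `∑ c i • b i ∈ O` forces `c i ∈ O₀` (orthonormality);
* `linearIndependent` : the `b i` are linearly independent over `F₀`;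
* `span_red` : if the `b i` span `F` and `red` is onto, the reductions span `E`;
* `basisF`, `basisE` : the two bases; `finrank_eq`;
* `leftMulMatrix_mem`, `red_leftMulMatrix` : the matrix of multiplication by `y ∈ O` has entries
  in `O₀` and reduces to the matrix of multiplication by `red y`;
* `trace_mem`/`red_trace`, `norm_mem`/`red_norm`, `exists_charpoly` : reduction of trace, norm
  and characteristic polynomial.
-/
import Mathlib

set_option autoImplicit false

namespace Fermat.Agent.Lib.Red.Ortho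

open scoped BigOperators

open Module

noncomputable section

variable {F E : Type*} [Field F] [Field E] {O : ValuationSubring F} {red : O →+* E}
variable {F₀ E₀ : Type*} [Field F₀] [Field E₀] [Algebra F₀ F] [Algebra E₀ E]
variable {O₀ : ValuationSubring F₀} {red₀ : O₀ →+* E₀}

/-- Compatibility of the valued subfield `(F₀, O₀, red₀)` with `(F, O, red)`. -/
structure Compat (O : ValuationSubring F) (red : O →+* E) (O₀ : ValuationSubring F₀)
    (red₀ : O₀ →+* E₀) : Prop where
  ker : ∀ y : O, red y = 0 ↔ ¬ IsUnit y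
  mem_iff : ∀ c : F₀, c ∈ O₀ ↔ algebraMap F₀ F c ∈ O
  red_comp : ∀ (c : O₀) (h : algebraMap F₀ F (c : F₀) ∈ O),
    red ⟨_, h⟩ = algebraMap E₀ E (red₀ c)

namespace Compat

variable (hC : Compat O red O₀ red₀)

include hC

/-- The inclusion `O₀ → O`. -/
theorem algebraMap_mem (c : O₀) : algebraMap F₀ F (c : F₀) ∈ O := (hC.mem_iff _).mp c.2

theorem red_algebraMap (c : O₀) :
    red ⟨algebraMap F₀ F (c : F₀), hC.algebraMap_mem c⟩ = algebraMap E₀ E (red₀ c) :=
  hC.red_comp c _

/-- The kernel of `red₀` is the set of nonunits of `O₀`. -/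
theorem ker₀ (c : O₀) : red₀ c = 0 ↔ ¬ IsUnit c := by
  have h1 : red₀ c = 0 ↔ red ⟨algebraMap F₀ F (c : F₀), hC.algebraMap_mem c⟩ = 0 := by
    constructor
    · intro h
      rw [hC.red_algebraMap, h, map_zero]
    · intro h
      rw [hC.red_algebraMap] at h
      exact (map_eq_zero (algebraMap E₀ E)).mp h
  rw [h1, hC.ker]
  apply not_congr
  constructor
  · intro hu
    obtain ⟨w, hw⟩ := hu.exists_right_inv
    have hw' : algebraMap F₀ F (c : F₀) * (w : F) = 1 := congrArg Subtype.val hw
    have hc0 : (c : F₀) ≠ 0 := by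
      intro h0
      rw [h0, map_zero, zero_mul] at hw'
      exact zero_ne_one hw'
    have hwc : (w : F) = algebraMap F₀ F (c : F₀)⁻¹ := by
      rw [map_inv₀]
      exact eq_inv_of_mul_eq_one_right hw'
    have hinv : (c : F₀)⁻¹ ∈ O₀ := by
      rw [hC.mem_iff, ← hwc]
      exact w.2
    exact IsUnit.of_mul_eq_one (⟨(c : F₀)⁻¹, hinv⟩ : O₀) (Subtype.ext (mul_inv_cancel₀ hc0))
  · intro hu
    obtain ⟨w, hw⟩ := hu.exists_right_inv
    refine IsUnit.of_mul_eq_one (⟨algebraMap F₀ F (w : F₀), hC.algebraMap_mem w⟩ : O) ?_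
    apply Subtype.ext
    show algebraMap F₀ F (c : F₀) * algebraMap F₀ F (w : F₀) = 1
    rw [← map_mul]
    have : (c : F₀) * (w : F₀) = 1 := congrArg Subtype.val hw
    rw [this, map_one]

variable {ι : Type*} [Fintype ι]

/-- **Scaling.**  A nonzero `F₀`-combination of a good family becomes, after division by a
coefficient of maximal size, an element of `O` with nonzero reduction. -/
theorem exists_scale (b : ι → O) (hind : LinearIndependent E₀ (fun i => red (b i)))
    (c : ι → F₀) (hc : c ≠ 0) :
    ∃ j, c j ≠ 0 ∧ (∀ i, c i / c j ∈ O₀) ∧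
      ∃ h : algebraMap F₀ F (c j)⁻¹ * ∑ i, algebraMap F₀ F (c i) * (b i : F) ∈ O,
        red ⟨_, h⟩ ≠ 0 := by
  classical
  obtain ⟨i₀, hi₀⟩ : ∃ i, c i ≠ 0 := by
    by_contra hall
    push Not at hall
    exact hc (funext hall)
  obtain ⟨j, -, hj⟩ := Finset.exists_max_image Finset.univ (fun i => O₀.valuation (c i))
    ⟨i₀, Finset.mem_univ _⟩
  have hcj : c j ≠ 0 := by
    intro h0
    have h1 := hj i₀ (Finset.mem_univ _)
    rw [h0, map_zero] at h1
    exact hi₀ ((map_eq_zero (O₀.valuation)).mp (le_antisymm h1 zero_le))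
  have hdiv : ∀ i, c i / c j ∈ O₀ := by
    intro i
    rw [← O₀.valuation_le_one_iff, map_div₀]
    exact div_le_one_of_le₀ (hj i (Finset.mem_univ _)) zero_le
  refine ⟨j, hcj, hdiv, ?_⟩
  set d : ι → O₀ := fun i => ⟨c i / c j, hdiv i⟩ with hd
  set y' : O := ∑ i, ⟨algebraMap F₀ F (d i : F₀), hC.algebraMap_mem (d i)⟩ * b i with hy'
  have hval : (y' : F) = algebraMap F₀ F (c j)⁻¹ * ∑ i, algebraMap F₀ F (c i) * (b i : F) := by
    rw [hy', Finset.mul_sum]
    have : ((∑ i, (⟨algebraMap F₀ F (d i : F₀), hC.algebraMap_mem (d i)⟩ : O) * b i : O) : F) =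
        ∑ i, algebraMap F₀ F (d i : F₀) * (b i : F) := by
      rw [← O.subtype_apply, map_sum]
      rfl
    rw [this]
    refine Finset.sum_congr rfl fun i _ => ?_
    rw [hd]
    simp only [map_div₀, map_inv₀]
    ring
  have hmem : algebraMap F₀ F (c j)⁻¹ * ∑ i, algebraMap F₀ F (c i) * (b i : F) ∈ O := by
    rw [← hval]
    exact y'.2
  refine ⟨hmem, ?_⟩
  have hsub : (⟨_, hmem⟩ : O) = y' := Subtype.ext hval.symm
  rw [hsub, hy', map_sum]
  intro h0
  have h1 : ∑ i, red₀ (d i) • red (b i) = 0 := by
    rw [← h0]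
    refine Finset.sum_congr rfl fun i _ => ?_
    rw [map_mul, hC.red_algebraMap, Algebra.smul_def]
  have h2 := (Fintype.linearIndependent_iff.mp hind) (fun i => red₀ (d i)) h1 j
  have h3 : d j = 1 := by
    apply Subtype.ext
    show c j / c j = 1
    exact div_self hcj
  rw [h3, map_one] at h2
  exact one_ne_zero h2

/-- **Orthonormality.**  If a combination of a good family lies in `O`, its coefficients lie in
`O₀`. -/
theorem coeff_mem (b : ι → O) (hind : LinearIndependent E₀ (fun i => red (b i)))
    (c : ι → F₀) (h : ∑ i, algebraMap F₀ F (c i) * (b i : F) ∈ O) : ∀ i, c i ∈ O₀ := by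
  by_cases hc : c = 0
  · intro i
    rw [hc]
    exact O₀.zero_mem
  · obtain ⟨j, hcj, hdiv, hmem, hne⟩ := hC.exists_scale b hind c hc
    have hu : IsUnit (⟨_, hmem⟩ : O) := by
      by_contra hnu
      exact hne ((hC.ker _).mpr hnu)
    obtain ⟨w, hw⟩ := hu.exists_left_inv
    have hw' : (w : F) * (algebraMap F₀ F (c j)⁻¹ * ∑ i, algebraMap F₀ F (c i) * (b i : F)) = 1 :=
      congrArg Subtype.val hw
    have hcjF : algebraMap F₀ F (c j) ≠ 0 := by
      rw [Ne, map_eq_zero]
      exact hcj
    have hcjO : algebraMap F₀ F (c j) ∈ O := by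
      have : algebraMap F₀ F (c j) =
          (w : F) * ∑ i, algebraMap F₀ F (c i) * (b i : F) := by
        rw [map_inv₀] at hw'
        field_simp at hw'
        rw [← hw']
      rw [this]
      exact mul_mem w.2 h
    have hcjO₀ : c j ∈ O₀ := (hC.mem_iff _).mpr hcjO
    intro i
    have : c i = c i / c j * c j := by
      field_simp
    rw [this]
    exact mul_mem (hdiv i) hcjO₀

/-- A good family is linearly independent over `F₀`. -/
theorem linearIndependent (b : ι → O) (hind : LinearIndependent E₀ (fun i => red (b i))) :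
    LinearIndependent F₀ (fun i => (b i : F)) := by
  rw [Fintype.linearIndependent_iff]
  intro c hsum
  by_contra hne
  have hc : c ≠ 0 := by
    intro h0
    apply hne
    intro i
    rw [h0]
    rfl
  obtain ⟨j, hcj, hdiv, hmem, hred⟩ := hC.exists_scale b hind c hc
  apply hred
  have h0 : ∑ i, algebraMap F₀ F (c i) * (b i : F) = 0 := by
    rw [← hsum]
    exact Finset.sum_congr rfl fun i _ => by rw [Algebra.smul_def]
  have : (⟨_, hmem⟩ : O) = 0 := by
    apply Subtype.ext
    show algebraMap F₀ F (c j)⁻¹ * ∑ i, algebraMap F₀ F (c i) * (b i : F) = 0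
    rw [h0, mul_zero]
  rw [this, map_zero]

/-- If a good family spans `F` over `F₀` and `red` is onto, the reductions span `E` over `E₀`. -/
theorem span_red (hsurj : Function.Surjective red) (b : ι → O)
    (hind : LinearIndependent E₀ (fun i => red (b i)))
    (hspan : ∀ y : F, ∃ c : ι → F₀, y = ∑ i, algebraMap F₀ F (c i) * (b i : F)) (z : E) :
    ∃ d : ι → E₀, z = ∑ i, algebraMap E₀ E (d i) * red (b i) := by
  obtain ⟨y, rfl⟩ := hsurj z
  obtain ⟨c, hc⟩ := hspan (y : F)
  have hmem : ∀ i, c i ∈ O₀ := hC.coeff_mem b hind c (hc ▸ y.2)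
  refine ⟨fun i => red₀ ⟨c i, hmem i⟩, ?_⟩
  have hy : y = ∑ i, ⟨algebraMap F₀ F (c i), hC.algebraMap_mem ⟨c i, hmem i⟩⟩ * b i := by
    apply Subtype.ext
    rw [hc, ← O.subtype_apply, map_sum]
    rfl
  conv_lhs => rw [hy]
  rw [map_sum]
  refine Finset.sum_congr rfl fun i _ => ?_
  rw [map_mul]
  congr 1
  exact hC.red_algebraMap ⟨c i, hmem i⟩

end Compat

/-! ### Good bases -/

/-- A good basis: a finite family of `O` spanning `F` over `F₀` whose reductions are linearly
independent over `E₀`. -/
structure GoodBasis (O : ValuationSubring F) (red : O →+* E) (O₀ : ValuationSubring F₀)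
    (red₀ : O₀ →+* E₀) (ι : Type*) [Fintype ι] where
  compat : Compat O red O₀ red₀
  surj : Function.Surjective red
  b : ι → O
  ind : LinearIndependent E₀ (fun i => red (b i))
  span : ∀ y : F, ∃ c : ι → F₀, y = ∑ i, algebraMap F₀ F (c i) * (b i : F)

namespace GoodBasis

variable {ι : Type*} [Fintype ι] (G : GoodBasis O red O₀ red₀ ι)

/-- The basis of `F` over `F₀`. -/
def basisF : Basis ι F₀ F :=
  Basis.mk (G.compat.linearIndependent G.b G.ind) (by
    rintro y -
    obtain ⟨c, rfl⟩ := G.span y
    refine Submodule.sum_mem _ fun i _ => ?_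
    rw [← Algebra.smul_def]
    exact Submodule.smul_mem _ _ (Submodule.subset_span ⟨i, rfl⟩))

/-- The basis of `E` over `E₀`. -/
def basisE : Basis ι E₀ E :=
  Basis.mk G.ind (by
    rintro z -
    obtain ⟨d, rfl⟩ := G.compat.span_red G.surj G.b G.ind G.span z
    refine Submodule.sum_mem _ fun i _ => ?_
    rw [← Algebra.smul_def]
    exact Submodule.smul_mem _ _ (Submodule.subset_span ⟨i, rfl⟩))

@[simp] theorem basisF_apply (i : ι) : G.basisF i = (G.b i : F) := by
  rw [basisF, Basis.mk_apply]

@[simp] theorem basisE_apply (i : ι) : G.basisE i = red (G.b i) := by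
  rw [basisE, Basis.mk_apply]

include G in
theorem finite_F : Module.Finite F₀ F := Module.Finite.of_basis G.basisF

include G in
theorem finite_E : Module.Finite E₀ E := Module.Finite.of_basis G.basisE

include G in
theorem finrank_eq : Module.finrank F₀ F = Module.finrank E₀ E := by
  rw [Module.finrank_eq_card_basis G.basisF, Module.finrank_eq_card_basis G.basisE]

theorem sum_repr_mul (y : F) :
    ∑ i, algebraMap F₀ F (G.basisF.repr y i) * (G.b i : F) = y := by
  have h := G.basisF.sum_repr y
  conv_rhs => rw [← h]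
  refine Finset.sum_congr rfl fun i _ => ?_
  rw [Algebra.smul_def, basisF_apply]

/-- The coordinates of an element of `O` lie in `O₀`. -/
theorem repr_mem (y : O) (i : ι) : G.basisF.repr (y : F) i ∈ O₀ := by
  refine G.compat.coeff_mem G.b G.ind (fun i => G.basisF.repr (y : F) i) ?_ i
  rw [G.sum_repr_mul]
  exact y.2

/-- The coordinates of the reduction are the reductions of the coordinates. -/
theorem repr_red (y : O) (i : ι) :
    G.basisE.repr (red y) i = red₀ ⟨G.basisF.repr (y : F) i, G.repr_mem y i⟩ := by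
  have hy : y = ∑ i, ⟨algebraMap F₀ F (G.basisF.repr (y : F) i),
      G.compat.algebraMap_mem ⟨_, G.repr_mem y i⟩⟩ * G.b i := by
    apply Subtype.ext
    have key : O.subtype (∑ i, ⟨algebraMap F₀ F (G.basisF.repr (y : F) i),
        G.compat.algebraMap_mem ⟨_, G.repr_mem y i⟩⟩ * G.b i) =
        ∑ i, algebraMap F₀ F (G.basisF.repr (y : F) i) * (G.b i : F) := by
      rw [map_sum]
      rfl
    exact (G.sum_repr_mul (y : F)).symm.trans key.symm
  have h1 : red y = ∑ i, red₀ ⟨G.basisF.repr (y : F) i, G.repr_mem y i⟩ • G.basisE i := by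
    conv_lhs => rw [hy]
    rw [map_sum]
    refine Finset.sum_congr rfl fun i _ => ?_
    rw [map_mul, Algebra.smul_def, basisE_apply]
    congr 1
    exact G.compat.red_comp ⟨_, G.repr_mem y i⟩ _
  conv_lhs => rw [h1]
  rw [G.basisE.repr_sum_self]

variable [DecidableEq ι]

/-- The matrix of multiplication by `y ∈ O` has entries in `O₀`. -/
theorem leftMulMatrix_mem (y : O) (i j : ι) :
    Algebra.leftMulMatrix G.basisF (y : F) i j ∈ O₀ := by
  rw [Algebra.leftMulMatrix_eq_repr_mul, basisF_apply]
  exact G.repr_mem (y * G.b j) i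

/-- The matrix of multiplication by `y ∈ O`, with entries in `O₀`. -/
def mulMatrix (y : O) : Matrix ι ι O₀ :=
  fun i j => ⟨Algebra.leftMulMatrix G.basisF (y : F) i j, G.leftMulMatrix_mem y i j⟩

theorem mulMatrix_map_subtype (y : O) :
    (G.mulMatrix y).map O₀.subtype = Algebra.leftMulMatrix G.basisF (y : F) := rfl

/-- The matrix of multiplication by `y ∈ O` reduces to the matrix of multiplication by
`red y`. -/
theorem mulMatrix_map_red (y : O) :
    (G.mulMatrix y).map red₀ = Algebra.leftMulMatrix G.basisE (red y) := by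
  ext i j
  rw [Matrix.map_apply, Algebra.leftMulMatrix_eq_repr_mul, basisE_apply, ← map_mul, G.repr_red]
  congr 1
  apply Subtype.ext
  show Algebra.leftMulMatrix G.basisF (y : F) i j = G.basisF.repr ((y * G.b j : O) : F) i
  rw [Algebra.leftMulMatrix_eq_repr_mul, basisF_apply]
  rfl

/-- The trace of an element of `O` lies in `O₀`. -/
theorem trace_eq (y : O) :
    Algebra.trace F₀ F (y : F) = ((G.mulMatrix y).trace : O₀) := by
  rw [Algebra.trace_eq_matrix_trace G.basisF, ← G.mulMatrix_map_subtype]
  simp only [Matrix.trace, Matrix.diag_apply, Matrix.map_apply]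
  rw [← map_sum]
  rfl

include G in
theorem trace_mem (y : O) : Algebra.trace F₀ F (y : F) ∈ O₀ := by
  rw [G.trace_eq]
  exact ((G.mulMatrix y).trace).2

/-- **Reduction of the trace.** -/
theorem red_trace (y : O) :
    red₀ ⟨Algebra.trace F₀ F (y : F), G.trace_mem y⟩ = Algebra.trace E₀ E (red y) := by
  have h : (⟨Algebra.trace F₀ F (y : F), G.trace_mem y⟩ : O₀) = (G.mulMatrix y).trace :=
    Subtype.ext (G.trace_eq y)
  rw [h, Algebra.trace_eq_matrix_trace G.basisE, ← G.mulMatrix_map_red]
  simp only [Matrix.trace, Matrix.diag_apply, Matrix.map_apply]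
  rw [map_sum]

/-- The norm of an element of `O` lies in `O₀`. -/
theorem norm_eq (y : O) :
    Algebra.norm F₀ (y : F) = ((G.mulMatrix y).det : O₀) := by
  rw [Algebra.norm_eq_matrix_det G.basisF, ← G.mulMatrix_map_subtype]
  exact (RingHom.map_det O₀.subtype (G.mulMatrix y)).symm

include G in
theorem norm_mem (y : O) : Algebra.norm F₀ (y : F) ∈ O₀ := by
  rw [G.norm_eq]
  exact ((G.mulMatrix y).det).2

/-- **Reduction of the norm.** -/
theorem red_norm (y : O) :
    red₀ ⟨Algebra.norm F₀ (y : F), G.norm_mem y⟩ = Algebra.norm E₀ (red y) := by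
  have h : (⟨Algebra.norm F₀ (y : F), G.norm_mem y⟩ : O₀) = (G.mulMatrix y).det :=
    Subtype.ext (G.norm_eq y)
  rw [h, Algebra.norm_eq_matrix_det G.basisE, ← G.mulMatrix_map_red]
  exact RingHom.map_det red₀ (G.mulMatrix y)

/-- **Reduction of the characteristic polynomial** of multiplication by `y ∈ O`. -/
theorem charpoly_map_subtype (y : O) :
    (G.mulMatrix y).charpoly.map O₀.subtype =
      (Algebra.leftMulMatrix G.basisF (y : F)).charpoly := by
  rw [← Matrix.charpoly_map, G.mulMatrix_map_subtype]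

theorem charpoly_map_red (y : O) :
    (G.mulMatrix y).charpoly.map red₀ =
      (Algebra.leftMulMatrix G.basisE (red y)).charpoly := by
  rw [← Matrix.charpoly_map, G.mulMatrix_map_red]

end GoodBasis

end

end Fermat.Agent.Lib.Red.Ortho
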