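/-
ESJ / RED (V3, series level): a good basis of `L·F_N` over `L(J(q^N))` along the reversed tower.

`GoodB A π F₀ F κ₀ κ S`: there is a finite family `b i` of `A`-integral series in the subring `S`,
spanning `F` over `F₀`, whose reductions lie in `κ` and are linearly independent over `κ₀`.

* `GoodB.base`, `GoodB.step` : the invariant along a tower of simple extensions;
* `goodB_FF` : the invariant for `TD.FF L n m` over `L(J(q^(m n)))`, for `n ∣ N`, `m n ∣ M`,
  with `S = jRing A M` the subring generated by the `J(q^e)`, `e ∣ M`;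
* `goodB_full` : the invariant for the Prelude fields over `L(J(q^N))`.
-/
import Mathlib
import Fermat.Agent.Lib.Red.Unconditional

set_option autoImplicit false

namespace Fermat.Agent.Lib.Red

open HahnSeries ModularCurve Polynomial AlgebraicCurve Fermat.Agent.S28

noncomputable section

section Abstract

variable {L : Type*} [Field L] (A : ValuationSubring L) {k : Type*} [Field k] (π : A →+* k)

/-- A spanning family of integral series with independent reductions. -/
def GoodB (F₀ F : IntermediateField L (LaurentSeries L))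
    (κ₀ κ : IntermediateField k (LaurentSeries k)) (S : Subring (LaurentSeries A)) : Prop :=
  ∃ (ι : Type) (_ : Fintype ι) (b : ι → LaurentSeries A),
    (∀ i, b i ∈ S) ∧ (∀ i, incl A (b i) ∈ F) ∧ (∀ i, rbar A π (b i) ∈ κ) ∧
    (∀ y ∈ F, ∃ c : ι → LaurentSeries L, (∀ i, c i ∈ F₀) ∧ y = ∑ i, c i * incl A (b i)) ∧
    (∀ c : ι → LaurentSeries k, (∀ i, c i ∈ κ₀) → ∑ i, c i * rbar A π (b i) = 0 → ∀ i, c i = 0)

variable {A π}

/-- **Base**: the trivial family `{1}`. -/
theorem GoodB.base (F₀ : IntermediateField L (LaurentSeries L))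
    (κ₀ : IntermediateField k (LaurentSeries k)) (S : Subring (LaurentSeries A)) :
    GoodB A π F₀ F₀ κ₀ κ₀ S := by
  refine ⟨Unit, inferInstance, fun _ => 1, fun _ => S.one_mem, fun _ => ?_, fun _ => ?_,
    fun y hy => ⟨fun _ => y, fun _ => hy, ?_⟩, fun c _ h i => ?_⟩
  · rw [map_one]
    exact F₀.one_mem
  · rw [map_one]
    exact κ₀.one_mem
  · simp
  · simpa using h

/-- **Step**: adjoin an integral series `X ∈ S` with `X^n ∈ ∑_{t<n} F X^t` whose reduction has
`1, X̄, …, X̄^(n-1)` independent over `κ`. -/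
theorem GoodB.step {F₀ F : IntermediateField L (LaurentSeries L)}
    {κ₀ κ : IntermediateField k (LaurentSeries k)} {S : Subring (LaurentSeries A)}
    (h : GoodB A π F₀ F κ₀ κ S) (hκ₀ : κ₀ ≤ κ) (X : LaurentSeries A) (hX : X ∈ S) {n : ℕ}
    (hdeg : ∃ a : Fin n → LaurentSeries L, (∀ t, a t ∈ F) ∧
      incl A X ^ n = ∑ t, a t * incl A X ^ (t : ℕ))
    (hind : ∀ c : Fin n → LaurentSeries k, (∀ t, c t ∈ κ) →
      ∑ t, c t * rbar A π X ^ (t : ℕ) = 0 → ∀ t, c t = 0)
    {κ' : IntermediateField k (LaurentSeries k)} (hκ : κ ≤ κ') (hXκ : rbar A π X ∈ κ') :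
    GoodB A π F₀ (IntermediateField.adjoin L ((F : Set (LaurentSeries L)) ∪ {incl A X}))
      κ₀ κ' S := by
  obtain ⟨ι, hι, b, hbS, hbF, hbκ, hspan, hli⟩ := h
  set F' := IntermediateField.adjoin L ((F : Set (LaurentSeries L)) ∪ {incl A X}) with hF'
  have hFle : ∀ z ∈ F, z ∈ F' := fun z hz =>
    IntermediateField.subset_adjoin L _ (Or.inl hz)
  have hxF' : incl A X ∈ F' := IntermediateField.subset_adjoin L _ (Or.inr rfl)
  refine ⟨ι × Fin n, inferInstance, fun p => b p.1 * X ^ (p.2 : ℕ), fun p => ?_, fun p => ?_,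
    fun p => ?_, fun y hy => ?_, fun c hc h0 => ?_⟩
  · exact S.mul_mem (hbS p.1) (S.pow_mem hX _)
  · rw [map_mul, map_pow]
    exact F'.mul_mem (hFle _ (hbF p.1)) (pow_mem hxF' _)
  · rw [map_mul, map_pow]
    exact κ'.mul_mem (hκ (hbκ p.1)) (pow_mem hXκ _)
  · have hy' : y ∈ Subfield.closure ((F.toSubfield : Set (LaurentSeries L)) ∪ {incl A X}) := by
      rw [closure_union_eq_adjoin']
      exact hy
    obtain ⟨c, hcF, hyc⟩ := Fermat.Agent.S28.Tower.exists_repr (F := F.toSubfield) hdeg hy'
    choose d hdF₀ hd using fun t => hspan (c t) (hcF t)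
    refine ⟨fun p => d p.2 p.1, fun p => hdF₀ p.2 p.1, ?_⟩
    rw [hyc, Fintype.sum_prod_type, Finset.sum_comm]
    refine Finset.sum_congr rfl fun t _ => ?_
    rw [hd t, Finset.sum_mul]
    refine Finset.sum_congr rfl fun i _ => ?_
    rw [map_mul, map_pow]
    ring
  · have h1 : ∑ t : Fin n, (∑ i, c (i, t) * rbar A π (b i)) * rbar A π X ^ (t : ℕ) = 0 := by
      rw [← h0, Fintype.sum_prod_type, Finset.sum_comm]
      refine Finset.sum_congr rfl fun t _ => ?_
      rw [Finset.sum_mul]
      refine Finset.sum_congr rfl fun i _ => ?_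
      rw [map_mul, map_pow]
      ring
    have h2 := hind (fun t => ∑ i, c (i, t) * rbar A π (b i))
      (fun t => κ.sum_mem fun i _ => κ.mul_mem (hκ₀ (hc (i, t))) (hbκ i)) h1
    intro p
    exact hli (fun i => c (i, p.2)) (fun i => hc (i, p.2)) (h2 p.2) p.1

end Abstract

/-! ### The reversed tower -/

section Tower

variable {L : Type*} [Field L] [Algebra ℚ L] (A : ValuationSubring L) {k : Type} [Field k]
  (π : A →+* k)

/-- The subring of `A((q))` generated by the `J(q^e)`, `e ∣ M`. -/
def jRing (M : ℕ) : Subring (LaurentSeries A) :=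
  Subring.closure ((fun e => TD.Jd A e) '' {e | e ∣ M})

omit [Algebra ℚ L] in
theorem Jd_mem_jRing {M e : ℕ} (he : e ∣ M) : TD.Jd A e ∈ jRing A M :=
  Subring.subset_closure ⟨e, he, rfl⟩

/-- **The good basis along the reversed tower.** -/
theorem goodB_FF (N : ℕ) [NeZero N] (hNk : (N : k) ≠ 0) (M : ℕ) :
    ∀ n : ℕ, n ≠ 0 → n ∣ N → ∀ m : ℕ, m ≠ 0 → m * n ∣ M →
      GoodB A π (TD.FF L 1 (m * n)) (TD.FF L n m) (TD.FF k 1 (m * n)) (TD.FF k n m)
        (jRing A M) := by
  have hN : N ≠ 0 := NeZero.ne N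
  have hME : ∀ r : ℕ, r.Prime → r ∣ N → Nonempty (TD.ModEq r) := fun r hr _ => modEq_all r hr
  have hBC : ∀ r : ℕ, r.Prime → r ∣ N → TD.BaseCase r := fun r hr _ => baseCase_all r hr
  intro n
  induction n using Nat.strong_induction_on with
  | _ n ih =>
    intro hn hnN m hm hmM
    by_cases h1 : n = 1
    · subst h1
      rw [mul_one]
      exact GoodB.base _ _ _
    · set p := n.minFac with hp_def
      have hp : p.Prime := Nat.minFac_prime h1
      obtain ⟨n', hn'⟩ : ∃ n', n = n' * p := ⟨n / p, (Nat.div_mul_cancel (Nat.minFac_dvd n)).symm⟩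
      have hn'0 : n' ≠ 0 := by
        rintro rfl
        exact hn (by rw [hn', zero_mul])
      have hn'lt : n' < n := by
        rw [hn']
        exact lt_mul_of_one_lt_right (Nat.pos_of_ne_zero hn'0) hp.one_lt
      have hn'N : n' ∣ N := (Dvd.intro _ hn'.symm).trans hnN
      have hdvd : n' * p ∣ N := hn' ▸ hnN
      have hpN : p ∣ N := (Dvd.intro_left n' rfl).trans hdvd
      have hmp : m * p ≠ 0 := Nat.mul_ne_zero hm hp.ne_zero
      have hidx : m * p * n' = m * n := by rw [hn']; ring
      have hG := ih n' hn'lt hn'0 hn'N (m * p) hmp (by rw [hidx]; exact hmM)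
      rw [hidx] at hG
      obtain ⟨D⟩ := hME p hp hpN
      have hdeg := hdeg_L (L := L) D hp.one_lt n' hm
      have hind := StepModL.hind_of_level k N hN hNk hME hBC n' p m hp hdvd hm
      have hmdvd : m ∣ M := (Dvd.intro _ rfl).trans hmM
      have hκ₀ : TD.FF k 1 (m * n) ≤ TD.FF k n' (m * p) := by
        rw [StepCore.FF_one_left, IntermediateField.adjoin_le_iff]
        rintro _ rfl
        have := TD.Jd_mem_FF k (N := n') (m := m * p) (d := n') dvd_rfl
        rwa [hidx] at this
      have hstep := hG.step hκ₀ (TD.Jd A m) (Jd_mem_jRing A hmdvd)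
        (n := if p ∣ n' then p else p + 1)
        (by rw [incl_Jd]; exact hdeg)
        (by rw [rbar_Jd]; exact hind)
        (κ' := TD.FF k n m)
        (by
          rw [hn']
          exact fun z hz => RouteT.FF_le_FF_mul k n' p m hz)
        (by
          rw [rbar_Jd, hn']
          exact RouteT.Jd_mem_FF_self k (n' * p) m)
      rw [incl_Jd, ← hgen_L n' p m hn'0 hm hp
        (fun r hr hrd => hME r hr (hrd.trans hdvd)), ← hn'] at hstep
      exact hstep

/-- The good basis of the Prelude fields over `L(J(q^N))`. -/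
theorem goodB_full (N : ℕ) [NeZero N] (hNk : (N : k) ≠ 0) :
    GoodB A π (IntermediateField.adjoin L {TD.Jd L N})
      (laurentBaseChange L (modularFunctionFieldFull N))
      (IntermediateField.adjoin k {TD.Jd k N}) (modularFunctionFieldFullC k N) (jRing A N) := by
  have h := goodB_FF A π N hNk N N (NeZero.ne N) dvd_rfl 1 one_ne_zero (by rw [one_mul])
  rw [one_mul, StepCore.FF_one_left, StepCore.FF_one_left] at h
  rw [laurentBaseChange_eq_FF, fullC_eq_FF]
  exact h

end Tower

end

end Fermat.Agent.Lib.Red
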