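/-
ESJ / RED (V2/V3, typed): the good basis of `F = L·F_N` over `L(x)`, `x = J(q^N)`, for the Gauss
valuation ring `Ow`, and the reduction of traces, norms and characteristic polynomials.

* `xL L N : F`, `xk k N : F̃` : the function `J(q^N)` and its reduction;
* `Ov A π N hNk : ValuationSubring L⟮x⟯` (the Gauss valuation ring of `L(x)`, `= Ow ∩ L(x)`),
  `redv A π N hπ hNk : Ov →+* k⟮x̄⟯`;
* `compat` : `Ortho.Compat Ow redF Ov redv`;
* `exists_goodBasis` : there is a good basis (`Ortho.GoodBasis`), consisting of elements of the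
  ring generated by the `J(q^e)`, `e ∣ N`;
* `finite_L`, `finite_k`, `finrank_eq`; `trace_mem`, `red_trace`, `norm_mem`, `red_norm`.
-/
import Mathlib
import Fermat.Agent.Lib.Red.Ow
import Fermat.Agent.Lib.Red.TowerBasis
import Fermat.Agent.Lib.Red.Ortho

set_option autoImplicit false

namespace Fermat.Agent.Lib.Red

open HahnSeries ModularCurve Polynomial AlgebraicCurve Fermat.Agent.S28 IntermediateField

noncomputable section

/-- The function `x = J(q^N)` of `L·F_N`. -/
def xL (L : Type*) [Field L] [Algebra ℚ L] (N : ℕ) [NeZero N] :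
    ↥(laurentBaseChange L (modularFunctionFieldFull N)) :=
  ⟨TD.Jd L N, by
    rw [laurentBaseChange_eq_FF]
    have := TD.Jd_mem_FF L (N := N) (m := 1) (d := N) dvd_rfl
    rwa [one_mul] at this⟩

/-- The function `x̄ = J̄(q^N)` of the mod-`ℓ` function field. -/
def xk (k : Type*) [Field k] (N : ℕ) [NeZero N] : ↥(modularFunctionFieldFullC k N) :=
  ⟨TD.Jd k N, by
    rw [fullC_eq_FF]
    have := TD.Jd_mem_FF k (N := N) (m := 1) (d := N) dvd_rfl
    rwa [one_mul] at this⟩

@[simp] theorem coe_xL (L : Type*) [Field L] [Algebra ℚ L] (N : ℕ) [NeZero N] :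
    ((xL L N : ↥(laurentBaseChange L (modularFunctionFieldFull N))) : LaurentSeries L) =
      TD.Jd L N := rfl

@[simp] theorem coe_xk (k : Type*) [Field k] (N : ℕ) [NeZero N] :
    ((xk k N : ↥(modularFunctionFieldFullC k N)) : LaurentSeries k) = TD.Jd k N := rfl

variable {L : Type*} [Field L] [Algebra ℚ L] (A : ValuationSubring L) {k : Type} [Field k]
  (π : A →+* k) (N : ℕ) [NeZero N]

/-- Membership in `L⟮x⟯`, at the level of series. -/
theorem mem_adjoin_xL_iff (c : ↥(laurentBaseChange L (modularFunctionFieldFull N))) :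
    c ∈ L⟮xL L N⟯ ↔ (c : LaurentSeries L) ∈ IntermediateField.adjoin L {TD.Jd L N} := by
  rw [← IntermediateField.mem_lift, IntermediateField.lift_adjoin_simple]
  rfl

/-- Membership in `k⟮x̄⟯`, at the level of series. -/
theorem mem_adjoin_xk_iff (c : ↥(modularFunctionFieldFullC k N)) :
    c ∈ k⟮xk k N⟯ ↔ (c : LaurentSeries k) ∈ IntermediateField.adjoin k {TD.Jd k N} := by
  rw [← IntermediateField.mem_lift, IntermediateField.lift_adjoin_simple]
  rfl

/-- The Gauss valuation ring of `L(x)`. -/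
def Ov (hNk : (N : k) ≠ 0) : ValuationSubring ↥(L⟮xL L N⟯) :=
  (Ow A π N hNk).comap (algebraMap ↥(L⟮xL L N⟯) ↥(laurentBaseChange L (modularFunctionFieldFull N)))

/-- The inclusion `Ov → Ow`. -/
def OvToOw (hNk : (N : k) ≠ 0) : Ov A π N hNk →+* Ow A π N hNk :=
  ((algebraMap ↥(L⟮xL L N⟯) ↥(laurentBaseChange L (modularFunctionFieldFull N))).comp
    (Ov A π N hNk).subtype).codRestrict (Ow A π N hNk) (fun c => c.2)

/-- The residue map of the Gauss valuation ring of `L(x)`, with values in `k(x̄)`. -/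
def redv (hπ : ∀ a : A, ¬ IsUnit a → π a = 0) (hNk : (N : k) ≠ 0) :
    Ov A π N hNk →+* ↥(k⟮xk k N⟯) :=
  ((redF A π N hπ hNk).comp (OvToOw A π N hNk)).codRestrict (k⟮xk k N⟯) (fun c => by
    rw [mem_adjoin_xk_iff]
    have hG := goodV_FF' A π N hNk 1 one_ne_zero (one_dvd N) N (NeZero.ne N)
    rw [StepCore.FF_one_left, StepCore.FF_one_left] at hG
    exact hG.red_mem hπ (OwToGauss A π N hNk (OvToOw A π N hNk c))
      ((mem_adjoin_xL_iff N _).mp (c : ↥(L⟮xL L N⟯)).2))

variable {A π N}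

theorem compat (hπ : ∀ a : A, ¬ IsUnit a → π a = 0) (hNk : (N : k) ≠ 0) :
    Ortho.Compat (Ow A π N hNk) (redF A π N hπ hNk) (Ov A π N hNk) (redv A π N hπ hNk) where
  ker := redF_eq_zero_iff hπ hNk
  mem_iff _ := Iff.rfl
  red_comp _ _ := rfl

/-- **Existence of a good basis** of `L·F_N` over `L(J(q^N))`, made of elements of the ring
generated by the `J(q^e)`, `e ∣ N`. -/
theorem exists_goodBasis (hπ : ∀ a : A, ¬ IsUnit a → π a = 0) (hsurj : Function.Surjective π)
    (hNk : (N : k) ≠ 0) :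
    ∃ (ι : Type) (_ : Fintype ι)
      (G : Ortho.GoodBasis (Ow A π N hNk) (redF A π N hπ hNk) (Ov A π N hNk)
        (redv A π N hπ hNk) ι),
      ∀ i, ∃ s ∈ jRing A N, incl A s =
        (((G.b i : Ow A π N hNk) : ↥(laurentBaseChange L (modularFunctionFieldFull N))) :
          LaurentSeries L) := by
  obtain ⟨ι, hι, b, hbS, hbF, hbκ, hspan, hli⟩ := goodB_full A π N hNk
  refine ⟨ι, hι,
    { compat := compat hπ hNk
      surj := redF_surjective hπ hsurj hNk
      b := fun i => ⟨⟨incl A (b i), hbF i⟩, incl_mem_gaussRing A π (b i)⟩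
      ind := ?_
      span := ?_ }, fun i => ⟨b i, hbS i, rfl⟩⟩
  · rw [Fintype.linearIndependent_iff]
    intro g hg i
    have h1 : ∑ i, ((g i : ↥(modularFunctionFieldFullC k N)) : LaurentSeries k) *
        rbar A π (b i) = 0 := by
      have h2 := congrArg (modularFunctionFieldFullC k N).val hg
      rw [map_sum, map_zero] at h2
      rw [← h2]
      refine Finset.sum_congr rfl fun i _ => ?_
      rw [Algebra.smul_def, map_mul]
      congr 1
      exact (coe_redF_incl hπ hNk (b i) (hbF i)).symm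
    have h3 := hli (fun i => ((g i : ↥(modularFunctionFieldFullC k N)) : LaurentSeries k))
      (fun i => (mem_adjoin_xk_iff N _).mp (g i).2) h1 i
    exact Subtype.ext (Subtype.ext h3)
  · intro y
    obtain ⟨c, hc, hy⟩ := hspan (y : LaurentSeries L) y.2
    have hle : IntermediateField.adjoin L {TD.Jd L N} ≤
        laurentBaseChange L (modularFunctionFieldFull N) := by
      rw [IntermediateField.adjoin_le_iff]
      rintro _ rfl
      exact (xL L N).2
    refine ⟨fun i => ⟨⟨c i, hle (hc i)⟩, (mem_adjoin_xL_iff N _).mpr (hc i)⟩, ?_⟩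
    apply Subtype.ext
    rw [hy]
    have h2 : ((∑ i, algebraMap ↥(L⟮xL L N⟯) ↥(laurentBaseChange L (modularFunctionFieldFull N))
        (⟨⟨c i, hle (hc i)⟩, (mem_adjoin_xL_iff N _).mpr (hc i)⟩ : ↥(L⟮xL L N⟯)) *
        (⟨incl A (b i), hbF i⟩ : ↥(laurentBaseChange L (modularFunctionFieldFull N))) :
        ↥(laurentBaseChange L (modularFunctionFieldFull N))) : LaurentSeries L) =
        ∑ i, c i * incl A (b i) := by
      show (laurentBaseChange L (modularFunctionFieldFull N)).val _ = _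
      rw [map_sum]
      rfl
    exact h2.symm

/-- `L·F_N` is finite over `L(J(q^N))`. -/
theorem finite_L (hπ : ∀ a : A, ¬ IsUnit a → π a = 0) (hsurj : Function.Surjective π)
    (hNk : (N : k) ≠ 0) :
    Module.Finite ↥(L⟮xL L N⟯) ↥(laurentBaseChange L (modularFunctionFieldFull N)) := by
  obtain ⟨ι, hι, G, -⟩ := exists_goodBasis hπ hsurj hNk
  exact G.finite_F

/-- The mod-`ℓ` function field is finite over `k(J̄(q^N))`. -/
theorem finite_k (hπ : ∀ a : A, ¬ IsUnit a → π a = 0) (hsurj : Function.Surjective π)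
    (hNk : (N : k) ≠ 0) :
    Module.Finite ↥(k⟮xk k N⟯) ↥(modularFunctionFieldFullC k N) := by
  obtain ⟨ι, hι, G, -⟩ := exists_goodBasis hπ hsurj hNk
  exact G.finite_E

/-- The degrees over `L(J(q^N))` and `k(J̄(q^N))` agree. -/
theorem finrank_eq (hπ : ∀ a : A, ¬ IsUnit a → π a = 0) (hsurj : Function.Surjective π)
    (hNk : (N : k) ≠ 0) :
    Module.finrank ↥(L⟮xL L N⟯) ↥(laurentBaseChange L (modularFunctionFieldFull N)) =
      Module.finrank ↥(k⟮xk k N⟯) ↥(modularFunctionFieldFullC k N) := by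
  obtain ⟨ι, hι, G, -⟩ := exists_goodBasis hπ hsurj hNk
  exact G.finrank_eq

/-- The trace to `L(x)` of a Gauss-integral function is Gauss-integral. -/
theorem trace_mem (hπ : ∀ a : A, ¬ IsUnit a → π a = 0) (hsurj : Function.Surjective π)
    (hNk : (N : k) ≠ 0) (y : Ow A π N hNk) :
    Algebra.trace ↥(L⟮xL L N⟯) ↥(laurentBaseChange L (modularFunctionFieldFull N))
      (y : ↥(laurentBaseChange L (modularFunctionFieldFull N))) ∈ Ov A π N hNk := by
  classical
  obtain ⟨ι, hι, G, -⟩ := exists_goodBasis hπ hsurj hNk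
  exact G.trace_mem y

/-- **Reduction of the trace.** -/
theorem red_trace (hπ : ∀ a : A, ¬ IsUnit a → π a = 0) (hsurj : Function.Surjective π)
    (hNk : (N : k) ≠ 0) (y : Ow A π N hNk) :
    redv A π N hπ hNk ⟨_, trace_mem hπ hsurj hNk y⟩ =
      Algebra.trace ↥(k⟮xk k N⟯) ↥(modularFunctionFieldFullC k N) (redF A π N hπ hNk y) := by
  classical
  obtain ⟨ι, hι, G, -⟩ := exists_goodBasis hπ hsurj hNk
  exact G.red_trace y

/-- The norm to `L(x)` of a Gauss-integral function is Gauss-integral. -/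
theorem norm_mem (hπ : ∀ a : A, ¬ IsUnit a → π a = 0) (hsurj : Function.Surjective π)
    (hNk : (N : k) ≠ 0) (y : Ow A π N hNk) :
    Algebra.norm ↥(L⟮xL L N⟯)
      (y : ↥(laurentBaseChange L (modularFunctionFieldFull N))) ∈ Ov A π N hNk := by
  classical
  obtain ⟨ι, hι, G, -⟩ := exists_goodBasis hπ hsurj hNk
  exact G.norm_mem y

/-- **Reduction of the norm.** -/
theorem red_norm (hπ : ∀ a : A, ¬ IsUnit a → π a = 0) (hsurj : Function.Surjective π)
    (hNk : (N : k) ≠ 0) (y : Ow A π N hNk) :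
    redv A π N hπ hNk ⟨_, norm_mem hπ hsurj hNk y⟩ =
      Algebra.norm ↥(k⟮xk k N⟯) (redF A π N hπ hNk y) := by
  classical
  obtain ⟨ι, hι, G, -⟩ := exists_goodBasis hπ hsurj hNk
  exact G.red_norm y

end

end Fermat.Agent.Lib.Red
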