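import Mathlib
import Fermat.Agent.Lib.FF.RRLocal

/-!
# RED-INJ in one step: reduction is injective on prime-to-`ℓ` torsion

Abstract form (no modular curves): `F/L` and `Ft/k` function fields (Prelude `Place`, `Divisor`),
`O` a valuation subring of `F` ("Gauss valuation") with a reduction homomorphism `red : O → Ft`,
and a map of places `r` with `r_* div(u) = div(red u)` for all units `u` of `O`.

If `F` satisfies Riemann's inequality with constant `g` and `Ft` has reduced non-special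
divisors of degree `g` (made of places carrying a "tube coordinate"), then a divisor `D` of
degree `0` on `F` with `m • D` principal, `m` invertible in `Ft`, and `r_* D` principal is
itself principal.

The proof has no iteration: after replacing `D` by `E - E₀` (`E₀` a lift of the non-special
divisor, `E ≥ 0` with `r_* E = r_* E₀`) and normalising `f` (`div f = m (E - E₀)`) by its value
at an auxiliary place, `f - 1 = c · u` with `u` a unit of `O`, and the reduction of `u` has at
most simple poles along the non-special divisor, hence is constant, which contradicts the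
zero of `u` at the auxiliary place.
-/

set_option autoImplicit false

noncomputable section

namespace Fermat.Agent.Lib.Red.OneStep

open AlgebraicCurve

/-! ### Push-forward of finitely supported functions, pointwise -/

section Push

variable {α β : Type*}

theorem mapDomain_apply_eq_sum [DecidableEq β] (r : α → β) (D : α →₀ ℤ) (Q : β) :
    Finsupp.mapDomain r D Q = ∑ P ∈ D.support.filter (fun P => r P = Q), D P := by
  classical
  rw [Finsupp.mapDomain, Finsupp.sum, Finsupp.finsetSum_apply, Finset.sum_filter]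
  refine Finset.sum_congr rfl fun P _ => ?_
  rw [Finsupp.single_apply]

theorem mapDomain_nonneg_of (r : α → β) (D : α →₀ ℤ) (Q : β)
    (h : ∀ P, r P = Q → 0 ≤ D P) : 0 ≤ Finsupp.mapDomain r D Q := by
  classical
  rw [mapDomain_apply_eq_sum]
  exact Finset.sum_nonneg fun P hP => h P (Finset.mem_filter.1 hP).2

theorem le_mapDomain_of (r : α → β) (D : α →₀ ℤ) (Q : β)
    (h : ∀ P, r P = Q → 0 ≤ D P) {P₀ : α} (h0 : r P₀ = Q) :
    D P₀ ≤ Finsupp.mapDomain r D Q := by
  classical
  rw [mapDomain_apply_eq_sum]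
  by_cases hP : D P₀ = 0
  · rw [hP]
    exact Finset.sum_nonneg fun P hP => h P (Finset.mem_filter.1 hP).2
  · exact Finset.single_le_sum (f := fun P => D P)
      (fun P hP => h P (Finset.mem_filter.1 hP).2)
      (Finset.mem_filter.2 ⟨Finsupp.mem_support_iff.2 hP, h0⟩)

theorem eq_zero_of_mapDomain_eq_zero (r : α → β) (D : α →₀ ℤ) (Q : β)
    (h : ∀ P, r P = Q → 0 ≤ D P) (h0 : Finsupp.mapDomain r D Q = 0) (P : α) (hP : r P = Q) :
    D P = 0 := by
  have h1 := le_mapDomain_of r D Q h hP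
  have h2 := h P hP
  omega

theorem exists_of_mapDomain_eq_one (r : α → β) (D : α →₀ ℤ) (Q : β)
    (h : ∀ P, r P = Q → 0 ≤ D P) (h1 : Finsupp.mapDomain r D Q = 1) :
    ∃ P, r P = Q ∧ D P = 1 ∧ ∀ P', r P' = Q → P' ≠ P → D P' = 0 := by
  classical
  have hsum := mapDomain_apply_eq_sum r D Q
  rw [h1] at hsum
  set s := D.support.filter (fun P => r P = Q) with hs
  have hnn : ∀ P ∈ s, 0 ≤ D P := fun P hP => h P (Finset.mem_filter.1 hP).2
  obtain ⟨P, hPs, hPpos⟩ : ∃ P ∈ s, 0 < D P := by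
    by_contra hcon
    push Not at hcon
    have : ∑ P ∈ s, D P ≤ 0 := Finset.sum_nonpos hcon
    omega
  have hsplit : ∑ P' ∈ s, D P' = D P + ∑ P' ∈ s.erase P, D P' :=
    (Finset.add_sum_erase s (fun P => D P) hPs).symm
  have hrest : 0 ≤ ∑ P' ∈ s.erase P, D P' :=
    Finset.sum_nonneg fun P' hP' => hnn P' (Finset.mem_of_mem_erase hP')
  have hDP : D P = 1 := by omega
  have hrest0 : ∑ P' ∈ s.erase P, D P' = 0 := by omega
  refine ⟨P, (Finset.mem_filter.1 hPs).2, hDP, fun P' hP'Q hne => ?_⟩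
  by_cases hP' : D P' = 0
  · exact hP'
  · have hmem : P' ∈ s.erase P :=
      Finset.mem_erase.2 ⟨hne, Finset.mem_filter.2 ⟨Finsupp.mem_support_iff.2 hP', hP'Q⟩⟩
    exact (Finset.sum_eq_zero_iff_of_nonneg
      (fun P'' hP'' => hnn P'' (Finset.mem_of_mem_erase hP''))).1 hrest0 P' hmem

end Push

/-! ### Facts on `Place.ord` -/

section Ord

variable {K F : Type*} [Field K] [Field F] [Algebra K F]

theorem ord_neg (v : Place K F) (f : F) : v.ord (-f) = v.ord f := by
  rcases eq_or_ne f 0 with rfl | hf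
  · simp
  have h1 : v.ord (-1 : F) = 0 := by
    have := Fermat.Agent.S24.ord_algebraMap v (-1 : K)
    simpa using this
  have : (-f) = (-1 : F) * f := by ring
  rw [this, v.ord_mul (by simp) hf, h1, zero_add]

theorem ord_const_mul (v : Place K F) {c : K} (hc : c ≠ 0) (y : F) :
    v.ord (algebraMap K F c * y) = v.ord y := by
  rcases eq_or_ne y 0 with rfl | hy
  · simp
  rw [v.ord_mul ((map_ne_zero _).2 hc) hy, Fermat.Agent.S24.ord_algebraMap, zero_add]

theorem ord_npow (v : Place K F) (f : F) (n : ℕ) : v.ord (f ^ n) = (n : ℤ) * v.ord f := by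
  rw [← zpow_natCast, v.ord_zpow]

theorem ord_sub_one_nonneg (v : Place K F) {f : F} (hf : 0 ≤ v.ord f) : 0 ≤ v.ord (f - 1) := by
  rw [← Fermat.Agent.S24.mem_iff_ord_nonneg] at hf ⊢
  exact sub_mem hf (one_mem _)

theorem ord_sub_const_nonneg (v : Place K F) {f : F} (hf : 0 ≤ v.ord f) (c : K) :
    0 ≤ v.ord (f - algebraMap K F c) := by
  rw [← Fermat.Agent.S24.mem_iff_ord_nonneg] at hf ⊢
  exact sub_mem hf (v.algebraMap_mem' c)

/-- Ultrametric equality. -/
theorem ord_sub_eq_of_lt (v : Place K F) {a b : F} (hb : b ≠ 0)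
    (h : a = 0 ∨ v.ord b < v.ord a) : v.ord (a - b) = v.ord b := by
  rcases h with rfl | h
  · rw [zero_sub, ord_neg]
  rcases eq_or_ne a 0 with rfl | ha
  · rw [zero_sub, ord_neg]
  have hab : a - b ≠ 0 := by
    intro h'
    rw [sub_eq_zero.1 h'] at h
    exact lt_irrefl _ h
  have h1 := Fermat.Agent.S24.ord_sub_ge v ha hb hab
  have h2 := Fermat.Agent.S24.ord_sub_ge v ha hab (by rw [sub_sub_cancel]; exact hb)
  rw [sub_sub_cancel] at h2
  rw [min_eq_right h.le] at h1
  rcases min_le_iff.1 h2 with h3 | h3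
  · omega
  · omega

end Ord

/-- From `ResK`: a function regular at `v` is a constant or differs from a constant by a
function vanishing at `v`. -/
theorem exists_const_sub_pos {K F : Type*} [Field K] [Field F] [Algebra K F] (v : Place K F)
    (hv : Fermat.Agent.Lib.FF.RR.ResK v) {y : F} (hy : 0 ≤ v.ord y) :
    ∃ c : K, y = algebraMap K F c ∨ 0 < v.ord (y - algebraMap K F c) := by
  obtain ⟨c, hc⟩ := hv ⟨y, Fermat.Agent.S24.mem_of_ord_nonneg v hy⟩
  refine ⟨c, ?_⟩
  by_cases h0 : y - algebraMap K F c = 0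
  · exact Or.inl (sub_eq_zero.1 h0)
  · refine Or.inr ((Fermat.Agent.S24.ord_pos_iff v).2 fun hinv => ?_)
    have hunit : IsUnit ((⟨y, Fermat.Agent.S24.mem_of_ord_nonneg v hy⟩ : v.toValuationSubring)
        - algebraMap K v.toValuationSubring c) :=
      IsUnit.of_mul_eq_one ⟨(y - algebraMap K F c)⁻¹, hinv⟩ (Subtype.ext (mul_inv_cancel₀ h0))
    exact (IsLocalRing.mem_maximalIdeal _).1 hc hunit

theorem one_sub_pow_expand {R : Type*} [CommRing R] (x : R) (m : ℕ) :
    ∃ h : R, (1 - x) ^ m = 1 - m * x + x ^ 2 * h := by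
  induction m with
  | zero => exact ⟨0, by simp⟩
  | succ n ih =>
    obtain ⟨h, hh⟩ := ih
    refine ⟨n + h - x * h, ?_⟩
    rw [pow_succ, hh]
    push_cast
    ring

/-! ### The abstract reduction data -/

section Main

variable {L F k Ft : Type*} [Field L] [Field F] [Algebra L F] [Field k] [Field Ft] [Algebra k Ft]

/-- An element of the valuation subring `O` of `F` is a constant (comes from `L`). -/
def IsConst (L : Type*) {F : Type*} [Field L] [Field F] [Algebra L F] {O : ValuationSubring F}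
    (a : O) : Prop := ∃ c : L, algebraMap L F c = (a : F)

/-- Abstract "good place of the constant field" data: `O` is a valuation subring of `F`
(the Gauss valuation ring), `red` its reduction map into `Ft`, and `r` a map of places
compatible with divisors of units. -/
structure IsRed (O : ValuationSubring F) (red : O →+* Ft) (r : Place L F → Place k Ft) :
    Prop where
  /-- every nonzero function is a constant times a unit of `O` -/
  scale : ∀ y : F, y ≠ 0 → ∃ (c : L) (u : Oˣ), y = algebraMap L F c * ((u : O) : F)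
  /-- the kernel of `red` is the maximal ideal -/
  ker : ∀ y : O, ¬ IsUnit y → red y = 0
  /-- constants reduce to constants -/
  const : ∀ y : O, IsConst L y → ∃ κ : k, red y = algebraMap k Ft κ
  /-- `r_* div(u) = div(red u)` for units `u` -/
  spec : ∀ (u : Oˣ) (D : Divisor L F), (∀ P, D P = P.ord (((u : O) : F))) →
      ∀ Q, Finsupp.mapDomain r D Q = Q.ord (red u)

open Classical in
/-- The principal divisor of a function (zero for `f = 0`). -/
def pdiv (L : Type*) {F : Type*} [Field L] [Field F] [Algebra L F] [HasPrincipalDivisors L F]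
    (f : F) : Divisor L F :=
  if hf : f = 0 then 0 else (HasPrincipalDivisors.exists_divisor (K := L) f hf).choose

theorem pdiv_apply [HasPrincipalDivisors L F] (f : F) (P : Place L F) :
    pdiv L f P = P.ord f := by
  unfold pdiv
  split_ifs with hf
  · simp [hf]
  · exact (HasPrincipalDivisors.exists_divisor (K := L) f hf).choose_spec.1 P

theorem coe_units_inv {O : ValuationSubring F} (u : Oˣ) :
    (((u⁻¹ : Oˣ) : O) : F) = (((u : O) : F))⁻¹ := by
  have h : (((u⁻¹ : Oˣ) : O) : F) * ((u : O) : F) = 1 :=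
    congrArg Subtype.val (Units.inv_mul u)
  exact eq_inv_of_mul_eq_one_left h

theorem coe_unit_ne_zero {O : ValuationSubring F} (u : Oˣ) : ((u : O) : F) ≠ 0 := by
  intro h
  have h1 : (((u⁻¹ : Oˣ) : O) : F) * ((u : O) : F) = 1 :=
    congrArg Subtype.val (Units.inv_mul u)
  rw [h, mul_zero] at h1
  exact zero_ne_one h1

theorem isConst_mk {O : ValuationSubring F} (c : L) (hc : algebraMap L F c ∈ O) :
    IsConst L (⟨algebraMap L F c, hc⟩ : O) := ⟨c, rfl⟩

/-- Comparison of two constants of `O`. -/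
theorem const_div_cases {O : ValuationSubring F} {a b : O} (ha : IsConst L a)
    (hb : IsConst L b) (hb0 : b ≠ 0) :
    (∃ x : O, IsConst L x ∧ a = x * b) ∨ (∃ x : O, IsConst L x ∧ ¬ IsUnit x ∧ b = x * a) := by
  obtain ⟨ca, hca⟩ := ha
  obtain ⟨cb, hcb⟩ := hb
  have hbF : (b : F) ≠ 0 := fun h => hb0 (Subtype.ext h)
  by_cases hq : (a : F) / (b : F) ∈ O
  · refine Or.inl ⟨⟨_, hq⟩, ⟨ca / cb, by rw [map_div₀, hca, hcb]⟩, Subtype.ext ?_⟩
    show (a : F) = (a : F) / (b : F) * (b : F)
    field_simp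
  · have hq' : ((a : F) / (b : F))⁻¹ ∈ O := (O.mem_or_inv_mem _).resolve_left hq
    have haF : (a : F) ≠ 0 := by
      intro h
      apply hq
      rw [h, zero_div]
      exact O.zero_mem
    refine Or.inr ⟨⟨_, hq'⟩, ⟨cb / ca, ?_⟩, ?_, Subtype.ext ?_⟩
    · show algebraMap L F (cb / ca) = ((a : F) / (b : F))⁻¹
      rw [map_div₀, hca, hcb, inv_div]
    · rintro ⟨w, hw⟩
      apply hq
      have h1 : (((w⁻¹ : Oˣ) : O) : F) = (a : F) / (b : F) := by
        rw [coe_units_inv, hw]
        show (((a : F) / (b : F))⁻¹)⁻¹ = _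
        rw [inv_inv]
      rw [← h1]
      exact ((w⁻¹ : Oˣ) : O).2
    · show (b : F) = ((a : F) / (b : F))⁻¹ * (a : F)
      field_simp

namespace IsRed

variable {O : ValuationSubring F} {red : O →+* Ft} {r : Place L F → Place k Ft}

theorem isUnit_of_red_ne_zero (h : IsRed O red r) {y : O} (hy : red y ≠ 0) : IsUnit y := by
  by_contra hu
  exact hy (h.ker y hu)

theorem red_unit_ne_zero (u : Oˣ) : red (u : O) ≠ 0 := (u.isUnit.map red).ne_zero

theorem ord_red_const (h : IsRed O red r) (Q : Place k Ft) {y : O} (hy : IsConst L y) :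
    Q.ord (red y) = 0 := by
  obtain ⟨κ, hκ⟩ := h.const y hy
  rw [hκ]
  exact Fermat.Agent.S24.ord_algebraMap Q κ

/-- If `a · u = b · z` with constants `a`, `b ≠ 0`, `u` a unit and `red z ≠ 0`, then `red z` is
a nonzero constant multiple of `red u`. -/
theorem red_eq_const_mul (h : IsRed O red r) (u : Oˣ) {a b z : O} (ha : IsConst L a)
    (hb : IsConst L b) (hb0 : b ≠ 0) (hab : a * u = b * z) (hz : red z ≠ 0) :
    ∃ κ : k, κ ≠ 0 ∧ red z = algebraMap k Ft κ * red u := by
  have hηc : IsConst L (z * ((u⁻¹ : Oˣ) : O)) := by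
    obtain ⟨ca, hca⟩ := ha
    obtain ⟨cb, hcb⟩ := hb
    refine ⟨ca / cb, ?_⟩
    have hbF : (b : F) ≠ 0 := fun h' => hb0 (Subtype.ext h')
    have habF : (a : F) * ((u : O) : F) = (b : F) * (z : F) := congrArg Subtype.val hab
    have huF := coe_unit_ne_zero u
    show algebraMap L F (ca / cb) = (z : F) * (((u⁻¹ : Oˣ) : O) : F)
    rw [coe_units_inv, map_div₀, hca, hcb]
    field_simp
    linear_combination habF
  obtain ⟨κ, hκ⟩ := h.const _ hηc
  have hzη : z = z * ((u⁻¹ : Oˣ) : O) * u := by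
    rw [mul_assoc, Units.inv_mul, mul_one]
  have hred : red z = algebraMap k Ft κ * red u := by
    conv_lhs => rw [hzη]
    rw [map_mul, hκ]
  refine ⟨κ, ?_, hred⟩
  rintro rfl
  apply hz
  rw [hred, map_zero, zero_mul]

variable [HasPrincipalDivisors L F]

theorem spec' (h : IsRed O red r) (u : Oˣ) (Q : Place k Ft) :
    Finsupp.mapDomain r (pdiv L ((u : O) : F)) Q = Q.ord (red u) :=
  h.spec u _ (fun P => pdiv_apply _ P) Q

/-- A unit without poles in the tube of `Q` reduces to a function regular at `Q`. -/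
theorem ord_red_nonneg (h : IsRed O red r) (u : Oˣ) (Q : Place k Ft)
    (htube : ∀ P, r P = Q → 0 ≤ P.ord ((u : O) : F)) : 0 ≤ Q.ord (red u) := by
  rw [← h.spec' u Q]
  exact mapDomain_nonneg_of r _ Q (fun P hP => by rw [pdiv_apply]; exact htube P hP)

/-- A unit with a zero at `P₀`, no poles in the tube of `r P₀`, cannot reduce to a function
without zero at `r P₀`. -/
theorem false_of_zero (h : IsRed O red r) (u : Oˣ) (P₀ : Place L F)
    (hpos : 0 < P₀.ord ((u : O) : F))
    (htube : ∀ P, r P = r P₀ → 0 ≤ P.ord ((u : O) : F))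
    (hred : (r P₀).ord (red u) ≤ 0) : False := by
  have h1 := le_mapDomain_of r (pdiv L ((u : O) : F)) (r P₀)
    (fun P hP => by rw [pdiv_apply]; exact htube P hP) (P₀ := P₀) rfl
  rw [pdiv_apply, h.spec' u (r P₀)] at h1
  omega

/-- A unit whose reduction has a simple zero at `Q`, without poles in the tube of `Q`, has
exactly one zero in the tube, and it is simple. -/
theorem tube_unique (h : IsRed O red r) (u : Oˣ) (Q : Place k Ft)
    (htube : ∀ P, r P = Q → 0 ≤ P.ord ((u : O) : F)) (h1 : Q.ord (red u) = 1)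
    {P₀ : Place L F} (hP₀ : r P₀ = Q) (hpos : 0 < P₀.ord ((u : O) : F)) :
    P₀.ord ((u : O) : F) = 1 ∧ ∀ P, r P = Q → P ≠ P₀ → P.ord ((u : O) : F) = 0 := by
  obtain ⟨P₁, hP₁Q, hP₁, hoth⟩ := exists_of_mapDomain_eq_one r (pdiv L ((u : O) : F)) Q
    (fun P hP => by rw [pdiv_apply]; exact htube P hP) (by rw [h.spec' u Q, h1])
  have heq : P₀ = P₁ := by
    by_contra hne
    have := hoth P₀ hP₀ hne
    rw [pdiv_apply] at this
    omega
  subst heq
  refine ⟨by rw [← pdiv_apply (L := L)]; exact hP₁, fun P hP hne => ?_⟩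
  have := hoth P hP hne
  rwa [pdiv_apply] at this

/-- If `red` is surjective, every place of `Ft` is the reduction of a place of `F`. -/
theorem surjective_of_red_surjective (h : IsRed O red r) (hred : Function.Surjective red) :
    Function.Surjective r := by
  classical
  intro Q
  obtain ⟨π, hπ⟩ := IsDiscreteValuationRing.exists_irreducible Q.toValuationSubring
  have h1 : Q.ord (π : Ft) = 1 := Q.ord_coe_irreducible hπ
  obtain ⟨y, hy⟩ := hred (π : Ft)
  have hy0 : red y ≠ 0 := by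
    rw [hy]
    intro h0
    rw [h0, Place.ord_zero] at h1
    exact zero_ne_one h1
  obtain ⟨u, hu⟩ := h.isUnit_of_red_ne_zero hy0
  by_contra hno
  have h0 : Finsupp.mapDomain r (pdiv L ((u : O) : F)) Q = 0 := by
    rw [mapDomain_apply_eq_sum]
    refine Finset.sum_eq_zero fun P hP => ?_
    exact absurd ⟨P, (Finset.mem_filter.1 hP).2⟩ hno
  rw [h.spec' u Q, hu, hy, h1] at h0
  exact one_ne_zero h0

/-- Evaluation on a tube: if `t` has a simple zero in reduction at `Q` and no poles in the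
tube of `Q`, then for each `P₀` in the tube there is a constant `τ` in the maximal ideal
such that `t - τ` is a unit of `O` whose only zero in the tube is a simple zero at `P₀`. -/
theorem tube_eval (h : IsRed O red r) (hres : ∀ P : Place L F, Fermat.Agent.Lib.FF.RR.ResK P)
    {Q : Place k Ft} {t : O} (ht1 : Q.ord (red t) = 1)
    (htreg : ∀ P, r P = Q → 0 ≤ P.ord (t : F)) {P₀ : Place L F} (hP₀ : r P₀ = Q) :
    ∃ τ : O, IsConst L τ ∧ ¬ IsUnit τ ∧ ∃ y : Oˣ, (y : O) = t - τ ∧
      P₀.ord ((y : O) : F) = 1 ∧ ∀ P, r P = Q → P ≠ P₀ → P.ord ((y : O) : F) = 0 := by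
  have hrt0 : red t ≠ 0 := by
    intro h0
    rw [h0, Place.ord_zero] at ht1
    exact zero_ne_one ht1
  obtain ⟨c, hc⟩ := exists_const_sub_pos P₀ (hres P₀) (htreg P₀ hP₀)
  have hpos : 0 < P₀.ord ((t : F) - algebraMap L F c) := by
    rcases hc with hc | hc
    · exfalso
      have hct : IsConst L t := ⟨c, hc.symm⟩
      have := h.ord_red_const Q hct
      omega
    · exact hc
  by_cases hq : algebraMap L F c ∈ O
  · set τ : O := ⟨algebraMap L F c, hq⟩ with hτ
    have hτc : IsConst L τ := isConst_mk c hq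
    by_cases hτu : IsUnit τ
    · exfalso
      have hrτ0 : red τ ≠ 0 := (hτu.map red).ne_zero
      have hordτ : Q.ord (red τ) = 0 := h.ord_red_const Q hτc
      have hord : Q.ord (red t - red τ) = 0 := by
        rw [ord_sub_eq_of_lt Q hrτ0 (Or.inr (by omega)), hordτ]
      have hne : red (t - τ) ≠ 0 := by
        rw [map_sub]
        intro h0
        rw [sub_eq_zero] at h0
        rw [h0, hordτ] at ht1
        omega
      obtain ⟨y, hy⟩ := h.isUnit_of_red_ne_zero hne
      refine h.false_of_zero y P₀ ?_ ?_ ?_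
      · rw [hy]
        exact hpos
      · intro P hP
        rw [hy]
        exact ord_sub_const_nonneg P (htreg P (hP.trans hP₀)) c
      · rw [hP₀, hy, map_sub, hord]
    · have hrτ : red τ = 0 := h.ker τ hτu
      have hne : red (t - τ) ≠ 0 := by
        rw [map_sub, hrτ, sub_zero]
        exact hrt0
      obtain ⟨y, hy⟩ := h.isUnit_of_red_ne_zero hne
      have hy1 : Q.ord (red (y : O)) = 1 := by
        rw [hy, map_sub, hrτ, sub_zero]
        exact ht1
      obtain ⟨h1, h2⟩ := h.tube_unique y Q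
        (fun P hP => by rw [hy]; exact ord_sub_const_nonneg P (htreg P hP) c) hy1 hP₀
        (by rw [hy]; exact hpos)
      exact ⟨τ, hτc, hτu, y, hy, h1, h2⟩
  · exfalso
    have hq' : (algebraMap L F c)⁻¹ ∈ O := (O.mem_or_inv_mem _).resolve_left hq
    have hc0 : c ≠ 0 := by
      rintro rfl
      apply hq
      rw [map_zero]
      exact O.zero_mem
    set a : O := ⟨(algebraMap L F c)⁻¹, hq'⟩ with ha
    have hau : ¬ IsUnit a := by
      rintro ⟨w, hw⟩
      apply hq
      have h1 : (((w⁻¹ : Oˣ) : O) : F) = algebraMap L F c := by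
        rw [coe_units_inv, hw]
        show ((algebraMap L F c)⁻¹)⁻¹ = _
        rw [inv_inv]
      rw [← h1]
      exact ((w⁻¹ : Oˣ) : O).2
    have hra : red a = 0 := h.ker a hau
    have hne : red (1 - a * t) ≠ 0 := by
      rw [map_sub, map_one, map_mul, hra, zero_mul, sub_zero]
      exact one_ne_zero
    obtain ⟨y, hy⟩ := h.isUnit_of_red_ne_zero hne
    have hcF : algebraMap L F c ≠ 0 := (map_ne_zero (algebraMap L F)).2 hc0
    have hyF : ∀ P : Place L F, P.ord ((y : O) : F) = P.ord ((t : F) - algebraMap L F c) := by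
      intro P
      have hyv : ((y : O) : F) = algebraMap L F (-c⁻¹) * ((t : F) - algebraMap L F c) := by
        rw [hy]
        show 1 - (algebraMap L F c)⁻¹ * (t : F) = _
        rw [map_neg, map_inv₀]
        field_simp
        ring
      rw [hyv, ord_const_mul P (neg_ne_zero.2 (inv_ne_zero hc0))]
    refine h.false_of_zero y P₀ ?_ ?_ ?_
    · rw [hyF]
      exact hpos
    · intro P hP
      rw [hyF]
      exact ord_sub_const_nonneg P (htreg P (hP.trans hP₀)) c
    · rw [hy, map_sub, map_one, map_mul, hra, zero_mul, sub_zero, Place.ord_one]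

/-- **Local claim.** Let `1 + c·u` (`c` a constant of the maximal ideal, `u` a unit) have, in
the tube of `Q`, exactly a pole of order `m` at `P` and a zero of order `m` at `P' ≠ P`.
If `m` is invertible in `Ft` and `Q` has a tube coordinate `t`, then `red u` has at most a
simple pole at `Q`. -/
theorem local_claim (h : IsRed O red r) (hres : ∀ P : Place L F, Fermat.Agent.Lib.FF.RR.ResK P)
    {m : ℕ} (hm : (m : Ft) ≠ 0) {Q : Place k Ft} {t : O} (ht1 : Q.ord (red t) = 1)
    (htreg : ∀ P, r P = Q → 0 ≤ P.ord (t : F))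
    {c : O} (hc : IsConst L c) (hcu : ¬ IsUnit c) (u : Oˣ)
    {P P' : Place L F} (hP : r P = Q) (hP' : r P' = Q) (hne : P ≠ P')
    (hordP : P.ord ((1 + c * u : O) : F) = -(m : ℤ))
    (hordP' : P'.ord ((1 + c * u : O) : F) = (m : ℤ))
    (hord : ∀ P'', r P'' = Q → P'' ≠ P → P'' ≠ P' → P''.ord ((1 + c * u : O) : F) = 0) :
    -1 ≤ Q.ord (red (u : O)) := by
  obtain ⟨τ, hτc, hτu, y, hy, hyP, hyoth⟩ := h.tube_eval hres ht1 htreg hP
  obtain ⟨τ', hτ'c, hτ'u, y', hy', hy'P', hy'oth⟩ := h.tube_eval hres ht1 htreg hP'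
  have hrτ : red τ = 0 := h.ker τ hτu
  have hrτ' : red τ' = 0 := h.ker τ' hτ'u
  have hrc : red c = 0 := h.ker c hcu
  -- the constant `d = τ' - τ`
  obtain ⟨d, hd⟩ : ∃ d : O, d = τ' - τ := ⟨_, rfl⟩
  have hdc : IsConst L d := by
    obtain ⟨a, ha⟩ := hτ'c
    obtain ⟨b, hb⟩ := hτc
    exact ⟨a - b, by rw [hd, map_sub, ha, hb]; rfl⟩
  have hrd : red d = 0 := by rw [hd, map_sub, hrτ, hrτ', sub_zero]
  have hyy' : (y : O) - y' = d := by rw [hy, hy', hd]; ring
  have hd0 : d ≠ 0 := by
    intro h0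
    have heq : (y : O) = y' := by rw [← sub_eq_zero, hyy', h0]
    have h1 := hyoth P' hP' (Ne.symm hne)
    rw [heq] at h1
    omega
  -- `s = 1/(t - τ)` and `φ = (t - τ')/(t - τ) = 1 - d s`
  obtain ⟨s, hs⟩ : ∃ s : Oˣ, s = y⁻¹ := ⟨_, rfl⟩
  obtain ⟨φ, hφ⟩ : ∃ φ : Oˣ, φ = y' * y⁻¹ := ⟨_, rfl⟩
  have hys : (y : O) * (s : O) = 1 := by rw [hs]; exact Units.mul_inv y
  have hφeq : (φ : O) = 1 - d * s := by
    rw [hφ, Units.val_mul, ← hyy', ← hs]
    linear_combination hys
  have hry : red (y : O) = red t := by rw [hy, map_sub, hrτ, sub_zero]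
  have hrs : red (s : O) = (red t)⁻¹ := by
    have h1 : red (s : O) * red (y : O) = 1 := by
      rw [← map_mul, mul_comm, hys, map_one]
    rw [← hry]
    exact eq_inv_of_mul_eq_one_left h1
  have hrs0 : red (s : O) ≠ 0 := red_unit_ne_zero s
  have hords : Q.ord (red (s : O)) = -1 := by rw [hrs, Place.ord_inv, ht1]
  have hrφ : red (φ : O) = 1 := by
    rw [hφeq, map_sub, map_one, map_mul, hrd, zero_mul, sub_zero]
  have hrφi : red ((φ⁻¹ : Oˣ) : O) = 1 := by
    have h1 : red ((φ⁻¹ : Oˣ) : O) * red (φ : O) = 1 := by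
      rw [← map_mul, Units.inv_mul, map_one]
    rwa [hrφ, mul_one] at h1
  -- orders of `φ` in the tube
  have hφF : ((φ : O) : F) = ((y' : O) : F) * (((y : O) : F))⁻¹ := by
    rw [hφ, Units.val_mul]
    show ((y' : O) : F) * (((y⁻¹ : Oˣ) : O) : F) = _
    rw [coe_units_inv]
  have hφord : ∀ P'' : Place L F, P''.ord ((φ : O) : F)
      = P''.ord ((y' : O) : F) - P''.ord ((y : O) : F) := by
    intro P''
    rw [hφF, P''.ord_mul (coe_unit_ne_zero y') (inv_ne_zero (coe_unit_ne_zero y)), Place.ord_inv]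
    ring
  -- `ε := (1 + c u) φ⁻ᵐ`
  obtain ⟨ε, hε⟩ : ∃ ε : O, ε = (1 + c * u) * ((φ⁻¹ : Oˣ) : O) ^ m := ⟨_, rfl⟩
  have e1 : (1 + c * u : O) = ε * (φ : O) ^ m := by
    rw [hε, mul_assoc, ← mul_pow, Units.inv_mul, one_pow, mul_one]
  have hrε : red ε = 1 := by
    rw [hε, map_mul, map_add, map_one, map_mul, hrc, zero_mul, add_zero, one_mul, map_pow, hrφi,
      one_pow]
  have hF1ne : ((1 + c * u : O) : F) ≠ 0 := by
    intro h0
    have h1 : (1 + c * u : O) = 0 := Subtype.ext h0
    have h2 : red (1 + c * u : O) = 1 := by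
      rw [map_add, map_one, map_mul, hrc, zero_mul, add_zero]
    rw [h1, map_zero] at h2
    exact zero_ne_one h2
  have hεF : (ε : F) = ((1 + c * u : O) : F) * ((((φ : O) : F))⁻¹) ^ m := by
    rw [hε]
    show ((1 + c * u : O) : F) * ((((φ⁻¹ : Oˣ) : O) : F)) ^ m = _
    rw [coe_units_inv]
  have hεord : ∀ P'' : Place L F, P''.ord (ε : F)
      = P''.ord ((1 + c * u : O) : F) - m * P''.ord ((φ : O) : F) := by
    intro P''
    rw [hεF, P''.ord_mul hF1ne (pow_ne_zero _ (inv_ne_zero (coe_unit_ne_zero φ))), ord_npow,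
      Place.ord_inv]
    ring
  have hεtube : ∀ P'', r P'' = Q → P''.ord (ε : F) = 0 := by
    intro P'' hP''
    rw [hεord, hφord]
    by_cases h1 : P'' = P
    · rw [h1, hordP, hyP, hy'oth P hP hne]
      ring
    · by_cases h2 : P'' = P'
      · rw [h2, hordP', hy'P', hyoth P' hP' (Ne.symm hne)]
        ring
      · rw [hord P'' hP'' h1 h2, hyoth P'' hP'' h1, hy'oth P'' hP'' h2]
        ring
  -- `ε - 1 = c₁ u₁`
  have hdecomp : ∃ (c₁ : O) (u₁ : Oˣ), ε - 1 = c₁ * u₁ ∧ IsConst L c₁ ∧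
      0 ≤ Q.ord (red (u₁ : O)) := by
    by_cases hε1 : ε = 1
    · refine ⟨0, 1, by rw [hε1, sub_self, zero_mul], ⟨0, by rw [map_zero]; rfl⟩, ?_⟩
      rw [Units.val_one, map_one, Place.ord_one]
    · have hεF0 : ((ε - 1 : O) : F) ≠ 0 := fun h' => hε1 (sub_eq_zero.1 (Subtype.ext h'))
      obtain ⟨cL, u₁, hu₁⟩ := h.scale _ hεF0
      have hcL : cL ≠ 0 := by
        rintro rfl
        apply hεF0
        rw [hu₁, map_zero, zero_mul]
      refine ⟨(ε - 1) * ((u₁⁻¹ : Oˣ) : O), u₁, by rw [mul_assoc, Units.inv_mul, mul_one],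
        ⟨cL, ?_⟩, ?_⟩
      · show algebraMap L F cL = ((ε - 1 : O) : F) * (((u₁⁻¹ : Oˣ) : O) : F)
        rw [coe_units_inv, hu₁, mul_assoc, mul_inv_cancel₀ (coe_unit_ne_zero u₁), mul_one]
      · apply h.ord_red_nonneg u₁ Q
        intro P'' hP''
        have h1 : P''.ord ((ε - 1 : O) : F) = P''.ord ((u₁ : O) : F) := by
          rw [hu₁, ord_const_mul P'' hcL]
        rw [← h1]
        exact ord_sub_one_nonneg P'' (le_of_eq (hεtube P'' hP'').symm)
  obtain ⟨c₁, u₁, e2, hc₁c, hu₁ord⟩ := hdecomp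
  obtain ⟨hh, e3⟩ := one_sub_pow_expand (d * (s : O)) m
  rw [← hφeq] at e3
  have hF1 : c * u = c₁ * u₁ * (φ : O) ^ m - m * (d * s) + (d * s) ^ 2 * hh := by
    linear_combination e1 + (φ : O) ^ m * e2 + e3
  have hordm : Q.ord ((m : Ft) * red (s : O)) = -1 := by
    have h1 : Q.ord (m : Ft) = 0 := by
      have := Fermat.Agent.S24.ord_algebraMap Q (m : k)
      rwa [map_natCast] at this
    rw [Q.ord_mul hm hrs0, h1, hords, zero_add]
  rcases const_div_cases hc₁c hdc hd0 with ⟨x, hxc, hx⟩ | ⟨x, hxc, hxu, hx⟩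
  · -- `c₁ = x d`
    obtain ⟨z, hz⟩ : ∃ z : O, z = x * u₁ * (φ : O) ^ m - m * s + d * (s : O) ^ 2 * hh := ⟨_, rfl⟩
    have hcz : c * u = d * z := by
      rw [hz]
      linear_combination hF1 + (u₁ * (φ : O) ^ m) * hx
    have hredz : red z = red x * red (u₁ : O) - (m : Ft) * red (s : O) := by
      rw [hz]
      simp only [map_sub, map_add, map_mul, map_pow, map_natCast, hrφ, hrd, one_pow, mul_one,
        zero_mul, add_zero]
    have hordz : Q.ord (red z) = -1 := by
      rw [hredz, ord_sub_eq_of_lt Q (mul_ne_zero hm hrs0) ?_, hordm]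
      by_cases hrx : red x = 0
      · left
        rw [hrx, zero_mul]
      · right
        rw [hordm, Q.ord_mul hrx (red_unit_ne_zero u₁), h.ord_red_const Q hxc]
        omega
    have hzne : red z ≠ 0 := by
      intro h0
      rw [h0, Place.ord_zero] at hordz
      omega
    obtain ⟨κ, hκ0, hκ⟩ := h.red_eq_const_mul u hc hdc hd0 hcz hzne
    have hfin : Q.ord (red z) = Q.ord (red (u : O)) := by
      rw [hκ, ord_const_mul Q hκ0]
    omega
  · -- `d = x c₁`
    have hc₁0 : c₁ ≠ 0 := by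
      rintro rfl
      apply hd0
      rw [hx, mul_zero]
    have hrx : red x = 0 := h.ker x hxu
    obtain ⟨z, hz⟩ : ∃ z : O, z = u₁ * (φ : O) ^ m - m * (x * s) + x * (d * (s : O) ^ 2 * hh) :=
      ⟨_, rfl⟩
    have hcz : c * u = c₁ * z := by
      rw [hz]
      linear_combination hF1 + (-(m : O) * s + d * (s : O) ^ 2 * hh) * hx
    have hredz : red z = red (u₁ : O) := by
      rw [hz]
      simp only [map_sub, map_add, map_mul, map_pow, map_natCast, hrφ, hrx, one_pow, mul_one,
        zero_mul, mul_zero, add_zero, sub_zero]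
    have hzne : red z ≠ 0 := by
      rw [hredz]
      exact red_unit_ne_zero u₁
    obtain ⟨κ, hκ0, hκ⟩ := h.red_eq_const_mul u hc hc₁c hc₁0 hcz hzne
    have hfin : Q.ord (red z) = Q.ord (red (u : O)) := by
      rw [hκ, ord_const_mul Q hκ0]
    rw [hredz] at hfin
    omega

/-- **RED-INJ, abstract form.**  Let `(O, red, r)` be reduction data for `F/L` and `Ft/k`,
all places of `F` with residue field `L`, `r` surjective.  Assume Riemann's inequality on `F`
with constant `g` (`hRR`) and the existence, away from any finite set of places, of a reduced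
non-special divisor of degree `g` on `Ft` whose points carry tube coordinates (`hns`).
If `m` is invertible in `Ft`, `D` has degree `0`, `m • D = div f₀` and `r_* D = div h̄`,
then `D` is principal. -/
theorem principal_of_torsion (h : IsRed O red r)
    (hdeg : ∀ P : Place L F, P.deg = 1)
    (hres : ∀ P : Place L F, Fermat.Agent.Lib.FF.RR.ResK P)
    (hsurj : Function.Surjective r) (g : ℕ)
    (hRR : ∀ D : Divisor L F, (g : ℤ) ≤ Divisor.degree D →
      ∃ f : F, f ≠ 0 ∧ ∀ P : Place L F, 0 ≤ P.ord f + D P)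
    (hns : ∀ S : Finset (Place k Ft), ∃ Qs : Finset (Place k Ft), Qs.card = g ∧ Disjoint Qs S ∧
      (∀ Q ∈ Qs, ∃ t : O, Q.ord (red t) = 1 ∧ ∀ P, r P = Q → 0 ≤ P.ord (t : F)) ∧
      ∀ w : Ft, w ≠ 0 → (∀ Q ∈ Qs, -1 ≤ Q.ord w) → (∀ Q, Q ∉ Qs → 0 ≤ Q.ord w) →
        ∃ κ : k, w = algebraMap k Ft κ)
    {m : ℕ} (hm : (m : Ft) ≠ 0) (D : Divisor L F) (hD0 : Divisor.degree D = 0)
    (f₀ : F) (hf₀ : f₀ ≠ 0) (hmD : ∀ P : Place L F, (m : ℤ) * D P = P.ord f₀)
    (hbar : Ft) (hhbar : hbar ≠ 0)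
    (hrD : ∀ Q : Place k Ft, Finsupp.mapDomain r D Q = Q.ord hbar) :
    ∃ φ : F, φ ≠ 0 ∧ ∀ P : Place L F, D P = P.ord φ := by
  classical
  have hm0 : (m : ℤ) ≠ 0 := by
    intro h0
    apply hm
    have h1 : m = 0 := by exact_mod_cast h0
    rw [h1, Nat.cast_zero]
  by_cases hemp : IsEmpty (Place L F)
  · exact ⟨1, one_ne_zero, fun P => (hemp.false P).elim⟩
  rw [not_isEmpty_iff] at hemp
  obtain ⟨Pst⟩ := hemp
  obtain ⟨Qs, hcard, hdisj, htube, hnsp⟩ := hns {r Pst}
  have hPst : r Pst ∉ Qs := fun hmem =>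
    Finset.disjoint_left.1 hdisj hmem (Finset.mem_singleton_self _)
  -- a lift `E₀` of the non-special divisor
  have hsecr : ∀ Q, r (Function.surjInv hsurj Q) = Q := Function.surjInv_eq hsurj
  obtain ⟨E₀, hE₀⟩ : ∃ E₀ : Divisor L F,
      E₀ = ∑ Q ∈ Qs, Finsupp.single (Function.surjInv hsurj Q) (1 : ℤ) := ⟨_, rfl⟩
  have hE₀nn : ∀ P, 0 ≤ E₀ P := by
    intro P
    rw [hE₀, Finsupp.finsetSum_apply]
    refine Finset.sum_nonneg fun Q _ => ?_
    rw [Finsupp.single_apply]
    split_ifs <;> norm_num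
  have hE₀deg : Divisor.degree E₀ = g := by
    rw [hE₀, map_sum]
    simp [Divisor.degree_single, hdeg, hcard]
  have hE₀map : ∀ Q, Finsupp.mapDomain r E₀ Q = if Q ∈ Qs then 1 else 0 := by
    intro Q
    rw [hE₀, Finsupp.mapDomain_finsetSum, Finsupp.finsetSum_apply]
    simp only [Finsupp.mapDomain_single, hsecr, Finsupp.single_apply]
    rw [Finset.sum_ite_eq']
  -- normal form `E = div φ + D + E₀ ≥ 0`
  obtain ⟨φ, hφ, hφD⟩ := hRR (D + E₀) (by rw [map_add, hD0, hE₀deg, zero_add])
  obtain ⟨E, hE⟩ : ∃ E : Divisor L F, E = pdiv L φ + D + E₀ := ⟨_, rfl⟩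
  have hEapp : ∀ P, E P = P.ord φ + D P + E₀ P := fun P => by
    rw [hE, Finsupp.add_apply, Finsupp.add_apply, pdiv_apply]
  have hEnn : ∀ P, 0 ≤ E P := fun P => by
    rw [hEapp]
    have := hφD P
    rw [Finsupp.add_apply] at this
    omega
  obtain ⟨cφ, uφ, huφ⟩ := h.scale φ hφ
  have hcφ : cφ ≠ 0 := by
    rintro rfl
    apply hφ
    rw [huφ, map_zero, zero_mul]
  have hpdivφ : pdiv L φ = pdiv L ((uφ : O) : F) := by
    ext P
    rw [pdiv_apply, pdiv_apply, huφ, ord_const_mul P hcφ]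
  have hmapE : ∀ Q, Finsupp.mapDomain r E Q
      = Q.ord (red (uφ : O) * hbar) + (if Q ∈ Qs then 1 else 0) := by
    intro Q
    rw [hE, Finsupp.mapDomain_add, Finsupp.mapDomain_add, Finsupp.add_apply, Finsupp.add_apply,
      hpdivφ, h.spec' uφ Q, hrD Q, hE₀map Q, Q.ord_mul (red_unit_ne_zero uφ) hhbar]
  have hw0 : red (uφ : O) * hbar ≠ 0 := mul_ne_zero (red_unit_ne_zero uφ) hhbar
  obtain ⟨κ, hκ⟩ := hnsp _ hw0
    (fun Q hQ => by
      have := mapDomain_nonneg_of r E Q (fun P _ => hEnn P)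
      rw [hmapE, if_pos hQ] at this
      omega)
    (fun Q hQ => by
      have := mapDomain_nonneg_of r E Q (fun P _ => hEnn P)
      rw [hmapE, if_neg hQ] at this
      omega)
  have hmapE' : ∀ Q, Finsupp.mapDomain r E Q = if Q ∈ Qs then 1 else 0 := by
    intro Q
    rw [hmapE, hκ, Fermat.Agent.S24.ord_algebraMap, zero_add]
  by_cases hEE : E = E₀
  · refine ⟨φ⁻¹, inv_ne_zero hφ, fun P => ?_⟩
    have := hEapp P
    rw [hEE] at this
    rw [Place.ord_inv]
    omega
  exfalso
  -- the function `f` with `div f = m (E - E₀)`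
  obtain ⟨f, hf⟩ : ∃ f : F, f = f₀ * φ ^ m := ⟨_, rfl⟩
  have hford : ∀ P : Place L F, P.ord f = m * (E P - E₀ P) := by
    intro P
    rw [hf, P.ord_mul hf₀ (pow_ne_zero _ hφ), ord_npow, ← hmD P, hEapp P]
    ring
  have hout : ∀ P, r P ∉ Qs → P.ord f = 0 := by
    intro P hP
    have h1 := eq_zero_of_mapDomain_eq_zero r E (r P) (fun P' _ => hEnn P')
      (by rw [hmapE', if_neg hP]) P rfl
    have h2 := eq_zero_of_mapDomain_eq_zero r E₀ (r P) (fun P' _ => hE₀nn P')
      (by rw [hE₀map, if_neg hP]) P rfl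
    rw [hford, h1, h2]
    ring
  have hnot : ¬ ∀ P : Place L F, P.ord f = 0 := by
    intro hall
    apply hEE
    ext P
    have h1 := hall P
    rw [hford] at h1
    have h2 := (mul_eq_zero.1 h1).resolve_left hm0
    omega
  -- normalise `f` by its value at `Pst`
  have hPst0 : Pst.ord f = 0 := hout Pst hPst
  obtain ⟨μ, hμ⟩ := exists_const_sub_pos Pst (hres Pst) (le_of_eq hPst0.symm)
  have hμpos : 0 < Pst.ord (f - algebraMap L F μ) := by
    rcases hμ with hμ | hμ
    · exfalso
      apply hnot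
      intro P
      rw [hμ]
      exact Fermat.Agent.S24.ord_algebraMap P μ
    · exact hμ
  have hμ0 : μ ≠ 0 := by
    rintro rfl
    rw [map_zero, sub_zero, hPst0] at hμpos
    exact lt_irrefl _ hμpos
  have hμF : algebraMap L F μ ≠ 0 := (map_ne_zero (algebraMap L F)).2 hμ0
  obtain ⟨f₁, hf₁⟩ : ∃ f₁ : F, f₁ = algebraMap L F μ⁻¹ * f := ⟨_, rfl⟩
  have hf₁ord : ∀ P : Place L F, P.ord f₁ = P.ord f := fun P => by
    rw [hf₁, ord_const_mul P (inv_ne_zero hμ0) f]
  have hy_eq : f₁ - 1 = algebraMap L F μ⁻¹ * (f - algebraMap L F μ) := by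
    rw [hf₁, map_inv₀]
    field_simp
  have hy0 : f₁ - 1 ≠ 0 := by
    intro h0
    apply hnot
    intro P
    rw [← hf₁ord, sub_eq_zero.1 h0, Place.ord_one]
  obtain ⟨cL, u, hu⟩ := h.scale _ hy0
  have hcL : cL ≠ 0 := by
    rintro rfl
    apply hy0
    rw [hu, map_zero, zero_mul]
  have hcLF : algebraMap L F cL ≠ 0 := (map_ne_zero (algebraMap L F)).2 hcL
  have huord : ∀ P : Place L F, P.ord ((u : O) : F) = P.ord (f₁ - 1) := fun P => by
    rw [hu, ord_const_mul P hcL]
  have hstar : 0 < Pst.ord ((u : O) : F) := by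
    rw [huord, hy_eq, ord_const_mul Pst (inv_ne_zero hμ0)]
    exact hμpos
  have hpole : ∀ P, r P ∉ Qs → 0 ≤ P.ord ((u : O) : F) := by
    intro P hP
    rw [huord]
    exact ord_sub_one_nonneg P (by rw [hf₁ord, hout P hP])
  have hfin : ∀ κ₀ : k, red (u : O) = algebraMap k Ft κ₀ → False := by
    intro κ₀ hκ₀
    refine h.false_of_zero u Pst hstar (fun P hP => hpole P (by rw [hP]; exact hPst)) ?_
    rw [hκ₀, Fermat.Agent.S24.ord_algebraMap]
  have hf₁u : f₁ = 1 + algebraMap L F cL * ((u : O) : F) := by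
    rw [← hu]
    ring
  -- the scaling constant lies in the maximal ideal
  have hq : ∃ hq : algebraMap L F cL ∈ O, ¬ IsUnit (⟨_, hq⟩ : O) := by
    by_contra hcon
    have hq' : (algebraMap L F cL)⁻¹ ∈ O := by
      by_cases hq : algebraMap L F cL ∈ O
      · have hu' : IsUnit (⟨_, hq⟩ : O) := by
          by_contra h'
          exact hcon ⟨hq, h'⟩
        obtain ⟨w, hw⟩ := hu'
        have h1 : (((w⁻¹ : Oˣ) : O) : F) = (algebraMap L F cL)⁻¹ := by
          rw [coe_units_inv, hw]
        rw [← h1]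
        exact ((w⁻¹ : Oˣ) : O).2
      · exact (O.mem_or_inv_mem _).resolve_left hq
    obtain ⟨a, ha⟩ : ∃ a : O, a = ⟨(algebraMap L F cL)⁻¹, hq'⟩ := ⟨_, rfl⟩
    have haF : (a : F) = (algebraMap L F cL)⁻¹ := by rw [ha]
    have hac : IsConst L a := ⟨cL⁻¹, by rw [map_inv₀, haF]⟩
    obtain ⟨κa, hκa⟩ := h.const a hac
    by_cases hv : red ((u : O) + a) = 0
    · apply hfin (-κa)
      rw [map_neg, ← hκa]
      rw [map_add] at hv
      exact eq_neg_of_add_eq_zero_left hv
    · obtain ⟨v, hv'⟩ := h.isUnit_of_red_ne_zero hv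
      have hvF : ((v : O) : F) = algebraMap L F cL⁻¹ * f₁ := by
        rw [hv']
        show ((u : O) : F) + (a : F) = _
        rw [haF, hf₁u, map_inv₀]
        field_simp
        ring
      have hvord : ∀ P : Place L F, P.ord ((v : O) : F) = P.ord f := fun P => by
        rw [hvF, ord_const_mul P (inv_ne_zero hcL), hf₁ord]
      have hpd : pdiv L ((v : O) : F) = (m : ℤ) • (E - E₀) := by
        ext P
        rw [pdiv_apply, hvord, hford, Finsupp.smul_apply, Finsupp.sub_apply, smul_eq_mul]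
      have hredv : ∀ Q : Place k Ft, Q.ord (red (v : O)) = 0 := by
        intro Q
        rw [← h.spec' v Q, hpd, Finsupp.mapDomain_smul, Finsupp.mapDomain_sub, Finsupp.smul_apply,
          Finsupp.sub_apply, hmapE', hE₀map, sub_self, smul_zero]
      obtain ⟨κv, hκv⟩ := hnsp _ (red_unit_ne_zero v)
        (fun Q _ => by rw [hredv]; norm_num) (fun Q _ => by rw [hredv])
      apply hfin (κv - κa)
      rw [map_sub, ← hκv, ← hκa, hv', map_add]
      ring
  obtain ⟨hq, hcu⟩ := hq
  obtain ⟨c, hc⟩ : ∃ c : O, c = ⟨algebraMap L F cL, hq⟩ := ⟨_, rfl⟩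
  have hcc : IsConst L c := by
    rw [hc]
    exact isConst_mk cL hq
  have hcu' : ¬ IsUnit c := by
    rw [hc]
    exact hcu
  have hF1 : ((1 + c * u : O) : F) = f₁ := by
    rw [hf₁u, hc]
    rfl
  -- the reduction of `u` has at most simple poles along `Qs`
  have hloc1 : ∀ Q ∈ Qs, -1 ≤ Q.ord (red (u : O)) := by
    intro Q hQ
    obtain ⟨t, ht1, htreg⟩ := htube Q hQ
    obtain ⟨P, hPQ, hP1, hPoth⟩ := exists_of_mapDomain_eq_one r E₀ Q (fun P' _ => hE₀nn P')
      (by rw [hE₀map, if_pos hQ])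
    obtain ⟨P', hP'Q, hP'1, hP'oth⟩ := exists_of_mapDomain_eq_one r E Q (fun P' _ => hEnn P')
      (by rw [hmapE', if_pos hQ])
    by_cases hPP : P = P'
    · subst hPP
      have h0 : 0 ≤ Q.ord (red (u : O)) := by
        apply h.ord_red_nonneg u Q
        intro P'' hP''
        rw [huord]
        apply ord_sub_one_nonneg
        rw [hf₁ord, hford]
        by_cases hP''P : P'' = P
        · rw [hP''P, hP1, hP'1]
          simp
        · rw [hPoth P'' hP'' hP''P, hP'oth P'' hP'' hP''P]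
          simp
      omega
    · refine h.local_claim hres hm ht1 htreg hcc hcu' u hPQ hP'Q hPP ?_ ?_ ?_
      · rw [hF1, hf₁ord, hford, hP1, hP'oth P hPQ hPP]
        ring
      · rw [hF1, hf₁ord, hford, hP'1, hPoth P' hP'Q (Ne.symm hPP)]
        ring
      · intro P'' hP'' h1 h2
        rw [hF1, hf₁ord, hford, hPoth P'' hP'' h1, hP'oth P'' hP'' h2]
        ring
  have hloc0 : ∀ Q, Q ∉ Qs → 0 ≤ Q.ord (red (u : O)) := fun Q hQ =>
    h.ord_red_nonneg u Q (fun P hP => hpole P (by rw [hP]; exact hQ))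
  obtain ⟨κ₀, hκ₀⟩ := hnsp _ (red_unit_ne_zero u) hloc1 hloc0
  exact hfin κ₀ hκ₀

end IsRed

end Main

end Fermat.Agent.Lib.Red.OneStep
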