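/-
ESJ / RED (V1): polynomials in `x = J(q^N)` and "Lemma A".

* `xL_mem_Ow`, `redF_xL`, `transcendental_xL`, `transcendental_xk`;
* `aeval_map_mem_Ow`, `redF_aeval_map` : `p(x)` for `p ∈ A[X]` is Gauss-integral with reduction
  `p̄(x̄)`;  `aeval_mem_Ow_iff` : `p(x) ∈ Ow ↔ p ∈ A[X]` (for `p ∈ L[X]`);
* `AX A N : Subring F` : the ring `A[x]`;
* `isIntegral_AX_of_isIntegral` (**Lemma A**) : a Gauss-integral function which is integral over
  `L[x]` is integral over `A[x]`;  `mem_Ow_of_isIntegral_AX` (converse half).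
-/
import Mathlib
import Fermat.Agent.Lib.Red.Basis
import Fermat.Agent.S28.Integrality

set_option autoImplicit false

namespace Fermat.Agent.Lib.Red

open HahnSeries ModularCurve Polynomial AlgebraicCurve Fermat.Agent.S28 IntermediateField

open scoped IntermediateField.algebraAdjoinAdjoin

noncomputable section

variable {L : Type*} [Field L] [Algebra ℚ L] (A : ValuationSubring L) {k : Type} [Field k]
  (π : A →+* k) (N : ℕ) [NeZero N]

/-- The value of a polynomial in `x`, as a series. -/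
theorem coe_aeval_xL (p : Polynomial L) :
    ((Polynomial.aeval (xL L N) p : ↥(laurentBaseChange L (modularFunctionFieldFull N))) :
      LaurentSeries L) = p.eval₂ (HahnSeries.C : L →+* LaurentSeries L) (TD.Jd L N) := by
  have h := Polynomial.aeval_algHom_apply (laurentBaseChange L (modularFunctionFieldFull N)).val
    (xL L N) p
  rw [← aeval_eq_eval₂_C]
  exact h.symm

/-- The value of a polynomial in `x̄`, as a series. -/
theorem coe_aeval_xk (p : Polynomial k) :
    ((Polynomial.aeval (xk k N) p : ↥(modularFunctionFieldFullC k N)) :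
      LaurentSeries k) = p.eval₂ (HahnSeries.C : k →+* LaurentSeries k) (TD.Jd k N) := by
  have h := Polynomial.aeval_algHom_apply (modularFunctionFieldFullC k N).val (xk k N) p
  rw [← aeval_eq_eval₂_C]
  exact h.symm

theorem transcendental_xL : Transcendental L (xL L N) := by
  rw [transcendental_iff]
  intro p hp
  have h := congrArg (fun z : ↥(laurentBaseChange L (modularFunctionFieldFull N)) =>
    (z : LaurentSeries L)) hp
  simp only [coe_aeval_xL] at h
  exact Jd_eval₂_eq_zero L (NeZero.ne N) p h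

theorem transcendental_xk : Transcendental k (xk k N) := by
  rw [transcendental_iff]
  intro p hp
  have h := congrArg (fun z : ↥(modularFunctionFieldFullC k N) => (z : LaurentSeries k)) hp
  simp only [coe_aeval_xk] at h
  exact Jd_eval₂_eq_zero k (NeZero.ne N) p h

variable {A π N}

/-- `p(x)` for `p ∈ A[X]`, as a series, is the image of an `A`-integral series. -/
theorem coe_aeval_map_xL (p : Polynomial A) :
    ((Polynomial.aeval (xL L N) (p.map A.subtype) :
      ↥(laurentBaseChange L (modularFunctionFieldFull N))) : LaurentSeries L) =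
      incl A (p.eval₂ (HahnSeries.C : A →+* LaurentSeries A) (TD.Jd A N)) := by
  rw [coe_aeval_xL, incl_eval₂, incl_Jd]

theorem aeval_map_mem_Ow (hNk : (N : k) ≠ 0) (p : Polynomial A) :
    Polynomial.aeval (xL L N) (p.map A.subtype) ∈ Ow A π N hNk := by
  show ((Polynomial.aeval (xL L N) (p.map A.subtype) :
    ↥(laurentBaseChange L (modularFunctionFieldFull N))) : LaurentSeries L) ∈ gaussRing A π
  rw [coe_aeval_map_xL]
  exact incl_mem_gaussRing A π _

/-- The reduction of `p(x)` is `p̄(x̄)`. -/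
theorem redF_aeval_map (hπ : ∀ a : A, ¬ IsUnit a → π a = 0) (hNk : (N : k) ≠ 0)
    (p : Polynomial A) :
    redF A π N hπ hNk ⟨_, aeval_map_mem_Ow hNk p⟩ = Polynomial.aeval (xk k N) (p.map π) := by
  apply Subtype.ext
  rw [coe_redF, coe_aeval_xk]
  have e : OwToGauss A π N hNk ⟨_, aeval_map_mem_Ow hNk p⟩ =
      ⟨incl A (p.eval₂ (HahnSeries.C : A →+* LaurentSeries A) (TD.Jd A N)),
        incl_mem_gaussRing A π _⟩ := Subtype.ext (coe_aeval_map_xL p)
  rw [e, red_incl, rbar_eval₂, rbar_Jd]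

theorem aeval_map_X_xL :
    Polynomial.aeval (xL L N) ((Polynomial.X : Polynomial A).map A.subtype) = xL L N := by
  rw [Polynomial.map_X, Polynomial.aeval_X]

theorem xL_mem_Ow (hNk : (N : k) ≠ 0) : xL L N ∈ Ow A π N hNk := by
  have h := aeval_map_mem_Ow (A := A) (π := π) hNk (Polynomial.X : Polynomial A)
  rwa [aeval_map_X_xL] at h

theorem redF_xL (hπ : ∀ a : A, ¬ IsUnit a → π a = 0) (hNk : (N : k) ≠ 0) :
    redF A π N hπ hNk ⟨xL L N, xL_mem_Ow hNk⟩ = xk k N := by
  have h := redF_aeval_map hπ hNk (Polynomial.X : Polynomial A)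
  have e : (⟨xL L N, xL_mem_Ow hNk⟩ : Ow A π N hNk) =
      ⟨_, aeval_map_mem_Ow hNk (Polynomial.X : Polynomial A)⟩ :=
    Subtype.ext aeval_map_X_xL.symm
  rw [e, h, Polynomial.map_X, Polynomial.aeval_X]

/-- If `y` and `c·y` are Gauss-integral and `c·y` has nonzero reduction, then `c⁻¹ ∈ A`. -/
theorem inv_mem_of_redF_ne_zero (hπ : ∀ a : A, ¬ IsUnit a → π a = 0) (hNk : (N : k) ≠ 0) {c : L}
    {y : ↥(laurentBaseChange L (modularFunctionFieldFull N))} (hy : y ∈ Ow A π N hNk)
    (hcy : algebraMap L _ c * y ∈ Ow A π N hNk)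
    (hne : redF A π N hπ hNk ⟨_, hcy⟩ ≠ 0) : c⁻¹ ∈ A := by
  by_contra hinv
  have hc : c ∈ A := (A.mem_or_inv_mem c).resolve_right hinv
  have hnu : ¬ IsUnit (⟨c, hc⟩ : A) := by
    intro hu
    obtain ⟨b, hb⟩ := hu.exists_right_inv
    have hb' : c * (b : L) = 1 := congrArg Subtype.val hb
    have : (b : L) = c⁻¹ := eq_inv_of_mul_eq_one_right hb'
    exact hinv (this ▸ b.2)
  apply hne
  have h1 : (⟨_, hcy⟩ : Ow A π N hNk) =
      ⟨algebraMap L _ c, (algebraMap_mem_Ow_iff hπ hNk c).mpr hc⟩ * ⟨y, hy⟩ := rfl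
  rw [h1, map_mul, redF_algebraMap hπ hNk ⟨c, hc⟩, hπ _ hnu, map_zero, zero_mul]

/-- A polynomial in `x` is Gauss-integral iff its coefficients lie in `A`. -/
theorem aeval_mem_Ow_iff (hπ : ∀ a : A, ¬ IsUnit a → π a = 0) (hNk : (N : k) ≠ 0)
    (p : Polynomial L) :
    Polynomial.aeval (xL L N) p ∈ Ow A π N hNk ↔ ∀ i, p.coeff i ∈ A := by
  constructor
  · intro h
    by_cases hp : p = 0
    · intro i
      rw [hp, Polynomial.coeff_zero]
      exact A.zero_mem
    · obtain ⟨c, hc, P₀, hP₀, hne⟩ := exists_primitive_scaling π p hp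
      have hF : algebraMap L ↥(laurentBaseChange L (modularFunctionFieldFull N)) c *
          Polynomial.aeval (xL L N) p = Polynomial.aeval (xL L N) (P₀.map A.subtype) := by
        rw [hP₀, map_mul, Polynomial.aeval_C]
      have hcy : algebraMap L _ c * Polynomial.aeval (xL L N) p ∈ Ow A π N hNk := by
        rw [hF]
        exact aeval_map_mem_Ow (A := A) (π := π) hNk P₀
      have hred : redF A π N hπ hNk ⟨_, hcy⟩ ≠ 0 := by
        have h1 := redF_aeval_map hπ hNk P₀
        have h2 : (⟨_, hcy⟩ : Ow A π N hNk) = ⟨_, aeval_map_mem_Ow hNk P₀⟩ :=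
          Subtype.ext hF
        rw [h2, h1]
        intro h0
        exact hne ((transcendental_iff.mp (transcendental_xk N)) _ h0)
      have hinv := inv_mem_of_redF_ne_zero hπ hNk h hcy hred
      intro i
      have h3 : p.coeff i = c⁻¹ * (P₀.coeff i : L) := by
        have h4 := congrArg (fun R => R.coeff i) hP₀
        simp only [Polynomial.coeff_map, Polynomial.coeff_C_mul] at h4
        have h5 : (P₀.coeff i : L) = c * p.coeff i := h4
        rw [h5, ← mul_assoc, inv_mul_cancel₀ hc, one_mul]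
      rw [h3]
      exact mul_mem hinv (P₀.coeff i).2
  · intro h
    obtain ⟨P₀, hP₀⟩ := exists_map_subtype_eq p h
    rw [← hP₀]
    exact aeval_map_mem_Ow hNk P₀

variable (A N)

/-- The ring `A[x]`, `x = J(q^N)`, as a subring of `L·F_N`. -/
def AX : Subring ↥(laurentBaseChange L (modularFunctionFieldFull N)) :=
  ((Polynomial.aeval (R := L) (xL L N)).toRingHom.comp (Polynomial.mapRingHom A.subtype)).range

variable {A N}

theorem mem_AX_iff {z : ↥(laurentBaseChange L (modularFunctionFieldFull N))} :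
    z ∈ AX A N ↔ ∃ p : Polynomial A, Polynomial.aeval (xL L N) (p.map A.subtype) = z :=
  Iff.rfl

theorem AX_le_Ow (hNk : (N : k) ≠ 0) {z : ↥(laurentBaseChange L (modularFunctionFieldFull N))}
    (hz : z ∈ AX A N) : z ∈ Ow A π N hNk := by
  obtain ⟨p, rfl⟩ := hz
  exact aeval_map_mem_Ow hNk p

/-- An element integral over `A[x]` is Gauss-integral. -/
theorem mem_Ow_of_isIntegral_AX (hNk : (N : k) ≠ 0)
    {z : ↥(laurentBaseChange L (modularFunctionFieldFull N))} (hz : IsIntegral (AX A N) z) :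
    z ∈ Ow A π N hNk := by
  obtain ⟨f, hf, hfz⟩ := hz
  have hz' : IsIntegral (Ow A π N hNk) z := by
    refine ⟨f.map (Subring.inclusion (fun w hw => AX_le_Ow (π := π) hNk hw :
      AX A N ≤ (Ow A π N hNk).toSubring)), hf.map _, ?_⟩
    rw [Polynomial.eval₂_map]
    exact hfz
  obtain ⟨w, hw⟩ := IsIntegrallyClosed.isIntegral_iff.mp hz'
  rw [← hw]
  exact w.2


/-! ### The characteristic polynomial annihilates -/

namespace Ortho.GoodBasis

variable {F E : Type*} [Field F] [Field E] {O : ValuationSubring F} {red : O →+* E}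
variable {F₀ E₀ : Type*} [Field F₀] [Field E₀] [Algebra F₀ F] [Algebra E₀ E]
variable {O₀ : ValuationSubring F₀} {red₀ : O₀ →+* E₀}
variable {ι : Type*} [Fintype ι] [DecidableEq ι] (G : Ortho.GoodBasis O red O₀ red₀ ι)

theorem charpoly_monic (y : O) : (G.mulMatrix y).charpoly.Monic := Matrix.charpoly_monic _

/-- Cayley–Hamilton for the characteristic polynomial (over `O₀`) of `y ∈ O`. -/
theorem aeval_charpoly (y : O) :
    Polynomial.aeval (y : F) ((G.mulMatrix y).charpoly.map O₀.subtype) = 0 := by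
  rw [G.charpoly_map_subtype]
  apply Algebra.leftMulMatrix_injective G.basisF
  rw [← Polynomial.aeval_algHom_apply, map_zero]
  exact Matrix.aeval_self_charpoly _

/-- Cayley–Hamilton for the reduction. -/
theorem aeval_red_charpoly (y : O) :
    Polynomial.aeval (red y) ((G.mulMatrix y).charpoly.map red₀) = 0 := by
  rw [G.charpoly_map_red]
  apply Algebra.leftMulMatrix_injective G.basisE
  rw [← Polynomial.aeval_algHom_apply, map_zero]
  exact Matrix.aeval_self_charpoly _

end Ortho.GoodBasis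

/-! ### Lemma A -/

namespace Ortho.GoodBasis

variable {F E : Type*} [Field F] [Field E] {O : ValuationSubring F} {red : O →+* E}
variable {F₀ E₀ : Type*} [Field F₀] [Field E₀] [Algebra F₀ F] [Algebra E₀ E]
variable {O₀ : ValuationSubring F₀} {red₀ : O₀ →+* E₀}
variable {ι : Type*} [Fintype ι] (G : Ortho.GoodBasis O red O₀ red₀ ι)

include G in
/-- The minimal polynomial over `F₀` of an element of `O` has coefficients in `O₀`. -/
theorem exists_map_eq_minpoly (y : O) :
    ∃ g : Polynomial O₀, g.map (algebraMap O₀ F₀) = minpoly F₀ (y : F) := by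
  classical
  have hdvd : minpoly F₀ (y : F) ∣ (G.mulMatrix y).charpoly.map (algebraMap O₀ F₀) :=
    minpoly.dvd _ _ (G.aeval_charpoly y)
  obtain ⟨g', hg'⟩ := IsIntegrallyClosed.eq_map_mul_C_of_dvd F₀ (G.charpoly_monic y) hdvd
  have := G.finite_F
  have hyK : IsIntegral F₀ (y : F) := IsIntegral.of_finite F₀ _
  rw [(minpoly.monic hyK).leadingCoeff, map_one, mul_one] at hg'
  exact ⟨g', hg'⟩

end Ortho.GoodBasis

variable (L N) in
theorem isIntegrallyClosed_adjoin_xL : IsIntegrallyClosed ↥(Algebra.adjoin L {xL L N}) :=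
  IsIntegrallyClosed.of_equiv
    (Polynomial.algEquivOfTranscendental L (xL L N) (transcendental_xL N)).toRingEquiv

/-- An element of `L[x]` which is Gauss-integral lies in `A[x]`. -/
theorem mem_AX_of_mem_adjoin (hπ : ∀ a : A, ¬ IsUnit a → π a = 0) (hNk : (N : k) ≠ 0)
    {z : ↥(laurentBaseChange L (modularFunctionFieldFull N))}
    (hz : z ∈ Algebra.adjoin L {xL L N}) (hzO : z ∈ Ow A π N hNk) : z ∈ AX A N := by
  have h3 : z ∈ (Polynomial.aeval (R := L) (xL L N)).range := by
    rw [← Algebra.adjoin_singleton_eq_range_aeval]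
    exact hz
  obtain ⟨p, rfl⟩ := h3
  obtain ⟨P₀, hP₀⟩ := exists_map_subtype_eq p ((aeval_mem_Ow_iff hπ hNk p).mp hzO)
  exact ⟨P₀, by rw [← hP₀]; rfl⟩

/-- The coefficients of the minimal polynomial over `L[x]` of a Gauss-integral element integral
over `L[x]` lie in `A[x]`. -/
theorem coeff_minpoly_mem_AX (hπ : ∀ a : A, ¬ IsUnit a → π a = 0)
    (hsurj : Function.Surjective π) (hNk : (N : k) ≠ 0) (y : Ow A π N hNk)
    (hy : IsIntegral ↥(Algebra.adjoin L {xL L N})
      (y : ↥(laurentBaseChange L (modularFunctionFieldFull N)))) (i : ℕ) :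
    (((minpoly ↥(Algebra.adjoin L {xL L N})
      (y : ↥(laurentBaseChange L (modularFunctionFieldFull N)))).coeff i :
        ↥(Algebra.adjoin L {xL L N})) :
      ↥(laurentBaseChange L (modularFunctionFieldFull N))) ∈ AX A N := by
  obtain ⟨ι, _, G, -⟩ := exists_goodBasis hπ hsurj hNk
  have := isIntegrallyClosed_adjoin_xL L N
  obtain ⟨g', hg'⟩ := G.exists_map_eq_minpoly y
  have hmin := minpoly.isIntegrallyClosed_eq_field_fractions' ↥(L⟮xL L N⟯) hy
  refine mem_AX_of_mem_adjoin hπ hNk (Subtype.property _) ?_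
  have h1 : algebraMap ↥(Algebra.adjoin L {xL L N}) ↥(L⟮xL L N⟯)
      ((minpoly ↥(Algebra.adjoin L {xL L N})
        (y : ↥(laurentBaseChange L (modularFunctionFieldFull N)))).coeff i) =
      ((g'.coeff i : Ov A π N hNk) : ↥(L⟮xL L N⟯)) := by
    have h2 := congrArg (fun p => p.coeff i) (hg'.trans hmin)
    simp only [Polynomial.coeff_map] at h2
    exact h2.symm
  have h4 := congrArg (algebraMap ↥(L⟮xL L N⟯)
    ↥(laurentBaseChange L (modularFunctionFieldFull N))) h1
  have h6 : algebraMap ↥(L⟮xL L N⟯) ↥(laurentBaseChange L (modularFunctionFieldFull N))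
      ((g'.coeff i : Ov A π N hNk) : ↥(L⟮xL L N⟯)) ∈ Ow A π N hNk := (g'.coeff i).2
  rw [← h4] at h6
  exact h6

/-- **Lemma A.** A Gauss-integral element of `L·F_N` which is integral over `L[x]` is integral
over `A[x]`  (`x = J(q^N)`). -/
theorem isIntegral_AX_of_isIntegral (hπ : ∀ a : A, ¬ IsUnit a → π a = 0)
    (hsurj : Function.Surjective π) (hNk : (N : k) ≠ 0) (y : Ow A π N hNk)
    (hy : IsIntegral ↥(Algebra.adjoin L {xL L N})
      (y : ↥(laurentBaseChange L (modularFunctionFieldFull N)))) :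
    IsIntegral ↥(AX A N) (y : ↥(laurentBaseChange L (modularFunctionFieldFull N))) := by
  have hcoeff := coeff_minpoly_mem_AX hπ hsurj hNk y hy
  -- lift the minimal polynomial to `A[x]`
  set q : Polynomial ↥(laurentBaseChange L (modularFunctionFieldFull N)) :=
    (minpoly ↥(Algebra.adjoin L {xL L N})
      (y : ↥(laurentBaseChange L (modularFunctionFieldFull N)))).map
      (algebraMap ↥(Algebra.adjoin L {xL L N})
      ↥(laurentBaseChange L (modularFunctionFieldFull N))) with hq
  have hqm : q.Monic := (minpoly.monic hy).map _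
  have hq0 : q.eval (y : ↥(laurentBaseChange L (modularFunctionFieldFull N))) = 0 := by
    rw [hq, Polynomial.eval_map, ← Polynomial.aeval_def]
    exact minpoly.aeval _ _
  have hlift : q ∈ Polynomial.lifts (AX A N).subtype := by
    rw [Polynomial.lifts_iff_coeff_lifts]
    intro n
    rw [hq, Polynomial.coeff_map]
    exact ⟨⟨_, hcoeff n⟩, rfl⟩
  obtain ⟨q', hq', -, hq'm⟩ := Polynomial.lifts_and_natDegree_eq_and_monic hlift hqm
  refine ⟨q', hq'm, ?_⟩
  have h5 : Polynomial.eval₂ (algebraMap ↥(AX A N)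
      ↥(laurentBaseChange L (modularFunctionFieldFull N)))
      (y : ↥(laurentBaseChange L (modularFunctionFieldFull N))) q' =
      (q'.map (AX A N).subtype).eval (y : ↥(laurentBaseChange L (modularFunctionFieldFull N))) := by
    rw [Polynomial.eval_map]
    rfl
  rw [h5, hq', hq0]


/-! ### `A[x]`-integrality: further properties -/

theorem xL_mem_AX : xL L N ∈ AX A N := ⟨Polynomial.X, aeval_map_X_xL⟩

/-- `A[x] ⊆ L[x]`. -/
theorem AX_le_adjoin {z : ↥(laurentBaseChange L (modularFunctionFieldFull N))}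
    (hz : z ∈ AX A N) : z ∈ Algebra.adjoin L {xL L N} := by
  obtain ⟨p, rfl⟩ := hz
  rw [Algebra.adjoin_singleton_eq_range_aeval]
  exact ⟨_, rfl⟩

theorem isIntegral_adjoin_of_isIntegral_AX
    {z : ↥(laurentBaseChange L (modularFunctionFieldFull N))} (hz : IsIntegral ↥(AX A N) z) :
    IsIntegral ↥(Algebra.adjoin L {xL L N}) z := by
  obtain ⟨f, hf, hfz⟩ := hz
  let φ : ↥(AX A N) →+* ↥(Algebra.adjoin L {xL L N}) :=
    ((AX A N).subtype).codRestrict (Algebra.adjoin L {xL L N}) (fun c => AX_le_adjoin c.2)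
  refine ⟨f.map φ, hf.map _, ?_⟩
  rw [Polynomial.eval₂_map]
  exact hfz

/-- **Lemma A**, as an equivalence: integral over `A[x]` ⟺ Gauss-integral and integral over
`L[x]`. -/
theorem isIntegral_AX_iff (hπ : ∀ a : A, ¬ IsUnit a → π a = 0)
    (hsurj : Function.Surjective π) (hNk : (N : k) ≠ 0)
    {z : ↥(laurentBaseChange L (modularFunctionFieldFull N))} :
    IsIntegral ↥(AX A N) z ↔
      z ∈ Ow A π N hNk ∧ IsIntegral ↥(Algebra.adjoin L {xL L N}) z :=
  ⟨fun h => ⟨mem_Ow_of_isIntegral_AX hNk h, isIntegral_adjoin_of_isIntegral_AX h⟩,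
   fun h => isIntegral_AX_of_isIntegral hπ hsurj hNk ⟨z, h.1⟩ h.2⟩

theorem AX_le_Ow_toSubring (hNk : (N : k) ≠ 0) : AX A N ≤ (Ow A π N hNk).toSubring :=
  fun _ hz => AX_le_Ow hNk hz

/-- The reduction of an element of `A[x]` lies in `k[x̄]`. -/
theorem redF_mem_adjoin (hπ : ∀ a : A, ¬ IsUnit a → π a = 0) (hNk : (N : k) ≠ 0)
    {z : ↥(laurentBaseChange L (modularFunctionFieldFull N))} (hz : z ∈ AX A N) :
    redF A π N hπ hNk ⟨z, AX_le_Ow hNk hz⟩ ∈ Algebra.adjoin k {xk k N} := by
  obtain ⟨p, hp⟩ := hz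
  have e : (⟨z, AX_le_Ow hNk ⟨p, hp⟩⟩ : Ow A π N hNk) = ⟨_, aeval_map_mem_Ow hNk p⟩ :=
    Subtype.ext hp.symm
  rw [e, redF_aeval_map, Algebra.adjoin_singleton_eq_range_aeval]
  exact ⟨_, rfl⟩

variable (A π N) in
/-- The reduction `A[x] → k[x̄]`. -/
def redAX (hπ : ∀ a : A, ¬ IsUnit a → π a = 0) (hNk : (N : k) ≠ 0) :
    ↥(AX A N) →+* ↥(Algebra.adjoin k {xk k N}) :=
  ((redF A π N hπ hNk).comp (Subring.inclusion (AX_le_Ow_toSubring hNk))).codRestrict
    (Algebra.adjoin k {xk k N}) (fun c => redF_mem_adjoin hπ hNk c.2)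

theorem coe_redAX (hπ : ∀ a : A, ¬ IsUnit a → π a = 0) (hNk : (N : k) ≠ 0) (c : ↥(AX A N)) :
    ((redAX A π N hπ hNk c : ↥(Algebra.adjoin k {xk k N})) :
      ↥(modularFunctionFieldFullC k N)) = redF A π N hπ hNk ⟨c, AX_le_Ow hNk c.2⟩ := rfl

/-- The reduction of an element integral over `A[x]` is integral over `k[x̄]`. -/
theorem isIntegral_redF (hπ : ∀ a : A, ¬ IsUnit a → π a = 0) (hNk : (N : k) ≠ 0)
    (y : Ow A π N hNk)
    (hy : IsIntegral ↥(AX A N) (y : ↥(laurentBaseChange L (modularFunctionFieldFull N)))) :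
    IsIntegral ↥(Algebra.adjoin k {xk k N}) (redF A π N hπ hNk y) := by
  obtain ⟨f, hf, hfy⟩ := hy
  refine ⟨f.map (redAX A π N hπ hNk), hf.map _, ?_⟩
  rw [Polynomial.eval₂_map]
  have h1 : (algebraMap ↥(Algebra.adjoin k {xk k N}) ↥(modularFunctionFieldFullC k N)).comp
      (redAX A π N hπ hNk) =
      (redF A π N hπ hNk).comp (Subring.inclusion (AX_le_Ow_toSubring hNk)) := rfl
  rw [h1, ← Polynomial.hom_eval₂]
  have h2 : f.eval₂ (Subring.inclusion (AX_le_Ow_toSubring (π := π) hNk)) y = 0 := by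
    apply Subtype.ext
    have h3 := Polynomial.hom_eval₂ f (Subring.inclusion (AX_le_Ow_toSubring (π := π) hNk))
      (Ow A π N hNk).subtype y
    exact h3.trans hfy
  rw [h2, map_zero]

/-- `p(x)`, `p ∈ A[X]` with `p̄ ≠ 0`, is a unit of `Ow`. -/
theorem isUnit_aeval_map (hπ : ∀ a : A, ¬ IsUnit a → π a = 0) (hNk : (N : k) ≠ 0)
    (p : Polynomial A) (hp : p.map π ≠ 0) :
    IsUnit (⟨_, aeval_map_mem_Ow hNk p⟩ : Ow A π N hNk) := by
  by_contra h
  have h1 := (redF_eq_zero_iff hπ hNk _).mpr h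
  rw [redF_aeval_map] at h1
  exact hp ((transcendental_iff.mp (transcendental_xk N)) _ h1)

theorem inv_aeval_map_mem_Ow (hπ : ∀ a : A, ¬ IsUnit a → π a = 0) (hNk : (N : k) ≠ 0)
    (p : Polynomial A) (hp : p.map π ≠ 0) :
    (Polynomial.aeval (xL L N) (p.map A.subtype))⁻¹ ∈ Ow A π N hNk := by
  obtain ⟨u, hu⟩ := isUnit_aeval_map hπ hNk p hp
  have h1 : ((u⁻¹ : (Ow A π N hNk)ˣ) : Ow A π N hNk) * ⟨_, aeval_map_mem_Ow hNk p⟩ = 1 := by
    rw [← hu]
    exact u.inv_mul
  have h2 : (((u⁻¹ : (Ow A π N hNk)ˣ) : Ow A π N hNk) :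
      ↥(laurentBaseChange L (modularFunctionFieldFull N))) *
      Polynomial.aeval (xL L N) (p.map A.subtype) = 1 := congrArg Subtype.val h1
  rw [← eq_inv_of_mul_eq_one_left h2]
  exact Subtype.property _

/-- `(x - c)⁻¹` is Gauss-integral for `c ∈ A`. -/
theorem inv_xL_sub_mem_Ow (hπ : ∀ a : A, ¬ IsUnit a → π a = 0) (hNk : (N : k) ≠ 0) (c : A) :
    (xL L N - algebraMap L ↥(laurentBaseChange L (modularFunctionFieldFull N)) (c : L))⁻¹ ∈
      Ow A π N hNk := by
  have h := inv_aeval_map_mem_Ow (N := N) hπ hNk (Polynomial.X - Polynomial.C c) (by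
    rw [Polynomial.map_sub, Polynomial.map_X, Polynomial.map_C]
    exact Polynomial.X_sub_C_ne_zero _)
  rw [Polynomial.map_sub, Polynomial.map_X, Polynomial.map_C, map_sub, Polynomial.aeval_X,
    Polynomial.aeval_C] at h
  exact h

/-! ### Integrality of the good basis -/

/-- A function whose series is the image of an `A`-integral series integral over `ℤ[J(q^N)]` is
integral over `A[x]`. -/
theorem isIntegral_AX_of_series {z : ↥(laurentBaseChange L (modularFunctionFieldFull N))}
    {s : LaurentSeries A}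
    (hs : IsIntegral (Subring.closure ({TD.Jd A N} : Set (LaurentSeries A))) s)
    (hz : (z : LaurentSeries L) = incl A s) : IsIntegral ↥(AX A N) z := by
  obtain ⟨f, hf, hfs⟩ := hs
  set φ : ↥(AX A N) →+* LaurentSeries L :=
    ((laurentBaseChange L (modularFunctionFieldFull N)).val :
      ↥(laurentBaseChange L (modularFunctionFieldFull N)) →+* LaurentSeries L).comp
      (AX A N).subtype with hφ
  have hle : Subring.closure ({TD.Jd A N} : Set (LaurentSeries A)) ≤
      φ.range.comap (incl A) := by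
    rw [Subring.closure_le]
    rintro y rfl
    refine ⟨⟨xL L N, xL_mem_AX⟩, ?_⟩
    show ((xL L N : ↥(laurentBaseChange L (modularFunctionFieldFull N))) : LaurentSeries L) =
      incl A (TD.Jd A N)
    rw [coe_xL, incl_Jd]
  set q : Polynomial (LaurentSeries L) :=
    (f.map (Subring.closure ({TD.Jd A N} : Set (LaurentSeries A))).subtype).map (incl A) with hq
  have hqm : q.Monic := (hf.map _).map _
  have hq0 : q.eval (incl A s) = 0 := by
    rw [hq, Polynomial.eval_map, Polynomial.eval₂_at_apply, Polynomial.eval_map]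
    have : Polynomial.eval₂ (Subring.closure ({TD.Jd A N} : Set (LaurentSeries A))).subtype s f
        = 0 := hfs
    rw [this, map_zero]
  have hlift : q ∈ Polynomial.lifts φ := by
    rw [Polynomial.lifts_iff_coeff_lifts]
    intro n
    rw [hq, Polynomial.coeff_map, Polynomial.coeff_map]
    exact hle (f.coeff n).2
  obtain ⟨g, hg, -, hgm⟩ := Polynomial.lifts_and_natDegree_eq_and_monic hlift hqm
  refine ⟨g, hgm, ?_⟩
  apply Subtype.ext
  have h3 := Polynomial.hom_eval₂ g (algebraMap ↥(AX A N)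
    ↥(laurentBaseChange L (modularFunctionFieldFull N)))
    ((laurentBaseChange L (modularFunctionFieldFull N)).val :
      ↥(laurentBaseChange L (modularFunctionFieldFull N)) →+* LaurentSeries L) z
  have h4 : Polynomial.eval₂ φ (incl A s) g = 0 := by
    rw [← Polynomial.eval_map, hg]
    exact hq0
  rw [← hz] at h4
  exact h3.trans h4

omit [Algebra ℚ L] in
/-- Elements of the ring generated by the `J(q^e)`, `e ∣ N`, are integral over `ℤ[J(q^N)]`. -/
theorem isIntegral_of_mem_jRing {s : LaurentSeries A} (hs : s ∈ jRing A N) :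
    IsIntegral (Subring.closure ({TD.Jd A N} : Set (LaurentSeries A))) s := by
  refine Integrality.isIntegral_of_mem_closure ?_ hs
  rintro y ⟨e, he, rfl⟩
  have h := (Integrality.isIntegral_Jd_dvd A N (NeZero.ne N) (fun r hr _ => modEq_all r hr) 1
    one_ne_zero he).1
  rwa [one_mul, one_mul] at h

/-- **A good basis made of `A[x]`-integral functions.** -/
theorem exists_goodBasis_integral (hπ : ∀ a : A, ¬ IsUnit a → π a = 0)
    (hsurj : Function.Surjective π) (hNk : (N : k) ≠ 0) :
    ∃ (ι : Type) (_ : Fintype ι)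
      (G : Ortho.GoodBasis (Ow A π N hNk) (redF A π N hπ hNk) (Ov A π N hNk)
        (redv A π N hπ hNk) ι),
      ∀ i, IsIntegral ↥(AX A N)
        ((G.b i : Ow A π N hNk) : ↥(laurentBaseChange L (modularFunctionFieldFull N))) := by
  obtain ⟨ι, hι, G, hG⟩ := exists_goodBasis hπ hsurj hNk
  refine ⟨ι, hι, G, fun i => ?_⟩
  obtain ⟨s, hs, hsb⟩ := hG i
  exact isIntegral_AX_of_series (isIntegral_of_mem_jRing hs) hsb.symm

end

end Fermat.Agent.Lib.Red
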