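import Mathlib
import Fermat.Prelude.Def_FLTPrelim_Ramification

/-!
# A valuation subring of `ℚ̄` lying over a prime has rank one

* `exists_pow_div_mem` : for `a ≠ 0` some `ℓ ^ n * a⁻¹` lies in `A`;
* `exists_pow_mul_mem` : for a nonzero non-unit `c` of `A` and `a ≠ 0`, some `c ^ n * a⁻¹ ∈ A`;
* `adjoin_eq_top` : if `c ∉ A` then `A[c] = ℚ̄`.
-/

set_option autoImplicit false

namespace Fermat.Agent.Lib.Red.RankOne

open Polynomial

local notation "Qbar" => AlgebraicClosure ℚ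

variable (A : ValuationSubring Qbar) {ℓ : ℕ}

/-- Integers lie in `A`. -/
theorem intCast_mem (m : ℤ) : (m : Qbar) ∈ A := by
  have : (m : Qbar) = ((m : A) : Qbar) := by push_cast; rfl
  rw [this]; exact SetLike.coe_mem _

theorem valuation_intCast_le_one (m : ℤ) : A.valuation (m : Qbar) ≤ 1 :=
  (A.valuation_le_one_iff _).2 (intCast_mem A m)

theorem valuation_prime_lt_one (hA : A.LiesOverPrime ℓ) : A.valuation (ℓ : Qbar) < 1 :=
  (ValuationSubring.mem_nonunits_iff A).1 hA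

/-- An integer prime to `ℓ` is a unit of `A`. -/
theorem valuation_intCast_eq_one (hℓ : ℓ.Prime) (hA : A.LiesOverPrime ℓ) (u : ℤ)
    (hu : ¬ (ℓ : ℤ) ∣ u) : A.valuation (u : Qbar) = 1 := by
  have hcop : IsCoprime (ℓ : ℤ) u :=
    (Nat.prime_iff_prime_int.mp hℓ).irreducible.coprime_iff_not_dvd.2 hu
  obtain ⟨x, y, hxy⟩ := hcop
  have h1 : (x : Qbar) * (ℓ : Qbar) + (y : Qbar) * (u : Qbar) = 1 := by
    have := congrArg (fun z : ℤ => (z : Qbar)) hxy
    simpa using this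
  by_contra hne
  have hlt : A.valuation (u : Qbar) < 1 := lt_of_le_of_ne (valuation_intCast_le_one A u) hne
  have hℓlt := valuation_prime_lt_one A hA
  have ha : A.valuation ((x : Qbar) * (ℓ : Qbar)) < 1 := by
    rw [map_mul]
    calc A.valuation (x : Qbar) * A.valuation (ℓ : Qbar)
        ≤ 1 * A.valuation (ℓ : Qbar) := mul_le_mul_left (valuation_intCast_le_one A x) _
      _ < 1 := by rw [one_mul]; exact hℓlt
  have hb : A.valuation ((y : Qbar) * (u : Qbar)) < 1 := by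
    rw [map_mul]
    calc A.valuation (y : Qbar) * A.valuation (u : Qbar)
        ≤ 1 * A.valuation (u : Qbar) := mul_le_mul_left (valuation_intCast_le_one A y) _
      _ < 1 := by rw [one_mul]; exact hlt
  have := A.valuation.map_add_lt ha hb
  rw [h1, map_one] at this
  exact lt_irrefl _ this

/-- Elements integral over `ℤ` lie in `A`. -/
theorem mem_of_isIntegral_int {x : Qbar} (hx : IsIntegral ℤ x) : x ∈ A := by
  have hx' : IsIntegral A x := hx.tower_top
  obtain ⟨y, hy⟩ := (IsIntegrallyClosed.isIntegral_iff (R := A) (K := Qbar)).1 hx'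
  rw [← hy]; exact SetLike.coe_mem _

theorem exists_pow_div_mem (hℓ : ℓ.Prime) (hA : A.LiesOverPrime ℓ)
    (a : Qbar) (ha : a ≠ 0) : ∃ n : ℕ, (ℓ : Qbar) ^ n * a⁻¹ ∈ A := by
  have _ := ha
  have halg : IsAlgebraic ℤ a⁻¹ :=
    (IsFractionRing.isAlgebraic_iff ℤ ℚ Qbar).2 ((AlgebraicClosure.isAlgebraic ℚ).isAlgebraic a⁻¹)
  obtain ⟨m, hm0, hm⟩ := halg.exists_integral_multiple
  have hmem : (m : Qbar) * a⁻¹ ∈ A := by
    have := mem_of_isIntegral_int A hm
    rwa [zsmul_eq_mul] at this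
  obtain ⟨e, u, hu, rfl⟩ := WfDvdMonoid.max_power_factor hm0
    (Nat.prime_iff_prime_int.mp hℓ).irreducible
  refine ⟨e, ?_⟩
  have hu1 := valuation_intCast_eq_one A hℓ hA u hu
  rw [← A.valuation_le_one_iff] at hmem ⊢
  have : A.valuation ((((ℓ : ℤ) ^ e * u : ℤ) : Qbar) * a⁻¹) =
      A.valuation ((ℓ : Qbar) ^ e * a⁻¹) := by
    push_cast
    rw [mul_assoc, map_mul, map_mul (A.valuation) (u : Qbar), hu1, one_mul, ← map_mul]
  rwa [this] at hmem

/-- A nonzero non-unit of `A` has a power divisible by `ℓ`. -/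
theorem exists_pow_valuation_le (hℓ : ℓ.Prime) (hA : A.LiesOverPrime ℓ)
    (c : Qbar) (hc0 : c ≠ 0) (hc : A.valuation c < 1) :
    ∃ d : ℕ, A.valuation c ^ d ≤ A.valuation (ℓ : Qbar) := by
  have halg : IsAlgebraic ℤ c :=
    (IsFractionRing.isAlgebraic_iff ℤ ℚ Qbar).2 ((AlgebraicClosure.isAlgebraic ℚ).isAlgebraic c)
  obtain ⟨P, hP0, hPc⟩ := halg
  set Q := P.primPart with hQ
  have hQc : aeval c Q = 0 := aeval_primPart_eq_zero hP0 hPc
  have hprim : Q.IsPrimitive := isPrimitive_primPart P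
  have hex : ∃ i, ¬ (ℓ : ℤ) ∣ Q.coeff i := by
    by_contra hcon
    push Not at hcon
    have hdvd : C (ℓ : ℤ) ∣ Q := (C_dvd_iff_dvd_coeff _ _).2 hcon
    have hunit := hprim _ hdvd
    exact (Nat.prime_iff_prime_int.mp hℓ).not_isUnit hunit
  classical
  set i₀ := Nat.find hex with hi₀
  have hi₀spec : ¬ (ℓ : ℤ) ∣ Q.coeff i₀ := Nat.find_spec hex
  have hlow : ∀ i < i₀, (ℓ : ℤ) ∣ Q.coeff i := fun i hi => by
    by_contra h
    exact Nat.find_min hex hi h
  have hcoeff0 : Q.coeff i₀ ≠ 0 := fun h => hi₀spec (h ▸ dvd_zero _)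
  have hi₀le : i₀ ≤ Q.natDegree := le_natDegree_of_ne_zero hcoeff0
  set v := A.valuation with hv
  have hvc0 : v c ≠ 0 := (Valuation.ne_zero_iff _).2 hc0
  -- the sum
  have hsum : ∑ i ∈ Finset.range (Q.natDegree + 1), (Q.coeff i : Qbar) * c ^ i = 0 := by
    have := hQc
    rw [aeval_eq_sum_range] at this
    simpa [zsmul_eq_mul] using this
  have hmem : i₀ ∈ Finset.range (Q.natDegree + 1) := Finset.mem_range.2 (by omega)
  rw [← Finset.add_sum_erase _ _ hmem] at hsum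
  have hT : (Q.coeff i₀ : Qbar) * c ^ i₀ =
      - ∑ i ∈ (Finset.range (Q.natDegree + 1)).erase i₀, (Q.coeff i : Qbar) * c ^ i :=
    eq_neg_of_add_eq_zero_left hsum
  have hvT : v ((Q.coeff i₀ : Qbar) * c ^ i₀) = v c ^ i₀ := by
    rw [map_mul, map_pow, valuation_intCast_eq_one A hℓ hA _ hi₀spec, one_mul]
  have hbound : v (∑ i ∈ (Finset.range (Q.natDegree + 1)).erase i₀, (Q.coeff i : Qbar) * c ^ i)
      ≤ max (v (ℓ : Qbar)) (v c ^ (i₀ + 1)) := by
    apply Valuation.map_sum_le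
    intro i hi
    rw [Finset.mem_erase] at hi
    rcases lt_or_gt_of_ne hi.1 with hlt | hgt
    · obtain ⟨k, hk⟩ := hlow i hlt
      refine le_trans ?_ (le_max_left _ _)
      rw [hk]
      push_cast
      rw [map_mul, map_mul, map_pow]
      calc v (ℓ : Qbar) * v (k : Qbar) * v c ^ i
          ≤ v (ℓ : Qbar) * 1 * 1 := by
            gcongr
            · exact valuation_intCast_le_one A k
            · exact pow_le_one₀ zero_le hc.le
        _ = v (ℓ : Qbar) := by simp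
    · refine le_trans ?_ (le_max_right _ _)
      rw [map_mul, map_pow]
      calc v (Q.coeff i : Qbar) * v c ^ i ≤ 1 * v c ^ (i₀ + 1) :=
            mul_le_mul' (valuation_intCast_le_one A _)
              (pow_le_pow_of_le_one zero_le hc.le (by omega))
        _ = v c ^ (i₀ + 1) := one_mul _
  rw [← Valuation.map_neg, ← hT, hvT] at hbound
  refine ⟨i₀, ?_⟩
  rcases le_max_iff.1 hbound with h | h
  · exact h
  · exfalso
    have hlt : v c ^ (i₀ + 1) < v c ^ i₀ := by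
      rw [pow_succ]
      have hpos : 0 < v c ^ i₀ := by
        exact pow_pos (lt_of_le_of_ne zero_le (Ne.symm hvc0)) _
      calc v c ^ i₀ * v c < v c ^ i₀ * 1 := by
            exact mul_lt_mul_of_pos_left hc hpos
        _ = v c ^ i₀ := mul_one _
    exact lt_irrefl _ (lt_of_le_of_lt h hlt)

theorem exists_pow_mul_mem (hℓ : ℓ.Prime) (hA : A.LiesOverPrime ℓ)
    (c a : Qbar) (hc : c ∈ A) (hc' : c⁻¹ ∉ A) (ha : a ≠ 0) : ∃ n : ℕ, c ^ n * a⁻¹ ∈ A := by
  have hc0 : c ≠ 0 := by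
    rintro rfl
    exact hc' (by simp [zero_mem])
  have hclt : A.valuation c < 1 := by
    rw [← ValuationSubring.mem_nonunits_iff, ValuationSubring.mem_nonunits_iff_or]
    exact Or.inr hc'
  have _ := hc
  obtain ⟨d, hd⟩ := exists_pow_valuation_le A hℓ hA c hc0 hclt
  obtain ⟨n, hn⟩ := exists_pow_div_mem A hℓ hA a ha
  refine ⟨d * n, ?_⟩
  rw [← A.valuation_le_one_iff] at hn ⊢
  rw [map_mul, map_pow] at hn ⊢
  rw [pow_mul]
  calc (A.valuation c ^ d) ^ n * A.valuation a⁻¹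
      ≤ A.valuation (ℓ : Qbar) ^ n * A.valuation a⁻¹ := by
        gcongr
    _ ≤ 1 := hn

theorem adjoin_eq_top (hℓ : ℓ.Prime) (hA : A.LiesOverPrime ℓ)
    (c : Qbar) (hc : c ∉ A) : ∀ y : Qbar, ∃ p : Polynomial A, y = Polynomial.aeval c p := by
  intro y
  have hcinv : c⁻¹ ∈ A := (A.mem_or_inv_mem c).resolve_left hc
  have hc0 : c ≠ 0 := by
    rintro rfl
    exact hc (zero_mem _)
  by_cases hy : y = 0
  · exact ⟨0, by simp [hy]⟩
  obtain ⟨n, hn⟩ := exists_pow_mul_mem A hℓ hA c⁻¹ y⁻¹ hcinv (by rwa [inv_inv]) (inv_ne_zero hy)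
  rw [inv_inv] at hn
  refine ⟨C ⟨c⁻¹ ^ n * y, hn⟩ * X ^ n, ?_⟩
  rw [map_mul, aeval_C, map_pow, aeval_X]
  change y = c⁻¹ ^ n * y * c ^ n
  rw [inv_pow, mul_right_comm, inv_mul_cancel₀ (pow_ne_zero n hc0), one_mul]

end Fermat.Agent.Lib.Red.RankOne
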