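/-
ESJ / RED-23 (helper41): intermediate good bases.

Setting of `Lib/Red/Ortho.lean`: a field `F` with a valuation subring `O` and residue map
`red : O →+* E`; a good basis of `F` over a valued subfield `(F₀, O₀, red₀ : O₀ →+* E₀)`.
If `(F₁, O₁, red₁ : O₁ →+* E₁)` is another compatible valued subfield with `F₀ ⊆ F₁` (inside `F`),
`E₀ ⊆ E₁` (inside `E`) and `red₁` onto, then `F` has a good basis over `F₁` as well: lift any
`E₁`-basis of `E`.

* `exists_goodBasis_intermediate` : the statement;
* `finrank_eq_of_intermediate` : `[F : F₁] = [E : E₁]`.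
-/
import Mathlib
import Fermat.Agent.Lib.Red.Ortho

set_option autoImplicit false

namespace Fermat.Agent.Lib.Red.OrthoInter

open scoped BigOperators

open Module Fermat.Agent.Lib.Red.Ortho

noncomputable section

variable {F E : Type*} [Field F] [Field E] {O : ValuationSubring F} {red : O →+* E}
variable {F₀ E₀ : Type*} [Field F₀] [Field E₀] [Algebra F₀ F] [Algebra E₀ E]
variable {O₀ : ValuationSubring F₀} {red₀ : O₀ →+* E₀}
variable {F₁ E₁ : Type*} [Field F₁] [Field E₁] [Algebra F₁ F] [Algebra E₁ E]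
variable {O₁ : ValuationSubring F₁} {red₁ : O₁ →+* E₁}

/-- If `E` is finite over `E₀` and the image of `E₀` in `E` is contained in the image of `E₁`,
then `E` is finite over `E₁`. -/
theorem finite_of_range_le [Module.Finite E₀ E]
    (hE : ∀ c : E₀, ∃ c' : E₁, algebraMap E₁ E c' = algebraMap E₀ E c) : Module.Finite E₁ E := by
  classical
  obtain ⟨s, hs⟩ := (Module.finite_def (R := E₀) (M := E)).mp inferInstance
  refine ⟨⟨s, ?_⟩⟩
  rw [eq_top_iff]
  rintro z -
  have hz : z ∈ Submodule.span E₀ (s : Set E) := hs ▸ Submodule.mem_top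
  refine Submodule.span_induction (p := fun z _ => z ∈ Submodule.span E₁ (s : Set E))
    (fun x hx => Submodule.subset_span hx) (Submodule.zero_mem _)
    (fun x y _ _ hx hy => Submodule.add_mem _ hx hy) (fun a x _ hx => ?_) hz
  obtain ⟨a', ha'⟩ := hE a
  have : a • x = a' • x := by
    rw [Algebra.smul_def, Algebra.smul_def, ha']
  rw [this]
  exact Submodule.smul_mem _ _ hx

/-- **Intermediate good basis.** -/
theorem exists_goodBasis_intermediate {ι : Type*} [Fintype ι]
    (G : GoodBasis O red O₀ red₀ ι) (hC₁ : Compat O red O₁ red₁)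
    (hsurj₁ : Function.Surjective red₁)
    (hF : ∀ c : F₀, ∃ c' : F₁, algebraMap F₁ F c' = algebraMap F₀ F c)
    (hE : ∀ c : E₀, ∃ c' : E₁, algebraMap E₁ E c' = algebraMap E₀ E c) :
    ∃ (n : ℕ), Nonempty (GoodBasis O red O₁ red₁ (Fin n)) := by
  classical
  have : Module.Finite E₀ E := G.finite_E
  have : Module.Finite F₀ F := G.finite_F
  have : Module.Finite E₁ E := finite_of_range_le hE
  -- an `E₁`-basis of `E`, lifted to `O`
  let β' : Basis (Fin (finrank E₁ E)) E₁ E := Module.finBasis E₁ E
  choose b' hb' using fun j => G.surj (β' j)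
  have hind₁ : LinearIndependent E₁ (fun j => red (b' j)) := by
    have : (fun j => red (b' j)) = β' := funext hb'
    rw [this]
    exact β'.linearIndependent
  -- the image of `E₁` in `E`, as an `E₀`-subspace
  let V₁ : Submodule E₀ E :=
    { carrier := Set.range (algebraMap E₁ E)
      add_mem' := by
        rintro _ _ ⟨a, rfl⟩ ⟨b, rfl⟩
        exact ⟨a + b, map_add _ _ _⟩
      zero_mem' := ⟨0, map_zero _⟩
      smul_mem' := by
        rintro c _ ⟨a, rfl⟩
        obtain ⟨c', hc'⟩ := hE c
        refine ⟨c' * a, ?_⟩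
        rw [map_mul, hc', Algebra.smul_def] }
  have hV₁ : ∀ z : E, z ∈ V₁ ↔ ∃ a : E₁, algebraMap E₁ E a = z := fun z => Iff.rfl
  let γ : Basis (Fin (finrank E₀ V₁)) E₀ V₁ := Module.finBasis E₀ V₁
  -- elements of `E₁` and of `O₁` representing `γ`
  choose g hg using fun a => (hV₁ _).mp (γ a).2
  choose c hc using fun a => hsurj₁ (g a)
  -- the product family
  let u : Fin (finrank E₀ V₁) × Fin (finrank E₁ E) → O := fun q =>
    ⟨algebraMap F₁ F (c q.1 : F₁), hC₁.algebraMap_mem (c q.1)⟩ * b' q.2
  have hu : ∀ q, red (u q) = (γ q.1 : E) * β' q.2 := by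
    intro q
    show red (⟨algebraMap F₁ F (c q.1 : F₁), hC₁.algebraMap_mem (c q.1)⟩ * b' q.2) = _
    rw [map_mul, hC₁.red_algebraMap, hc, hg, hb']
  -- the product family is `E₀`-linearly independent after reduction
  have hindu : LinearIndependent E₀ (fun q => red (u q)) := by
    rw [Fintype.linearIndependent_iff]
    intro lam hlam q
    have h1 : ∑ j, (∑ a, lam (a, j) • (γ a : E)) * β' j = 0 := by
      rw [← hlam, Fintype.sum_prod_type, Finset.sum_comm]
      refine Finset.sum_congr rfl fun j _ => ?_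
      rw [Finset.sum_mul]
      refine Finset.sum_congr rfl fun a _ => ?_
      rw [hu, Algebra.smul_def, Algebra.smul_def, mul_assoc]
    -- the inner sums lie in `V₁`
    have hmem : ∀ j, (∑ a, lam (a, j) • (γ a : E)) ∈ V₁ := fun j =>
      Submodule.sum_mem _ fun a _ => Submodule.smul_mem _ _ (γ a).2
    choose μ hμ using fun j => (hV₁ _).mp (hmem j)
    have h2 : ∑ j, μ j • β' j = 0 := by
      rw [← h1]
      refine Finset.sum_congr rfl fun j _ => ?_
      rw [Algebra.smul_def, hμ]
    have h3 := (Fintype.linearIndependent_iff.mp β'.linearIndependent) μ h2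
    have h4 : ∑ a, lam (a, q.2) • γ a = 0 := by
      apply Subtype.ext
      have h5 : ((∑ a, lam (a, q.2) • γ a : V₁) : E) = ∑ a, lam (a, q.2) • (γ a : E) := by
        rw [← V₁.subtype_apply, map_sum]
        rfl
      rw [h5, ← hμ, h3, map_zero]
      rfl
    exact (Fintype.linearIndependent_iff.mp γ.linearIndependent) (fun a => lam (a, q.2)) h4 q.1
  -- the reductions of the product family span `E` over `E₀`
  have hspanu : ⊤ ≤ Submodule.span E₀ (Set.range fun q => red (u q)) := by
    rintro z -
    rw [← β'.sum_repr z]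
    refine Submodule.sum_mem _ fun j _ => ?_
    have hz1 : algebraMap E₁ E (β'.repr z j) ∈ V₁ := ⟨_, rfl⟩
    have hz2 := γ.sum_repr ⟨_, hz1⟩
    have hz3 : algebraMap E₁ E (β'.repr z j) =
        ∑ a, γ.repr ⟨_, hz1⟩ a • (γ a : E) := by
      have h6 := congrArg V₁.subtype hz2
      rw [map_sum] at h6
      exact h6.symm
    rw [Algebra.smul_def, hz3, Finset.sum_mul]
    refine Submodule.sum_mem _ fun a _ => ?_
    rw [Algebra.smul_def, mul_assoc, ← Algebra.smul_def]
    refine Submodule.smul_mem _ _ (Submodule.subset_span ⟨(a, j), ?_⟩)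
    exact hu (a, j)
  -- hence a basis of `E` over `E₀`, and the cardinality count
  let βu : Basis (Fin (finrank E₀ V₁) × Fin (finrank E₁ E)) E₀ E := Basis.mk hindu hspanu
  have hcard : Fintype.card (Fin (finrank E₀ V₁) × Fin (finrank E₁ E)) = finrank F₀ F := by
    rw [G.finrank_eq, Module.finrank_eq_card_basis βu]
  -- the product family is an `F₀`-basis of `F`
  have hindF : LinearIndependent F₀ (fun q => (u q : F)) := G.compat.linearIndependent u hindu
  have hspanF : Submodule.span F₀ (Set.range fun q => (u q : F)) = ⊤ :=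
    hindF.span_eq_top_of_card_eq_finrank' hcard
  refine ⟨finrank E₁ E, ⟨{ compat := hC₁, surj := G.surj, b := b', ind := hind₁, span := ?_ }⟩⟩
  intro y
  have hy : y ∈ Submodule.span F₀ (Set.range fun q => (u q : F)) := hspanF ▸ Submodule.mem_top
  obtain ⟨lam, hlam⟩ := (Submodule.mem_span_range_iff_exists_fun F₀).mp hy
  choose lam' hlam' using fun q => hF (lam q)
  refine ⟨fun j => ∑ a, lam' (a, j) * (c a : F₁), ?_⟩
  rw [← hlam, Fintype.sum_prod_type, Finset.sum_comm]
  refine Finset.sum_congr rfl fun j _ => ?_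
  rw [map_sum, Finset.sum_mul]
  refine Finset.sum_congr rfl fun a _ => ?_
  rw [Algebra.smul_def, ← hlam', map_mul, mul_assoc]
  rfl

/-- The degree equality for the intermediate field. -/
theorem finrank_eq_of_intermediate {ι : Type*} [Fintype ι]
    (G : GoodBasis O red O₀ red₀ ι) (hC₁ : Compat O red O₁ red₁)
    (hsurj₁ : Function.Surjective red₁)
    (hF : ∀ c : F₀, ∃ c' : F₁, algebraMap F₁ F c' = algebraMap F₀ F c)
    (hE : ∀ c : E₀, ∃ c' : E₁, algebraMap E₁ E c' = algebraMap E₀ E c) :
    finrank F₁ F = finrank E₁ E := by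
  obtain ⟨n, ⟨G₁⟩⟩ := exists_goodBasis_intermediate G hC₁ hsurj₁ hF hE
  exact G₁.finrank_eq

end

end Fermat.Agent.Lib.Red.OrthoInter
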