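/-
ESJ / RED-23 (helper41): the typed V-layer for an ARBITRARY integral base series.

`X : LaurentSeries A` is an `A`-integral series with `incl A X ∈ L·F_N` (hypothesis `hX`) whose
reduction `rbar A π X` is transcendental over `k` (hypothesis `htr`, in the `eval₂` form of
`GoodV.base`).  This file is `Lib/Red/Basis.lean` with `xL L N = J(q^N)` replaced by
`x = incl A X`:

* `xF A N X hX : L·F_N`, `xO A π N hNk X hX : Ow`, `xt A π N hπ hNk X hX : F̃` (its reduction);
* `OvX … : ValuationSubring L⟮x⟯` (`= Ow ∩ L(x)`), `redvX … : OvX →+* k⟮x̄⟯`, `redvX_surjective`;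
* `compatX` : `Ortho.Compat Ow redF OvX redvX`;
* `exists_goodBasisX` : if `J(q^N) ∈ L(x)` and `J̄(q^N) ∈ k(x̄)` there is a good basis of
  `L·F_N` over `L(x)` (`Ortho.GoodBasis Ow redF OvX redvX (Fin n)`);
* `finrank_eqX`, `finite_LX`, `finite_kX`.
-/
import Mathlib
import Fermat.Agent.Lib.Red.Basis
import Fermat.Agent.Lib.Red.OrthoInter

set_option autoImplicit false
set_option linter.unusedSectionVars false

namespace Fermat.Agent.Lib.Red.BaseFn

open HahnSeries ModularCurve Polynomial AlgebraicCurve Fermat.Agent.S28 IntermediateField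
open Fermat.Agent.Lib.Red

noncomputable section

variable {L : Type*} [Field L] [Algebra ℚ L] (A : ValuationSubring L) {k : Type} [Field k]
  (π : A →+* k) (N : ℕ) [NeZero N]

/-- The function of `L·F_N` given by an integral series. -/
def xF (X : LaurentSeries A)
    (hX : incl A X ∈ laurentBaseChange L (modularFunctionFieldFull N)) :
    ↥(laurentBaseChange L (modularFunctionFieldFull N)) := ⟨incl A X, hX⟩

/-- The same function, as an element of the Gauss valuation ring. -/
def xO (hNk : (N : k) ≠ 0) (X : LaurentSeries A)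
    (hX : incl A X ∈ laurentBaseChange L (modularFunctionFieldFull N)) : Ow A π N hNk :=
  ⟨xF A N X hX, incl_mem_gaussRing A π X⟩

/-- Its reduction, a function of the mod-`ℓ` function field. -/
def xt (hπ : ∀ a : A, ¬ IsUnit a → π a = 0) (hNk : (N : k) ≠ 0) (X : LaurentSeries A)
    (hX : incl A X ∈ laurentBaseChange L (modularFunctionFieldFull N)) :
    ↥(modularFunctionFieldFullC k N) :=
  redF A π N hπ hNk (xO A π N hNk X hX)

variable {A π N}

@[simp] theorem coe_xF (X : LaurentSeries A)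
    (hX : incl A X ∈ laurentBaseChange L (modularFunctionFieldFull N)) :
    ((xF A N X hX : ↥(laurentBaseChange L (modularFunctionFieldFull N))) : LaurentSeries L) =
      incl A X := rfl

@[simp] theorem coe_xO (hNk : (N : k) ≠ 0) (X : LaurentSeries A)
    (hX : incl A X ∈ laurentBaseChange L (modularFunctionFieldFull N)) :
    ((xO A π N hNk X hX : Ow A π N hNk) : ↥(laurentBaseChange L (modularFunctionFieldFull N))) =
      xF A N X hX := rfl

theorem coe_xt (hπ : ∀ a : A, ¬ IsUnit a → π a = 0) (hNk : (N : k) ≠ 0) (X : LaurentSeries A)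
    (hX : incl A X ∈ laurentBaseChange L (modularFunctionFieldFull N)) :
    ((xt A π N hπ hNk X hX : ↥(modularFunctionFieldFullC k N)) : LaurentSeries k) =
      rbar A π X :=
  coe_redF_incl hπ hNk X hX

/-- Membership in `L⟮x⟯`, at the level of series. -/
theorem mem_adjoin_xF_iff (X : LaurentSeries A)
    (hX : incl A X ∈ laurentBaseChange L (modularFunctionFieldFull N))
    (c : ↥(laurentBaseChange L (modularFunctionFieldFull N))) :
    c ∈ L⟮xF A N X hX⟯ ↔ (c : LaurentSeries L) ∈ IntermediateField.adjoin L {incl A X} := by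
  rw [← IntermediateField.mem_lift, IntermediateField.lift_adjoin_simple]
  rfl

/-- Membership in `k⟮x̄⟯`, at the level of series. -/
theorem mem_adjoin_xt_iff (hπ : ∀ a : A, ¬ IsUnit a → π a = 0) (hNk : (N : k) ≠ 0)
    (X : LaurentSeries A) (hX : incl A X ∈ laurentBaseChange L (modularFunctionFieldFull N))
    (c : ↥(modularFunctionFieldFullC k N)) :
    c ∈ k⟮xt A π N hπ hNk X hX⟯ ↔
      (c : LaurentSeries k) ∈ IntermediateField.adjoin k {rbar A π X} := by
  rw [← IntermediateField.mem_lift, IntermediateField.lift_adjoin_simple, ← coe_xt hπ hNk X hX]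

variable (A π N)

/-- The Gauss valuation ring of `L(x)`. -/
def OvX (hNk : (N : k) ≠ 0) (X : LaurentSeries A)
    (hX : incl A X ∈ laurentBaseChange L (modularFunctionFieldFull N)) :
    ValuationSubring ↥(L⟮xF A N X hX⟯) :=
  (Ow A π N hNk).comap
    (algebraMap ↥(L⟮xF A N X hX⟯) ↥(laurentBaseChange L (modularFunctionFieldFull N)))

/-- The inclusion `OvX → Ow`. -/
def OvXToOw (hNk : (N : k) ≠ 0) (X : LaurentSeries A)
    (hX : incl A X ∈ laurentBaseChange L (modularFunctionFieldFull N)) :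
    OvX A π N hNk X hX →+* Ow A π N hNk :=
  ((algebraMap ↥(L⟮xF A N X hX⟯) ↥(laurentBaseChange L (modularFunctionFieldFull N))).comp
    (OvX A π N hNk X hX).subtype).codRestrict (Ow A π N hNk) (fun c => c.2)

/-- The residue map of the Gauss valuation ring of `L(x)`, with values in `k(x̄)`. -/
def redvX (hπ : ∀ a : A, ¬ IsUnit a → π a = 0) (hNk : (N : k) ≠ 0) (X : LaurentSeries A)
    (hX : incl A X ∈ laurentBaseChange L (modularFunctionFieldFull N))
    (htr : ∀ p : Polynomial k,
      p.eval₂ (HahnSeries.C : k →+* LaurentSeries k) (rbar A π X) = 0 → p = 0) :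
    OvX A π N hNk X hX →+* ↥(k⟮xt A π N hπ hNk X hX⟯) :=
  ((redF A π N hπ hNk).comp (OvXToOw A π N hNk X hX)).codRestrict
    (k⟮xt A π N hπ hNk X hX⟯) (fun c => by
      rw [mem_adjoin_xt_iff]
      exact (GoodV.base X htr).red_mem hπ (OwToGauss A π N hNk (OvXToOw A π N hNk X hX c))
        ((mem_adjoin_xF_iff X hX _).mp (c : ↥(L⟮xF A N X hX⟯)).2))

variable {A π N}

theorem compatX (hπ : ∀ a : A, ¬ IsUnit a → π a = 0) (hNk : (N : k) ≠ 0) (X : LaurentSeries A)
    (hX : incl A X ∈ laurentBaseChange L (modularFunctionFieldFull N))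
    (htr : ∀ p : Polynomial k,
      p.eval₂ (HahnSeries.C : k →+* LaurentSeries k) (rbar A π X) = 0 → p = 0) :
    Ortho.Compat (Ow A π N hNk) (redF A π N hπ hNk) (OvX A π N hNk X hX)
      (redvX A π N hπ hNk X hX htr) where
  ker := redF_eq_zero_iff hπ hNk
  mem_iff _ := Iff.rfl
  red_comp _ _ := rfl

/-- A polynomial in `x` with `A`-integral coefficients, as an element of `Ow`. -/
theorem aeval_xF_mem_Ow (hNk : (N : k) ≠ 0) (X : LaurentSeries A)
    (hX : incl A X ∈ laurentBaseChange L (modularFunctionFieldFull N)) (P₀ : Polynomial A) :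
    Polynomial.aeval (xF A N X hX) (P₀.map A.subtype) ∈ Ow A π N hNk := by
  have h1 : ((Polynomial.aeval (xF A N X hX) (P₀.map A.subtype) :
      ↥(laurentBaseChange L (modularFunctionFieldFull N))) : LaurentSeries L) =
      incl A (P₀.eval₂ (HahnSeries.C : A →+* LaurentSeries A) X) := by
    rw [incl_eval₂, ← aeval_eq_eval₂_C]
    exact (Polynomial.aeval_algHom_apply
      (laurentBaseChange L (modularFunctionFieldFull N)).val (xF A N X hX) _).symm
  show ((Polynomial.aeval (xF A N X hX) (P₀.map A.subtype) :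
      ↥(laurentBaseChange L (modularFunctionFieldFull N))) : LaurentSeries L) ∈ gaussRing A π
  rw [h1]
  exact incl_mem_gaussRing A π _

/-- The reduction of a polynomial in `x` with `A`-integral coefficients. -/
theorem redF_aeval_xF (hπ : ∀ a : A, ¬ IsUnit a → π a = 0) (hNk : (N : k) ≠ 0)
    (X : LaurentSeries A) (hX : incl A X ∈ laurentBaseChange L (modularFunctionFieldFull N))
    (P₀ : Polynomial A) :
    redF A π N hπ hNk ⟨_, aeval_xF_mem_Ow hNk X hX P₀⟩ =
      Polynomial.aeval (xt A π N hπ hNk X hX) (P₀.map π) := by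
  have h1 : ((Polynomial.aeval (xF A N X hX) (P₀.map A.subtype) :
      ↥(laurentBaseChange L (modularFunctionFieldFull N))) : LaurentSeries L) =
      incl A (P₀.eval₂ (HahnSeries.C : A →+* LaurentSeries A) X) := by
    rw [incl_eval₂, ← aeval_eq_eval₂_C]
    exact (Polynomial.aeval_algHom_apply
      (laurentBaseChange L (modularFunctionFieldFull N)).val (xF A N X hX) _).symm
  have hmem : incl A (P₀.eval₂ (HahnSeries.C : A →+* LaurentSeries A) X) ∈
      laurentBaseChange L (modularFunctionFieldFull N) := by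
    rw [← h1]
    exact Subtype.property _
  have h2 : (⟨_, aeval_xF_mem_Ow hNk X hX P₀⟩ : Ow A π N hNk) =
      ⟨⟨incl A (P₀.eval₂ (HahnSeries.C : A →+* LaurentSeries A) X), hmem⟩,
        incl_mem_gaussRing A π _⟩ := by
    apply Subtype.ext
    apply Subtype.ext
    exact h1
  apply Subtype.ext
  rw [h2, coe_redF_incl hπ hNk, rbar_eval₂, ← aeval_eq_eval₂_C, ← coe_xt hπ hNk X hX]
  have h3 := Polynomial.aeval_algHom_apply (modularFunctionFieldFullC k N).val
    (xt A π N hπ hNk X hX) (P₀.map π)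
  exact h3

/-- The residue map `redvX` is onto `k(x̄)`. -/
theorem redvX_surjective (hπ : ∀ a : A, ¬ IsUnit a → π a = 0) (hsurj : Function.Surjective π)
    (hNk : (N : k) ≠ 0) (X : LaurentSeries A)
    (hX : incl A X ∈ laurentBaseChange L (modularFunctionFieldFull N))
    (htr : ∀ p : Polynomial k,
      p.eval₂ (HahnSeries.C : k →+* LaurentSeries k) (rbar A π X) = 0 → p = 0) :
    Function.Surjective (redvX A π N hπ hNk X hX htr) := by
  rintro ⟨z, hz⟩
  obtain ⟨p, q, rfl⟩ := (IntermediateField.mem_adjoin_simple_iff k _).mp hz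
  obtain ⟨P₀, rfl⟩ := Polynomial.map_surjective π hsurj p
  obtain ⟨Q₀, rfl⟩ := Polynomial.map_surjective π hsurj q
  by_cases hq : Polynomial.aeval (xt A π N hπ hNk X hX) (Q₀.map π) = 0
  · refine ⟨0, ?_⟩
    apply Subtype.ext
    rw [map_zero]
    show (0 : ↥(modularFunctionFieldFullC k N)) =
      Polynomial.aeval (xt A π N hπ hNk X hX) (P₀.map π) /
        Polynomial.aeval (xt A π N hπ hNk X hX) (Q₀.map π)
    rw [hq, div_zero]
  · have hPmem : Polynomial.aeval (xF A N X hX) (P₀.map A.subtype) ∈ L⟮xF A N X hX⟯ :=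
      IntermediateField.algebra_adjoin_le_adjoin L _ (Polynomial.aeval_mem_adjoin_singleton L _)
    have hQmem : Polynomial.aeval (xF A N X hX) (Q₀.map A.subtype) ∈ L⟮xF A N X hX⟯ :=
      IntermediateField.algebra_adjoin_le_adjoin L _ (Polynomial.aeval_mem_adjoin_singleton L _)
    have hPO := aeval_xF_mem_Ow (π := π) hNk X hX P₀
    have hQO := aeval_xF_mem_Ow (π := π) hNk X hX Q₀
    have hPred := redF_aeval_xF hπ hNk X hX P₀
    have hQred := redF_aeval_xF hπ hNk X hX Q₀
    have hQu : IsUnit (⟨_, hQO⟩ : Ow A π N hNk) := by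
      by_contra hnu
      apply hq
      rw [← hQred]
      exact (redF_eq_zero_iff hπ hNk _).mpr hnu
    obtain ⟨w, hw⟩ := hQu.exists_right_inv
    have hw' : Polynomial.aeval (xF A N X hX) (Q₀.map A.subtype) *
        (w : ↥(laurentBaseChange L (modularFunctionFieldFull N))) = 1 := congrArg Subtype.val hw
    have hwinv : (w : ↥(laurentBaseChange L (modularFunctionFieldFull N))) =
        (Polynomial.aeval (xF A N X hX) (Q₀.map A.subtype))⁻¹ :=
      eq_inv_of_mul_eq_one_right hw'
    have hwred : redF A π N hπ hNk w =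
        (Polynomial.aeval (xt A π N hπ hNk X hX) (Q₀.map π))⁻¹ := by
      have h1 := congrArg (redF A π N hπ hNk) hw
      rw [map_mul, map_one, hQred] at h1
      exact eq_inv_of_mul_eq_one_right h1
    have hcO : (⟨Polynomial.aeval (xF A N X hX) (P₀.map A.subtype) *
        (Polynomial.aeval (xF A N X hX) (Q₀.map A.subtype))⁻¹,
        mul_mem hPmem (inv_mem hQmem)⟩ : ↥(L⟮xF A N X hX⟯)) ∈ OvX A π N hNk X hX := by
      show Polynomial.aeval (xF A N X hX) (P₀.map A.subtype) *
        (Polynomial.aeval (xF A N X hX) (Q₀.map A.subtype))⁻¹ ∈ Ow A π N hNk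
      rw [← hwinv]
      exact mul_mem hPO w.2
    refine ⟨⟨_, hcO⟩, ?_⟩
    apply Subtype.ext
    have h2 : OvXToOw A π N hNk X hX ⟨_, hcO⟩ = ⟨_, hPO⟩ * w := by
      apply Subtype.ext
      show Polynomial.aeval (xF A N X hX) (P₀.map A.subtype) *
        (Polynomial.aeval (xF A N X hX) (Q₀.map A.subtype))⁻¹ = _
      rw [← hwinv]
      rfl
    show redF A π N hπ hNk (OvXToOw A π N hNk X hX ⟨_, hcO⟩) =
      Polynomial.aeval (xt A π N hπ hNk X hX) (P₀.map π) /
        Polynomial.aeval (xt A π N hπ hNk X hX) (Q₀.map π)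
    rw [h2, map_mul, hPred, hwred, div_eq_mul_inv]

/-- **Existence of a good basis** of `L·F_N` over `L(x)`, for an integral base series `X` with
transcendental reduction such that `J(q^N) ∈ L(x)` and `J̄(q^N) ∈ k(x̄)`. -/
theorem exists_goodBasisX (hπ : ∀ a : A, ¬ IsUnit a → π a = 0) (hsurj : Function.Surjective π)
    (hNk : (N : k) ≠ 0) (X : LaurentSeries A)
    (hX : incl A X ∈ laurentBaseChange L (modularFunctionFieldFull N))
    (htr : ∀ p : Polynomial k,
      p.eval₂ (HahnSeries.C : k →+* LaurentSeries k) (rbar A π X) = 0 → p = 0)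
    (hJL : TD.Jd L N ∈ IntermediateField.adjoin L {incl A X})
    (hJk : TD.Jd k N ∈ IntermediateField.adjoin k {rbar A π X}) :
    ∃ n : ℕ, Nonempty (Ortho.GoodBasis (Ow A π N hNk) (redF A π N hπ hNk)
      (OvX A π N hNk X hX) (redvX A π N hπ hNk X hX htr) (Fin n)) := by
  obtain ⟨ι, hι, G, -⟩ := exists_goodBasis hπ hsurj hNk
  refine OrthoInter.exists_goodBasis_intermediate G (compatX hπ hNk X hX htr)
    (redvX_surjective hπ hsurj hNk X hX htr) ?_ ?_
  · -- `L(J(q^N)) ⊆ L(x)`
    have hle : L⟮xL L N⟯ ≤ L⟮xF A N X hX⟯ := by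
      rw [IntermediateField.adjoin_simple_le_iff, mem_adjoin_xF_iff]
      exact hJL
    intro c
    exact ⟨⟨(c : ↥(laurentBaseChange L (modularFunctionFieldFull N))), hle c.2⟩, rfl⟩
  · -- `k(J̄(q^N)) ⊆ k(x̄)`
    have hle : k⟮xk k N⟯ ≤ k⟮xt A π N hπ hNk X hX⟯ := by
      rw [IntermediateField.adjoin_simple_le_iff, mem_adjoin_xt_iff]
      exact hJk
    intro c
    exact ⟨⟨(c : ↥(modularFunctionFieldFullC k N)), hle c.2⟩, rfl⟩

/-- The degrees over `L(x)` and `k(x̄)` agree. -/
theorem finrank_eqX (hπ : ∀ a : A, ¬ IsUnit a → π a = 0) (hsurj : Function.Surjective π)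
    (hNk : (N : k) ≠ 0) (X : LaurentSeries A)
    (hX : incl A X ∈ laurentBaseChange L (modularFunctionFieldFull N))
    (htr : ∀ p : Polynomial k,
      p.eval₂ (HahnSeries.C : k →+* LaurentSeries k) (rbar A π X) = 0 → p = 0)
    (hJL : TD.Jd L N ∈ IntermediateField.adjoin L {incl A X})
    (hJk : TD.Jd k N ∈ IntermediateField.adjoin k {rbar A π X}) :
    Module.finrank ↥(L⟮xF A N X hX⟯) ↥(laurentBaseChange L (modularFunctionFieldFull N)) =
      Module.finrank ↥(k⟮xt A π N hπ hNk X hX⟯) ↥(modularFunctionFieldFullC k N) := by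
  obtain ⟨n, ⟨G⟩⟩ := exists_goodBasisX hπ hsurj hNk X hX htr hJL hJk
  exact G.finrank_eq

/-- `L·F_N` is finite over `L(x)`. -/
theorem finite_LX (hπ : ∀ a : A, ¬ IsUnit a → π a = 0) (hsurj : Function.Surjective π)
    (hNk : (N : k) ≠ 0) (X : LaurentSeries A)
    (hX : incl A X ∈ laurentBaseChange L (modularFunctionFieldFull N))
    (htr : ∀ p : Polynomial k,
      p.eval₂ (HahnSeries.C : k →+* LaurentSeries k) (rbar A π X) = 0 → p = 0)
    (hJL : TD.Jd L N ∈ IntermediateField.adjoin L {incl A X})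
    (hJk : TD.Jd k N ∈ IntermediateField.adjoin k {rbar A π X}) :
    Module.Finite ↥(L⟮xF A N X hX⟯) ↥(laurentBaseChange L (modularFunctionFieldFull N)) := by
  obtain ⟨n, ⟨G⟩⟩ := exists_goodBasisX hπ hsurj hNk X hX htr hJL hJk
  exact G.finite_F

/-- The mod-`ℓ` function field is finite over `k(x̄)`. -/
theorem finite_kX (hπ : ∀ a : A, ¬ IsUnit a → π a = 0) (hsurj : Function.Surjective π)
    (hNk : (N : k) ≠ 0) (X : LaurentSeries A)
    (hX : incl A X ∈ laurentBaseChange L (modularFunctionFieldFull N))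
    (htr : ∀ p : Polynomial k,
      p.eval₂ (HahnSeries.C : k →+* LaurentSeries k) (rbar A π X) = 0 → p = 0)
    (hJL : TD.Jd L N ∈ IntermediateField.adjoin L {incl A X})
    (hJk : TD.Jd k N ∈ IntermediateField.adjoin k {rbar A π X}) :
    Module.Finite ↥(k⟮xt A π N hπ hNk X hX⟯) ↥(modularFunctionFieldFullC k N) := by
  obtain ⟨n, ⟨G⟩⟩ := exists_goodBasisX hπ hsurj hNk X hX htr hJL hJk
  exact G.finite_E

/-- The transcendence hypothesis, from Mathlib's `Transcendental`. -/
theorem htr_of_transcendental (X : LaurentSeries A)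
    (h : Transcendental k (rbar A π X)) (p : Polynomial k)
    (hp : p.eval₂ (HahnSeries.C : k →+* LaurentSeries k) (rbar A π X) = 0) : p = 0 := by
  by_contra hne
  exact h ⟨p, hne, by rw [aeval_eq_eval₂_C]; exact hp⟩

/-- The reduction `x̄` is transcendental over `k`. -/
theorem transcendental_xt (hπ : ∀ a : A, ¬ IsUnit a → π a = 0) (hNk : (N : k) ≠ 0)
    (X : LaurentSeries A) (hX : incl A X ∈ laurentBaseChange L (modularFunctionFieldFull N))
    (htr : ∀ p : Polynomial k,
      p.eval₂ (HahnSeries.C : k →+* LaurentSeries k) (rbar A π X) = 0 → p = 0) :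
    Transcendental k (xt A π N hπ hNk X hX) := by
  rintro ⟨p, hp0, hp⟩
  apply hp0
  apply htr
  have h1 := congrArg (modularFunctionFieldFullC k N).val hp
  rw [map_zero] at h1
  rw [← aeval_eq_eval₂_C, ← coe_xt hπ hNk X hX, ← h1]
  have h3 := Polynomial.aeval_algHom_apply (modularFunctionFieldFullC k N).val
    (xt A π N hπ hNk X hX) p
  exact h3

/-- The function `x` is transcendental over `L`. -/
theorem transcendental_xF (hπ : ∀ a : A, ¬ IsUnit a → π a = 0) (hNk : (N : k) ≠ 0)
    (X : LaurentSeries A) (hX : incl A X ∈ laurentBaseChange L (modularFunctionFieldFull N))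
    (htr : ∀ p : Polynomial k,
      p.eval₂ (HahnSeries.C : k →+* LaurentSeries k) (rbar A π X) = 0 → p = 0) :
    Transcendental L (xF A N X hX) := by
  rintro ⟨p, hp0, hp⟩
  obtain ⟨c, hc, P₀, hP₀, hP₀π⟩ := exists_primitive_scaling π p hp0
  apply hP₀π
  apply htr
  have h1 : Polynomial.aeval (xF A N X hX) (P₀.map A.subtype) = 0 := by
    rw [hP₀, map_mul, hp, mul_zero]
  have h2 := redF_aeval_xF hπ hNk X hX P₀
  have h3 : (⟨_, aeval_xF_mem_Ow hNk X hX P₀⟩ : Ow A π N hNk) = 0 := Subtype.ext h1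
  rw [h3, map_zero] at h2
  have h4 := congrArg (modularFunctionFieldFullC k N).val h2.symm
  rw [map_zero] at h4
  rw [← aeval_eq_eval₂_C, ← coe_xt hπ hNk X hX, ← h4]
  have h5 := Polynomial.aeval_algHom_apply (modularFunctionFieldFullC k N).val
    (xt A π N hπ hNk X hX) (P₀.map π)
  exact h5

end

end Fermat.Agent.Lib.Red.BaseFn
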