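/-
ESJ / RED-23 (helper41): base-function data for the V-layer.

`BaseFn.Data A π N` bundles an `A`-integral base series `X` for the Gauss valuation ring of
`L·F_N`: membership, transcendence of the reduction, and `J(q^N) ∈ L(x)`, `J̄(q^N) ∈ k(x̄)`.
All instance files of the RED layer can be written against a `B : Data A π N`:

* `B.x : L·F_N`, `B.xt hπ hNk : F̃`, `B.Ov hNk`, `B.redv hπ hNk`, `B.compat`, `B.redv_surjective`;
* `B.exists_goodBasis`, `B.exists_goodBasis_integral` (good basis integral over `L[x]`);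
* `B.finite_L`, `B.finite_k`, `B.finrank_eq`, `B.transcendental_x`, `B.transcendental_xt`;
* `B.x_mem_Ow`, `B.redF_x`, `B.x_inv_mem_Ow`, `B.aeval_map_mem_Ow`, `B.redF_aeval_map`;
* `Data.ofJ A π N` : the data of `X = J(q^N)` (helper90's layer), with `ofJ_x`, `ofJ_xt`.

Abstract: `OrthoInter.scale` — rescaling a good basis by units of the base valuation ring.
-/
import Mathlib
import Fermat.Agent.Lib.Red.BaseFn

set_option autoImplicit false
set_option linter.unusedSectionVars false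

namespace Fermat.Agent.Lib.Red.OrthoInter

open scoped BigOperators

open Module Fermat.Agent.Lib.Red.Ortho

noncomputable section

variable {F E : Type*} [Field F] [Field E] {O : ValuationSubring F} {red : O →+* E}
variable {F₀ E₀ : Type*} [Field F₀] [Field E₀] [Algebra F₀ F] [Algebra E₀ E]
variable {O₀ : ValuationSubring F₀} {red₀ : O₀ →+* E₀}

/-- Rescaling a good basis by elements of `O₀` with nonzero reduction. -/
def scale {ι : Type*} [Fintype ι] (G : GoodBasis O red O₀ red₀ ι) (d : ι → O₀)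
    (hd : ∀ i, red₀ (d i) ≠ 0) : GoodBasis O red O₀ red₀ ι where
  compat := G.compat
  surj := G.surj
  b := fun i => ⟨algebraMap F₀ F (d i : F₀), G.compat.algebraMap_mem (d i)⟩ * G.b i
  ind := by
    have h := G.ind.units_smul (fun i => Units.mk0 (red₀ (d i)) (hd i))
    convert h using 1
    funext i
    rw [map_mul, G.compat.red_algebraMap, Pi.smul_apply', Units.smul_def, Units.val_mk0,
      Algebra.smul_def]
  span := by
    intro y
    obtain ⟨c, hc⟩ := G.span y
    have hd0 : ∀ i, (d i : F₀) ≠ 0 := by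
      intro i h0
      apply hd i
      have : d i = 0 := Subtype.ext h0
      rw [this, map_zero]
    refine ⟨fun i => c i / (d i : F₀), ?_⟩
    rw [hc]
    refine Finset.sum_congr rfl fun i _ => ?_
    show algebraMap F₀ F (c i) * (G.b i : F) =
      algebraMap F₀ F (c i / (d i : F₀)) * (algebraMap F₀ F (d i : F₀) * (G.b i : F))
    rw [← mul_assoc, ← map_mul, div_mul_cancel₀ _ (hd0 i)]

@[simp] theorem scale_b {ι : Type*} [Fintype ι] (G : GoodBasis O red O₀ red₀ ι) (d : ι → O₀)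
    (hd : ∀ i, red₀ (d i) ≠ 0) (i : ι) :
    (((scale G d hd).b i : O) : F) = algebraMap F₀ F (d i : F₀) * (G.b i : F) := rfl

end

end Fermat.Agent.Lib.Red.OrthoInter

namespace Fermat.Agent.Lib.Red.BaseFn

open HahnSeries ModularCurve Polynomial AlgebraicCurve Fermat.Agent.S28 IntermediateField
open Fermat.Agent.Lib.Red

open scoped IntermediateField.algebraAdjoinAdjoin

noncomputable section

variable {L : Type*} [Field L] [Algebra ℚ L] (A : ValuationSubring L) {k : Type} [Field k]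
  (π : A →+* k) (N : ℕ) [NeZero N]

/-- Base-function data: an `A`-integral series `X` with `incl A X ∈ L·F_N`, transcendental
reduction, `J(q^N) ∈ L(x)` and `J̄(q^N) ∈ k(x̄)`. -/
structure Data where
  /-- the integral series -/
  X : LaurentSeries A
  hX : incl A X ∈ laurentBaseChange L (modularFunctionFieldFull N)
  htr : ∀ p : Polynomial k,
    p.eval₂ (HahnSeries.C : k →+* LaurentSeries k) (rbar A π X) = 0 → p = 0
  hJL : TD.Jd L N ∈ IntermediateField.adjoin L {incl A X}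
  hJk : TD.Jd k N ∈ IntermediateField.adjoin k {rbar A π X}

variable {A π N}

namespace Data

variable (B : Data A π N)

/-- The base function `x`. -/
def x : ↥(laurentBaseChange L (modularFunctionFieldFull N)) := xF A N B.X B.hX

/-- The reduced base function `x̄`. -/
def xt (hπ : ∀ a : A, ¬ IsUnit a → π a = 0) (hNk : (N : k) ≠ 0) :
    ↥(modularFunctionFieldFullC k N) := BaseFn.xt A π N hπ hNk B.X B.hX

/-- The Gauss valuation ring of `L(x)`. -/
def Ov (hNk : (N : k) ≠ 0) : ValuationSubring ↥(L⟮B.x⟯) := OvX A π N hNk B.X B.hX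

/-- The residue map of the Gauss valuation ring of `L(x)`. -/
def redv (hπ : ∀ a : A, ¬ IsUnit a → π a = 0) (hNk : (N : k) ≠ 0) :
    B.Ov hNk →+* ↥(k⟮B.xt hπ hNk⟯) := redvX A π N hπ hNk B.X B.hX B.htr

@[simp] theorem coe_x :
    ((B.x : ↥(laurentBaseChange L (modularFunctionFieldFull N))) : LaurentSeries L) =
      incl A B.X := rfl

theorem coe_xt (hπ : ∀ a : A, ¬ IsUnit a → π a = 0) (hNk : (N : k) ≠ 0) :
    ((B.xt hπ hNk : ↥(modularFunctionFieldFullC k N)) : LaurentSeries k) = rbar A π B.X :=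
  BaseFn.coe_xt hπ hNk B.X B.hX

theorem mem_Ov_iff (hNk : (N : k) ≠ 0) (c : ↥(L⟮B.x⟯)) :
    c ∈ B.Ov hNk ↔ (c : ↥(laurentBaseChange L (modularFunctionFieldFull N))) ∈ Ow A π N hNk :=
  Iff.rfl

theorem compat (hπ : ∀ a : A, ¬ IsUnit a → π a = 0) (hNk : (N : k) ≠ 0) :
    Ortho.Compat (Ow A π N hNk) (redF A π N hπ hNk) (B.Ov hNk) (B.redv hπ hNk) :=
  compatX hπ hNk B.X B.hX B.htr

theorem redv_surjective (hπ : ∀ a : A, ¬ IsUnit a → π a = 0) (hsurj : Function.Surjective π)
    (hNk : (N : k) ≠ 0) : Function.Surjective (B.redv hπ hNk) :=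
  redvX_surjective hπ hsurj hNk B.X B.hX B.htr

theorem exists_goodBasis (hπ : ∀ a : A, ¬ IsUnit a → π a = 0) (hsurj : Function.Surjective π)
    (hNk : (N : k) ≠ 0) :
    ∃ n : ℕ, Nonempty (Ortho.GoodBasis (Ow A π N hNk) (redF A π N hπ hNk) (B.Ov hNk)
      (B.redv hπ hNk) (Fin n)) :=
  exists_goodBasisX hπ hsurj hNk B.X B.hX B.htr B.hJL B.hJk

theorem finite_L (hπ : ∀ a : A, ¬ IsUnit a → π a = 0) (hsurj : Function.Surjective π)
    (hNk : (N : k) ≠ 0) :
    Module.Finite ↥(L⟮B.x⟯) ↥(laurentBaseChange L (modularFunctionFieldFull N)) :=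
  finite_LX hπ hsurj hNk B.X B.hX B.htr B.hJL B.hJk

theorem finite_k (hπ : ∀ a : A, ¬ IsUnit a → π a = 0) (hsurj : Function.Surjective π)
    (hNk : (N : k) ≠ 0) :
    Module.Finite ↥(k⟮B.xt hπ hNk⟯) ↥(modularFunctionFieldFullC k N) :=
  finite_kX hπ hsurj hNk B.X B.hX B.htr B.hJL B.hJk

theorem finrank_eq (hπ : ∀ a : A, ¬ IsUnit a → π a = 0) (hsurj : Function.Surjective π)
    (hNk : (N : k) ≠ 0) :
    Module.finrank ↥(L⟮B.x⟯) ↥(laurentBaseChange L (modularFunctionFieldFull N)) =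
      Module.finrank ↥(k⟮B.xt hπ hNk⟯) ↥(modularFunctionFieldFullC k N) :=
  finrank_eqX hπ hsurj hNk B.X B.hX B.htr B.hJL B.hJk

theorem transcendental_x (hπ : ∀ a : A, ¬ IsUnit a → π a = 0) (hNk : (N : k) ≠ 0) :
    Transcendental L B.x :=
  transcendental_xF hπ hNk B.X B.hX B.htr

theorem transcendental_xt (hπ : ∀ a : A, ¬ IsUnit a → π a = 0) (hNk : (N : k) ≠ 0) :
    Transcendental k (B.xt hπ hNk) :=
  BaseFn.transcendental_xt hπ hNk B.X B.hX B.htr

theorem x_mem_Ow (hNk : (N : k) ≠ 0) : B.x ∈ Ow A π N hNk :=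
  incl_mem_gaussRing A π B.X

theorem redF_x (hπ : ∀ a : A, ¬ IsUnit a → π a = 0) (hNk : (N : k) ≠ 0) :
    redF A π N hπ hNk ⟨B.x, B.x_mem_Ow hNk⟩ = B.xt hπ hNk := rfl

/-- `p(x)` for `p ∈ A[X]` is Gauss-integral. -/
theorem aeval_map_mem_Ow (hNk : (N : k) ≠ 0) (p : Polynomial A) :
    Polynomial.aeval B.x (p.map A.subtype) ∈ Ow A π N hNk :=
  aeval_xF_mem_Ow hNk B.X B.hX p

/-- The reduction of `p(x)` is `p̄(x̄)`. -/
theorem redF_aeval_map (hπ : ∀ a : A, ¬ IsUnit a → π a = 0) (hNk : (N : k) ≠ 0)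
    (p : Polynomial A) :
    redF A π N hπ hNk ⟨_, B.aeval_map_mem_Ow hNk p⟩ =
      Polynomial.aeval (B.xt hπ hNk) (p.map π) :=
  redF_aeval_xF hπ hNk B.X B.hX p

/-- `p(x)` is a unit of `Ow` when `p̄ ≠ 0`. -/
theorem isUnit_aeval_map (hπ : ∀ a : A, ¬ IsUnit a → π a = 0) (hNk : (N : k) ≠ 0)
    (p : Polynomial A) (hp : p.map π ≠ 0) :
    IsUnit (⟨_, B.aeval_map_mem_Ow hNk p⟩ : Ow A π N hNk) := by
  by_contra hnu
  have h1 := (redF_eq_zero_iff hπ hNk _).mpr hnu
  rw [B.redF_aeval_map hπ hNk p] at h1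
  exact hp ((transcendental_iff.mp (B.transcendental_xt hπ hNk)) _ h1)

/-- `x⁻¹` lies in the Gauss valuation ring. -/
theorem x_inv_mem_Ow (hπ : ∀ a : A, ¬ IsUnit a → π a = 0) (hNk : (N : k) ≠ 0) :
    (B.x)⁻¹ ∈ Ow A π N hNk := by
  have hne : redF A π N hπ hNk ⟨B.x, B.x_mem_Ow hNk⟩ ≠ 0 := by
    rw [B.redF_x hπ hNk]
    intro h0
    exact B.transcendental_xt hπ hNk (h0 ▸ isAlgebraic_zero)
  have hu : IsUnit (⟨B.x, B.x_mem_Ow hNk⟩ : Ow A π N hNk) := by
    by_contra hnu
    exact hne ((redF_eq_zero_iff hπ hNk _).mpr hnu)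
  obtain ⟨w, hw⟩ := hu.exists_right_inv
  have hw' : B.x * (w : ↥(laurentBaseChange L (modularFunctionFieldFull N))) = 1 :=
    congrArg Subtype.val hw
  rw [← eq_inv_of_mul_eq_one_right hw']
  exact w.2

theorem x_ne_zero (hπ : ∀ a : A, ¬ IsUnit a → π a = 0) (hNk : (N : k) ≠ 0) : B.x ≠ 0 :=
  fun h0 => B.transcendental_x hπ hNk (h0 ▸ isAlgebraic_zero)

/-- The base function as a unit of `Ow`. -/
def xUnit (hπ : ∀ a : A, ¬ IsUnit a → π a = 0) (hNk : (N : k) ≠ 0) : (Ow A π N hNk)ˣ where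
  val := ⟨B.x, B.x_mem_Ow hNk⟩
  inv := ⟨(B.x)⁻¹, B.x_inv_mem_Ow hπ hNk⟩
  val_inv := by
    apply Subtype.ext
    show B.x * (B.x)⁻¹ = 1
    exact mul_inv_cancel₀ (B.x_ne_zero hπ hNk)
  inv_val := by
    apply Subtype.ext
    show (B.x)⁻¹ * B.x = 1
    exact inv_mul_cancel₀ (B.x_ne_zero hπ hNk)

@[simp] theorem coe_xUnit (hπ : ∀ a : A, ¬ IsUnit a → π a = 0) (hNk : (N : k) ≠ 0) :
    (((B.xUnit hπ hNk : (Ow A π N hNk)ˣ) : Ow A π N hNk) :
      ↥(laurentBaseChange L (modularFunctionFieldFull N))) = B.x := rfl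

/-- **A good basis made of functions integral over `L[x]`.** -/
theorem exists_goodBasis_integral (hπ : ∀ a : A, ¬ IsUnit a → π a = 0)
    (hsurj : Function.Surjective π) (hNk : (N : k) ≠ 0) :
    ∃ (n : ℕ) (G : Ortho.GoodBasis (Ow A π N hNk) (redF A π N hπ hNk) (B.Ov hNk)
        (B.redv hπ hNk) (Fin n)),
      ∀ i, IsIntegral ↥(Algebra.adjoin L {B.x})
        ((G.b i : Ow A π N hNk) : ↥(laurentBaseChange L (modularFunctionFieldFull N))) := by
  obtain ⟨n, ⟨G⟩⟩ := B.exists_goodBasis hπ hsurj hNk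
  have hfin : Module.Finite ↥(L⟮B.x⟯) ↥(laurentBaseChange L (modularFunctionFieldFull N)) :=
    G.finite_F
  -- each basis element is algebraic over `L[x]`
  have halg : ∀ i, IsAlgebraic ↥(Algebra.adjoin L {B.x})
      ((G.b i : Ow A π N hNk) : ↥(laurentBaseChange L (modularFunctionFieldFull N))) := by
    intro i
    have h1 : IsAlgebraic ↥(L⟮B.x⟯)
        ((G.b i : Ow A π N hNk) : ↥(laurentBaseChange L (modularFunctionFieldFull N))) :=
      (Algebra.IsAlgebraic.of_finite ↥(L⟮B.x⟯)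
        ↥(laurentBaseChange L (modularFunctionFieldFull N))).isAlgebraic _
    exact (IsFractionRing.isAlgebraic_iff ↥(Algebra.adjoin L {B.x}) ↥(L⟮B.x⟯)
      ↥(laurentBaseChange L (modularFunctionFieldFull N))).mpr h1
  -- denominators
  have key : ∀ i, ∃ P₀ : Polynomial A, P₀.map π ≠ 0 ∧
      IsIntegral ↥(Algebra.adjoin L {B.x})
        (Polynomial.aeval B.x (P₀.map A.subtype) *
          ((G.b i : Ow A π N hNk) : ↥(laurentBaseChange L (modularFunctionFieldFull N)))) := by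
    intro i
    obtain ⟨y, hy0, hy⟩ := (halg i).exists_integral_multiple
    obtain ⟨p, hp⟩ : ∃ p : Polynomial L, Polynomial.aeval B.x p =
        (y : ↥(laurentBaseChange L (modularFunctionFieldFull N))) := by
      have h3 : (y : ↥(laurentBaseChange L (modularFunctionFieldFull N))) ∈
          (Polynomial.aeval (R := L) B.x).range := by
        rw [← Algebra.adjoin_singleton_eq_range_aeval]
        exact y.2
      exact h3
    have hp0 : p ≠ 0 := by
      rintro rfl
      apply hy0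
      apply Subtype.ext
      rw [← hp, map_zero]
      rfl
    obtain ⟨c, hc, P₀, hP₀, hne⟩ := exists_primitive_scaling π p hp0
    refine ⟨P₀, hne, ?_⟩
    have h2 : Polynomial.aeval B.x (P₀.map A.subtype) *
        ((G.b i : Ow A π N hNk) : ↥(laurentBaseChange L (modularFunctionFieldFull N))) =
        algebraMap ↥(Algebra.adjoin L {B.x}) ↥(laurentBaseChange L (modularFunctionFieldFull N))
          (algebraMap L ↥(Algebra.adjoin L {B.x}) c) *
        (y • ((G.b i : Ow A π N hNk) : ↥(laurentBaseChange L (modularFunctionFieldFull N)))) := by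
      rw [hP₀, map_mul, Polynomial.aeval_C, hp, Algebra.smul_def, mul_assoc]
      rfl
    rw [h2]
    exact IsIntegral.mul isIntegral_algebraMap hy
  choose P₀ hP₀ hint using key
  -- the scaling elements of `Ov`
  have hmemL : ∀ i, Polynomial.aeval B.x ((P₀ i).map A.subtype) ∈ L⟮B.x⟯ := fun i =>
    IntermediateField.algebra_adjoin_le_adjoin L _ (Polynomial.aeval_mem_adjoin_singleton L _)
  let d : Fin n → B.Ov hNk := fun i =>
    ⟨⟨Polynomial.aeval B.x ((P₀ i).map A.subtype), hmemL i⟩, B.aeval_map_mem_Ow hNk (P₀ i)⟩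
  have hd : ∀ i, B.redv hπ hNk (d i) ≠ 0 := by
    intro i h0
    have h1 := congrArg Subtype.val h0
    have h2 : ((B.redv hπ hNk (d i) : ↥(k⟮B.xt hπ hNk⟯)) : ↥(modularFunctionFieldFullC k N)) =
        redF A π N hπ hNk ⟨_, B.aeval_map_mem_Ow hNk (P₀ i)⟩ := rfl
    rw [h2, B.redF_aeval_map hπ hNk (P₀ i)] at h1
    exact hP₀ i ((transcendental_iff.mp (B.transcendental_xt hπ hNk)) _ h1)
  exact ⟨n, OrthoInter.scale G d hd, fun i => hint i⟩

end Data

/-! ### The data of `J(q^N)` -/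

variable (A π N)

/-- The base-function data of `X = J(q^N)`. -/
def Data.ofJ : Data A π N where
  X := TD.Jd A N
  hX := by
    rw [incl_Jd]
    exact (xL L N).2
  htr := by
    intro p hp
    rw [rbar_Jd] at hp
    exact Jd_eval₂_eq_zero k (NeZero.ne N) p hp
  hJL := by
    rw [incl_Jd]
    exact IntermediateField.subset_adjoin L _ rfl
  hJk := by
    rw [rbar_Jd]
    exact IntermediateField.subset_adjoin k _ rfl

theorem Data.ofJ_x : (Data.ofJ A π N).x = xL L N :=
  Subtype.ext (incl_Jd A N)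

theorem Data.ofJ_xt (hπ : ∀ a : A, ¬ IsUnit a → π a = 0) (hNk : (N : k) ≠ 0) :
    (Data.ofJ A π N).xt hπ hNk = xk k N := by
  apply Subtype.ext
  rw [Data.coe_xt]
  exact rbar_Jd A π N

end

end Fermat.Agent.Lib.Red.BaseFn
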