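/-
RED-23 (ℓ = 2, 3), char-0 package, part 2: certified arithmetic of truncated integral power
series (lists of the first `n` coefficients), and the first coefficients of the Prelude series
`eisenstein4` and `etaProd`.
-/
import Mathlib
import Fermat.Prelude.Def_ModularCurve_X0

set_option autoImplicit false

namespace Fermat.Agent.Lib.Red.HauptTrunc

open PowerSeries

/-- `a` lists the first `n` coefficients of `f`. -/
def Approx (n : ℕ) (f : PowerSeries ℤ) (a : List ℤ) : Prop :=
  ∀ k < n, PowerSeries.coeff k f = a.getD k 0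

/-- The list `[c 0, …, c (n-1)]`. -/
def lmk (n : ℕ) (c : ℕ → ℤ) : List ℤ := (List.range n).map c

theorem getD_lmk (n : ℕ) (c : ℕ → ℤ) (k : ℕ) (hk : k < n) : (lmk n c).getD k 0 = c k := by
  simp [lmk, List.getD_eq_getElem?_getD, hk]

/-- truncated product -/
def lmul (n : ℕ) (a b : List ℤ) : List ℤ :=
  lmk n fun k => ((List.range (k + 1)).map fun i => a.getD i 0 * b.getD (k - i) 0).sum

/-- truncated sum -/
def ladd (n : ℕ) (a b : List ℤ) : List ℤ := lmk n fun k => a.getD k 0 + b.getD k 0

/-- truncated difference -/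
def lsub (n : ℕ) (a b : List ℤ) : List ℤ := lmk n fun k => a.getD k 0 - b.getD k 0

/-- truncated scalar multiple -/
def lsmul (n : ℕ) (c : ℤ) (a : List ℤ) : List ℤ := lmk n fun k => c * a.getD k 0

/-- truncated `q ↦ q ^ p` -/
def lexpand (n p : ℕ) (a : List ℤ) : List ℤ :=
  lmk n fun k => if p ∣ k then a.getD (k / p) 0 else 0

/-- truncated multiplication by `X ^ m` -/
def lshift (n m : ℕ) (a : List ℤ) : List ℤ :=
  lmk n fun k => if m ≤ k then a.getD (k - m) 0 else 0

/-- the truncation of `1` -/
def lone (n : ℕ) : List ℤ := lmk n fun k => if k = 0 then 1 else 0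

/-- the truncation of `1 - X ^ m` -/
def loneSub (n m : ℕ) : List ℤ := lmk n fun k => (if k = 0 then 1 else 0) - (if k = m then 1 else 0)

/-- truncated power -/
def lpow (n : ℕ) (a : List ℤ) : ℕ → List ℤ
  | 0 => lone n
  | m + 1 => lmul n (lpow n a m) a

theorem sum_map_range (m : ℕ) (f : ℕ → ℤ) :
    ((List.range m).map f).sum = ∑ i ∈ Finset.range m, f i := by
  induction m with
  | zero => simp
  | succ m ih =>
    rw [List.range_succ, List.map_append, List.sum_append, ih, Finset.sum_range_succ]
    simp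

namespace Approx

variable {n : ℕ} {f g : PowerSeries ℤ} {a b : List ℤ}

theorem congr (hf : Approx n f a) (h : a = b) : Approx n f b := h ▸ hf

theorem mono {m : ℕ} (hf : Approx n f a) (h : m ≤ n) : Approx m f a :=
  fun k hk => hf k (lt_of_lt_of_le hk h)

theorem mul (hf : Approx n f a) (hg : Approx n g b) : Approx n (f * g) (lmul n a b) := by
  intro k hk
  rw [lmul, getD_lmk _ _ _ hk, sum_map_range, PowerSeries.coeff_mul,
    Finset.Nat.sum_antidiagonal_eq_sum_range_succ (fun i j => coeff i f * coeff j g)]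
  refine Finset.sum_congr rfl fun i hi => ?_
  rw [Finset.mem_range] at hi
  rw [hf i (by omega), hg (k - i) (by omega)]

theorem add (hf : Approx n f a) (hg : Approx n g b) : Approx n (f + g) (ladd n a b) := by
  intro k hk
  rw [ladd, getD_lmk _ _ _ hk, map_add, hf k hk, hg k hk]

theorem sub (hf : Approx n f a) (hg : Approx n g b) : Approx n (f - g) (lsub n a b) := by
  intro k hk
  rw [lsub, getD_lmk _ _ _ hk, map_sub, hf k hk, hg k hk]

theorem smul (c : ℤ) (hf : Approx n f a) : Approx n (PowerSeries.C c * f) (lsmul n c a) := by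
  intro k hk
  rw [lsmul, getD_lmk _ _ _ hk, PowerSeries.coeff_C_mul, hf k hk]

theorem expand (p : ℕ) (hp : p ≠ 0) (hf : Approx n f a) :
    Approx n (PowerSeries.expand p hp f) (lexpand n p a) := by
  intro k hk
  rw [lexpand, getD_lmk _ _ _ hk, PowerSeries.coeff_expand]
  split_ifs with h
  · exact hf _ (lt_of_le_of_lt (Nat.div_le_self k p) hk)
  · rfl

theorem shift (m : ℕ) (hf : Approx n f a) :
    Approx n (PowerSeries.X ^ m * f) (lshift n m a) := by
  intro k hk
  rw [lshift, getD_lmk _ _ _ hk, PowerSeries.coeff_X_pow_mul']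
  split_ifs with h
  · exact hf _ (by omega)
  · rfl

theorem one : Approx n 1 (lone n) := by
  intro k hk
  rw [lone, getD_lmk _ _ _ hk, PowerSeries.coeff_one]

theorem oneSub (m : ℕ) : Approx n (1 - PowerSeries.X ^ m) (loneSub n m) := by
  intro k hk
  rw [loneSub, getD_lmk _ _ _ hk, map_sub, PowerSeries.coeff_one, PowerSeries.coeff_X_pow]

theorem pow (hf : Approx n f a) (m : ℕ) : Approx n (f ^ m) (lpow n a m) := by
  induction m with
  | zero =>
    rw [pow_zero]
    exact Approx.one
  | succ m ih =>
    rw [pow_succ]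
    exact ih.mul hf

theorem natMul (c : ℕ) (hf : Approx n f a) :
    Approx n ((c : PowerSeries ℤ) * f) (lsmul n (c : ℤ) a) := by
  have h : (c : PowerSeries ℤ) = PowerSeries.C (c : ℤ) := by simp
  rw [h]
  exact hf.smul _

theorem zero_of (hf : Approx n f (List.replicate n 0)) (k : ℕ) (hk : k < n) :
    PowerSeries.coeff k f = 0 := by
  rw [hf k hk, List.getD_eq_getElem?_getD, List.getElem?_replicate]
  rw [if_pos hk]
  rfl

end Approx

/-! ### The Eisenstein series -/

/-- the truncation of `eisenstein4` -/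
def lE4 (n : ℕ) : List ℤ :=
  lmk n fun k => if k = 0 then 1 else 240 * ∑ d ∈ k.divisors, (d : ℤ) ^ 3

theorem approx_eisenstein4 (n : ℕ) : Approx n ModularCurve.eisenstein4 (lE4 n) := by
  intro k hk
  rw [lE4, getD_lmk _ _ _ hk, ModularCurve.eisenstein4, PowerSeries.coeff_mk]

/-! ### The eta product -/

/-- the truncation of `∏_{i < m} (1 - X ^ (i + 1))` -/
def lEta (n : ℕ) : ℕ → List ℤ
  | 0 => lone n
  | m + 1 => lmul n (lEta n m) (loneSub n (m + 1))

theorem approx_prod (n m : ℕ) :
    Approx n (∏ i ∈ Finset.range m, (1 - PowerSeries.X ^ (i + 1) : PowerSeries ℤ)) (lEta n m) := by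
  induction m with
  | zero =>
    rw [Finset.prod_range_zero]
    exact Approx.one
  | succ m ih =>
    rw [Finset.prod_range_succ]
    exact ih.mul (Approx.oneSub (m + 1))

open scoped PowerSeries.WithPiTopology in
/-- The coefficients of `etaProd` below `X ^ n` are those of the finite product. -/
theorem coeff_etaProd (n k : ℕ) (hk : k < n) :
    PowerSeries.coeff k ModularCurve.etaProd =
      PowerSeries.coeff k (∏ i ∈ Finset.range n, (1 - PowerSeries.X ^ (i + 1) : PowerSeries ℤ)) := by
  have hprod : HasProd (fun n : ℕ => (1 - PowerSeries.X ^ (n + 1) : PowerSeries ℤ))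
      ModularCurve.etaProd :=
    (PowerSeries.WithPiTopology.multipliable_one_sub_X_pow ℤ).hasProd
  have h1 : Filter.Tendsto (fun m : ℕ =>
      PowerSeries.coeff k (∏ i ∈ Finset.range m, (1 - PowerSeries.X ^ (i + 1) : PowerSeries ℤ)))
      Filter.atTop (nhds (PowerSeries.coeff k ModularCurve.etaProd)) :=
    ((PowerSeries.WithPiTopology.continuous_coeff ℤ k).tendsto _).comp hprod.tendsto_prod_nat
  have hconst : ∀ m, n ≤ m →
      PowerSeries.coeff k (∏ i ∈ Finset.range m, (1 - PowerSeries.X ^ (i + 1) : PowerSeries ℤ)) =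
      PowerSeries.coeff k (∏ i ∈ Finset.range n, (1 - PowerSeries.X ^ (i + 1) : PowerSeries ℤ)) := by
    intro m hm
    induction m, hm using Nat.le_induction with
    | base => rfl
    | succ m hm ih =>
      rw [Finset.prod_range_succ, mul_sub, mul_one, map_sub, PowerSeries.coeff_mul_X_pow',
        if_neg (by omega), sub_zero, ih]
  have h2 : Filter.Tendsto (fun m : ℕ =>
      PowerSeries.coeff k (∏ i ∈ Finset.range m, (1 - PowerSeries.X ^ (i + 1) : PowerSeries ℤ)))
      Filter.atTop (nhds (PowerSeries.coeff k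
        (∏ i ∈ Finset.range n, (1 - PowerSeries.X ^ (i + 1) : PowerSeries ℤ)))) :=
    tendsto_atTop_of_eventually_const (i₀ := n) hconst
  exact tendsto_nhds_unique h1 h2

theorem approx_etaProd (n : ℕ) : Approx n ModularCurve.etaProd (lEta n n) := by
  intro k hk
  rw [coeff_etaProd n k hk]
  exact approx_prod n n k hk

theorem approx_dedekindEtaUnit (n : ℕ) :
    Approx n ModularCurve.dedekindEtaUnit (lpow n (lEta n n) 24) :=
  (approx_etaProd n).pow 24

end Fermat.Agent.Lib.Red.HauptTrunc
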