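/-
RED-23 (ℓ = 3), char-0 package, part 3: the Hauptmodul identity of level `2`.

With `E = eisenstein4`, `U = dedekindEtaUnit = ∏ (1 - qⁿ)²⁴` (so `Δ = q U`) and `f₂ = f(q²)`:

  `E₂³ · U · U₂ = (U + 16 q U₂)³`     (`level2_formal`)

i.e. `E₄(2τ)³ Δ(τ) Δ(2τ) = (Δ(τ) + 16 Δ(2τ))³`, equivalently `j(2τ) y² = (y + 256)³` for
`y = 2¹² Δ(2τ)/Δ(τ)`.  Proof: Sturm bound in `M₃₆(Γ₀(2))` (10 coefficients).
-/
import Mathlib
import Fermat.Prelude.Thm_ModularForm_sturm_bound_Gamma0
import Fermat.Agent.Lib.Red.HauptForms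
import Fermat.Agent.Lib.Red.HauptTrunc
import Fermat.Agent.S28.DeltaBridge
import Fermat.Agent.S20.IndexGamma0

set_option autoImplicit false

open UpperHalfPlane ModularForm Filter Topology
open scoped MatrixGroups ModularForm Manifold

namespace Fermat.Agent.Lib.Red.HauptLevel2

open Fermat.Agent.Lib.Red.HauptForms Fermat.Agent.Lib.Red.HauptTrunc ModularCurve

noncomputable section

/-- The discriminant as a modular form of level one. -/
def deltaForm : ModularForm 𝒮ℒ 12 where
  toFun := (CuspForm.discriminant : ℍ → ℂ)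
  slash_action_eq' := CuspForm.discriminant.slash_action_eq'
  holo' := CuspForm.discriminant.holo'
  bdd_at_cusps' hc γ hγ := (CuspForm.discriminant.zero_at_cusps' hc γ hγ).boundedAtFilter

theorem qExpansion_deltaForm :
    qExpansion 1 deltaForm =
      PowerSeries.map (Int.castRingHom ℂ) (PowerSeries.X * dedekindEtaUnit) :=
  Fermat.Agent.S28.DeltaBridge.qExpansion_cuspForm_discriminant

local notation "Γ2" => (CongruenceSubgroup.Gamma0 2 : Subgroup SL(2, ℤ))

/-- `8 E₄(2τ)` -/
def e2 : ModularForm Γ2 4 := vForm 2 E₄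

/-- `Δ(τ)` on `Γ₀(2)` -/
def d1 : ModularForm Γ2 12 := resForm 2 deltaForm

/-- `2¹¹ Δ(2τ)` -/
def d2 : ModularForm Γ2 12 := vForm 2 deltaForm

/-- the integral `q`-expansion of `e2` -/
def sE : PowerSeries ℤ := PowerSeries.C 8 * PowerSeries.expand 2 two_ne_zero eisenstein4

/-- the integral `q`-expansion of `d1` -/
def sD : PowerSeries ℤ := PowerSeries.X * dedekindEtaUnit

/-- the integral `q`-expansion of `d2` -/
def sD2 : PowerSeries ℤ :=
  PowerSeries.C 2048 * PowerSeries.expand 2 two_ne_zero (PowerSeries.X * dedekindEtaUnit)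

theorem qExpansion_e2 : qExpansion 1 e2 = PowerSeries.map (Int.castRingHom ℂ) sE := by
  have h := qExpansion_vForm_of_int 2 (k := 3) E₄ eisenstein4
    Fermat.Agent.S28.DeltaBridge.qExpansion_E4
  rw [e2, h, sE]
  norm_num

theorem qExpansion_d1 : qExpansion 1 d1 = PowerSeries.map (Int.castRingHom ℂ) sD :=
  qExpansion_deltaForm

theorem qExpansion_d2 : qExpansion 1 d2 = PowerSeries.map (Int.castRingHom ℂ) sD2 := by
  have h := qExpansion_vForm_of_int 2 (k := 11) deltaForm _ qExpansion_deltaForm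
  rw [d2, h, sD2]
  norm_num

/-- `E₄(2τ)³ Δ(τ) Δ(2τ)`, up to the factor `2²⁰` -/
def formA : ModularForm Γ2 36 := ModularForm.mcast (by norm_num) ((e2.pow 3).mul (d1.mul d2))

/-- `(Δ(τ) + 16 Δ(2τ))³`, up to the factor `2²¹` -/
def formB : ModularForm Γ2 36 :=
  ModularForm.mcast (by norm_num) (((128 : ℂ) • d1 + d2).pow 3)

/-- the difference, a form of weight `36` on `Γ₀(2)` -/
def formF : ModularForm Γ2 36 := (2 : ℂ) • formA - formB

/-- the integral `q`-expansion of `formF` -/
def sF : PowerSeries ℤ :=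
  PowerSeries.C 2 * (sE ^ 3 * (sD * sD2)) - (PowerSeries.C 128 * sD + sD2) ^ 3

theorem qExpansion_formF : qExpansion 1 formF = PowerSeries.map (Int.castRingHom ℂ) sF := by
  have hΓ := CongruenceSubgroup.one_mem_strictPeriods_Gamma0 2
  have h1 : qExpansion 1 formF = qExpansion 1 ((2 : ℂ) • formA) - qExpansion 1 formB :=
    ModularForm.qExpansion_sub one_pos hΓ ((2 : ℂ) • formA) formB
  have h2 : qExpansion 1 ((2 : ℂ) • formA) = (2 : ℂ) • qExpansion 1 formA :=
    ModularForm.qExpansion_smul one_pos hΓ 2 formA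
  have h3 : qExpansion 1 formA = qExpansion 1 (e2.pow 3) * qExpansion 1 (d1.mul d2) :=
    ModularForm.qExpansion_mul one_pos hΓ (e2.pow 3) (d1.mul d2)
  have h4 : qExpansion 1 (e2.pow 3) = qExpansion 1 e2 ^ 3 :=
    ModularForm.qExpansion_pow one_pos hΓ e2 3
  have h5 : qExpansion 1 (d1.mul d2) = qExpansion 1 d1 * qExpansion 1 d2 :=
    ModularForm.qExpansion_mul one_pos hΓ d1 d2
  have h6 : qExpansion 1 formB = qExpansion 1 ((128 : ℂ) • d1 + d2) ^ 3 :=
    ModularForm.qExpansion_pow one_pos hΓ ((128 : ℂ) • d1 + d2) 3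
  have h7 : qExpansion 1 ((128 : ℂ) • d1 + d2) = qExpansion 1 ((128 : ℂ) • d1) + qExpansion 1 d2 :=
    ModularForm.qExpansion_add one_pos hΓ ((128 : ℂ) • d1) d2
  have h8 : qExpansion 1 ((128 : ℂ) • d1) = (128 : ℂ) • qExpansion 1 d1 :=
    ModularForm.qExpansion_smul one_pos hΓ 128 d1
  rw [h1, h2, h3, h4, h5, h6, h7, h8, qExpansion_e2, qExpansion_d1, qExpansion_d2, sF]
  simp only [map_sub, map_mul, map_pow, map_add, PowerSeries.map_C]
  simp [Algebra.smul_def]

set_option maxRecDepth 100000 in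
/-- The first ten coefficients of `sF` vanish. -/
theorem approx_sF : Approx 10 sF (List.replicate 10 0) := by
  have hE := approx_eisenstein4 10
  have hU := approx_dedekindEtaUnit 10
  have hsE : Approx 10 sE _ := (hE.expand 2 two_ne_zero).smul 8
  have hsD : Approx 10 sD (lshift 10 1 (lpow 10 (lEta 10 10) 24)) := by
    have := hU.shift 1
    rwa [pow_one] at this
  have hsD2 : Approx 10 sD2 _ := (hsD.expand 2 two_ne_zero).smul 2048
  have h := (((hsE.pow 3).mul (hsD.mul hsD2)).smul 2).sub (((hsD.smul 128).add hsD2).pow 3)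
  exact h.congr (by decide +kernel)

theorem index_Gamma0_two : (CongruenceSubgroup.Gamma0 2).index = 3 := by
  rw [Fermat.Agent.S20.Count.index_Gamma0]
  decide +kernel

/-- Sturm: the form `formF` vanishes. -/
theorem formF_eq_zero : formF = 0 := by
  apply ModularForm.sturm_bound_Gamma0 2
  intro n hn
  rw [index_Gamma0_two] at hn
  have hn' : n < 10 := by
    have h9 : ((36 : ℤ) * ((3 : ℕ) : ℤ)).toNat / 12 = 9 := by decide
    omega
  rw [qExpansion_formF, PowerSeries.coeff_map, approx_sF.zero_of n hn', map_zero]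

theorem sF_eq_zero : sF = 0 := by
  have h := qExpansion_formF
  rw [formF_eq_zero] at h
  have h0 : qExpansion 1 ((0 : ModularForm Γ2 36) : ℍ → ℂ) = 0 := qExpansion_zero 1
  rw [h0] at h
  ext n
  have h1 := congrArg (PowerSeries.coeff n) h
  rw [PowerSeries.coeff_map, map_zero] at h1
  rw [map_zero]
  have h2 : (((PowerSeries.coeff n) sF : ℤ) : ℂ) = 0 := h1.symm
  exact_mod_cast h2

/-- **The level 2 identity** `E₄(2τ)³ Δ(τ) Δ(2τ) = (Δ(τ) + 16 Δ(2τ))³`, as an identity of
integral power series (after division by `q³`). -/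
theorem level2_formal :
    PowerSeries.expand 2 two_ne_zero eisenstein4 ^ 3 * dedekindEtaUnit *
        PowerSeries.expand 2 two_ne_zero dedekindEtaUnit =
      (dedekindEtaUnit +
        16 * (PowerSeries.X * PowerSeries.expand 2 two_ne_zero dedekindEtaUnit)) ^ 3 := by
  have hX : PowerSeries.expand 2 two_ne_zero (PowerSeries.X * dedekindEtaUnit) =
      PowerSeries.X ^ 2 * PowerSeries.expand 2 two_ne_zero dedekindEtaUnit := by
    rw [map_mul, PowerSeries.expand_X]
  have key : sF = PowerSeries.C 2097152 * PowerSeries.X ^ 3 *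
      (PowerSeries.expand 2 two_ne_zero eisenstein4 ^ 3 * dedekindEtaUnit *
        PowerSeries.expand 2 two_ne_zero dedekindEtaUnit -
      (dedekindEtaUnit +
        16 * (PowerSeries.X * PowerSeries.expand 2 two_ne_zero dedekindEtaUnit)) ^ 3) := by
    rw [sF, sE, sD, sD2, hX]
    simp only [map_ofNat]
    ring
  have h := sF_eq_zero
  rw [key] at h
  have hc : (PowerSeries.C (2097152 : ℤ)) ≠ 0 := by
    rw [Ne, ← map_zero (PowerSeries.C (R := ℤ))]
    intro h'
    have := PowerSeries.C_injective h'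
    norm_num at this
  have hX3 : (PowerSeries.X : PowerSeries ℤ) ^ 3 ≠ 0 := pow_ne_zero _ PowerSeries.X_ne_zero
  exact sub_eq_zero.mp ((mul_eq_zero.mp h).resolve_left (mul_ne_zero hc hX3))

end

end Fermat.Agent.Lib.Red.HauptLevel2
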