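/-
RED-23 (ℓ = 2, 3), char-0 package, part 1: modular forms on `Γ₀(N)` obtained from level-one
forms — the restriction `resForm N f` and the translate `vForm N f = f ∣[k] diag(N, 1)`
(`τ ↦ N^(k-1) f(N τ)`) — together with their `q`-expansions.
-/
import Mathlib
import Fermat.Prelude.Def_ModularForm_HeckeOperator
import Fermat.Prelude.Thm_CongruenceSubgroup_one_mem_strictPeriods_Gamma0
import Fermat.Agent.S23.Theta

set_option autoImplicit false

open UpperHalfPlane ModularForm Filter Topology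
open scoped MatrixGroups ModularForm Manifold Pointwise

namespace Fermat.Agent.Lib.Red.HauptForms

local notation "𝕢" => Function.Periodic.qParam

noncomputable section

/-- `Γ₀(N) ≤ SL₂(ℤ)` inside `GL₂(ℝ)`. -/
theorem gamma0_le_SL (N : ℕ) :
    ((CongruenceSubgroup.Gamma0 N : Subgroup SL(2, ℤ)) : Subgroup (GL (Fin 2) ℝ)) ≤ 𝒮ℒ := by
  rintro _ ⟨γ, -, rfl⟩
  exact ⟨γ, rfl⟩

/-- A level-one form, seen as a form on `Γ₀(N)`. -/
def resForm (N : ℕ) {k : ℤ} (f : ModularForm 𝒮ℒ k) :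
    ModularForm (CongruenceSubgroup.Gamma0 N) k where
  toFun := (f : ℍ → ℂ)
  slash_action_eq' γ hγ := f.slash_action_eq' γ (gamma0_le_SL N hγ)
  holo' := f.holo'
  bdd_at_cusps' hc := f.bdd_at_cusps' (hc.mono (gamma0_le_SL N))

@[simp]
theorem coe_resForm (N : ℕ) {k : ℤ} (f : ModularForm 𝒮ℒ k) :
    (resForm N f : ℍ → ℂ) = (f : ℍ → ℂ) := rfl

theorem qExpansion_resForm (N : ℕ) {k : ℤ} (f : ModularForm 𝒮ℒ k) :
    qExpansion 1 (resForm N f) = qExpansion 1 f := rfl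

/-- The translate `f ∣[k] diag(N, 1)`, i.e. `τ ↦ N^(k-1) f(N τ)`, as a form on `Γ₀(N)`. -/
def vForm (N : ℕ) [NeZero N] {k : ℤ} (f : ModularForm 𝒮ℒ k) :
    ModularForm (CongruenceSubgroup.Gamma0 N) k where
  toFun := (f : ℍ → ℂ) ∣[k] heckeDiagMatrix N
  slash_action_eq' γ hγ :=
    (ModularForm.translate f (heckeDiagMatrix N)).slash_action_eq' γ
      (Fermat.Agent.S23.Theta.gamma0_le_conj N hγ)
  holo' := (ModularForm.translate f (heckeDiagMatrix N)).holo'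
  bdd_at_cusps' hc :=
    (ModularForm.translate f (heckeDiagMatrix N)).bdd_at_cusps'
      (hc.mono (Fermat.Agent.S23.Theta.gamma0_le_conj N))

theorem coe_vForm (N : ℕ) [NeZero N] {k : ℤ} (f : ModularForm 𝒮ℒ k) :
    (vForm N f : ℍ → ℂ) = (f : ℍ → ℂ) ∣[k] heckeDiagMatrix N := rfl

theorem vForm_apply (N : ℕ) [NeZero N] {k : ℤ} (f : ModularForm 𝒮ℒ k) (τ : ℍ) :
    vForm N f τ = (N : ℂ) ^ (k - 1) * f (heckeDiagMatrix N • τ) := by
  show ((f : ℍ → ℂ) ∣[k] heckeDiagMatrix N) τ = _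
  rw [slash_heckeDiagMatrix_apply k (NeZero.ne N)]

/-- The sequence of `q`-coefficients of `vForm N f`. -/
def vCoeff (N : ℕ) {k : ℤ} (f : ModularForm 𝒮ℒ k) (n : ℕ) : ℂ :=
  if N ∣ n then (N : ℂ) ^ (k - 1) * (qExpansion 1 f).coeff (n / N) else 0

theorem hasSum_vCoeff (N : ℕ) [NeZero N] {k : ℤ} (f : ModularForm 𝒮ℒ k) (τ : ℍ) :
    HasSum (fun n ↦ vCoeff N f n • 𝕢 1 (τ : ℂ) ^ n) (vForm N f τ) := by
  have hN : N ≠ 0 := NeZero.ne N
  have h := (ModularForm.hasSum_qExpansion f one_pos one_mem_strictPeriods_SL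
    (heckeDiagMatrix N • τ)).mul_left ((N : ℂ) ^ (k - 1))
  rw [← vForm_apply, Fermat.Agent.S23.Theta.qParam_heckeDiagMatrix_smul] at h
  have hinj : Function.Injective (fun m : ℕ ↦ N * m) := fun a b hab ↦
    Nat.eq_of_mul_eq_mul_left (Nat.pos_of_ne_zero hN) hab
  rw [← hinj.hasSum_iff]
  · have hfun : ((fun n ↦ vCoeff N f n • 𝕢 1 (τ : ℂ) ^ n) ∘ fun m ↦ N * m) =
        fun i ↦ (N : ℂ) ^ (k - 1) * ((qExpansion 1 f).coeff i * (𝕢 1 (τ : ℂ) ^ N) ^ i) := by
      funext m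
      simp only [Function.comp_apply, vCoeff, dvd_mul_right, if_true,
        Nat.mul_div_cancel_left _ (Nat.pos_of_ne_zero hN), smul_eq_mul, pow_mul]
      ring
    rw [hfun]
    exact h
  · intro n hn
    have : ¬ N ∣ n := fun ⟨m, hm⟩ ↦ hn ⟨m, hm.symm⟩
    simp [vCoeff, this]

theorem qExpansion_vForm_coeff (N : ℕ) [NeZero N] {k : ℤ} (f : ModularForm 𝒮ℒ k) (n : ℕ) :
    (qExpansion 1 (vForm N f)).coeff n = vCoeff N f n :=
  (ModularFormClass.qExpansion_coeff_unique one_pos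
    (CongruenceSubgroup.one_mem_strictPeriods_Gamma0 N) (hasSum_vCoeff N f) n).symm

/-- The `q`-expansion of `vForm N f` is `N^(k-1)` times the `q ↦ q^N` expansion of that of `f`. -/
theorem qExpansion_vForm (N : ℕ) [NeZero N] {k : ℤ} (f : ModularForm 𝒮ℒ k) :
    qExpansion 1 (vForm N f) =
      PowerSeries.C ((N : ℂ) ^ (k - 1)) * PowerSeries.expand N (NeZero.ne N) (qExpansion 1 f) := by
  ext n
  rw [qExpansion_vForm_coeff, PowerSeries.coeff_C_mul, PowerSeries.coeff_expand, vCoeff]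
  split_ifs <;> simp

/-- `q`-expansion of `vForm N f` when the `q`-expansion of `f` is integral. -/
theorem qExpansion_vForm_of_int (N : ℕ) [NeZero N] {k : ℕ} (f : ModularForm 𝒮ℒ ((k : ℤ) + 1))
    (g : PowerSeries ℤ) (hg : qExpansion 1 f = PowerSeries.map (Int.castRingHom ℂ) g) :
    qExpansion 1 (vForm N f) = PowerSeries.map (Int.castRingHom ℂ)
      (PowerSeries.C ((N : ℤ) ^ k) * PowerSeries.expand N (NeZero.ne N) g) := by
  ext n
  rw [qExpansion_vForm_coeff, vCoeff, hg, PowerSeries.coeff_map, PowerSeries.coeff_map,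
    PowerSeries.coeff_C_mul, PowerSeries.coeff_expand]
  have h1 : ((N : ℂ)) ^ ((k : ℤ) + 1 - 1) = (Int.castRingHom ℂ) ((N : ℤ) ^ k) := by
    rw [add_sub_cancel_right, zpow_natCast]
    simp
  rw [h1]
  split_ifs
  · rw [map_mul]
  · rw [mul_zero, map_zero]

end

end Fermat.Agent.Lib.Red.HauptForms
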