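/-
RED-23 (ℓ = 2), char-0 package, part 4: the Hauptmodul identity of level `3`.

With `E = eisenstein4`, `U = dedekindEtaUnit = ∏ (1 - qⁿ)²⁴` (so `Δ = q U`), `V = etaProd¹²`
(so `V² = U`) and `f₃ = f(q³)`:

  `U U₃ (E₃³ - 756 q³ U₃ - 36 q U)² = (U² + 270 q² U U₃ + 729 q⁴ U₃²)²`     (`level3_sq`)
  `V V₃ (E₃³ - 756 q³ U₃ - 36 q U) = U² + 270 q² U U₃ + 729 q⁴ U₃²`         (`level3_formal`)

The first is `Δ Δ₃ (E₄(3τ)³ - 756 Δ₃ - 36 Δ)² = (Δ² + 270 Δ Δ₃ + 729 Δ₃²)²` and is proved by the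
Sturm bound in `M₄₈(Γ₀(3))` (17 coefficients); the second is equivalent to
`j(3τ) t³ = (t + 27)(t + 243)³` for `t = 3⁶ (η(3τ)/η(τ))¹²`.
-/
import Mathlib
import Fermat.Prelude.Thm_ModularForm_sturm_bound_Gamma0
import Fermat.Agent.Lib.Red.HauptForms
import Fermat.Agent.Lib.Red.HauptTrunc
import Fermat.Agent.Lib.Red.HauptLevel2
import Fermat.Agent.S28.DeltaBridge
import Fermat.Agent.S20.IndexGamma0

set_option autoImplicit false

open UpperHalfPlane ModularForm Filter Topology
open scoped MatrixGroups ModularForm Manifold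

namespace Fermat.Agent.Lib.Red.HauptLevel3

open Fermat.Agent.Lib.Red.HauptForms Fermat.Agent.Lib.Red.HauptTrunc ModularCurve
open Fermat.Agent.Lib.Red.HauptLevel2 (deltaForm qExpansion_deltaForm)

noncomputable section

local notation "Γ3" => (CongruenceSubgroup.Gamma0 3 : Subgroup SL(2, ℤ))

/-- `27 E₄(3τ)` -/
def e3 : ModularForm Γ3 4 := vForm 3 E₄

/-- `Δ(τ)` on `Γ₀(3)` -/
def d1 : ModularForm Γ3 12 := resForm 3 deltaForm

/-- `3¹¹ Δ(3τ)` -/
def d3 : ModularForm Γ3 12 := vForm 3 deltaForm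

/-- the integral `q`-expansion of `e3` -/
def sE : PowerSeries ℤ := PowerSeries.C 27 * PowerSeries.expand 3 three_ne_zero eisenstein4

/-- the integral `q`-expansion of `d1` -/
def sD : PowerSeries ℤ := PowerSeries.X * dedekindEtaUnit

/-- the integral `q`-expansion of `d3` -/
def sD3 : PowerSeries ℤ :=
  PowerSeries.C 177147 * PowerSeries.expand 3 three_ne_zero (PowerSeries.X * dedekindEtaUnit)

theorem qExpansion_e3 : qExpansion 1 e3 = PowerSeries.map (Int.castRingHom ℂ) sE := by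
  have h := qExpansion_vForm_of_int 3 (k := 3) E₄ eisenstein4
    Fermat.Agent.S28.DeltaBridge.qExpansion_E4
  rw [e3, h, sE]
  norm_num

theorem qExpansion_d1 : qExpansion 1 d1 = PowerSeries.map (Int.castRingHom ℂ) sD :=
  qExpansion_deltaForm

theorem qExpansion_d3 : qExpansion 1 d3 = PowerSeries.map (Int.castRingHom ℂ) sD3 := by
  have h := qExpansion_vForm_of_int 3 (k := 11) deltaForm _ qExpansion_deltaForm
  rw [d3, h, sD3]
  norm_num

/-- `e3³`, weight `12` -/
def e3c : ModularForm Γ3 12 := ModularForm.mcast (by norm_num) (e3.pow 3)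

/-- `d3²`, weight `24` -/
def d33 : ModularForm Γ3 24 := ModularForm.mcast (by norm_num) (d3.pow 2)

/-- `d1 d3`, weight `24` -/
def d13 : ModularForm Γ3 24 := ModularForm.mcast (by norm_num) (d1.mul d3)

/-- `d1²`, weight `24` -/
def d11 : ModularForm Γ3 24 := ModularForm.mcast (by norm_num) (d1.pow 2)

/-- `3⁹ (E₄(3τ)³ - 756 Δ(3τ) - 36 Δ(τ))`, weight `12` -/
def formG : ModularForm Γ3 12 := e3c - (84 : ℂ) • d3 - (708588 : ℂ) • d1

/-- `3¹⁶ (729 Δ₃² + 270 Δ Δ₃ + Δ²)`, weight `24` -/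
def formH : ModularForm Γ3 24 := d33 + (65610 : ℂ) • d13 + (43046721 : ℂ) • d11

/-- `Δ Δ₃ G²`, weight `48` -/
def formA : ModularForm Γ3 48 :=
  ModularForm.mcast (by norm_num) ((d1.mul d3).mul (formG.pow 2))

/-- `H²`, weight `48` -/
def formB : ModularForm Γ3 48 := ModularForm.mcast (by norm_num) (formH.pow 2)

/-- the difference, a form of weight `48` on `Γ₀(3)` -/
def formF : ModularForm Γ3 48 := (27 : ℂ) • formA - formB

/-- the integral `q`-expansion of `formG` -/
def sG : PowerSeries ℤ := sE ^ 3 - PowerSeries.C 84 * sD3 - PowerSeries.C 708588 * sD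

/-- the integral `q`-expansion of `formH` -/
def sH : PowerSeries ℤ :=
  sD3 ^ 2 + PowerSeries.C 65610 * (sD * sD3) + PowerSeries.C 43046721 * sD ^ 2

/-- the integral `q`-expansion of `formF` -/
def sF : PowerSeries ℤ := PowerSeries.C 27 * ((sD * sD3) * sG ^ 2) - sH ^ 2

theorem qExpansion_formG : qExpansion 1 formG = PowerSeries.map (Int.castRingHom ℂ) sG := by
  have hΓ := CongruenceSubgroup.one_mem_strictPeriods_Gamma0 3
  have h1 : qExpansion 1 formG =
      qExpansion 1 (e3c - (84 : ℂ) • d3) - qExpansion 1 ((708588 : ℂ) • d1) :=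
    ModularForm.qExpansion_sub one_pos hΓ (e3c - (84 : ℂ) • d3) ((708588 : ℂ) • d1)
  have h2 : qExpansion 1 (e3c - (84 : ℂ) • d3) = qExpansion 1 e3c - qExpansion 1 ((84 : ℂ) • d3) :=
    ModularForm.qExpansion_sub one_pos hΓ e3c ((84 : ℂ) • d3)
  have h3 : qExpansion 1 e3c = qExpansion 1 e3 ^ 3 :=
    ModularForm.qExpansion_pow one_pos hΓ e3 3
  have h4 : qExpansion 1 ((84 : ℂ) • d3) = (84 : ℂ) • qExpansion 1 d3 :=
    ModularForm.qExpansion_smul one_pos hΓ 84 d3
  have h5 : qExpansion 1 ((708588 : ℂ) • d1) = (708588 : ℂ) • qExpansion 1 d1 :=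
    ModularForm.qExpansion_smul one_pos hΓ 708588 d1
  rw [h1, h2, h3, h4, h5, qExpansion_e3, qExpansion_d1, qExpansion_d3, sG]
  simp only [map_sub, map_mul, map_pow, PowerSeries.map_C]
  simp [Algebra.smul_def]

theorem qExpansion_formH : qExpansion 1 formH = PowerSeries.map (Int.castRingHom ℂ) sH := by
  have hΓ := CongruenceSubgroup.one_mem_strictPeriods_Gamma0 3
  have h1 : qExpansion 1 formH =
      qExpansion 1 (d33 + (65610 : ℂ) • d13) + qExpansion 1 ((43046721 : ℂ) • d11) :=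
    ModularForm.qExpansion_add one_pos hΓ (d33 + (65610 : ℂ) • d13) ((43046721 : ℂ) • d11)
  have h2 : qExpansion 1 (d33 + (65610 : ℂ) • d13) =
      qExpansion 1 d33 + qExpansion 1 ((65610 : ℂ) • d13) :=
    ModularForm.qExpansion_add one_pos hΓ d33 ((65610 : ℂ) • d13)
  have h3 : qExpansion 1 d33 = qExpansion 1 d3 ^ 2 :=
    ModularForm.qExpansion_pow one_pos hΓ d3 2
  have h4 : qExpansion 1 ((65610 : ℂ) • d13) = (65610 : ℂ) • qExpansion 1 d13 :=
    ModularForm.qExpansion_smul one_pos hΓ 65610 d13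
  have h5 : qExpansion 1 d13 = qExpansion 1 d1 * qExpansion 1 d3 :=
    ModularForm.qExpansion_mul one_pos hΓ d1 d3
  have h6 : qExpansion 1 ((43046721 : ℂ) • d11) = (43046721 : ℂ) • qExpansion 1 d11 :=
    ModularForm.qExpansion_smul one_pos hΓ 43046721 d11
  have h7 : qExpansion 1 d11 = qExpansion 1 d1 ^ 2 :=
    ModularForm.qExpansion_pow one_pos hΓ d1 2
  rw [h1, h2, h3, h4, h5, h6, h7, qExpansion_d1, qExpansion_d3, sH]
  simp only [map_mul, map_pow, map_add, PowerSeries.map_C]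
  simp [Algebra.smul_def]

theorem qExpansion_formF : qExpansion 1 formF = PowerSeries.map (Int.castRingHom ℂ) sF := by
  have hΓ := CongruenceSubgroup.one_mem_strictPeriods_Gamma0 3
  have h1 : qExpansion 1 formF = qExpansion 1 ((27 : ℂ) • formA) - qExpansion 1 formB :=
    ModularForm.qExpansion_sub one_pos hΓ ((27 : ℂ) • formA) formB
  have h2 : qExpansion 1 ((27 : ℂ) • formA) = (27 : ℂ) • qExpansion 1 formA :=
    ModularForm.qExpansion_smul one_pos hΓ 27 formA
  have h3 : qExpansion 1 formA = qExpansion 1 (d1.mul d3) * qExpansion 1 (formG.pow 2) :=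
    ModularForm.qExpansion_mul one_pos hΓ (d1.mul d3) (formG.pow 2)
  have h4 : qExpansion 1 (d1.mul d3) = qExpansion 1 d1 * qExpansion 1 d3 :=
    ModularForm.qExpansion_mul one_pos hΓ d1 d3
  have h5 : qExpansion 1 (formG.pow 2) = qExpansion 1 formG ^ 2 :=
    ModularForm.qExpansion_pow one_pos hΓ formG 2
  have h6 : qExpansion 1 formB = qExpansion 1 formH ^ 2 :=
    ModularForm.qExpansion_pow one_pos hΓ formH 2
  rw [h1, h2, h3, h4, h5, h6, qExpansion_formG, qExpansion_formH, qExpansion_d1, qExpansion_d3, sF]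
  simp only [map_sub, map_mul, map_pow, PowerSeries.map_C]
  simp [Algebra.smul_def]

set_option maxRecDepth 100000 in
/-- The first seventeen coefficients of `sF` vanish. -/
theorem approx_sF : Approx 17 sF (List.replicate 17 0) := by
  have hE := approx_eisenstein4 17
  have hU := approx_dedekindEtaUnit 17
  have hsE : Approx 17 sE _ := (hE.expand 3 three_ne_zero).smul 27
  have hsD : Approx 17 sD (lshift 17 1 (lpow 17 (lEta 17 17) 24)) := by
    have := hU.shift 1
    rwa [pow_one] at this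
  have hsD3 : Approx 17 sD3 _ := (hsD.expand 3 three_ne_zero).smul 177147
  have hsG : Approx 17 sG _ := ((hsE.pow 3).sub (hsD3.smul 84)).sub (hsD.smul 708588)
  have hsH : Approx 17 sH _ :=
    ((hsD3.pow 2).add ((hsD.mul hsD3).smul 65610)).add ((hsD.pow 2).smul 43046721)
  have h := (((hsD.mul hsD3).mul (hsG.pow 2)).smul 27).sub (hsH.pow 2)
  exact h.congr (by decide +kernel)

theorem index_Gamma0_three : (CongruenceSubgroup.Gamma0 3).index = 4 := by
  rw [Fermat.Agent.S20.Count.index_Gamma0]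
  decide +kernel

/-- Sturm: the form `formF` vanishes. -/
theorem formF_eq_zero : formF = 0 := by
  apply ModularForm.sturm_bound_Gamma0 3
  intro n hn
  rw [index_Gamma0_three] at hn
  have hn' : n < 17 := by
    have h16 : ((48 : ℤ) * ((4 : ℕ) : ℤ)).toNat / 12 = 16 := by decide
    omega
  rw [qExpansion_formF, PowerSeries.coeff_map, approx_sF.zero_of n hn', map_zero]

theorem sF_eq_zero : sF = 0 := by
  have h := qExpansion_formF
  rw [formF_eq_zero] at h
  have h0 : qExpansion 1 ((0 : ModularForm Γ3 48) : ℍ → ℂ) = 0 := qExpansion_zero 1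
  rw [h0] at h
  ext n
  have h1 := congrArg (PowerSeries.coeff n) h
  rw [PowerSeries.coeff_map, map_zero] at h1
  rw [map_zero]
  have h2 : (((PowerSeries.coeff n) sF : ℤ) : ℂ) = 0 := h1.symm
  exact_mod_cast h2

/-- `E₃³ - 756 q³ U₃ - 36 q U` -/
def sA : PowerSeries ℤ :=
  PowerSeries.expand 3 three_ne_zero eisenstein4 ^ 3 -
    756 * (PowerSeries.X ^ 3 * PowerSeries.expand 3 three_ne_zero dedekindEtaUnit) -
    36 * (PowerSeries.X * dedekindEtaUnit)

/-- `U² + 270 q² U U₃ + 729 q⁴ U₃²` -/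
def sB : PowerSeries ℤ :=
  dedekindEtaUnit ^ 2 +
    270 * (PowerSeries.X ^ 2 *
      (dedekindEtaUnit * PowerSeries.expand 3 three_ne_zero dedekindEtaUnit)) +
    729 * (PowerSeries.X ^ 4 * PowerSeries.expand 3 three_ne_zero dedekindEtaUnit ^ 2)

/-- **The level 3 identity, squared form**
`Δ Δ₃ (E₄(3τ)³ - 756 Δ₃ - 36 Δ)² = (Δ² + 270 Δ Δ₃ + 729 Δ₃²)²` (after division by `q⁴`). -/
theorem level3_sq :
    dedekindEtaUnit * PowerSeries.expand 3 three_ne_zero dedekindEtaUnit * sA ^ 2 = sB ^ 2 := by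
  have hX : PowerSeries.expand 3 three_ne_zero (PowerSeries.X * dedekindEtaUnit) =
      PowerSeries.X ^ 3 * PowerSeries.expand 3 three_ne_zero dedekindEtaUnit := by
    rw [map_mul, PowerSeries.expand_X]
  have key : sF = PowerSeries.C 1853020188851841 * PowerSeries.X ^ 4 *
      (dedekindEtaUnit * PowerSeries.expand 3 three_ne_zero dedekindEtaUnit * sA ^ 2 -
        sB ^ 2) := by
    rw [sF, sG, sH, sE, sD, sD3, hX, sA, sB]
    simp only [map_ofNat]
    ring
  have h := sF_eq_zero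
  rw [key] at h
  have hc : (PowerSeries.C (1853020188851841 : ℤ)) ≠ 0 := by
    rw [Ne, ← map_zero (PowerSeries.C (R := ℤ))]
    intro h'
    have := PowerSeries.C_injective h'
    norm_num at this
  have hX4 : (PowerSeries.X : PowerSeries ℤ) ^ 4 ≠ 0 := pow_ne_zero _ PowerSeries.X_ne_zero
  exact sub_eq_zero.mp ((mul_eq_zero.mp h).resolve_left (mul_ne_zero hc hX4))

/-- `V = ∏ (1 - qⁿ)¹²`, so that `V² = U` and `η(τ)¹² = q^(1/2) V`. -/
def etaTwelve : PowerSeries ℤ := etaProd ^ 12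

theorem etaTwelve_sq : etaTwelve ^ 2 = dedekindEtaUnit := by
  rw [etaTwelve, dedekindEtaUnit, ← pow_mul]

theorem constantCoeff_etaTwelve : PowerSeries.constantCoeff etaTwelve = 1 := by
  rw [etaTwelve, map_pow, constantCoeff_etaProd, one_pow]

/-- **The level 3 identity** `V V₃ (E₃³ - 756 q³ U₃ - 36 q U) = U² + 270 q² U U₃ + 729 q⁴ U₃²`,
equivalent to `j(3τ) t³ = (t + 27)(t + 243)³` for `t = 3⁶ q V₃ / V`. -/
theorem level3_formal :
    etaTwelve * PowerSeries.expand 3 three_ne_zero etaTwelve * sA = sB := by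
  have hsq : (etaTwelve * PowerSeries.expand 3 three_ne_zero etaTwelve * sA) ^ 2 = sB ^ 2 := by
    rw [← level3_sq, ← etaTwelve_sq, map_pow]
    ring
  have hfac : (etaTwelve * PowerSeries.expand 3 three_ne_zero etaTwelve * sA - sB) *
      (etaTwelve * PowerSeries.expand 3 three_ne_zero etaTwelve * sA + sB) = 0 := by
    linear_combination hsq
  rcases mul_eq_zero.mp hfac with h | h
  · exact sub_eq_zero.mp h
  · exfalso
    have hc := congrArg PowerSeries.constantCoeff h
    simp [sA, sB, constantCoeff_etaTwelve, constantCoeff_dedekindEtaUnit,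
      constantCoeff_eisenstein4] at hc

end

end Fermat.Agent.Lib.Red.HauptLevel3
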