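/-
RED-23 (ℓ = 2, 3), char-0 package, part 5: the Hauptmodul relations as identities of Laurent
series over an arbitrary commutative ring `A` (so they hold simultaneously over `ℤ`, over the
characteristic-zero field and over the residue field).

* level 2, `y = yInf A 2 = 2¹² Δ(q²)/Δ(q)`:
    `jqNModC A 2 * y ^ 2 = (y + 256) ^ 3`                          (`level2_laurent`)
* level 3, `t = tInf A = 3⁶ q ∏ ((1 - q^(3n))/(1 - q^n))¹²`:
    `t ^ 2 = yInf A 3`                                              (`tInf_sq`)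
    `jqNModC A 3 * t ^ 3 = (t + 27) * (t + 243) ^ 3`               (`level3_laurent`)
-/
import Mathlib
import Fermat.Agent.Lib.Red.HauptLevel2
import Fermat.Agent.Lib.Red.HauptLevel3
import Fermat.Agent.S28.ModEq.Data

set_option autoImplicit false

namespace Fermat.Agent.Lib.Red.HauptSeries

open ModularCurve HahnSeries Fermat.Agent.S28.ModEq
open Fermat.Agent.Lib.Red.HauptLevel2 Fermat.Agent.Lib.Red.HauptLevel3

noncomputable section

/-- `PowerSeries ℤ → LaurentSeries ℤ`. -/
local notation "O" => HahnSeries.ofPowerSeries ℤ ℤ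

/-- `q ↦ q^p` on power series inside Laurent series is `PowerSeries.expand`. -/
theorem qExpand_ofPS (R : Type*) [CommRing R] (p : ℕ) [NeZero p] (g : PowerSeries R) :
    qExpand R p (HahnSeries.ofPowerSeries ℤ R g) =
      HahnSeries.ofPowerSeries ℤ R (g.expand p (NeZero.ne p)) := by
  have hp : (0 : ℤ) < p := by exact_mod_cast Nat.pos_of_ne_zero (NeZero.ne p)
  ext k
  by_cases hk : (p : ℤ) ∣ k
  · obtain ⟨m, rfl⟩ := hk
    rw [qExpand_coeff_mul]
    rcases le_or_gt 0 m with hm | hm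
    · lift m to ℕ using hm
      rw [HahnSeries.ofPowerSeries_apply_coeff, ← Nat.cast_mul,
        HahnSeries.ofPowerSeries_apply_coeff, PowerSeries.coeff_expand_mul]
    · have h2 : (p : ℤ) * m < 0 := mul_neg_of_pos_of_neg hp hm
      rw [ofPowerSeries_coeff_of_neg _ hm, ofPowerSeries_coeff_of_neg _ h2]
  · rw [qExpand_coeff_of_not_dvd p _ hk]
    rcases le_or_gt 0 k with hk0 | hk0
    · lift k to ℕ using hk0
      rw [HahnSeries.ofPowerSeries_apply_coeff, PowerSeries.coeff_expand_of_not_dvd]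
      exact fun h => hk (Int.natCast_dvd_natCast.mpr h)
    · rw [ofPowerSeries_coeff_of_neg _ hk0]

theorem map_intCast_int (f : PowerSeries ℤ) : f.map (Int.castRingHom ℤ) = f := by
  ext n
  simp

/-- `q = O(X)` -/
theorem single_one_eq : (HahnSeries.single (1 : ℤ) (1 : ℤ) : LaurentSeries ℤ) = O PowerSeries.X :=
  (HahnSeries.ofPowerSeries_X (Γ := ℤ) (R := ℤ)).symm

theorem single_neg_mul_ofX_pow (n : ℕ) :
    (HahnSeries.single (-(n : ℤ)) (1 : ℤ) : LaurentSeries ℤ) * O PowerSeries.X ^ n = 1 := by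
  rw [← single_one_eq, HahnSeries.single_pow, HahnSeries.single_mul_single]
  simp

/-- `Δ = O(X U)` -/
theorem DA_int : DA ℤ = O (PowerSeries.X * dedekindEtaUnit) := by
  rw [DA, map_intCast_int, map_mul, single_one_eq]

/-- `Δ⁻¹ · q = O(U⁻¹)` -/
theorem DAinv_int_mul : DAinv ℤ * O PowerSeries.X = O dedekindEtaUnitInv := by
  have h := single_neg_mul_ofX_pow 1
  rw [pow_one] at h
  rw [DAinv, map_intCast_int, mul_comm (HahnSeries.single _ _), mul_assoc]
  have h' : (HahnSeries.single (-1 : ℤ) (1 : ℤ) : LaurentSeries ℤ) * O PowerSeries.X = 1 := by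
    simp
  rw [h', mul_one]

/-- `j(q^p) · q^p = O(E_p³ · U_p⁻¹)` -/
theorem jqN_int_mul (p : ℕ) [NeZero p] :
    jqNModC ℤ p * O PowerSeries.X ^ p =
      O (PowerSeries.expand p (NeZero.ne p) eisenstein4 ^ 3 *
        PowerSeries.expand p (NeZero.ne p) dedekindEtaUnitInv) := by
  rw [jqNModC, jqModC, map_intCast_int, map_mul, qExpand_single, qExpand_ofPS, jNum, map_mul,
    map_pow, mul_comm (HahnSeries.single _ _), mul_assoc]
  have h := single_neg_mul_ofX_pow p
  have h' : (HahnSeries.single ((p : ℤ) * (-1)) (1 : ℤ) : LaurentSeries ℤ) * O PowerSeries.X ^ p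
      = 1 := by
    rw [mul_neg_one]
    exact h
  rw [h', mul_one]

/-- `yInf ℤ p · q = O(p¹² X^p U_p U⁻¹)`. -/
theorem yInf_int_mul (p : ℕ) [NeZero p] :
    yInf ℤ p * O PowerSeries.X =
      O ((p : PowerSeries ℤ) ^ 12 * PowerSeries.X ^ p *
        PowerSeries.expand p (NeZero.ne p) dedekindEtaUnit * dedekindEtaUnitInv) := by
  rw [yInf, DA_int, qExpand_ofPS, mul_assoc, DAinv_int_mul, map_mul (PowerSeries.expand p _),
    PowerSeries.expand_X]
  simp only [map_mul, map_pow, map_natCast]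
  ring

/-! ### Level 2 -/

/-- The level 2 relation in power series form. -/
theorem level2_ps :
    PowerSeries.expand 2 two_ne_zero eisenstein4 ^ 3 *
        PowerSeries.expand 2 two_ne_zero dedekindEtaUnitInv *
        (4096 * PowerSeries.X *
          PowerSeries.expand 2 two_ne_zero dedekindEtaUnit * dedekindEtaUnitInv) ^ 2 =
      PowerSeries.X ^ 2 * (4096 * PowerSeries.X *
          PowerSeries.expand 2 two_ne_zero dedekindEtaUnit * dedekindEtaUnitInv + 256) ^ 3 := by
  have h1 : dedekindEtaUnit * dedekindEtaUnitInv = 1 := dedekindEtaUnit_mul_inv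
  have h2 : PowerSeries.expand 2 two_ne_zero dedekindEtaUnit *
      PowerSeries.expand 2 two_ne_zero dedekindEtaUnitInv = 1 := by
    rw [← map_mul, h1, map_one]
  have h3 := level2_formal
  generalize dedekindEtaUnit = U at h1 h2 h3 ⊢
  generalize dedekindEtaUnitInv = w at h1 h2 ⊢
  generalize PowerSeries.expand 2 two_ne_zero eisenstein4 = E2 at h3 ⊢
  have e1 : (4096 : PowerSeries ℤ) * PowerSeries.X * PowerSeries.expand 2 two_ne_zero U * w + 256 =
      256 * w * (U + 16 * (PowerSeries.X * PowerSeries.expand 2 two_ne_zero U)) := by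
    linear_combination (-256 : PowerSeries ℤ) * h1
  have e2 : (256 * w * (U + 16 * (PowerSeries.X * PowerSeries.expand 2 two_ne_zero U))) ^ 3 =
      16777216 * w ^ 3 * (E2 ^ 3 * U * PowerSeries.expand 2 two_ne_zero U) := by
    rw [h3]
    ring
  rw [e1, e2]
  generalize PowerSeries.expand 2 two_ne_zero U = U2 at h2 ⊢
  generalize PowerSeries.expand 2 two_ne_zero w = w2 at h2 ⊢
  linear_combination (16777216 * E2 ^ 3 * U2 * w ^ 2 * PowerSeries.X ^ 2) * h2 -
    (16777216 * E2 ^ 3 * U2 * w ^ 2 * PowerSeries.X ^ 2) * h1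

/-- cancellation of a power of `q` -/
theorem mul_ofX_pow_cancel (n : ℕ) {a b : LaurentSeries ℤ}
    (h : a * O PowerSeries.X ^ n = b * O PowerSeries.X ^ n) : a = b := by
  have h1 := single_neg_mul_ofX_pow n
  have h2 : O PowerSeries.X ^ n * (HahnSeries.single (-(n : ℤ)) (1 : ℤ) : LaurentSeries ℤ) = 1 := by
    rw [mul_comm]
    exact h1
  calc a = a * (O PowerSeries.X ^ n * HahnSeries.single (-(n : ℤ)) (1 : ℤ)) := by
        rw [h2, mul_one]
    _ = b * (O PowerSeries.X ^ n * HahnSeries.single (-(n : ℤ)) (1 : ℤ)) := by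
        rw [← mul_assoc, h, mul_assoc]
    _ = b := by rw [h2, mul_one]

/-- `yInf ℤ 2 = O(2¹² X U₂ U⁻¹)` -/
theorem yInf_two_int :
    yInf ℤ 2 = O (4096 * PowerSeries.X *
          PowerSeries.expand 2 two_ne_zero dedekindEtaUnit * dedekindEtaUnitInv) := by
  apply mul_ofX_pow_cancel 1
  rw [pow_one, yInf_int_mul 2, ← map_mul O]
  congr 1
  push_cast
  ring

/-- The level 2 relation over `ℤ`. -/
theorem level2_int : jqNModC ℤ 2 * yInf ℤ 2 ^ 2 = (yInf ℤ 2 + 256) ^ 3 := by
  apply mul_ofX_pow_cancel 2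
  have hL : jqNModC ℤ 2 * yInf ℤ 2 ^ 2 * O PowerSeries.X ^ 2 =
      O (PowerSeries.expand 2 two_ne_zero eisenstein4 ^ 3 *
        PowerSeries.expand 2 two_ne_zero dedekindEtaUnitInv *
        (4096 * PowerSeries.X *
          PowerSeries.expand 2 two_ne_zero dedekindEtaUnit * dedekindEtaUnitInv) ^ 2) := by
    rw [mul_right_comm, jqN_int_mul 2, yInf_two_int]
    simp only [map_mul, map_pow]
  have hR : (yInf ℤ 2 + 256) ^ 3 * O PowerSeries.X ^ 2 =
      O (PowerSeries.X ^ 2 * (4096 * PowerSeries.X *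
          PowerSeries.expand 2 two_ne_zero dedekindEtaUnit * dedekindEtaUnitInv + 256) ^ 3) := by
    rw [yInf_two_int]
    simp only [map_mul, map_pow, map_add, map_ofNat]
    ring
  rw [hL, hR, level2_ps]

/-- **The level 2 relation** `J(q²) y² = (y + 256)³`, `y = 2¹² Δ(q²)/Δ(q)`, over any ring. -/
theorem level2_laurent (A : Type*) [CommRing A] :
    jqNModC A 2 * yInf A 2 ^ 2 = (yInf A 2 + 256) ^ 3 := by
  have h := congrArg (coeffMap (Int.castRingHom A)) level2_int
  rw [map_mul, map_pow, map_pow, map_add, coeffMap_jqNModC, coeffMap_yInf, map_ofNat] at h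
  exact h

/-! ### Level 3 -/

/-- the inverse of `V = ∏ (1 - qⁿ)¹²` -/
def etaTwelveInv : PowerSeries ℤ := etaTwelve.invOfUnit 1

theorem etaTwelve_mul_inv : etaTwelve * etaTwelveInv = 1 :=
  PowerSeries.mul_invOfUnit _ _ (by simp [constantCoeff_etaTwelve])

theorem etaTwelveInv_sq : etaTwelveInv ^ 2 = dedekindEtaUnitInv := by
  have h1 : dedekindEtaUnit * etaTwelveInv ^ 2 = 1 := by
    rw [← etaTwelve_sq, ← mul_pow, etaTwelve_mul_inv, one_pow]
  calc etaTwelveInv ^ 2 = etaTwelveInv ^ 2 * (dedekindEtaUnit * dedekindEtaUnitInv) := by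
        rw [dedekindEtaUnit_mul_inv, mul_one]
    _ = (dedekindEtaUnit * etaTwelveInv ^ 2) * dedekindEtaUnitInv := by ring
    _ = dedekindEtaUnitInv := by rw [h1, one_mul]

/-- `3⁶ V₃ / V`: the power series of `t₃ / q`. -/
def tSeries : PowerSeries ℤ :=
  PowerSeries.C 729 * PowerSeries.expand 3 three_ne_zero etaTwelve * etaTwelveInv

/-- `t₃ = 3⁶ q ∏ ((1 - q^(3n))/(1 - q^n))¹²` over `A` (`t₃² = yInf A 3`). -/
def tInf (A : Type*) [CommRing A] : LaurentSeries A :=
  HahnSeries.ofPowerSeries ℤ A ((PowerSeries.X * tSeries).map (Int.castRingHom A))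

theorem coeffMap_tInf {A B : Type*} [CommRing A] [CommRing B] (φ : A →+* B) :
    coeffMap φ (tInf A) = tInf B := by
  rw [tInf, coeffMap_ofPowerSeries, map_map_intCast, tInf]

theorem tInf_int : tInf ℤ = O (PowerSeries.X * tSeries) := by
  rw [tInf, map_intCast_int]

theorem tInf_sq_int : tInf ℤ ^ 2 = yInf ℤ 3 := by
  apply mul_ofX_pow_cancel 1
  rw [pow_one, yInf_int_mul 3, tInf_int, ← map_pow O, ← map_mul O]
  congr 1
  rw [tSeries, ← etaTwelveInv_sq, ← etaTwelve_sq, map_pow]
  have hC' : PowerSeries.C (729 : ℤ) = (729 : PowerSeries ℤ) := map_ofNat _ 729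
  rw [hC']
  push_cast
  ring

/-- The level 3 relation in power series form. -/
theorem level3_ps :
    PowerSeries.expand 3 three_ne_zero eisenstein4 ^ 3 *
        PowerSeries.expand 3 three_ne_zero dedekindEtaUnitInv * tSeries ^ 3 =
      (PowerSeries.X * tSeries + 27) * (PowerSeries.X * tSeries + 243) ^ 3 := by
  have h1 : etaTwelve * etaTwelveInv = 1 := etaTwelve_mul_inv
  have h2 : PowerSeries.expand 3 three_ne_zero etaTwelve ^ 2 *
      PowerSeries.expand 3 three_ne_zero dedekindEtaUnitInv = 1 := by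
    rw [← map_pow, etaTwelve_sq, ← map_mul, dedekindEtaUnit_mul_inv, map_one]
  have h3 := level3_formal
  rw [sA, sB, ← etaTwelve_sq, map_pow] at h3
  have hC' : PowerSeries.C (729 : ℤ) = (729 : PowerSeries ℤ) := map_ofNat _ 729
  rw [tSeries, hC']
  generalize etaTwelve = V at h1 h2 h3 ⊢
  generalize etaTwelveInv = w at h1 ⊢
  generalize PowerSeries.expand 3 three_ne_zero eisenstein4 = E3 at h3 ⊢
  generalize PowerSeries.expand 3 three_ne_zero V = V3 at h2 h3 ⊢
  generalize PowerSeries.expand 3 three_ne_zero dedekindEtaUnitInv = w3 at h2 ⊢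
  have e1 : PowerSeries.X * (729 * V3 * w) + 27 = w * (729 * PowerSeries.X * V3 + 27 * V) := by
    linear_combination (-27 : PowerSeries ℤ) * h1
  have e2 : PowerSeries.X * (729 * V3 * w) + 243 = w * (729 * PowerSeries.X * V3 + 243 * V) := by
    linear_combination (-243 : PowerSeries ℤ) * h1
  have key1 : (729 * PowerSeries.X * V3 + 27 * V) * (729 * PowerSeries.X * V3 + 243 * V) ^ 3 =
      387420489 * V * V3 * E3 ^ 3 := by
    linear_combination (-387420489 : PowerSeries ℤ) * h3
  have key2 : (w * (729 * PowerSeries.X * V3 + 27 * V)) *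
      (w * (729 * PowerSeries.X * V3 + 243 * V)) ^ 3 = w ^ 4 * (387420489 * V * V3 * E3 ^ 3) := by
    rw [← key1]
    ring
  rw [e1, e2, key2]
  linear_combination (387420489 * E3 ^ 3 * V3 * w ^ 3) * h2 -
    (387420489 * E3 ^ 3 * V3 * w ^ 3) * h1

/-- The level 3 relation over `ℤ`. -/
theorem level3_int : jqNModC ℤ 3 * tInf ℤ ^ 3 = (tInf ℤ + 27) * (tInf ℤ + 243) ^ 3 := by
  apply mul_ofX_pow_cancel 3
  have hL : jqNModC ℤ 3 * tInf ℤ ^ 3 * O PowerSeries.X ^ 3 =
      O (PowerSeries.X ^ 3 * (PowerSeries.expand 3 three_ne_zero eisenstein4 ^ 3 *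
        PowerSeries.expand 3 three_ne_zero dedekindEtaUnitInv * tSeries ^ 3)) := by
    rw [mul_right_comm, jqN_int_mul 3, tInf_int]
    simp only [map_mul, map_pow]
    ring
  have hR : (tInf ℤ + 27) * (tInf ℤ + 243) ^ 3 * O PowerSeries.X ^ 3 =
      O (PowerSeries.X ^ 3 *
        ((PowerSeries.X * tSeries + 27) * (PowerSeries.X * tSeries + 243) ^ 3)) := by
    rw [tInf_int]
    simp only [map_mul, map_pow, map_add, map_ofNat]
    ring
  rw [hL, hR, level3_ps]

/-- **The level 3 relation** `J(q³) t³ = (t + 27)(t + 243)³`, over any ring. -/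
theorem level3_laurent (A : Type*) [CommRing A] :
    jqNModC A 3 * tInf A ^ 3 = (tInf A + 27) * (tInf A + 243) ^ 3 := by
  have h := congrArg (coeffMap (Int.castRingHom A)) level3_int
  rw [map_mul, map_pow, map_mul, map_pow, map_add, map_add, coeffMap_jqNModC, coeffMap_tInf,
    map_ofNat, map_ofNat] at h
  exact h

/-- `t₃² = 3¹² Δ(q³)/Δ(q)`, over any ring. -/
theorem tInf_sq (A : Type*) [CommRing A] : tInf A ^ 2 = yInf A 3 := by
  have h := congrArg (coeffMap (Int.castRingHom A)) tInf_sq_int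
  rw [map_pow, coeffMap_tInf, coeffMap_yInf] at h
  exact h

end

end Fermat.Agent.Lib.Red.HauptSeries
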