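/-
RED-23 (ℓ = 2, 3), char-0 package, part 6: the Hauptmodul base series at an arbitrary level.

For a commutative ring `R` and `m ≠ 0`:

* `x2S R m = y₂(q^m)`, `y₂ = yInf R 2 = 2¹² Δ(q²)/Δ(q)`   (level `m * 2`);
* `x3S R m = t₃(q^m)`, `t₃ = tInf R = 3⁶ q ∏ ((1 - q^(3n))/(1 - q^n))¹²`   (level `m * 3`).

Both are compatible with change of coefficients (`coeffMap_x2S`, `coeffMap_x3S`) and satisfy

* `x2S_rel : TD.Jd R (m * 2) * x2S R m ^ 2 = (x2S R m + 256) ^ 3`,
* `x3S_rel : TD.Jd R (m * 3) * x3S R m ^ 3 = (x3S R m + 27) * (x3S R m + 243) ^ 3`.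

Over a field `K`:

* `yInf_mem_adjoin`, `tInf_mem_adjoin` : `y₂ ∈ K(J, J(q²))` (`2 ≠ 0`), `t₃ ∈ K(J, J(q³))` (`3 ≠ 0`);
* `x2S_mem`, `x3S_mem` : for `L ⊇ ℚ`, `x2S L m ∈ L·F_M` for `M = m * 2` (resp. `m * 3`);
* `x2S_transcendental`, `x3S_transcendental`, `Jd_mem_adjoin_x2S`, `Jd_mem_adjoin_x3S`.
-/
import Mathlib
import Fermat.Prelude.Thm_ModularCurve_coeffMap_qExpand
import Fermat.Agent.Lib.Red.HauptSeries
import Fermat.Agent.S28.TowerDefs
import Fermat.Agent.S28.BaseCaseA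
import Fermat.Agent.S28.GaussBase
import Fermat.Agent.S28.ModEqX.Main

set_option autoImplicit false

namespace Fermat.Agent.Lib.Red.HauptBase

open ModularCurve HahnSeries Polynomial Fermat.Agent.S28 Fermat.Agent.S28.ModEq
open Fermat.Agent.Lib.Red.HauptSeries

noncomputable section

/-! ### The series -/

/-- `y₂(q^m)`, the Hauptmodul base series of level `m * 2`. -/
def x2S (R : Type*) [CommRing R] (m : ℕ) [NeZero m] : LaurentSeries R := qExpand R m (yInf R 2)

/-- `t₃(q^m)`, the Hauptmodul base series of level `m * 3`. -/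
def x3S (R : Type*) [CommRing R] (m : ℕ) [NeZero m] : LaurentSeries R := qExpand R m (tInf R)

theorem coeffMap_x2S {R R' : Type*} [CommRing R] [CommRing R'] (φ : R →+* R') (m : ℕ) [NeZero m] :
    coeffMap φ (x2S R m) = x2S R' m := by
  rw [x2S, coeffMap_qExpand, coeffMap_yInf, x2S]

theorem coeffMap_x3S {R R' : Type*} [CommRing R] [CommRing R'] (φ : R →+* R') (m : ℕ) [NeZero m] :
    coeffMap φ (x3S R m) = x3S R' m := by
  rw [x3S, coeffMap_qExpand, coeffMap_tInf, x3S]

/-- **The relation of level `m * 2`**: `J(q^(2m)) x² = (x + 256)³`. -/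
theorem x2S_rel (R : Type*) [CommRing R] (m : ℕ) [NeZero m] :
    TD.Jd R (m * 2) * x2S R m ^ 2 = (x2S R m + 256) ^ 3 := by
  have h := congrArg (qExpand R m) (level2_laurent R)
  rw [map_mul, map_pow, map_pow, map_add, map_ofNat, ← TD.Jd_eq_jqNModC,
    TD.qExpand_Jd R m 2 two_ne_zero] at h
  exact h

/-- **The relation of level `m * 3`**: `J(q^(3m)) x³ = (x + 27)(x + 243)³`. -/
theorem x3S_rel (R : Type*) [CommRing R] (m : ℕ) [NeZero m] :
    TD.Jd R (m * 3) * x3S R m ^ 3 = (x3S R m + 27) * (x3S R m + 243) ^ 3 := by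
  have h := congrArg (qExpand R m) (level3_laurent R)
  rw [map_mul, map_pow, map_mul, map_pow, map_add, map_add, map_ofNat, map_ofNat,
    ← TD.Jd_eq_jqNModC, TD.qExpand_Jd R m 3 three_ne_zero] at h
  exact h

/-! ### Nonvanishing -/

theorem yInf_ne_zero (K : Type*) [Field K] (p : ℕ) [NeZero p] (hp : (p : K) ≠ 0) :
    yInf K p ≠ 0 := by
  intro h
  have h1 := (isLead_yInf K p).coeff_eq
  rw [h, HahnSeries.coeff_zero] at h1
  exact pow_ne_zero 12 hp h1.symm

theorem tInf_ne_zero (K : Type*) [Field K] (h3 : (3 : K) ≠ 0) : tInf K ≠ 0 := by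
  intro h
  have h1 : (tInf K) ^ 2 = 0 := by rw [h]; ring
  rw [tInf_sq] at h1
  exact yInf_ne_zero K 3 (by exact_mod_cast h3) h1

theorem x2S_ne_zero (K : Type*) [Field K] (h2 : (2 : K) ≠ 0) (m : ℕ) [NeZero m] :
    x2S K m ≠ 0 := by
  intro h
  rw [x2S] at h
  exact yInf_ne_zero K 2 (by exact_mod_cast h2) (qExpand_injective m (by rw [h, map_zero]))

theorem x3S_ne_zero (K : Type*) [Field K] (h3 : (3 : K) ≠ 0) (m : ℕ) [NeZero m] :
    x3S K m ≠ 0 := by
  intro h
  rw [x3S] at h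
  exact tInf_ne_zero K h3 (qExpand_injective m (by rw [h, map_zero]))

/-! ### Membership in `K(J, J(q^p))` -/

section Mem

variable (K : Type*) [Field K]

theorem C_mem (S : IntermediateField K (LaurentSeries K)) (a : K) :
    (HahnSeries.C a : LaurentSeries K) ∈ S := by
  rw [HahnSeries.C_apply, ← algebraMap_laurentSeries_eq_single]
  exact S.algebraMap_mem a

theorem evK_mem (S : IntermediateField K (LaurentSeries K)) (hJ : jqModC K ∈ S)
    (Q : Polynomial K) : BaseCaseA.evK K Q ∈ S := by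
  rw [BaseCaseA.evK, evalAt_apply]
  refine S.sum_mem fun i _ => ?_
  exact S.mul_mem (C_mem K S _) (S.pow_mem hJ i)

theorem eval₂_evK_mem (S : IntermediateField K (LaurentSeries K)) (hJ : jqModC K ∈ S)
    {x : LaurentSeries K} (hx : x ∈ S) (P : Polynomial (Polynomial K)) :
    P.eval₂ (BaseCaseA.evK K) x ∈ S := by
  rw [Polynomial.eval₂_eq_sum_range]
  refine S.sum_mem fun i _ => ?_
  exact S.mul_mem (evK_mem K S hJ _) (S.pow_mem hx i)

/-- `y_p = p¹² Δ(q^p)/Δ(q) ∈ K(J, J(q^p))` (from `E5`, `E6`). -/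
theorem yInf_mem_adjoin {p : ℕ} [NeZero p] (D : ModEqData p) (hpK : (p : K) ≠ 0) :
    yInf K p ∈ IntermediateField.adjoin K {jqModC K, jqNModC K p} := by
  set S := IntermediateField.adjoin K {jqModC K, jqNModC K p} with hS
  have hJ : jqModC K ∈ S := IntermediateField.subset_adjoin K _ (Set.mem_insert _ _)
  have hJp : jqNModC K p ∈ S :=
    IntermediateField.subset_adjoin K _ (Set.mem_insert_of_mem _ (Set.mem_singleton _))
  have hJp' : coeffMap (Int.castRingHom K) (jqNModC ℤ p) = jqNModC K p :=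
    coeffMap_jqNModC (Int.castRingHom K) p
  have hy : coeffMap (Int.castRingHom K) (yInf ℤ p) = yInf K p := coeffMap_yInf _ p
  have hκ : ((D.κ : ℤ) : K) ≠ 0 := by
    intro h0
    have h2 : (((D.κ ^ 2 : ℤ)) : K) = 0 := by
      rw [Int.cast_pow, h0]; ring
    rw [D.κ_sq] at h2
    have h3 : ((p : K)) ^ 24 = 0 := by exact_mod_cast h2
    exact hpK (pow_eq_zero_iff (by norm_num) |>.mp h3)
  have E5 := congrArg (coeffMap (Int.castRingHom K)) D.E5
  rw [map_mul, map_mul, BaseCaseA.coeffMap_eval₂, BaseCaseA.coeffMap_eval₂, hy, hJp',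
    HahnSeries.C_apply, coeffMap_single] at E5
  have E6 := congrArg (Int.castRingHom K) D.E6
  rw [← coeffMap_coeff, BaseCaseA.coeffMap_eval₂, hJp', map_one] at E6
  set dΦ : LaurentSeries K :=
    ((Polynomial.derivative D.Φ).map (BaseCaseA.cK K)).eval₂ (BaseCaseA.evK K) (jqNModC K p)
    with hdΦ
  set sS : LaurentSeries K :=
    (D.S.map (BaseCaseA.cK K)).eval₂ (BaseCaseA.evK K) (jqNModC K p) with hsS
  have hdΦ0 : dΦ ≠ 0 := by
    intro h0
    rw [h0, HahnSeries.coeff_zero] at E6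
    exact zero_ne_one E6
  have hκC0 : HahnSeries.single (0 : ℤ) ((Int.castRingHom K) D.κ) ≠ 0 := by
    rw [Ne, HahnSeries.single_eq_zero_iff]
    exact hκ
  have hsS0 : sS ≠ 0 := by
    intro h0
    rw [h0, mul_zero] at E5
    exact mul_ne_zero hκC0 hdΦ0 E5.symm
  have hyeq : yInf K p = HahnSeries.single (0 : ℤ) ((Int.castRingHom K) D.κ) * dΦ / sS := by
    rw [← E5, mul_div_assoc, div_self hsS0, mul_one]
  rw [hyeq]
  refine S.div_mem (S.mul_mem ?_ (eval₂_evK_mem K S hJ hJp _)) (eval₂_evK_mem K S hJ hJp _)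
  rw [← HahnSeries.C_apply]
  exact C_mem K S _

theorem ofNat_coeff_zero (n : ℕ) [n.AtLeastTwo] :
    ((OfNat.ofNat n : LaurentSeries K)).coeff 0 = (OfNat.ofNat n : K) := by
  rw [← map_ofNat (HahnSeries.C : K →+* LaurentSeries K) n, HahnSeries.C_apply,
    HahnSeries.coeff_single_same]

/-- `t₃ ∈ K(J, J(q³))`. -/
theorem tInf_mem_adjoin (D : ModEqData 3) (h3 : (3 : K) ≠ 0) :
    tInf K ∈ IntermediateField.adjoin K {jqModC K, jqNModC K 3} := by
  set S := IntermediateField.adjoin K {jqModC K, jqNModC K 3} with hS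
  have hJp : jqNModC K 3 ∈ S :=
    IntermediateField.subset_adjoin K _ (Set.mem_insert_of_mem _ (Set.mem_singleton _))
  have hs : yInf K 3 ∈ S := yInf_mem_adjoin K D (by exact_mod_cast h3)
  have hrel := level3_laurent K
  have hsq := tInf_sq K
  set t := tInf K with ht
  set s := yInf K 3 with hs'
  have hnum : ∀ (n : ℕ) [n.AtLeastTwo], (OfNat.ofNat n : LaurentSeries K) ∈ S := fun n _ => by
    rw [← map_ofNat (algebraMap K (LaurentSeries K)) n]
    exact S.algebraMap_mem _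
  have hDn : jqNModC K 3 * s - 756 * s - 19131876 ∈ S :=
    S.sub_mem (S.sub_mem (S.mul_mem hJp hs) (S.mul_mem (hnum 756) hs)) (hnum 19131876)
  have hRr : s ^ 2 + 196830 * s + 387420489 ∈ S :=
    S.add_mem (S.add_mem (S.pow_mem hs 2) (S.mul_mem (hnum 196830) hs)) (hnum 387420489)
  have hkey : t * (jqNModC K 3 * s - 756 * s - 19131876) = s ^ 2 + 196830 * s + 387420489 := by
    rw [← hsq]
    linear_combination hrel
  have hRr0 : s ^ 2 + 196830 * s + 387420489 ≠ 0 := by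
    intro h0
    have hc := congrArg (fun f : LaurentSeries K => f.coeff 0) h0
    simp only [HahnSeries.coeff_add, HahnSeries.coeff_zero] at hc
    have hl := isLead_yInf K 3
    have h1 : (s ^ 2).coeff 0 = 0 := (hl.pow 2).coeff_lt (by norm_num)
    have h2 : ((196830 : LaurentSeries K) * s).coeff 0 = 0 := by
      have := (hl.C_mul (196830 : K)).coeff_lt (k := 0) (by norm_num)
      rwa [map_ofNat] at this
    rw [h1, h2, ofNat_coeff_zero] at hc
    have h18 : (387420489 : K) = 3 ^ 18 := by norm_num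
    rw [h18, zero_add, zero_add] at hc
    exact pow_ne_zero 18 h3 hc
  have hDn0 : jqNModC K 3 * s - 756 * s - 19131876 ≠ 0 := by
    intro h0
    rw [h0, mul_zero] at hkey
    exact hRr0 hkey.symm
  have hteq : t = (s ^ 2 + 196830 * s + 387420489) / (jqNModC K 3 * s - 756 * s - 19131876) := by
    rw [← hkey, mul_div_assoc, div_self hDn0, mul_one]
  rw [hteq]
  exact S.div_mem hRr hDn

end Mem

/-! ### Membership in `L·F_M` -/

theorem adjoin_jq_le_full (p : ℕ) [NeZero p] :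
    IntermediateField.adjoin ℚ {jqModC ℚ, jqNModC ℚ p} ≤ modularFunctionFieldFull p := by
  rw [IntermediateField.adjoin_le_iff]
  rintro x (rfl | rfl)
  · have h := jqd_mem_full p (one_dvd p)
    rwa [qExpand_one_apply] at h
  · exact jqd_mem_full p dvd_rfl

/-- `x2S L m ∈ L·F_M` for `M = m * 2`. -/
theorem x2S_mem (L : Type*) [Field L] [Algebra ℚ L] (M m : ℕ) [NeZero m] (hM : M = m * 2) :
    x2S L m ∈ laurentBaseChange L (modularFunctionFieldFull M) := by
  obtain ⟨D⟩ := ModEqX.exists_modEqData 2 Nat.prime_two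
  have h1 : yInf ℚ 2 ∈ modularFunctionFieldFull 2 :=
    adjoin_jq_le_full 2 (yInf_mem_adjoin ℚ D (by norm_num))
  have h2 : x2S ℚ m ∈ modularFunctionFieldFull (2 * m) :=
    full_degeneracy_map_le (N := 2) m ⟨yInf ℚ 2, h1, rfl⟩
  rw [hM, mul_comm, ← coeffMap_x2S (algebraMap ℚ L) m]
  exact coeffEmb_mem_laurentBaseChange L h2

/-- `x3S L m ∈ L·F_M` for `M = m * 3`. -/
theorem x3S_mem (L : Type*) [Field L] [Algebra ℚ L] (M m : ℕ) [NeZero m] (hM : M = m * 3) :
    x3S L m ∈ laurentBaseChange L (modularFunctionFieldFull M) := by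
  obtain ⟨D⟩ := ModEqX.exists_modEqData 3 Nat.prime_three
  have h1 : tInf ℚ ∈ modularFunctionFieldFull 3 :=
    adjoin_jq_le_full 3 (tInf_mem_adjoin ℚ D (by norm_num))
  have h2 : x3S ℚ m ∈ modularFunctionFieldFull (3 * m) :=
    full_degeneracy_map_le (N := 3) m ⟨tInf ℚ, h1, rfl⟩
  rw [hM, mul_comm, ← coeffMap_x3S (algebraMap ℚ L) m]
  exact coeffEmb_mem_laurentBaseChange L h2

/-! ### `J(q^M) ∈ K(x)` and transcendence -/

section Transc

variable (K : Type*) [Field K]

/-- `J(q^e)` is transcendental over the constants. -/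
theorem Jd_eval₂_eq_zero_of {e : ℕ} (he : e ≠ 0) (p : Polynomial K)
    (h : p.eval₂ (HahnSeries.C : K →+* LaurentSeries K) (TD.Jd K e) = 0) : p = 0 := by
  have : NeZero e := ⟨he⟩
  rw [TD.Jd_eq K e] at h
  have h1 : qExpand K e (p.eval₂ (HahnSeries.C : K →+* LaurentSeries K) (jqModC K)) = 0 := by
    rw [Polynomial.hom_eval₂]
    have hc : (qExpand K e).comp (HahnSeries.C : K →+* LaurentSeries K) = HahnSeries.C := by
      ext c : 1
      exact qExpand_C e c
    rw [hc]
    exact h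
  have h2 : p.eval₂ (HahnSeries.C : K →+* LaurentSeries K) (jqModC K) = 0 :=
    qExpand_injective e (by rw [h1, map_zero])
  exact GaussBase.eq_zero_of_eval₂_jqModC K p h2

theorem ofNat_mem_adjoin (S : IntermediateField K (LaurentSeries K)) (n : ℕ) [n.AtLeastTwo] :
    (OfNat.ofNat n : LaurentSeries K) ∈ S := by
  rw [← map_ofNat (algebraMap K (LaurentSeries K)) n]
  exact S.algebraMap_mem _

/-- `J(q^(2m)) ∈ K(x)` for `x = x2S K m`. -/
theorem Jd_mem_adjoin_x2S (h2 : (2 : K) ≠ 0) (m : ℕ) [NeZero m] :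
    TD.Jd K (m * 2) ∈ IntermediateField.adjoin K {x2S K m} := by
  have hx := x2S_ne_zero K h2 m
  have hrel := x2S_rel K m
  have hxm : x2S K m ∈ IntermediateField.adjoin K {x2S K m} :=
    IntermediateField.mem_adjoin_simple_self K _
  have heq : TD.Jd K (m * 2) = (x2S K m + 256) ^ 3 / x2S K m ^ 2 := by
    rw [← hrel, mul_div_assoc, div_self (pow_ne_zero 2 hx), mul_one]
  rw [heq]
  exact div_mem (pow_mem (add_mem hxm (ofNat_mem_adjoin K _ 256)) 3) (pow_mem hxm 2)

/-- `J(q^(3m)) ∈ K(x)` for `x = x3S K m`. -/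
theorem Jd_mem_adjoin_x3S (h3 : (3 : K) ≠ 0) (m : ℕ) [NeZero m] :
    TD.Jd K (m * 3) ∈ IntermediateField.adjoin K {x3S K m} := by
  have hx := x3S_ne_zero K h3 m
  have hrel := x3S_rel K m
  have hxm : x3S K m ∈ IntermediateField.adjoin K {x3S K m} :=
    IntermediateField.mem_adjoin_simple_self K _
  have heq : TD.Jd K (m * 3) = (x3S K m + 27) * (x3S K m + 243) ^ 3 / x3S K m ^ 3 := by
    rw [← hrel, mul_div_assoc, div_self (pow_ne_zero 3 hx), mul_one]
  rw [heq]
  exact div_mem (mul_mem (add_mem hxm (ofNat_mem_adjoin K _ 27))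
    (pow_mem (add_mem hxm (ofNat_mem_adjoin K _ 243)) 3)) (pow_mem hxm 3)

/-- If `J(q^e) ∈ K(x)` then `x` is transcendental over `K` (in the `eval₂` form). -/
theorem eval₂_eq_zero_of_Jd_mem {e : ℕ} (he : e ≠ 0) {x : LaurentSeries K}
    (hJ : TD.Jd K e ∈ IntermediateField.adjoin K {x}) (p : Polynomial K)
    (h : p.eval₂ (HahnSeries.C : K →+* LaurentSeries K) x = 0) : p = 0 := by
  by_contra hp
  have hC : (HahnSeries.C : K →+* LaurentSeries K) = algebraMap K (LaurentSeries K) := by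
    ext c : 1
    rw [HahnSeries.C_apply, ← algebraMap_laurentSeries_eq_single]
  have halg : IsAlgebraic K x := ⟨p, hp, by rw [Polynomial.aeval_def, ← hC]; exact h⟩
  have hA : Algebra.IsAlgebraic K (IntermediateField.adjoin K {x}) :=
    IntermediateField.isAlgebraic_adjoin_simple halg.isIntegral
  have hJalg : IsAlgebraic K (TD.Jd K e) := by
    have h1 : IsAlgebraic K (⟨TD.Jd K e, hJ⟩ : IntermediateField.adjoin K {x}) :=
      hA.isAlgebraic _
    exact IntermediateField.isAlgebraic_iff.mp h1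
  obtain ⟨q, hq0, hq⟩ := hJalg
  rw [Polynomial.aeval_def, ← hC] at hq
  exact hq0 (Jd_eval₂_eq_zero_of K he q hq)

/-- `x2S K m` is transcendental over `K` (`2 ≠ 0` in `K`). -/
theorem x2S_transcendental (h2 : (2 : K) ≠ 0) (m : ℕ) [NeZero m] (p : Polynomial K)
    (h : p.eval₂ (HahnSeries.C : K →+* LaurentSeries K) (x2S K m) = 0) : p = 0 :=
  eval₂_eq_zero_of_Jd_mem K (Nat.mul_ne_zero (NeZero.ne m) two_ne_zero)
    (Jd_mem_adjoin_x2S K h2 m) p h

/-- `x3S K m` is transcendental over `K` (`3 ≠ 0` in `K`). -/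
theorem x3S_transcendental (h3 : (3 : K) ≠ 0) (m : ℕ) [NeZero m] (p : Polynomial K)
    (h : p.eval₂ (HahnSeries.C : K →+* LaurentSeries K) (x3S K m) = 0) : p = 0 :=
  eval₂_eq_zero_of_Jd_mem K (Nat.mul_ne_zero (NeZero.ne m) three_ne_zero)
    (Jd_mem_adjoin_x3S K h3 m) p h

end Transc

end

end Fermat.Agent.Lib.Red.HauptBase
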