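/-
ESJ / RED-23 (helper41): the base-function data of the Hauptmoduln of level 2 and 3.

For `M = m * 2` and `2 ≠ 0` in `k` (i.e. `ℓ ≠ 2`; used for `ℓ = 3`):
`ofHaupt2 A π M m hM h2 : BaseFn.Data A π M` with base series `X = y₂(q^m)`.
For `M = m * 3` and `3 ≠ 0` in `k` (used for `ℓ = 2`):
`ofHaupt3 A π M m hM h3 : BaseFn.Data A π M` with base series `X = t₃(q^m)`.

On top of helper29's `Lib/Red/HauptBase.lean` (series, relations, membership, transcendence).
Hence (by `Lib/Red/BaseData.lean`): good bases of `L·F_M` over `L(x)`, the degree equality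
`[L·F_M : L(x)] = [F̃_M : k(x̄)]`, etc. for these base functions.
-/
import Mathlib
import Fermat.Agent.Lib.Red.BaseData
import Fermat.Agent.Lib.Red.HauptBase

set_option autoImplicit false
set_option linter.unusedSectionVars false

namespace Fermat.Agent.Lib.Red.BaseFn

open HahnSeries ModularCurve Polynomial AlgebraicCurve Fermat.Agent.S28 IntermediateField
open Fermat.Agent.Lib.Red Fermat.Agent.Lib.Red.HauptBase

noncomputable section

variable {L : Type*} [Field L] [Algebra ℚ L] (A : ValuationSubring L) {k : Type} [Field k]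
  (π : A →+* k)

theorem two_ne_zero_of_algebraRat : (2 : L) ≠ 0 := by
  have : CharZero L := charZero_of_injective_algebraMap (algebraMap ℚ L).injective
  exact two_ne_zero

theorem three_ne_zero_of_algebraRat : (3 : L) ≠ 0 := by
  have : CharZero L := charZero_of_injective_algebraMap (algebraMap ℚ L).injective
  exact three_ne_zero

/-- The base-function data of `x = y₂(q^m)` at level `M = m * 2` (residue characteristic
`≠ 2`). -/
def ofHaupt2 (M m : ℕ) [NeZero m] (hM : M = m * 2) (h2 : (2 : k) ≠ 0) : Data A π M where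
  X := x2S A m
  hX := by
    have h := x2S_mem L M m hM
    rwa [← coeffMap_x2S A.subtype m] at h
  htr := by
    intro p hp
    have e : rbar A π (x2S A m) = x2S k m := coeffMap_x2S π m
    rw [e] at hp
    exact x2S_transcendental k h2 m p hp
  hJL := by
    have e : incl A (x2S A m) = x2S L m := coeffMap_x2S A.subtype m
    rw [e, hM]
    exact Jd_mem_adjoin_x2S L two_ne_zero_of_algebraRat m
  hJk := by
    have e : rbar A π (x2S A m) = x2S k m := coeffMap_x2S π m
    rw [e, hM]
    exact Jd_mem_adjoin_x2S k h2 m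

/-- The base-function data of `x = t₃(q^m)` at level `M = m * 3` (residue characteristic
`≠ 3`). -/
def ofHaupt3 (M m : ℕ) [NeZero m] (hM : M = m * 3) (h3 : (3 : k) ≠ 0) : Data A π M where
  X := x3S A m
  hX := by
    have h := x3S_mem L M m hM
    rwa [← coeffMap_x3S A.subtype m] at h
  htr := by
    intro p hp
    have e : rbar A π (x3S A m) = x3S k m := coeffMap_x3S π m
    rw [e] at hp
    exact x3S_transcendental k h3 m p hp
  hJL := by
    have e : incl A (x3S A m) = x3S L m := coeffMap_x3S A.subtype m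
    rw [e, hM]
    exact Jd_mem_adjoin_x3S L three_ne_zero_of_algebraRat m
  hJk := by
    have e : rbar A π (x3S A m) = x3S k m := coeffMap_x3S π m
    rw [e, hM]
    exact Jd_mem_adjoin_x3S k h3 m

variable {A π}

@[simp] theorem ofHaupt2_X (M m : ℕ) [NeZero m] (hM : M = m * 2) (h2 : (2 : k) ≠ 0) :
    (ofHaupt2 A π M m hM h2).X = x2S A m := rfl

@[simp] theorem ofHaupt3_X (M m : ℕ) [NeZero m] (hM : M = m * 3) (h3 : (3 : k) ≠ 0) :
    (ofHaupt3 A π M m hM h3).X = x3S A m := rfl

/-- The base function of `ofHaupt2`, as a series over `L`. -/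
theorem coe_ofHaupt2_x (M m : ℕ) [NeZero m] (hM : M = m * 2) (h2 : (2 : k) ≠ 0) :
    (((ofHaupt2 A π M m hM h2).x : ↥(laurentBaseChange L (modularFunctionFieldFull M))) :
      LaurentSeries L) = x2S L m :=
  coeffMap_x2S A.subtype m

/-- The base function of `ofHaupt3`, as a series over `L`. -/
theorem coe_ofHaupt3_x (M m : ℕ) [NeZero m] (hM : M = m * 3) (h3 : (3 : k) ≠ 0) :
    (((ofHaupt3 A π M m hM h3).x : ↥(laurentBaseChange L (modularFunctionFieldFull M))) :
      LaurentSeries L) = x3S L m :=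
  coeffMap_x3S A.subtype m

/-- The relation `J_M · x² = (x + 256)³` in `L·F_M`. -/
theorem ofHaupt2_rel (M m : ℕ) [NeZero M] [NeZero m] (hM : M = m * 2) (h2 : (2 : k) ≠ 0) :
    xL L M * (ofHaupt2 A π M m hM h2).x ^ 2 = ((ofHaupt2 A π M m hM h2).x + 256) ^ 3 := by
  apply Subtype.ext
  have h := x2S_rel L m
  rw [← hM] at h
  have e := coe_ofHaupt2_x (A := A) (π := π) M m hM h2
  show TD.Jd L M * ((ofHaupt2 A π M m hM h2).x : LaurentSeries L) ^ 2 =
    (((ofHaupt2 A π M m hM h2).x : LaurentSeries L) + 256) ^ 3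
  rw [e]
  exact h

/-- The relation `J_M · x³ = (x + 27)(x + 243)³` in `L·F_M`. -/
theorem ofHaupt3_rel (M m : ℕ) [NeZero M] [NeZero m] (hM : M = m * 3) (h3 : (3 : k) ≠ 0) :
    xL L M * (ofHaupt3 A π M m hM h3).x ^ 3 =
      ((ofHaupt3 A π M m hM h3).x + 27) * ((ofHaupt3 A π M m hM h3).x + 243) ^ 3 := by
  apply Subtype.ext
  have h := x3S_rel L m
  rw [← hM] at h
  have e := coe_ofHaupt3_x (A := A) (π := π) M m hM h3
  show TD.Jd L M * ((ofHaupt3 A π M m hM h3).x : LaurentSeries L) ^ 3 =
    (((ofHaupt3 A π M m hM h3).x : LaurentSeries L) + 27) *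
      (((ofHaupt3 A π M m hM h3).x : LaurentSeries L) + 243) ^ 3
  rw [e]
  exact h

end

end Fermat.Agent.Lib.Red.BaseFn
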