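/-
ESJ / RED (bridge): the base function `xL (AlgebraicClosure ℚ) N` of the RED layer is the function
`J_N = jFormal N ⟨N, dvd_rfl⟩` of S24, so that the branch data of `S24/FrickeBranch.lean`
(RED-BRANCH) apply verbatim to `xL`:

* `xL_eq_jFormal` : `xL ℚ̄ N = J_N`;
* `ord_xL_sub_generic` : `F / ℚ̄(x)` is unramified over every `c ∉ {0, 1728}`;
* `ord_xL_sub_1728`, `ord_xL_sub_zero` : the indices over `1728` are `1, 2`, over `0` are `1, 3`;
* `neg_ord_xL_dvd` : the pole orders of `x` divide `N`;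
* `finrank_xL`, `card_placesOver_xL_generic`, `card_placesOver_xL_1728`,
  `card_placesOver_xL_zero`, `card_polesOf_xL` : the degree and the cardinalities of the fibres.
-/
import Mathlib
import Fermat.Agent.Lib.Red.Basis
import Fermat.Agent.S24.FrickeBranch

set_option autoImplicit false

namespace Fermat.Agent.Lib.Red.BranchInst

open ModularCurve AlgebraicCurve Fermat.Agent.S28 Fermat.Agent.S24 CongruenceSubgroup
open scoped MatrixGroups IntermediateField

noncomputable section

variable (N : ℕ) [NeZero N]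

/-- **Bridge.** `xL ℚ̄ N = J_N`. -/
theorem xL_eq_jFormal : xL KQ N = jFormal N ⟨N, dvd_rfl⟩ := by
  apply Subtype.ext
  show TD.Jd KQ N = coeffEmb KQ (qExpand ℚ N jq)
  rw [← TD.Jd_rat N, coeffEmb, TD.coeffMap_Jd]

/-- `F / ℚ̄(x)` is unramified over every `c ∉ {0, 1728}`. -/
theorem ord_xL_sub_generic (c : KQ) (hc0 : c ≠ 0) (hc1 : c ≠ 1728)
    (v : Place KQ ↥(laurentBaseChange KQ (modularFunctionFieldFull N)))
    (hv : 0 < v.ord (xL KQ N - algebraMap KQ _ c)) :
    v.ord (xL KQ N - algebraMap KQ _ c) = 1 := by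
  rw [xL_eq_jFormal] at hv ⊢
  exact ord_JN_sub_generic N c hc0 hc1 v hv

/-- Over `x = 1728` the ramification index is `1` or `2`. -/
theorem ord_xL_sub_1728 (v : Place KQ ↥(laurentBaseChange KQ (modularFunctionFieldFull N)))
    (hv : 0 < v.ord (xL KQ N - algebraMap KQ _ 1728)) :
    v.ord (xL KQ N - algebraMap KQ _ 1728) = 1 ∨ v.ord (xL KQ N - algebraMap KQ _ 1728) = 2 := by
  rw [xL_eq_jFormal] at hv ⊢
  exact ord_JN_sub_1728 N v hv

/-- Over `x = 0` the ramification index is `1` or `3`. -/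
theorem ord_xL_sub_zero (v : Place KQ ↥(laurentBaseChange KQ (modularFunctionFieldFull N)))
    (hv : 0 < v.ord (xL KQ N - algebraMap KQ _ 0)) :
    v.ord (xL KQ N - algebraMap KQ _ 0) = 1 ∨ v.ord (xL KQ N - algebraMap KQ _ 0) = 3 := by
  rw [xL_eq_jFormal] at hv ⊢
  exact ord_JN_sub_zero N v hv

/-- The pole order of `x` at a place divides `N`. -/
theorem neg_ord_xL_dvd (v : Place KQ ↥(laurentBaseChange KQ (modularFunctionFieldFull N)))
    (hv : v.ord (xL KQ N) < 0) : -v.ord (xL KQ N) ∣ (N : ℤ) := by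
  rw [xL_eq_jFormal] at hv ⊢
  exact neg_ord_JN_dvd N v hv

/-- `[F : ℚ̄(x)] = [SL₂(ℤ) : Γ₀(N)]`. -/
theorem finrank_xL :
    Module.finrank KQ⟮xL KQ N⟯ ↥(laurentBaseChange KQ (modularFunctionFieldFull N)) =
      Nat.card (XN N) := by
  rw [xL_eq_jFormal]
  exact finrank_JN N

/-- The generic fibre of `x`. -/
theorem card_placesOver_xL_generic (c : KQ) (hc0 : c ≠ 0) (hc1 : c ≠ 1728) :
    Nat.card (placesOver (K := KQ) (xL KQ N) c) = Nat.card (XN N) := by
  rw [xL_eq_jFormal]
  exact card_placesOver_JN_generic N c hc0 hc1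

/-- The fibre of `x` over `1728`. -/
theorem card_placesOver_xL_1728 :
    Nat.card (placesOver (K := KQ) (xL KQ N) 1728) =
      Nat.card (MulAction.orbitRel.Quotient (Subgroup.zpowers ModularGroup.S) (XN N)) := by
  rw [xL_eq_jFormal]
  exact card_placesOver_JN_1728 N

/-- The fibre of `x` over `0`. -/
theorem card_placesOver_xL_zero :
    Nat.card (placesOver (K := KQ) (xL KQ N) 0) =
      Nat.card (MulAction.orbitRel.Quotient
        (Subgroup.zpowers (ModularGroup.S * ModularGroup.T)) (XN N)) := by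
  rw [xL_eq_jFormal]
  exact card_placesOver_JN_zero N

/-- The poles of `x`. -/
theorem card_polesOf_xL :
    Nat.card (polesOf KQ (xL KQ N)) =
      Nat.card (MulAction.orbitRel.Quotient (Subgroup.zpowers ModularGroup.T) (XN N)) := by
  rw [xL_eq_jFormal]
  exact card_polesOf_JN N

end

end Fermat.Agent.Lib.Red.BranchInst
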