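import Mathlib
import Fermat.Agent.S24.PlaceBasic

/-!
# RED: branch data in the chart at infinity

Generic lemmas (any field `F` over `K` with the Prelude's places) transporting the branch data of
a base function `x` to the chart `t = x⁻¹`:

* `ord_inv_sub` : at a zero `P` of `x⁻¹ - c` (`c ≠ 0`): `ord_P x = 0` and
  `ord_P (x⁻¹ - c) = ord_P (x - c⁻¹)`;
* `ord_inv_sub_eq_one` : if `x - c⁻¹` has only simple zeros then so has `x⁻¹ - c`;
* `branch_inv` : the Finset form — branch data `Bv` for `x` gives branch data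
  `insert 0 (Bv.image (·⁻¹))` for `x⁻¹`;
* `ord_inv_eq` : zeros of `x⁻¹` are the poles of `x`.
-/

set_option autoImplicit false

namespace Fermat.Agent.Lib.Red.ChartInf

open AlgebraicCurve

variable {K F : Type*} [Field K] [Field F] [Algebra K F]

/-- The order of a nonzero constant multiple. -/
theorem ord_const_mul (P : Place K F) {a : K} (ha : a ≠ 0) {f : F} (hf : f ≠ 0) :
    P.ord (algebraMap K F a * f) = P.ord f := by
  have ha' : algebraMap K F a ≠ 0 := by
    rw [Ne, map_eq_zero]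
    exact ha
  rw [P.ord_mul ha' hf, Fermat.Agent.S24.ord_algebraMap, zero_add]

/-- Zeros of `x⁻¹` are poles of `x`. -/
theorem ord_inv_eq (P : Place K F) (x : F) : P.ord x⁻¹ = -P.ord x := P.ord_inv x

/-- At a zero `P` of `x⁻¹ - c`, `c ≠ 0`: `x` is a unit at `P` and
`ord_P (x⁻¹ - c) = ord_P (x - c⁻¹)`. -/
theorem ord_inv_sub (P : Place K F) {x : F} (hx : x ≠ 0) {c : K} (hc : c ≠ 0)
    (hP : 0 < P.ord (x⁻¹ - algebraMap K F c)) :
    P.ord x = 0 ∧ P.ord (x⁻¹ - algebraMap K F c) = P.ord (x - algebraMap K F c⁻¹) := by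
  have hc' : algebraMap K F c ≠ 0 := by
    rw [Ne, map_eq_zero]
    exact hc
  have hd : x⁻¹ - algebraMap K F c ≠ 0 := by
    intro h
    rw [h, Place.ord_zero] at hP
    exact lt_irrefl _ hP
  -- `x⁻¹ = (x⁻¹ - c) + c` is a unit at `P`
  have hxinv : P.ord x⁻¹ = 0 := by
    have h1 : x⁻¹ ∈ P.toValuationSubring := by
      have h2 : x⁻¹ = (x⁻¹ - algebraMap K F c) + algebraMap K F c := by ring
      rw [h2]
      exact P.toValuationSubring.add_mem _ _ (Fermat.Agent.S24.mem_of_ord_nonneg P hP.le)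
        (P.algebraMap_mem' c)
    have h3 : 0 ≤ P.ord x⁻¹ := Fermat.Agent.S24.ord_nonneg_of_mem P h1
    by_contra hne
    have hpos : 0 < P.ord x⁻¹ := lt_of_le_of_ne h3 (Ne.symm hne)
    -- then `c = x⁻¹ - (x⁻¹ - c)` would have positive order
    have h4 : algebraMap K F c = x⁻¹ - (x⁻¹ - algebraMap K F c) := by ring
    have h5 := Fermat.Agent.S24.ord_sub_ge P (inv_ne_zero hx) hd (by rw [← h4]; exact hc')
    rw [← h4, Fermat.Agent.S24.ord_algebraMap] at h5
    have h6 : 0 < min (P.ord x⁻¹) (P.ord (x⁻¹ - algebraMap K F c)) := lt_min hpos hP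
    omega
  have hx0 : P.ord x = 0 := by
    rw [P.ord_inv] at hxinv
    omega
  refine ⟨hx0, ?_⟩
  have hd' : x - algebraMap K F c⁻¹ ≠ 0 := by
    intro h
    apply hd
    have hx' : x = algebraMap K F c⁻¹ := sub_eq_zero.mp h
    rw [hx', map_inv₀, inv_inv, sub_self]
  have hfac : x⁻¹ - algebraMap K F c =
      algebraMap K F (-c) * ((x - algebraMap K F c⁻¹) * x⁻¹) := by
    rw [map_neg, map_inv₀]
    field_simp
    ring
  rw [hfac, ord_const_mul P (neg_ne_zero.mpr hc) (mul_ne_zero hd' (inv_ne_zero hx)),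
    P.ord_mul hd' (inv_ne_zero hx), hxinv, add_zero]

/-- If `x - c⁻¹` has only simple zeros, so has `x⁻¹ - c` (`c ≠ 0`). -/
theorem ord_inv_sub_eq_one {x : F} (hx : x ≠ 0) {c : K} (hc : c ≠ 0)
    (h : ∀ P : Place K F, 0 < P.ord (x - algebraMap K F c⁻¹) →
      P.ord (x - algebraMap K F c⁻¹) = 1)
    (P : Place K F) (hP : 0 < P.ord (x⁻¹ - algebraMap K F c)) :
    P.ord (x⁻¹ - algebraMap K F c) = 1 := by
  obtain ⟨-, h2⟩ := ord_inv_sub P hx hc hP
  rw [h2]
  exact h P (by rw [← h2]; exact hP)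

/-- **Branch data in the chart at infinity.**  If `x - c` has only simple zeros for `c ∉ Bv`,
then `x⁻¹ - c` has only simple zeros for `c ∉ insert 0 (Bv.image (·⁻¹))`. -/
theorem branch_inv [DecidableEq K] {x : F} (hx : x ≠ 0) (Bv : Finset K)
    (h : ∀ c : K, c ∉ Bv → ∀ P : Place K F, 0 < P.ord (x - algebraMap K F c) →
      P.ord (x - algebraMap K F c) = 1)
    (c : K) (hc : c ∉ insert 0 (Bv.image (fun b => b⁻¹))) (P : Place K F)
    (hP : 0 < P.ord (x⁻¹ - algebraMap K F c)) :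
    P.ord (x⁻¹ - algebraMap K F c) = 1 := by
  rw [Finset.mem_insert, not_or] at hc
  obtain ⟨hc0, hc1⟩ := hc
  refine ord_inv_sub_eq_one hx hc0 (h c⁻¹ ?_) P hP
  intro hmem
  apply hc1
  rw [Finset.mem_image]
  exact ⟨c⁻¹, hmem, inv_inv c⟩

end Fermat.Agent.Lib.Red.ChartInf
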