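/-
RED-23 (ℓ = 2, 3), char-0 package, part 7: the Hauptmodul base functions as elements of
`F_M = ℚ̄·F_M` (S24 vocabulary) and their branch data.

For `M = m * 2`:  `x2 M m hM : FN M`  (series `x2S ℚ̄ m = y₂(q^m)`), with
  `x2_rel : J_M * x2 ^ 2 = (x2 + 256) ^ 3`,
  `ord_x2_sub_eq_one` : for `c ∉ {0, -64}` every zero of `x2 - c` is simple,
  `transcendental_x2`.
For `M = m * 3`:  `x3 M m hM : FN M`  (series `x3S ℚ̄ m = t₃(q^m)`), with
  `x3_rel : J_M * x3 ^ 3 = (x3 + 27) * (x3 + 243) ^ 3`,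
  `ord_x3_sub_eq_one` : for `c ∉ {0, -27}` every zero of `x3 - c` is simple,
  `transcendental_x3`.
-/
import Mathlib
import Fermat.Agent.S24.HauptBranch
import Fermat.Agent.Lib.Red.HauptBase

set_option autoImplicit false

namespace Fermat.Agent.Lib.Red.HauptPlaces

open ModularCurve HahnSeries Polynomial AlgebraicCurve Fermat.Agent.S24 Fermat.Agent.S28
open Fermat.Agent.Lib.Red.HauptBase

noncomputable section

variable (M m : ℕ) [NeZero M] [NeZero m]

/-- The series of `J_M = J(q^M) ∈ F_M`. -/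
theorem coe_jFormal_self :
    ((jFormal M ⟨M, dvd_rfl⟩ : FN M) : LaurentSeries KQ) = TD.Jd KQ M := by
  show coeffEmb KQ (qExpand ℚ M jq) = TD.Jd KQ M
  rw [← TD.Jd_rat M]
  exact TD.coeffMap_Jd (algebraMap ℚ KQ) M

/-- `x₂ = y₂(q^m) ∈ F_M`, `M = m * 2`. -/
def x2 (hM : M = m * 2) : FN M := ⟨x2S KQ m, x2S_mem KQ M m hM⟩

/-- `x₃ = t₃(q^m) ∈ F_M`, `M = m * 3`. -/
def x3 (hM : M = m * 3) : FN M := ⟨x3S KQ m, x3S_mem KQ M m hM⟩

@[simp] theorem coe_x2 (hM : M = m * 2) : ((x2 M m hM : FN M) : LaurentSeries KQ) = x2S KQ m := rfl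

@[simp] theorem coe_x3 (hM : M = m * 3) : ((x3 M m hM : FN M) : LaurentSeries KQ) = x3S KQ m := rfl

/-- `J_M * x₂² = (x₂ + 256)³` in `F_M`. -/
theorem x2_rel (hM : M = m * 2) :
    jFormal M ⟨M, dvd_rfl⟩ * x2 M m hM ^ 2 = (x2 M m hM + 256) ^ 3 := by
  apply Subtype.ext
  have h := x2S_rel KQ m
  rw [← hM] at h
  push_cast
  rw [coe_jFormal_self, coe_x2]
  exact h

/-- `J_M * x₃³ = (x₃ + 27)(x₃ + 243)³` in `F_M`. -/
theorem x3_rel (hM : M = m * 3) :
    jFormal M ⟨M, dvd_rfl⟩ * x3 M m hM ^ 3 = (x3 M m hM + 27) * (x3 M m hM + 243) ^ 3 := by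
  apply Subtype.ext
  have h := x3S_rel KQ m
  rw [← hM] at h
  push_cast
  rw [coe_jFormal_self, coe_x3]
  exact h

/-- **Branch data of `x₂`**: `F_M / ℚ̄(x₂)` is unramified over every `c ∉ {0, -64}`. -/
theorem ord_x2_sub_eq_one (hM : M = m * 2) (c : KQ) (hc0 : c ≠ 0) (hc1 : c ≠ -64)
    (v : Place KQ (FN M)) (hv : 0 < v.ord (x2 M m hM - algebraMap KQ (FN M) c)) :
    v.ord (x2 M m hM - algebraMap KQ (FN M) c) = 1 :=
  HauptBranch.ord_sub_eq_one_two M (x2_rel M m hM) c hc0 hc1 v hv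

/-- **Branch data of `x₃`**: `F_M / ℚ̄(x₃)` is unramified over every `c ∉ {0, -27}`. -/
theorem ord_x3_sub_eq_one (hM : M = m * 3) (c : KQ) (hc0 : c ≠ 0) (hc1 : c ≠ -27)
    (v : Place KQ (FN M)) (hv : 0 < v.ord (x3 M m hM - algebraMap KQ (FN M) c)) :
    v.ord (x3 M m hM - algebraMap KQ (FN M) c) = 1 :=
  HauptBranch.ord_sub_eq_one_three M (x3_rel M m hM) c hc0 hc1 v hv

/-- transcendence of an element of `F_M` from that of its series -/
theorem transcendental_of_series (x : FN M)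
    (h : ∀ p : Polynomial KQ,
      p.eval₂ (HahnSeries.C : KQ →+* LaurentSeries KQ) (x : LaurentSeries KQ) = 0 → p = 0) :
    Transcendental KQ x := by
  intro halg
  obtain ⟨p, hp0, hp⟩ := halg
  apply hp0
  apply h
  have hC : (HahnSeries.C : KQ →+* LaurentSeries KQ) = algebraMap KQ (LaurentSeries KQ) := by
    ext c : 1
    rw [HahnSeries.C_apply, ← algebraMap_laurentSeries_eq_single]
  have h1 : ((Polynomial.aeval x p : FN M) : LaurentSeries KQ) = ((0 : FN M) : LaurentSeries KQ) :=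
    congrArg (fun y : FN M => (y : LaurentSeries KQ)) hp
  rw [hC, ← Polynomial.aeval_def]
  have h2 : ((Polynomial.aeval x p : FN M) : LaurentSeries KQ) =
      Polynomial.aeval (x : LaurentSeries KQ) p :=
    (Polynomial.aeval_algHom_apply (modularFunctionFieldBar M).val x p).symm
  rw [← h2, h1]
  rfl

theorem transcendental_x2 (hM : M = m * 2) : Transcendental KQ (x2 M m hM) :=
  transcendental_of_series M _ (x2S_transcendental KQ two_ne_zero m)

theorem transcendental_x3 (hM : M = m * 3) : Transcendental KQ (x3 M m hM) :=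
  transcendental_of_series M _ (x3S_transcendental KQ three_ne_zero m)

end

end Fermat.Agent.Lib.Red.HauptPlaces
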