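/-
ESJ / RED: hypothesis (H) of the discriminant count ("at most one lift of every residue value is
a branch value"), in the place form consumed by `lift_regular`:

  `∀ γ : k, ∃ c₀ : A, π c₀ = γ ∧ ∀ c : A, π c = γ → c ≠ c₀ →
      ∀ P, 0 < P.ord (x - c) → P.ord (x - c) = 1`

for both charts `x` and `x⁻¹`.

* generic: `hbr_of_branch`, `hbr_inv_of_branch` (Finset of branch values on which `π` is
  injective), `hbr_pair`, `hbr_pair_inv` (branch values `{0, b}`, `π b ≠ 0`);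
* instances over `ℚ̄`: `hbr_xL`, `hbr_xL_inv` (`x = J(q^N)`, `1728 ≠ 0` in `k`), `hbr_ofJ`,
  `hbr_ofJ_inv`, `hbr_ofHaupt2`, `hbr_ofHaupt2_inv` (`2 ≠ 0` in `k`), `hbr_ofHaupt3`,
  `hbr_ofHaupt3_inv` (`3 ≠ 0` in `k`).
-/
import Mathlib
import Fermat.Agent.Lib.Red.ChartInf
import Fermat.Agent.Lib.Red.BranchInst
import Fermat.Agent.Lib.Red.Integral
import Fermat.Agent.Lib.Red.HauptPlaces
import Fermat.Agent.Lib.Red.HauptData

set_option autoImplicit false
set_option linter.unusedSectionVars false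

namespace Fermat.Agent.Lib.Red.BranchH

open AlgebraicCurve

section Generic

variable {L F k : Type*} [Field L] [Field F] [Algebra L F] [Field k]
  {A : ValuationSubring L} {π : A →+* k}

/-- **(H) from a finite set of branch values on which the reduction is injective.** -/
theorem hbr_of_branch (hsurj : Function.Surjective π) (x : F) (Bv : Finset L)
    (hB : ∀ c : L, c ∉ Bv → ∀ P : Place L F, 0 < P.ord (x - algebraMap L F c) →
      P.ord (x - algebraMap L F c) = 1)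
    (hinj : ∀ a b : A, (a : L) ∈ Bv → (b : L) ∈ Bv → π a = π b → a = b) (γ : k) :
    ∃ c₀ : A, π c₀ = γ ∧ ∀ c : A, π c = γ → c ≠ c₀ →
      ∀ P : Place L F, 0 < P.ord (x - algebraMap L F (c : L)) →
        P.ord (x - algebraMap L F (c : L)) = 1 := by
  by_cases h : ∃ a : A, (a : L) ∈ Bv ∧ π a = γ
  · obtain ⟨a, haB, haγ⟩ := h
    refine ⟨a, haγ, fun c hc hne => hB (c : L) ?_⟩
    intro hcB
    exact hne (hinj c a hcB haB (hc.trans haγ.symm))
  · obtain ⟨c₀, hc₀⟩ := hsurj γ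
    refine ⟨c₀, hc₀, fun c hc _ => hB (c : L) ?_⟩
    intro hcB
    exact h ⟨c, hcB, hc⟩

/-- **(H) in the chart at infinity.** -/
theorem hbr_inv_of_branch [DecidableEq L] (hsurj : Function.Surjective π) {x : F} (hx : x ≠ 0)
    (Bv : Finset L)
    (hB : ∀ c : L, c ∉ Bv → ∀ P : Place L F, 0 < P.ord (x - algebraMap L F c) →
      P.ord (x - algebraMap L F c) = 1)
    (hinj : ∀ a b : A, (a : L) ∈ insert 0 (Bv.image (fun b => b⁻¹)) →
      (b : L) ∈ insert 0 (Bv.image (fun b => b⁻¹)) → π a = π b → a = b) (γ : k) :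
    ∃ c₀ : A, π c₀ = γ ∧ ∀ c : A, π c = γ → c ≠ c₀ →
      ∀ P : Place L F, 0 < P.ord (x⁻¹ - algebraMap L F (c : L)) →
        P.ord (x⁻¹ - algebraMap L F (c : L)) = 1 :=
  hbr_of_branch hsurj x⁻¹ _ (ChartInf.branch_inv hx Bv hB) hinj γ

/-- **(H) for the branch values `{0, b}`**, `b ∈ A` with `π b ≠ 0`. -/
theorem hbr_pair (hsurj : Function.Surjective π) (x : F) (b : A) (hb : π b ≠ 0)
    (hB : ∀ c : L, c ≠ 0 → c ≠ (b : L) → ∀ P : Place L F, 0 < P.ord (x - algebraMap L F c) →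
      P.ord (x - algebraMap L F c) = 1) (γ : k) :
    ∃ c₀ : A, π c₀ = γ ∧ ∀ c : A, π c = γ → c ≠ c₀ →
      ∀ P : Place L F, 0 < P.ord (x - algebraMap L F (c : L)) →
        P.ord (x - algebraMap L F (c : L)) = 1 := by
  classical
  refine hbr_of_branch hsurj x {0, (b : L)} ?_ ?_ γ
  · intro c hc
    rw [Finset.mem_insert, Finset.mem_singleton, not_or] at hc
    exact hB c hc.1 hc.2
  · intro a a' ha ha' haa
    rw [Finset.mem_insert, Finset.mem_singleton] at ha ha'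
    have key : ∀ u v : A, (u : L) = 0 → (v : L) = (b : L) → π u = π v → False := by
      intro u v hu hv huv
      have hu0 : u = 0 := Subtype.ext hu
      have hvb : v = b := Subtype.ext hv
      rw [hu0, hvb, map_zero] at huv
      exact hb huv.symm
    rcases ha with ha | ha <;> rcases ha' with ha' | ha'
    · exact Subtype.ext (ha.trans ha'.symm)
    · exact (key a a' ha ha' haa).elim
    · exact (key a' a ha' ha haa.symm).elim
    · exact Subtype.ext (ha.trans ha'.symm)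

/-- **(H) in the chart at infinity for the branch values `{0, b}`**, `b ∈ A` with `π b ≠ 0`
(the branch values of `x⁻¹` are `{0, b⁻¹}`). -/
theorem hbr_pair_inv (hsurj : Function.Surjective π) {x : F} (hx : x ≠ 0) (b : A) (hb : π b ≠ 0)
    (hB : ∀ c : L, c ≠ 0 → c ≠ (b : L) → ∀ P : Place L F, 0 < P.ord (x - algebraMap L F c) →
      P.ord (x - algebraMap L F c) = 1) (γ : k) :
    ∃ c₀ : A, π c₀ = γ ∧ ∀ c : A, π c = γ → c ≠ c₀ →
      ∀ P : Place L F, 0 < P.ord (x⁻¹ - algebraMap L F (c : L)) →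
        P.ord (x⁻¹ - algebraMap L F (c : L)) = 1 := by
  classical
  have hb0 : (b : L) ≠ 0 := by
    intro h0
    apply hb
    have : b = 0 := Subtype.ext h0
    rw [this, map_zero]
  refine hbr_inv_of_branch hsurj hx {0, (b : L)} ?_ ?_ γ
  · intro c hc
    rw [Finset.mem_insert, Finset.mem_singleton, not_or] at hc
    exact hB c hc.1 hc.2
  · -- the set is `{0, b⁻¹}`
    have hset : ∀ u : A, (u : L) ∈ insert (0 : L) (({0, (b : L)} : Finset L).image
        (fun b => b⁻¹)) → (u : L) = 0 ∨ (u : L) = (b : L)⁻¹ := by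
      intro u hu
      rw [Finset.mem_insert, Finset.mem_image] at hu
      rcases hu with hu | ⟨w, hw, hwu⟩
      · exact Or.inl hu
      · rw [Finset.mem_insert, Finset.mem_singleton] at hw
        rcases hw with hw | hw
        · left
          rw [← hwu, hw, inv_zero]
        · right
          rw [← hwu, hw]
    have key : ∀ u v : A, (u : L) = 0 → (v : L) = (b : L)⁻¹ → π u = π v → False := by
      intro u v hu hv huv
      have hu0 : u = 0 := Subtype.ext hu
      have hvb : v * b = 1 := by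
        apply Subtype.ext
        show (v : L) * (b : L) = 1
        rw [hv, inv_mul_cancel₀ hb0]
      have h1 : π v * π b = 1 := by rw [← map_mul, hvb, map_one]
      rw [hu0, map_zero] at huv
      rw [← huv, zero_mul] at h1
      exact zero_ne_one h1
    intro a a' ha ha' haa
    rcases hset a ha with ha | ha <;> rcases hset a' ha' with ha' | ha'
    · exact Subtype.ext (ha.trans ha'.symm)
    · exact (key a a' ha ha' haa).elim
    · exact (key a' a ha' ha haa.symm).elim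
    · exact Subtype.ext (ha.trans ha'.symm)

end Generic

/-! ### Instances over `ℚ̄` -/

section Instances

open ModularCurve Fermat.Agent.S24 Fermat.Agent.S28 Fermat.Agent.Lib.Red
  Fermat.Agent.Lib.Red.BaseFn Fermat.Agent.Lib.Red.HauptPlaces

variable {A : ValuationSubring KQ} {k : Type} [Field k] {π : A →+* k}

/-- **(H) for `x = J(q^N)`**, residue characteristic `≥ 5` (`1728 ≠ 0` in `k`). -/
theorem hbr_xL (N : ℕ) [NeZero N] (hsurj : Function.Surjective π) (h : (1728 : k) ≠ 0) (γ : k) :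
    ∃ c₀ : A, π c₀ = γ ∧ ∀ c : A, π c = γ → c ≠ c₀ →
      ∀ P : Place KQ ↥(laurentBaseChange KQ (modularFunctionFieldFull N)),
        0 < P.ord (xL KQ N - algebraMap KQ _ (c : KQ)) →
        P.ord (xL KQ N - algebraMap KQ _ (c : KQ)) = 1 :=
  hbr_pair hsurj (xL KQ N) (1728 : A) (by rw [map_ofNat]; exact h)
    (fun c hc0 hc1 P hP => BranchInst.ord_xL_sub_generic N c hc0 hc1 P hP) γ

/-- **(H) for `x⁻¹`, `x = J(q^N)`**, residue characteristic `≥ 5`. -/
theorem hbr_xL_inv (N : ℕ) [NeZero N] (hsurj : Function.Surjective π) (h : (1728 : k) ≠ 0)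
    (γ : k) :
    ∃ c₀ : A, π c₀ = γ ∧ ∀ c : A, π c = γ → c ≠ c₀ →
      ∀ P : Place KQ ↥(laurentBaseChange KQ (modularFunctionFieldFull N)),
        0 < P.ord ((xL KQ N)⁻¹ - algebraMap KQ _ (c : KQ)) →
        P.ord ((xL KQ N)⁻¹ - algebraMap KQ _ (c : KQ)) = 1 := by
  have hx : xL KQ N ≠ 0 := fun h0 =>
    (Fermat.Agent.Lib.Red.transcendental_xL (L := KQ) N) (h0 ▸ isAlgebraic_zero)
  exact hbr_pair_inv hsurj hx (1728 : A) (by rw [map_ofNat]; exact h)
    (fun c hc0 hc1 P hP => BranchInst.ord_xL_sub_generic N c hc0 hc1 P hP) γ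

/-- (H) for the base-function data of `J(q^N)`. -/
theorem hbr_ofJ (N : ℕ) [NeZero N] (hsurj : Function.Surjective π) (h : (1728 : k) ≠ 0) (γ : k) :
    ∃ c₀ : A, π c₀ = γ ∧ ∀ c : A, π c = γ → c ≠ c₀ →
      ∀ P : Place KQ ↥(laurentBaseChange KQ (modularFunctionFieldFull N)),
        0 < P.ord ((Data.ofJ A π N).x - algebraMap KQ _ (c : KQ)) →
        P.ord ((Data.ofJ A π N).x - algebraMap KQ _ (c : KQ)) = 1 := by
  rw [Data.ofJ_x]
  exact hbr_xL N hsurj h γ

/-- (H) in the chart at infinity for the base-function data of `J(q^N)`. -/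
theorem hbr_ofJ_inv (N : ℕ) [NeZero N] (hsurj : Function.Surjective π) (h : (1728 : k) ≠ 0)
    (γ : k) :
    ∃ c₀ : A, π c₀ = γ ∧ ∀ c : A, π c = γ → c ≠ c₀ →
      ∀ P : Place KQ ↥(laurentBaseChange KQ (modularFunctionFieldFull N)),
        0 < P.ord (((Data.ofJ A π N).x)⁻¹ - algebraMap KQ _ (c : KQ)) →
        P.ord (((Data.ofJ A π N).x)⁻¹ - algebraMap KQ _ (c : KQ)) = 1 := by
  rw [Data.ofJ_x]
  exact hbr_xL_inv N hsurj h γ

/-- The base function of `ofHaupt2` is `x₂`. -/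
theorem ofHaupt2_x_eq (M m : ℕ) [NeZero M] [NeZero m] (hM : M = m * 2) (h2 : (2 : k) ≠ 0) :
    (ofHaupt2 A π M m hM h2).x = x2 M m hM :=
  Subtype.ext (coe_ofHaupt2_x M m hM h2)

/-- The base function of `ofHaupt3` is `x₃`. -/
theorem ofHaupt3_x_eq (M m : ℕ) [NeZero M] [NeZero m] (hM : M = m * 3) (h3 : (3 : k) ≠ 0) :
    (ofHaupt3 A π M m hM h3).x = x3 M m hM :=
  Subtype.ext (coe_ofHaupt3_x M m hM h3)

theorem map_neg_64_ne_zero (h2 : (2 : k) ≠ 0) : π (-64 : A) ≠ 0 := by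
  rw [map_neg, map_ofNat, neg_ne_zero]
  have : (64 : k) = 2 ^ 6 := by norm_num
  rw [this]
  exact pow_ne_zero 6 h2

theorem map_neg_27_ne_zero (h3 : (3 : k) ≠ 0) : π (-27 : A) ≠ 0 := by
  rw [map_neg, map_ofNat, neg_ne_zero]
  have : (27 : k) = 3 ^ 3 := by norm_num
  rw [this]
  exact pow_ne_zero 3 h3

/-- **(H) for the Hauptmodul `x₂`** at level `M = m * 2` (residue characteristic `≠ 2`). -/
theorem hbr_ofHaupt2 (M m : ℕ) [NeZero M] [NeZero m] (hM : M = m * 2)
    (hsurj : Function.Surjective π) (h2 : (2 : k) ≠ 0) (γ : k) :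
    ∃ c₀ : A, π c₀ = γ ∧ ∀ c : A, π c = γ → c ≠ c₀ →
      ∀ P : Place KQ ↥(laurentBaseChange KQ (modularFunctionFieldFull M)),
        0 < P.ord ((ofHaupt2 A π M m hM h2).x - algebraMap KQ _ (c : KQ)) →
        P.ord ((ofHaupt2 A π M m hM h2).x - algebraMap KQ _ (c : KQ)) = 1 := by
  rw [ofHaupt2_x_eq]
  exact hbr_pair hsurj (x2 M m hM) (-64 : A) (map_neg_64_ne_zero h2)
    (fun c hc0 hc1 P hP => ord_x2_sub_eq_one M m hM c hc0 hc1 P hP) γ

/-- **(H) for `x₂⁻¹`** at level `M = m * 2` (residue characteristic `≠ 2`). -/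
theorem hbr_ofHaupt2_inv (M m : ℕ) [NeZero M] [NeZero m] (hM : M = m * 2)
    (hsurj : Function.Surjective π) (h2 : (2 : k) ≠ 0) (γ : k) :
    ∃ c₀ : A, π c₀ = γ ∧ ∀ c : A, π c = γ → c ≠ c₀ →
      ∀ P : Place KQ ↥(laurentBaseChange KQ (modularFunctionFieldFull M)),
        0 < P.ord (((ofHaupt2 A π M m hM h2).x)⁻¹ - algebraMap KQ _ (c : KQ)) →
        P.ord (((ofHaupt2 A π M m hM h2).x)⁻¹ - algebraMap KQ _ (c : KQ)) = 1 := by
  rw [ofHaupt2_x_eq]
  have hx : x2 M m hM ≠ 0 := fun h0 => (transcendental_x2 M m hM) (h0 ▸ isAlgebraic_zero)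
  exact hbr_pair_inv hsurj hx (-64 : A) (map_neg_64_ne_zero h2)
    (fun c hc0 hc1 P hP => ord_x2_sub_eq_one M m hM c hc0 hc1 P hP) γ

/-- **(H) for the Hauptmodul `x₃`** at level `M = m * 3` (residue characteristic `≠ 3`). -/
theorem hbr_ofHaupt3 (M m : ℕ) [NeZero M] [NeZero m] (hM : M = m * 3)
    (hsurj : Function.Surjective π) (h3 : (3 : k) ≠ 0) (γ : k) :
    ∃ c₀ : A, π c₀ = γ ∧ ∀ c : A, π c = γ → c ≠ c₀ →
      ∀ P : Place KQ ↥(laurentBaseChange KQ (modularFunctionFieldFull M)),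
        0 < P.ord ((ofHaupt3 A π M m hM h3).x - algebraMap KQ _ (c : KQ)) →
        P.ord ((ofHaupt3 A π M m hM h3).x - algebraMap KQ _ (c : KQ)) = 1 := by
  rw [ofHaupt3_x_eq]
  exact hbr_pair hsurj (x3 M m hM) (-27 : A) (map_neg_27_ne_zero h3)
    (fun c hc0 hc1 P hP => ord_x3_sub_eq_one M m hM c hc0 hc1 P hP) γ

/-- **(H) for `x₃⁻¹`** at level `M = m * 3` (residue characteristic `≠ 3`). -/
theorem hbr_ofHaupt3_inv (M m : ℕ) [NeZero M] [NeZero m] (hM : M = m * 3)
    (hsurj : Function.Surjective π) (h3 : (3 : k) ≠ 0) (γ : k) :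
    ∃ c₀ : A, π c₀ = γ ∧ ∀ c : A, π c = γ → c ≠ c₀ →
      ∀ P : Place KQ ↥(laurentBaseChange KQ (modularFunctionFieldFull M)),
        0 < P.ord (((ofHaupt3 A π M m hM h3).x)⁻¹ - algebraMap KQ _ (c : KQ)) →
        P.ord (((ofHaupt3 A π M m hM h3).x)⁻¹ - algebraMap KQ _ (c : KQ)) = 1 := by
  rw [ofHaupt3_x_eq]
  have hx : x3 M m hM ≠ 0 := fun h0 => (transcendental_x3 M m hM) (h0 ▸ isAlgebraic_zero)
  exact hbr_pair_inv hsurj hx (-27 : A) (map_neg_27_ne_zero h3)
    (fun c hc0 hc1 P hP => ord_x3_sub_eq_one M m hM c hc0 hc1 P hP) γ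

end Instances

end Fermat.Agent.Lib.Red.BranchH
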