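/-
helper15 — RED-DISC, brick (BC): base change of multiplication matrices, traces, discriminants
and characteristic polynomials along a ring homomorphism that maps a basis to a basis.

Setting: `S` is a finite free `R`-algebra with basis `b`, `C` a finite free `κ`-algebra with
basis `bC`, `π : R →+* κ` and `φ : S →+* C` ring homomorphisms with `φ ∘ algebraMap = algebraMap ∘ π`
and `φ (b i) = bC i`.  (Examples: quotients `S ⧸ pS` over `R ⧸ p`, localisations, tensor products.)
-/
import Mathlib

set_option autoImplicit false

namespace Fermat.Agent.Lib.Red.Disc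

open Module

variable {R S κ C ι : Type*} [CommRing R] [CommRing S] [Algebra R S] [CommRing κ] [CommRing C]
  [Algebra κ C]

/-- `φ : S →+* C` is a base change of the `R`-algebra `S` with basis `b` to the `κ`-algebra `C`
with basis `bC`, along `π : R →+* κ`. -/
structure IsBasisHom (π : R →+* κ) (φ : S →+* C) (b : Basis ι R S) (bC : Basis ι κ C) : Prop where
  comm : ∀ r : R, φ (algebraMap R S r) = algebraMap κ C (π r)
  basis : ∀ i, φ (b i) = bC i

namespace IsBasisHom

variable {π : R →+* κ} {φ : S →+* C} {b : Basis ι R S} {bC : Basis ι κ C}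

theorem map_smul' (h : IsBasisHom π φ b bC) (r : R) (s : S) : φ (r • s) = π r • φ s := by
  rw [Algebra.smul_def, _root_.map_mul, h.comm, Algebra.smul_def]

variable [Fintype ι]

theorem repr_apply (h : IsBasisHom π φ b bC) (s : S) (i : ι) :
    bC.repr (φ s) i = π (b.repr s i) := by
  classical
  have h1 : φ s = ∑ j, π (b.repr s j) • bC j := by
    conv_lhs => rw [← b.sum_repr s]
    rw [map_sum]
    refine Finset.sum_congr rfl fun j _ => ?_
    rw [h.map_smul', h.basis]
  rw [h1, map_sum, Finset.sum_apply']
  simp only [_root_.map_smul, Basis.repr_self, Finsupp.smul_apply, Finsupp.single_apply, smul_eq_mul,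
    mul_ite, mul_one, mul_zero, Finset.sum_ite_eq', Finset.mem_univ, if_true]

variable [DecidableEq ι]

theorem leftMulMatrix_map (h : IsBasisHom π φ b bC) (s : S) :
    Algebra.leftMulMatrix bC (φ s) = (Algebra.leftMulMatrix b s).map π := by
  ext i j
  rw [Algebra.leftMulMatrix_eq_repr_mul, Matrix.map_apply, Algebra.leftMulMatrix_eq_repr_mul,
    ← h.basis, ← _root_.map_mul, h.repr_apply]

theorem trace_map (h : IsBasisHom π φ b bC) (s : S) :
    Algebra.trace κ C (φ s) = π (Algebra.trace R S s) := by
  rw [Algebra.trace_eq_matrix_trace bC, Algebra.trace_eq_matrix_trace b, h.leftMulMatrix_map,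
    Matrix.trace, Matrix.trace, map_sum]
  rfl

theorem norm_map (h : IsBasisHom π φ b bC) (s : S) :
    Algebra.norm κ (φ s) = π (Algebra.norm R s) := by
  rw [Algebra.norm_eq_matrix_det bC, Algebra.norm_eq_matrix_det b, h.leftMulMatrix_map,
    RingHom.map_det]
  rfl

theorem traceMatrix_map (h : IsBasisHom π φ b bC) :
    Algebra.traceMatrix κ bC = (Algebra.traceMatrix R b).map π := by
  ext i j
  rw [Matrix.map_apply, Algebra.traceMatrix_apply, Algebra.traceMatrix_apply,
    Algebra.traceForm_apply, Algebra.traceForm_apply, ← h.basis, ← h.basis, ← _root_.map_mul,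
    h.trace_map]

theorem discr_map (h : IsBasisHom π φ b bC) :
    Algebra.discr κ bC = π (Algebra.discr R b) := by
  rw [Algebra.discr_def, Algebra.discr_def, h.traceMatrix_map, RingHom.map_det]
  rfl

theorem charpoly_map (h : IsBasisHom π φ b bC) (s : S) :
    (Algebra.leftMulMatrix bC (φ s)).charpoly = (Algebra.leftMulMatrix b s).charpoly.map π := by
  rw [h.leftMulMatrix_map, Matrix.charpoly_map]

end IsBasisHom

end Fermat.Agent.Lib.Red.Disc
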