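/-
helper15 — RED-DISC: existence of base changes (`IsBasisHom`) via tensor products, and two
general facts about them (surjectivity, kernel).
-/
import Mathlib
import Fermat.Agent.Lib.Red.DiscBase

set_option autoImplicit false
set_option linter.style.haveILetI false

namespace Fermat.Agent.Lib.Red.Disc

open Module TensorProduct

universe u v w t

namespace IsBasisHom

variable {R : Type u} {S : Type v} {κ : Type w} {C : Type t} {ι : Type*} [CommRing R]
  [CommRing S] [Algebra R S] [CommRing κ] [CommRing C] [Algebra κ C] [Fintype ι]
  {π : R →+* κ} {φ : S →+* C} {b : Basis ι R S} {bC : Basis ι κ C}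

/-- A base change along a surjection is surjective. -/
theorem surjective (h : IsBasisHom π φ b bC) (hπ : Function.Surjective π) :
    Function.Surjective φ := by
  intro w
  have hw : w = ∑ i, bC.repr w i • bC i := (bC.sum_repr w).symm
  choose r hr using fun i => hπ (bC.repr w i)
  refine ⟨∑ i, r i • b i, ?_⟩
  rw [map_sum, hw]
  refine Finset.sum_congr rfl fun i _ => ?_
  rw [h.map_smul', h.basis, hr]

/-- The kernel of a base change: the elements all of whose coordinates die. -/
theorem map_eq_zero_iff (h : IsBasisHom π φ b bC) (s : S) :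
    φ s = 0 ↔ ∀ i, π (b.repr s i) = 0 := by
  constructor
  · intro hs i
    rw [← h.repr_apply, hs]
    simp
  · intro hs
    apply bC.repr.injective
    ext i
    rw [h.repr_apply, hs i]
    simp

end IsBasisHom

/-- The base change of a finite free algebra along any ring homomorphism exists. -/
theorem exists_isBasisHom {R : Type u} {S : Type v} {κ : Type w} {ι : Type*} [CommRing R]
    [CommRing S] [Algebra R S] [CommRing κ] (π : R →+* κ) (b : Basis ι R S) :
    ∃ (C : Type (max w v)) (_ : CommRing C) (_ : Algebra κ C) (φ : S →+* C)
      (bC : Basis ι κ C), IsBasisHom π φ b bC := by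
  letI : Algebra R κ := π.toAlgebra
  refine ⟨κ ⊗[R] S, inferInstance, inferInstance,
    (Algebra.TensorProduct.includeRight : S →ₐ[R] κ ⊗[R] S).toRingHom,
    Algebra.TensorProduct.basis κ b, ?_, ?_⟩
  · intro r
    show (1 : κ) ⊗ₜ[R] (algebraMap R S r) = algebraMap κ (κ ⊗[R] S) (π r)
    rw [Algebra.algebraMap_eq_smul_one, TensorProduct.tmul_smul, Algebra.TensorProduct.algebraMap_apply]
    rw [TensorProduct.smul_tmul']
    congr 1
    show π r * 1 = _
    simp
  · intro i
    show (1 : κ) ⊗ₜ[R] b i = _
    rw [Algebra.TensorProduct.basis_apply]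

end Fermat.Agent.Lib.Red.Disc
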