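/-
helper15 — RED-DISC, the orders.

* `exists_basis_of_repr` : a subalgebra `T` of a field `K` over a domain `P` (fraction field
  `K₀ ⊆ K`) which contains a `K₀`-basis `β` of `K` and all of whose elements have coordinates in
  `P`, is free over `P` with basis `β`; the inclusion is an `IsBasisHom`.
* `IsGauss` : the Gauss property of the valuation ring `O₀` of `F₀ = Frac L[X]`.
* `exists_poly_repr`, `exists_mulMatrix` : for an integral good basis which is an `L[X]`-basis of
  the integral closure (`DiscImprove.exists_improved`), the coordinates / the multiplication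
  matrix of an integral element of `O` descend to `A[X]` and reduce to those of its reduction.
-/
import Mathlib
import Fermat.Agent.Lib.Red.Ortho
import Fermat.Agent.Lib.Red.DiscBase
import Fermat.Agent.Lib.Red.DiscTensor

set_option autoImplicit false
set_option linter.style.haveILetI false
set_option linter.unusedSectionVars false

namespace Fermat.Agent.Lib.Red.Disc

open Polynomial Module
open Fermat.Agent.Lib.Red.Ortho

/-- A subalgebra containing a basis of the ambient field and with coordinates in the base ring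
is free on that basis. -/
theorem exists_basis_of_repr {P K₀ K ι : Type*} [CommRing P] [IsDomain P] [Field K₀] [Field K]
    [Algebra P K₀] [IsFractionRing P K₀] [Algebra P K] [Algebra K₀ K] [IsScalarTower P K₀ K]
    [Fintype ι] (β : Basis ι K₀ K) (T : Subalgebra P K) (h1 : ∀ i, β i ∈ T)
    (h2 : ∀ y ∈ T, ∀ i, ∃ p : P, β.repr y i = algebraMap P K₀ p) :
    ∃ bT : Basis ι P ↥T, IsBasisHom (algebraMap P K₀) (algebraMap ↥T K) bT β := by
  classical
  have hinj : Function.Injective (algebraMap P K₀) := IsFractionRing.injective P K₀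
  let v : ι → ↥T := fun i => ⟨β i, h1 i⟩
  have hcoe : ∀ g : ι → P, ((∑ i, g i • v i : ↥T) : K) = ∑ i, algebraMap P K₀ (g i) • β i := by
    intro g
    have h3 : ((∑ i, g i • v i : ↥T) : K) = T.val (∑ i, g i • v i) := rfl
    rw [h3, map_sum]
    refine Finset.sum_congr rfl fun i _ => ?_
    rw [map_smul, algebraMap_smul]
    rfl
  have hli : LinearIndependent P v := by
    rw [Fintype.linearIndependent_iff]
    intro g hg i
    have h3 : ∑ i, algebraMap P K₀ (g i) • β i = 0 := by
      rw [← hcoe, hg]
      rfl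
    have h4 := Fintype.linearIndependent_iff.1 β.linearIndependent _ h3 i
    exact hinj (h4.trans (map_zero _).symm)
  have hsp : ⊤ ≤ Submodule.span P (Set.range v) := by
    rintro y -
    choose p hp using h2 (y : K) y.2
    have h3 : y = ∑ i, p i • v i := by
      apply Subtype.ext
      rw [hcoe]
      conv_lhs => rw [← β.sum_repr (y : K)]
      exact Finset.sum_congr rfl fun i _ => by rw [hp]
    rw [h3]
    exact Submodule.sum_mem _ fun i _ => Submodule.smul_mem _ _ (Submodule.subset_span ⟨i, rfl⟩)
  refine ⟨Basis.mk hli hsp, ?_, ?_⟩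
  · intro r
    show ((algebraMap P ↥T r : ↥T) : K) = algebraMap K₀ K (algebraMap P K₀ r)
    rw [← IsScalarTower.algebraMap_apply]
    rfl
  · intro i
    rw [Basis.mk_apply]
    rfl

section Gauss

variable {F E : Type*} [Field F] [Field E] {O : ValuationSubring F} {red : O →+* E}
variable {F₀ E₀ : Type*} [Field F₀] [Field E₀] [Algebra F₀ F] [Algebra E₀ E]
variable {O₀ : ValuationSubring F₀} {red₀ : O₀ →+* E₀}
variable {L k : Type*} [Field L] [Field k] {A : ValuationSubring L} {π : A →+* k}
variable [Algebra L[X] F₀] [Algebra L[X] F] [IsScalarTower L[X] F₀ F] [IsFractionRing L[X] F₀]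
variable [Algebra k[X] E₀] [Algebra k[X] E] [IsScalarTower k[X] E₀ E] [IsFractionRing k[X] E₀]
variable {ι : Type*} [Fintype ι] [DecidableEq ι]

/-- The Gauss property of `(O₀, red₀)` with respect to the polynomial rings `L[X] → F₀`,
`k[X] → E₀`: polynomials over `A` are in `O₀` and reduce coefficientwise, and a polynomial in
`O₀` has coefficients in `A`. -/
structure IsGauss (A : ValuationSubring L) (π : A →+* k) (O₀ : ValuationSubring F₀)
    (red₀ : O₀ →+* E₀) : Prop where
  mem : ∀ p : A[X], algebraMap L[X] F₀ (p.map A.subtype) ∈ O₀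
  red : ∀ (p : A[X]) (h : algebraMap L[X] F₀ (p.map A.subtype) ∈ O₀),
    red₀ ⟨_, h⟩ = algebraMap k[X] E₀ (p.map π)
  coeff : ∀ p : L[X], algebraMap L[X] F₀ p ∈ O₀ → ∀ i, p.coeff i ∈ A

/-- A polynomial with coefficients in `A` comes from `A[X]`. -/
theorem exists_map_subtype_eq' (p : L[X]) (hp : ∀ i, p.coeff i ∈ A) :
    ∃ q : A[X], q.map A.subtype = p := by
  have h1 : p ∈ Polynomial.lifts A.subtype := by
    rw [Polynomial.lifts_iff_coeff_lifts]
    intro n
    exact ⟨⟨p.coeff n, hp n⟩, rfl⟩
  exact h1

namespace IsGauss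

variable (hG : IsGauss A π O₀ red₀)

include hG

theorem mem' (p : L[X]) (hp : ∀ i, p.coeff i ∈ A) : algebraMap L[X] F₀ p ∈ O₀ := by
  obtain ⟨q, rfl⟩ := exists_map_subtype_eq' p hp
  exact hG.mem q

/-- Primitive polynomials are units of `O₀`. -/
theorem inv_mem (hC : Compat O red O₀ red₀) (p : L[X]) (hp : ∀ i, p.coeff i ∈ A)
    (hprim : ∃ i, p.coeff i ≠ 0 ∧ (p.coeff i)⁻¹ ∈ A) : (algebraMap L[X] F₀ p)⁻¹ ∈ O₀ := by
  obtain ⟨q, rfl⟩ := exists_map_subtype_eq' p hp
  obtain ⟨i, hi0, hi⟩ := hprim
  have hq : q.map π ≠ 0 := by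
    intro h0
    have h1 : π (q.coeff i) = 0 := by
      rw [← coeff_map, h0, coeff_zero]
    have h2 : (q.coeff i : L) = (q.map A.subtype).coeff i := by
      rw [coeff_map]
      rfl
    have h3 : q.coeff i * ⟨((q.map A.subtype).coeff i)⁻¹, hi⟩ = 1 := by
      apply Subtype.ext
      show (q.coeff i : L) * ((q.map A.subtype).coeff i)⁻¹ = 1
      rw [h2, mul_inv_cancel₀ hi0]
    have h4 : π (q.coeff i) * π ⟨((q.map A.subtype).coeff i)⁻¹, hi⟩ = 1 := by
      rw [← map_mul, h3, map_one]
    rw [h1, zero_mul] at h4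
    exact zero_ne_one h4
  have hred : red₀ ⟨_, hG.mem q⟩ ≠ 0 := by
    rw [hG.red q, Ne, map_eq_zero_iff _ (IsFractionRing.injective k[X] E₀)]
    exact hq
  have hu : IsUnit (⟨_, hG.mem q⟩ : O₀) := by
    by_contra hnu
    exact hred ((hC.ker₀ _).2 hnu)
  obtain ⟨w, hw⟩ := hu.exists_right_inv
  have hw' : algebraMap L[X] F₀ (q.map A.subtype) * (w : F₀) = 1 := congrArg Subtype.val hw
  rw [← eq_inv_of_mul_eq_one_right hw']
  exact w.2

end IsGauss

/-- An integral good basis which is an `L[X]`-basis of the integral closure of `L[X]` in `F`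
(the output of `exists_improved`). -/
structure IsIntBasis (L : Type*) [Field L] [Algebra L[X] F₀] [Algebra L[X] F]
    (G : GoodBasis O red O₀ red₀ ι) : Prop where
  int : ∀ i, IsIntegral L[X] (G.b i : F)
  repr : ∀ y : F, IsIntegral L[X] y → ∀ i, ∃ p : L[X],
    G.basisF.repr y i = algebraMap L[X] F₀ p

variable (hG : IsGauss A π O₀ red₀) (G : GoodBasis O red O₀ red₀ ι) (hI : IsIntBasis L G)

include hG hI

/-- The coordinates of an integral element of `O` descend to `A[X]` and reduce. -/
theorem exists_poly_repr (y : O) (hy : IsIntegral L[X] (y : F)) (i : ι) :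
    ∃ t : A[X], G.basisF.repr (y : F) i = algebraMap L[X] F₀ (t.map A.subtype) ∧
      G.basisE.repr (red y) i = algebraMap k[X] E₀ (t.map π) := by
  obtain ⟨p, hp⟩ := hI.repr (y : F) hy i
  have hmem : algebraMap L[X] F₀ p ∈ O₀ := hp ▸ G.repr_mem y i
  obtain ⟨t, rfl⟩ := exists_map_subtype_eq' p (hG.coeff p hmem)
  refine ⟨t, hp, ?_⟩
  rw [G.repr_red]
  have h1 : (⟨G.basisF.repr (y : F) i, G.repr_mem y i⟩ : O₀) =
      ⟨algebraMap L[X] F₀ (t.map A.subtype), hmem⟩ := Subtype.ext hp
  rw [h1, hG.red]

/-- The multiplication matrix of an integral element of `O` descends to `A[X]` and reduces. -/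
theorem exists_mulMatrix (y : O) (hy : IsIntegral L[X] (y : F)) :
    ∃ m : Matrix ι ι A[X],
      (m.map (mapRingHom A.subtype)).map (algebraMap L[X] F₀) =
        Algebra.leftMulMatrix G.basisF (y : F) ∧
      (m.map (mapRingHom π)).map (algebraMap k[X] E₀) =
        Algebra.leftMulMatrix G.basisE (red y) := by
  choose t ht1 ht2 using fun (i j : ι) =>
    exists_poly_repr hG G hI (y * G.b j) (hy.mul (hI.int j)) i
  refine ⟨Matrix.of t, ?_, ?_⟩
  · ext i j
    rw [Algebra.leftMulMatrix_eq_repr_mul, GoodBasis.basisF_apply]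
    exact (ht1 i j).symm
  · ext i j
    rw [Algebra.leftMulMatrix_eq_repr_mul, GoodBasis.basisE_apply, ← map_mul]
    exact (ht2 i j).symm

omit hG in
/-- The integral closure of `L[X]` in `F` is free on the good basis. -/
theorem exists_basisB :
    ∃ bB : Basis ι L[X] ↥(integralClosure L[X] F),
      IsBasisHom (algebraMap L[X] F₀) (algebraMap ↥(integralClosure L[X] F) F) bB G.basisF :=
  exists_basis_of_repr G.basisF (integralClosure L[X] F)
    (fun i => by
      rw [GoodBasis.basisF_apply]
      exact hI.int i)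
    (fun y hy i => hI.repr y hy i)

omit hG hI in
/-- Membership in the `k[X]`-span of the reduced basis, in coordinates. -/
theorem mem_span_red_iff (z : E) :
    z ∈ Submodule.span k[X] (Set.range fun i => red (G.b i)) ↔
      ∀ i, ∃ q : k[X], G.basisE.repr z i = algebraMap k[X] E₀ q := by
  classical
  constructor
  · intro hz
    induction hz using Submodule.span_induction with
    | mem x hx =>
      obtain ⟨j, rfl⟩ := hx
      intro i
      refine ⟨if i = j then 1 else 0, ?_⟩
      have h1 : (fun i => red (G.b i)) j = G.basisE j := (G.basisE_apply j).symm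
      rw [h1, Basis.repr_self, Finsupp.single_apply]
      split_ifs with h1 h2 h2
      · simp
      · exact absurd h1.symm h2
      · exact absurd h2.symm h1
      · simp
    | zero =>
      intro i
      exact ⟨0, by simp⟩
    | add x y _ _ hx hy =>
      intro i
      obtain ⟨q₁, h₁⟩ := hx i
      obtain ⟨q₂, h₂⟩ := hy i
      exact ⟨q₁ + q₂, by rw [map_add, Finsupp.add_apply, h₁, h₂, map_add]⟩
    | smul a x _ hx =>
      intro i
      obtain ⟨q, hq⟩ := hx i
      refine ⟨a * q, ?_⟩
      rw [← algebraMap_smul E₀ a x, map_smul, Finsupp.smul_apply, hq, smul_eq_mul, map_mul]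
  · intro h
    choose q hq using h
    have h1 : z = ∑ i, q i • red (G.b i) := by
      conv_lhs => rw [← G.basisE.sum_repr z]
      refine Finset.sum_congr rfl fun i _ => ?_
      rw [hq, algebraMap_smul, GoodBasis.basisE_apply]
    rw [h1]
    exact Submodule.sum_mem _ fun i _ => Submodule.smul_mem _ _ (Submodule.subset_span ⟨i, rfl⟩)

/-- The reduction of an integral element of `O` lies in the span of the reduced basis. -/
theorem red_mem_span (y : O) (hy : IsIntegral L[X] (y : F)) :
    red y ∈ Submodule.span k[X] (Set.range fun i => red (G.b i)) := by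
  rw [mem_span_red_iff]
  intro i
  obtain ⟨t, -, ht⟩ := exists_poly_repr hG G hI y hy i
  exact ⟨_, ht⟩

/-- **The reduced order** `R̄ = red(B ∩ O)`: a `k[X]`-subalgebra of `E`, free on the reduced
basis, contained in the integral closure of `k[X]`. -/
theorem exists_rbar :
    ∃ (Rb : Subalgebra k[X] E) (bR : Basis ι k[X] ↥Rb),
      IsBasisHom (algebraMap k[X] E₀) (algebraMap ↥Rb E) bR G.basisE ∧
      (∀ z : E, z ∈ Rb ↔ ∀ i, ∃ q : k[X], G.basisE.repr z i = algebraMap k[X] E₀ q) ∧
      Rb ≤ integralClosure k[X] E := by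
  classical
  set M : Submodule k[X] E := Submodule.span k[X] (Set.range fun i => red (G.b i)) with hM
  have hone : (1 : E) ∈ M := by
    have h1 := red_mem_span hG G hI (1 : O) (by
      have : ((1 : O) : F) = 1 := rfl
      rw [this]
      exact isIntegral_one)
    rwa [map_one] at h1
  have hmul : ∀ x y : E, x ∈ M → y ∈ M → x * y ∈ M := by
    intro x y hx hy
    have h1 : x * y ∈ M * M := Submodule.mul_mem_mul hx hy
    have h2 : M * M ≤ M := by
      rw [hM, Submodule.span_mul_span, Submodule.span_le]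
      rintro _ ⟨_, ⟨i, rfl⟩, _, ⟨j, rfl⟩, rfl⟩
      have h3 := red_mem_span hG G hI (G.b i * G.b j) ((hI.int i).mul (hI.int j))
      rwa [map_mul] at h3
    exact h2 h1
  let Rb : Subalgebra k[X] E := M.toSubalgebra hone hmul
  have hmem : ∀ z : E, z ∈ Rb ↔ ∀ i, ∃ q : k[X], G.basisE.repr z i = algebraMap k[X] E₀ q :=
    fun z => mem_span_red_iff G z
  obtain ⟨bR, hbR⟩ := exists_basis_of_repr G.basisE Rb
    (fun i => by
      rw [GoodBasis.basisE_apply]
      exact Submodule.subset_span ⟨i, rfl⟩)
    (fun y hy i => (hmem y).1 hy i)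
  refine ⟨Rb, bR, hbR, hmem, ?_⟩
  intro z hz
  refine IsIntegral.of_mem_of_fg Rb ?_ z hz
  have h1 : Subalgebra.toSubmodule Rb = M := rfl
  rw [h1]
  exact Submodule.fg_span (Set.finite_range _)

end Gauss

end Fermat.Agent.Lib.Red.Disc
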