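/-
helper15 — RED-DISC, the chart data (abstract).

The abstract good reduction theorem `Disc.good_reduction` takes the polynomial rings
`L[X] → F₀ → F`, `k[X] → E₀ → E` as typeclass data.  This file provides that data for a chart
`X ↦ u`, `u : F₀`:

* `chartAlg₀ K u : Algebra K[X] F₀`, `chartAlg K F u : Algebra K[X] F` (`X ↦ u`), with
  `chart_isScalarTower`, `chart_isScalarTower'`, `chart_isFractionRing`;
* `exists_aeval_gen_div`, `exists_aeval_inv_div` : generation of `K⟮x⟯` by `x` and by `x⁻¹`;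
* `isGauss_chart` : the Gauss property `IsGauss A π O₀ red₀` of a valuation ring `O₀` of `F₀`
  for the chart `X ↦ u`, from: `O₀ ∩ L = A`, `red₀ = π` on `A`, `u ∈ O₀` with transcendental
  reduction, and `ker red₀ ⊇ nonunits`.
-/
import Mathlib
import Fermat.Agent.Lib.Red.Ortho
import Fermat.Agent.Lib.Red.DiscOrder

set_option autoImplicit false
set_option linter.style.haveILetI false
set_option linter.unusedSectionVars false

namespace Fermat.Agent.Lib.Red.Disc

open Polynomial Module
open Fermat.Agent.Lib.Red.Ortho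

section ChartAlg

variable (K : Type*) {F₀ : Type*} (F : Type*) [Field K] [Field F₀] [Field F] [Algebra K F₀]
  [Algebra F₀ F] [Algebra K F] [IsScalarTower K F₀ F]

/-- The chart algebra `K[X] → F₀`, `X ↦ u`. -/
@[reducible] noncomputable def chartAlg₀ (u : F₀) : Algebra K[X] F₀ :=
  (aeval (R := K) u).toRingHom.toAlgebra

/-- The chart algebra `K[X] → F`, `X ↦ u`. -/
@[reducible] noncomputable def chartAlg (u : F₀) : Algebra K[X] F :=
  (aeval (R := K) (algebraMap F₀ F u)).toRingHom.toAlgebra

theorem chartAlg₀_algebraMap (u : F₀) (p : K[X]) :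
    @algebraMap K[X] F₀ _ _ (chartAlg₀ K u) p = aeval u p := rfl

theorem chartAlg_algebraMap (u : F₀) (p : K[X]) :
    @algebraMap K[X] F _ _ (chartAlg K F u) p = aeval (algebraMap F₀ F u) p := rfl

theorem chart_isScalarTower (u : F₀) :
    letI := chartAlg₀ K u
    letI := chartAlg K F u
    IsScalarTower K[X] F₀ F := by
  letI := chartAlg₀ K u
  letI := chartAlg K F u
  exact IsScalarTower.of_algebraMap_eq fun p => aeval_algebraMap_apply F u p

theorem chart_isScalarTower' (u : F₀) :
    letI := chartAlg K F u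
    IsScalarTower K K[X] F := by
  letI := chartAlg K F u
  refine IsScalarTower.of_algebraMap_eq fun a => ?_
  show algebraMap K F a = aeval (algebraMap F₀ F u) (C a)
  rw [aeval_C]

theorem chart_isScalarTower₀ (u : F₀) :
    letI := chartAlg₀ K u
    IsScalarTower K K[X] F₀ := by
  letI := chartAlg₀ K u
  refine IsScalarTower.of_algebraMap_eq fun a => ?_
  show algebraMap K F₀ a = aeval u (C a)
  rw [aeval_C]

theorem chart_isFractionRing (u : F₀) (hu : Transcendental K u)
    (hgen : ∀ z : F₀, ∃ r s : K[X], z = aeval u r / aeval u s) :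
    letI := chartAlg₀ K u
    IsFractionRing K[X] F₀ := by
  letI := chartAlg₀ K u
  haveI : FaithfulSMul K[X] F₀ := (faithfulSMul_iff_algebraMap_injective K[X] F₀).2 (by
    intro p q hpq
    have h1 : aeval u (p - q) = 0 := by
      rw [map_sub, sub_eq_zero]
      exact hpq
    exact sub_eq_zero.1 (transcendental_iff.1 hu _ h1))
  exact IsFractionRing.of_field K[X] F₀ hgen

/-- `K⟮x⟯` is generated by its generator. -/
theorem exists_aeval_gen_div {K F : Type*} [Field K] [Field F] [Algebra K F] (x : F)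
    (z : ↥(IntermediateField.adjoin K {x})) :
    ∃ r s : K[X], z = aeval (IntermediateField.AdjoinSimple.gen K x) r /
      aeval (IntermediateField.AdjoinSimple.gen K x) s := by
  obtain ⟨r, s, hrs⟩ := (IntermediateField.mem_adjoin_simple_iff K (z : F)).1 z.2
  refine ⟨r, s, Subtype.ext ?_⟩
  rw [hrs]
  have h1 : ∀ p : K[X], ((aeval (IntermediateField.AdjoinSimple.gen K x) p :
      ↥(IntermediateField.adjoin K {x})) : F) = aeval x p := by
    intro p
    have h2 := aeval_algebraMap_apply F (IntermediateField.AdjoinSimple.gen K x) p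
    rw [IntermediateField.AdjoinSimple.algebraMap_gen] at h2
    exact h2.symm
  rw [← h1 r, ← h1 s]
  rfl

/-- If `u` generates, so does `u⁻¹`. -/
theorem exists_aeval_inv_div {K F₀ : Type*} [Field K] [Field F₀] [Algebra K F₀] (u : F₀)
    (hu0 : u ≠ 0) (hgen : ∀ z : F₀, ∃ r s : K[X], z = aeval u r / aeval u s) (z : F₀) :
    ∃ r s : K[X], z = aeval u⁻¹ r / aeval u⁻¹ s := by
  obtain ⟨r, s, rfl⟩ := hgen z
  letI : Invertible u := invertibleOfNonzero hu0
  have hr := eval₂_reverse_mul_pow (algebraMap K F₀) u r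
  have hs := eval₂_reverse_mul_pow (algebraMap K F₀) u s
  rw [invOf_eq_inv] at hr hs
  refine ⟨r.reverse * X ^ s.natDegree, s.reverse * X ^ r.natDegree, ?_⟩
  rw [map_mul, map_mul, map_pow, map_pow, aeval_X, aeval_def, aeval_def, aeval_def, aeval_def,
    ← hr, ← hs]
  simp only [div_eq_mul_inv, mul_inv, inv_pow, inv_inv]
  ring

end ChartAlg

section GaussChart

variable {F₀ E₀ : Type*} [Field F₀] [Field E₀] {O₀ : ValuationSubring F₀} {red₀ : O₀ →+* E₀}
variable {L k : Type*} [Field L] [Field k] {A : ValuationSubring L} {π : A →+* k}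
  [Algebra L F₀] [Algebra k E₀]

/-- A nonzero polynomial over `L` is a constant times a polynomial with coefficients in `A`
one of which is `1`. -/
theorem exists_scaling_coeff_one (A : ValuationSubring L) (q : L[X]) (hq : q ≠ 0) :
    ∃ c : L, c ≠ 0 ∧ (∀ i, (C c * q).coeff i ∈ A) ∧ ∃ j, (C c * q).coeff j = 1 := by
  classical
  obtain ⟨j, hj, hmax⟩ := Finset.exists_max_image q.support (fun i => A.valuation (q.coeff i))
    (Polynomial.support_nonempty.mpr hq)
  have hcj : q.coeff j ≠ 0 := Polynomial.mem_support_iff.mp hj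
  refine ⟨(q.coeff j)⁻¹, inv_ne_zero hcj, fun i => ?_, j, ?_⟩
  · rw [Polynomial.coeff_C_mul]
    by_cases hi : i ∈ q.support
    · rw [← A.valuation_le_one_iff, map_mul, map_inv₀]
      rw [inv_mul_le_iff₀ (lt_of_le_of_ne zero_le
        (Ne.symm ((map_ne_zero (A.valuation)).mpr hcj))), mul_one]
      exact hmax i hi
    · rw [Polynomial.notMem_support_iff.mp hi, mul_zero]
      exact A.zero_mem
  · rw [Polynomial.coeff_C_mul, inv_mul_cancel₀ hcj]

/-- Such a polynomial is nonzero modulo `π`. -/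
theorem map_ne_zero_of_coeff_one (P₀ : A[X]) (j : ℕ)
    (hj : (P₀.map A.subtype).coeff j = 1) : P₀.map π ≠ 0 := by
  intro h0
  have h1 : π (P₀.coeff j) = 0 := by
    rw [← coeff_map, h0, coeff_zero]
  have h2 : P₀.coeff j = 1 := by
    apply Subtype.ext
    rw [coeff_map] at hj
    exact hj
  rw [h2, map_one] at h1
  exact one_ne_zero h1

/-- **The Gauss property for the chart `X ↦ u`.** -/
theorem isGauss_chart (hker : ∀ c : O₀, ¬ IsUnit c → red₀ c = 0)
    (hA : ∀ a : L, algebraMap L F₀ a ∈ O₀ ↔ a ∈ A)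
    (hredA : ∀ (a : A) (h : algebraMap L F₀ (a : L) ∈ O₀),
      red₀ ⟨_, h⟩ = algebraMap k E₀ (π a))
    (u : O₀) (hu : Transcendental k (red₀ u)) :
    letI := chartAlg₀ L (u : F₀)
    letI := chartAlg₀ k (red₀ u)
    IsGauss A π O₀ red₀ := by
  letI := chartAlg₀ L (u : F₀)
  letI := chartAlg₀ k (red₀ u)
  let incl : A →+* O₀ :=
    ((algebraMap L F₀).comp A.subtype).codRestrict O₀ (fun a => (hA a).2 a.2)
  have hψ : ∀ p : A[X], ((eval₂ incl u p : O₀) : F₀) = aeval (u : F₀) (p.map A.subtype) := by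
    intro p
    have h1 := hom_eval₂ p incl O₀.subtype u
    rw [aeval_def, eval₂_map]
    exact h1
  have hredψ : ∀ p : A[X], red₀ (eval₂ incl u p) = aeval (red₀ u) (p.map π) := by
    intro p
    rw [hom_eval₂, aeval_def, eval₂_map]
    congr 1
    exact RingHom.ext fun a => hredA a _
  refine ⟨fun p => ?_, fun p h => ?_, fun q hq i => ?_⟩
  · show aeval (u : F₀) (p.map A.subtype) ∈ O₀
    rw [← hψ]
    exact Subtype.property _
  · have h1 : (⟨_, h⟩ : O₀) = eval₂ incl u p := Subtype.ext (hψ p).symm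
    rw [h1]
    exact hredψ p
  · by_cases hq0 : q = 0
    · rw [hq0, coeff_zero]
      exact A.zero_mem
    obtain ⟨c, hc0, hcA, j, hj⟩ := exists_scaling_coeff_one A q hq0
    obtain ⟨P₀, hP₀⟩ := exists_map_subtype_eq' (C c * q) hcA
    have hP₀π : P₀.map π ≠ 0 := map_ne_zero_of_coeff_one P₀ j (by rw [hP₀]; exact hj)
    have hred : red₀ (eval₂ incl u P₀) ≠ 0 := by
      rw [hredψ]
      exact fun h0 => hP₀π (transcendental_iff.1 hu _ h0)
    have hunit : IsUnit (eval₂ incl u P₀) := by
      by_contra hnu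
      exact hred (hker _ hnu)
    obtain ⟨w, hw⟩ := hunit.exists_right_inv
    have hw' : aeval (u : F₀) (C c * q) * (w : F₀) = 1 := by
      rw [← hP₀, ← hψ]
      exact congrArg Subtype.val hw
    have hq' : aeval (u : F₀) q ∈ O₀ := hq
    have h3 : algebraMap L F₀ c⁻¹ = aeval (u : F₀) q * (w : F₀) := by
      rw [map_mul, aeval_C, mul_assoc] at hw'
      rw [map_inv₀]
      exact (eq_inv_of_mul_eq_one_right hw').symm
    have h4 : c⁻¹ ∈ A := by
      rw [← hA, h3]
      exact O₀.mul_mem _ _ hq' w.2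
    have h5 : q.coeff i = c⁻¹ * (C c * q).coeff i := by
      rw [coeff_C_mul, ← mul_assoc, inv_mul_cancel₀ hc0, one_mul]
    rw [h5]
    exact A.mul_mem _ _ h4 (hcA i)

end GaussChart

end Fermat.Agent.Lib.Red.Disc
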