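/-
helper15 — RED-DISC, brick (D2): the number of points of the special fibre of a finite free
algebra over an integrally closed domain with algebraically closed fraction field is at most
the number of points of the generic fibre.

`A` is an integrally closed domain whose fraction field `L` is algebraically closed,
`π : A →+* k` a surjection onto an algebraically closed field, `Z` a finite free `A`-algebra
with basis `e`, and `C_L`, `C_k` are "`Z ⊗ L`", "`Z ⊗ k`" (in the sense of `IsBasisHom`).

* `card_roots_charpoly_le` : the number of distinct roots of the characteristic polynomial of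
  multiplication by `z` on a finite-dimensional commutative algebra `C` is at most
  `dim C / nilradical`.
* `exists_finrank_le_card_roots_charpoly` : over an algebraically closed field some `z` attains
  it.
* `card_roots_map_le` : a monic polynomial over `A` has at most as many distinct roots in `k` as
  in `L`.
* `finrank_quot_nilradical_le` : `dim_k C_k / nil ≤ dim_L C_L / nil`.
* `finrank_nilradical_le` (D2) : `dim_L nilradical C_L ≤ dim_k nilradical C_k`.
-/
import Mathlib
import Fermat.Agent.Lib.Red.DiscBase

set_option autoImplicit false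
set_option linter.style.haveILetI false

namespace Fermat.Agent.Lib.Red.Disc

open Module Polynomial

section Field

variable {K C ι : Type*} [Field K] [DecidableEq K] [CommRing C] [Algebra K C] [Fintype ι]
  [DecidableEq ι]

omit [DecidableEq K] in
/-- A root of the characteristic polynomial of multiplication by `z` is a root of every
polynomial `p` with `p(z)` nilpotent. -/
theorem eval_eq_zero_of_isNilpotent_aeval (bC : Basis ι K C) (z : C) {μ : K}
    (hμ : (Algebra.leftMulMatrix bC z).charpoly.IsRoot μ) (p : K[X])
    (hp : IsNilpotent (aeval z p)) : p.eval μ = 0 := by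
  haveI : Module.Finite K C := Module.Finite.of_basis bC
  have h1 : (Algebra.leftMulMatrix bC z).charpoly = (Algebra.lmul K C z).charpoly :=
    LinearMap.charpoly_toMatrix (Algebra.lmul K C z) bC
  rw [h1] at hμ
  have h2 := (Module.End.hasEigenvalue_iff_isRoot_charpoly (Algebra.lmul K C z) μ).2 hμ
  obtain ⟨v, hv⟩ := h2.exists_hasEigenvector
  have h3 : aeval (Algebra.lmul K C z) p v = p.eval μ • v :=
    Module.End.aeval_apply_of_hasEigenvector hv
  rw [Polynomial.aeval_algHom_apply] at h3
  have h4 : aeval z p * v = p.eval μ • v := h3
  obtain ⟨N, hN⟩ := hp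
  have h5 : ∀ n : ℕ, (aeval z p) ^ n * v = (p.eval μ) ^ n • v := by
    intro n
    induction n with
    | zero => simp
    | succ n ih => rw [pow_succ, mul_assoc, h4, mul_smul_comm, ih, smul_smul, pow_succ, mul_comm]
  have h6 : (p.eval μ) ^ N • v = 0 := by rw [← h5, hN, zero_mul]
  rcases smul_eq_zero.1 h6 with h | h
  · exact pow_eq_zero_iff (n := N) (by
      rintro rfl
      simp at h6
      exact hv.2 h6) |>.1 h
  · exact absurd h hv.2

/-- The number of distinct roots of the characteristic polynomial of multiplication by `z` is at
most `dim C / nilradical C`. -/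
theorem card_roots_charpoly_le (bC : Basis ι K C) (z : C) :
    (Algebra.leftMulMatrix bC z).charpoly.roots.toFinset.card ≤
      finrank K (C ⧸ nilradical C) := by
  haveI : Module.Finite K C := Module.Finite.of_basis bC
  set χ := (Algebra.leftMulMatrix bC z).charpoly with hχ
  set s := χ.roots.toFinset.card with hs
  let g : degreeLT K s →ₗ[K] C ⧸ nilradical C :=
    ((Ideal.Quotient.mkₐ K (nilradical C)).toLinearMap.comp (aeval z).toLinearMap).comp
      (degreeLT K s).subtype
  have hg : Function.Injective g := by
    rw [← LinearMap.ker_eq_bot, LinearMap.ker_eq_bot']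
    intro p hp
    have hp' : aeval z (p : K[X]) ∈ nilradical C := Ideal.Quotient.eq_zero_iff_mem.1 hp
    have hroot : ∀ μ ∈ χ.roots.toFinset, (p : K[X]).eval μ = 0 := fun μ hμ =>
      eval_eq_zero_of_isNilpotent_aeval bC z (isRoot_of_mem_roots (Multiset.mem_toFinset.1 hμ)) _
        (mem_nilradical.1 hp')
    have hdeg : (p : K[X]).degree < s := mem_degreeLT.1 p.2
    have h0 : (p : K[X]) = 0 := by
      by_contra hp0
      exact hp0 (eq_zero_of_natDegree_lt_card_of_eval_eq_zero' (p : K[X]) χ.roots.toFinset hroot
        ((natDegree_lt_iff_degree_lt hp0).2 hdeg))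
    exact Subtype.ext h0
  have h1 := LinearMap.finrank_le_finrank_of_injective hg
  have h2 : finrank K (degreeLT K s) = s := by
    rw [(degreeLTEquiv K s).finrank_eq, Module.finrank_fin_fun]
  rwa [h2] at h1

omit [DecidableEq K] [DecidableEq ι] in
/-- `dim C / nil + dim nil = dim C`. -/
theorem finrank_quot_nilradical_add (bC : Basis ι K C) :
    finrank K (C ⧸ nilradical C) + finrank K ((nilradical C).restrictScalars K) =
      Fintype.card ι := by
  haveI : Module.Finite K C := Module.Finite.of_basis bC
  have h1 := Submodule.finrank_quotient_add_finrank ((nilradical C).restrictScalars K)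
  have h2 : finrank K (C ⧸ (nilradical C).restrictScalars K) = finrank K (C ⧸ nilradical C) :=
    (Submodule.Quotient.restrictScalarsEquiv K (nilradical C)).finrank_eq
  rw [← h2, h1, Module.finrank_eq_card_basis bC]

omit [DecidableEq K] [DecidableEq ι] in
/-- Over an algebraically closed field, `dim C / nilradical C` is the number of maximal ideals. -/
theorem finrank_quot_nilradical_eq_card_maximalSpectrum [IsAlgClosed K] (bC : Basis ι K C)
    [Fintype (MaximalSpectrum C)] :
    finrank K (C ⧸ nilradical C) = Fintype.card (MaximalSpectrum C) := by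
  haveI : Module.Finite K C := Module.Finite.of_basis bC
  haveI : IsArtinianRing C := IsArtinianRing.of_finite K C
  have e := ((IsArtinianRing.quotNilradicalEquivPi C).restrictScalars K).toLinearEquiv
  rw [e.finrank_eq, Module.finrank_pi_fintype]
  have h1 : ∀ I : MaximalSpectrum C, finrank K (C ⧸ I.asIdeal) = 1 := by
    intro I
    haveI := I.isMaximal
    letI := Ideal.Quotient.field I.asIdeal
    have hb := IsAlgClosed.algebraMap_bijective_of_isIntegral (k := K) (K := C ⧸ I.asIdeal)
    exact ((LinearEquiv.ofBijective (Algebra.linearMap K (C ⧸ I.asIdeal)) hb).finrank_eq).symm.trans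
      (Module.finrank_self K)
  simp [h1]

/-- Over an algebraically closed field, some `z` has `dim C / nilradical C` distinct
eigenvalues. -/
theorem exists_finrank_le_card_roots_charpoly [IsAlgClosed K] (bC : Basis ι K C) :
    ∃ z : C, finrank K (C ⧸ nilradical C) ≤
      (Algebra.leftMulMatrix bC z).charpoly.roots.toFinset.card := by
  haveI : Module.Finite K C := Module.Finite.of_basis bC
  haveI : IsArtinianRing C := IsArtinianRing.of_finite K C
  haveI : Fintype (MaximalSpectrum C) := Fintype.ofFinite _
  -- dimension count
  have hdim : finrank K (C ⧸ nilradical C) = Fintype.card (MaximalSpectrum C) :=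
    finrank_quot_nilradical_eq_card_maximalSpectrum bC
  -- an injective family of scalars
  obtain ⟨a, ha⟩ : ∃ a : MaximalSpectrum C → K, Function.Injective a :=
    ⟨fun I => Infinite.natEmbedding K (Fintype.equivFin _ I),
      fun I J h => (Fintype.equivFin _).injective
        (Fin.val_injective ((Infinite.natEmbedding K).injective h))⟩
  -- `z` with prescribed values
  obtain ⟨z, hz⟩ : ∃ z : C, ∀ I : MaximalSpectrum C, z - algebraMap K C (a I) ∈ I.asIdeal := by
    obtain ⟨w, hw⟩ := (IsArtinianRing.quotNilradicalEquivPi C).surjective
      (fun I => Ideal.Quotient.mk _ (algebraMap K C (a I)))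
    obtain ⟨z, rfl⟩ := Ideal.Quotient.mk_surjective w
    refine ⟨z, fun I => ?_⟩
    have h1 := congrFun hw I
    rw [← Ideal.Quotient.eq]
    exact h1
  refine ⟨z, ?_⟩
  rw [hdim]
  have hroot : ∀ I : MaximalSpectrum C,
      a I ∈ (Algebra.leftMulMatrix bC z).charpoly.roots.toFinset := by
    intro I
    have hne : (Algebra.leftMulMatrix bC z).charpoly ≠ 0 :=
      (Matrix.charpoly_monic _).ne_zero
    rw [Multiset.mem_toFinset, mem_roots hne,
      show (Algebra.leftMulMatrix bC z).charpoly = (Algebra.lmul K C z).charpoly from
        LinearMap.charpoly_toMatrix (Algebra.lmul K C z) bC,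
      ← Module.End.hasEigenvalue_iff_isRoot_charpoly]
    -- `z - a I` is not a unit, hence a zero divisor
    have hnu : ¬ IsUnit (z - algebraMap K C (a I)) := fun hu =>
      I.isMaximal.ne_top (Ideal.eq_top_of_isUnit_mem _ (hz I) hu)
    have hnz : z - algebraMap K C (a I) ∉ nonZeroDivisors C := fun h =>
      hnu (IsArtinianRing.isUnit_of_mem_nonZeroDivisors h)
    rw [mem_nonZeroDivisors_iff_right] at hnz
    push Not at hnz
    obtain ⟨v, hv, hv0⟩ := hnz
    refine Module.End.hasEigenvalue_of_hasEigenvector (x := v) ⟨?_, hv0⟩
    rw [Module.End.mem_eigenspace_iff]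
    have h2 : z * v = algebraMap K C (a I) * v := by
      have : (z - algebraMap K C (a I)) * v = 0 := by rw [mul_comm]; exact hv
      rw [sub_mul] at this
      exact sub_eq_zero.1 this
    rw [Algebra.smul_def]
    exact h2
  calc Fintype.card (MaximalSpectrum C) = (Finset.univ.image a).card :=
        (Finset.card_image_of_injective _ ha).symm
    _ ≤ _ := Finset.card_le_card (by
        intro x hx
        obtain ⟨I, _, rfl⟩ := Finset.mem_image.1 hx
        exact hroot I)

end Field

section Roots

variable {A L k : Type*} [CommRing A] [IsDomain A] [IsIntegrallyClosed A] [Field L] [Algebra A L]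
  [IsFractionRing A L] [IsAlgClosed L] [Field k]

omit [IsDomain A] in
/-- A monic polynomial over an integrally closed domain `A` with algebraically closed fraction
field `L` is a product of linear factors over `A`. -/
theorem exists_multiset_eq_prod (χ : A[X]) (hχ : χ.Monic) :
    ∃ s : Multiset A, χ = (s.map (fun a => X - C a)).prod ∧
      (χ.map (algebraMap A L)).roots = s.map (algebraMap A L) := by
  classical
  set p := χ.map (algebraMap A L) with hp
  have hpm : p.Monic := hχ.map _
  have hprod := (IsAlgClosed.splits p).eq_prod_roots_of_monic hpm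
  have hint : ∀ c ∈ p.roots, ∃ a : A, algebraMap A L a = c := by
    intro c hc
    apply IsIntegrallyClosed.isIntegral_iff.1
    refine ⟨χ, hχ, ?_⟩
    have h1 : p.eval c = 0 := isRoot_of_mem_roots hc
    rwa [hp, eval_map] at h1
  obtain ⟨s, hs⟩ : ∃ s : Multiset A, s.map (algebraMap A L) = p.roots := by
    have : ∀ t : Multiset L, (∀ c ∈ t, ∃ a : A, algebraMap A L a = c) →
        ∃ s : Multiset A, s.map (algebraMap A L) = t := by
      intro t
      induction t using Multiset.induction with
      | empty => exact fun _ => ⟨0, rfl⟩
      | cons c t ih =>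
        intro h
        obtain ⟨s, hs⟩ := ih (fun c' hc' => h c' (Multiset.mem_cons_of_mem hc'))
        obtain ⟨a, ha⟩ := h c (Multiset.mem_cons_self c t)
        exact ⟨a ::ₘ s, by rw [Multiset.map_cons, ha, hs]⟩
    exact this _ hint
  refine ⟨s, ?_, hs.symm⟩
  apply Polynomial.map_injective (algebraMap A L) (IsFractionRing.injective A L)
  rw [← hp, hprod, ← hs, Polynomial.map_multiset_prod, Multiset.map_map, Multiset.map_map]
  congr 1
  apply Multiset.map_congr rfl
  intro a _
  simp

omit [IsDomain A] in
/-- A monic polynomial over `A` has at most as many distinct roots in a quotient field `k` as in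
the algebraically closed fraction field `L`. -/
theorem card_roots_map_le [DecidableEq k] [DecidableEq L] (π : A →+* k) (χ : A[X])
    (hχ : χ.Monic) :
    (χ.map π).roots.toFinset.card ≤ (χ.map (algebraMap A L)).roots.toFinset.card := by
  classical
  obtain ⟨s, hs, hsL⟩ := exists_multiset_eq_prod (L := L) χ hχ
  have hroots : (χ.map π).roots = s.map π := by
    conv_lhs => rw [hs]
    rw [Polynomial.map_multiset_prod, Multiset.map_map]
    have h1 : (Polynomial.map π ∘ fun a => X - C a) = (fun c => X - C c) ∘ π := by
      funext a
      simp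
    rw [h1, ← Multiset.map_map]
    exact roots_multiset_prod_X_sub_C _
  rw [hroots, hsL, Multiset.toFinset_map, Multiset.toFinset_map,
    Finset.card_image_of_injective _ (IsFractionRing.injective A L)]
  exact Finset.card_image_le

end Roots

section Main

variable {A L k Z CL Ck ι : Type*} [CommRing A] [IsDomain A] [IsIntegrallyClosed A] [Field L]
  [Algebra A L] [IsFractionRing A L] [IsAlgClosed L] [Field k] [IsAlgClosed k]
  [CommRing Z] [Algebra A Z] [CommRing CL] [Algebra L CL] [CommRing Ck] [Algebra k Ck]
  [Fintype ι] [DecidableEq ι]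
  {π : A →+* k} {e : Basis ι A Z} {eL : Basis ι L CL} {ek : Basis ι k Ck}
  {φL : Z →+* CL} {φk : Z →+* Ck}

/-- `dim_k (Z ⊗ k) / nil ≤ dim_L (Z ⊗ L) / nil`: the special fibre has at most as many points as
the generic fibre. -/
theorem finrank_quot_nilradical_le (hL : IsBasisHom (algebraMap A L) φL e eL)
    (hk : IsBasisHom π φk e ek) (hπ : Function.Surjective π) :
    finrank k (Ck ⧸ nilradical Ck) ≤ finrank L (CL ⧸ nilradical CL) := by
  classical
  obtain ⟨zbar, hz⟩ := exists_finrank_le_card_roots_charpoly ek
  have hφsurj : Function.Surjective φk := by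
    intro w
    have hw : w = ∑ i, ek.repr w i • ek i := (ek.sum_repr w).symm
    choose r hr using fun i => hπ (ek.repr w i)
    refine ⟨∑ i, r i • e i, ?_⟩
    rw [map_sum, hw]
    refine Finset.sum_congr rfl fun i _ => ?_
    rw [hk.map_smul', hk.basis, hr]
  obtain ⟨z, rfl⟩ := hφsurj zbar
  set χ := (Algebra.leftMulMatrix e z).charpoly with hχ
  have hχm : χ.Monic := Matrix.charpoly_monic _
  rw [hk.charpoly_map z] at hz
  have h1 := card_roots_charpoly_le eL (φL z)
  rw [hL.charpoly_map z] at h1
  exact hz.trans ((card_roots_map_le (L := L) π χ hχm).trans h1)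

/-- **(D2)** `dim_L nilradical (Z ⊗ L) ≤ dim_k nilradical (Z ⊗ k)`. -/
theorem finrank_nilradical_le (hL : IsBasisHom (algebraMap A L) φL e eL)
    (hk : IsBasisHom π φk e ek) (hπ : Function.Surjective π) :
    finrank L ((nilradical CL).restrictScalars L) ≤
      finrank k ((nilradical Ck).restrictScalars k) := by
  have h1 := finrank_quot_nilradical_le hL hk hπ
  have h2 := finrank_quot_nilradical_add eL
  have h3 := finrank_quot_nilradical_add ek
  omega

end Main

section Lift

variable {A L k CL Ck ι ι' : Type*} [CommRing A] [IsIntegrallyClosed A] [Field L]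
  [Algebra A L] [IsFractionRing A L] [IsAlgClosed L] [Field k] [IsAlgClosed k]
  [CommRing CL] [Algebra L CL] [CommRing Ck] [Algebra k Ck]
  [Fintype ι] [DecidableEq ι] [Fintype ι'] [DecidableEq ι']

/-- **(D2), characteristic-polynomial form.**  If the characteristic polynomial of every element
of the `k`-algebra `Ck` lifts to a monic polynomial over `A` which is the characteristic
polynomial of an element of the `L`-algebra `CL`, then
`dim_k Ck / nil ≤ dim_L CL / nil`. -/
theorem finrank_quot_nilradical_le_of_charpoly (π : A →+* k) (eL : Basis ι L CL)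
    (ek : Basis ι' k Ck)
    (hlift : ∀ w : Ck, ∃ (χ : A[X]) (v : CL), χ.Monic ∧
      (Algebra.leftMulMatrix ek w).charpoly = χ.map π ∧
      (Algebra.leftMulMatrix eL v).charpoly = χ.map (algebraMap A L)) :
    finrank k (Ck ⧸ nilradical Ck) ≤ finrank L (CL ⧸ nilradical CL) := by
  classical
  obtain ⟨w, hw⟩ := exists_finrank_le_card_roots_charpoly ek
  obtain ⟨χ, v, hχ, h1, h2⟩ := hlift w
  rw [h1] at hw
  have h3 := card_roots_charpoly_le eL v
  rw [h2] at h3
  exact hw.trans ((card_roots_map_le (L := L) π χ hχ).trans h3)

/-- **(D2), characteristic-polynomial form**, for the nilradicals (same rank). -/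
theorem finrank_nilradical_le_of_charpoly (π : A →+* k) (eL : Basis ι L CL)
    (ek : Basis ι k Ck)
    (hlift : ∀ w : Ck, ∃ (χ : A[X]) (v : CL), χ.Monic ∧
      (Algebra.leftMulMatrix ek w).charpoly = χ.map π ∧
      (Algebra.leftMulMatrix eL v).charpoly = χ.map (algebraMap A L)) :
    finrank L ((nilradical CL).restrictScalars L) ≤
      finrank k ((nilradical Ck).restrictScalars k) := by
  have h1 := finrank_quot_nilradical_le_of_charpoly π eL ek hlift
  have h2 := finrank_quot_nilradical_add eL
  have h3 := finrank_quot_nilradical_add ek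
  omega

end Lift

end Fermat.Agent.Lib.Red.Disc
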