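/-
helper15 — RED-DISC, brick (M): determinants over a local ring whose reduction has a big kernel.

If the maximal ideal of a local ring `R` is generated by `ϖ` and the reduction of a square
matrix `P` modulo the maximal ideal has a kernel of dimension `≥ m`, then `ϖ ^ m ∣ det P`.
-/
import Mathlib

set_option autoImplicit false
set_option linter.style.haveILetI false

namespace Fermat.Agent.Lib.Red.Disc

open Module IsLocalRing

/-- If all entries in the columns `j ∈ J` are divisible by `ϖ`, then `ϖ ^ |J|` divides the
determinant. -/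
theorem pow_card_dvd_det_of_dvd_cols {R : Type*} [CommRing R] {n : Type*} [Fintype n]
    [DecidableEq n] (M : Matrix n n R) (ϖ : R) (J : Finset n)
    (h : ∀ i, ∀ j ∈ J, ϖ ∣ M i j) : ϖ ^ J.card ∣ M.det := by
  classical
  choose q hq using h
  let M' : Matrix n n R := fun i j => if hj : j ∈ J then q i j hj else M i j
  let d : n → R := fun j => if j ∈ J then ϖ else 1
  have hM : M = M' * Matrix.diagonal d := by
    ext i j
    rw [Matrix.mul_diagonal]
    by_cases hj : j ∈ J
    · simp only [M', d, dif_pos hj, if_pos hj]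
      rw [hq i j hj, mul_comm]
    · simp only [M', d, dif_neg hj, if_neg hj, mul_one]
  have hd : ∏ j, d j = ϖ ^ J.card := by
    simp only [d]
    rw [Finset.prod_ite, Finset.prod_const_one, mul_one, Finset.prod_const]
    congr 1
    congr 1
    ext j
    simp
  rw [hM, Matrix.det_mul, Matrix.det_diagonal, hd]
  exact Dvd.intro_left _ rfl

/-- **(M)** Let `R` be a local ring whose maximal ideal is generated by `ϖ`, `π : R →+* κ` a
surjection onto a field (so `ker π` is the maximal ideal), and `P` a square matrix over `R`.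
If the kernel of the reduction `π(P)` has dimension at least `m`, then `ϖ ^ m ∣ det P`. -/
theorem pow_dvd_det_of_le_finrank_ker {R : Type*} [CommRing R] [IsLocalRing R] {κ : Type*}
    [Field κ] (π : R →+* κ) (hπ : Function.Surjective π) {n : Type*}
    [Fintype n] [DecidableEq n] (ϖ : R) (hϖ : maximalIdeal R = Ideal.span {ϖ})
    (P : Matrix n n R) (m : ℕ)
    (hm : m ≤ finrank κ (LinearMap.ker (P.map π).mulVecLin)) :
    ϖ ^ m ∣ P.det := by
  classical
  have hker : ∀ r : R, π r = 0 ↔ r ∈ maximalIdeal R := by
    intro r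
    have h1 : RingHom.ker π = maximalIdeal R :=
      IsLocalRing.eq_maximalIdeal (RingHom.ker_isMaximal_of_surjective π hπ)
    rw [← h1, RingHom.mem_ker]
  set V := LinearMap.ker (P.map π).mulVecLin with hV
  -- `m` independent vectors of the kernel
  let bV := Module.finBasis κ V
  let v : Fin m → (n → κ) := fun a => (bV (Fin.castLE hm a) : n → κ)
  have hvV : ∀ a, v a ∈ V := fun a => (bV (Fin.castLE hm a)).2
  have hli : LinearIndependent κ v := by
    have h1 : LinearIndependent κ (fun a : Fin m => bV (Fin.castLE hm a)) :=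
      bV.linearIndependent.comp _ (Fin.castLE_injective hm)
    exact h1.map' V.subtype (Submodule.ker_subtype V)
  -- extend to a basis of `κ^n`
  have hs : LinearIndepOn κ id (Set.range v) := hli.linearIndepOn_id
  let B := Basis.extend hs
  let T := hs.extend (Set.subset_univ (Set.range v))
  have hvT : ∀ a, v a ∈ T := fun a => hs.subset_extend _ ⟨a, rfl⟩
  have hBcoe : ∀ t : T, B t = (t : n → κ) := fun t => Basis.extend_apply_self hs t
  haveI : Finite T := Module.Finite.finite_basis B
  haveI : Fintype T := Fintype.ofFinite _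
  have hcard : Fintype.card n = Fintype.card T := by
    rw [← Module.finrank_eq_card_basis B, Module.finrank_pi]
  let e : n ≃ T := Fintype.equivOfCardEq hcard
  let Qbar : Matrix n n κ := fun i j => (e j : n → κ) i
  have hQbar : Qbar.det ≠ 0 := by
    have h1 : Qbar = (Pi.basisFun κ n).toMatrix (B.reindex e.symm) := by
      ext i j
      simp [Qbar, Basis.toMatrix_apply, hBcoe]
    rw [h1, ← Basis.det_apply]
    exact ((Pi.basisFun κ n).isUnit_det (B.reindex e.symm)).ne_zero
  -- lift to `R`
  choose Q hQ using fun i j => hπ (Qbar i j)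
  let Qm : Matrix n n R := fun i j => Q i j
  have hQm : Qm.map π = Qbar := by
    ext i j
    exact hQ i j
  have hdetQ : IsUnit Qm.det := by
    rw [← IsLocalRing.notMem_maximalIdeal, ← hker,
      RingHom.map_det, RingHom.mapMatrix_apply, hQm]
    exact hQbar
  -- the columns of `P * Q` indexed by the `v a` are divisible by `ϖ`
  let jj : Fin m → n := fun a => e.symm ⟨v a, hvT a⟩
  have hjj : Function.Injective jj := by
    intro a b hab
    have h1 : (⟨v a, hvT a⟩ : T) = ⟨v b, hvT b⟩ := e.symm.injective hab
    exact hli.injective (show v a = v b from congrArg (fun t : T => (t : n → κ)) h1)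
  let J : Finset n := Finset.univ.map ⟨jj, hjj⟩
  have hJcard : J.card = m := by simp [J]
  have hcols : ∀ i, ∀ j ∈ J, ϖ ∣ (P * Qm) i j := by
    intro i j hj
    obtain ⟨a, -, rfl⟩ := Finset.mem_map.1 hj
    have h0 : π ((P * Qm) i (jj a)) = 0 := by
      have h1 : (P * Qm).map π = P.map π * Qbar := by
        rw [Matrix.map_mul, hQm]
      have h2 : π ((P * Qm) i (jj a)) = ((P * Qm).map π) i (jj a) := rfl
      rw [h2, h1]
      have h3 : (P.map π * Qbar) i (jj a) = ((P.map π).mulVecLin (v a)) i := by
        rw [Matrix.mul_apply, Matrix.mulVecLin_apply]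
        simp only [Matrix.mulVec, dotProduct, Qbar, jj, Equiv.apply_symm_apply]
      rw [h3]
      have h4 := hvV a
      rw [hV, LinearMap.mem_ker] at h4
      rw [h4]
      rfl
    have h5 : (P * Qm) i (jj a) ∈ maximalIdeal R := (hker _).1 h0
    rw [hϖ] at h5
    exact Ideal.mem_span_singleton.1 h5
  have hdvd := pow_card_dvd_det_of_dvd_cols (P * Qm) ϖ J hcols
  rw [hJcard, Matrix.det_mul] at hdvd
  exact (hdetQ.dvd_mul_right).1 hdvd

/-- Variant of **(M)** in terms of the rank: if `rank (π P) ≤ r` then `ϖ ^ (n - r) ∣ det P`. -/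
theorem pow_dvd_det_of_rank_le {R : Type*} [CommRing R] [IsLocalRing R] {κ : Type*}
    [Field κ] (π : R →+* κ) (hπ : Function.Surjective π) {n : Type*}
    [Fintype n] [DecidableEq n] (ϖ : R) (hϖ : maximalIdeal R = Ideal.span {ϖ})
    (P : Matrix n n R) (r : ℕ) (hr : (P.map π).rank ≤ r) :
    ϖ ^ (Fintype.card n - r) ∣ P.det := by
  apply pow_dvd_det_of_le_finrank_ker π hπ ϖ hϖ P
  have h1 := LinearMap.finrank_range_add_finrank_ker (P.map π).mulVecLin
  rw [Module.finrank_pi] at h1
  have h2 : (P.map π).rank = finrank κ (LinearMap.range (P.map π).mulVecLin) := rfl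
  omega

end Fermat.Agent.Lib.Red.Disc
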