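/-
helper15 — RED-DISC, bricks (D1a), (D1c) and the core count on the special fibre.

`R` is a local ring with maximal ideal `(ϖ)`, `π : R →+* κ` the surjection onto its residue
field, `S` a finite free `R`-algebra with basis `b`, and `C` "`= S ⊗ κ`" (any `κ`-algebra with a
basis `bC` and a ring hom `φ : S →+* C` over `π` mapping `b` to `bC`; see `IsBasisHom`).

* `pow_dvd_discr` (D1a): `ϖ ^ m ∣ discr R b` as soon as `m ≤ dim_κ nilradical C`.
* `discr_eq_det_sq_mul_discr`, `pow_sub_dvd_det` (D1c): for an `R`-algebra hom `f : S' → S`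
  between two such algebras of the same rank, with matrix `P`:  `discr b' = det P ^ 2 * discr b`
  (if `det P ≠ 0`, `R` a domain) and `ϖ ^ (dim nil C' - dim nil C) ∣ det P`.
* `isUnit_det_of_not_pow_succ_dvd_discr` (core count): if moreover
  `¬ ϖ ^ (dim nil C' + 1) ∣ discr R b'`, then `det P` is a unit, i.e. `f` is bijective.
-/
import Mathlib
import Fermat.Agent.Lib.Red.DiscMatrix
import Fermat.Agent.Lib.Red.DiscBase

set_option autoImplicit false
set_option linter.style.haveILetI false

namespace Fermat.Agent.Lib.Red.Disc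

open Module IsLocalRing Matrix

section D1a

variable {R S κ C ι : Type*} [CommRing R] [IsLocalRing R] [CommRing S] [Algebra R S]
  [Field κ] [CommRing C] [Algebra κ C] [Fintype ι] [DecidableEq ι]
  {π : R →+* κ} {φ : S →+* C} {b : Basis ι R S} {bC : Basis ι κ C}

omit [DecidableEq ι] in
/-- The coordinates of a nilpotent element are in the kernel of the trace matrix. -/
theorem traceMatrix_mulVec_of_isNilpotent (bC : Basis ι κ C) {z : C} (hz : IsNilpotent z) :
    Algebra.traceMatrix κ bC *ᵥ bC.equivFun z = 0 := by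
  rw [Algebra.traceMatrix_of_basis_mulVec]
  funext i
  have h1 : IsNilpotent (z * bC i) := (Commute.all z (bC i)).isNilpotent_mul_right hz
  exact (Algebra.isNilpotent_trace_of_isNilpotent h1).eq_zero

/-- `dim_κ nilradical C ≤ dim ker (trace matrix)`. -/
theorem finrank_nilradical_le_finrank_ker (bC : Basis ι κ C) :
    finrank κ ((nilradical C).restrictScalars κ) ≤
      finrank κ (LinearMap.ker (Algebra.traceMatrix κ bC).mulVecLin) := by
  let N := (nilradical C).restrictScalars κ
  let f : N →ₗ[κ] (ι → κ) := (bC.equivFun : C →ₗ[κ] (ι → κ)).comp N.subtype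
  have hf : ∀ z : N, f z ∈ LinearMap.ker (Algebra.traceMatrix κ bC).mulVecLin := by
    intro z
    rw [LinearMap.mem_ker, Matrix.mulVecLin_apply]
    exact traceMatrix_mulVec_of_isNilpotent bC (mem_nilradical.1 z.2)
  have hinj : Function.Injective (f.codRestrict _ hf) := by
    intro z w hzw
    have h1 : f z = f w := congrArg Subtype.val hzw
    have h2 : bC.equivFun (z : C) = bC.equivFun (w : C) := h1
    exact Subtype.ext (bC.equivFun.injective h2)
  exact LinearMap.finrank_le_finrank_of_injective hinj

/-- **(D1a)** `ϖ ^ m` divides the discriminant as soon as `m ≤ dim_κ nilradical (S ⊗ κ)`. -/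
theorem pow_dvd_discr (h : IsBasisHom π φ b bC) (hπ : Function.Surjective π) (ϖ : R)
    (hϖ : maximalIdeal R = Ideal.span {ϖ}) (m : ℕ)
    (hm : m ≤ finrank κ ((nilradical C).restrictScalars κ)) :
    ϖ ^ m ∣ Algebra.discr R b := by
  rw [Algebra.discr_def]
  apply pow_dvd_det_of_le_finrank_ker π hπ ϖ hϖ
  rw [← h.traceMatrix_map]
  exact hm.trans (finrank_nilradical_le_finrank_ker bC)

end D1a

section D1c

variable {R S S' κ C C' ι : Type*} [CommRing R] [CommRing S] [Algebra R S]
  [CommRing S'] [Algebra R S'] [Field κ] [CommRing C] [Algebra κ C] [CommRing C'] [Algebra κ C']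
  [Fintype ι] [DecidableEq ι]
  {π : R →+* κ} {φ : S →+* C} {b : Basis ι R S} {bC : Basis ι κ C}
  {φ' : S' →+* C'} {b' : Basis ι R S'} {bC' : Basis ι κ C'}

/-- The matrix of an algebra hom intertwines the multiplication matrices. -/
theorem leftMulMatrix_mul_toMatrix (b' : Basis ι R S') (b : Basis ι R S) (f : S' →ₐ[R] S)
    (s : S') :
    Algebra.leftMulMatrix b (f s) * LinearMap.toMatrix b' b f.toLinearMap =
      LinearMap.toMatrix b' b f.toLinearMap * Algebra.leftMulMatrix b' s := by
  have h1 : Algebra.leftMulMatrix b (f s) = LinearMap.toMatrix b b (Algebra.lmul R S (f s)) :=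
    rfl
  have h2 : Algebra.leftMulMatrix b' s = LinearMap.toMatrix b' b' (Algebra.lmul R S' s) := rfl
  rw [h1, h2, ← LinearMap.toMatrix_comp, ← LinearMap.toMatrix_comp]
  congr 1
  ext x
  simp

/-- If the matrix of `f : S' →ₐ[R] S` has nonzero determinant (over a domain), then `f`
preserves traces. -/
theorem trace_algHom_of_det_ne_zero [IsDomain R] (b' : Basis ι R S') (b : Basis ι R S)
    (f : S' →ₐ[R] S) (hP : (LinearMap.toMatrix b' b f.toLinearMap).det ≠ 0) (s : S') :
    Algebra.trace R S (f s) = Algebra.trace R S' s := by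
  set P := LinearMap.toMatrix b' b f.toLinearMap with hPdef
  rw [Algebra.trace_eq_matrix_trace b, Algebra.trace_eq_matrix_trace b']
  set M₁ := Algebra.leftMulMatrix b (f s)
  set M₂ := Algebra.leftMulMatrix b' s
  have hrel : M₁ * P = P * M₂ := leftMulMatrix_mul_toMatrix b' b f s
  have h1 : P.det • M₁ = P * M₂ * P.adjugate := by
    rw [← hrel, Matrix.mul_assoc, Matrix.mul_adjugate, Matrix.mul_smul, Matrix.mul_one]
  have h2 : P.det * M₁.trace = P.det * M₂.trace := by
    have h3 : (P.det • M₁).trace = (P * M₂ * P.adjugate).trace := by rw [h1]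
    rw [Matrix.trace_smul, smul_eq_mul, Matrix.trace_mul_cycle, Matrix.adjugate_mul,
      Matrix.smul_mul, Matrix.one_mul, Matrix.trace_smul, smul_eq_mul] at h3
    exact h3
  exact mul_left_cancel₀ hP h2

/-- **(D1c), discriminants.** For an `R`-algebra hom `f : S' → S` between finite free algebras of
the same rank whose matrix `P` has nonzero determinant: `discr b' = det P ^ 2 * discr b`. -/
theorem discr_eq_det_sq_mul_discr [IsDomain R] (b' : Basis ι R S') (b : Basis ι R S)
    (f : S' →ₐ[R] S) (hP : (LinearMap.toMatrix b' b f.toLinearMap).det ≠ 0) :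
    Algebra.discr R b' =
      (LinearMap.toMatrix b' b f.toLinearMap).det ^ 2 * Algebra.discr R b := by
  set P := LinearMap.toMatrix b' b f.toLinearMap with hPdef
  rw [← Algebra.discr_of_matrix_vecMul]
  have hfam : (⇑b ᵥ* P.map (algebraMap R S)) = fun j => f (b' j) := by
    funext j
    simp only [Matrix.vecMul, dotProduct, Matrix.map_apply]
    have h1 : f (b' j) = ∑ i, b.repr (f (b' j)) i • b i := (b.sum_repr _).symm
    rw [h1]
    refine Finset.sum_congr rfl fun i _ => ?_
    rw [hPdef, LinearMap.toMatrix_apply, Algebra.smul_def, mul_comm]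
    rfl
  rw [hfam, Algebra.discr_def, Algebra.discr_def]
  congr 1
  ext i j
  rw [Algebra.traceMatrix_apply, Algebra.traceMatrix_apply, Algebra.traceForm_apply,
    Algebra.traceForm_apply, ← map_mul f, trace_algHom_of_det_ne_zero b' b f hP]

variable [IsLocalRing R]

/-- **(D1c), nilradicals.** `ϖ ^ (dim nil C' - dim nil C)` divides the determinant of the matrix
of an algebra hom `f : S' → S`. -/
theorem pow_sub_dvd_det (h' : IsBasisHom π φ' b' bC') (h : IsBasisHom π φ b bC)
    (hπ : Function.Surjective π) (ϖ : R) (hϖ : maximalIdeal R = Ideal.span {ϖ})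
    (f : S' →ₐ[R] S) :
    ϖ ^ (finrank κ ((nilradical C').restrictScalars κ)
        - finrank κ ((nilradical C).restrictScalars κ)) ∣
      (LinearMap.toMatrix b' b f.toLinearMap).det := by
  set P := LinearMap.toMatrix b' b f.toLinearMap with hPdef
  -- the induced linear map `ψ : C' → C`
  let ψ : C' →ₗ[κ] C := bC'.constr κ (fun i => φ (f (b' i)))
  have hφ'surj : Function.Surjective φ' := by
    intro z
    have hz : z = ∑ i, bC'.repr z i • bC' i := (bC'.sum_repr z).symm
    choose r hr using fun i => hπ (bC'.repr z i)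
    refine ⟨∑ i, r i • b' i, ?_⟩
    rw [map_sum, hz]
    refine Finset.sum_congr rfl fun i _ => ?_
    rw [h'.map_smul', h'.basis, hr]
  have hψφ : ∀ s : S', ψ (φ' s) = φ (f s) := by
    intro s
    have h1 : φ' s = ∑ i, π (b'.repr s i) • bC' i := by
      conv_lhs => rw [← b'.sum_repr s]
      rw [map_sum]
      refine Finset.sum_congr rfl fun i _ => ?_
      rw [h'.map_smul', h'.basis]
    have h2 : φ (f s) = ∑ i, π (b'.repr s i) • φ (f (b' i)) := by
      conv_lhs => rw [← b'.sum_repr s]
      rw [map_sum, map_sum]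
      refine Finset.sum_congr rfl fun i _ => ?_
      rw [map_smul, h.map_smul']
    rw [h1, h2, map_sum]
    refine Finset.sum_congr rfl fun i _ => ?_
    rw [map_smul, Basis.constr_basis]
  -- `ψ` maps nilpotents to nilpotents
  have hψnil : ∀ z : C', IsNilpotent z → IsNilpotent (ψ z) := by
    intro z hz
    obtain ⟨s, rfl⟩ := hφ'surj z
    obtain ⟨k, hk⟩ := hz
    refine ⟨k, ?_⟩
    rw [hψφ, ← map_pow, ← map_pow, ← hψφ, map_pow, hk, map_zero]
  -- rank–nullity on the nilradical
  let N' := (nilradical C').restrictScalars κ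
  let N := (nilradical C).restrictScalars κ
  haveI : Module.Finite κ C' := Module.Finite.of_basis bC'
  haveI : Module.Finite κ C := Module.Finite.of_basis bC
  let ψN : N' →ₗ[κ] N := (ψ.comp N'.subtype).codRestrict N
    (fun z => mem_nilradical.2 (hψnil _ (mem_nilradical.1 z.2)))
  have hker : finrank κ (LinearMap.ker ψN) ≤ finrank κ (LinearMap.ker ψ) := by
    let g : LinearMap.ker ψN →ₗ[κ] LinearMap.ker ψ :=
      (N'.subtype.comp (LinearMap.ker ψN).subtype).codRestrict _ (by
        intro z
        have hz : ψN z.1 = 0 := z.2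
        have hz' : ψ (z.1 : C') = 0 := congrArg Subtype.val hz
        exact hz')
    have hg : Function.Injective g := by
      intro z w hzw
      have h0 : ((g z : LinearMap.ker ψ) : C') = ((g w : LinearMap.ker ψ) : C') :=
        congrArg Subtype.val hzw
      have h1 : ((z : N') : C') = ((w : N') : C') := h0
      exact Subtype.ext (Subtype.ext h1)
    exact LinearMap.finrank_le_finrank_of_injective hg
  have hrn := LinearMap.finrank_range_add_finrank_ker ψN
  have hrange : finrank κ (LinearMap.range ψN) ≤ finrank κ N := Submodule.finrank_le _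
  -- the matrix of `ψ` is the reduction of `P`
  have hmat : LinearMap.toMatrix bC' bC ψ = P.map π := by
    ext i j
    rw [LinearMap.toMatrix_apply, Matrix.map_apply, hPdef, LinearMap.toMatrix_apply,
      Basis.constr_basis]
    exact h.repr_apply _ _
  have hrank : (P.map π).rank = finrank κ (LinearMap.range ψ) := by
    rw [← hmat, Matrix.rank_eq_finrank_range_toLin _ bC bC', Matrix.toLin_toMatrix]
  have hrnψ := LinearMap.finrank_range_add_finrank_ker ψ
  have hcard : finrank κ C' = Fintype.card ι := Module.finrank_eq_card_basis bC'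
  have hdvd := pow_dvd_det_of_rank_le π hπ ϖ hϖ P (P.map π).rank le_rfl
  refine (pow_dvd_pow ϖ ?_).trans hdvd
  have hN' : finrank κ N' = finrank κ ((nilradical C').restrictScalars κ) := rfl
  have hN : finrank κ N = finrank κ ((nilradical C).restrictScalars κ) := rfl
  omega

/-- **Core count on the special fibre.**  Let `f : S' → S` be an `R`-algebra hom between finite
free algebras of the same rank over a local domain `R` with maximal ideal `(ϖ)`, with matrix `P`,
`det P ≠ 0`.  If `ϖ ^ (dim nil (S' ⊗ κ) + 1)` does not divide the discriminant of `S'`, then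
`det P` is a unit (so `f` is an isomorphism). -/
theorem isUnit_det_of_not_pow_succ_dvd_discr [IsDomain R]
    (h' : IsBasisHom π φ' b' bC') (h : IsBasisHom π φ b bC)
    (hπ : Function.Surjective π) (ϖ : R) (hϖ : maximalIdeal R = Ideal.span {ϖ})
    (f : S' →ₐ[R] S) (hP : (LinearMap.toMatrix b' b f.toLinearMap).det ≠ 0)
    (hupper : ¬ ϖ ^ (finrank κ ((nilradical C').restrictScalars κ) + 1) ∣ Algebra.discr R b') :
    IsUnit (LinearMap.toMatrix b' b f.toLinearMap).det := by
  set P := LinearMap.toMatrix b' b f.toLinearMap with hPdef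
  set m' := finrank κ ((nilradical C').restrictScalars κ) with hm'
  set m := finrank κ ((nilradical C).restrictScalars κ) with hm
  by_contra hunit
  have hmem : P.det ∈ maximalIdeal R := (IsLocalRing.mem_maximalIdeal _).2 hunit
  rw [hϖ, Ideal.mem_span_singleton] at hmem
  have h1 : ϖ ^ (m' - m) ∣ P.det := pow_sub_dvd_det h' h hπ ϖ hϖ f
  have h2 : ϖ ^ m ∣ Algebra.discr R b := pow_dvd_discr h hπ ϖ hϖ m le_rfl
  have h3 : Algebra.discr R b' = P.det ^ 2 * Algebra.discr R b :=
    discr_eq_det_sq_mul_discr b' b f hP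
  apply hupper
  rw [h3]
  by_cases hle : m' ≤ m
  · -- `ϖ ^ 2 * ϖ ^ m`
    have h4 : ϖ ^ 2 ∣ P.det ^ 2 := pow_dvd_pow_of_dvd hmem 2
    have h5 : ϖ ^ 2 * ϖ ^ m ∣ P.det ^ 2 * Algebra.discr R b := mul_dvd_mul h4 h2
    refine (pow_dvd_pow ϖ ?_).trans (by rw [pow_add]; exact h5)
    omega
  · have h4 : (ϖ ^ (m' - m)) ^ 2 ∣ P.det ^ 2 := pow_dvd_pow_of_dvd h1 2
    have h5 : (ϖ ^ (m' - m)) ^ 2 * ϖ ^ m ∣ P.det ^ 2 * Algebra.discr R b := mul_dvd_mul h4 h2
    rw [← pow_mul, ← pow_add] at h5
    refine (pow_dvd_pow ϖ ?_).trans h5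
    omega

end D1c

end Fermat.Agent.Lib.Red.Disc
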