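/-
helper15 — RED-DISC: the bricks (M), (D1a), (D1c) and the core count of `DiscMatrix`/`DiscDVR`
for a NON-LOCAL base ring: `π : R →+* κ` is a surjection onto a field whose kernel is generated
by a prime element `ϖ` (e.g. `R = k[X]`, `ϖ = X - C γ`, `π = eval γ`).  No localisation needed.

* `pow_dvd_det_of_le_finrank_ker'`, `pow_dvd_det_of_rank_le'` : (M');
* `pow_dvd_discr'` : (D1a') `ϖ ^ m ∣ discr R b` for `m ≤ dim_κ nilradical (S ⊗ κ)`;
* `pow_sub_dvd_det'` : (D1c');
* `not_dvd_det_of_not_pow_succ_dvd_discr` : the core count: if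
  `¬ ϖ ^ (dim nil (S' ⊗ κ) + 1) ∣ discr R b'` then `ϖ` does not divide the determinant of any
  algebra map `S' → S` (of nonzero determinant) into a finite free algebra of the same rank.
-/
import Mathlib
import Fermat.Agent.Lib.Red.DiscMatrix
import Fermat.Agent.Lib.Red.DiscBase
import Fermat.Agent.Lib.Red.DiscDVR

set_option autoImplicit false
set_option linter.style.haveILetI false

namespace Fermat.Agent.Lib.Red.Disc

open Module Matrix

/-- **(M')** Let `π : R →+* κ` be a surjection onto a field whose kernel is generated by a prime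
element `ϖ`, and `P` a square matrix over `R`.  If the kernel of the reduction `π(P)` has
dimension at least `m`, then `ϖ ^ m ∣ det P`. -/
theorem pow_dvd_det_of_le_finrank_ker' {R : Type*} [CommRing R] [IsDomain R] {κ : Type*}
    [Field κ] (π : R →+* κ) (hπ : Function.Surjective π) {n : Type*}
    [Fintype n] [DecidableEq n] (ϖ : R) (hϖ : Prime ϖ) (hkerπ : RingHom.ker π = Ideal.span {ϖ})
    (P : Matrix n n R) (m : ℕ)
    (hm : m ≤ finrank κ (LinearMap.ker (P.map π).mulVecLin)) :
    ϖ ^ m ∣ P.det := by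
  classical
  have hker : ∀ r : R, π r = 0 ↔ ϖ ∣ r := by
    intro r
    rw [← RingHom.mem_ker, hkerπ, Ideal.mem_span_singleton]
  set V := LinearMap.ker (P.map π).mulVecLin with hV
  -- `m` independent vectors of the kernel
  let bV := Module.finBasis κ V
  let v : Fin m → (n → κ) := fun a => (bV (Fin.castLE hm a) : n → κ)
  have hvV : ∀ a, v a ∈ V := fun a => (bV (Fin.castLE hm a)).2
  have hli : LinearIndependent κ v := by
    have h1 : LinearIndependent κ (fun a : Fin m => bV (Fin.castLE hm a)) :=
      bV.linearIndependent.comp _ (Fin.castLE_injective hm)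
    exact h1.map' V.subtype (Submodule.ker_subtype V)
  -- extend to a basis of `κ^n`
  have hs : LinearIndepOn κ id (Set.range v) := hli.linearIndepOn_id
  let B := Basis.extend hs
  let T := hs.extend (Set.subset_univ (Set.range v))
  have hvT : ∀ a, v a ∈ T := fun a => hs.subset_extend _ ⟨a, rfl⟩
  have hBcoe : ∀ t : T, B t = (t : n → κ) := fun t => Basis.extend_apply_self hs t
  haveI : Finite T := Module.Finite.finite_basis B
  haveI : Fintype T := Fintype.ofFinite _
  have hcard : Fintype.card n = Fintype.card T := by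
    rw [← Module.finrank_eq_card_basis B, Module.finrank_pi]
  let e : n ≃ T := Fintype.equivOfCardEq hcard
  let Qbar : Matrix n n κ := fun i j => (e j : n → κ) i
  have hQbar : Qbar.det ≠ 0 := by
    have h1 : Qbar = (Pi.basisFun κ n).toMatrix (B.reindex e.symm) := by
      ext i j
      simp [Qbar, Basis.toMatrix_apply, hBcoe]
    rw [h1, ← Basis.det_apply]
    exact ((Pi.basisFun κ n).isUnit_det (B.reindex e.symm)).ne_zero
  -- lift to `R`
  choose Q hQ using fun i j => hπ (Qbar i j)
  let Qm : Matrix n n R := fun i j => Q i j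
  have hQm : Qm.map π = Qbar := by
    ext i j
    exact hQ i j
  have hdetQ : ¬ ϖ ∣ Qm.det := by
    rw [← hker, RingHom.map_det, RingHom.mapMatrix_apply, hQm]
    exact hQbar
  -- the columns of `P * Q` indexed by the `v a` are divisible by `ϖ`
  let jj : Fin m → n := fun a => e.symm ⟨v a, hvT a⟩
  have hjj : Function.Injective jj := by
    intro a b hab
    have h1 : (⟨v a, hvT a⟩ : T) = ⟨v b, hvT b⟩ := e.symm.injective hab
    exact hli.injective (show v a = v b from congrArg (fun t : T => (t : n → κ)) h1)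
  let J : Finset n := Finset.univ.map ⟨jj, hjj⟩
  have hJcard : J.card = m := by simp [J]
  have hcols : ∀ i, ∀ j ∈ J, ϖ ∣ (P * Qm) i j := by
    intro i j hj
    obtain ⟨a, -, rfl⟩ := Finset.mem_map.1 hj
    have h0 : π ((P * Qm) i (jj a)) = 0 := by
      have h1 : (P * Qm).map π = P.map π * Qbar := by
        rw [Matrix.map_mul, hQm]
      have h2 : π ((P * Qm) i (jj a)) = ((P * Qm).map π) i (jj a) := rfl
      rw [h2, h1]
      have h3 : (P.map π * Qbar) i (jj a) = ((P.map π).mulVecLin (v a)) i := by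
        rw [Matrix.mul_apply, Matrix.mulVecLin_apply]
        simp only [Matrix.mulVec, dotProduct, Qbar, jj, Equiv.apply_symm_apply]
      rw [h3]
      have h4 := hvV a
      rw [hV, LinearMap.mem_ker] at h4
      rw [h4]
      rfl
    exact (hker _).1 h0
  have hdvd := pow_card_dvd_det_of_dvd_cols (P * Qm) ϖ J hcols
  rw [hJcard, Matrix.det_mul] at hdvd
  exact hϖ.pow_dvd_of_dvd_mul_right m hdetQ hdvd

/-- Variant of **(M')** in terms of the rank: if `rank (π P) ≤ r` then `ϖ ^ (n - r) ∣ det P`. -/
theorem pow_dvd_det_of_rank_le' {R : Type*} [CommRing R] [IsDomain R] {κ : Type*}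
    [Field κ] (π : R →+* κ) (hπ : Function.Surjective π) {n : Type*}
    [Fintype n] [DecidableEq n] (ϖ : R) (hϖ : Prime ϖ) (hkerπ : RingHom.ker π = Ideal.span {ϖ})
    (P : Matrix n n R) (r : ℕ) (hr : (P.map π).rank ≤ r) :
    ϖ ^ (Fintype.card n - r) ∣ P.det := by
  apply pow_dvd_det_of_le_finrank_ker' π hπ ϖ hϖ hkerπ P
  have h1 := LinearMap.finrank_range_add_finrank_ker (P.map π).mulVecLin
  rw [Module.finrank_pi] at h1
  have h2 : (P.map π).rank = finrank κ (LinearMap.range (P.map π).mulVecLin) := rfl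
  omega


section D1a

variable {R S κ C ι : Type*} [CommRing R] [IsDomain R] [CommRing S] [Algebra R S]
  [Field κ] [CommRing C] [Algebra κ C] [Fintype ι] [DecidableEq ι]
  {π : R →+* κ} {φ : S →+* C} {b : Basis ι R S} {bC : Basis ι κ C}

/-- **(D1a')** `ϖ ^ m` divides the discriminant as soon as `m ≤ dim_κ nilradical (S ⊗ κ)`. -/
theorem pow_dvd_discr' (h : IsBasisHom π φ b bC) (hπ : Function.Surjective π) (ϖ : R)
    (hϖ : Prime ϖ) (hkerπ : RingHom.ker π = Ideal.span {ϖ}) (m : ℕ)
    (hm : m ≤ finrank κ ((nilradical C).restrictScalars κ)) :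
    ϖ ^ m ∣ Algebra.discr R b := by
  rw [Algebra.discr_def]
  apply pow_dvd_det_of_le_finrank_ker' π hπ ϖ hϖ hkerπ
  rw [← h.traceMatrix_map]
  exact hm.trans (finrank_nilradical_le_finrank_ker bC)

end D1a

section D1c

variable {R S S' κ C C' ι : Type*} [CommRing R] [IsDomain R] [CommRing S] [Algebra R S]
  [CommRing S'] [Algebra R S'] [Field κ] [CommRing C] [Algebra κ C] [CommRing C'] [Algebra κ C']
  [Fintype ι] [DecidableEq ι]
  {π : R →+* κ} {φ : S →+* C} {b : Basis ι R S} {bC : Basis ι κ C}
  {φ' : S' →+* C'} {b' : Basis ι R S'} {bC' : Basis ι κ C'}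


/-- **(D1c'), nilradicals.** `ϖ ^ (dim nil C' - dim nil C)` divides the determinant of the matrix
of an algebra hom `f : S' → S`. -/
theorem pow_sub_dvd_det' (h' : IsBasisHom π φ' b' bC') (h : IsBasisHom π φ b bC)
    (hπ : Function.Surjective π) (ϖ : R) (hϖ : Prime ϖ) (hkerπ : RingHom.ker π = Ideal.span {ϖ})
    (f : S' →ₐ[R] S) :
    ϖ ^ (finrank κ ((nilradical C').restrictScalars κ)
        - finrank κ ((nilradical C).restrictScalars κ)) ∣
      (LinearMap.toMatrix b' b f.toLinearMap).det := by
  set P := LinearMap.toMatrix b' b f.toLinearMap with hPdef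
  -- the induced linear map `ψ : C' → C`
  let ψ : C' →ₗ[κ] C := bC'.constr κ (fun i => φ (f (b' i)))
  have hφ'surj : Function.Surjective φ' := by
    intro z
    have hz : z = ∑ i, bC'.repr z i • bC' i := (bC'.sum_repr z).symm
    choose r hr using fun i => hπ (bC'.repr z i)
    refine ⟨∑ i, r i • b' i, ?_⟩
    rw [map_sum, hz]
    refine Finset.sum_congr rfl fun i _ => ?_
    rw [h'.map_smul', h'.basis, hr]
  have hψφ : ∀ s : S', ψ (φ' s) = φ (f s) := by
    intro s
    have h1 : φ' s = ∑ i, π (b'.repr s i) • bC' i := by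
      conv_lhs => rw [← b'.sum_repr s]
      rw [map_sum]
      refine Finset.sum_congr rfl fun i _ => ?_
      rw [h'.map_smul', h'.basis]
    have h2 : φ (f s) = ∑ i, π (b'.repr s i) • φ (f (b' i)) := by
      conv_lhs => rw [← b'.sum_repr s]
      rw [map_sum, map_sum]
      refine Finset.sum_congr rfl fun i _ => ?_
      rw [map_smul, h.map_smul']
    rw [h1, h2, map_sum]
    refine Finset.sum_congr rfl fun i _ => ?_
    rw [map_smul, Basis.constr_basis]
  -- `ψ` maps nilpotents to nilpotents
  have hψnil : ∀ z : C', IsNilpotent z → IsNilpotent (ψ z) := by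
    intro z hz
    obtain ⟨s, rfl⟩ := hφ'surj z
    obtain ⟨k, hk⟩ := hz
    refine ⟨k, ?_⟩
    rw [hψφ, ← map_pow, ← map_pow, ← hψφ, map_pow, hk, map_zero]
  -- rank–nullity on the nilradical
  let N' := (nilradical C').restrictScalars κ
  let N := (nilradical C).restrictScalars κ
  haveI : Module.Finite κ C' := Module.Finite.of_basis bC'
  haveI : Module.Finite κ C := Module.Finite.of_basis bC
  let ψN : N' →ₗ[κ] N := (ψ.comp N'.subtype).codRestrict N
    (fun z => mem_nilradical.2 (hψnil _ (mem_nilradical.1 z.2)))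
  have hker : finrank κ (LinearMap.ker ψN) ≤ finrank κ (LinearMap.ker ψ) := by
    let g : LinearMap.ker ψN →ₗ[κ] LinearMap.ker ψ :=
      (N'.subtype.comp (LinearMap.ker ψN).subtype).codRestrict _ (by
        intro z
        have hz : ψN z.1 = 0 := z.2
        have hz' : ψ (z.1 : C') = 0 := congrArg Subtype.val hz
        exact hz')
    have hg : Function.Injective g := by
      intro z w hzw
      have h0 : ((g z : LinearMap.ker ψ) : C') = ((g w : LinearMap.ker ψ) : C') :=
        congrArg Subtype.val hzw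
      have h1 : ((z : N') : C') = ((w : N') : C') := h0
      exact Subtype.ext (Subtype.ext h1)
    exact LinearMap.finrank_le_finrank_of_injective hg
  have hrn := LinearMap.finrank_range_add_finrank_ker ψN
  have hrange : finrank κ (LinearMap.range ψN) ≤ finrank κ N := Submodule.finrank_le _
  -- the matrix of `ψ` is the reduction of `P`
  have hmat : LinearMap.toMatrix bC' bC ψ = P.map π := by
    ext i j
    rw [LinearMap.toMatrix_apply, Matrix.map_apply, hPdef, LinearMap.toMatrix_apply,
      Basis.constr_basis]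
    exact h.repr_apply _ _
  have hrank : (P.map π).rank = finrank κ (LinearMap.range ψ) := by
    rw [← hmat, Matrix.rank_eq_finrank_range_toLin _ bC bC', Matrix.toLin_toMatrix]
  have hrnψ := LinearMap.finrank_range_add_finrank_ker ψ
  have hcard : finrank κ C' = Fintype.card ι := Module.finrank_eq_card_basis bC'
  have hdvd := pow_dvd_det_of_rank_le' π hπ ϖ hϖ hkerπ P (P.map π).rank le_rfl
  refine (pow_dvd_pow ϖ ?_).trans hdvd
  have hN' : finrank κ N' = finrank κ ((nilradical C').restrictScalars κ) := rfl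
  have hN : finrank κ N = finrank κ ((nilradical C).restrictScalars κ) := rfl
  omega

/-- **Core count, prime-element version.**  Let `f : S' → S` be an `R`-algebra hom between finite
free algebras of the same rank over a local domain `R` with maximal ideal `(ϖ)`, with matrix `P`,
`det P ≠ 0`.  If `ϖ ^ (dim nil (S' ⊗ κ) + 1)` does not divide the discriminant of `S'`, then
`det P` is a unit (so `f` is an isomorphism). -/
theorem not_dvd_det_of_not_pow_succ_dvd_discr
    (h' : IsBasisHom π φ' b' bC') (h : IsBasisHom π φ b bC)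
    (hπ : Function.Surjective π) (ϖ : R) (hϖ : Prime ϖ) (hkerπ : RingHom.ker π = Ideal.span {ϖ})
    (f : S' →ₐ[R] S) (hP : (LinearMap.toMatrix b' b f.toLinearMap).det ≠ 0)
    (hupper : ¬ ϖ ^ (finrank κ ((nilradical C').restrictScalars κ) + 1) ∣ Algebra.discr R b') :
    ¬ ϖ ∣ (LinearMap.toMatrix b' b f.toLinearMap).det := by
  set P := LinearMap.toMatrix b' b f.toLinearMap with hPdef
  set m' := finrank κ ((nilradical C').restrictScalars κ) with hm'
  set m := finrank κ ((nilradical C).restrictScalars κ) with hm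
  intro hmem
  have h1 : ϖ ^ (m' - m) ∣ P.det := pow_sub_dvd_det' h' h hπ ϖ hϖ hkerπ f
  have h2 : ϖ ^ m ∣ Algebra.discr R b := pow_dvd_discr' h hπ ϖ hϖ hkerπ m le_rfl
  have h3 : Algebra.discr R b' = P.det ^ 2 * Algebra.discr R b :=
    discr_eq_det_sq_mul_discr b' b f hP
  apply hupper
  rw [h3]
  by_cases hle : m' ≤ m
  · -- `ϖ ^ 2 * ϖ ^ m`
    have h4 : ϖ ^ 2 ∣ P.det ^ 2 := pow_dvd_pow_of_dvd hmem 2
    have h5 : ϖ ^ 2 * ϖ ^ m ∣ P.det ^ 2 * Algebra.discr R b := mul_dvd_mul h4 h2
    refine (pow_dvd_pow ϖ ?_).trans (by rw [pow_add]; exact h5)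
    omega
  · have h4 : (ϖ ^ (m' - m)) ^ 2 ∣ P.det ^ 2 := pow_dvd_pow_of_dvd h1 2
    have h5 : (ϖ ^ (m' - m)) ^ 2 * ϖ ^ m ∣ P.det ^ 2 * Algebra.discr R b := mul_dvd_mul h4 h2
    rw [← pow_mul, ← pow_add] at h5
    refine (pow_dvd_pow ϖ ?_).trans h5
    omega

end D1c

end Fermat.Agent.Lib.Red.Disc
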