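/-
helper15 — RED-DISC, the count: GOOD REDUCTION `red(B ∩ O) = integral closure of k[X] in E`.

Setting: `Lib/Red/Ortho.lean` (fields `F ⊇ F₀`, `E ⊇ E₀`, valuation rings `O`, `O₀`, residue maps)
with `F₀ = Frac L[X]`, `E₀ = Frac k[X]`, the Gauss property (`IsGauss`), and a good basis `G`
which is an `L[X]`-basis of the integral closure `B` of `L[X]` in `F` (`IsIntBasis`; it exists by
`DiscImprove.exists_improved`).  Hypotheses: `E / E₀` separable; the tame discriminant bound for
`B` over `L[X]` (`hTame`, = `DiscTame`); the root count (`hRoots`, = `DiscRoots`); and the branch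
hypothesis `hbranch`: every `γ : k` has a lift `c₀` such that the fibre of `B` over every other
lift is reduced.

* `isIntegral_iff_repr` : `s : E` is integral over `k[X]` iff its coordinates in the reduced
  basis are polynomials (the reduced basis is a `k[X]`-basis of the integral closure);
* `exists_lift_of_isIntegral` : every `s : E` integral over `k[X]` is `red y` with `y ∈ O`
  integral over `L[X]`.
-/
import Mathlib
import Fermat.Agent.Lib.Red.Ortho
import Fermat.Agent.Lib.Red.DiscBase
import Fermat.Agent.Lib.Red.DiscTensor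
import Fermat.Agent.Lib.Red.DiscPrime
import Fermat.Agent.Lib.Red.DiscPoints
import Fermat.Agent.Lib.Red.DiscOrder

set_option autoImplicit false
set_option linter.style.haveILetI false
set_option linter.unusedSectionVars false

namespace Fermat.Agent.Lib.Red.Disc

open Polynomial Module
open Fermat.Agent.Lib.Red.Ortho

section General

variable {P₀ B κ C ι : Type*} [CommRing P₀] [CommRing B] [Algebra P₀ B] [Field κ]
  [CommRing C] [Algebra κ C] [Fintype ι] [DecidableEq ι]
  {π : P₀ →+* κ} {φ : B →+* C} {bB : Basis ι P₀ B} {eC : Basis ι κ C}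

/-- The tame bound in "number of primes" form gives the bound in "nilradical" form. -/
theorem not_pow_succ_dvd_discr_of_primes [IsAlgClosed κ] (h : IsBasisHom π φ bB eC)
    (hπ : Function.Surjective π) (t : P₀) (ht : π t = 0)
    (hT : ∀ Ps : Finset (Ideal B), (∀ P ∈ Ps, P.IsPrime ∧ algebraMap P₀ B t ∈ P) →
      ¬ t ^ (Fintype.card ι - Ps.card + 1) ∣ Algebra.discr P₀ bB) :
    ¬ t ^ (finrank κ ((nilradical C).restrictScalars κ) + 1) ∣ Algebra.discr P₀ bB := by
  classical
  haveI : Module.Finite κ C := Module.Finite.of_basis eC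
  haveI : IsArtinianRing C := IsArtinianRing.of_finite κ C
  haveI : Fintype (MaximalSpectrum C) := Fintype.ofFinite _
  have hφ : Function.Surjective φ := h.surjective hπ
  let g : MaximalSpectrum C → Ideal B := fun I => I.asIdeal.comap φ
  have hg : Function.Injective g := by
    intro I J hIJ
    exact MaximalSpectrum.ext (Ideal.comap_injective_of_surjective φ hφ hIJ)
  have h1 := hT (Finset.univ.image g) (by
    intro P hP
    obtain ⟨I, -, rfl⟩ := Finset.mem_image.1 hP
    haveI := I.isMaximal.isPrime
    refine ⟨Ideal.comap_isPrime φ I.asIdeal, ?_⟩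
    show φ (algebraMap P₀ B t) ∈ I.asIdeal
    rw [h.comm, ht, map_zero]
    exact I.asIdeal.zero_mem)
  rw [Finset.card_image_of_injective _ hg, Finset.card_univ,
    ← finrank_quot_nilradical_eq_card_maximalSpectrum eC] at h1
  have h2 := finrank_quot_nilradical_add eC
  have h3 : Fintype.card ι - finrank κ (C ⧸ nilradical C) =
      finrank κ ((nilradical C).restrictScalars κ) := by omega
  rwa [h3] at h1

/-- If the fibre ideal `t B` is radical, the fibre algebra is reduced. -/
theorem finrank_nilradical_eq_zero_of_isRadical (h : IsBasisHom π φ bB eC)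
    (hπ : Function.Surjective π) (t : P₀) (hker : RingHom.ker π = Ideal.span {t})
    (hrad : (Ideal.span {algebraMap P₀ B t}).IsRadical) :
    finrank κ ((nilradical C).restrictScalars κ) = 0 := by
  have hφ : Function.Surjective φ := h.surjective hπ
  have ht : π t = 0 := by
    rw [← RingHom.mem_ker, hker]
    exact Ideal.subset_span rfl
  have hbot : nilradical C = ⊥ := by
    rw [eq_bot_iff]
    intro w hw
    obtain ⟨y, rfl⟩ := hφ w
    obtain ⟨N, hN⟩ := mem_nilradical.1 hw
    rw [← map_pow, h.map_eq_zero_iff] at hN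
    have h1 : ∀ i, ∃ q : P₀, bB.repr (y ^ N) i = t * q := by
      intro i
      have h2 : bB.repr (y ^ N) i ∈ RingHom.ker π := hN i
      rw [hker, Ideal.mem_span_singleton] at h2
      exact h2
    choose q hq using h1
    have h3 : y ^ N = algebraMap P₀ B t * ∑ i, q i • bB i := by
      conv_lhs => rw [← bB.sum_repr (y ^ N)]
      rw [Finset.mul_sum]
      refine Finset.sum_congr rfl fun i _ => ?_
      rw [hq, mul_smul, Algebra.smul_def]
    have h4 : y ^ N ∈ Ideal.span {algebraMap P₀ B t} := by
      rw [h3]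
      exact Ideal.mul_mem_right _ _ (Ideal.subset_span rfl)
    have h5 : y ∈ Ideal.span {algebraMap P₀ B t} := hrad ⟨N, h4⟩
    obtain ⟨y', rfl⟩ := Ideal.mem_span_singleton.1 h5
    rw [Submodule.mem_bot, map_mul, h.comm, ht, map_zero, zero_mul]
  rw [hbot]
  have h6 : (⊥ : Ideal C).restrictScalars κ = (⊥ : Submodule κ C) := by
    ext x
    simp
  rw [h6]
  exact finrank_bot κ C

end General

section Count

variable {F E : Type*} [Field F] [Field E] {O : ValuationSubring F} {red : O →+* E}
variable {F₀ E₀ : Type*} [Field F₀] [Field E₀] [Algebra F₀ F] [Algebra E₀ E]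
variable {O₀ : ValuationSubring F₀} {red₀ : O₀ →+* E₀}
variable {L k : Type*} [Field L] [Field k] {A : ValuationSubring L} {π : A →+* k}
variable [Algebra L[X] F₀] [Algebra L[X] F] [IsScalarTower L[X] F₀ F] [IsFractionRing L[X] F₀]
variable [Algebra k[X] E₀] [Algebra k[X] E] [IsScalarTower k[X] E₀ E] [IsFractionRing k[X] E₀]
variable {ι : Type*} [Fintype ι] [DecidableEq ι]

/-- Lifting: an element of `E` with polynomial coordinates in the reduced basis is the reduction
of an element of `O` integral over `L[X]`. -/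
theorem exists_lift_of_repr (hG : IsGauss A π O₀ red₀) (G : GoodBasis O red O₀ red₀ ι)
    (hI : IsIntBasis L G) (hπ : Function.Surjective π) (z : E)
    (hz : ∀ i, ∃ q : k[X], G.basisE.repr z i = algebraMap k[X] E₀ q) :
    ∃ y : O, red y = z ∧ IsIntegral L[X] (y : F) := by
  choose q hq using hz
  choose t ht using fun i => Polynomial.map_surjective π hπ (q i)
  let w : ι → O₀ := fun i => ⟨algebraMap L[X] F₀ ((t i).map A.subtype), hG.mem (t i)⟩
  let y : O := ∑ i, ⟨algebraMap F₀ F (w i : F₀), G.compat.algebraMap_mem (w i)⟩ * G.b i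
  refine ⟨y, ?_, ?_⟩
  · show red (∑ i, ⟨algebraMap F₀ F (w i : F₀), G.compat.algebraMap_mem (w i)⟩ * G.b i) = z
    rw [map_sum]
    conv_rhs => rw [← G.basisE.sum_repr z]
    refine Finset.sum_congr rfl fun i _ => ?_
    rw [map_mul, G.compat.red_algebraMap, Algebra.smul_def, GoodBasis.basisE_apply, hq]
    congr 2
    show red₀ ⟨algebraMap L[X] F₀ ((t i).map A.subtype), hG.mem (t i)⟩ = _
    rw [hG.red, ht]
  · have h1 : (y : F) = ∑ i, algebraMap F₀ F (w i : F₀) * (G.b i : F) := by
      show O.subtype y = _
      rw [map_sum]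
      rfl
    rw [h1]
    refine IsIntegral.sum _ fun i _ => IsIntegral.mul ?_ (hI.int i)
    show IsIntegral L[X] (algebraMap F₀ F (algebraMap L[X] F₀ ((t i).map A.subtype)))
    rw [← IsScalarTower.algebraMap_apply]
    exact isIntegral_algebraMap

/-- **Good reduction (the discriminant count).**  The reduced basis is a `k[X]`-basis of the
integral closure of `k[X]` in `E`: every `s : E` integral over `k[X]` has polynomial
coordinates. -/
theorem repr_of_isIntegral [IsAlgClosed L] [IsAlgClosed k] [Algebra.IsSeparable E₀ E]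
    (hG : IsGauss A π O₀ red₀) (G : GoodBasis O red O₀ red₀ ι) (hI : IsIntBasis L G)
    (hπ : Function.Surjective π)
    (hTame : ∀ (bB : Basis ι L[X] ↥(integralClosure L[X] F)) (c : L)
      (Ps : Finset (Ideal ↥(integralClosure L[X] F))),
      (∀ P ∈ Ps, P.IsPrime ∧ algebraMap L[X] ↥(integralClosure L[X] F) (X - C c) ∈ P) →
      ¬ (X - C c) ^ (Fintype.card ι - Ps.card + 1) ∣ Algebra.discr L[X] bB)
    (hRoots : ∀ (g : A[X]) (γ : k) (c₀ : L), g.map π ≠ 0 →
      (∀ c ∈ (g.map A.subtype).roots, ∀ h : c ∈ A, π ⟨c, h⟩ = γ → c = c₀) →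
      (g.map π).rootMultiplicity γ ≤ (g.map A.subtype).rootMultiplicity c₀)
    (hbranch : ∀ γ : k, ∃ c₀ : A, π c₀ = γ ∧ ∀ c : A, π c = γ → c ≠ c₀ →
      (Ideal.span {algebraMap L[X] ↥(integralClosure L[X] F) (X - C (c : L))}).IsRadical)
    (s : E) (hs : IsIntegral k[X] s) :
    ∀ i, ∃ q : k[X], G.basisE.repr s i = algebraMap k[X] E₀ q := by
  classical
  have hinjL : Function.Injective (algebraMap L[X] F₀) := IsFractionRing.injective L[X] F₀
  have hinjk : Function.Injective (algebraMap k[X] E₀) := IsFractionRing.injective k[X] E₀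
  -- the orders
  obtain ⟨bB, hB⟩ := exists_basisB G hI
  obtain ⟨Rb, bR, hR, hmemR, hRS⟩ := exists_rbar hG G hI
  haveI : FiniteDimensional E₀ E := G.finite_E
  -- multiplication matrices of the orders descend to `A[X]`
  have key : ∀ (y : O) (hy : IsIntegral L[X] (y : F)), ∃ m : Matrix ι ι A[X],
      (∀ yB : ↥(integralClosure L[X] F), (yB : F) = (y : F) →
        Algebra.leftMulMatrix bB yB = m.map (mapRingHom A.subtype)) ∧
      (∀ r : ↥Rb, (r : E) = red y → Algebra.leftMulMatrix bR r = m.map (mapRingHom π)) := by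
    intro y hy
    obtain ⟨m, hm1, hm2⟩ := exists_mulMatrix hG G hI y hy
    refine ⟨m, ?_, ?_⟩
    · intro yB hyB
      apply Matrix.map_injective hinjL
      show (Algebra.leftMulMatrix bB yB).map (algebraMap L[X] F₀) =
        (m.map (mapRingHom A.subtype)).map (algebraMap L[X] F₀)
      rw [← hB.leftMulMatrix_map, hm1]
      show Algebra.leftMulMatrix G.basisF (yB : F) = _
      rw [hyB]
    · intro r hr
      apply Matrix.map_injective hinjk
      show (Algebra.leftMulMatrix bR r).map (algebraMap k[X] E₀) =
        (m.map (mapRingHom π)).map (algebraMap k[X] E₀)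
      rw [← hR.leftMulMatrix_map, hm2]
      show Algebra.leftMulMatrix G.basisE (r : E) = _
      rw [hr]
  -- the discriminant descends to `A[X]`
  obtain ⟨D, hDL, hDk⟩ : ∃ D : A[X], D.map A.subtype = Algebra.discr L[X] bB ∧
      D.map π = Algebra.discr k[X] bR := by
    choose m hm1 hm2 using fun (i j : ι) =>
      key (G.b i * G.b j) ((hI.int i).mul (hI.int j))
    have hbBi : ∀ i, ((bB i : ↥(integralClosure L[X] F)) : F) = (G.b i : F) := by
      intro i
      have h1 := hB.basis i
      rw [GoodBasis.basisF_apply] at h1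
      exact h1
    have hbRi : ∀ i, ((bR i : ↥Rb) : E) = red (G.b i) := by
      intro i
      have h1 := hR.basis i
      rw [GoodBasis.basisE_apply] at h1
      exact h1
    refine ⟨(Matrix.of fun i j => (m i j).trace).det, ?_, ?_⟩
    · rw [Algebra.discr_def, ← coe_mapRingHom, RingHom.map_det]
      congr 1
      refine Matrix.ext fun i j => ?_
      rw [Algebra.traceMatrix_apply, Algebra.traceForm_apply, Algebra.trace_eq_matrix_trace bB,
        hm1 i j (bB i * bB j) (by
          show ((bB i : ↥(integralClosure L[X] F)) : F) * ((bB j : ↥(integralClosure L[X] F)) : F)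
            = _
          rw [hbBi, hbBi]
          rfl)]
      simp only [RingHom.mapMatrix_apply, Matrix.map_apply, Matrix.of_apply]
      exact AddMonoidHom.map_trace (mapRingHom A.subtype).toAddMonoidHom (m i j)
    · rw [Algebra.discr_def, ← coe_mapRingHom, RingHom.map_det]
      congr 1
      refine Matrix.ext fun i j => ?_
      rw [Algebra.traceMatrix_apply, Algebra.traceForm_apply, Algebra.trace_eq_matrix_trace bR,
        hm2 i j (bR i * bR j) (by
          show ((bR i : ↥Rb) : E) * ((bR j : ↥Rb) : E) = _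
          rw [hbRi, hbRi, map_mul])]
      simp only [RingHom.mapMatrix_apply, Matrix.map_apply, Matrix.of_apply]
      exact AddMonoidHom.map_trace (mapRingHom π).toAddMonoidHom (m i j)
  have hDk0 : Algebra.discr k[X] bR ≠ 0 := by
    intro h0
    have h1 := hR.discr_map
    rw [h0, map_zero] at h1
    exact Algebra.discr_not_zero_of_basis E₀ G.basisE h1
  have hDL0 : Algebra.discr L[X] bB ≠ 0 := by
    intro h0
    rw [← hDL] at h0
    have h1 : D = 0 := by
      apply Polynomial.map_injective A.subtype Subtype.val_injective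
      rw [h0, Polynomial.map_zero]
    rw [h1, Polynomial.map_zero] at hDk
    exact hDk0 hDk.symm
  -- the integral closure `S` and a basis of it
  haveI : Module.IsTorsionFree k[X] E := by
    have h1 : Function.Injective (algebraMap k[X] E) := by
      rw [IsScalarTower.algebraMap_eq k[X] E₀ E]
      exact (algebraMap E₀ E).injective.comp hinjk
    haveI : FaithfulSMul k[X] E := (faithfulSMul_iff_algebraMap_injective k[X] E).2 h1
    infer_instance
  haveI : Module.Free k[X] ↥(integralClosure k[X] E) :=
    IsIntegralClosure.module_free k[X] E₀ E ↥(integralClosure k[X] E)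
  haveI : Module.Finite k[X] ↥(integralClosure k[X] E) :=
    IsIntegralClosure.finite k[X] E₀ E ↥(integralClosure k[X] E)
  have hrank : finrank k[X] ↥(integralClosure k[X] E) = Fintype.card ι := by
    rw [IsIntegralClosure.rank k[X] E₀ E ↥(integralClosure k[X] E),
      Module.finrank_eq_card_basis G.basisE]
  have hcard : Fintype.card (Module.Free.ChooseBasisIndex k[X] ↥(integralClosure k[X] E)) =
      Fintype.card ι := by
    rw [← Module.finrank_eq_card_chooseBasisIndex, hrank]
  let bS : Basis ι k[X] ↥(integralClosure k[X] E) :=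
    (Module.Free.chooseBasis k[X] ↥(integralClosure k[X] E)).reindex
      (Fintype.equivOfCardEq hcard)
  -- the inclusion `R̄ → S`
  let f : ↥Rb →ₐ[k[X]] ↥(integralClosure k[X] E) := Subalgebra.inclusion hRS
  have hfinj : Function.Injective f := Subalgebra.inclusion_injective hRS
  have hdet0 : (LinearMap.toMatrix bR bS f.toLinearMap).det ≠ 0 := by
    intro h0
    obtain ⟨v, hv0, hv⟩ := Matrix.exists_mulVec_eq_zero_iff.2 h0
    let x : ↥Rb := bR.equivFun.symm v
    have hx : ⇑(bR.repr x) = v := by
      funext i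
      show bR.equivFun x i = v i
      rw [LinearEquiv.apply_symm_apply]
    have h1 := LinearMap.toMatrix_mulVec_repr bR bS f.toLinearMap x
    rw [hx, hv] at h1
    have h2 : f x = 0 := by
      apply bS.repr.injective
      refine DFunLike.ext _ _ fun i => ?_
      have h3 := congrFun h1 i
      simp only [Pi.zero_apply] at h3
      rw [map_zero, Finsupp.zero_apply]
      exact h3.symm
    have h3 : x = 0 := hfinj (h2.trans (map_zero f).symm)
    apply hv0
    rw [← hx, h3]
    funext i
    simp
  -- the count at `γ`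
  have hkey : ∀ γ : k, ¬ (X - C γ) ∣ (LinearMap.toMatrix bR bS f.toLinearMap).det := by
    intro γ
    obtain ⟨Ck, _, _, φk, ek, hk⟩ := exists_isBasisHom (evalRingHom γ) bR
    obtain ⟨CS, _, _, φS, eS, hSb⟩ := exists_isBasisHom (evalRingHom γ) bS
    have hev : Function.Surjective (evalRingHom γ) := fun a => ⟨C a, eval_C⟩
    refine not_dvd_det_of_not_pow_succ_dvd_discr hk hSb hev (X - C γ) (prime_X_sub_C γ)
      (ker_evalRingHom γ) f hdet0 ?_
    obtain ⟨c₀, hc₀, hbr⟩ := hbranch γ
    obtain ⟨CL, _, _, φL, eL, hLb⟩ := exists_isBasisHom (evalRingHom (c₀ : L)) bB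
    have hevL : ∀ c : L, Function.Surjective (evalRingHom c) := fun c a => ⟨C a, eval_C⟩
    have hXc : ∀ c : L, evalRingHom c (X - C c) = 0 := fun c => by simp
    -- tame bound at `c₀`
    have h_tame := not_pow_succ_dvd_discr_of_primes hLb (hevL _) (X - C (c₀ : L)) (hXc _)
      (hTame bB c₀)
    -- points of the special fibre
    have h_m : finrank L ((nilradical CL).restrictScalars L) ≤
        finrank k ((nilradical Ck).restrictScalars k) := by
      refine finrank_nilradical_le_of_charpoly π eL ek ?_
      intro w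
      obtain ⟨r, rfl⟩ := hk.surjective hev w
      obtain ⟨y, hyr, hy⟩ := exists_lift_of_repr hG G hI hπ (r : E) ((hmemR _).1 r.2)
      obtain ⟨m, hm1, hm2⟩ := key y hy
      refine ⟨(m.map (evalRingHom c₀)).charpoly, φL ⟨(y : F), hy⟩, Matrix.charpoly_monic _, ?_,
        ?_⟩
      · rw [hk.charpoly_map, hm2 r hyr.symm, ← Matrix.charpoly_map, ← Matrix.charpoly_map]
        congr 1
        ext i j
        simp only [Matrix.map_apply, coe_mapRingHom, coe_evalRingHom]
        rw [← hc₀, eval_map, eval₂_at_apply]
      · rw [hLb.charpoly_map, hm1 ⟨(y : F), hy⟩ rfl, ← Matrix.charpoly_map,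
          ← Matrix.charpoly_map]
        congr 1
        ext i j
        simp only [Matrix.map_apply, coe_mapRingHom, coe_evalRingHom]
        rw [eval_map]
        exact eval₂_at_apply A.subtype c₀
    -- roots of the discriminant
    have h_roots : (Algebra.discr k[X] bR).rootMultiplicity γ ≤
        (Algebra.discr L[X] bB).rootMultiplicity (c₀ : L) := by
      rw [← hDk, ← hDL]
      refine hRoots D γ c₀ (hDk ▸ hDk0) ?_
      intro c hc hcA hcγ
      by_contra hne
      obtain ⟨CL', _, _, φL', eL', hLb'⟩ := exists_isBasisHom (evalRingHom c) bB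
      have hnil := finrank_nilradical_eq_zero_of_isRadical hLb' (hevL c) (X - C c)
        (ker_evalRingHom c) (hbr ⟨c, hcA⟩ hcγ (fun h => hne (congrArg Subtype.val h)))
      have h1 := not_pow_succ_dvd_discr_of_primes hLb' (hevL c) (X - C c) (hXc c) (hTame bB c)
      rw [hnil, zero_add, pow_one] at h1
      apply h1
      rw [← hDL]
      exact dvd_iff_isRoot.2 (isRoot_of_mem_roots hc)
    intro hdvd
    have h1 := (le_rootMultiplicity_iff hDk0).2 hdvd
    have h2 : ¬ (finrank L ((nilradical CL).restrictScalars L) + 1 ≤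
        (Algebra.discr L[X] bB).rootMultiplicity (c₀ : L)) :=
      fun h => h_tame ((le_rootMultiplicity_iff hDL0).1 h)
    omega
  -- the determinant is a unit
  have hunit : IsUnit (LinearMap.toMatrix bR bS f.toLinearMap).det := by
    rw [isUnit_iff_degree_eq_zero]
    by_contra hdeg
    obtain ⟨γ, hγ⟩ := IsAlgClosed.exists_root _ hdeg
    exact hkey γ (dvd_iff_isRoot.2 hγ)
  have hsurj : Function.Surjective f := by
    have h1 := (LinearEquiv.ofIsUnitDet hunit).surjective
    intro z
    obtain ⟨x, hx⟩ := h1 z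
    refine ⟨x, ?_⟩
    rw [← hx]
    exact (congrFun (congrArg DFunLike.coe (LinearEquiv.coe_ofIsUnitDet hunit)) x).symm
  obtain ⟨r, hr⟩ := hsurj ⟨s, hs⟩
  have h1 : (r : E) = s := congrArg Subtype.val hr
  rw [← h1]
  exact (hmemR _).1 r.2

/-- **Good reduction, lifting form (T1/T3).**  Every `s : E` integral over `k[X]` is the
reduction of an element of `O` integral over `L[X]`. -/
theorem exists_lift_of_isIntegral [IsAlgClosed L] [IsAlgClosed k] [Algebra.IsSeparable E₀ E]
    (hG : IsGauss A π O₀ red₀) (G : GoodBasis O red O₀ red₀ ι) (hI : IsIntBasis L G)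
    (hπ : Function.Surjective π)
    (hTame : ∀ (bB : Basis ι L[X] ↥(integralClosure L[X] F)) (c : L)
      (Ps : Finset (Ideal ↥(integralClosure L[X] F))),
      (∀ P ∈ Ps, P.IsPrime ∧ algebraMap L[X] ↥(integralClosure L[X] F) (X - C c) ∈ P) →
      ¬ (X - C c) ^ (Fintype.card ι - Ps.card + 1) ∣ Algebra.discr L[X] bB)
    (hRoots : ∀ (g : A[X]) (γ : k) (c₀ : L), g.map π ≠ 0 →
      (∀ c ∈ (g.map A.subtype).roots, ∀ h : c ∈ A, π ⟨c, h⟩ = γ → c = c₀) →
      (g.map π).rootMultiplicity γ ≤ (g.map A.subtype).rootMultiplicity c₀)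
    (hbranch : ∀ γ : k, ∃ c₀ : A, π c₀ = γ ∧ ∀ c : A, π c = γ → c ≠ c₀ →
      (Ideal.span {algebraMap L[X] ↥(integralClosure L[X] F) (X - C (c : L))}).IsRadical)
    (s : E) (hs : IsIntegral k[X] s) :
    ∃ y : O, red y = s ∧ IsIntegral L[X] (y : F) :=
  exists_lift_of_repr hG G hI hπ s (repr_of_isIntegral hG G hI hπ hTame hRoots hbranch s hs)

end Count

end Fermat.Agent.Lib.Red.Disc
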