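/-
helper15 — RED-ORTH / RED-DISC: the improvement procedure.

Setting (on top of `Lib/Red/Ortho.lean`): a good basis `G` of `F / F₀` for the valuation rings
`O`, `O₀`; `F₀` is the fraction field of the polynomial ring `L[X]` (`L` algebraically closed),
`A` a valuation subring of `L`, and the polynomials with coefficients in `A` are in `O₀`, the
primitive ones being units of `O₀` (Gauss valuation).

If the `G.b i` are integral over `L[X]`, then there is a good basis `G'`, integral over `L[X]`,
which is an `L[X]`-basis of the integral closure of `L[X]` in `F`: the coordinates of every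
integral element are polynomials (`exists_improved`).
-/
import Mathlib
import Fermat.Agent.Lib.Red.Ortho

set_option autoImplicit false
set_option linter.style.haveILetI false
set_option linter.unnecessarySimpa false
set_option linter.unusedVariables false
set_option linter.unusedSimpArgs false

namespace Fermat.Agent.Lib.Red.Disc

open Polynomial Module
open Fermat.Agent.Lib.Red.Ortho

section

variable {F E : Type*} [Field F] [Field E] {O : ValuationSubring F} {red : O →+* E}
variable {F₀ E₀ : Type*} [Field F₀] [Field E₀] [Algebra F₀ F] [Algebra E₀ E]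
variable {O₀ : ValuationSubring F₀} {red₀ : O₀ →+* E₀}
variable {L : Type*} [Field L]
variable [Algebra L[X] F₀] [Algebra L[X] F] [IsScalarTower L[X] F₀ F] [IsFractionRing L[X] F₀]
variable {ι : Type*} [Fintype ι] [DecidableEq ι]

/-- The trace of an integral element is a polynomial. -/
theorem exists_poly_eq_trace [FiniteDimensional F₀ F] {y : F} (hy : IsIntegral L[X] y) :
    ∃ p : L[X], algebraMap L[X] F₀ p = Algebra.trace F₀ F y :=
  IsIntegrallyClosed.isIntegral_iff.1 (Algebra.isIntegral_trace hy)

/-- The discriminant of an integral good basis is a nonzero polynomial. -/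
theorem exists_poly_eq_discr [Algebra.IsSeparable F₀ F] (G : GoodBasis O red O₀ red₀ ι)
    (hint : ∀ i, IsIntegral L[X] (G.b i : F)) :
    ∃ D : L[X], D ≠ 0 ∧ algebraMap L[X] F₀ D = Algebra.discr F₀ (fun i => (G.b i : F)) := by
  haveI := G.finite_F
  choose t ht using fun i j => exists_poly_eq_trace (F₀ := F₀) ((hint i).mul (hint j))
  have heq : algebraMap L[X] F₀ (Matrix.of t).det = Algebra.discr F₀ (fun i => (G.b i : F)) := by
    rw [Algebra.discr_def, RingHom.map_det]
    congr 1
    ext i j
    simp [ht, Algebra.traceMatrix_apply, Algebra.traceForm_apply]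
  refine ⟨(Matrix.of t).det, ?_, heq⟩
  intro h0
  have h1 : Algebra.discr F₀ (fun i => (G.b i : F)) = 0 := by
    rw [← heq, h0, map_zero]
  have h2 : (fun i => (G.b i : F)) = ⇑G.basisF := by
    funext i
    rw [GoodBasis.basisF_apply]
  rw [h2] at h1
  exact Algebra.discr_not_zero_of_basis F₀ G.basisF h1

omit [DecidableEq ι] in
/-- If some integral element has a non-polynomial coordinate, then some combination
`(∑ a i • b i) / (x - c)` with constant coefficients, not all zero, is integral. -/
theorem exists_improvable_aux [IsAlgClosed L] (G : GoodBasis O red O₀ red₀ ι)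
    (hint : ∀ i, IsIntegral L[X] (G.b i : F)) :
    ∀ (d : ℕ) (y : F) (g : L[X]), g.natDegree = d → g ≠ 0 → IsIntegral L[X] y →
      (∀ i, ∃ p : L[X], algebraMap L[X] F₀ g * G.basisF.repr y i = algebraMap L[X] F₀ p) →
      (¬ ∀ i, ∃ p : L[X], G.basisF.repr y i = algebraMap L[X] F₀ p) →
      ∃ (c : L) (a : ι → L), a ≠ 0 ∧
        IsIntegral L[X] ((algebraMap L[X] F (X - C c))⁻¹ *
          ∑ i, algebraMap L[X] F (C (a i)) * (G.b i : F)) := by
  intro d
  induction d with
  | zero =>
    intro y g hd hg hy hden hnot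
    exfalso
    apply hnot
    intro i
    obtain ⟨p, hp⟩ := hden i
    rw [natDegree_eq_zero] at hd
    obtain ⟨g0, rfl⟩ := hd
    have hg0 : g0 ≠ 0 := by
      rintro rfl
      exact hg (map_zero C)
    refine ⟨C g0⁻¹ * p, ?_⟩
    rw [map_mul, ← hp, ← mul_assoc, ← map_mul, ← C_mul, inv_mul_cancel₀ hg0, C_1, map_one,
      one_mul]
  | succ d ih =>
    intro y g hd hg hy hden hnot
    have hdeg : g.degree ≠ 0 := by
      rw [degree_eq_natDegree hg, hd]
      exact_mod_cast Nat.succ_ne_zero d
    obtain ⟨c, hc⟩ := IsAlgClosed.exists_root g hdeg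
    set g₁ := g /ₘ (X - C c) with hg₁
    have hgg : (X - C c) * g₁ = g := mul_divByMonic_eq_iff_isRoot.2 hc
    have hg₁0 : g₁ ≠ 0 := by
      intro h
      rw [h, mul_zero] at hgg
      exact hg hgg.symm
    have hd₁ : g₁.natDegree = d := by
      have h1 := natDegree_mul (X_sub_C_ne_zero c) hg₁0
      rw [hgg, hd, natDegree_X_sub_C] at h1
      omega
    set y' : F := algebraMap L[X] F g₁ * y with hy'
    have hy'int : IsIntegral L[X] y' := isIntegral_algebraMap.mul hy
    have hrepr : ∀ i, G.basisF.repr y' i = algebraMap L[X] F₀ g₁ * G.basisF.repr y i := by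
      intro i
      have h1 : y' = (algebraMap L[X] F₀ g₁) • y := by
        rw [hy', Algebra.smul_def, ← IsScalarTower.algebraMap_apply]
      rw [h1, map_smul, Finsupp.smul_apply, smul_eq_mul]
    by_cases hall : ∀ i, ∃ p : L[X], G.basisF.repr y' i = algebraMap L[X] F₀ p
    · exact ih y g₁ hd₁ hg₁0 hy (fun i => by
        obtain ⟨p, hp⟩ := hall i
        exact ⟨p, by rw [← hrepr, hp]⟩) hnot
    · choose p hp using hden
      have h1 : ∀ i, algebraMap L[X] F₀ (X - C c) * G.basisF.repr y' i =
          algebraMap L[X] F₀ (p i) := by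
        intro i
        rw [hrepr, ← mul_assoc, ← map_mul, hgg, hp]
      let a : ι → L := fun i => (p i).eval c
      let q : ι → L[X] := fun i => p i /ₘ (X - C c)
      have hpq : ∀ i, p i = C (a i) + (X - C c) * q i := by
        intro i
        have h2 := modByMonic_add_div (p i) (X - C c)
        rw [modByMonic_X_sub_C_eq_C_eval] at h2
        exact h2.symm
      have hxc : algebraMap L[X] F₀ (X - C c) ≠ 0 := by
        rw [Ne, map_eq_zero_iff _ (IsFractionRing.injective L[X] F₀)]
        exact X_sub_C_ne_zero c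
      have h2 : ∀ i, G.basisF.repr y' i - algebraMap L[X] F₀ (q i) =
          (algebraMap L[X] F₀ (X - C c))⁻¹ * algebraMap L[X] F₀ (C (a i)) := by
        intro i
        rw [eq_inv_mul_iff_mul_eq₀ hxc, mul_sub, h1, hpq i, map_add, map_mul]
        ring
      refine ⟨c, a, ?_, ?_⟩
      · intro ha
        apply hall
        intro i
        refine ⟨q i, ?_⟩
        have h3 := h2 i
        rw [show a i = 0 from congrFun ha i, C_0, map_zero, mul_zero, sub_eq_zero] at h3
        exact h3
      · have hz : (algebraMap L[X] F (X - C c))⁻¹ *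
            ∑ i, algebraMap L[X] F (C (a i)) * (G.b i : F) =
            y' - ∑ i, algebraMap L[X] F (q i) * (G.b i : F) := by
          have h3 : y' = ∑ i, algebraMap F₀ F (G.basisF.repr y' i) * (G.b i : F) :=
            (G.sum_repr_mul y').symm
          rw [h3, ← Finset.sum_sub_distrib, Finset.mul_sum]
          refine Finset.sum_congr rfl fun i _ => ?_
          rw [IsScalarTower.algebraMap_apply L[X] F₀ F (q i), ← sub_mul, ← map_sub, h2 i,
            map_mul, map_inv₀, ← IsScalarTower.algebraMap_apply,
            ← IsScalarTower.algebraMap_apply, mul_assoc]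
        rw [hz]
        exact hy'int.sub (IsIntegral.sum _ fun i _ => isIntegral_algebraMap.mul (hint i))

omit [DecidableEq ι] in
/-- If some integral element has a non-polynomial coordinate, then some combination
`(∑ a i • b i) / (x - c)` with constant coefficients, not all zero, is integral. -/
theorem exists_improvable [IsAlgClosed L] (G : GoodBasis O red O₀ red₀ ι)
    (hint : ∀ i, IsIntegral L[X] (G.b i : F)) (y : F) (hy : IsIntegral L[X] y)
    (hnot : ¬ ∀ i, ∃ p : L[X], G.basisF.repr y i = algebraMap L[X] F₀ p) :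
    ∃ (c : L) (a : ι → L), a ≠ 0 ∧
      IsIntegral L[X] ((algebraMap L[X] F (X - C c))⁻¹ *
        ∑ i, algebraMap L[X] F (C (a i)) * (G.b i : F)) := by
  obtain ⟨g, hg⟩ := IsLocalization.exist_integer_multiples_of_finite (nonZeroDivisors L[X])
    (fun i => G.basisF.repr y i)
  refine exists_improvable_aux G hint _ y (g : L[X]) rfl (nonZeroDivisors.ne_zero g.2) hy
    (fun i => ?_) hnot
  obtain ⟨p, hp⟩ := hg i
  exact ⟨p, by rw [hp, Algebra.smul_def]⟩

/-- Replacing one vector of a linearly independent family by a combination in which it occurs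
with nonzero coefficient keeps the family linearly independent. -/
theorem linearIndependent_update_sum {K V : Type*} [Field K] [AddCommGroup V] [Module K V]
    (v : ι → V) (hv : LinearIndependent K v) (i0 : ι) (μ : ι → K) (hμ : μ i0 ≠ 0) :
    LinearIndependent K (Function.update v i0 (∑ j, μ j • v j)) := by
  rw [Fintype.linearIndependent_iff] at hv ⊢
  intro g hg
  have h1 : ∀ i, g i • Function.update v i0 (∑ j, μ j • v j) i =
      g i • v i + (if i = i0 then g i0 • (∑ j, μ j • v j) - g i0 • v i0 else 0) := by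
    intro i
    by_cases hi : i = i0
    · subst hi
      simp
    · simp [hi]
  have h2 : ∑ j, (g j + g i0 * μ j - (if j = i0 then g i0 else 0)) • v j = 0 := by
    rw [← hg]
    simp only [h1, Finset.sum_add_distrib, Finset.sum_ite_eq', Finset.mem_univ, if_true,
      Finset.smul_sum, sub_smul, add_smul, Finset.sum_sub_distrib, ite_smul, zero_smul,
      smul_smul]
    abel
  have h3 := hv _ h2
  have h4 : g i0 = 0 := by
    have h5 := h3 i0
    simp only [if_true] at h5
    have h6 : g i0 * μ i0 = 0 := by linear_combination h5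
    exact (mul_eq_zero.1 h6).resolve_right hμ
  intro j
  have h5 := h3 j
  rw [h4] at h5
  simpa using h5

/-- **One improvement step.** -/
theorem exists_step [Algebra.IsSeparable F₀ F] (A : ValuationSubring L)
    (hmem : ∀ p : L[X], (∀ i, p.coeff i ∈ A) → algebraMap L[X] F₀ p ∈ O₀)
    (hinv : ∀ p : L[X], (∀ i, p.coeff i ∈ A) → (∃ i, p.coeff i ≠ 0 ∧ (p.coeff i)⁻¹ ∈ A) →
      (algebraMap L[X] F₀ p)⁻¹ ∈ O₀)
    (G : GoodBasis O red O₀ red₀ ι) (hint : ∀ i, IsIntegral L[X] (G.b i : F))
    (c : L) (a : ι → L) (ha : a ≠ 0)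
    (hz : IsIntegral L[X] ((algebraMap L[X] F (X - C c))⁻¹ *
      ∑ i, algebraMap L[X] F (C (a i)) * (G.b i : F)))
    (D : L[X]) (hD0 : D ≠ 0)
    (hD : algebraMap L[X] F₀ D = Algebra.discr F₀ (fun i => (G.b i : F))) :
    ∃ (G' : GoodBasis O red O₀ red₀ ι) (D' : L[X]), (∀ i, IsIntegral L[X] (G'.b i : F)) ∧
      D' ≠ 0 ∧ algebraMap L[X] F₀ D' = Algebra.discr F₀ (fun i => (G'.b i : F)) ∧
      D'.natDegree < D.natDegree := by
  classical
  have hinj : Function.Injective (algebraMap L[X] F₀) := IsFractionRing.injective L[X] F₀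
  -- a coefficient of maximal absolute value
  obtain ⟨i₁, hi₁⟩ : ∃ i, a i ≠ 0 := by
    by_contra h
    push Not at h
    exact ha (funext h)
  obtain ⟨i0, -, hmax⟩ := Finset.exists_max_image Finset.univ (fun i => A.valuation (a i))
    ⟨i₁, Finset.mem_univ _⟩
  have hai0 : a i0 ≠ 0 := by
    intro h0
    have h1 := hmax i₁ (Finset.mem_univ _)
    rw [h0, map_zero] at h1
    exact hi₁ ((map_eq_zero (A.valuation)).mp (le_antisymm h1 zero_le))
  have hdiv : ∀ i, a i / a i0 ∈ A := by
    intro i
    rw [← A.valuation_le_one_iff, map_div₀]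
    exact div_le_one_of_le₀ (hmax i (Finset.mem_univ _)) zero_le
  -- the normalised linear polynomial
  obtain ⟨lam, hlam, hpA, hpprim⟩ : ∃ lam : L, lam ≠ 0 ∧
      (∀ i, (C lam * (X - C c)).coeff i ∈ A) ∧
      (∃ i, (C lam * (X - C c)).coeff i ≠ 0 ∧ ((C lam * (X - C c)).coeff i)⁻¹ ∈ A) := by
    by_cases hc : c ∈ A
    · refine ⟨1, one_ne_zero, ?_, ⟨1, ?_, ?_⟩⟩
      · intro i
        rcases i with _ | _ | i
        · simpa using A.neg_mem _ hc
        · simpa using A.one_mem
        · simpa [coeff_X, coeff_C] using A.zero_mem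
      · simp [coeff_X, coeff_C]
      · simpa [coeff_X, coeff_C] using A.one_mem
    · have hc' : c⁻¹ ∈ A := (A.mem_or_inv_mem c).resolve_left hc
      have hc0 : c ≠ 0 := by
        rintro rfl
        exact hc A.zero_mem
      refine ⟨-c⁻¹, neg_ne_zero.2 (inv_ne_zero hc0), ?_, ⟨0, ?_, ?_⟩⟩
      · intro i
        rcases i with _ | _ | i
        · simpa [hc0] using A.one_mem
        · simpa [coeff_X, coeff_C] using A.neg_mem _ hc'
        · simpa [coeff_X, coeff_C] using A.zero_mem
      · simp [hc0]
      · simpa [hc0] using A.one_mem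
  set p : L[X] := C lam * (X - C c) with hp
  have hp0 : p ≠ 0 := mul_ne_zero (C_ne_zero.2 hlam) (X_sub_C_ne_zero c)
  have hpF : algebraMap L[X] F₀ p ≠ 0 := by
    rw [Ne, map_eq_zero_iff _ hinj]
    exact hp0
  set u : F₀ := (algebraMap L[X] F₀ p)⁻¹ with hu
  have huO : u ∈ O₀ := hinv p hpA hpprim
  have hpO : algebraMap L[X] F₀ p ∈ O₀ := hmem p hpA
  have haO : ∀ i, algebraMap L[X] F₀ (C (a i / a i0)) ∈ O₀ := fun i => hmem _ (by
    intro j
    rw [coeff_C]
    split_ifs
    · exact hdiv i
    · exact A.zero_mem)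
  let w : ι → O₀ := fun i => ⟨u * algebraMap L[X] F₀ (C (a i / a i0)), mul_mem huO (haO i)⟩
  have hwi0 : (w i0 : F₀) = u := by
    show u * algebraMap L[X] F₀ (C (a i0 / a i0)) = u
    rw [div_self hai0, C_1, map_one, mul_one]
  let ystar : O := ∑ i, ⟨algebraMap F₀ F (w i : F₀), G.compat.algebraMap_mem (w i)⟩ * G.b i
  have hystar : (ystar : F) = ∑ i, algebraMap F₀ F (w i : F₀) * (G.b i : F) := by
    show O.subtype ystar = _
    rw [map_sum]
    rfl
  -- `ystar` is integral
  have hystar_int : IsIntegral L[X] (ystar : F) := by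
    let φ : L →+* F := (algebraMap L[X] F).comp C
    have hφ : ∀ t : L, algebraMap L[X] F (C t) = φ t := fun _ => rfl
    have h1 : (ystar : F) = algebraMap L[X] F (C (lam * a i0)⁻¹) *
        ((algebraMap L[X] F (X - C c))⁻¹ * ∑ i, algebraMap L[X] F (C (a i)) * (G.b i : F)) := by
      rw [hystar, Finset.mul_sum, Finset.mul_sum]
      refine Finset.sum_congr rfl fun i _ => ?_
      have h2 : algebraMap F₀ F (w i : F₀) =
          (φ lam)⁻¹ * (algebraMap L[X] F (X - C c))⁻¹ * (φ (a i) * (φ (a i0))⁻¹) := by
        show algebraMap F₀ F (u * algebraMap L[X] F₀ (C (a i / a i0))) = _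
        rw [hu, hp, map_mul, map_inv₀, ← IsScalarTower.algebraMap_apply,
          ← IsScalarTower.algebraMap_apply, map_mul, hφ, hφ, map_div₀, mul_inv]
        ring
      rw [h2, hφ, hφ, map_inv₀, map_mul, mul_inv]
      ring
    rw [h1]
    exact isIntegral_algebraMap.mul hz
  -- the new family
  let b' : ι → O := Function.update G.b i0 ystar
  have hred : red ystar = ∑ j, red₀ (w j) • red (G.b j) := by
    show red (∑ i, ⟨algebraMap F₀ F (w i : F₀), G.compat.algebraMap_mem (w i)⟩ * G.b i) = _
    rw [map_sum]
    refine Finset.sum_congr rfl fun i _ => ?_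
    rw [map_mul, G.compat.red_algebraMap, Algebra.smul_def]
  have hw0 : red₀ (w i0) ≠ 0 := by
    rw [Ne, G.compat.ker₀, not_not]
    refine IsUnit.of_mul_eq_one (⟨algebraMap L[X] F₀ p, hpO⟩ : O₀) ?_
    apply Subtype.ext
    show (w i0 : F₀) * algebraMap L[X] F₀ p = 1
    rw [hwi0, hu, inv_mul_cancel₀ hpF]
  have hind' : LinearIndependent E₀ (fun i => red (b' i)) := by
    have h1 : (fun i => red (b' i)) =
        Function.update (fun i => red (G.b i)) i0 (∑ j, red₀ (w j) • red (G.b j)) := by
      funext i
      by_cases hi : i = i0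
      · subst hi
        simp [b', hred]
      · simp [b', Function.update_of_ne hi]
    rw [h1]
    exact linearIndependent_update_sum _ G.ind i0 _ hw0
  haveI : Nonempty ι := ⟨i0⟩
  have hli' : LinearIndependent F₀ (fun i => (b' i : F)) := G.compat.linearIndependent b' hind'
  have hcard : Fintype.card ι = finrank F₀ F := (Module.finrank_eq_card_basis G.basisF).symm
  let B' := basisOfLinearIndependentOfCardEqFinrank hli' hcard
  have hB' : ∀ i, B' i = (b' i : F) := fun i => by
    rw [coe_basisOfLinearIndependentOfCardEqFinrank]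
  let G' : GoodBasis O red O₀ red₀ ι :=
    { compat := G.compat
      surj := G.surj
      b := b'
      ind := hind'
      span := fun y => ⟨fun i => B'.repr y i, by
        conv_lhs => rw [← B'.sum_repr y]
        refine Finset.sum_congr rfl fun i _ => ?_
        rw [Algebra.smul_def, hB']⟩ }
  have hint' : ∀ i, IsIntegral L[X] (G'.b i : F) := by
    intro i
    show IsIntegral L[X] (b' i : F)
    by_cases hi : i = i0
    · subst hi
      simpa [b'] using hystar_int
    · simpa [b', Function.update_of_ne hi] using hint i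
  obtain ⟨D', hD'0, hD'⟩ := exists_poly_eq_discr G' hint'
  refine ⟨G', D', hint', hD'0, hD', ?_⟩
  -- the discriminant drops
  let P : Matrix ι ι F₀ := (1 : Matrix ι ι F₀).updateCol i0 (fun i => (w i : F₀))
  have hfam : (fun i => (G'.b i : F)) =
      Matrix.vecMul (fun i => (G.b i : F)) (P.map (algebraMap F₀ F)) := by
    funext j
    show (b' j : F) = _
    simp only [Matrix.vecMul, dotProduct, Matrix.map_apply, P, Matrix.updateCol_apply]
    by_cases hj : j = i0
    · subst hj
      simp only [b', Function.update_self, if_true]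
      rw [hystar]
      exact Finset.sum_congr rfl fun i _ => mul_comm _ _
    · simp only [b', Function.update_of_ne hj, if_neg hj, Matrix.one_apply]
      simp
  have hdetP : P.det = u := by
    have h1 : P.det = Matrix.cramer (1 : Matrix ι ι F₀) (fun i => (w i : F₀)) i0 :=
      (Matrix.cramer_apply _ _ _).symm
    rw [h1, Matrix.cramer_one]
    exact hwi0
  have h1 : algebraMap L[X] F₀ D' = u ^ 2 * algebraMap L[X] F₀ D := by
    rw [hD', hfam, Algebra.discr_of_matrix_vecMul, hdetP, hD]
  have h2 : D' * p ^ 2 = D := by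
    apply hinj
    rw [map_mul, map_pow, h1, hu]
    field_simp
  have h3 : p.natDegree = 1 := by
    rw [hp, natDegree_C_mul hlam, natDegree_X_sub_C]
  have h4 : D.natDegree = D'.natDegree + 2 * 1 := by
    rw [← h2, natDegree_mul hD'0 (pow_ne_zero 2 hp0), natDegree_pow, h3]
  omega

/-- **Improvement theorem.**  From an integral good basis one gets an integral good basis which
is an `L[X]`-basis of the integral closure: the coordinates of every integral element are
polynomials. -/
theorem exists_improved [IsAlgClosed L] [Algebra.IsSeparable F₀ F] (A : ValuationSubring L)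
    (hmem : ∀ p : L[X], (∀ i, p.coeff i ∈ A) → algebraMap L[X] F₀ p ∈ O₀)
    (hinv : ∀ p : L[X], (∀ i, p.coeff i ∈ A) → (∃ i, p.coeff i ≠ 0 ∧ (p.coeff i)⁻¹ ∈ A) →
      (algebraMap L[X] F₀ p)⁻¹ ∈ O₀)
    (G : GoodBasis O red O₀ red₀ ι) (hint : ∀ i, IsIntegral L[X] (G.b i : F)) :
    ∃ G' : GoodBasis O red O₀ red₀ ι, (∀ i, IsIntegral L[X] (G'.b i : F)) ∧
      ∀ y : F, IsIntegral L[X] y → ∀ i, ∃ p : L[X],
        G'.basisF.repr y i = algebraMap L[X] F₀ p := by
  obtain ⟨D, hD0, hD⟩ := exists_poly_eq_discr G hint
  induction' h : D.natDegree using Nat.strong_induction_on with n ih generalizing G D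
  by_cases hgood : ∀ y : F, IsIntegral L[X] y → ∀ i, ∃ p : L[X],
      G.basisF.repr y i = algebraMap L[X] F₀ p
  · exact ⟨G, hint, hgood⟩
  · push Not at hgood
    obtain ⟨y, hy, hnot⟩ := hgood
    obtain ⟨c, a, ha, hz⟩ := exists_improvable G hint y hy (by
      push Not
      exact hnot)
    obtain ⟨G', D', hint', hD'0, hD', hlt⟩ := exists_step A hmem hinv G hint c a ha hz D hD0 hD
    exact ih D'.natDegree (h ▸ hlt) G' hint' D' hD'0 hD' rfl

end

end Fermat.Agent.Lib.Red.Disc
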