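/-
helper15 — RED-DISC: roots of a polynomial over a valuation ring and of its reduction.

`A` a valuation subring of an algebraically closed field `L`, `π : A →+* k` a ring homomorphism
to a field killing the nonunits, `g : A[X]` with `ḡ = g.map π ≠ 0`.

* `exists_root_of_isRoot_map` : every root `γ` of `ḡ` lifts to a root `c ∈ A` of `g`
  (`π c = γ`), if `π` is surjective;
* `rootMultiplicity_map_le` : if every root `c ∈ A` of `g` with `π c = γ` equals `c₀`, then
  `rootMultiplicity γ ḡ ≤ rootMultiplicity c₀ g`.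
-/
import Mathlib

set_option autoImplicit false
set_option linter.style.haveILetI false

namespace Fermat.Agent.Lib.Red.Disc

open Polynomial

variable {L k : Type*} [Field L] [IsAlgClosed L] [Field k] (A : ValuationSubring L)
  (π : A →+* k)

/-- If `ḡ ≠ 0` and the constant coefficient of `g` dies in `k`, then `g` has a root in the
maximal ideal. -/
theorem exists_root_of_coeff_zero (hπ0 : ∀ a : A, ¬ IsUnit a → π a = 0) (g : A[X])
    (hg : g.map π ≠ 0) (h0 : π (g.coeff 0) = 0) :
    ∃ c : A, (g.map A.subtype).IsRoot (c : L) ∧ π c = 0 := by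
  classical
  set gL := g.map A.subtype with hgL
  by_contra hno
  push Not at hno
  -- every root has its inverse in `A`
  have hinv : ∀ c ∈ gL.roots, c⁻¹ ∈ A := by
    intro c hc
    by_cases hcA : c ∈ A
    · have h1 : π ⟨c, hcA⟩ ≠ 0 := hno ⟨c, hcA⟩ (isRoot_of_mem_roots hc)
      have h2 : IsUnit (⟨c, hcA⟩ : A) := by
        by_contra h
        exact h1 (hπ0 _ h)
      obtain ⟨w, hw⟩ := h2.exists_right_inv
      have h3 : c * (w : L) = 1 := congrArg Subtype.val hw
      rw [← eq_inv_of_mul_eq_one_right h3]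
      exact w.2
    · exact (A.mem_or_inv_mem c).resolve_left hcA
  have hne0 : ∀ c ∈ gL.roots, c ≠ 0 := by
    rintro c hc rfl
    exact hno 0 (isRoot_of_mem_roots hc) (map_zero π)
  -- factorisation
  have hsplit := (IsAlgClosed.splits gL).eq_prod_roots
  let H : L[X] := (gL.roots.map (fun c => 1 - C c⁻¹ * X)).prod
  have hH : gL = C (gL.leadingCoeff * (gL.roots.map (fun c => -c)).prod) * H := by
    conv_lhs => rw [hsplit]
    have h1 : gL.roots.map (fun c => X - C c) =
        gL.roots.map (fun c => C (-c) * (1 - C c⁻¹ * X)) := by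
      refine Multiset.map_congr rfl fun c hc => ?_
      have hc0 := hne0 c hc
      rw [mul_sub, mul_one, ← mul_assoc, ← C_mul, neg_mul, mul_inv_cancel₀ hc0]
      simp
      ring
    rw [h1, Multiset.prod_map_mul, C_mul, mul_assoc]
    congr 2
    rw [← Multiset.prod_hom _ (C : L →+* L[X]), Multiset.map_map]
    rfl
  have hHlift : H ∈ Polynomial.lifts A.subtype := by
    refine Subsemiring.multiset_prod_mem _ _ ?_
    intro f hf
    obtain ⟨c, hc, rfl⟩ := Multiset.mem_map.1 hf
    refine ⟨1 - C ⟨c⁻¹, hinv c hc⟩ * X, ?_⟩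
    simp
  obtain ⟨h, hh⟩ := hHlift
  have hh' : h.map A.subtype = H := hh
  have hH0 : H.coeff 0 = 1 := by
    rw [coeff_zero_eq_eval_zero, eval_multiset_prod, Multiset.map_map]
    have h1 : gL.roots.map (eval 0 ∘ fun c => 1 - C c⁻¹ * X) = gL.roots.map (fun _ => (1 : L)) := by
      refine Multiset.map_congr rfl fun c _ => ?_
      simp
    rw [h1, Multiset.prod_map_one]
  -- the constant is `g(0)`
  have hu : gL.leadingCoeff * (gL.roots.map (fun c => -c)).prod = (g.coeff 0 : L) := by
    have h1 : gL.coeff 0 = (g.coeff 0 : L) := by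
      rw [hgL, coeff_map]
      rfl
    rw [← h1]
    conv_rhs => rw [hH]
    rw [coeff_C_mul, hH0, mul_one]
  have hgeq : g = C (g.coeff 0) * h := by
    apply Polynomial.map_injective A.subtype Subtype.val_injective
    rw [← hgL, hH, hu, Polynomial.map_mul, Polynomial.map_C, hh']
    rfl
  apply hg
  rw [hgeq, Polynomial.map_mul, Polynomial.map_C, h0, C_0, zero_mul]

/-- Every root of the reduction lifts to a root in `A`. -/
theorem exists_root_of_isRoot_map (hπ0 : ∀ a : A, ¬ IsUnit a → π a = 0)
    (hπ : Function.Surjective π) (g : A[X]) (hg : g.map π ≠ 0) (γ : k)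
    (hγ : (g.map π).IsRoot γ) :
    ∃ c : A, (g.map A.subtype).IsRoot (c : L) ∧ π c = γ := by
  obtain ⟨c₁, hc₁⟩ := hπ γ
  set g₁ : A[X] := g.comp (X + C c₁) with hg₁
  have h1 : g₁.map π = (g.map π).comp (X + C γ) := by
    rw [hg₁, Polynomial.map_comp, Polynomial.map_add, Polynomial.map_X, Polynomial.map_C, hc₁]
  have h2 : g₁.map π ≠ 0 := by
    rw [h1]
    intro h0
    apply hg
    have h3 : ((g.map π).comp (X + C γ)).comp (X - C γ) = g.map π := by
      rw [comp_assoc]
      simp
    rw [← h3, h0, zero_comp]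
  have h3 : π (g₁.coeff 0) = 0 := by
    have h4 : π (g₁.coeff 0) = (g₁.map π).coeff 0 := by rw [coeff_map]
    rw [h4, h1, coeff_zero_eq_eval_zero, eval_comp]
    simpa using hγ
  obtain ⟨c, hc, hcπ⟩ := exists_root_of_coeff_zero A π hπ0 g₁ h2 h3
  refine ⟨c + c₁, ?_, by rw [map_add, hcπ, hc₁, zero_add]⟩
  have h4 : g₁.map A.subtype = (g.map A.subtype).comp (X + C (c₁ : L)) := by
    rw [hg₁, Polynomial.map_comp, Polynomial.map_add, Polynomial.map_X, Polynomial.map_C]
    rfl
  rw [h4, IsRoot, eval_comp] at hc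
  simpa using hc

/-- **Root count.**  If every root `c ∈ A` of `g` with `π c = γ` equals `c₀`, then the
multiplicity of `γ` in `ḡ` is at most the multiplicity of `c₀` in `g`. -/
theorem rootMultiplicity_map_le (hπ0 : ∀ a : A, ¬ IsUnit a → π a = 0)
    (hπ : Function.Surjective π) (g : A[X]) (γ : k) (c₀ : L) (hg : g.map π ≠ 0)
    (h : ∀ c ∈ (g.map A.subtype).roots, ∀ hc : c ∈ A, π ⟨c, hc⟩ = γ → c = c₀) :
    (g.map π).rootMultiplicity γ ≤ (g.map A.subtype).rootMultiplicity c₀ := by
  induction' hn : g.natDegree using Nat.strong_induction_on with n ih generalizing g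
  have hinj : Function.Injective (Polynomial.map A.subtype) :=
    Polynomial.map_injective A.subtype Subtype.val_injective
  have hg0 : g ≠ 0 := by
    rintro rfl
    exact hg (Polynomial.map_zero π)
  have hgL0 : g.map A.subtype ≠ 0 := by
    intro h0
    exact hg0 (hinj (h0.trans (Polynomial.map_zero _).symm))
  by_cases hroot : (g.map π).IsRoot γ
  · obtain ⟨c, hc, hcγ⟩ := exists_root_of_isRoot_map A π hπ0 hπ g hg γ hroot
    have hcc : (c : L) = c₀ := h c ((mem_roots hgL0).2 hc) c.2 hcγ
    -- divide by `X - C c`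
    have hrootA : g.IsRoot c := by
      have h1 : (g.map A.subtype).eval (A.subtype c) = A.subtype (g.eval c) := by
        rw [eval_map, eval₂_at_apply]
      have h2 : A.subtype (g.eval c) = 0 := h1.symm.trans hc
      exact Subtype.val_injective h2
    set g' := g /ₘ (X - C c) with hg'
    have hgg : (X - C c) * g' = g := mul_divByMonic_eq_iff_isRoot.2 hrootA
    have hg'0 : g' ≠ 0 := by
      intro h0
      rw [h0, mul_zero] at hgg
      exact hg0 hgg.symm
    have hdeg : g'.natDegree < n := by
      have h1 := natDegree_mul (X_sub_C_ne_zero c) hg'0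
      rw [hgg, hn, natDegree_X_sub_C] at h1
      omega
    have hmapk : g.map π = (X - C γ) * g'.map π := by
      rw [← hgg, Polynomial.map_mul, Polynomial.map_sub, Polynomial.map_X, Polynomial.map_C, hcγ]
    have hmapL : g.map A.subtype = (X - C c₀) * g'.map A.subtype := by
      rw [← hgg, Polynomial.map_mul, Polynomial.map_sub, Polynomial.map_X, Polynomial.map_C,
        ← hcc]
      rfl
    have hg'k : g'.map π ≠ 0 := by
      intro h0
      rw [h0, mul_zero] at hmapk
      exact hg hmapk
    have hih := ih g'.natDegree hdeg g' hg'k (by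
      intro c' hc' hc'A hc'γ
      refine h c' ?_ hc'A hc'γ
      rw [mem_roots hgL0, hmapL, IsRoot, eval_mul]
      rw [mem_roots'] at hc'
      have h1 : (g'.map A.subtype).eval c' = 0 := hc'.2
      rw [h1, mul_zero]) rfl
    rw [hmapk, hmapL, rootMultiplicity_mul (hmapk ▸ hg), rootMultiplicity_mul (hmapL ▸ hgL0),
      rootMultiplicity_X_sub_C_self, rootMultiplicity_X_sub_C_self]
    omega
  · rw [rootMultiplicity_eq_zero hroot]
    exact Nat.zero_le _

end Fermat.Agent.Lib.Red.Disc
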