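/-
helper15 — RED-DISC: the abstract GOOD REDUCTION theorem, assembled
(`DiscImprove` + `DiscOrder` + `DiscCount` + `DiscRootsLe`).

Setting: `Lib/Red/Ortho.lean` with `F₀ = Frac L[X]`, `E₀ = Frac k[X]` (as typeclass data, so that
the same theorem serves the charts `x` and `1/x`), the Gauss property `IsGauss`, and ANY good
basis `G` whose members are integral over `L[X]`.

Hypotheses: `L`, `k` algebraically closed, `F/F₀` and `E/E₀` separable, `π` surjective killing
the nonunits, the tame discriminant bound `hTame` for the integral closure `B` of `L[X]` in `F`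
(= `DiscTame`), and the branch hypothesis `hbranch` (every `γ : k` has a lift `c₀` such that the
fibre ideal `(X - c) B` is radical for every other lift `c`).

Conclusion (`good_reduction`): there is a good basis `G'` which is an `L[X]`-basis of `B`
(`IsIntBasis`), whose reduction is a `k[X]`-basis of the integral closure `S` of `k[X]` in `E`,
and every element of `S` is the reduction of an element of `B ∩ O`.
-/
import Mathlib
import Fermat.Agent.Lib.Red.Ortho
import Fermat.Agent.Lib.Red.DiscImprove
import Fermat.Agent.Lib.Red.DiscOrder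
import Fermat.Agent.Lib.Red.DiscCount
import Fermat.Agent.Lib.Red.DiscRootsLe

set_option autoImplicit false
set_option linter.style.haveILetI false
set_option linter.unusedSectionVars false

namespace Fermat.Agent.Lib.Red.Disc

open Polynomial Module
open Fermat.Agent.Lib.Red.Ortho

variable {F E : Type*} [Field F] [Field E] {O : ValuationSubring F} {red : O →+* E}
variable {F₀ E₀ : Type*} [Field F₀] [Field E₀] [Algebra F₀ F] [Algebra E₀ E]
variable {O₀ : ValuationSubring F₀} {red₀ : O₀ →+* E₀}
variable {L k : Type*} [Field L] [Field k] {A : ValuationSubring L} {π : A →+* k}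
variable [Algebra L[X] F₀] [Algebra L[X] F] [IsScalarTower L[X] F₀ F] [IsFractionRing L[X] F₀]
variable [Algebra k[X] E₀] [Algebra k[X] E] [IsScalarTower k[X] E₀ E] [IsFractionRing k[X] E₀]
variable {ι : Type*} [Fintype ι] [DecidableEq ι]

/-- **Improvement**, in `IsGauss` form: an integral good basis can be replaced by one which is
an `L[X]`-basis of the integral closure. -/
theorem exists_isIntBasis [IsAlgClosed L] [Algebra.IsSeparable F₀ F]
    (hG : IsGauss A π O₀ red₀) (G : GoodBasis O red O₀ red₀ ι)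
    (hint : ∀ i, IsIntegral L[X] (G.b i : F)) :
    ∃ G' : GoodBasis O red O₀ red₀ ι, IsIntBasis L G' := by
  obtain ⟨G', h1, h2⟩ := exists_improved A (fun p hp => hG.mem' p hp)
    (fun p hp hprim => hG.inv_mem G.compat p hp hprim) G hint
  exact ⟨G', ⟨h1, h2⟩⟩

/-- The coordinates of an element of `B ∩ O` in an `IsIntBasis` are polynomials over `A`
(`B ∩ O = ⊕ A[X] b_i`, the free form of T4). -/
theorem exists_poly_repr_of_isIntBasis (hG : IsGauss A π O₀ red₀)
    (G : GoodBasis O red O₀ red₀ ι) (hI : IsIntBasis L G) (y : O)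
    (hy : IsIntegral L[X] (y : F)) :
    ∃ t : ι → A[X], (y : F) = ∑ i, algebraMap L[X] F ((t i).map A.subtype) * (G.b i : F) := by
  choose t ht _ using fun i => exists_poly_repr hG G hI y hy i
  refine ⟨t, ?_⟩
  conv_lhs => rw [← G.sum_repr_mul (y : F)]
  refine Finset.sum_congr rfl fun i _ => ?_
  rw [ht, ← IsScalarTower.algebraMap_apply]

/-- **GOOD REDUCTION (abstract form).** -/
theorem good_reduction [IsAlgClosed L] [IsAlgClosed k] [Algebra.IsSeparable F₀ F]
    [Algebra.IsSeparable E₀ E]
    (hG : IsGauss A π O₀ red₀) (G : GoodBasis O red O₀ red₀ ι)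
    (hint : ∀ i, IsIntegral L[X] (G.b i : F))
    (hπ0 : ∀ a : A, ¬ IsUnit a → π a = 0) (hπ : Function.Surjective π)
    (hTame : ∀ (bB : Basis ι L[X] ↥(integralClosure L[X] F)) (c : L)
      (Ps : Finset (Ideal ↥(integralClosure L[X] F))),
      (∀ P ∈ Ps, P.IsPrime ∧ algebraMap L[X] ↥(integralClosure L[X] F) (X - C c) ∈ P) →
      ¬ (X - C c) ^ (Fintype.card ι - Ps.card + 1) ∣ Algebra.discr L[X] bB)
    (hbranch : ∀ γ : k, ∃ c₀ : A, π c₀ = γ ∧ ∀ c : A, π c = γ → c ≠ c₀ →
      (Ideal.span {algebraMap L[X] ↥(integralClosure L[X] F) (X - C (c : L))}).IsRadical) :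
    ∃ G' : GoodBasis O red O₀ red₀ ι, IsIntBasis L G' ∧
      (∀ s : E, IsIntegral k[X] s ↔
        ∀ i, ∃ q : k[X], G'.basisE.repr s i = algebraMap k[X] E₀ q) ∧
      (∀ s : E, IsIntegral k[X] s → ∃ y : O, red y = s ∧ IsIntegral L[X] (y : F)) := by
  obtain ⟨G', hI⟩ := exists_isIntBasis hG G hint
  have hR := fun (g : A[X]) (γ : k) (c₀ : L) => rootMultiplicity_map_le A π hπ0 hπ g γ c₀
  refine ⟨G', hI, fun s => ⟨fun hs => repr_of_isIntegral hG G' hI hπ hTame hR hbranch s hs,
    fun hs => ?_⟩, fun s hs => exists_lift_of_isIntegral hG G' hI hπ hTame hR hbranch s hs⟩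
  obtain ⟨Rb, bR, -, hmemR, hRS⟩ := exists_rbar hG G' hI
  exact hRS ((hmemR s).2 hs)

end Fermat.Agent.Lib.Red.Disc
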