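/-
Copyright: helper91 (team Fermat). Mathlib only.

# RED-DISC, brick D3: roots of a polynomial over a valuation ring and of its reduction

`A` a valuation ring with algebraically closed fraction field `L`, `π : A →+* k` a surjection onto
a field, `g : A[X]` with `g.map π ≠ 0`.

* `exists_factorization` : `g = u · ∏_{a ∈ s} (X - a) · ∏_{x ∈ d} (1 - x X)` with `π u ≠ 0` and the
  `x ∈ d` nonzero with `π x = 0`; the roots of `g` in `L` are the `a ∈ s` and the `x⁻¹`, `x ∈ d`.
* `exists_roots` : the roots of the reduction are `s.map π`, its degree is `card s`.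
* `card_filter_roots_eq_rootMultiplicity` : `#{roots c of g in L : c ∈ A, π c = γ}` (with
  multiplicity) `= rootMultiplicity γ (g.map π)`.
* `rootMultiplicity_map_eq_of_unique` : if `a₀` is the only root in its residue disc,
  `rootMultiplicity (π a₀) (g.map π) = rootMultiplicity a₀ g`.
* `rootMultiplicity_le_rootMultiplicity_map`, `natDegree_map_eq_card_filter_roots`,
  `exists_root_of_eval_map_eq_zero`.
-/
import Mathlib

namespace Fermat.Agent.Lib.Red.DiscRoots

open Polynomial

variable {A L k : Type*} [CommRing A] [IsDomain A] [ValuationRing A] [Field L] [Algebra A L]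
  [IsFractionRing A L] [Field k]

omit [ValuationRing A] [IsDomain A] in
/-- For a surjection `π` of a local ring onto a field, `π a ≠ 0` iff `a` is a unit. -/
theorem map_ne_zero_iff_isUnit [IsLocalRing A] (π : A →+* k) (hπ : Function.Surjective π) (a : A) :
    π a ≠ 0 ↔ IsUnit a := by
  constructor
  · intro h
    by_contra hu
    apply h
    have hmax : (RingHom.ker π).IsMaximal := RingHom.ker_isMaximal_of_surjective π hπ
    have hker : RingHom.ker π = IsLocalRing.maximalIdeal A := IsLocalRing.eq_maximalIdeal hmax
    have : a ∈ RingHom.ker π := by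
      rw [hker, IsLocalRing.mem_maximalIdeal]; exact hu
    exact this
  · intro hu
    exact (hu.map π).ne_zero

/-- Splitting the roots (in the algebraically closed fraction field) of a polynomial over a
valuation ring into the integral ones and the inverses of non-units. -/
theorem exists_roots_eq (π : A →+* k) (hπ : Function.Surjective π) (t : Multiset L) :
    ∃ s d : Multiset A, t = s.map (algebraMap A L) + d.map (fun x => (algebraMap A L x)⁻¹) ∧
      ∀ x ∈ d, π x = 0 ∧ x ≠ 0 := by
  induction t using Multiset.induction with
  | empty => exact ⟨0, 0, by simp, by simp⟩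
  | cons c t ih =>
    obtain ⟨s, d, hsd, hd⟩ := ih
    rcases ValuationRing.isInteger_or_isInteger A c with ⟨a, ha⟩ | ⟨x, hx⟩
    · refine ⟨a ::ₘ s, d, ?_, hd⟩
      rw [Multiset.map_cons, Multiset.cons_add, ha, hsd]
    · by_cases hx0 : x = 0
      · refine ⟨0 ::ₘ s, d, ?_, hd⟩
        have hc : c = 0 := by
          rw [hx0, map_zero] at hx
          exact inv_eq_zero.mp hx.symm
        rw [Multiset.map_cons, Multiset.cons_add, map_zero, hc, hsd]
      by_cases hxu : IsUnit x
      · obtain ⟨y, hy⟩ := hxu.exists_right_inv
        refine ⟨y ::ₘ s, d, ?_, hd⟩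
        have hc : algebraMap A L y = c := by
          have h1 : algebraMap A L x * algebraMap A L y = 1 := by
            rw [← map_mul, hy, map_one]
          rw [hx] at h1
          have hc0 : c ≠ 0 := by
            rintro rfl
            simp at h1
          field_simp at h1
          exact h1
        rw [Multiset.map_cons, Multiset.cons_add, hc, hsd]
      · refine ⟨s, x ::ₘ d, ?_, ?_⟩
        · rw [Multiset.map_cons, Multiset.add_cons, hx, inv_inv, hsd]
        · intro x' hx'
          rcases Multiset.mem_cons.mp hx' with rfl | hx'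
          · refine ⟨?_, hx0⟩
            by_contra h
            exact hxu ((map_ne_zero_iff_isUnit π hπ _).mp h)
          · exact hd x' hx'

omit [IsDomain A] [ValuationRing A] [IsFractionRing A L] in
theorem prod_X_sub_inv (d : Multiset A) (hd : ∀ x ∈ d, algebraMap A L x ≠ 0) :
    (d.map (fun x => (X - C (algebraMap A L x)⁻¹ : L[X]))).prod
      = C ((d.map (fun x => -(algebraMap A L x)⁻¹)).prod)
        * (d.map (fun x => (1 - C (algebraMap A L x) * X : L[X]))).prod := by
  induction d using Multiset.induction with
  | empty => simp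
  | cons y d ih =>
    have hy : algebraMap A L y ≠ 0 := hd y (Multiset.mem_cons_self y d)
    rw [Multiset.map_cons, Multiset.prod_cons, ih (fun x hx => hd x (Multiset.mem_cons_of_mem hx)),
      Multiset.map_cons, Multiset.prod_cons, Multiset.map_cons, Multiset.prod_cons, C_mul]
    have h1 : (X - C (algebraMap A L y)⁻¹ : L[X])
        = C (-(algebraMap A L y)⁻¹) * (1 - C (algebraMap A L y) * X) := by
      rw [mul_sub, mul_one, ← mul_assoc, ← C_mul, neg_mul, inv_mul_cancel₀ hy, C_neg, C_neg, C_1]
      ring
    rw [h1]
    ring

/-- **Factorisation of a primitive polynomial over a valuation ring** with algebraically closed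
fraction field: `g = u · ∏ (X - a) · ∏ (1 - x X)` with `u` a unit, `a ∈ A`, `x` nonzero
non-units. -/
theorem exists_factorization [IsAlgClosed L] (π : A →+* k) (hπ : Function.Surjective π)
    (g : A[X]) (hg : g.map π ≠ 0) :
    ∃ (u : A) (s d : Multiset A), π u ≠ 0 ∧ (∀ x ∈ d, π x = 0 ∧ x ≠ 0) ∧
      g = C u * ((s.map (fun a => X - C a)).prod * (d.map (fun x => 1 - C x * X)).prod) ∧
      (g.map (algebraMap A L)).roots
        = s.map (algebraMap A L) + d.map (fun x => (algebraMap A L x)⁻¹) := by
  classical
  have hinj : Function.Injective (algebraMap A L) := IsFractionRing.injective A L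
  set gL := g.map (algebraMap A L) with hgL
  obtain ⟨s, d, hsd, hd⟩ := exists_roots_eq π hπ gL.roots
  have hsplit := (IsAlgClosed.splits gL).eq_prod_roots
  set h : A[X] := (s.map (fun a => X - C a)).prod * (d.map (fun x => 1 - C x * X)).prod with hh
  have hhL : h.map (algebraMap A L)
      = (s.map (fun a => (X - C (algebraMap A L a) : L[X]))).prod
        * (d.map (fun x => (1 - C (algebraMap A L x) * X : L[X]))).prod := by
    rw [hh, Polynomial.map_mul, Polynomial.map_multiset_prod, Polynomial.map_multiset_prod,
      Multiset.map_map, Multiset.map_map]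
    congr 2
    · apply Multiset.map_congr rfl
      intro a _
      simp
    · apply Multiset.map_congr rfl
      intro a _
      simp
  have hprod : (gL.roots.map (X - C ·)).prod
      = C ((d.map (fun x => -(algebraMap A L x)⁻¹)).prod) * h.map (algebraMap A L) := by
    rw [hsd, Multiset.map_add, Multiset.prod_add, Multiset.map_map, Multiset.map_map, hhL]
    have h1 := prod_X_sub_inv (L := L) d (fun x hx => by
      rw [Ne, map_eq_zero_iff _ hinj]; exact (hd x hx).2)
    have h2 : (d.map ((fun x => (X - C x : L[X])) ∘ fun x => (algebraMap A L x)⁻¹)).prod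
        = (d.map (fun x => (X - C (algebraMap A L x)⁻¹ : L[X]))).prod := rfl
    rw [h2, h1]
    have h3 : (s.map ((fun x => (X - C x : L[X])) ∘ (algebraMap A L))).prod
        = (s.map (fun a => (X - C (algebraMap A L a) : L[X]))).prod := rfl
    rw [h3]
    ring
  set v : L := gL.leadingCoeff * (d.map (fun x => -(algebraMap A L x)⁻¹)).prod with hv
  have hgv : gL = C v * h.map (algebraMap A L) := by
    conv_lhs => rw [hsplit, hprod]
    rw [hv, C_mul, mul_assoc]
  -- the reduction of `h` is monic of degree `card s`
  have hhbar : h.map π = (s.map (fun a => (X - C (π a) : k[X]))).prod := by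
    rw [hh, Polynomial.map_mul, Polynomial.map_multiset_prod, Polynomial.map_multiset_prod,
      Multiset.map_map, Multiset.map_map]
    have h1 : (d.map (Polynomial.map π ∘ fun x => (1 - C x * X : A[X]))).prod = 1 := by
      apply Multiset.prod_eq_one
      intro p hp
      obtain ⟨x, hx, rfl⟩ := Multiset.mem_map.mp hp
      simp [(hd x hx).1]
    rw [h1, mul_one]
    congr 1
    apply Multiset.map_congr rfl
    intro a _
    simp
  have hmonic : (h.map π).Monic := by
    rw [hhbar]
    apply monic_multiset_prod_of_monic
    intro a _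
    exact monic_X_sub_C _
  have hdeg : (h.map π).natDegree = Multiset.card s := by
    rw [hhbar]
    have := natDegree_multiset_prod_X_sub_C_eq_card (s.map π)
    rw [Multiset.map_map, Multiset.card_map] at this
    exact this
  have hcoeff : π (h.coeff (Multiset.card s)) = 1 := by
    rw [← coeff_map, ← hdeg]
    exact hmonic.coeff_natDegree
  have hunit : IsUnit (h.coeff (Multiset.card s)) :=
    (map_ne_zero_iff_isUnit π hπ _).mp (by rw [hcoeff]; exact one_ne_zero)
  obtain ⟨w, hw⟩ := hunit.exists_right_inv
  set u : A := g.coeff (Multiset.card s) * w with hu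
  have huv : algebraMap A L u = v := by
    have h1 : algebraMap A L (g.coeff (Multiset.card s))
        = v * algebraMap A L (h.coeff (Multiset.card s)) := by
      rw [← coeff_map, ← hgL, hgv, coeff_C_mul, coeff_map]
    rw [hu, map_mul, h1, mul_assoc, ← map_mul, hw, map_one, mul_one]
  have hfac : g = C u * h := by
    apply Polynomial.map_injective (algebraMap A L) hinj
    rw [Polynomial.map_mul, Polynomial.map_C, huv, ← hgv]
  refine ⟨u, s, d, ?_, hd, hfac, hsd⟩
  intro hu0
  apply hg
  rw [hfac, Polynomial.map_mul, Polynomial.map_C, hu0, C_0, zero_mul]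

/-- The data of `exists_factorization` together with the roots of the reduction. -/
theorem exists_roots [IsAlgClosed L] (π : A →+* k) (hπ : Function.Surjective π)
    (g : A[X]) (hg : g.map π ≠ 0) :
    ∃ (s d : Multiset A), (∀ x ∈ d, π x = 0 ∧ x ≠ 0) ∧
      (g.map (algebraMap A L)).roots
        = s.map (algebraMap A L) + d.map (fun x => (algebraMap A L x)⁻¹) ∧
      (g.map π).roots = s.map π ∧ (g.map π).natDegree = Multiset.card s := by
  obtain ⟨u, s, d, hu, hd, hfac, hroots⟩ := exists_factorization (L := L) π hπ g hg
  have hbar : g.map π = C (π u) * (s.map (fun a => (X - C (π a) : k[X]))).prod := by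
    conv_lhs => rw [hfac]
    rw [Polynomial.map_mul, Polynomial.map_C, Polynomial.map_mul, Polynomial.map_multiset_prod,
      Polynomial.map_multiset_prod, Multiset.map_map, Multiset.map_map]
    have h1 : (d.map (Polynomial.map π ∘ fun x => (1 - C x * X : A[X]))).prod = 1 := by
      apply Multiset.prod_eq_one
      intro p hp
      obtain ⟨x, hx, rfl⟩ := Multiset.mem_map.mp hp
      simp [(hd x hx).1]
    rw [h1, mul_one]
    congr 2
    apply Multiset.map_congr rfl
    intro a _
    simp
  have hbar' : g.map π = C (π u) * ((s.map π).map (fun c => (X - C c : k[X]))).prod := by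
    rw [hbar, Multiset.map_map]; rfl
  refine ⟨s, d, hd, hroots, ?_, ?_⟩
  · rw [hbar', roots_C_mul _ hu, roots_multiset_prod_X_sub_C]
  · rw [hbar', natDegree_C_mul hu, natDegree_multiset_prod_X_sub_C_eq_card, Multiset.card_map]

omit [IsDomain A] [ValuationRing A] in
/-- The inverse of a nonzero non-unit is not in `A`. -/
theorem inv_not_mem (π : A →+* k) {x : A}
    (hx : π x = 0) (hx0 : x ≠ 0) (a : A) : algebraMap A L a ≠ (algebraMap A L x)⁻¹ := by
  intro h
  have hinj : Function.Injective (algebraMap A L) := IsFractionRing.injective A L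
  have hxL : algebraMap A L x ≠ 0 := by rw [Ne, map_eq_zero_iff _ hinj]; exact hx0
  have h1 : algebraMap A L (a * x) = algebraMap A L 1 := by
    rw [map_mul, h, inv_mul_cancel₀ hxL, map_one]
  have h2 : a * x = 1 := hinj h1
  have h3 : π (a * x) = 1 := by rw [h2, map_one]
  rw [map_mul, hx, mul_zero] at h3
  exact zero_ne_one h3

open scoped Classical in
/-- **Root count (D3).** For `g ∈ A[X]` with nonzero reduction, the number of roots of `g` in the
residue disc of `γ` (roots in `L`, with multiplicity) is the multiplicity of `γ` as a root of the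
reduction. -/
theorem card_filter_roots_eq_rootMultiplicity [IsAlgClosed L] (π : A →+* k)
    (hπ : Function.Surjective π) (g : A[X]) (hg : g.map π ≠ 0) (γ : k) :
    Multiset.card ((g.map (algebraMap A L)).roots.filter
      (fun c => ∃ a : A, algebraMap A L a = c ∧ π a = γ)) = (g.map π).rootMultiplicity γ := by
  have hinj : Function.Injective (algebraMap A L) := IsFractionRing.injective A L
  obtain ⟨s, d, hd, hroots, hrootsbar, -⟩ := exists_roots (L := L) π hπ g hg
  rw [← count_roots, hrootsbar, hroots, Multiset.filter_add, Multiset.card_add, Multiset.count_map]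
  have h2 : (d.map (fun x => (algebraMap A L x)⁻¹)).filter
      (fun c => ∃ a : A, algebraMap A L a = c ∧ π a = γ) = 0 := by
    rw [Multiset.filter_eq_nil]
    intro c hc
    obtain ⟨x, hx, rfl⟩ := Multiset.mem_map.mp hc
    rintro ⟨a, ha, -⟩
    exact inv_not_mem (L := L) π (hd x hx).1 (hd x hx).2 a ha
  rw [h2, Multiset.card_zero, add_zero, Multiset.filter_map, Multiset.card_map]
  congr 1
  apply Multiset.filter_congr
  intro a _
  simp only [Function.comp_apply]
  constructor
  · rintro ⟨a', ha', rfl⟩
    rw [hinj ha']
  · intro h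
    exact ⟨a, rfl, h.symm⟩

open scoped Classical in
/-- Degree form: the degree of the reduction is the number of roots of `g` lying in `A`. -/
theorem natDegree_map_eq_card_filter_roots [IsAlgClosed L] (π : A →+* k)
    (hπ : Function.Surjective π) (g : A[X]) (hg : g.map π ≠ 0) :
    (g.map π).natDegree = Multiset.card ((g.map (algebraMap A L)).roots.filter
      (fun c => ∃ a : A, algebraMap A L a = c)) := by
  obtain ⟨s, d, hd, hroots, -, hdeg⟩ := exists_roots (L := L) π hπ g hg
  rw [hdeg, hroots, Multiset.filter_add, Multiset.card_add]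
  have h2 : (d.map (fun x => (algebraMap A L x)⁻¹)).filter
      (fun c => ∃ a : A, algebraMap A L a = c) = 0 := by
    rw [Multiset.filter_eq_nil]
    intro c hc
    obtain ⟨x, hx, rfl⟩ := Multiset.mem_map.mp hc
    rintro ⟨a, ha⟩
    exact inv_not_mem (L := L) π (hd x hx).1 (hd x hx).2 a ha
  rw [h2, Multiset.card_zero, add_zero, Multiset.filter_map, Multiset.card_map]
  congr 1
  symm
  rw [Multiset.filter_eq_self]
  intro a _
  exact ⟨a, rfl⟩

/-- Every lift `a` of `γ`: the multiplicity of `a` as a root of `g` is at most the multiplicity of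
`γ` as a root of the reduction. -/
theorem rootMultiplicity_le_rootMultiplicity_map [IsAlgClosed L] (π : A →+* k)
    (hπ : Function.Surjective π) (g : A[X]) (hg : g.map π ≠ 0) (a : A) :
    (g.map (algebraMap A L)).rootMultiplicity (algebraMap A L a)
      ≤ (g.map π).rootMultiplicity (π a) := by
  classical
  have hinj : Function.Injective (algebraMap A L) := IsFractionRing.injective A L
  obtain ⟨s, d, hd, hroots, hrootsbar, -⟩ := exists_roots (L := L) π hπ g hg
  rw [← count_roots, ← count_roots, hrootsbar, hroots, Multiset.count_add,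
    Multiset.count_map_eq_count' _ _ hinj]
  have h2 : Multiset.count (algebraMap A L a) (d.map (fun x => (algebraMap A L x)⁻¹)) = 0 := by
    rw [Multiset.count_eq_zero]
    intro hc
    obtain ⟨x, hx, hxa⟩ := Multiset.mem_map.mp hc
    exact inv_not_mem (L := L) π (hd x hx).1 (hd x hx).2 a hxa.symm
  rw [h2, add_zero, Multiset.count_map, Multiset.count_eq_card_filter_eq]
  apply Multiset.card_le_card
  apply Multiset.monotone_filter_right
  intro b hb
  rw [hb]

/-- **Unique lift.** If `a₀` is the only root of `g` in its residue disc, then its multiplicity is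
the multiplicity of `π a₀` as a root of the reduction. -/
theorem rootMultiplicity_map_eq_of_unique [IsAlgClosed L] (π : A →+* k)
    (hπ : Function.Surjective π) (g : A[X]) (hg : g.map π ≠ 0) (a₀ : A)
    (huniq : ∀ a : A, π a = π a₀ → (g.map (algebraMap A L)).IsRoot (algebraMap A L a) → a = a₀) :
    (g.map π).rootMultiplicity (π a₀)
      = (g.map (algebraMap A L)).rootMultiplicity (algebraMap A L a₀) := by
  classical
  have hinj : Function.Injective (algebraMap A L) := IsFractionRing.injective A L
  have hgL0 : g.map (algebraMap A L) ≠ 0 := by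
    intro h0
    apply hg
    have : g = 0 := Polynomial.map_injective _ hinj (by rw [h0, Polynomial.map_zero])
    rw [this, Polynomial.map_zero]
  obtain ⟨s, d, hd, hroots, hrootsbar, -⟩ := exists_roots (L := L) π hπ g hg
  rw [← count_roots, ← count_roots, hrootsbar, hroots, Multiset.count_add,
    Multiset.count_map_eq_count' _ _ hinj]
  have h2 : Multiset.count (algebraMap A L a₀) (d.map (fun x => (algebraMap A L x)⁻¹)) = 0 := by
    rw [Multiset.count_eq_zero]
    intro hc
    obtain ⟨x, hx, hxa⟩ := Multiset.mem_map.mp hc
    exact inv_not_mem (L := L) π (hd x hx).1 (hd x hx).2 a₀ hxa.symm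
  rw [h2, add_zero, Multiset.count_map, Multiset.count_eq_card_filter_eq]
  congr 1
  apply Multiset.filter_congr
  intro a ha
  constructor
  · intro h
    have hroot : (g.map (algebraMap A L)).IsRoot (algebraMap A L a) := by
      apply isRoot_of_mem_roots
      rw [hroots]
      exact Multiset.mem_add.mpr (Or.inl (Multiset.mem_map_of_mem _ ha))
    exact (huniq a h.symm hroot).symm
  · intro h
    rw [h]

/-- No root of `g` in the residue disc of `γ` iff the reduction does not vanish at `γ`
(one direction of Hensel's lemma for split polynomials). -/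
theorem exists_root_of_eval_map_eq_zero [IsAlgClosed L] (π : A →+* k)
    (hπ : Function.Surjective π) (g : A[X]) (hg : g.map π ≠ 0) (γ : k)
    (hγ : (g.map π).eval γ = 0) :
    ∃ a : A, π a = γ ∧ (g.map (algebraMap A L)).IsRoot (algebraMap A L a) := by
  classical
  obtain ⟨s, d, hd, hroots, hrootsbar, -⟩ := exists_roots (L := L) π hπ g hg
  have h1 : γ ∈ (g.map π).roots := (mem_roots hg).mpr hγ
  rw [hrootsbar] at h1
  obtain ⟨a, ha, rfl⟩ := Multiset.mem_map.mp h1
  refine ⟨a, rfl, ?_⟩
  apply isRoot_of_mem_roots
  rw [hroots]
  exact Multiset.mem_add.mpr (Or.inl (Multiset.mem_map_of_mem _ ha))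

/-- The statements apply verbatim to `A : ValuationSubring L`. -/
example {L k : Type*} [Field L] [IsAlgClosed L] [Field k] (A : ValuationSubring L) (π : A →+* k)
    (hπ : Function.Surjective π) (g : Polynomial A) (hg : g.map π ≠ 0) (a₀ : A)
    (huniq : ∀ a : A, π a = π a₀ → (g.map (algebraMap A L)).IsRoot (algebraMap A L a) → a = a₀) :
    (g.map π).rootMultiplicity (π a₀)
      = (g.map (algebraMap A L)).rootMultiplicity (algebraMap A L a₀) :=
  rootMultiplicity_map_eq_of_unique π hπ g hg a₀ huniq

end Fermat.Agent.Lib.Red.DiscRoots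

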