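/-
Copyright: helper91 (team Fermat). Mathlib only.

# RED-DISC, brick D1(b): the tame discriminant bound

`𝔬` a Dedekind domain (e.g. a DVR, or `L[X]`), `t : 𝔬` a prime element whose residue field
`𝔬 ⧸ (t)` has characteristic zero, `B` a Dedekind domain which is a finite free `𝔬`-algebra with
basis `b`.  Then

  `ord_t (discr 𝔬 b) ≤ rank B - #{primes of B over t}`.

Main statements:
* `not_pow_dvd_discr` : `¬ t ^ (card ι - Ps.card + 1) ∣ Algebra.discr 𝔬 b` for any finite set `Ps`
  of primes of `B` containing `t`;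
* `rootMultiplicity_discr_le` : the same for `𝔬 = L[X]`, `t = X - C c`, as a bound on
  `rootMultiplicity c (discr)`;
* `rootMultiplicity_discr_le_of_characters` : the same with the primes given by ring homs
  `B →+* L` lying over evaluation at `c`.

Proof: (i) Mathlib's `not_dvd_differentIdeal_of_intTrace_not_mem` applied to the CRT idempotent
at `P` (its trace mod `t` is the rank of a nonzero projection, nonzero in characteristic zero)
gives `P ^ e ∤ differentIdeal` (`P ^ e ∥ t`); (ii) prime avoidance gives `x : B` with norm prime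
to `t` and `t * x ∈ differentIdeal`, hence a matrix `W` over `𝔬` with `W * G = t • M_x`
(`G` the trace matrix); (iii) `rank (G mod t) ≥ #primes` by the same idempotents; (iv) linear
algebra over the field `𝔬 ⧸ (t)`.
-/
import Mathlib

namespace Fermat.Agent.Lib.Red.DiscTame

open Matrix Module nonZeroDivisors

attribute [local instance] Ideal.Quotient.field FractionRing.liftAlgebra
  FractionRing.isScalarTower_liftAlgebra

section LinearAlgebra

/-- Lifting a product of transvections along a surjective ring hom. -/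
theorem exists_lift_transvec_prod {R κ : Type*} [CommRing R] [Field κ] (φ : R →+* κ)
    (hφ : Function.Surjective φ) {n : Type*} [Fintype n] [DecidableEq n]
    (L : List (TransvectionStruct n κ)) :
    ∃ U : Matrix n n R, U.det = 1 ∧ U.map φ = (L.map TransvectionStruct.toMatrix).prod := by
  induction L with
  | nil => exact ⟨1, by simp, by simp⟩
  | cons a L ih =>
    obtain ⟨U, hU, hU'⟩ := ih
    obtain ⟨c, hc⟩ := hφ a.c
    refine ⟨Matrix.transvection a.i a.j c * U, ?_, ?_⟩
    · rw [Matrix.det_mul, Matrix.det_transvection_of_ne _ _ a.hij, hU, one_mul]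
    · rw [Matrix.map_mul, hU', List.map_cons, List.prod_cons]
      congr 1
      ext i j
      simp only [TransvectionStruct.toMatrix, Matrix.transvection, Matrix.map_apply,
        Matrix.add_apply, Matrix.one_apply, Matrix.single_apply, map_add]
      congr 1
      · split_ifs <;> simp
      · split_ifs <;> simp [hc]

/-- If the reduction of `M` modulo the prime `t` has rank at most `s`, then `t ^ (n - s)`
divides `det M`. -/
theorem pow_dvd_det_of_rank_le {R κ : Type*} [CommRing R] [Field κ] (φ : R →+* κ)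
    (hφ : Function.Surjective φ) (t : R) (hker : ∀ a, φ a = 0 → t ∣ a)
    {n : Type*} [Fintype n] [DecidableEq n] (M : Matrix n n R) (s : ℕ)
    (h : (M.map φ).rank ≤ s) : t ^ (Fintype.card n - s) ∣ M.det := by
  classical
  obtain ⟨L, L', D, hD⟩ :=
    Matrix.Pivot.exists_list_transvec_mul_mul_list_transvec_eq_diagonal (M.map φ)
  obtain ⟨U, hU, hU'⟩ := exists_lift_transvec_prod φ hφ L
  obtain ⟨V, hV, hV'⟩ := exists_lift_transvec_prod φ hφ L'
  set N := U * M * V with hN
  have hNmap : N.map φ = diagonal D := by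
    rw [hN, Matrix.map_mul, Matrix.map_mul, hU', hV', hD]
  have hdet : N.det = M.det := by
    rw [hN, Matrix.det_mul, Matrix.det_mul, hU, hV, one_mul, mul_one]
  have hrank : (diagonal D).rank = (M.map φ).rank := by
    rw [← hD]
    rw [rank_mul_eq_left_of_isUnit_det, rank_mul_eq_right_of_isUnit_det]
    · rw [TransvectionStruct.det_toMatrix_prod]; exact isUnit_one
    · rw [TransvectionStruct.det_toMatrix_prod]; exact isUnit_one
  rw [rank_diagonal] at hrank
  -- the columns with `D j = 0` are divisible by `t`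
  have hcol : ∀ i j, D j = 0 → t ∣ N i j := by
    intro i j hj
    apply hker
    have := congrFun (congrFun hNmap i) j
    rw [Matrix.map_apply] at this
    rw [this, Matrix.diagonal_apply]
    split_ifs with hij
    · rw [hij]; exact hj
    · rfl
  choose q hq using hcol
  let v : n → R := fun j => if D j = 0 then t else 1
  let N' : Matrix n n R := Matrix.of fun i j => if hj : D j = 0 then q i j hj else N i j
  have hNN' : N = Matrix.of fun i j => v j * N' i j := by
    ext i j
    simp only [Matrix.of_apply, v, N']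
    split_ifs with hj
    · exact hq i j hj
    · rw [one_mul]
  have hdet' : N.det = (∏ j, v j) * N'.det := by
    conv_lhs => rw [hNN']
    exact Matrix.det_mul_row v N'
  have hprod : ∏ j, v j = t ^ (Finset.univ.filter (fun j => D j = 0)).card := by
    simp only [v]
    rw [Finset.prod_ite, Finset.prod_const, Finset.prod_const_one, mul_one]
  have hcard : Fintype.card n - s ≤ (Finset.univ.filter (fun j => D j = 0)).card := by
    have h1 : (Finset.univ.filter (fun j => D j = 0)).card
        + (Finset.univ.filter (fun j => ¬ D j = 0)).card = Fintype.card n := by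
      rw [Finset.card_filter_add_card_filter_not]; rfl
    have h2 : Fintype.card {i // D i ≠ 0} = (Finset.univ.filter (fun j => ¬ D j = 0)).card := by
      rw [Fintype.card_subtype]
    omega
  rw [← hdet, hdet', hprod]
  exact Dvd.dvd.mul_right (pow_dvd_pow t hcard) _


end LinearAlgebra

section Dedekind

variable {𝔬 B : Type*} [CommRing 𝔬] [IsDedekindDomain 𝔬] [CommRing B] [IsDedekindDomain B]
  [Algebra 𝔬 B] [Module.Finite 𝔬 B] [Module.IsTorsionFree 𝔬 B]

theorem span_isMaximal {t : 𝔬} (ht : Prime t) : (Ideal.span {t}).IsMaximal :=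
  ((Ideal.span_singleton_prime ht.ne_zero).mpr ht).isMaximal (by simp [ht.ne_zero])

omit [Module.Finite 𝔬 B] in
theorem map_span_ne_bot {t : 𝔬} (ht : Prime t) :
    (Ideal.span {t}).map (algebraMap 𝔬 B) ≠ ⊥ := by
  rw [Ne, Ideal.map_eq_bot_iff_of_injective (FaithfulSMul.algebraMap_injective 𝔬 B)]
  simp [ht.ne_zero]

/-- The CRT idempotent at a prime `P` over `t`: its trace is a unit modulo `t` when the residue
field of `t` has characteristic zero. -/
theorem exists_idem {t : 𝔬} (ht : Prime t) [CharZero (𝔬 ⧸ Ideal.span {t})]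
    (P : Ideal B) [P.IsPrime] (hP : algebraMap 𝔬 B t ∈ P) :
    ∃ (e : ℕ) (Q : Ideal B) (ε : B), e ≠ 0 ∧ P ⊔ Q = ⊤ ∧
      P ^ e * Q = (Ideal.span {t}).map (algebraMap 𝔬 B) ∧ ε ∈ Q ∧ 1 - ε ∈ P ^ e ∧
      Algebra.intTrace 𝔬 B ε ∉ Ideal.span {t} := by
  classical
  have hmax := span_isMaximal ht
  have hpB : (Ideal.span {t}).map (algebraMap 𝔬 B) ≠ ⊥ := map_span_ne_bot ht
  have hpBP : (Ideal.span {t}).map (algebraMap 𝔬 B) ≤ P := by
    rw [Ideal.map_span, Ideal.span_le]
    rintro _ ⟨x, hx, rfl⟩
    rw [Set.mem_singleton_iff] at hx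
    rw [hx]; exact hP
  have hPbot : P ≠ ⊥ := fun h => hpB (le_bot_iff.mp (h ▸ hpBP))
  have hPmax : P.IsMaximal := Ideal.IsPrime.isMaximal inferInstance hPbot
  obtain ⟨Q, hPQ, hfac⟩ := Ideal.eq_prime_pow_mul_coprime hpB P
  set e := Multiset.count P (UniqueFactorizationMonoid.normalizedFactors
    ((Ideal.span {t}).map (algebraMap 𝔬 B))) with he
  have he0 : e ≠ 0 := by
    intro h0
    rw [h0, pow_zero, one_mul] at hfac
    have : Q ≤ P := hfac ▸ hpBP
    rw [sup_eq_left.mpr this] at hPQ
    exact hPmax.ne_top hPQ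
  have hcop : P ^ e ⊔ Q = ⊤ := Ideal.pow_sup_eq_top hPQ
  obtain ⟨u, hu, ε, hε, huε⟩ := Submodule.mem_sup.mp ((Ideal.eq_top_iff_one _).mp hcop)
  have h1ε : 1 - ε ∈ P ^ e := by
    have : 1 - ε = u := by rw [← huε]; ring
    rw [this]; exact hu
  refine ⟨e, Q, ε, he0, hPQ, hfac.symm, hε, h1ε, ?_⟩
  -- the trace
  rw [← Ideal.Quotient.eq_zero_iff_mem, ← Algebra.trace_quotient_eq_of_isDedekindDomain]
  set εb : B ⧸ (Ideal.span {t}).map (algebraMap 𝔬 B) := Ideal.Quotient.mk _ ε with hεb
  have hidem : εb * εb = εb := by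
    rw [hεb, ← map_mul, Ideal.Quotient.eq, hfac]
    have : ε * ε - ε = - ((1 - ε) * ε) := by ring
    rw [this]
    exact neg_mem (Ideal.mul_mem_mul h1ε hε)
  have hne : εb ≠ 0 := by
    rw [hεb, Ne, Ideal.Quotient.eq_zero_iff_mem]
    intro hmem
    have h1 : ε ∈ P := hpBP hmem
    have h2 : 1 - ε ∈ P := Ideal.pow_le_self he0 h1ε
    have : (1 : B) ∈ P := by
      have := P.add_mem h1 h2
      simpa using this
    exact hPmax.ne_top ((Ideal.eq_top_iff_one _).mpr this)
  rw [Algebra.trace_apply]
  have hI : IsIdempotentElem (Algebra.lmul (𝔬 ⧸ Ideal.span {t})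
      (B ⧸ (Ideal.span {t}).map (algebraMap 𝔬 B)) εb) := by
    rw [IsIdempotentElem, ← map_mul, hidem]
  rw [LinearMap.IsIdempotentElem.trace_eq_zero_iff hI]
  intro h0
  apply hne
  have := congrArg (fun f => f 1) h0
  simpa using this

/-- An element `d` of the different ideal gives a matrix `W` over the base ring with
`W * G = M_d` (`G` the trace matrix, `M_d` the matrix of multiplication by `d`). -/
theorem exists_mul_traceMatrix_eq {ι : Type*} [Fintype ι] [DecidableEq ι] (b : Basis ι 𝔬 B)
    [Algebra.IsSeparable (FractionRing 𝔬) (FractionRing B)]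
    (d : B) (hd : d ∈ differentIdeal 𝔬 B) :
    ∃ W : Matrix ι ι 𝔬, W * Algebra.traceMatrix 𝔬 b = Algebra.leftMulMatrix b d := by
  classical
  let K := FractionRing 𝔬
  let L := FractionRing B
  have hfree : Module.Free 𝔬 B := Module.Free.of_basis b
  have : IsLocalization (Algebra.algebraMapSubmonoid B 𝔬⁰) L :=
    IsIntegralClosure.isLocalization _ K _ _
  have : FiniteDimensional K L := .of_isLocalization 𝔬 B 𝔬⁰
  let bL : Basis ι K L := b.localizationLocalization K 𝔬⁰ L
  have hbL : ∀ i, bL i = algebraMap B L (b i) := fun i =>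
    Basis.localizationLocalization_apply K 𝔬⁰ L b i
  let dual := (Algebra.traceForm K L).dualBasis (traceForm_nondegenerate K L) bL
  -- key computation
  have htr : ∀ i (a : B), Algebra.traceForm K L (dual i) (algebraMap B L a)
      = algebraMap 𝔬 K (b.repr a i) := by
    intro i a
    have ha : algebraMap B L a = ∑ j, algebraMap 𝔬 K (b.repr a j) • bL j := by
      conv_lhs => rw [← b.sum_repr a]
      rw [map_sum]
      refine Finset.sum_congr rfl fun j _ => ?_
      rw [hbL, Algebra.smul_def, map_mul, ← IsScalarTower.algebraMap_apply,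
        Algebra.smul_def, ← IsScalarTower.algebraMap_apply]
    rw [ha, map_sum]
    simp only [map_smul, smul_eq_mul]
    rw [Finset.sum_eq_single i]
    · rw [LinearMap.BilinForm.apply_dualBasis_left]; simp
    · intro j _ hji
      rw [LinearMap.BilinForm.apply_dualBasis_left]; simp [hji]
    · intro h; exact absurd (Finset.mem_univ i) h
  have hdual : ∀ i, dual i ∈ FractionalIdeal.dual 𝔬 K (1 : FractionalIdeal B⁰ L) := by
    intro i
    rw [FractionalIdeal.mem_dual (by simp)]
    intro a ha
    obtain ⟨a', rfl⟩ := (FractionalIdeal.mem_one_iff _).mp ha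
    rw [htr]
    exact ⟨_, rfl⟩
  have hd' : algebraMap B L d ∈ (FractionalIdeal.dual 𝔬 K (1 : FractionalIdeal B⁰ L))⁻¹ := by
    rw [← coeIdeal_differentIdeal 𝔬 K L B]
    exact FractionalIdeal.mem_coeIdeal_of_mem _ hd
  rw [FractionalIdeal.mem_inv_iff (FractionalIdeal.dual_ne_zero 𝔬 K (by simp))] at hd'
  have hw : ∀ i, ∃ w : B, algebraMap B L w = algebraMap B L d * dual i := fun i =>
    (FractionalIdeal.mem_one_iff _).mp (hd' _ (hdual i))
  choose w hw using hw
  refine ⟨Matrix.of fun i k => b.repr (w i) k, ?_⟩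
  ext i j
  rw [Matrix.mul_apply]
  simp only [Matrix.of_apply, Algebra.traceMatrix_apply, Algebra.traceForm_apply]
  have h1 : ∑ k, b.repr (w i) k * Algebra.trace 𝔬 B (b k * b j)
      = Algebra.trace 𝔬 B (w i * b j) := by
    conv_rhs => rw [← b.sum_repr (w i)]
    rw [Finset.sum_mul, map_sum]
    refine Finset.sum_congr rfl fun k _ => ?_
    rw [smul_mul_assoc, map_smul, smul_eq_mul]
  rw [h1, Algebra.leftMulMatrix_eq_repr_mul]
  apply IsFractionRing.injective 𝔬 K
  rw [← Algebra.trace_localization 𝔬 𝔬⁰ (Sₘ := L), ← htr i (d * b j), Algebra.traceForm_apply,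
    map_mul (algebraMap B L), hw, map_mul (algebraMap B L)]
  congr 1
  ring

/-- Separability of the fraction field extension is automatic in characteristic zero. -/
theorem isSeparable_fractionRing {t : 𝔬} [CharZero (𝔬 ⧸ Ideal.span {t})] :
    Algebra.IsSeparable (FractionRing 𝔬) (FractionRing B) := by
  have h0 : CharZero 𝔬 := (Ideal.Quotient.mk (Ideal.span {t})).charZero
  have : CharZero (FractionRing 𝔬) :=
    charZero_of_injective_algebraMap (IsFractionRing.injective 𝔬 (FractionRing 𝔬))
  have : IsLocalization (Algebra.algebraMapSubmonoid B 𝔬⁰) (FractionRing B) :=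
    IsIntegralClosure.isLocalization _ (FractionRing 𝔬) _ _
  have : FiniteDimensional (FractionRing 𝔬) (FractionRing B) := .of_isLocalization 𝔬 B 𝔬⁰
  infer_instance

omit [IsDedekindDomain B] [Module.IsTorsionFree 𝔬 B] [Module.Finite 𝔬 B] in
/-- An element outside all primes over `t` has norm prime to `t`. -/
theorem not_dvd_det_leftMulMatrix {ι : Type*} [Fintype ι] [DecidableEq ι] (b : Basis ι 𝔬 B)
    {t : 𝔬} (ht : Prime t) (x : B)
    (hx : ∀ P : Ideal B, P.IsPrime → algebraMap 𝔬 B t ∈ P → x ∉ P) :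
    ¬ t ∣ (Algebra.leftMulMatrix b x).det := by
  have hmax := span_isMaximal ht
  have htop : (Ideal.span {t}).map (algebraMap 𝔬 B) ⊔ Ideal.span {x} = ⊤ := by
    by_contra hne
    obtain ⟨M, hM, hle⟩ := Ideal.exists_le_maximal _ hne
    refine hx M hM.isPrime (hle (Ideal.mem_sup_left ?_)) (hle (Ideal.mem_sup_right ?_))
    · exact Ideal.mem_map_of_mem _ (Ideal.mem_span_singleton_self t)
    · exact Ideal.mem_span_singleton_self x
  obtain ⟨u, hu, v, hv, huv⟩ := Submodule.mem_sup.mp ((Ideal.eq_top_iff_one _).mp htop)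
  obtain ⟨y, rfl⟩ := Ideal.mem_span_singleton'.mp hv
  rw [Ideal.map_span, Set.image_singleton] at hu
  obtain ⟨z, rfl⟩ := Ideal.mem_span_singleton'.mp hu
  intro hdvd
  have h1 : Algebra.leftMulMatrix b y * Algebra.leftMulMatrix b x
      = 1 - t • Algebra.leftMulMatrix b z := by
    rw [← map_mul, eq_sub_iff_add_eq, ← map_smul, ← map_add, ← map_one (Algebra.leftMulMatrix b)]
    congr 1
    rw [← huv, Algebra.smul_def]; ring
  have h2 := congrArg (fun M => (Ideal.Quotient.mk (Ideal.span {t})) M.det) h1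
  simp only [Matrix.det_mul, map_mul] at h2
  have h3 : (Ideal.Quotient.mk (Ideal.span {t})) (Algebra.leftMulMatrix b x).det = 0 := by
    rw [Ideal.Quotient.eq_zero_iff_mem, Ideal.mem_span_singleton]; exact hdvd
  rw [h3, mul_zero, RingHom.map_det] at h2
  have h4 : (Ideal.Quotient.mk (Ideal.span {t})).mapMatrix (1 - t • Algebra.leftMulMatrix b z)
      = 1 := by
    ext i j
    simp [Matrix.one_apply]
  rw [h4, Matrix.det_one] at h2
  exact zero_ne_one h2

/-- **Tame discriminant bound.** -/
theorem not_pow_dvd_discr {ι : Type*} [Fintype ι] [DecidableEq ι] (b : Basis ι 𝔬 B)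
    {t : 𝔬} (ht : Prime t) [CharZero (𝔬 ⧸ Ideal.span {t})] (Ps : Finset (Ideal B))
    (hPs : ∀ P ∈ Ps, P.IsPrime ∧ algebraMap 𝔬 B t ∈ P) :
    ¬ t ^ (Fintype.card ι - Ps.card + 1) ∣ Algebra.discr 𝔬 b := by
  classical
  have hmax := span_isMaximal ht
  have hfree : Module.Free 𝔬 B := Module.Free.of_basis b
  have hsep : Algebra.IsSeparable (FractionRing 𝔬) (FractionRing B) :=
    isSeparable_fractionRing (t := t)
  set pB := (Ideal.span {t}).map (algebraMap 𝔬 B) with hpBdef
  have hpB : pB ≠ ⊥ := map_span_ne_bot ht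
  have htpB : algebraMap 𝔬 B t ∈ pB := Ideal.mem_map_of_mem _ (Ideal.mem_span_singleton_self t)
  have hpBle : ∀ P : Ideal B, algebraMap 𝔬 B t ∈ P → pB ≤ P := by
    intro P hP
    rw [hpBdef, Ideal.map_span, Ideal.span_le]
    rintro _ ⟨x, hx, rfl⟩
    rw [Set.mem_singleton_iff] at hx
    rw [hx]; exact hP
  let φ : 𝔬 →+* 𝔬 ⧸ Ideal.span {t} := Ideal.Quotient.mk _
  have hφ : Function.Surjective φ := Ideal.Quotient.mk_surjective
  have hker : ∀ a, φ a = 0 ↔ t ∣ a := fun a => by
    rw [Ideal.Quotient.eq_zero_iff_mem, Ideal.mem_span_singleton]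
  have hmem_pB : ∀ y ∈ pB, t ∣ Algebra.trace 𝔬 B y := by
    intro y hy
    rw [hpBdef, Ideal.map_span, Set.image_singleton] at hy
    obtain ⟨z, rfl⟩ := Ideal.mem_span_singleton'.mp hy
    rw [mul_comm, ← Algebra.smul_def, map_smul, smul_eq_mul]
    exact dvd_mul_right _ _
  -- Step A: the rank of the trace matrix modulo `t`
  have hrankG : Ps.card ≤ ((Algebra.traceMatrix 𝔬 b).map φ).rank := by
    have hdata : ∀ P : Ps, ∃ (e : ℕ) (Q : Ideal B) (ε : B), e ≠ 0 ∧ (P : Ideal B) ⊔ Q = ⊤ ∧
        (P : Ideal B) ^ e * Q = pB ∧ ε ∈ Q ∧ 1 - ε ∈ (P : Ideal B) ^ e ∧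
        Algebra.intTrace 𝔬 B ε ∉ Ideal.span {t} := by
      intro P
      have := (hPs P P.2).1
      exact exists_idem ht (P : Ideal B) (hPs P P.2).2
    choose e Q ε he0 hPQ hfac hεQ h1ε htr using hdata
    have hPmax : ∀ P : Ps, (P : Ideal B).IsMaximal := by
      intro P
      have hPbot : (P : Ideal B) ≠ ⊥ := fun h =>
        hpB (le_bot_iff.mp (h ▸ hpBle P (hPs P P.2).2))
      exact (hPs P P.2).1.isMaximal hPbot
    have hcross : ∀ P P' : Ps, P ≠ P' → ε P * ε P' ∈ pB := by
      intro P P' hne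
      have hcop : (P : Ideal B) ^ e P ⊔ (P' : Ideal B) ^ e P' = ⊤ :=
        Ideal.pow_sup_pow_eq_top ((hPmax P).coprime_of_ne (hPmax P')
          (fun h => hne (Subtype.ext h)))
      obtain ⟨u, hu, u', hu', huu'⟩ := Submodule.mem_sup.mp ((Ideal.eq_top_iff_one _).mp hcop)
      have h2 : ε P * ε P' = (u * ε P) * ε P' + (u' * ε P') * ε P := by
        have h3 : ε P * ε P' = (u + u') * (ε P * ε P') := by rw [huu', one_mul]
        rw [h3]; ring
      rw [h2]
      refine pB.add_mem (pB.mul_mem_right _ ?_) (pB.mul_mem_right _ ?_)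
      · rw [← hfac P]; exact Ideal.mul_mem_mul hu (hεQ P)
      · rw [← hfac P']; exact Ideal.mul_mem_mul hu' (hεQ P')
    have hdiag : ∀ P : Ps, ε P * ε P - ε P ∈ pB := by
      intro P
      have h2 : ε P * ε P - ε P = - ((1 - ε P) * ε P) := by ring
      rw [h2, ← hfac P]
      exact neg_mem (Ideal.mul_mem_mul (h1ε P) (hεQ P))
    let C : Matrix Ps ι 𝔬 := Matrix.of fun P k => b.repr (ε P) k
    have e1 : ∀ (y : B) (l : ι), Algebra.trace 𝔬 B (y * b l)
        = ∑ k, b.repr y k * Algebra.trace 𝔬 B (b k * b l) := by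
      intro y l
      conv_lhs => rw [← b.sum_repr y]
      rw [Finset.sum_mul, map_sum]
      refine Finset.sum_congr rfl fun k _ => ?_
      rw [smul_mul_assoc, map_smul, smul_eq_mul]
    have e2 : ∀ y z : B, Algebra.trace 𝔬 B (y * z)
        = ∑ l, Algebra.trace 𝔬 B (y * b l) * b.repr z l := by
      intro y z
      conv_lhs => rw [← b.sum_repr z]
      rw [Finset.mul_sum, map_sum]
      refine Finset.sum_congr rfl fun l _ => ?_
      rw [mul_smul_comm, map_smul, smul_eq_mul, mul_comm]
    have hCGC : ∀ P P' : Ps, (C * Algebra.traceMatrix 𝔬 b * C.transpose) P P'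
        = Algebra.trace 𝔬 B (ε P * ε P') := by
      intro P P'
      rw [e2, Matrix.mul_apply]
      refine Finset.sum_congr rfl fun l _ => ?_
      rw [e1, Matrix.mul_apply]
      rfl
    have hD : (C * Algebra.traceMatrix 𝔬 b * C.transpose).map φ
        = Matrix.diagonal (fun P => φ (Algebra.trace 𝔬 B (ε P))) := by
      ext P P'
      rw [Matrix.map_apply, hCGC, Matrix.diagonal_apply]
      split_ifs with h
      · subst h
        have h2 := hmem_pB _ (hdiag P)
        rw [map_sub] at h2
        rw [← sub_eq_zero, ← map_sub, hker]; exact h2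
      · rw [hker]; exact hmem_pB _ (hcross P P' h)
    have hne : ∀ P : Ps, φ (Algebra.trace 𝔬 B (ε P)) ≠ 0 := by
      intro P
      rw [Ne, Ideal.Quotient.eq_zero_iff_mem, ← Algebra.intTrace_eq_trace]; exact htr P
    have h1 : ((C * Algebra.traceMatrix 𝔬 b * C.transpose).map φ).rank = Ps.card := by
      rw [hD, Matrix.rank_diagonal, Fintype.card_subtype]
      simp [hne]
    rw [← h1, Matrix.map_mul, Matrix.map_mul]
    exact (Matrix.rank_mul_le_left _ _).trans (Matrix.rank_mul_le_right _ _)
  -- Step B: an element of the different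
  obtain ⟨x, hxD, hx⟩ : ∃ x : B, algebraMap 𝔬 B t * x ∈ differentIdeal 𝔬 B ∧
      ∀ P : Ideal B, P.IsPrime → algebraMap 𝔬 B t ∈ P → x ∉ P := by
    let 𝔞 : Ideal B :=
      Submodule.comap (LinearMap.mulLeft B (algebraMap 𝔬 B t)) (differentIdeal 𝔬 B)
    let S : Finset (Ideal B) := (UniqueFactorizationMonoid.normalizedFactors pB).toFinset
    have hS : ∀ P ∈ S, P.IsPrime ∧ pB ≤ P := fun P hP =>
      (Ideal.mem_normalizedFactors_iff hpB).mp (Multiset.mem_toFinset.mp hP)
    have hnot : ¬ ((𝔞 : Set B) ⊆ ⋃ P ∈ (↑S : Set (Ideal B)), (P : Set B)) := by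
      rw [Ideal.subset_union_prime (f := fun P => P) ⊥ ⊥ (fun P hP _ _ => (hS P hP).1)]
      rintro ⟨P, hPS, hle⟩
      obtain ⟨hPprime, hPle⟩ := hS P hPS
      have := hPprime
      obtain ⟨e, Q, ε, he0, hPQ, hfac, hεQ, h1ε, htr⟩ := exists_idem ht P (hPle htpB)
      have hnd : ¬ P ^ e ∣ differentIdeal 𝔬 B :=
        not_dvd_differentIdeal_of_intTrace_not_mem 𝔬 (P ^ e) Q hfac ε hεQ htr
      have hPbot : P ≠ ⊥ := fun h => hpB (le_bot_iff.mp (h ▸ hPle))
      have hPmax : P.IsMaximal := hPprime.isMaximal hPbot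
      obtain ⟨Q', hPQ', hfac'⟩ :=
        Ideal.eq_prime_pow_mul_coprime (differentIdeal_ne_bot (A := 𝔬) (B := B)) P
      set d := Multiset.count P
        (UniqueFactorizationMonoid.normalizedFactors (differentIdeal 𝔬 B)) with hd
      have hde : d ≤ e := by
        by_contra h
        push Not at h
        apply hnd
        rw [hfac']
        exact Dvd.dvd.mul_right (pow_dvd_pow P h.le) Q'
      have htPe : algebraMap 𝔬 B t ∈ P ^ e := by
        have h2 : algebraMap 𝔬 B t ∈ P ^ e * Q := by rw [hfac]; exact htpB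
        exact Ideal.mul_le_left h2
      have hQ'𝔞 : Q' ≤ 𝔞 := by
        intro q hq
        show algebraMap 𝔬 B t * q ∈ differentIdeal 𝔬 B
        rw [hfac']
        exact Ideal.mul_mem_mul (Ideal.pow_le_pow_right hde htPe) hq
      have hQ'P : Q' ≤ P := hQ'𝔞.trans hle
      rw [sup_eq_left.mpr hQ'P] at hPQ'
      exact hPmax.ne_top hPQ'
    rw [Set.not_subset] at hnot
    obtain ⟨x, hx𝔞, hxnot⟩ := hnot
    refine ⟨x, hx𝔞, fun P hP htP hxP => hxnot ?_⟩
    simp only [Set.mem_iUnion]
    exact ⟨P, Multiset.mem_toFinset.mpr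
      ((Ideal.mem_normalizedFactors_iff hpB).mpr ⟨hP, hpBle P htP⟩), hxP⟩
  obtain ⟨W, hW⟩ := exists_mul_traceMatrix_eq b _ hxD
  have hN := not_dvd_det_leftMulMatrix b ht x hx
  have hW' : W * Algebra.traceMatrix 𝔬 b = t • Algebra.leftMulMatrix b x := by
    rw [hW, ← Algebra.smul_def, map_smul]
  -- Step C: linear algebra
  intro hdvd
  have h0 : (W.map φ) * ((Algebra.traceMatrix 𝔬 b).map φ) = 0 := by
    rw [← Matrix.map_mul, hW']
    ext i j
    simp [φ]
  have hr := rank_add_rank_le_card_of_mul_eq_zero h0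
  have hWdvd : t ^ (Fintype.card ι - (Fintype.card ι - Ps.card)) ∣ W.det :=
    pow_dvd_det_of_rank_le φ hφ t (fun a ha => (hker a).mp ha) W _ (by omega)
  have hdet : W.det * Algebra.discr 𝔬 b
      = t ^ Fintype.card ι * (Algebra.leftMulMatrix b x).det := by
    rw [Algebra.discr_def, ← Matrix.det_mul, hW', Matrix.det_smul]
  have hle : Ps.card ≤ Fintype.card ι := by omega
  have hdvd2 : t ^ (Fintype.card ι + 1) ∣ t ^ Fintype.card ι * (Algebra.leftMulMatrix b x).det := by
    rw [← hdet]
    have : Fintype.card ι + 1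
        = (Fintype.card ι - (Fintype.card ι - Ps.card)) + (Fintype.card ι - Ps.card + 1) := by
      omega
    rw [this, pow_add]
    exact mul_dvd_mul hWdvd hdvd
  rw [pow_succ] at hdvd2
  exact hN ((mul_dvd_mul_iff_left (pow_ne_zero _ ht.ne_zero)).mp hdvd2)


end Dedekind

section PolynomialBase

open Polynomial

variable {L : Type*} [Field L] [CharZero L] {B : Type*} [CommRing B] [IsDedekindDomain B]
  [Algebra L[X] B] [Module.Finite L[X] B] [Module.IsTorsionFree L[X] B]

theorem charZero_quotient_X_sub_C (c : L) : CharZero (L[X] ⧸ Ideal.span {(X - C c : L[X])}) := by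
  have hmax : (Ideal.span {(X - C c : L[X])}).IsMaximal := span_isMaximal (prime_X_sub_C c)
  exact charZero_of_injective_algebraMap
    (algebraMap L (L[X] ⧸ Ideal.span {(X - C c : L[X])})).injective

/-- **Tame discriminant bound over `L[X]`** (`char L = 0`): the order of vanishing at `c` of the
discriminant of an integral basis is at most `n - #{primes over X - c}`. -/
theorem rootMultiplicity_discr_le {ι : Type*} [Fintype ι] [DecidableEq ι] (b : Basis ι L[X] B)
    (c : L) (Ps : Finset (Ideal B))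
    (hPs : ∀ P ∈ Ps, P.IsPrime ∧ algebraMap L[X] B (X - C c) ∈ P) :
    (Algebra.discr L[X] b).rootMultiplicity c ≤ Fintype.card ι - Ps.card := by
  have := charZero_quotient_X_sub_C c
  by_cases h0 : Algebra.discr L[X] b = 0
  · rw [h0, rootMultiplicity_zero]; exact Nat.zero_le _
  by_contra hlt
  push Not at hlt
  exact not_pow_dvd_discr b (prime_X_sub_C c) Ps hPs
    ((le_rootMultiplicity_iff h0).mp hlt)

/-- The same bound with the primes over `X - c` given by characters `B →+* L` lying over
evaluation at `c`. -/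
theorem rootMultiplicity_discr_le_of_characters {ι : Type*} [Fintype ι] [DecidableEq ι]
    (b : Basis ι L[X] B) (c : L) (χ : Finset (B →+* L))
    (hχ : ∀ f ∈ χ, ∀ p : L[X], f (algebraMap L[X] B p) = p.eval c) :
    (Algebra.discr L[X] b).rootMultiplicity c ≤ Fintype.card ι - χ.card := by
  classical
  have hinj : Set.InjOn (fun f : B →+* L => RingHom.ker f) (χ : Set (B →+* L)) := by
    intro f hf g hg hfg
    ext y
    have h1 : y - algebraMap L[X] B (C (f y)) ∈ RingHom.ker f := by
      rw [RingHom.mem_ker, map_sub, hχ f hf, eval_C, sub_self]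
    have h2 : y - algebraMap L[X] B (C (f y)) ∈ RingHom.ker g := by
      have h3 : RingHom.ker f = RingHom.ker g := hfg
      rw [← h3]; exact h1
    rw [RingHom.mem_ker, map_sub, hχ g hg, eval_C, sub_eq_zero] at h2
    exact h2.symm
  have hcard : (χ.image (fun f : B →+* L => RingHom.ker f)).card = χ.card :=
    Finset.card_image_of_injOn hinj
  rw [← hcard]
  refine rootMultiplicity_discr_le b c _ ?_
  intro P hP
  obtain ⟨f, hf, rfl⟩ := Finset.mem_image.mp hP
  refine ⟨RingHom.ker_isPrime f, ?_⟩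
  rw [RingHom.mem_ker, hχ f hf]
  simp

/-- Unramified case: if there are `n` characters over `c`, the discriminant does not vanish
at `c`. -/
theorem eval_discr_ne_zero_of_characters {ι : Type*} [Fintype ι] [DecidableEq ι]
    (b : Basis ι L[X] B) (c : L) (χ : Finset (B →+* L))
    (hχ : ∀ f ∈ χ, ∀ p : L[X], f (algebraMap L[X] B p) = p.eval c)
    (hcard : Fintype.card ι ≤ χ.card) (h0 : Algebra.discr L[X] b ≠ 0) :
    (Algebra.discr L[X] b).eval c ≠ 0 := by
  have h := rootMultiplicity_discr_le_of_characters b c χ hχ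
  have h1 : (Algebra.discr L[X] b).rootMultiplicity c = 0 := by omega
  rw [rootMultiplicity_eq_zero_iff] at h1
  intro h2
  exact h0 (h1 h2)

/-- The discriminant of an integral basis is nonzero (characteristic zero). -/
theorem discr_ne_zero {ι : Type*} [Fintype ι] [DecidableEq ι] (b : Basis ι L[X] B) :
    Algebra.discr L[X] b ≠ 0 := by
  have := charZero_quotient_X_sub_C (0 : L)
  intro h0
  refine not_pow_dvd_discr b (prime_X_sub_C (0 : L)) ∅ (by simp) ?_
  rw [h0]
  exact dvd_zero _

/-- Unramified case, without the nonvanishing hypothesis on the discriminant. -/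
theorem eval_discr_ne_zero_of_card_characters {ι : Type*} [Fintype ι] [DecidableEq ι]
    (b : Basis ι L[X] B) (c : L) (χ : Finset (B →+* L))
    (hχ : ∀ f ∈ χ, ∀ p : L[X], f (algebraMap L[X] B p) = p.eval c)
    (hcard : Fintype.card ι ≤ χ.card) : (Algebra.discr L[X] b).eval c ≠ 0 :=
  eval_discr_ne_zero_of_characters b c χ hχ hcard (discr_ne_zero b)

end PolynomialBase

end Fermat.Agent.Lib.Red.DiscTame
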