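/-
helper91 — RED-DISC, place form.

helper15's abstract count `Disc.exists_lift_of_isIntegral` (good reduction
`red(B ∩ O) = integral closure of k[X] in E`) with its three hypotheses discharged:

* `tame`  : the tame discriminant bound for `B = integralClosure L[X] F` (`char L = 0`), from
  `DiscTame.not_pow_dvd_discr`;
* `roots` : the root count over a valuation subring of an algebraically closed field, from
  `DiscRoots.card_filter_roots_eq_rootMultiplicity`;
* `isRadical_of_ord_eq_one` : a fibre of `x` all of whose points are simple zeros of `x - c`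
  (place form) is reduced, via RED-HOLO (`Lib/FF/Holo`).

Result: `lift_regular`, the lifting property (T3) in place form: every `s : E` regular where
`xt` is regular is the reduction of some `y : O` regular where `x` is regular;
`lift_regular_of_integral` / `lift_regular_of_regular` : the same from ANY integral good basis
(the improvement `Disc.exists_isIntBasis` is applied inside).

Branch hypothesis from a finite branch set: `branch_of_finset` (chart `x`),
`branch_inv_of_finset` (chart `x⁻¹`).
-/
import Mathlib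
import Fermat.Agent.Lib.Red.DiscCount
import Fermat.Agent.Lib.Red.DiscMain
import Fermat.Agent.Lib.Red.ChartInf
import Fermat.Agent.Lib.Red.DiscTame
import Fermat.Agent.Lib.Red.DiscRoots
import Fermat.Agent.Lib.FF.Holo

set_option autoImplicit false
set_option linter.style.haveILetI false
set_option linter.unusedSectionVars false

namespace Fermat.Agent.Lib.Red.DiscPlace

open Polynomial Module AlgebraicCurve IntermediateField
open Fermat.Agent.Lib.Red.Ortho Fermat.Agent.Lib.Red.Disc

section Tame

/-- **Tame discriminant bound** for the integral closure of `L[X]` in a finite extension of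
`Frac L[X]`, characteristic zero (the hypothesis `hTame` of `Disc.exists_lift_of_isIntegral`). -/
theorem tame {L F : Type*} (F₀ : Type*) [Field L] [CharZero L] [Field F₀] [Field F]
    [Algebra L[X] F₀] [IsFractionRing L[X] F₀] [Algebra F₀ F] [Algebra L[X] F]
    [IsScalarTower L[X] F₀ F] [FiniteDimensional F₀ F] {ι : Type*} [Fintype ι] [DecidableEq ι]
    (bB : Basis ι L[X] ↥(integralClosure L[X] F)) (c : L)
    (Ps : Finset (Ideal ↥(integralClosure L[X] F)))
    (hPs : ∀ P ∈ Ps, P.IsPrime ∧ algebraMap L[X] ↥(integralClosure L[X] F) (X - C c) ∈ P) :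
    ¬ (X - C c) ^ (Fintype.card ι - Ps.card + 1) ∣ Algebra.discr L[X] bB := by
  haveI : CharZero F₀ := charZero_of_injective_algebraMap (IsFractionRing.injective L[X] F₀)
  haveI : Algebra.IsSeparable F₀ F := inferInstance
  haveI : IsDedekindDomain ↥(integralClosure L[X] F) :=
    integralClosure.isDedekindDomain L[X] F₀ F
  haveI : Module.Finite L[X] ↥(integralClosure L[X] F) := Module.Finite.of_basis bB
  haveI : Module.Free L[X] ↥(integralClosure L[X] F) := Module.Free.of_basis bB
  haveI : Module.IsTorsionFree L[X] ↥(integralClosure L[X] F) := inferInstance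
  haveI := DiscTame.charZero_quotient_X_sub_C c
  exact DiscTame.not_pow_dvd_discr bB (prime_X_sub_C c) Ps hPs

end Tame

section Roots

variable {L k : Type*} [Field L] [IsAlgClosed L] [Field k]

/-- **Root count** (the hypothesis `hRoots` of `Disc.exists_lift_of_isIntegral`): if all roots
of `g` in `A` reducing to `γ` are equal to `c₀`, the multiplicity of `γ` in the reduction of `g`
is at most the multiplicity of `c₀` in `g`. -/
theorem roots (A : ValuationSubring L) (π : A →+* k) (hπ : Function.Surjective π)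
    (g : A[X]) (γ : k) (c₀ : L) (hg : g.map π ≠ 0)
    (huniq : ∀ c ∈ (g.map A.subtype).roots, ∀ h : c ∈ A, π ⟨c, h⟩ = γ → c = c₀) :
    (g.map π).rootMultiplicity γ ≤ (g.map A.subtype).rootMultiplicity c₀ := by
  classical
  have h1 := DiscRoots.card_filter_roots_eq_rootMultiplicity (L := L) π hπ g hg γ
  have h2 : (algebraMap A L : A →+* L) = A.subtype := rfl
  rw [h2] at h1
  rw [← h1, ← count_roots, Multiset.count_eq_card_filter_eq]
  refine Multiset.card_le_card ?_
  have h3 : (g.map A.subtype).roots.filter (fun c => ∃ a : A, A.subtype a = c ∧ π a = γ)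
      = (g.map A.subtype).roots.filter
        (fun c => (∃ a : A, A.subtype a = c ∧ π a = γ) ∧ c₀ = c) := by
    refine Multiset.filter_congr fun c hc => ?_
    constructor
    · rintro ⟨a, rfl, ha⟩
      exact ⟨⟨a, rfl, ha⟩, (huniq _ hc a.2 ha).symm⟩
    · exact fun h => h.1
  rw [h3]
  exact Multiset.monotone_filter_right _ fun c h => h.2

end Roots

section Holo

variable {K F : Type*} [Field K] [Field F] [Algebra K F] [Algebra K[X] F]

/-- Integrality over `K[X]` (acting through `X ↦ x`) is integrality over `K[x]`. -/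
theorem isIntegral_poly_iff (x : F) (hx : ∀ p : K[X], algebraMap K[X] F p = aeval x p) (y : F) :
    IsIntegral K[X] y ↔ IsIntegral (Algebra.adjoin K {x}) y := by
  have hmem : ∀ p : K[X], aeval x p ∈ Algebra.adjoin K {x} := fun p => by
    rw [Algebra.adjoin_singleton_eq_range_aeval]
    exact ⟨p, rfl⟩
  let φ : K[X] →+* ↥(Algebra.adjoin K {x}) :=
    { toFun := fun p => ⟨aeval x p, hmem p⟩
      map_one' := Subtype.ext (map_one _)
      map_mul' := fun p q => Subtype.ext (map_mul _ p q)
      map_zero' := Subtype.ext (map_zero _)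
      map_add' := fun p q => Subtype.ext (map_add _ p q) }
  have hφ : Function.Surjective φ := by
    rintro ⟨r, hr⟩
    rw [Algebra.adjoin_singleton_eq_range_aeval] at hr
    obtain ⟨p, rfl⟩ := hr
    exact ⟨p, rfl⟩
  have hcomp : (algebraMap ↥(Algebra.adjoin K {x}) F).comp φ = algebraMap K[X] F := by
    exact RingHom.ext fun p => (hx p).symm
  constructor
  · rintro ⟨p, hp, hpy⟩
    refine ⟨p.map φ, hp.map φ, ?_⟩
    rw [eval₂_map, hcomp]
    exact hpy
  · rintro ⟨q, hq, hqy⟩
    have hl : q ∈ Polynomial.lifts φ := by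
      obtain ⟨p, rfl⟩ := Polynomial.map_surjective φ hφ q
      exact ⟨p, rfl⟩
    obtain ⟨p, rfl, -, hp⟩ := Polynomial.lifts_and_natDegree_eq_and_monic hl hq
    refine ⟨p, hp, ?_⟩
    rw [eval₂_map, hcomp] at hqy
    exact hqy

/-- **RED-HOLO** for `K[X]`-algebras: integral over `K[X]` iff regular where `x` is regular. -/
theorem isIntegral_iff_regular (x : F) (hx : ∀ p : K[X], algebraMap K[X] F p = aeval x p)
    [FiniteDimensional K⟮x⟯ F] (y : F) :
    IsIntegral K[X] y ↔ ∀ P : Place K F, 0 ≤ P.ord x → 0 ≤ P.ord y := by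
  rw [isIntegral_poly_iff x hx, Fermat.Agent.Lib.FF.Holo.isIntegral_adjoin_iff]

/-- **Unramified fibre, place form ⇒ ideal form**: if every zero of `x - c` is simple, the
fibre ideal `(X - c) B` of the integral closure `B` of `K[X]` in `F` is radical. -/
theorem isRadical_of_ord_eq_one (x : F) (hx : ∀ p : K[X], algebraMap K[X] F p = aeval x p)
    [FiniteDimensional K⟮x⟯ F] (c : K) (hne : x - algebraMap K F c ≠ 0)
    (hord : ∀ P : Place K F, 0 < P.ord (x - algebraMap K F c) →
      P.ord (x - algebraMap K F c) = 1) :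
    (Ideal.span {algebraMap K[X] ↥(integralClosure K[X] F) (X - C c)}).IsRadical := by
  have ht : algebraMap K[X] F (X - C c) = x - algebraMap K F c := by
    rw [hx, map_sub, aeval_X, aeval_C]
  intro y hy
  obtain ⟨n, hn⟩ := hy
  obtain ⟨z, hz⟩ := Ideal.mem_span_singleton'.1 hn
  have hzF : (z : F) * (x - algebraMap K F c) = (y : F) ^ n := by
    have h1 := congrArg (Subtype.val) hz
    rw [← ht]
    exact h1
  have hw : IsIntegral K[X] ((y : F) / (x - algebraMap K F c)) := by
    rw [isIntegral_iff_regular x hx]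
    intro P hP
    have hyP : 0 ≤ P.ord (y : F) := (isIntegral_iff_regular x hx _).1 y.2 P hP
    have hzP : 0 ≤ P.ord (z : F) := (isIntegral_iff_regular x hx _).1 z.2 P hP
    have htP : 0 ≤ P.ord (x - algebraMap K F c) := by
      rw [← ht]
      exact (isIntegral_iff_regular x hx _).1 isIntegral_algebraMap P hP
    by_cases hy0 : (y : F) = 0
    · rw [hy0, zero_div, Place.ord_zero]
    rw [div_eq_mul_inv, P.ord_mul hy0 (inv_ne_zero hne), P.ord_inv]
    rcases htP.eq_or_lt with h0 | hpos
    · rw [← h0]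
      omega
    · rw [hord P hpos]
      have hz0 : (z : F) ≠ 0 := by
        intro h
        rw [h, zero_mul] at hzF
        exact pow_ne_zero n hy0 hzF.symm
      have h1 : P.ord ((y : F) ^ n) = (n : ℤ) * P.ord (y : F) := by
        rw [← zpow_natCast, P.ord_zpow]
      rw [← hzF, P.ord_mul hz0 hne, hord P hpos] at h1
      have h2 : 0 < (n : ℤ) * P.ord (y : F) := by omega
      have h3 : 0 < P.ord (y : F) := by
        by_contra h4
        have h5 : P.ord (y : F) = 0 := by omega
        rw [h5, mul_zero] at h2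
        exact lt_irrefl _ h2
      omega
  refine Ideal.mem_span_singleton'.2 ⟨⟨_, hw⟩, ?_⟩
  apply Subtype.ext
  show (y : F) / (x - algebraMap K F c) * algebraMap K[X] F (X - C c) = (y : F)
  rw [ht, div_mul_cancel₀ _ hne]

/-- `F` is finite over `K(x)` when it is finite over a fraction field of `K[X]` acting through
`X ↦ x`. -/
theorem finiteDimensional_adjoin {F₀ : Type*} [Field F₀] [Algebra K[X] F₀]
    [IsFractionRing K[X] F₀] [Algebra F₀ F] [IsScalarTower K[X] F₀ F] [FiniteDimensional F₀ F]
    (x : F) (hx : ∀ p : K[X], algebraMap K[X] F p = aeval x p) : FiniteDimensional K⟮x⟯ F := by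
  classical
  have hmem : ∀ c : F₀, algebraMap F₀ F c ∈ K⟮x⟯ := by
    intro c
    obtain ⟨p, q, -, rfl⟩ := IsFractionRing.div_surjective (A := K[X]) c
    rw [map_div₀, ← IsScalarTower.algebraMap_apply, ← IsScalarTower.algebraMap_apply, hx, hx]
    have h0 : ∀ r : K[X], aeval x r ∈ K⟮x⟯ := fun r =>
      IntermediateField.algebra_adjoin_le_adjoin K {x} (by
        rw [Algebra.adjoin_singleton_eq_range_aeval]
        exact ⟨r, rfl⟩)
    exact div_mem (h0 p) (h0 q)
  let b := Module.finBasis F₀ F
  have htop : Submodule.span K⟮x⟯ (Set.range b) = ⊤ := by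
    rw [eq_top_iff]
    rintro y -
    rw [← b.sum_repr y]
    refine Submodule.sum_mem _ fun i _ => ?_
    have h1 : b.repr y i • b i = (⟨algebraMap F₀ F (b.repr y i), hmem _⟩ : K⟮x⟯) • b i := by
      rw [Algebra.smul_def]
      rfl
    rw [h1]
    exact Submodule.smul_mem _ _ (Submodule.subset_span ⟨i, rfl⟩)
  exact ⟨by rw [← htop]; exact Submodule.fg_span (Set.finite_range b)⟩

end Holo

section Lift

variable {F E : Type*} [Field F] [Field E] {O : ValuationSubring F} {red : O →+* E}
variable {F₀ E₀ : Type*} [Field F₀] [Field E₀] [Algebra F₀ F] [Algebra E₀ E]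
variable {O₀ : ValuationSubring F₀} {red₀ : O₀ →+* E₀}
variable {L k : Type*} [Field L] [Field k] {A : ValuationSubring L} {π : A →+* k}
variable [Algebra L[X] F₀] [Algebra L[X] F] [IsScalarTower L[X] F₀ F] [IsFractionRing L[X] F₀]
variable [Algebra k[X] E₀] [Algebra k[X] E] [IsScalarTower k[X] E₀ E] [IsFractionRing k[X] E₀]
variable {ι : Type*} [Fintype ι] [DecidableEq ι]
variable [Algebra L F] [Algebra k E]

/-- **Good reduction, integral-closure form, all counting hypotheses discharged.**  The only
remaining hypothesis on the generic fibre is the branch hypothesis in place form: every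
`γ : k` has a lift `c₀` such that over every other lift `c` of `γ` all zeros of `x - c` are
simple. -/
theorem exists_lift_of_isIntegral [IsAlgClosed L] [CharZero L] [IsAlgClosed k]
    [Algebra.IsSeparable E₀ E]
    (x : F) (hx : ∀ p : L[X], algebraMap L[X] F p = aeval x p)
    (hG : IsGauss A π O₀ red₀) (G : GoodBasis O red O₀ red₀ ι) (hI : IsIntBasis L G)
    (hπ : Function.Surjective π)
    (hbr : ∀ γ : k, ∃ c₀ : A, π c₀ = γ ∧ ∀ c : A, π c = γ → c ≠ c₀ →
      ∀ P : Place L F, 0 < P.ord (x - algebraMap L F (c : L)) →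
        P.ord (x - algebraMap L F (c : L)) = 1)
    (s : E) (hs : IsIntegral k[X] s) :
    ∃ y : O, red y = s ∧ IsIntegral L[X] (y : F) := by
  haveI : FiniteDimensional F₀ F := G.finite_F
  haveI : FiniteDimensional L⟮x⟯ F := finiteDimensional_adjoin (F₀ := F₀) x hx
  have hinj : Function.Injective (algebraMap L[X] F) := by
    rw [IsScalarTower.algebraMap_eq L[X] F₀ F]
    exact (algebraMap F₀ F).injective.comp (IsFractionRing.injective L[X] F₀)
  have hne : ∀ c : L, x - algebraMap L F c ≠ 0 := by
    intro c h0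
    have h1 : algebraMap L[X] F (X - C c) = 0 := by
      rw [hx, map_sub, aeval_X, aeval_C, h0]
    have h2 : (X - C c : L[X]) = 0 := hinj (h1.trans (map_zero _).symm)
    exact X_sub_C_ne_zero c h2
  refine Disc.exists_lift_of_isIntegral hG G hI hπ
    (fun bB c Ps hPs => tame F₀ bB c Ps hPs)
    (fun g γ c₀ hg h => roots A π hπ g γ c₀ hg h) ?_ s hs
  intro γ
  obtain ⟨c₀, hc₀, h⟩ := hbr γ
  exact ⟨c₀, hc₀, fun c hc hcc => isRadical_of_ord_eq_one x hx (c : L) (hne _) (h c hc hcc)⟩

/-- **Good reduction in place form (T3 = `IsChart.lift`).**  Every `s : E` which is regular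
wherever `xt` is regular is the reduction of some `y : O` which is regular wherever `x` is
regular.  (For the chart at infinity apply it with the polynomial rings acting through
`X ↦ x⁻¹`, `X ↦ xt⁻¹`.) -/
theorem lift_regular [IsAlgClosed L] [CharZero L] [IsAlgClosed k] [Algebra.IsSeparable E₀ E]
    (x : F) (hx : ∀ p : L[X], algebraMap L[X] F p = aeval x p)
    (xt : E) (hxt : ∀ p : k[X], algebraMap k[X] E p = aeval xt p)
    (hG : IsGauss A π O₀ red₀) (G : GoodBasis O red O₀ red₀ ι) (hI : IsIntBasis L G)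
    (hπ : Function.Surjective π)
    (hbr : ∀ γ : k, ∃ c₀ : A, π c₀ = γ ∧ ∀ c : A, π c = γ → c ≠ c₀ →
      ∀ P : Place L F, 0 < P.ord (x - algebraMap L F (c : L)) →
        P.ord (x - algebraMap L F (c : L)) = 1)
    (s : E) (hs : ∀ Q : Place k E, 0 ≤ Q.ord xt → 0 ≤ Q.ord s) :
    ∃ y : O, red y = s ∧ ∀ P : Place L F, 0 ≤ P.ord x → 0 ≤ P.ord (y : F) := by
  haveI : FiniteDimensional F₀ F := G.finite_F
  haveI : FiniteDimensional E₀ E := G.finite_E
  haveI : FiniteDimensional L⟮x⟯ F := finiteDimensional_adjoin (F₀ := F₀) x hx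
  haveI : FiniteDimensional k⟮xt⟯ E := finiteDimensional_adjoin (F₀ := E₀) xt hxt
  obtain ⟨y, hy, hyint⟩ := exists_lift_of_isIntegral x hx hG G hI hπ hbr s
    ((isIntegral_iff_regular xt hxt s).2 hs)
  exact ⟨y, hy, (isIntegral_iff_regular x hx _).1 hyint⟩

/-- **Good reduction in place form, from any integral good basis** (the improvement step is
applied inside). -/
theorem lift_regular_of_integral [IsAlgClosed L] [CharZero L] [IsAlgClosed k]
    [Algebra.IsSeparable E₀ E]
    (x : F) (hx : ∀ p : L[X], algebraMap L[X] F p = aeval x p)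
    (xt : E) (hxt : ∀ p : k[X], algebraMap k[X] E p = aeval xt p)
    (hG : IsGauss A π O₀ red₀) (G : GoodBasis O red O₀ red₀ ι)
    (hint : ∀ i, IsIntegral L[X] (G.b i : F))
    (hπ : Function.Surjective π)
    (hbr : ∀ γ : k, ∃ c₀ : A, π c₀ = γ ∧ ∀ c : A, π c = γ → c ≠ c₀ →
      ∀ P : Place L F, 0 < P.ord (x - algebraMap L F (c : L)) →
        P.ord (x - algebraMap L F (c : L)) = 1)
    (s : E) (hs : ∀ Q : Place k E, 0 ≤ Q.ord xt → 0 ≤ Q.ord s) :
    ∃ y : O, red y = s ∧ ∀ P : Place L F, 0 ≤ P.ord x → 0 ≤ P.ord (y : F) := by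
  haveI : FiniteDimensional F₀ F := G.finite_F
  haveI : CharZero F₀ := charZero_of_injective_algebraMap (IsFractionRing.injective L[X] F₀)
  haveI : Algebra.IsSeparable F₀ F := inferInstance
  obtain ⟨G', hI'⟩ := Disc.exists_isIntBasis hG G hint
  exact lift_regular x hx xt hxt hG G' hI' hπ hbr s hs

/-- **Good reduction in place form, from any good basis regular where `x` is regular.** -/
theorem lift_regular_of_regular [IsAlgClosed L] [CharZero L] [IsAlgClosed k]
    [Algebra.IsSeparable E₀ E]
    (x : F) (hx : ∀ p : L[X], algebraMap L[X] F p = aeval x p)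
    (xt : E) (hxt : ∀ p : k[X], algebraMap k[X] E p = aeval xt p)
    (hG : IsGauss A π O₀ red₀) (G : GoodBasis O red O₀ red₀ ι)
    (hreg : ∀ i, ∀ P : Place L F, 0 ≤ P.ord x → 0 ≤ P.ord (G.b i : F))
    (hπ : Function.Surjective π)
    (hbr : ∀ γ : k, ∃ c₀ : A, π c₀ = γ ∧ ∀ c : A, π c = γ → c ≠ c₀ →
      ∀ P : Place L F, 0 < P.ord (x - algebraMap L F (c : L)) →
        P.ord (x - algebraMap L F (c : L)) = 1)
    (s : E) (hs : ∀ Q : Place k E, 0 ≤ Q.ord xt → 0 ≤ Q.ord s) :
    ∃ y : O, red y = s ∧ ∀ P : Place L F, 0 ≤ P.ord x → 0 ≤ P.ord (y : F) := by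
  haveI : FiniteDimensional F₀ F := G.finite_F
  haveI : FiniteDimensional L⟮x⟯ F := finiteDimensional_adjoin (F₀ := F₀) x hx
  exact lift_regular_of_integral x hx xt hxt hG G
    (fun i => (isIntegral_iff_regular x hx _).2 (hreg i)) hπ hbr s hs

end Lift

section Branch

variable {L k F : Type*} [Field L] [Field k] [Field F] [Algebra L F]

/-- **Branch hypothesis from a finite branch set** (chart `x`): if `x - c` has only simple
zeros for `c ∉ Bv` and the reduction is injective on `Bv ∩ A`, then every `γ : k` has a lift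
`c₀` such that `x - c` has only simple zeros for every other lift `c` of `γ`. -/
theorem branch_of_finset (A : ValuationSubring L) (π : A →+* k) (hπ : Function.Surjective π)
    (x : F) (Bv : Finset L)
    (hBvinj : ∀ b b' : A, (b : L) ∈ Bv → (b' : L) ∈ Bv → π b = π b' → b = b')
    (hB : ∀ (P : Place L F) (c : L), c ∉ Bv → 0 < P.ord (x - algebraMap L F c) →
      P.ord (x - algebraMap L F c) = 1) :
    ∀ γ : k, ∃ c₀ : A, π c₀ = γ ∧ ∀ c : A, π c = γ → c ≠ c₀ →
      ∀ P : Place L F, 0 < P.ord (x - algebraMap L F (c : L)) →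
        P.ord (x - algebraMap L F (c : L)) = 1 := by
  intro γ
  by_cases h : ∃ b : A, (b : L) ∈ Bv ∧ π b = γ
  · obtain ⟨b, hb, hbγ⟩ := h
    refine ⟨b, hbγ, fun c hc hcb P hP => hB P c (fun hcB => hcb ?_) hP⟩
    exact hBvinj c b hcB hb (hc.trans hbγ.symm)
  · obtain ⟨c₀, hc₀⟩ := hπ γ
    exact ⟨c₀, hc₀, fun c hc _ P hP => hB P c (fun hcB => h ⟨c, hcB, hc⟩) hP⟩

/-- **Branch hypothesis from a finite branch set, chart at infinity** (`x⁻¹`): the branch set
is `insert 0 (Bv.image (·⁻¹))`; the reduction is injective on it as soon as `Bv ⊆ A` and the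
reduction is injective on `Bv`. -/
theorem branch_inv_of_finset [DecidableEq L] (A : ValuationSubring L) (π : A →+* k)
    (hπ : Function.Surjective π) (x : F) (hx0 : x ≠ 0) (Bv : Finset L)
    (hBvA : ∀ b ∈ Bv, b ∈ A)
    (hBvinj : ∀ b b' : A, (b : L) ∈ Bv → (b' : L) ∈ Bv → π b = π b' → b = b')
    (hB : ∀ (P : Place L F) (c : L), c ∉ Bv → 0 < P.ord (x - algebraMap L F c) →
      P.ord (x - algebraMap L F c) = 1) :
    ∀ γ : k, ∃ c₀ : A, π c₀ = γ ∧ ∀ c : A, π c = γ → c ≠ c₀ →
      ∀ P : Place L F, 0 < P.ord (x⁻¹ - algebraMap L F (c : L)) →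
        P.ord (x⁻¹ - algebraMap L F (c : L)) = 1 := by
  -- an element of `A` whose inverse is in `Bv` is a unit, with inverse in `A`
  have key : ∀ a : A, ∀ c ∈ Bv, (a : L) = c⁻¹ → c ≠ 0 →
      ∃ c' : A, (c' : L) = c ∧ a * c' = 1 := by
    intro a c hc hac hc0
    refine ⟨⟨c, hBvA c hc⟩, rfl, ?_⟩
    apply Subtype.ext
    show (a : L) * c = 1
    rw [hac, inv_mul_cancel₀ hc0]
  have hzero : ∀ a : A, (a : L) ∈ insert 0 (Bv.image (fun b => b⁻¹)) →
      a = 0 ∨ ∃ c' : A, (c' : L) ∈ Bv ∧ a * c' = 1 := by
    intro a ha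
    rw [Finset.mem_insert, Finset.mem_image] at ha
    rcases ha with ha | ⟨c, hc, hca⟩
    · exact Or.inl (Subtype.ext ha)
    · by_cases hc0 : c = 0
      · left
        apply Subtype.ext
        rw [← hca, hc0, inv_zero]
        rfl
      · obtain ⟨c', hc', h1⟩ := key a c hc hca.symm hc0
        exact Or.inr ⟨c', hc' ▸ hc, h1⟩
  refine branch_of_finset A π hπ x⁻¹ (insert 0 (Bv.image (fun b => b⁻¹))) ?_
    (fun P c hc hP => ChartInf.branch_inv hx0 Bv (fun c hc P hP => hB P c hc hP) c hc P hP)
  intro a b ha hb hab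
  rcases hzero a ha with rfl | ⟨c, hc, hac⟩
  · rcases hzero b hb with rfl | ⟨d, hd, hbd⟩
    · rfl
    · exfalso
      have h1 : π b * π d = 1 := by rw [← map_mul, hbd, map_one]
      rw [← hab, map_zero, zero_mul] at h1
      exact zero_ne_one h1
  · rcases hzero b hb with rfl | ⟨d, hd, hbd⟩
    · exfalso
      have h1 : π a * π c = 1 := by rw [← map_mul, hac, map_one]
      rw [hab, map_zero, zero_mul] at h1
      exact zero_ne_one h1
    · have h1 : π a * π c = 1 := by rw [← map_mul, hac, map_one]
      have h2 : π b * π d = 1 := by rw [← map_mul, hbd, map_one]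
      have h3 : π c = π d := by
        have h4 : π c = π c * (π b * π d) := by rw [h2, mul_one]
        rw [h4, ← hab, ← mul_assoc, mul_comm (π c), h1, one_mul]
      have h5 : c = d := hBvinj c d hc hd h3
      subst h5
      have h6 : a = a * (b * c) := by rw [hbd, mul_one]
      rw [h6, mul_comm b c, ← mul_assoc, hac, one_mul]

end Branch

end Fermat.Agent.Lib.Red.DiscPlace
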