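/-
helper15 — RED-DISC, the chart theorem and the modular instance (task 238, RED-T3).

* `exists_goodBasis_isIntegral` : under the Gauss property, a good basis can be rescaled to one
  whose members are integral over `L[X]`;
* `lift_chart` : **good reduction in place form for an abstract chart** `X ↦ u`, `u ∈ O₀` with
  transcendental reduction generating `F₀` (resp. `E₀`): every `s : E` regular where `ū` is
  regular is the reduction of some `y ∈ O` regular where `u` is regular — assuming the branch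
  hypothesis `hbr` in place form;
* `lift_x`, `lift_inv` : the instance for a base function `B : BaseFn.Data A π N` of the modular
  function field `F = L·F_N` (charts `x = B.x` and `1/x`): **(T3)** and **(T3')** of task 238 /
  `GenusLe.exists_lift`, with the branch hypotheses `hbr`, `hbr'` as the only assumptions.
-/
import Mathlib
import Fermat.Agent.Lib.Red.BaseData
import Fermat.Agent.Lib.Red.DiscChart
import Fermat.Agent.Lib.Red.DiscMain
import Fermat.Agent.Lib.Red.DiscPlace
import Fermat.Agent.Lib.FF.ModLSep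

set_option autoImplicit false
set_option linter.style.haveILetI false
set_option linter.unusedSectionVars false

namespace Fermat.Agent.Lib.Red.Disc

open Polynomial Module AlgebraicCurve
open Fermat.Agent.Lib.Red.Ortho

section Abstract

variable {F E : Type*} [Field F] [Field E] {O : ValuationSubring F} {red : O →+* E}
variable {F₀ E₀ : Type*} [Field F₀] [Field E₀] [Algebra F₀ F] [Algebra E₀ E]
variable {O₀ : ValuationSubring F₀} {red₀ : O₀ →+* E₀}
variable {L k : Type*} [Field L] [Field k] {A : ValuationSubring L} {π : A →+* k}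
variable {ι : Type*} [Fintype ι] [DecidableEq ι]

/-- Under the Gauss property a good basis can be rescaled (by primitive polynomials) to a good
basis whose members are integral over `L[X]`. -/
theorem exists_goodBasis_isIntegral [Algebra L[X] F₀] [Algebra L[X] F] [IsScalarTower L[X] F₀ F]
    [IsFractionRing L[X] F₀] [Algebra k[X] E₀] [IsFractionRing k[X] E₀]
    (hG : IsGauss A π O₀ red₀) (G : GoodBasis O red O₀ red₀ ι) :
    ∃ G' : GoodBasis O red O₀ red₀ ι, ∀ i, IsIntegral L[X] (G'.b i : F) := by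
  haveI : Module.Finite F₀ F := G.finite_F
  have key : ∀ i, ∃ P₀ : A[X], P₀.map π ≠ 0 ∧
      IsIntegral L[X] (algebraMap L[X] F (P₀.map A.subtype) * (G.b i : F)) := by
    intro i
    have h1 : IsAlgebraic F₀ (G.b i : F) := (Algebra.IsAlgebraic.of_finite F₀ F).isAlgebraic _
    have h2 : IsAlgebraic L[X] (G.b i : F) := (IsFractionRing.isAlgebraic_iff L[X] F₀ F).mpr h1
    obtain ⟨p, hp0, hp⟩ := h2.exists_integral_multiple
    obtain ⟨c, hc0, hcA, j, hj⟩ := exists_scaling_coeff_one A p hp0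
    obtain ⟨P₀, hP₀⟩ := exists_map_subtype_eq' (C c * p) hcA
    refine ⟨P₀, map_ne_zero_of_coeff_one P₀ j (by rw [hP₀]; exact hj), ?_⟩
    rw [hP₀, map_mul, mul_assoc, ← Algebra.smul_def p]
    exact IsIntegral.mul isIntegral_algebraMap hp
  choose P₀ hP₀ hint using key
  let d : ι → O₀ := fun i => ⟨algebraMap L[X] F₀ ((P₀ i).map A.subtype), hG.mem (P₀ i)⟩
  have hd : ∀ i, red₀ (d i) ≠ 0 := by
    intro i
    rw [hG.red]
    exact fun h0 => hP₀ i ((map_eq_zero_iff _ (IsFractionRing.injective k[X] E₀)).1 h0)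
  refine ⟨OrthoInter.scale G d hd, fun i => ?_⟩
  rw [OrthoInter.scale_b]
  show IsIntegral L[X] (algebraMap F₀ F (algebraMap L[X] F₀ ((P₀ i).map A.subtype)) * _)
  rw [← IsScalarTower.algebraMap_apply]
  exact hint i

variable [Algebra L F₀] [Algebra L F] [IsScalarTower L F₀ F]
  [Algebra k E₀] [Algebra k E] [IsScalarTower k E₀ E]

/-- **Good reduction in place form, for an abstract chart `X ↦ u`.** -/
theorem lift_chart [IsAlgClosed L] [CharZero L] [IsAlgClosed k] [Algebra.IsSeparable E₀ E]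
    (hC : Compat O red O₀ red₀)
    (hA : ∀ a : L, algebraMap L F₀ a ∈ O₀ ↔ a ∈ A)
    (hredA : ∀ (a : A) (h : algebraMap L F₀ (a : L) ∈ O₀),
      red₀ ⟨_, h⟩ = algebraMap k E₀ (π a))
    (hπ : Function.Surjective π)
    (u : O₀) (huL : Transcendental L (u : F₀)) (hu : Transcendental k (red₀ u))
    (hgenL : ∀ z : F₀, ∃ r s : L[X], z = aeval (u : F₀) r / aeval (u : F₀) s)
    (hgenk : ∀ z : E₀, ∃ r s : k[X], z = aeval (red₀ u) r / aeval (red₀ u) s)
    (G : GoodBasis O red O₀ red₀ ι)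
    (hbr : ∀ γ : k, ∃ c₀ : A, π c₀ = γ ∧ ∀ c : A, π c = γ → c ≠ c₀ →
      ∀ P : Place L F, 0 < P.ord (algebraMap F₀ F (u : F₀) - algebraMap L F (c : L)) →
        P.ord (algebraMap F₀ F (u : F₀) - algebraMap L F (c : L)) = 1)
    (s : E) (hs : ∀ Q : Place k E, 0 ≤ Q.ord (algebraMap E₀ E (red₀ u)) → 0 ≤ Q.ord s) :
    ∃ y : O, red y = s ∧
      ∀ P : Place L F, 0 ≤ P.ord (algebraMap F₀ F (u : F₀)) → 0 ≤ P.ord (y : F) := by
  letI := chartAlg₀ L (u : F₀)
  letI := chartAlg L F (u : F₀)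
  letI := chartAlg₀ k (red₀ u)
  letI := chartAlg k E (red₀ u)
  haveI : IsScalarTower L[X] F₀ F := chart_isScalarTower L F (u : F₀)
  haveI : IsScalarTower k[X] E₀ E := chart_isScalarTower k E (red₀ u)
  haveI : IsFractionRing L[X] F₀ := chart_isFractionRing L (u : F₀) huL hgenL
  haveI : IsFractionRing k[X] E₀ := chart_isFractionRing k (red₀ u) hu hgenk
  have hG : IsGauss A π O₀ red₀ :=
    isGauss_chart (fun c hc => (hC.ker₀ c).2 hc) hA hredA u hu
  haveI : FiniteDimensional F₀ F := G.finite_F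
  haveI : CharZero F₀ := charZero_of_injective_algebraMap (algebraMap L F₀).injective
  haveI : Algebra.IsSeparable F₀ F := inferInstance
  obtain ⟨G₁, hint⟩ := exists_goodBasis_isIntegral hG G
  obtain ⟨G₂, hI⟩ := exists_isIntBasis hG G₁ hint
  exact DiscPlace.lift_regular (algebraMap F₀ F (u : F₀)) (fun p => rfl)
    (algebraMap E₀ E (red₀ u)) (fun p => rfl) hG G₂ hI hπ hbr s hs

end Abstract

section Modular

open HahnSeries ModularCurve Fermat.Agent.S28 IntermediateField Fermat.Agent.Lib.Red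

variable {L : Type*} [Field L] [Algebra ℚ L] {A : ValuationSubring L} {k : Type} [Field k]
  {π : A →+* k} {N : ℕ} [NeZero N]

/-- `F̃ / k(x̄)` is separable for every base function. -/
theorem isSeparable_xt (B : BaseFn.Data A π N) (hπ : ∀ a : A, ¬ IsUnit a → π a = 0)
    (hNk : (N : k) ≠ 0) :
    Algebra.IsSeparable ↥(k⟮B.xt hπ hNk⟯) ↥(modularFunctionFieldFullC k N) := by
  refine Fermat.Agent.Lib.FF.ModL.isSeparable_of_le k N hNk _ ?_
  rw [IntermediateField.adjoin_simple_le_iff]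
  exact (BaseFn.mem_adjoin_xt_iff hπ hNk B.X B.hX _).2 B.hJk

/-- The generator of `L⟮x⟯` is transcendental when `x` is. -/
theorem transcendental_gen {K F : Type*} [Field K] [Field F] [Algebra K F] {x : F}
    (hx : Transcendental K x) : Transcendental K (AdjoinSimple.gen K x) := by
  rw [transcendental_iff]
  intro p hp
  refine transcendental_iff.1 hx p ?_
  have h2 := aeval_algebraMap_apply F (AdjoinSimple.gen K x) p
  rw [AdjoinSimple.algebraMap_gen] at h2
  rw [h2, hp, map_zero]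

/-- The inverse of a transcendental element is transcendental. -/
theorem transcendental_inv_of {K F : Type*} [Field K] [Field F] [Algebra K F] {x : F}
    (hx : Transcendental K x) : Transcendental K x⁻¹ :=
  fun h => hx (IsAlgebraic.inv_iff.1 h)

set_option synthInstance.maxHeartbeats 400000 in
/-- `O_v ∩ L = A`. -/
theorem algebraMap_mem_Ov_iff (B : BaseFn.Data A π N) (hπ : ∀ a : A, ¬ IsUnit a → π a = 0)
    (hNk : (N : k) ≠ 0) (a : L) : algebraMap L ↥(L⟮B.x⟯) a ∈ B.Ov hNk ↔ a ∈ A := by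
  rw [B.mem_Ov_iff]
  exact algebraMap_mem_Ow_iff hπ hNk a

set_option synthInstance.maxHeartbeats 400000 in
/-- `red_v = π` on `A`. -/
theorem redv_algebraMap (B : BaseFn.Data A π N) (hπ : ∀ a : A, ¬ IsUnit a → π a = 0)
    (hNk : (N : k) ≠ 0) (a : A) (h : algebraMap L ↥(L⟮B.x⟯) (a : L) ∈ B.Ov hNk) :
    B.redv hπ hNk ⟨_, h⟩ = algebraMap k ↥(k⟮B.xt hπ hNk⟯) (π a) := by
  apply Subtype.ext
  exact redF_algebraMap hπ hNk a

/-- The chart generator `x`, as an element of `O_v`. -/
noncomputable def uGen (B : BaseFn.Data A π N) (hNk : (N : k) ≠ 0) : B.Ov hNk :=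
  ⟨AdjoinSimple.gen L B.x, B.x_mem_Ow hNk⟩

theorem redv_uGen (B : BaseFn.Data A π N) (hπ : ∀ a : A, ¬ IsUnit a → π a = 0)
    (hNk : (N : k) ≠ 0) :
    B.redv hπ hNk (uGen B hNk) = AdjoinSimple.gen k (B.xt hπ hNk) := Subtype.ext rfl

set_option synthInstance.maxHeartbeats 400000 in
set_option maxHeartbeats 1000000 in
/-- **(T3), chart `x`**: good reduction in place form for a base function `B`. -/
theorem lift_x [IsAlgClosed L] [IsAlgClosed k] (B : BaseFn.Data A π N)
    (hπ : ∀ a : A, ¬ IsUnit a → π a = 0) (hsurj : Function.Surjective π) (hNk : (N : k) ≠ 0)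
    (hbr : ∀ γ : k, ∃ c₀ : A, π c₀ = γ ∧ ∀ c : A, π c = γ → c ≠ c₀ →
      ∀ P : Place L ↥(laurentBaseChange L (modularFunctionFieldFull N)),
        0 < P.ord (B.x - algebraMap L _ (c : L)) → P.ord (B.x - algebraMap L _ (c : L)) = 1)
    (s : ↥(modularFunctionFieldFullC k N))
    (hs : ∀ Q : Place k ↥(modularFunctionFieldFullC k N),
      0 ≤ Q.ord (B.xt hπ hNk) → 0 ≤ Q.ord s) :
    ∃ y : Ow A π N hNk, redF A π N hπ hNk y = s ∧
      ∀ P : Place L ↥(laurentBaseChange L (modularFunctionFieldFull N)),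
        0 ≤ P.ord B.x → 0 ≤ P.ord (y : ↥(laurentBaseChange L (modularFunctionFieldFull N))) := by
  obtain ⟨n, ⟨G⟩⟩ := B.exists_goodBasis hπ hsurj hNk
  haveI : CharZero L := charZero_of_injective_algebraMap (algebraMap ℚ L).injective
  haveI := isSeparable_xt B hπ hNk
  have hred := redv_uGen B hπ hNk
  have h1 : Transcendental k (B.redv hπ hNk (uGen B hNk)) := by
    rw [hred]
    exact transcendental_gen (B.transcendental_xt hπ hNk)
  have h2 : ∀ z : ↥(k⟮B.xt hπ hNk⟯), ∃ r s : k[X], z =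
      aeval (B.redv hπ hNk (uGen B hNk)) r / aeval (B.redv hπ hNk (uGen B hNk)) s := by
    rw [hred]
    exact exists_aeval_gen_div (B.xt hπ hNk)
  have h3 : ∀ Q : Place k ↥(modularFunctionFieldFullC k N),
      0 ≤ Q.ord (algebraMap ↥(k⟮B.xt hπ hNk⟯) ↥(modularFunctionFieldFullC k N)
        (B.redv hπ hNk (uGen B hNk))) → 0 ≤ Q.ord s := by
    rw [hred]
    exact hs
  exact lift_chart (B.compat hπ hNk) (algebraMap_mem_Ov_iff B hπ hNk)
    (redv_algebraMap B hπ hNk) hsurj (uGen B hNk)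
    (transcendental_gen (B.transcendental_x hπ hNk)) h1 (exists_aeval_gen_div B.x) h2 G hbr s h3

/-- The chart generator `1/x`, as an element of `O_v`. -/
noncomputable def uInv (B : BaseFn.Data A π N) (hπ : ∀ a : A, ¬ IsUnit a → π a = 0)
    (hNk : (N : k) ≠ 0) : B.Ov hNk :=
  ⟨(AdjoinSimple.gen L B.x)⁻¹, B.x_inv_mem_Ow hπ hNk⟩

theorem gen_ne_zero' {K F : Type*} [Field K] [Field F] [Algebra K F] {x : F} (hx : x ≠ 0) :
    AdjoinSimple.gen K x ≠ 0 := by
  intro h0
  apply hx
  have h1 := congrArg (Subtype.val) h0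
  exact h1

theorem redv_uInv (B : BaseFn.Data A π N) (hπ : ∀ a : A, ¬ IsUnit a → π a = 0)
    (hNk : (N : k) ≠ 0) :
    B.redv hπ hNk (uInv B hπ hNk) = (AdjoinSimple.gen k (B.xt hπ hNk))⁻¹ := by
  have h1 : uGen B hNk * uInv B hπ hNk = 1 :=
    Subtype.ext (mul_inv_cancel₀ (gen_ne_zero' (B.x_ne_zero hπ hNk)))
  have h2 := congrArg (B.redv hπ hNk) h1
  rw [map_mul, map_one, redv_uGen] at h2
  exact eq_inv_of_mul_eq_one_right h2

set_option synthInstance.maxHeartbeats 400000 in
set_option maxHeartbeats 1000000 in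
/-- **(T3'), chart `1/x`**: good reduction in place form at infinity for a base function `B`. -/
theorem lift_inv [IsAlgClosed L] [IsAlgClosed k] (B : BaseFn.Data A π N)
    (hπ : ∀ a : A, ¬ IsUnit a → π a = 0) (hsurj : Function.Surjective π) (hNk : (N : k) ≠ 0)
    (hbr : ∀ γ : k, ∃ c₀ : A, π c₀ = γ ∧ ∀ c : A, π c = γ → c ≠ c₀ →
      ∀ P : Place L ↥(laurentBaseChange L (modularFunctionFieldFull N)),
        0 < P.ord ((B.x)⁻¹ - algebraMap L _ (c : L)) →
          P.ord ((B.x)⁻¹ - algebraMap L _ (c : L)) = 1)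
    (s : ↥(modularFunctionFieldFullC k N))
    (hs : ∀ Q : Place k ↥(modularFunctionFieldFullC k N),
      Q.ord (B.xt hπ hNk) ≤ 0 → 0 ≤ Q.ord s) :
    ∃ y : Ow A π N hNk, redF A π N hπ hNk y = s ∧
      ∀ P : Place L ↥(laurentBaseChange L (modularFunctionFieldFull N)),
        P.ord B.x ≤ 0 → 0 ≤ P.ord (y : ↥(laurentBaseChange L (modularFunctionFieldFull N))) := by
  obtain ⟨n, ⟨G⟩⟩ := B.exists_goodBasis hπ hsurj hNk
  haveI : CharZero L := charZero_of_injective_algebraMap (algebraMap ℚ L).injective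
  haveI := isSeparable_xt B hπ hNk
  have hred := redv_uInv B hπ hNk
  have hxt0 : AdjoinSimple.gen k (B.xt hπ hNk) ≠ 0 := by
    intro h0
    exact transcendental_gen (B.transcendental_xt hπ hNk) (h0 ▸ isAlgebraic_zero)
  have h1 : Transcendental k (B.redv hπ hNk (uInv B hπ hNk)) := by
    rw [hred]
    exact transcendental_inv_of (transcendental_gen (B.transcendental_xt hπ hNk))
  have h2 : ∀ z : ↥(k⟮B.xt hπ hNk⟯), ∃ r s : k[X], z =
      aeval (B.redv hπ hNk (uInv B hπ hNk)) r / aeval (B.redv hπ hNk (uInv B hπ hNk)) s := by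
    rw [hred]
    exact exists_aeval_inv_div _ hxt0 (exists_aeval_gen_div (B.xt hπ hNk))
  have h3 : ∀ Q : Place k ↥(modularFunctionFieldFullC k N),
      0 ≤ Q.ord (algebraMap ↥(k⟮B.xt hπ hNk⟯) ↥(modularFunctionFieldFullC k N)
        (B.redv hπ hNk (uInv B hπ hNk))) → 0 ≤ Q.ord s := by
    rw [hred]
    intro Q hQ
    refine hs Q ?_
    have h4 : algebraMap ↥(k⟮B.xt hπ hNk⟯) ↥(modularFunctionFieldFullC k N)
        (AdjoinSimple.gen k (B.xt hπ hNk))⁻¹ = (B.xt hπ hNk)⁻¹ := rfl
    rw [h4, Q.ord_inv] at hQ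
    omega
  obtain ⟨y, hy, hy'⟩ := lift_chart (B.compat hπ hNk) (algebraMap_mem_Ov_iff B hπ hNk)
    (redv_algebraMap B hπ hNk) hsurj (uInv B hπ hNk)
    (transcendental_inv_of (transcendental_gen (B.transcendental_x hπ hNk))) h1
    (exists_aeval_inv_div _ (gen_ne_zero' (B.x_ne_zero hπ hNk)) (exists_aeval_gen_div B.x))
    h2 G hbr s h3
  refine ⟨y, hy, fun P hP => hy' P ?_⟩
  have h4 : algebraMap ↥(L⟮B.x⟯) ↥(laurentBaseChange L (modularFunctionFieldFull N))
      ((uInv B hπ hNk : B.Ov hNk) : ↥(L⟮B.x⟯)) = (B.x)⁻¹ := rfl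
  rw [h4, P.ord_inv]
  omega

end Modular

end Fermat.Agent.Lib.Red.Disc
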