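/-
helper15 — RED-DISC, final statements (D8 of the RED lead): good reduction of both charts in
place form, `hT3` and `hT3'`, for every base function `B : BaseFn.Data A π N`, and the three
hypothesis-free instances over `ℚ̄`:

* `hT3 B hπ hsurj hNk hbr`, `hT3' B hπ hsurj hNk hbr'` : generic base function, branch
  hypothesis (H) in the shape of `BranchH`;
* `hT3_ofJ`, `hT3'_ofJ` : `x = J(q^N)`, residue characteristic `≥ 5` (`1728 ≠ 0` in `k`);
* `hT3_ofHaupt2`, `hT3'_ofHaupt2` : the Hauptmodul of level 2 at level `M = m * 2`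
  (`2 ≠ 0` in `k`, i.e. residue characteristic `3` in the application);
* `hT3_ofHaupt3`, `hT3'_ofHaupt3` : the Hauptmodul of level 3 at level `M = m * 3`
  (`3 ≠ 0` in `k`, i.e. residue characteristic `2` in the application).

The statements are verbatim the hypotheses `hT3`, `hT3'` of `InstGenusX.genusFF_le_modular`.
-/
import Mathlib
import Fermat.Agent.Lib.Red.DiscInst
import Fermat.Agent.Lib.Red.BranchH

set_option autoImplicit false
set_option linter.unusedSectionVars false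

namespace Fermat.Agent.Lib.Red.DiscInst

open AlgebraicCurve ModularCurve Fermat.Agent.S24 Fermat.Agent.S28 Fermat.Agent.Lib.Red
  Fermat.Agent.Lib.Red.BaseFn

section Generic

variable {L : Type*} [Field L] [Algebra ℚ L] {A : ValuationSubring L} {k : Type} [Field k]
  {π : A →+* k} {N : ℕ} [NeZero N]

/-- **(T3)** for a base function `B`: every function of the special fibre regular where `x̄` is
regular is the reduction of a Gauss-integral function regular where `x` is regular. -/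
theorem hT3 [IsAlgClosed L] [IsAlgClosed k] (B : BaseFn.Data A π N)
    (hπ : ∀ a : A, ¬ IsUnit a → π a = 0) (hsurj : Function.Surjective π) (hNk : (N : k) ≠ 0)
    (hbr : ∀ γ : k, ∃ c₀ : A, π c₀ = γ ∧ ∀ c : A, π c = γ → c ≠ c₀ →
      ∀ P : Place L ↥(laurentBaseChange L (modularFunctionFieldFull N)),
        0 < P.ord (B.x - algebraMap L _ (c : L)) → P.ord (B.x - algebraMap L _ (c : L)) = 1) :
    ∀ s : ↥(modularFunctionFieldFullC k N),
      (∀ Q : Place k ↥(modularFunctionFieldFullC k N), 0 ≤ Q.ord (B.xt hπ hNk) → 0 ≤ Q.ord s) →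
      ∃ y : Ow A π N hNk, redF A π N hπ hNk y = s ∧
        ∀ P : Place L ↥(laurentBaseChange L (modularFunctionFieldFull N)),
          0 ≤ P.ord B.x →
            0 ≤ P.ord (y : ↥(laurentBaseChange L (modularFunctionFieldFull N))) :=
  fun s hs => Disc.lift_x B hπ hsurj hNk hbr s hs

/-- **(T3')** for a base function `B`: the chart at infinity. -/
theorem hT3' [IsAlgClosed L] [IsAlgClosed k] (B : BaseFn.Data A π N)
    (hπ : ∀ a : A, ¬ IsUnit a → π a = 0) (hsurj : Function.Surjective π) (hNk : (N : k) ≠ 0)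
    (hbr : ∀ γ : k, ∃ c₀ : A, π c₀ = γ ∧ ∀ c : A, π c = γ → c ≠ c₀ →
      ∀ P : Place L ↥(laurentBaseChange L (modularFunctionFieldFull N)),
        0 < P.ord ((B.x)⁻¹ - algebraMap L _ (c : L)) →
          P.ord ((B.x)⁻¹ - algebraMap L _ (c : L)) = 1) :
    ∀ s : ↥(modularFunctionFieldFullC k N),
      (∀ Q : Place k ↥(modularFunctionFieldFullC k N), Q.ord (B.xt hπ hNk) ≤ 0 → 0 ≤ Q.ord s) →
      ∃ y : Ow A π N hNk, redF A π N hπ hNk y = s ∧
        ∀ P : Place L ↥(laurentBaseChange L (modularFunctionFieldFull N)),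
          P.ord B.x ≤ 0 →
            0 ≤ P.ord (y : ↥(laurentBaseChange L (modularFunctionFieldFull N))) :=
  fun s hs => Disc.lift_inv B hπ hsurj hNk hbr s hs

end Generic

section Instances

variable {A : ValuationSubring KQ} {k : Type} [Field k] [IsAlgClosed k] {π : A →+* k}

/-- **(T3) for `x = J(q^N)`**, residue characteristic `≥ 5`. -/
theorem hT3_ofJ (N : ℕ) [NeZero N] (hπ : ∀ a : A, ¬ IsUnit a → π a = 0)
    (hsurj : Function.Surjective π) (hNk : (N : k) ≠ 0) (h : (1728 : k) ≠ 0) :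
    ∀ s : ↥(modularFunctionFieldFullC k N),
      (∀ Q : Place k ↥(modularFunctionFieldFullC k N),
        0 ≤ Q.ord ((Data.ofJ A π N).xt hπ hNk) → 0 ≤ Q.ord s) →
      ∃ y : Ow A π N hNk, redF A π N hπ hNk y = s ∧
        ∀ P : Place KQ ↥(laurentBaseChange KQ (modularFunctionFieldFull N)),
          0 ≤ P.ord (Data.ofJ A π N).x →
            0 ≤ P.ord (y : ↥(laurentBaseChange KQ (modularFunctionFieldFull N))) :=
  hT3 (Data.ofJ A π N) hπ hsurj hNk (BranchH.hbr_ofJ N hsurj h)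

/-- **(T3') for `x = J(q^N)`**, residue characteristic `≥ 5`. -/
theorem hT3'_ofJ (N : ℕ) [NeZero N] (hπ : ∀ a : A, ¬ IsUnit a → π a = 0)
    (hsurj : Function.Surjective π) (hNk : (N : k) ≠ 0) (h : (1728 : k) ≠ 0) :
    ∀ s : ↥(modularFunctionFieldFullC k N),
      (∀ Q : Place k ↥(modularFunctionFieldFullC k N),
        Q.ord ((Data.ofJ A π N).xt hπ hNk) ≤ 0 → 0 ≤ Q.ord s) →
      ∃ y : Ow A π N hNk, redF A π N hπ hNk y = s ∧
        ∀ P : Place KQ ↥(laurentBaseChange KQ (modularFunctionFieldFull N)),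
          P.ord (Data.ofJ A π N).x ≤ 0 →
            0 ≤ P.ord (y : ↥(laurentBaseChange KQ (modularFunctionFieldFull N))) :=
  hT3' (Data.ofJ A π N) hπ hsurj hNk (BranchH.hbr_ofJ_inv N hsurj h)

/-- **(T3) for the Hauptmodul of level 2** at level `M = m * 2`. -/
theorem hT3_ofHaupt2 (M m : ℕ) [NeZero M] [NeZero m] (hM : M = m * 2)
    (hπ : ∀ a : A, ¬ IsUnit a → π a = 0) (hsurj : Function.Surjective π) (hMk : (M : k) ≠ 0)
    (h2 : (2 : k) ≠ 0) :
    ∀ s : ↥(modularFunctionFieldFullC k M),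
      (∀ Q : Place k ↥(modularFunctionFieldFullC k M),
        0 ≤ Q.ord ((ofHaupt2 A π M m hM h2).xt hπ hMk) → 0 ≤ Q.ord s) →
      ∃ y : Ow A π M hMk, redF A π M hπ hMk y = s ∧
        ∀ P : Place KQ ↥(laurentBaseChange KQ (modularFunctionFieldFull M)),
          0 ≤ P.ord (ofHaupt2 A π M m hM h2).x →
            0 ≤ P.ord (y : ↥(laurentBaseChange KQ (modularFunctionFieldFull M))) :=
  hT3 (ofHaupt2 A π M m hM h2) hπ hsurj hMk (BranchH.hbr_ofHaupt2 M m hM hsurj h2)

/-- **(T3') for the Hauptmodul of level 2** at level `M = m * 2`. -/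
theorem hT3'_ofHaupt2 (M m : ℕ) [NeZero M] [NeZero m] (hM : M = m * 2)
    (hπ : ∀ a : A, ¬ IsUnit a → π a = 0) (hsurj : Function.Surjective π) (hMk : (M : k) ≠ 0)
    (h2 : (2 : k) ≠ 0) :
    ∀ s : ↥(modularFunctionFieldFullC k M),
      (∀ Q : Place k ↥(modularFunctionFieldFullC k M),
        Q.ord ((ofHaupt2 A π M m hM h2).xt hπ hMk) ≤ 0 → 0 ≤ Q.ord s) →
      ∃ y : Ow A π M hMk, redF A π M hπ hMk y = s ∧
        ∀ P : Place KQ ↥(laurentBaseChange KQ (modularFunctionFieldFull M)),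
          P.ord (ofHaupt2 A π M m hM h2).x ≤ 0 →
            0 ≤ P.ord (y : ↥(laurentBaseChange KQ (modularFunctionFieldFull M))) :=
  hT3' (ofHaupt2 A π M m hM h2) hπ hsurj hMk (BranchH.hbr_ofHaupt2_inv M m hM hsurj h2)

/-- **(T3) for the Hauptmodul of level 3** at level `M = m * 3`. -/
theorem hT3_ofHaupt3 (M m : ℕ) [NeZero M] [NeZero m] (hM : M = m * 3)
    (hπ : ∀ a : A, ¬ IsUnit a → π a = 0) (hsurj : Function.Surjective π) (hMk : (M : k) ≠ 0)
    (h3 : (3 : k) ≠ 0) :
    ∀ s : ↥(modularFunctionFieldFullC k M),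
      (∀ Q : Place k ↥(modularFunctionFieldFullC k M),
        0 ≤ Q.ord ((ofHaupt3 A π M m hM h3).xt hπ hMk) → 0 ≤ Q.ord s) →
      ∃ y : Ow A π M hMk, redF A π M hπ hMk y = s ∧
        ∀ P : Place KQ ↥(laurentBaseChange KQ (modularFunctionFieldFull M)),
          0 ≤ P.ord (ofHaupt3 A π M m hM h3).x →
            0 ≤ P.ord (y : ↥(laurentBaseChange KQ (modularFunctionFieldFull M))) :=
  hT3 (ofHaupt3 A π M m hM h3) hπ hsurj hMk (BranchH.hbr_ofHaupt3 M m hM hsurj h3)

/-- **(T3') for the Hauptmodul of level 3** at level `M = m * 3`. -/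
theorem hT3'_ofHaupt3 (M m : ℕ) [NeZero M] [NeZero m] (hM : M = m * 3)
    (hπ : ∀ a : A, ¬ IsUnit a → π a = 0) (hsurj : Function.Surjective π) (hMk : (M : k) ≠ 0)
    (h3 : (3 : k) ≠ 0) :
    ∀ s : ↥(modularFunctionFieldFullC k M),
      (∀ Q : Place k ↥(modularFunctionFieldFullC k M),
        Q.ord ((ofHaupt3 A π M m hM h3).xt hπ hMk) ≤ 0 → 0 ≤ Q.ord s) →
      ∃ y : Ow A π M hMk, redF A π M hπ hMk y = s ∧
        ∀ P : Place KQ ↥(laurentBaseChange KQ (modularFunctionFieldFull M)),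
          P.ord (ofHaupt3 A π M m hM h3).x ≤ 0 →
            0 ≤ P.ord (y : ↥(laurentBaseChange KQ (modularFunctionFieldFull M))) :=
  hT3' (ofHaupt3 A π M m hM h3) hπ hsurj hMk (BranchH.hbr_ofHaupt3_inv M m hM hsurj h3)

end Instances

end Fermat.Agent.Lib.Red.DiscInst
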