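/-
ESJ / RED (GEN, route G-B): the genus does not drop under reduction, from "lifting of the
Riemann–Roch spaces `L(m·(x)_∞)`".  Abstract: `F/L` and `Ft/k` function fields in the sense of
`IsFF1`, `O ⊆ F` a subring (the Gauss valuation ring) with a reduction map `red : O → Ft`.

* `finrank_le_of_lift`   : if every element of a `k`-subspace `V ⊆ Ft` lifts to an element of
  `O` lying in the `L`-subspace `W ⊆ F`, then `dim_k V ≤ dim_L W`.
* `genusFF_le_of_lift`   : if `L(m·(x̄)_∞)` lifts to `L(m·(x)_∞) ∩ O` for all large `m` and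
  `deg (x)_∞ ≤ deg (x̄)_∞`, then `genusFF L F ≤ genusFF k Ft`.
* `exists_lift`          : the lifting hypothesis from good reduction of the two charts
  (`hT3`, `hT3'`) and finite generation of the finite chart ring over `A[x]` (`hT4`).
* `genusFF_le`           : the combination.
-/
import Mathlib
import Fermat.Agent.Lib.FF.RRApprox

set_option autoImplicit false

namespace Fermat.Agent.Lib.Red.GenusLe

open AlgebraicCurve Fermat.Agent.Lib.FF WithZero

section Basic

variable {K E : Type*} [Field K] [Field E] [Algebra K E]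

theorem ord_nonneg_iff (P : Place K E) (f : E) : 0 ≤ P.ord f ↔ P.adicValuation f ≤ 1 := by
  rw [P.adicValuation_le_one_iff]
  constructor
  · exact Or.inr
  · rintro (rfl | h)
    · simp
    · exact h

theorem adicValuation_algebraMap_eq_one (P : Place K E) {a : K} (ha : a ≠ 0) :
    P.adicValuation (algebraMap K E a) = 1 := by
  have h1 := P.adicValuation_algebraMap_le_one a
  have h2 := P.adicValuation_algebraMap_le_one a⁻¹
  have h3 : P.adicValuation (algebraMap K E a) * P.adicValuation (algebraMap K E a⁻¹) = 1 := by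
    rw [← map_mul, ← map_mul, mul_inv_cancel₀ ha, map_one, map_one]
  refine le_antisymm h1 ?_
  by_contra hlt
  rw [not_le] at hlt
  have : P.adicValuation (algebraMap K E a) * P.adicValuation (algebraMap K E a⁻¹) < 1 :=
    mul_lt_one_of_lt_of_le hlt h2
  rw [h3] at this
  exact lt_irrefl _ this

end Basic

variable {L F k Ft : Type*} [Field L] [Field F] [Algebra L F] [Field k] [Field Ft] [Algebra k Ft]

/-- If every element of `V` lifts to an element of `O ∩ W`, then `dim V ≤ dim W`: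
`k`-independent reductions lift to `L`-independent elements. -/
theorem finrank_le_of_lift (A : ValuationSubring L) (π : A →+* k) (O : Subring F)
    (red : O →+* Ft) (hA : ∀ a : A, algebraMap L F a ∈ O)
    (hred : ∀ a : A, red ⟨algebraMap L F a, hA a⟩ = algebraMap k Ft (π a))
    (V : Submodule k Ft) (W : Submodule L F) [Module.Finite k V] [Module.Finite L W]
    (hlift : ∀ s ∈ V, ∃ y : O, red y = s ∧ (y : F) ∈ W) :
    Module.finrank k V ≤ Module.finrank L W := by
  classical
  let b := Module.finBasis k V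
  choose y hy hyW using fun i => hlift (b i) (b i).2
  have hli : LinearIndependent L (fun i => (⟨(y i : F), hyW i⟩ : W)) := by
    rw [Fintype.linearIndependent_iff]
    intro g hg
    by_contra hne
    push Not at hne
    obtain ⟨i0, hi0⟩ := hne
    obtain ⟨j, -, hj⟩ := Finset.exists_max_image Finset.univ (fun i => A.valuation (g i))
      ⟨i0, Finset.mem_univ _⟩
    have hgj : g j ≠ 0 := by
      intro h0
      have h1 := hj i0 (Finset.mem_univ _)
      rw [h0, map_zero] at h1
      exact hi0 ((Valuation.zero_iff _).mp (le_antisymm h1 zero_le))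
    have hmem : ∀ i, g i / g j ∈ A := by
      intro i
      rw [← A.valuation_le_one_iff, map_div₀]
      have hpos : 0 < A.valuation (g j) := by
        rw [pos_iff_ne_zero]
        exact (Valuation.ne_zero_iff _).mpr hgj
      rw [div_le_one₀ hpos]
      exact hj i (Finset.mem_univ _)
    let a : Fin (Module.finrank k V) → A := fun i => ⟨g i / g j, hmem i⟩
    have hsum : ∑ i, (⟨algebraMap L F (a i), hA (a i)⟩ : O) * y i = 0 := by
      apply Subtype.ext
      rw [AddSubmonoidClass.coe_finsetSum]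
      have h1 := congrArg (fun w : W => (w : F)) hg
      simp only [Submodule.coe_sum, Submodule.coe_smul, Submodule.coe_zero] at h1
      show ∑ i, algebraMap L F (g i / g j) * (y i : F) = 0
      calc ∑ i, algebraMap L F (g i / g j) * (y i : F)
          = algebraMap L F (g j)⁻¹ * ∑ i, g i • (y i : F) := by
            rw [Finset.mul_sum]
            refine Finset.sum_congr rfl fun i _ => ?_
            rw [Algebra.smul_def, div_eq_mul_inv, map_mul]
            ring
        _ = 0 := by rw [h1, mul_zero]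
    have hsum' := congrArg red hsum
    rw [map_sum, map_zero] at hsum'
    simp only [map_mul, hred, hy] at hsum'
    have hb : ∑ i, π (a i) • b i = 0 := by
      apply Subtype.ext
      simp only [Submodule.coe_sum, Submodule.coe_smul, Submodule.coe_zero, Algebra.smul_def]
      exact hsum'
    have h0 := (Fintype.linearIndependent_iff.mp b.linearIndependent) _ hb j
    have haj : a j = 1 := Subtype.ext (div_self hgj)
    rw [haj, map_one] at h0
    exact one_ne_zero h0
  have h := hli.fintype_card_le_finrank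
  simpa using h

/-- **The genus does not drop** if the Riemann–Roch spaces of the multiples of the pole divisor
of `x̄` lift. -/
theorem genusFF_le_of_lift {x : F} {xt : Ft} (hF : IsFF1 L F x) (hFt : IsFF1 k Ft xt)
    (A : ValuationSubring L) (π : A →+* k) (O : Subring F) (red : O →+* Ft)
    (hA : ∀ a : A, algebraMap L F a ∈ O)
    (hred : ∀ a : A, red ⟨algebraMap L F a, hA a⟩ = algebraMap k Ft (π a))
    (hdeg : Divisor.degree hF.poleDiv ≤ Divisor.degree hFt.poleDiv)
    (hlift : ∃ d : ℕ, ∀ m : ℕ, d ≤ m → ∀ s ∈ riemannRochSpace (m • hFt.poleDiv),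
      ∃ y : O, red y = s ∧ (y : F) ∈ riemannRochSpace (m • hF.poleDiv)) :
    genusFF L F ≤ genusFF k Ft := by
  obtain ⟨c, hc⟩ := hF.exists_degree_bound
  obtain ⟨ct, hct⟩ := hFt.exists_degree_bound
  obtain ⟨d, hd⟩ := hlift
  have hpos := hF.degree_poleDiv_pos
  set m : ℕ := max d (max c.toNat ct.toNat) with hm
  have hmd : d ≤ m := le_max_left _ _
  have hmc : c ≤ (m : ℤ) := by
    have h1 : c ≤ (c.toNat : ℤ) := Int.self_le_toNat c
    have h2 : (c.toNat : ℤ) ≤ m := by
      exact_mod_cast (le_max_left _ _).trans (le_max_right d _)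
    omega
  have hmct : ct ≤ (m : ℤ) := by
    have h1 : ct ≤ (ct.toNat : ℤ) := Int.self_le_toNat ct
    have h2 : (ct.toNat : ℤ) ≤ m := by
      exact_mod_cast (le_max_right _ _).trans (le_max_right d _)
    omega
  have hm0 : (0 : ℤ) ≤ m := Int.natCast_nonneg m
  have e1 : Divisor.degree (m • hF.poleDiv) = m * Divisor.degree hF.poleDiv := by
    rw [map_nsmul, nsmul_eq_mul]
  have e2 : Divisor.degree (m • hFt.poleDiv) = m * Divisor.degree hFt.poleDiv := by
    rw [map_nsmul, nsmul_eq_mul]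
  have h1 := (hc (m • hF.poleDiv) (by rw [e1]; nlinarith)).2
  have h2 := (hct (m • hFt.poleDiv) (by rw [e2]; nlinarith)).2
  have := hF.finite_L (m • hF.poleDiv)
  have := hFt.finite_L (m • hFt.poleDiv)
  have h3 := finrank_le_of_lift A π O red hA hred (riemannRochSpace (m • hFt.poleDiv))
    (riemannRochSpace (m • hF.poleDiv)) (hd m hmd)
  have h3' : (Module.finrank k (riemannRochSpace (m • hFt.poleDiv)) : ℤ) ≤
      Module.finrank L (riemannRochSpace (m • hF.poleDiv)) := by exact_mod_cast h3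
  rw [h1, h2, e1, e2] at h3'
  have h4 : (genusFF L F : ℤ) ≤ genusFF k Ft := by nlinarith
  exact_mod_cast h4

/-! ### The lifting hypothesis from good reduction of the two charts -/

section Charts

variable (L)

/-- The finite chart ring: elements of `O` regular at every place where `x` is regular. -/
def chartFin (O : Subring F) (x : F) : Subring F where
  carrier := {z | z ∈ O ∧ ∀ P : Place L F, P.adicValuation x ≤ 1 → P.adicValuation z ≤ 1}
  mul_mem' := fun {a b} ha hb => ⟨O.mul_mem ha.1 hb.1, fun P hP => by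
    rw [map_mul]; exact mul_le_one' (ha.2 P hP) (hb.2 P hP)⟩
  one_mem' := ⟨O.one_mem, fun P _ => by rw [map_one]⟩
  add_mem' := fun {a b} ha hb => ⟨O.add_mem ha.1 hb.1, fun P hP =>
    (Valuation.map_add _ _ _).trans (max_le (ha.2 P hP) (hb.2 P hP))⟩
  zero_mem' := ⟨O.zero_mem, fun P _ => by rw [map_zero]; exact zero_le⟩
  neg_mem' := fun {a} ha => ⟨O.neg_mem ha.1, fun P hP => by
    rw [Valuation.map_neg]; exact ha.2 P hP⟩

/-- The chart ring away from the zeros of `x`. -/
def chartInf (O : Subring F) (x : F) : Subring F where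
  carrier := {z | z ∈ O ∧ ∀ P : Place L F, 1 ≤ P.adicValuation x → P.adicValuation z ≤ 1}
  mul_mem' := fun {a b} ha hb => ⟨O.mul_mem ha.1 hb.1, fun P hP => by
    rw [map_mul]; exact mul_le_one' (ha.2 P hP) (hb.2 P hP)⟩
  one_mem' := ⟨O.one_mem, fun P _ => by rw [map_one]⟩
  add_mem' := fun {a b} ha hb => ⟨O.add_mem ha.1 hb.1, fun P hP =>
    (Valuation.map_add _ _ _).trans (max_le (ha.2 P hP) (hb.2 P hP))⟩
  zero_mem' := ⟨O.zero_mem, fun P _ => by rw [map_zero]; exact zero_le⟩
  neg_mem' := fun {a} ha => ⟨O.neg_mem ha.1, fun P hP => by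
    rw [Valuation.map_neg]; exact ha.2 P hP⟩

variable {L}

theorem mem_chartFin {O : Subring F} {x z : F} :
    z ∈ chartFin L O x ↔
      z ∈ O ∧ ∀ P : Place L F, P.adicValuation x ≤ 1 → P.adicValuation z ≤ 1 := Iff.rfl

theorem mem_chartInf {O : Subring F} {x z : F} :
    z ∈ chartInf L O x ↔
      z ∈ O ∧ ∀ P : Place L F, 1 ≤ P.adicValuation x → P.adicValuation z ≤ 1 := Iff.rfl

/-- Splitting `x⁻ᴹ·p(x)` into a polynomial part and a part divisible by `x⁻¹` in `A[x⁻¹]`. -/
theorem exists_split (A : ValuationSubring L) {x : F} (hx0 : x ≠ 0) (Sfin Sinf : Subring F)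
    (hAfin : ∀ a : A, algebraMap L F a ∈ Sfin) (hAinf : ∀ a : A, algebraMap L F a ∈ Sinf)
    (hxfin : x ∈ Sfin) (hxinf : x⁻¹ ∈ Sinf) (M : ℕ) (p : Polynomial A) :
    ∃ u w : F, x⁻¹ ^ M * Polynomial.aeval x (p.map A.subtype) = u + x⁻¹ * w ∧
      u ∈ Sfin ∧ w ∈ Sinf := by
  induction p using Polynomial.induction_on' with
  | add p q hp hq =>
    obtain ⟨u, w, e, hu, hw⟩ := hp
    obtain ⟨u', w', e', hu', hw'⟩ := hq
    refine ⟨u + u', w + w', ?_, Sfin.add_mem hu hu', Sinf.add_mem hw hw'⟩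
    rw [Polynomial.map_add, map_add, mul_add, e, e']
    ring
  | monomial j a =>
    have hval : Polynomial.aeval x ((Polynomial.monomial j a).map A.subtype) =
        algebraMap L F a * x ^ j := by
      rw [Polynomial.map_monomial, Polynomial.aeval_monomial]
      rfl
    rw [hval]
    by_cases hjM : M ≤ j
    · refine ⟨algebraMap L F a * x ^ (j - M), 0, ?_, Sfin.mul_mem (hAfin a) (Sfin.pow_mem hxfin _),
        Sinf.zero_mem⟩
      have hj : j = (j - M) + M := (Nat.sub_add_cancel hjM).symm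
      conv_lhs => rw [hj, pow_add]
      rw [mul_zero, add_zero, inv_pow]
      field_simp
    · rw [not_le] at hjM
      refine ⟨0, algebraMap L F a * x⁻¹ ^ (M - j - 1), ?_, Sfin.zero_mem,
        Sinf.mul_mem (hAinf a) (Sinf.pow_mem hxinf _)⟩
      have hM : M = (M - j - 1) + 1 + j := by omega
      conv_lhs => rw [hM, pow_add, pow_add]
      rw [zero_add, pow_one, inv_pow x j]
      have hxj : (x ^ j)⁻¹ * x ^ j = 1 := inv_mul_cancel₀ (pow_ne_zero _ hx0)
      calc x⁻¹ ^ (M - j - 1) * x⁻¹ * (x ^ j)⁻¹ * (algebraMap L F a * x ^ j)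
          = x⁻¹ * (algebraMap L F a * x⁻¹ ^ (M - j - 1)) * ((x ^ j)⁻¹ * x ^ j) := by ring
        _ = x⁻¹ * (algebraMap L F a * x⁻¹ ^ (M - j - 1)) := by rw [hxj, mul_one]

end Charts

/-- **Lifting of the Riemann–Roch spaces `L(m·(x̄)_∞)`** from good reduction of the two charts
(`hT3`, `hT3'`) and finite generation of the finite chart ring over `A[x]` (`hT4`). -/
theorem exists_lift {x : F} {xt : Ft} (hF : IsFF1 L F x) (hFt : IsFF1 k Ft xt)
    (A : ValuationSubring L) (π : A →+* k) (hπ : ∀ a : A, ¬ IsUnit a → π a = 0)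
    (O : Subring F) (red : O →+* Ft)
    (hA : ∀ a : A, algebraMap L F a ∈ O)
    (hred : ∀ a : A, red ⟨algebraMap L F a, hA a⟩ = algebraMap k Ft (π a))
    (hxO : x ∈ O) (hxinv : x⁻¹ ∈ O) (hredx : red ⟨x, hxO⟩ = xt)
    (hdiv : ∀ y : O, red y = 0 → ∃ a : A, ¬ IsUnit a ∧ ∃ y' : O, (y : F) = algebraMap L F a * y')
    (hT3 : ∀ s : Ft, (∀ Q : Place k Ft, 0 ≤ Q.ord xt → 0 ≤ Q.ord s) →
        ∃ y : O, red y = s ∧ ∀ P : Place L F, 0 ≤ P.ord x → 0 ≤ P.ord (y : F))
    (hT3' : ∀ s : Ft, (∀ Q : Place k Ft, Q.ord xt ≤ 0 → 0 ≤ Q.ord s) →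
        ∃ y : O, red y = s ∧ ∀ P : Place L F, P.ord x ≤ 0 → 0 ≤ P.ord (y : F))
    (hT4 : ∃ (n : ℕ) (g : Fin n → F), (∀ i, g i ∈ O) ∧
        (∀ i, ∀ P : Place L F, 0 ≤ P.ord x → 0 ≤ P.ord (g i)) ∧
        ∀ y : O, (∀ P : Place L F, 0 ≤ P.ord x → 0 ≤ P.ord (y : F)) →
          ∃ p : Fin n → Polynomial A,
            (y : F) = ∑ i, Polynomial.aeval x ((p i).map A.subtype) * g i) :
    ∃ d : ℕ, ∀ m : ℕ, d ≤ m → ∀ s ∈ riemannRochSpace (m • hFt.poleDiv),
      ∃ y : O, red y = s ∧ (y : F) ∈ riemannRochSpace (m • hF.poleDiv) := by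
  classical
  obtain ⟨n, g, hgO, hgreg, hgen⟩ := hT4
  have hx0 : x ≠ 0 := by
    rintro rfl
    exact hF.transcendental (isAlgebraic_zero)
  have hxt0 : xt ≠ 0 := by
    rintro rfl
    exact hFt.transcendental (isAlgebraic_zero)
  -- conversions between `ord` and `adicValuation` at `x`
  have hxle : ∀ P : Place L F, 0 ≤ P.ord x ↔ P.adicValuation x ≤ 1 := fun P => ord_nonneg_iff P x
  have hxge : ∀ P : Place L F, P.ord x ≤ 0 ↔ 1 ≤ P.adicValuation x := by
    intro P
    rw [P.adicValuation_eq_exp_neg_ord hx0, ← exp_zero, exp_le_exp]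
    omega
  have hxtle : ∀ Q : Place k Ft, 0 ≤ Q.ord xt ↔ Q.adicValuation xt ≤ 1 :=
    fun Q => ord_nonneg_iff Q xt
  have hxtge : ∀ Q : Place k Ft, Q.ord xt ≤ 0 ↔ 1 ≤ Q.adicValuation xt := by
    intro Q
    rw [Q.adicValuation_eq_exp_neg_ord hxt0, ← exp_zero, exp_le_exp]
    omega
  -- the poles of `x`
  obtain ⟨hfin, -⟩ := hF.poles_le
  set d : ℕ := ∑ i, ∑ P ∈ hfin.toFinset, (-(P.ord (g i))).toNat with hd
  refine ⟨d, fun m hm s hs => ?_⟩
  -- membership of the basic elements in the two chart rings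
  have hgfin : ∀ i, g i ∈ chartFin L O x := fun i =>
    ⟨hgO i, fun P hP => (ord_nonneg_iff P _).mp (hgreg i P ((hxle P).mpr hP))⟩
  have hxfin : x ∈ chartFin L O x := ⟨hxO, fun P hP => hP⟩
  have hAfin : ∀ a : A, algebraMap L F a ∈ chartFin L O x := fun a =>
    ⟨hA a, fun P _ => P.adicValuation_algebraMap_le_one _⟩
  have hxinf : x⁻¹ ∈ chartInf L O x := ⟨hxinv, fun P hP => by
    rw [map_inv₀]; exact inv_le_one_of_one_le₀ hP⟩
  have hAinf : ∀ a : A, algebraMap L F a ∈ chartInf L O x := fun a =>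
    ⟨hA a, fun P _ => P.adicValuation_algebraMap_le_one _⟩
  -- the generators, divided by `x^(m+1)`, are regular at the poles of `x`
  have hkey : ∀ i, x⁻¹ ^ (m + 1) * g i ∈ chartInf L O x := by
    intro i
    refine ⟨O.mul_mem (O.pow_mem hxinv _) (hgO i), fun P hP => ?_⟩
    rcases eq_or_lt_of_le hP with h1 | h1
    · rw [map_mul, map_pow, map_inv₀, ← h1, inv_one, one_pow, one_mul]
      exact (hgfin i).2 P (le_of_eq h1.symm)
    · by_cases hg0 : g i = 0
      · rw [hg0, mul_zero, map_zero]; exact zero_le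
      have hpole : P.ord x < 0 := (P.not_adicValuation_le_one_iff).mp (not_le.mpr h1)
      have hPpol : P ∈ hfin.toFinset := hfin.mem_toFinset.mpr hpole
      have hvx : exp (1 : ℤ) ≤ P.adicValuation x := by
        rw [P.adicValuation_eq_exp_neg_ord hx0, exp_le_exp]
        omega
      have hvg : P.adicValuation (g i) ≤ exp ((m + 1 : ℕ) : ℤ) := by
        rw [P.adicValuation_eq_exp_neg_ord hg0, exp_le_exp]
        have h2 : (-(P.ord (g i))) ≤ ((-(P.ord (g i))).toNat : ℤ) := Int.self_le_toNat _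
        have h3 : (-(P.ord (g i))).toNat ≤ d := by
          rw [hd]
          exact (Finset.single_le_sum (f := fun P : Place L F => (-(P.ord (g i))).toNat)
            (fun _ _ => Nat.zero_le _) hPpol).trans
            (Finset.single_le_sum (f := fun i => ∑ P ∈ hfin.toFinset, (-(P.ord (g i))).toNat)
              (fun _ _ => Nat.zero_le _) (Finset.mem_univ i))
        push_cast
        omega
      have hvx0 : 0 < P.adicValuation x := lt_of_lt_of_le (by exact zero_lt_one) hP
      rw [map_mul, map_pow, map_inv₀, inv_pow, inv_mul_le_iff₀ (pow_pos hvx0 _), mul_one]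
      calc P.adicValuation (g i) ≤ exp ((m + 1 : ℕ) : ℤ) := hvg
        _ = exp (1 : ℤ) ^ (m + 1) := by rw [← exp_nsmul]; simp
        _ ≤ P.adicValuation x ^ (m + 1) := pow_le_pow_left₀ (zero_le) hvx _
  -- `s` is regular at the finite places, `s / x̄^m` away from the zeros of `x̄`
  have hs' : ∀ Q : Place k Ft, Q.adicValuation s ≤ exp ((m • hFt.poleDiv) Q) := hs
  have hsfin : ∀ Q : Place k Ft, 0 ≤ Q.ord xt → 0 ≤ Q.ord s := by
    intro Q hQ
    rw [ord_nonneg_iff]
    have h1 := hs' Q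
    rw [Finsupp.smul_apply, hFt.poleDiv_apply, max_eq_right (by omega), smul_zero, exp_zero] at h1
    exact h1
  have hsinf : ∀ Q : Place k Ft, Q.ord xt ≤ 0 → 0 ≤ Q.ord (s * xt⁻¹ ^ m) := by
    intro Q hQ
    rw [ord_nonneg_iff, map_mul, map_pow, map_inv₀]
    have h1 := hs' Q
    rw [Finsupp.smul_apply, hFt.poleDiv_apply, max_eq_left (by omega)] at h1
    have h2 : exp (m • (-(Q.ord xt))) = Q.adicValuation xt ^ m := by
      rw [Q.adicValuation_eq_exp_neg_ord hxt0, ← exp_nsmul]
    rw [h2] at h1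
    have hvx0 : 0 < Q.adicValuation xt := by
      rw [pos_iff_ne_zero]; exact Q.adicValuation_ne_zero hxt0
    rw [inv_pow, mul_inv_le_iff₀ (pow_pos hvx0 _), one_mul]
    exact h1
  obtain ⟨f₁, hf₁, hf₁reg⟩ := hT3 s hsfin
  obtain ⟨f₂, hf₂, hf₂reg⟩ := hT3' _ hsinf
  have hf₁fin : (f₁ : F) ∈ chartFin L O x :=
    ⟨f₁.2, fun P hP => (ord_nonneg_iff P _).mp (hf₁reg P ((hxle P).mpr hP))⟩
  have hf₂inf : (f₂ : F) ∈ chartInf L O x :=
    ⟨f₂.2, fun P hP => (ord_nonneg_iff P _).mp (hf₂reg P ((hxge P).mpr hP))⟩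
  -- the difference reduces to zero
  have hredh : red (f₁ - (⟨x, hxO⟩ : O) ^ m * f₂) = 0 := by
    rw [map_sub, map_mul, map_pow, hredx, hf₁, hf₂, inv_pow]
    field_simp
    ring
  obtain ⟨a, ha, h₀, hh₀⟩ := hdiv _ hredh
  have hh₀' : (f₁ : F) - x ^ m * (f₂ : F) = algebraMap L F a * (h₀ : F) := by
    rw [← hh₀]; rfl
  -- normalise: `h' = 0` if `a = 0`
  obtain ⟨h', hh'O, hh', hh'0⟩ : ∃ h' : F, h' ∈ O ∧
      (f₁ : F) - x ^ m * (f₂ : F) = algebraMap L F a * h' ∧ ((a : L) = 0 → h' = 0) := by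
    by_cases ha0 : (a : L) = 0
    · exact ⟨0, O.zero_mem, by rw [hh₀', ha0, map_zero, zero_mul, mul_zero], fun _ => rfl⟩
    · exact ⟨h₀, h₀.2, hh₀', fun h => absurd h ha0⟩
  -- the zeros of `x` and the pole orders of `f₂` there
  obtain ⟨Dx, hDx, -⟩ := hF.hasPrincipalDivisors.exists_divisor x hx0
  set M : ℕ := ∑ P ∈ Dx.support, (-(P.ord (f₂ : F))).toNat with hM
  have hyfin : x ^ M * h' ∈ chartFin L O x := by
    refine ⟨O.mul_mem (O.pow_mem hxO _) hh'O, fun P hP => ?_⟩
    by_cases ha0 : (a : L) = 0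
    · rw [hh'0 ha0, mul_zero, map_zero]; exact zero_le
    have hva : P.adicValuation (algebraMap L F a) = 1 := adicValuation_algebraMap_eq_one P ha0
    have hvh : P.adicValuation h' = P.adicValuation ((f₁ : F) - x ^ m * (f₂ : F)) := by
      rw [hh', map_mul, hva, one_mul]
    have hv1 : P.adicValuation (f₁ : F) ≤ 1 := hf₁fin.2 P hP
    rcases eq_or_lt_of_le hP with h1 | h1
    · have hv2 : P.adicValuation (f₂ : F) ≤ 1 := hf₂inf.2 P (le_of_eq h1.symm)
      rw [map_mul, map_pow, h1, one_pow, one_mul, hvh]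
      refine (Valuation.map_sub _ _ _).trans (max_le hv1 ?_)
      rw [map_mul, map_pow, h1, one_pow, one_mul]
      exact hv2
    · -- a zero of `x`
      have hzero : 0 < P.ord x := by
        by_contra hle
        rw [not_lt, hxge P] at hle
        exact absurd h1 (not_lt.mpr hle)
      have hPsupp : P ∈ Dx.support := by
        rw [Finsupp.mem_support_iff, hDx P]; omega
      have hvx : P.adicValuation x ≤ exp (-1 : ℤ) := by
        rw [P.adicValuation_eq_exp_neg_ord hx0, exp_le_exp]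
        omega
      have hvf₂ : P.adicValuation (f₂ : F) ≤ exp (M : ℤ) := by
        by_cases hf0 : (f₂ : F) = 0
        · rw [hf0, map_zero]; exact zero_le
        rw [P.adicValuation_eq_exp_neg_ord hf0, exp_le_exp]
        have h2 : (-(P.ord (f₂ : F))) ≤ ((-(P.ord (f₂ : F))).toNat : ℤ) := Int.self_le_toNat _
        have h3 : (-(P.ord (f₂ : F))).toNat ≤ M := by
          rw [hM]
          exact Finset.single_le_sum (f := fun P : Place L F => (-(P.ord (f₂ : F))).toNat)
            (fun _ _ => Nat.zero_le _) hPsupp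
        omega
      have hvh' : P.adicValuation h' ≤ exp (M : ℤ) := by
        rw [hvh]
        refine (Valuation.map_sub _ _ _).trans (max_le (hv1.trans ?_) ?_)
        · rw [← exp_zero, exp_le_exp]; exact Int.natCast_nonneg M
        · rw [map_mul, map_pow]
          calc P.adicValuation x ^ m * P.adicValuation (f₂ : F)
              ≤ 1 * P.adicValuation (f₂ : F) :=
                mul_le_mul_left (pow_le_one₀ zero_le hP) _
            _ ≤ exp (M : ℤ) := by rw [one_mul]; exact hvf₂
      rw [map_mul, map_pow]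
      calc P.adicValuation x ^ M * P.adicValuation h'
          ≤ exp (-1 : ℤ) ^ M * exp (M : ℤ) :=
            mul_le_mul' (pow_le_pow_left₀ (zero_le) hvx _) hvh'
        _ = 1 := by
            rw [← exp_nsmul, ← exp_add]
            simp
  -- expand in the generators
  obtain ⟨p, hp⟩ := hgen ⟨x ^ M * h', hyfin.1⟩
    (fun P hP => (ord_nonneg_iff P _).mpr (hyfin.2 P ((hxle P).mp hP)))
  have hp' : x ^ M * h' = ∑ i, Polynomial.aeval x ((p i).map A.subtype) * g i := hp
  choose u w huw hu hw using fun i =>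
    exists_split A hx0 (chartFin L O x) (chartInf L O x) hAfin hAinf hxfin hxinf M (p i)
  set hplus : F := ∑ i, u i * g i with hplus_def
  set zz : F := ∑ i, w i * (x⁻¹ ^ (m + 1) * g i) with zz_def
  have hplus_mem : hplus ∈ chartFin L O x :=
    Subring.sum_mem _ fun i _ => Subring.mul_mem _ (hu i) (hgfin i)
  have hzz_mem : zz ∈ chartInf L O x :=
    Subring.sum_mem _ fun i _ => Subring.mul_mem _ (hw i) (hkey i)
  have hdecomp : h' = hplus + x ^ m * zz := by
    have e1 : h' = x⁻¹ ^ M * (x ^ M * h') := by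
      rw [inv_pow, ← mul_assoc, inv_mul_cancel₀ (pow_ne_zero _ hx0), one_mul]
    rw [e1, hp', Finset.mul_sum, hplus_def, zz_def, Finset.mul_sum, ← Finset.sum_add_distrib]
    refine Finset.sum_congr rfl fun i _ => ?_
    rw [← mul_assoc, huw i]
    have e2 : x ^ m * (w i * (x⁻¹ ^ (m + 1) * g i)) = x⁻¹ * w i * g i := by
      rw [pow_succ, inv_pow]
      field_simp
    rw [e2]
    ring
  -- the lift
  have hplusO : hplus ∈ O := hplus_mem.1
  refine ⟨f₁ - ⟨algebraMap L F a, hA a⟩ * ⟨hplus, hplusO⟩, ?_, ?_⟩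
  · rw [map_sub, map_mul, hred, hπ a ha, map_zero, zero_mul, sub_zero, hf₁]
  · -- membership in `L(m·(x)_∞)`
    have hfval : ((f₁ - ⟨algebraMap L F a, hA a⟩ * ⟨hplus, hplusO⟩ : O) : F) =
        (f₁ : F) - algebraMap L F a * hplus := rfl
    rw [hfval]
    have hffin : (f₁ : F) - algebraMap L F a * hplus ∈ chartFin L O x :=
      Subring.sub_mem _ hf₁fin (Subring.mul_mem _ (hAfin a) hplus_mem)
    have hfeq : (f₁ : F) - algebraMap L F a * hplus =
        x ^ m * ((f₂ : F) + algebraMap L F a * zz) := by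
      have e3 : (f₁ : F) = x ^ m * (f₂ : F) + algebraMap L F a * h' := by
        rw [← hh']; ring
      rw [e3, hdecomp]
      ring
    have hzinf : (f₂ : F) + algebraMap L F a * zz ∈ chartInf L O x :=
      Subring.add_mem _ hf₂inf (Subring.mul_mem _ (hAinf a) hzz_mem)
    intro P
    rw [Finsupp.smul_apply, hF.poleDiv_apply]
    rcases le_or_gt (P.adicValuation x) 1 with hP | hP
    · have h0 : 0 ≤ P.ord x := (hxle P).mpr hP
      rw [max_eq_right (by omega), smul_zero, exp_zero]
      exact hffin.2 P hP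
    · have h0 : P.ord x < 0 := (P.not_adicValuation_le_one_iff).mp (not_le.mpr hP)
      rw [max_eq_left (by omega), hfeq, map_mul, map_pow]
      have h2 : exp (m • (-(P.ord x))) = P.adicValuation x ^ m := by
        rw [P.adicValuation_eq_exp_neg_ord hx0, ← exp_nsmul]
      rw [h2]
      calc P.adicValuation x ^ m * P.adicValuation ((f₂ : F) + algebraMap L F a * zz)
          ≤ P.adicValuation x ^ m * 1 := mul_le_mul_right (hzinf.2 P hP.le) _
        _ = P.adicValuation x ^ m := mul_one _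

/-- **Good reduction ⇒ the genus does not drop.** -/
theorem genusFF_le {x : F} {xt : Ft} (hF : IsFF1 L F x) (hFt : IsFF1 k Ft xt)
    (A : ValuationSubring L) (π : A →+* k) (hπ : ∀ a : A, ¬ IsUnit a → π a = 0)
    (O : Subring F) (red : O →+* Ft)
    (hA : ∀ a : A, algebraMap L F a ∈ O)
    (hred : ∀ a : A, red ⟨algebraMap L F a, hA a⟩ = algebraMap k Ft (π a))
    (hxO : x ∈ O) (hxinv : x⁻¹ ∈ O) (hredx : red ⟨x, hxO⟩ = xt)
    (hdeg : Divisor.degree hF.poleDiv ≤ Divisor.degree hFt.poleDiv)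
    (hdiv : ∀ y : O, red y = 0 → ∃ a : A, ¬ IsUnit a ∧ ∃ y' : O, (y : F) = algebraMap L F a * y')
    (hT3 : ∀ s : Ft, (∀ Q : Place k Ft, 0 ≤ Q.ord xt → 0 ≤ Q.ord s) →
        ∃ y : O, red y = s ∧ ∀ P : Place L F, 0 ≤ P.ord x → 0 ≤ P.ord (y : F))
    (hT3' : ∀ s : Ft, (∀ Q : Place k Ft, Q.ord xt ≤ 0 → 0 ≤ Q.ord s) →
        ∃ y : O, red y = s ∧ ∀ P : Place L F, P.ord x ≤ 0 → 0 ≤ P.ord (y : F))
    (hT4 : ∃ (n : ℕ) (g : Fin n → F), (∀ i, g i ∈ O) ∧
        (∀ i, ∀ P : Place L F, 0 ≤ P.ord x → 0 ≤ P.ord (g i)) ∧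
        ∀ y : O, (∀ P : Place L F, 0 ≤ P.ord x → 0 ≤ P.ord (y : F)) →
          ∃ p : Fin n → Polynomial A,
            (y : F) = ∑ i, Polynomial.aeval x ((p i).map A.subtype) * g i) :
    genusFF L F ≤ genusFF k Ft :=
  genusFF_le_of_lift hF hFt A π O red hA hred hdeg
    (exists_lift hF hFt A π hπ O red hA hred hxO hxinv hredx hdiv hT3 hT3' hT4)

end Fermat.Agent.Lib.Red.GenusLe
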