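/-
ESJ / RED (GEN, instance): for the modular function fields `F = L·F_N`, `F~ = k(J̄(q^d) : d ∣ N)`
and the base function `x = J(q^N)`, the genus does not drop under reduction, provided the two
charts have good reduction (`hT3`, `hT3'`) and the finite chart ring is a finitely generated
`A[x]`-module (`hT4`).  Instance of `GenusLe.genusFF_le`.
-/
import Mathlib
import Fermat.Agent.Lib.Red.Basis
import Fermat.Agent.Lib.Red.GenusLe
import Fermat.Agent.Lib.FF.SettingP
import Fermat.Agent.S28.RJClosed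

set_option autoImplicit false

namespace Fermat.Agent.Lib.Red.InstGenus

open HahnSeries ModularCurve Polynomial AlgebraicCurve Fermat.Agent.S28 IntermediateField
  Fermat.Agent.Lib.FF Fermat.Agent.Lib.Red

noncomputable section

variable {L : Type*} [Field L] [Algebra ℚ L] (A : ValuationSubring L) {k : Type} [Field k]
  (π : A →+* k) (N : ℕ) [NeZero N]

/-- `x = J(q^N)` is transcendental over `L`. -/
theorem transcendental_xL : Transcendental L (xL L N) := by
  intro halg
  have h := RJClosed.transcendental_Jd L N (NeZero.ne N)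
  apply h
  have := halg.algHom (laurentBaseChange L (modularFunctionFieldFull N)).val
  exact this

/-- `x̄ = J̄(q^N)` is transcendental over `k`. -/
theorem transcendental_xk : Transcendental k (xk k N) := by
  intro halg
  have h := RJClosed.transcendental_Jd k N (NeZero.ne N)
  apply h
  have := halg.algHom (modularFunctionFieldFullC k N).val
  exact this

variable {A π N}

/-- `x = J(q^N)` lies in the Gauss valuation ring. -/
theorem xL_mem_Ow (hNk : (N : k) ≠ 0) : xL L N ∈ Ow A π N hNk := by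
  show TD.Jd L N ∈ gaussRing A π
  rw [← incl_Jd A N]
  exact incl_mem_gaussRing A π _

/-- The reduction of `x` is `x̄`. -/
theorem redF_xL (hπ : ∀ a : A, ¬ IsUnit a → π a = 0) (hNk : (N : k) ≠ 0) :
    redF A π N hπ hNk ⟨xL L N, xL_mem_Ow hNk⟩ = xk k N := by
  apply Subtype.ext
  have hmem : incl A (TD.Jd A N) ∈ laurentBaseChange L (modularFunctionFieldFull N) := by
    rw [incl_Jd A N]; exact (xL L N).2
  have h := coe_redF_incl hπ hNk (TD.Jd A N) hmem
  rw [rbar_Jd] at h
  rw [coe_xk, ← h]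
  congr 2
  apply Subtype.ext
  apply Subtype.ext
  exact (incl_Jd A N).symm

/-- `x⁻¹` lies in the Gauss valuation ring. -/
theorem xL_inv_mem_Ow (hπ : ∀ a : A, ¬ IsUnit a → π a = 0) (hNk : (N : k) ≠ 0) :
    (xL L N)⁻¹ ∈ Ow A π N hNk := by
  have hne : redF A π N hπ hNk ⟨xL L N, xL_mem_Ow hNk⟩ ≠ 0 := by
    rw [redF_xL hπ hNk]
    intro h0
    exact transcendental_xk (k := k) N (h0 ▸ isAlgebraic_zero)
  have hu : IsUnit (⟨xL L N, xL_mem_Ow hNk⟩ : Ow A π N hNk) := by
    by_contra hnu
    exact hne ((redF_eq_zero_iff hπ hNk _).mpr hnu)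
  obtain ⟨u, hu⟩ := hu
  have h1 : ((u⁻¹ : (Ow A π N hNk)ˣ) : Ow A π N hNk) * ⟨xL L N, xL_mem_Ow hNk⟩ = 1 := by
    rw [← hu]; exact Units.inv_mul u
  have h2 : (((u⁻¹ : (Ow A π N hNk)ˣ) : Ow A π N hNk) :
      ↥(laurentBaseChange L (modularFunctionFieldFull N))) * xL L N = 1 :=
    congrArg Subtype.val h1
  rw [← eq_inv_of_mul_eq_one_left h2]
  exact ((u⁻¹ : (Ow A π N hNk)ˣ) : Ow A π N hNk).2

/-- Elements of the kernel of the reduction are divisible by a non-unit constant. -/
theorem exists_div_of_redF_eq_zero (hπ : ∀ a : A, ¬ IsUnit a → π a = 0) (hNk : (N : k) ≠ 0)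
    (y : Ow A π N hNk) (hy : redF A π N hπ hNk y = 0) :
    ∃ a : A, ¬ IsUnit a ∧ ∃ y' : Ow A π N hNk,
      (y : ↥(laurentBaseChange L (modularFunctionFieldFull N))) =
        algebraMap L _ (a : L) * (y' : ↥(laurentBaseChange L (modularFunctionFieldFull N))) := by
  by_cases hy0 : (y : ↥(laurentBaseChange L (modularFunctionFieldFull N))) = 0
  · exact ⟨0, not_isUnit_zero, 0, by rw [hy0]; simp⟩
  obtain ⟨a, ha, hmem, hne⟩ := exists_scaling_Ow hπ hNk
    (y : ↥(laurentBaseChange L (modularFunctionFieldFull N))) hy0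
  -- `u := a·y` is a unit of `Ow`
  have hu : IsUnit (⟨_, hmem⟩ : Ow A π N hNk) := by
    by_contra hnu
    exact hne ((redF_eq_zero_iff hπ hNk _).mpr hnu)
  -- `a⁻¹ ∈ A`
  have hainv : a⁻¹ ∈ A := by
    by_contra hnot
    have haA : a ∈ A := (A.mem_or_inv_mem a).resolve_right hnot
    -- then `a` is a non-unit … so `red (a y) = 0`
    have h1 : (⟨_, hmem⟩ : Ow A π N hNk) =
        ⟨algebraMap L _ a, (algebraMap_mem_Ow_iff hπ hNk a).mpr haA⟩ * y := rfl
    apply hne
    rw [h1, map_mul, hy, mul_zero]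
  refine ⟨⟨a⁻¹, hainv⟩, ?_, ⟨_, hmem⟩, ?_⟩
  · intro hunit
    -- then `a ∈ A`, and `red (a y) = red a * red y = 0`
    have haA : a ∈ A := by
      obtain ⟨u, hu'⟩ := hunit
      have h2 : ((u⁻¹ : Aˣ) : A) * ⟨a⁻¹, hainv⟩ = 1 := by rw [← hu']; exact Units.inv_mul u
      have h3 : (((u⁻¹ : Aˣ) : A) : L) * a⁻¹ = 1 := congrArg Subtype.val h2
      have h4 : (((u⁻¹ : Aˣ) : A) : L) = a := by
        have := eq_inv_of_mul_eq_one_left h3
        rwa [inv_inv] at this
      rw [← h4]
      exact ((u⁻¹ : Aˣ) : A).2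
    have h1 : (⟨_, hmem⟩ : Ow A π N hNk) =
        ⟨algebraMap L _ a, (algebraMap_mem_Ow_iff hπ hNk a).mpr haA⟩ * y := rfl
    apply hne
    rw [h1, map_mul, hy, mul_zero]
  · show (y : ↥(laurentBaseChange L (modularFunctionFieldFull N))) =
      algebraMap L _ a⁻¹ * (algebraMap L _ a * (y : ↥(laurentBaseChange L (modularFunctionFieldFull N))))
    rw [← mul_assoc, ← map_mul, inv_mul_cancel₀ ha, map_one, one_mul]

variable [IsAlgClosed L] [IsAlgClosed k]

set_option linter.unusedSectionVars false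

/-- `IsFF1` for `L·F_N` with the base function `x = J(q^N)`. -/
theorem isFF1_xL (hπ : ∀ a : A, ¬ IsUnit a → π a = 0) (hsurj : Function.Surjective π)
    (hNk : (N : k) ≠ 0) :
    IsFF1 L ↥(laurentBaseChange L (modularFunctionFieldFull N)) (xL L N) := by
  have : FiniteDimensional ↥(L⟮xL L N⟯) ↥(laurentBaseChange L (modularFunctionFieldFull N)) :=
    finite_L hπ hsurj hNk
  exact isFF1_of_isAlgClosed (xL L N) (transcendental_xL N)

/-- `IsFF1` for the mod-`ℓ` function field with the base function `x̄ = J̄(q^N)`. -/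
theorem isFF1_xk (hπ : ∀ a : A, ¬ IsUnit a → π a = 0) (hsurj : Function.Surjective π)
    (hNk : (N : k) ≠ 0) :
    IsFF1 k ↥(modularFunctionFieldFullC k N) (xk k N) := by
  have : FiniteDimensional ↥(k⟮xk k N⟯) ↥(modularFunctionFieldFullC k N) :=
    finite_k (A := A) (π := π) hπ hsurj hNk
  exact isFF1_of_isAlgClosed (xk k N) (transcendental_xk N)

/-- The pole divisor of `x̄` has degree `[F~ : k(x̄)]`. -/
theorem degree_poleDiv_xk (hπ : ∀ a : A, ¬ IsUnit a → π a = 0) (hsurj : Function.Surjective π)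
    (hNk : (N : k) ≠ 0) :
    Divisor.degree (isFF1_xk (A := A) (π := π) hπ hsurj hNk).poleDiv =
      (Module.finrank ↥(k⟮xk k N⟯) ↥(modularFunctionFieldFullC k N) : ℤ) := by
  classical
  have : FiniteDimensional ↥(k⟮xk k N⟯) ↥(modularFunctionFieldFullC k N) :=
    finite_k (A := A) (π := π) hπ hsurj hNk
  set hFt := isFF1_xk (A := A) (π := π) hπ hsurj hNk
  obtain ⟨hfin, hsum⟩ := CharP.polesOf_finite_sum (xk k N) (transcendental_xk N)
  rw [hFt.degree_eq_sum, hFt.support_poleDiv]
  refine Eq.trans ?_ hsum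
  have hset : hFt.poles_le.choose.toFinset = hfin.toFinset := by
    ext v
    rw [Set.Finite.mem_toFinset]
  rw [hset]
  refine Finset.sum_congr rfl fun v hv => ?_
  rw [hFt.poleDiv_apply]
  have hv' : v.ord (xk k N) < 0 := hfin.mem_toFinset.mp hv
  omega

/-- The pole divisor of `x` has at most the degree of the pole divisor of `x̄`. -/
theorem degree_poleDiv_le (hπ : ∀ a : A, ¬ IsUnit a → π a = 0) (hsurj : Function.Surjective π)
    (hNk : (N : k) ≠ 0) :
    Divisor.degree (isFF1_xL (A := A) (π := π) hπ hsurj hNk).poleDiv ≤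
      Divisor.degree (isFF1_xk (A := A) (π := π) hπ hsurj hNk).poleDiv := by
  rw [degree_poleDiv_xk hπ hsurj hNk, ← finrank_eq (A := A) (π := π) hπ hsurj hNk]
  exact (isFF1_xL (A := A) (π := π) hπ hsurj hNk).degree_poleDiv_le

/-- **GEN for the modular function fields**: if the two charts of `x = J(q^N)` have good
reduction and the finite chart ring is finitely generated over `A[x]`, then
`genusFF (L·F_N) ≤ genusFF (F~)`. -/
theorem genusFF_le_modular (hπ : ∀ a : A, ¬ IsUnit a → π a = 0) (hsurj : Function.Surjective π)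
    (hNk : (N : k) ≠ 0)
    (hT3 : ∀ s : ↥(modularFunctionFieldFullC k N),
        (∀ Q : Place k ↥(modularFunctionFieldFullC k N), 0 ≤ Q.ord (xk k N) → 0 ≤ Q.ord s) →
        ∃ y : Ow A π N hNk, redF A π N hπ hNk y = s ∧
          ∀ P : Place L ↥(laurentBaseChange L (modularFunctionFieldFull N)),
            0 ≤ P.ord (xL L N) →
              0 ≤ P.ord (y : ↥(laurentBaseChange L (modularFunctionFieldFull N))))
    (hT3' : ∀ s : ↥(modularFunctionFieldFullC k N),
        (∀ Q : Place k ↥(modularFunctionFieldFullC k N), Q.ord (xk k N) ≤ 0 → 0 ≤ Q.ord s) →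
        ∃ y : Ow A π N hNk, redF A π N hπ hNk y = s ∧
          ∀ P : Place L ↥(laurentBaseChange L (modularFunctionFieldFull N)),
            P.ord (xL L N) ≤ 0 →
              0 ≤ P.ord (y : ↥(laurentBaseChange L (modularFunctionFieldFull N))))
    (hT4 : ∃ (n : ℕ) (g : Fin n → ↥(laurentBaseChange L (modularFunctionFieldFull N))),
        (∀ i, g i ∈ Ow A π N hNk) ∧
        (∀ i, ∀ P : Place L ↥(laurentBaseChange L (modularFunctionFieldFull N)),
          0 ≤ P.ord (xL L N) → 0 ≤ P.ord (g i)) ∧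
        ∀ y : Ow A π N hNk,
          (∀ P : Place L ↥(laurentBaseChange L (modularFunctionFieldFull N)),
            0 ≤ P.ord (xL L N) →
              0 ≤ P.ord (y : ↥(laurentBaseChange L (modularFunctionFieldFull N)))) →
          ∃ p : Fin n → Polynomial A,
            (y : ↥(laurentBaseChange L (modularFunctionFieldFull N))) =
              ∑ i, Polynomial.aeval (xL L N) ((p i).map A.subtype) * g i) :
    genusFF L ↥(laurentBaseChange L (modularFunctionFieldFull N)) ≤
      genusFF k ↥(modularFunctionFieldFullC k N) :=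
  GenusLe.genusFF_le (isFF1_xL (A := A) (π := π) hπ hsurj hNk)
    (isFF1_xk (A := A) (π := π) hπ hsurj hNk) A π hπ (Ow A π N hNk).toSubring
    (redF A π N hπ hNk)
    (fun a => (algebraMap_mem_Ow_iff hπ hNk (a : L)).mpr a.2)
    (fun a => redF_algebraMap hπ hNk a)
    (xL_mem_Ow hNk) (xL_inv_mem_Ow hπ hNk) (redF_xL hπ hNk)
    (degree_poleDiv_le hπ hsurj hNk)
    (exists_div_of_redF_eq_zero hπ hNk) hT3 hT3' hT4

end

end Fermat.Agent.Lib.Red.InstGenus
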