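/-
ESJ / RED-23 (helper41): port of `Lib/Red/InstGenus.lean` to an arbitrary base function
`B : BaseFn.Data A π N`.

For `F = L·F_N`, `F~ = k(J̄(q^d) : d ∣ N)` and the base function `x = B.x`:
`IsFF1` on both sides, the degrees of the pole divisors, and
`genusFF F ≤ genusFF F~` from good reduction of the two charts (`hT3`, `hT3'`) and finite
generation of the finite chart ring (`hT4`).
-/
import Mathlib
import Fermat.Agent.Lib.Red.BaseData
import Fermat.Agent.Lib.Red.InstGenus

set_option autoImplicit false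
set_option linter.unusedSectionVars false

namespace Fermat.Agent.Lib.Red.InstGenusX

open HahnSeries ModularCurve Polynomial AlgebraicCurve Fermat.Agent.S28 IntermediateField
  Fermat.Agent.Lib.FF Fermat.Agent.Lib.Red

noncomputable section

variable {L : Type*} [Field L] [Algebra ℚ L] {A : ValuationSubring L} {k : Type} [Field k]
  {π : A →+* k} {N : ℕ} [NeZero N] (B : BaseFn.Data A π N)

variable [IsAlgClosed L] [IsAlgClosed k]

/-- `IsFF1` for `L·F_N` with the base function `x`. -/
theorem isFF1_x (hπ : ∀ a : A, ¬ IsUnit a → π a = 0) (hsurj : Function.Surjective π)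
    (hNk : (N : k) ≠ 0) :
    IsFF1 L ↥(laurentBaseChange L (modularFunctionFieldFull N)) B.x := by
  have : FiniteDimensional ↥(L⟮B.x⟯) ↥(laurentBaseChange L (modularFunctionFieldFull N)) :=
    B.finite_L hπ hsurj hNk
  exact isFF1_of_isAlgClosed B.x (B.transcendental_x hπ hNk)

/-- `IsFF1` for the mod-`ℓ` function field with the base function `x̄`. -/
theorem isFF1_xt (hπ : ∀ a : A, ¬ IsUnit a → π a = 0) (hsurj : Function.Surjective π)
    (hNk : (N : k) ≠ 0) :
    IsFF1 k ↥(modularFunctionFieldFullC k N) (B.xt hπ hNk) := by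
  have : FiniteDimensional ↥(k⟮B.xt hπ hNk⟯) ↥(modularFunctionFieldFullC k N) :=
    B.finite_k hπ hsurj hNk
  exact isFF1_of_isAlgClosed (B.xt hπ hNk) (B.transcendental_xt hπ hNk)

/-- The pole divisor of `x̄` has degree `[F~ : k(x̄)]`. -/
theorem degree_poleDiv_xt (hπ : ∀ a : A, ¬ IsUnit a → π a = 0) (hsurj : Function.Surjective π)
    (hNk : (N : k) ≠ 0) :
    Divisor.degree (isFF1_xt B hπ hsurj hNk).poleDiv =
      (Module.finrank ↥(k⟮B.xt hπ hNk⟯) ↥(modularFunctionFieldFullC k N) : ℤ) := by
  classical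
  have : FiniteDimensional ↥(k⟮B.xt hπ hNk⟯) ↥(modularFunctionFieldFullC k N) :=
    B.finite_k hπ hsurj hNk
  set hFt := isFF1_xt B hπ hsurj hNk
  obtain ⟨hfin, hsum⟩ := CharP.polesOf_finite_sum (B.xt hπ hNk) (B.transcendental_xt hπ hNk)
  rw [hFt.degree_eq_sum, hFt.support_poleDiv]
  refine Eq.trans ?_ hsum
  have hset : hFt.poles_le.choose.toFinset = hfin.toFinset := by
    ext v
    rw [Set.Finite.mem_toFinset]
  rw [hset]
  refine Finset.sum_congr rfl fun v hv => ?_
  rw [hFt.poleDiv_apply]
  have hv' : v.ord (B.xt hπ hNk) < 0 := hfin.mem_toFinset.mp hv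
  omega

/-- The pole divisor of `x` has at most the degree of the pole divisor of `x̄`. -/
theorem degree_poleDiv_le (hπ : ∀ a : A, ¬ IsUnit a → π a = 0) (hsurj : Function.Surjective π)
    (hNk : (N : k) ≠ 0) :
    Divisor.degree (isFF1_x B hπ hsurj hNk).poleDiv ≤
      Divisor.degree (isFF1_xt B hπ hsurj hNk).poleDiv := by
  rw [degree_poleDiv_xt B hπ hsurj hNk, ← B.finrank_eq hπ hsurj hNk]
  exact (isFF1_x B hπ hsurj hNk).degree_poleDiv_le

/-- **GEN for the modular function fields, arbitrary base function**: if the two charts of `x`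
have good reduction and the finite chart ring is finitely generated over `A[x]`, then
`genusFF (L·F_N) ≤ genusFF (F~)`. -/
theorem genusFF_le_modular (hπ : ∀ a : A, ¬ IsUnit a → π a = 0) (hsurj : Function.Surjective π)
    (hNk : (N : k) ≠ 0)
    (hT3 : ∀ s : ↥(modularFunctionFieldFullC k N),
        (∀ Q : Place k ↥(modularFunctionFieldFullC k N), 0 ≤ Q.ord (B.xt hπ hNk) → 0 ≤ Q.ord s) →
        ∃ y : Ow A π N hNk, redF A π N hπ hNk y = s ∧
          ∀ P : Place L ↥(laurentBaseChange L (modularFunctionFieldFull N)),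
            0 ≤ P.ord B.x →
              0 ≤ P.ord (y : ↥(laurentBaseChange L (modularFunctionFieldFull N))))
    (hT3' : ∀ s : ↥(modularFunctionFieldFullC k N),
        (∀ Q : Place k ↥(modularFunctionFieldFullC k N), Q.ord (B.xt hπ hNk) ≤ 0 → 0 ≤ Q.ord s) →
        ∃ y : Ow A π N hNk, redF A π N hπ hNk y = s ∧
          ∀ P : Place L ↥(laurentBaseChange L (modularFunctionFieldFull N)),
            P.ord B.x ≤ 0 →
              0 ≤ P.ord (y : ↥(laurentBaseChange L (modularFunctionFieldFull N))))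
    (hT4 : ∃ (n : ℕ) (g : Fin n → ↥(laurentBaseChange L (modularFunctionFieldFull N))),
        (∀ i, g i ∈ Ow A π N hNk) ∧
        (∀ i, ∀ P : Place L ↥(laurentBaseChange L (modularFunctionFieldFull N)),
          0 ≤ P.ord B.x → 0 ≤ P.ord (g i)) ∧
        ∀ y : Ow A π N hNk,
          (∀ P : Place L ↥(laurentBaseChange L (modularFunctionFieldFull N)),
            0 ≤ P.ord B.x →
              0 ≤ P.ord (y : ↥(laurentBaseChange L (modularFunctionFieldFull N)))) →
          ∃ p : Fin n → Polynomial A,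
            (y : ↥(laurentBaseChange L (modularFunctionFieldFull N))) =
              ∑ i, Polynomial.aeval B.x ((p i).map A.subtype) * g i) :
    genusFF L ↥(laurentBaseChange L (modularFunctionFieldFull N)) ≤
      genusFF k ↥(modularFunctionFieldFullC k N) :=
  GenusLe.genusFF_le (isFF1_x B hπ hsurj hNk) (isFF1_xt B hπ hsurj hNk) A π hπ
    (Ow A π N hNk).toSubring (redF A π N hπ hNk)
    (fun a => (algebraMap_mem_Ow_iff hπ hNk (a : L)).mpr a.2)
    (fun a => redF_algebraMap hπ hNk a)
    (B.x_mem_Ow hNk) (B.x_inv_mem_Ow hπ hNk) (B.redF_x hπ hNk)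
    (degree_poleDiv_le B hπ hsurj hNk)
    (InstGenus.exists_div_of_redF_eq_zero hπ hNk) hT3 hT3' hT4

end

end Fermat.Agent.Lib.Red.InstGenusX
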