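/-
ESJ / RED (T4, abstract): the finite chart ring `O ∩ (integral closure of L[x])` is a finitely
generated (indeed free) `A[x]`-module.

Setting: `L` algebraically closed of characteristic zero, `A` a valuation subring of `L`,
`F ⊇ L(x)` a finite extension, `O` a subring of `F` with `O ∩ L = A`, `x ∈ O`, such that every
primitive polynomial in `x` with coefficients in `A` is a unit of `O` (the Gauss property).

A *good family* `b : ι → F` (`Good`) consists of elements of `O`, integral over `L[x]`, spanning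
`F` over `L(x)` and *orthonormal*: `∑ cᵢ bᵢ ∈ O` with `cᵢ ∈ L(x)` forces `cᵢ ∈ O`.

* `Good.exists_improve` : a good family that does not span the integral closure `B` of `L[x]`
  over `L[x]` can be replaced by a good family with a strictly larger `L[x]`-span
  (improvement procedure: divide a suitable `A`-unimodular combination by `x - c` or `1 - x/c`);
* `exists_good_spanning` : there is a good family spanning `B` over `L[x]` (`B` is a Noetherian
  `L[x]`-module);
* `exists_orth_basis` : **T4** — there is a finite family `b i ∈ O ∩ B` such that every element of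
  `O ∩ B` is an `A[x]`-combination of the `b i`.
-/
import Mathlib

set_option autoImplicit false

namespace Fermat.Agent.Lib.Red.Orth

open Polynomial IntermediateField

open scoped IntermediateField.algebraAdjoinAdjoin

noncomputable section

/-! ### Replacing one vector of a family -/

section Update

variable {F : Type*} [Field F] {ι : Type*} [Fintype ι] [DecidableEq ι]

theorem sum_update (c b : ι → F) (i₀ : ι) (v : F) :
    ∑ i, c i * Function.update b i₀ v i = ∑ i, c i * b i + c i₀ * (v - b i₀) := by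
  have h : ∀ i, c i * Function.update b i₀ v i =
      c i * b i + if i = i₀ then c i₀ * (v - b i₀) else 0 := by
    intro i
    by_cases hi : i = i₀
    · subst hi
      rw [Function.update_self, if_pos rfl]
      ring
    · rw [Function.update_of_ne hi, if_neg hi, add_zero]
  rw [Finset.sum_congr rfl fun i _ => h i, Finset.sum_add_distrib, Finset.sum_ite_eq']
  simp

/-- Old combinations are combinations of the new family, with coefficients in any subring
containing the `α i` and `u`. -/
theorem update_repr (b : ι → F) (i₀ : ι) (v u : F) (α : ι → F) (hα : α i₀ = 1)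
    (hv : u * v = ∑ i, α i * b i) (S : Subring F) (hαS : ∀ i, α i ∈ S) (huS : u ∈ S)
    (c : ι → F) (hc : ∀ i, c i ∈ S) :
    ∃ c' : ι → F, (∀ i, c' i ∈ S) ∧ ∑ i, c i * b i = ∑ i, c' i * Function.update b i₀ v i := by
  refine ⟨fun i => c i - c i₀ * α i + if i = i₀ then c i₀ * u else 0, fun i => ?_, ?_⟩
  · refine S.add_mem (S.sub_mem (hc i) (S.mul_mem (hc i₀) (hαS i))) ?_
    split_ifs
    · exact S.mul_mem (hc i₀) huS
    · exact S.zero_mem
  · rw [sum_update]
    have h1 : ∑ i, (c i - c i₀ * α i + if i = i₀ then c i₀ * u else 0) * b i =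
        ∑ i, c i * b i - c i₀ * ∑ i, α i * b i + c i₀ * u * b i₀ := by
      rw [Finset.mul_sum, ← Finset.sum_sub_distrib]
      have h2 : ∀ i, (c i - c i₀ * α i + if i = i₀ then c i₀ * u else 0) * b i =
          (c i * b i - c i₀ * (α i * b i)) + if i = i₀ then c i₀ * u * b i₀ else 0 := by
        intro i
        by_cases hi : i = i₀
        · subst hi
          rw [if_pos rfl, if_pos rfl]
          ring
        · rw [if_neg hi, if_neg hi]
          ring
      rw [Finset.sum_congr rfl fun i _ => h2 i, Finset.sum_add_distrib, Finset.sum_ite_eq']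
      simp
    have h3 : (c i₀ - c i₀ * α i₀ + if i₀ = i₀ then c i₀ * u else 0) = c i₀ * u := by
      rw [if_pos rfl, hα]
      ring
    show _ = _ + (c i₀ - c i₀ * α i₀ + if i₀ = i₀ then c i₀ * u else 0) * (v - b i₀)
    rw [h1, ← hv, h3]
    ring

/-- New combinations as combinations of the old family. -/
theorem update_repr' (b : ι → F) (i₀ : ι) (v u : F) (hu : u ≠ 0) (α : ι → F) (hα : α i₀ = 1)
    (hv : u * v = ∑ i, α i * b i) (c : ι → F) :
    ∑ i, c i * Function.update b i₀ v i =
      ∑ i, (c i + c i₀ * u⁻¹ * α i - if i = i₀ then c i₀ else 0) * b i := by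
  rw [sum_update]
  have hv' : v = u⁻¹ * ∑ i, α i * b i := by
    rw [← hv, inv_mul_cancel_left₀ hu]
  have h2 : ∀ i, (c i + c i₀ * u⁻¹ * α i - if i = i₀ then c i₀ else 0) * b i =
      (c i * b i + c i₀ * u⁻¹ * (α i * b i)) - if i = i₀ then c i₀ * b i₀ else 0 := by
    intro i
    by_cases hi : i = i₀
    · subst hi
      rw [if_pos rfl, if_pos rfl]
      ring
    · rw [if_neg hi, if_neg hi]
      ring
  rw [Finset.sum_congr rfl fun i _ => h2 i, Finset.sum_sub_distrib, Finset.sum_add_distrib,
    Finset.sum_ite_eq', ← Finset.mul_sum, hv']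
  simp only [Finset.mem_univ, if_true]
  ring

end Update

/-! ### The Gauss setting -/

section Gauss

variable {L F : Type*} [Field L] [Field F] [Algebra L F]

/-- A nonzero polynomial over `L` is a nonzero constant times a polynomial over `A` with a unit
coefficient. -/
theorem exists_prim (A : ValuationSubring L) (p : L[X]) (hp : p ≠ 0) :
    ∃ (a : L) (q : Polynomial A), a ≠ 0 ∧ (∃ n, IsUnit (q.coeff n)) ∧
      p = C a * q.map A.subtype := by
  classical
  obtain ⟨n, hn, hmax⟩ := Finset.exists_max_image p.support (fun m => A.valuation (p.coeff m))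
    (Polynomial.nonempty_support_iff.mpr hp)
  have ha : p.coeff n ≠ 0 := Polynomial.mem_support_iff.mp hn
  have hmem : ∀ m, (p.coeff n)⁻¹ * p.coeff m ∈ A := by
    intro m
    by_cases hm : m ∈ p.support
    · rw [← A.valuation_le_one_iff, mul_comm, ← div_eq_mul_inv, map_div₀]
      exact div_le_one_of_le₀ (hmax m hm) zero_le
    · rw [Polynomial.notMem_support_iff.mp hm, mul_zero]
      exact A.zero_mem
  have hl : C (p.coeff n)⁻¹ * p ∈ Polynomial.lifts A.subtype := by
    rw [Polynomial.lifts_iff_coeff_lifts]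
    intro m
    rw [Polynomial.coeff_C_mul]
    exact ⟨⟨_, hmem m⟩, rfl⟩
  obtain ⟨q, hq⟩ := (Polynomial.mem_lifts _).mp hl
  refine ⟨p.coeff n, q, ha, ⟨n, ?_⟩, ?_⟩
  · have h1 : q.coeff n = 1 := by
      apply Subtype.ext
      have h2 := congrArg (fun r => r.coeff n) hq
      simp only [Polynomial.coeff_map, Polynomial.coeff_C_mul] at h2
      have h3 : ((q.coeff n : A) : L) = A.subtype (q.coeff n) := rfl
      rw [h3, h2, inv_mul_cancel₀ ha]
      rfl
    rw [h1]
    exact isUnit_one
  · rw [hq, ← mul_assoc, ← C_mul, mul_inv_cancel₀ ha, C_1, one_mul]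

/-- The Gauss setting: `O ∩ L = A`, `x ∈ O`, and primitive polynomials in `x` are units of
`O`. -/
structure Setting (x : F) (A : ValuationSubring L) (O : Subring F) : Prop where
  hA : ∀ a : L, algebraMap L F a ∈ O ↔ a ∈ A
  hx : x ∈ O
  prim : ∀ q : Polynomial A, (∃ n, IsUnit (q.coeff n)) →
    aeval x (q.map A.subtype) ≠ 0 ∧ (aeval x (q.map A.subtype))⁻¹ ∈ O

namespace Setting

variable {x : F} {A : ValuationSubring L} {O : Subring F}

theorem aeval_map_mem (h : Setting x A O) (q : Polynomial A) :
    aeval x (q.map A.subtype) ∈ O := by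
  rw [Polynomial.aeval_eq_sum_range]
  refine O.sum_mem fun i _ => ?_
  rw [Algebra.smul_def, Polynomial.coeff_map]
  exact O.mul_mem ((h.hA _).mpr (q.coeff i).2) (O.pow_mem h.hx i)

theorem transcendental (h : Setting x A O) : Transcendental L x := by
  rw [transcendental_iff]
  intro p hp
  by_contra hp0
  obtain ⟨a, q, ha, hq, rfl⟩ := exists_prim A p hp0
  rw [map_mul, aeval_C] at hp
  rcases mul_eq_zero.mp hp with h0 | h0
  · exact ha ((map_eq_zero (algebraMap L F)).mp h0)
  · exact (h.prim q hq).1 h0

/-- **Gauss lemma.** A polynomial in `x` lying in `O` has coefficients in `A`. -/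
theorem coeff_mem (h : Setting x A O) (p : L[X]) (hp : aeval x p ∈ O) (n : ℕ) :
    p.coeff n ∈ A := by
  by_cases hp0 : p = 0
  · rw [hp0, Polynomial.coeff_zero]
    exact A.zero_mem
  obtain ⟨a, q, ha, hq, rfl⟩ := exists_prim A p hp0
  rw [map_mul, aeval_C] at hp
  obtain ⟨hne, hinv⟩ := h.prim q hq
  have haO : algebraMap L F a ∈ O := by
    have : algebraMap L F a =
        algebraMap L F a * aeval x (q.map A.subtype) * (aeval x (q.map A.subtype))⁻¹ := by
      rw [mul_assoc, mul_inv_cancel₀ hne, mul_one]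
    rw [this]
    exact O.mul_mem hp hinv
  rw [Polynomial.coeff_C_mul, Polynomial.coeff_map]
  exact A.mul_mem _ _ ((h.hA a).mp haO) (q.coeff n).2

/-- A polynomial in `x` lying in `O` comes from `A[X]`. -/
theorem exists_lift (h : Setting x A O) (p : L[X]) (hp : aeval x p ∈ O) :
    ∃ q : Polynomial A, q.map A.subtype = p := by
  have hl : p ∈ Polynomial.lifts A.subtype := by
    rw [Polynomial.lifts_iff_coeff_lifts]
    intro m
    exact ⟨⟨_, h.coeff_mem p hp m⟩, rfl⟩
  exact (Polynomial.mem_lifts _).mp hl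

/-- For every constant `c`, a nonzero constant multiple of `x - c` is a unit of `O`. -/
theorem exists_unit (h : Setting x A O) (c : L) :
    ∃ l : L, l ≠ 0 ∧ algebraMap L F l * (x - algebraMap L F c) ∈ O ∧
      algebraMap L F l * (x - algebraMap L F c) ≠ 0 ∧
      (algebraMap L F l * (x - algebraMap L F c))⁻¹ ∈ O := by
  have hp0 : (X - C c : L[X]) ≠ 0 := Polynomial.X_sub_C_ne_zero c
  obtain ⟨a, q, ha, hq, hpq⟩ := exists_prim A (X - C c) hp0
  have hval : algebraMap L F a⁻¹ * (x - algebraMap L F c) = aeval x (q.map A.subtype) := by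
    have h1 : aeval x (X - C c : L[X]) = x - algebraMap L F c := by simp
    rw [← h1, hpq, map_mul, aeval_C, ← mul_assoc, ← map_mul, inv_mul_cancel₀ ha, map_one, one_mul]
  refine ⟨a⁻¹, inv_ne_zero ha, ?_, ?_, ?_⟩
  · rw [hval]
    exact h.aeval_map_mem q
  · rw [hval]
    exact (h.prim q hq).1
  · rw [hval]
    exact (h.prim q hq).2

end Setting

end Gauss

/-! ### Good families and the improvement procedure -/

section Main

variable {L F : Type*} [Field L] [Field F] [Algebra L F] {x : F} {A : ValuationSubring L}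
  {O : Subring F} {ι : Type*} [Fintype ι]

/-- The `L[x]`-span of a family. -/
def PS (L : Type*) {F : Type*} [Field L] [Field F] [Algebra L F] (x : F) {ι : Type*}
    (b : ι → F) : Submodule (Algebra.adjoin L {x}) F :=
  Submodule.span (Algebra.adjoin L {x}) (Set.range b)

theorem mem_PS_iff {b : ι → F} {y : F} :
    y ∈ PS L x b ↔ ∃ c : ι → F, (∀ i, c i ∈ Algebra.adjoin L {x}) ∧ y = ∑ i, c i * b i := by
  unfold PS
  rw [Submodule.mem_span_range_iff_exists_fun]
  constructor
  · rintro ⟨c, rfl⟩
    exact ⟨fun i => (c i : F), fun i => (c i).2, rfl⟩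
  · rintro ⟨c, hc, rfl⟩
    exact ⟨fun i => ⟨c i, hc i⟩, rfl⟩

omit [Fintype ι] in
theorem PS_mul_mem {b : ι → F} {r y : F} (hr : r ∈ Algebra.adjoin L {x}) (hy : y ∈ PS L x b) :
    r * y ∈ PS L x b :=
  (PS L x b).smul_mem (⟨r, hr⟩ : Algebra.adjoin L {x}) hy

theorem aeval_mem_adjoin (p : L[X]) : aeval x p ∈ Algebra.adjoin L {x} := by
  rw [Algebra.adjoin_singleton_eq_range_aeval]
  exact ⟨p, rfl⟩

theorem isIntegral_of_mem_adjoin {r : F} (hr : r ∈ Algebra.adjoin L {x}) :
    IsIntegral (Algebra.adjoin L {x}) r :=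
  isIntegral_algebraMap (x := (⟨r, hr⟩ : Algebra.adjoin L {x}))

/-- A good family: elements of `O`, integral over `L[x]`, spanning `F` over `L(x)`, and
orthonormal with respect to `O`. -/
structure Good (L : Type*) {F : Type*} [Field L] [Field F] [Algebra L F] (x : F) (O : Subring F)
    {ι : Type*} [Fintype ι] (b : ι → F) : Prop where
  mem : ∀ i, b i ∈ O
  int : ∀ i, IsIntegral (Algebra.adjoin L {x}) (b i)
  span : ∀ y : F, ∃ c : ι → F, (∀ i, c i ∈ L⟮x⟯) ∧ y = ∑ i, c i * b i
  orth : ∀ c : ι → F, (∀ i, c i ∈ L⟮x⟯) → ∑ i, c i * b i ∈ O → ∀ i, c i ∈ O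

namespace Good

variable {b : ι → F}

theorem isIntegral_of_mem_PS (hG : Good L x O b) {y : F} (hy : y ∈ PS L x b) :
    IsIntegral (Algebra.adjoin L {x}) y := by
  obtain ⟨c, hc, rfl⟩ := mem_PS_iff.mp hy
  exact IsIntegral.sum _ fun i _ => (isIntegral_of_mem_adjoin (hc i)).mul (hG.int i)

/-- Clearing denominators. -/
theorem exists_denominator (hG : Good L x O b) (y : F) :
    ∃ D : L[X], aeval x D ≠ 0 ∧ aeval x D * y ∈ PS L x b := by
  classical
  obtain ⟨c, hc, rfl⟩ := hG.span y
  have key : ∀ i, ∃ r s : L[X], aeval x s ≠ 0 ∧ aeval x s * c i = aeval x r := by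
    intro i
    obtain ⟨r, s, h⟩ := (IntermediateField.mem_adjoin_simple_iff L (c i)).mp (hc i)
    by_cases hs : aeval x s = 0
    · refine ⟨0, 1, by simp, ?_⟩
      rw [h, hs]
      simp
    · exact ⟨r, s, hs, by rw [h, mul_div_cancel₀ _ hs]⟩
  choose r s hs hrs using key
  refine ⟨∏ i, s i, ?_, ?_⟩
  · rw [map_prod]
    exact Finset.prod_ne_zero_iff.mpr fun i _ => hs i
  · rw [mem_PS_iff]
    refine ⟨fun i => aeval x (r i * ∏ j ∈ Finset.univ.erase i, s j), fun i => aeval_mem_adjoin _, ?_⟩
    rw [Finset.mul_sum]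
    refine Finset.sum_congr rfl fun i _ => ?_
    show _ = aeval x (r i * ∏ j ∈ Finset.univ.erase i, s j) * b i
    rw [← Finset.mul_prod_erase Finset.univ s (Finset.mem_univ i), map_mul, map_mul, ← hrs i]
    ring

/-- An integral element outside the `L[x]`-span gives one with a linear denominator. -/
theorem exists_linear [IsAlgClosed L] (hG : Good L x O b) (y : F)
    (hy : IsIntegral (Algebra.adjoin L {x}) y) (hyn : y ∉ PS L x b) :
    ∃ (c : L) (y' : F), IsIntegral (Algebra.adjoin L {x}) y' ∧ y' ∉ PS L x b ∧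
      (x - algebraMap L F c) * y' ∈ PS L x b := by
  obtain ⟨D, hD, hDy⟩ := hG.exists_denominator y
  have key : ∀ n : ℕ, ∀ D : L[X], D.natDegree = n → aeval x D ≠ 0 → aeval x D * y ∈ PS L x b →
      ∃ (c : L) (y' : F), IsIntegral (Algebra.adjoin L {x}) y' ∧ y' ∉ PS L x b ∧
        (x - algebraMap L F c) * y' ∈ PS L x b := by
    intro n
    induction n with
    | zero =>
      intro D hn hD hDy
      exfalso
      apply hyn
      rw [Polynomial.eq_C_of_natDegree_eq_zero hn, aeval_C] at hD hDy
      have h1 := PS_mul_mem (Subalgebra.algebraMap_mem (Algebra.adjoin L {x}) (D.coeff 0)⁻¹) hDy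
      have h2 : D.coeff 0 ≠ 0 := fun h0 => hD (by rw [h0, map_zero])
      rwa [← mul_assoc, ← map_mul, inv_mul_cancel₀ h2, map_one, one_mul] at h1
    | succ n ih =>
      intro D hn hD hDy
      have hdeg : D.degree ≠ 0 := by
        intro h0
        have : D.natDegree = 0 := Polynomial.natDegree_eq_zero_iff_degree_le_zero.mpr h0.le
        omega
      obtain ⟨c, hc⟩ := IsAlgClosed.exists_root D hdeg
      have hfac := Polynomial.mul_divByMonic_eq_iff_isRoot.mpr hc
      have hdeg1 : (D /ₘ (X - C c)).natDegree = n := by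
        rw [Polynomial.natDegree_divByMonic _ (monic_X_sub_C c), hn, natDegree_X_sub_C]
        rfl
      have hD' : aeval x D = (x - algebraMap L F c) * aeval x (D /ₘ (X - C c)) := by
        conv_lhs => rw [← hfac]
        simp
      by_cases h1 : aeval x (D /ₘ (X - C c)) * y ∈ PS L x b
      · refine ih _ hdeg1 ?_ h1
        intro h0
        exact hD (by rw [hD', h0, mul_zero])
      · refine ⟨c, aeval x (D /ₘ (X - C c)) * y,
          (isIntegral_of_mem_adjoin (aeval_mem_adjoin _)).mul hy, h1, ?_⟩
        rw [← mul_assoc, ← hD']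
        exact hDy
  exact key _ D rfl hD hDy

/-- An integral element outside the `L[x]`-span gives a constant combination of the family
divisible by some `x - c` with quotient integral and outside the span. -/
theorem exists_const [IsAlgClosed L] (hG : Good L x O b) (y : F)
    (hy : IsIntegral (Algebra.adjoin L {x}) y) (hyn : y ∉ PS L x b) :
    ∃ (c : L) (a : ι → L) (w : F), IsIntegral (Algebra.adjoin L {x}) w ∧ w ∉ PS L x b ∧
      (x - algebraMap L F c) * w = ∑ i, algebraMap L F (a i) * b i := by
  obtain ⟨c, y', hy', hyn', hmem⟩ := hG.exists_linear y hy hyn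
  obtain ⟨e, he, hsum⟩ := mem_PS_iff.mp hmem
  have key : ∀ i, ∃ p : L[X], aeval x p = e i := by
    intro i
    have := he i
    rw [Algebra.adjoin_singleton_eq_range_aeval] at this
    exact this
  choose p hp using key
  have hq : (∑ i, aeval x (p i /ₘ (X - C c)) * b i) ∈ PS L x b :=
    mem_PS_iff.mpr ⟨_, fun i => aeval_mem_adjoin _, rfl⟩
  refine ⟨c, fun i => (p i).eval c, y' - ∑ i, aeval x (p i /ₘ (X - C c)) * b i,
    hy'.sub (hG.isIntegral_of_mem_PS hq), ?_, ?_⟩
  · intro h
    apply hyn'
    have := (PS L x b).add_mem h hq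
    rwa [sub_add_cancel] at this
  · rw [mul_sub, hsum, Finset.mul_sum, ← Finset.sum_sub_distrib]
    refine Finset.sum_congr rfl fun i _ => ?_
    have h1 : e i = algebraMap L F ((p i).eval c) +
        (x - algebraMap L F c) * aeval x (p i /ₘ (X - C c)) := by
      rw [← hp i]
      conv_lhs => rw [← Polynomial.modByMonic_add_div (p i) (X - C c),
        Polynomial.modByMonic_X_sub_C_eq_C_eval]
      simp
    rw [h1]
    ring

/-- **Improvement step.**  A good family not spanning the integral closure of `L[x]` can be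
replaced by a good family with strictly larger `L[x]`-span. -/
theorem exists_improve [IsAlgClosed L] (hS : Setting x A O) (hG : Good L x O b) (y : F)
    (hy : IsIntegral (Algebra.adjoin L {x}) y) (hyn : y ∉ PS L x b) :
    ∃ b' : ι → F, Good L x O b' ∧ PS L x b ≤ PS L x b' ∧ ∃ z ∈ PS L x b', z ∉ PS L x b := by
  classical
  obtain ⟨c, a, w, hw, hwn, hcw⟩ := hG.exists_const y hy hyn
  have hxc : x - algebraMap L F c ≠ 0 := by
    intro h0
    have hx : x = algebraMap L F c := sub_eq_zero.mp h0
    exact hS.transcendental (hx ▸ isAlgebraic_algebraMap c)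
  have ha : ∃ i, a i ≠ 0 := by
    by_contra hall
    push Not at hall
    apply hwn
    have h0 : (x - algebraMap L F c) * w = 0 := by
      rw [hcw]
      exact Finset.sum_eq_zero fun i _ => by rw [hall i, map_zero, zero_mul]
    rcases mul_eq_zero.mp h0 with h1 | h1
    · exact absurd h1 hxc
    · rw [h1]
      exact (PS L x b).zero_mem
  obtain ⟨i₁, hi₁⟩ := ha
  obtain ⟨i₀, -, hmax⟩ := Finset.exists_max_image Finset.univ (fun i => A.valuation (a i))
    ⟨i₁, Finset.mem_univ _⟩
  have ha₀ : a i₀ ≠ 0 := by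
    intro h0
    have h1 := hmax i₁ (Finset.mem_univ _)
    rw [h0, map_zero] at h1
    exact hi₁ ((map_eq_zero (A.valuation)).mp (le_antisymm h1 zero_le))
  have hdiv : ∀ i, a i / a i₀ ∈ A := by
    intro i
    rw [← A.valuation_le_one_iff, map_div₀]
    exact div_le_one_of_le₀ (hmax i (Finset.mem_univ _)) zero_le
  obtain ⟨l, hl0, huO, hune, huinv⟩ := hS.exists_unit c
  set u : F := algebraMap L F l * (x - algebraMap L F c) with hu
  set v : F := algebraMap L F (a i₀ * l)⁻¹ * w with hv
  set α : ι → F := fun i => algebraMap L F (a i / a i₀) with hα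
  have hα₀ : α i₀ = 1 := by
    rw [hα]
    show algebraMap L F (a i₀ / a i₀) = 1
    rw [div_self ha₀, map_one]
  have hαO : ∀ i, α i ∈ O := fun i => (hS.hA _).mpr (hdiv i)
  have huv : u * v = ∑ i, α i * b i := by
    have h1 : u * v = algebraMap L F (a i₀)⁻¹ * ((x - algebraMap L F c) * w) := by
      rw [hu, hv, mul_inv, map_mul]
      have h2 : algebraMap L F l * algebraMap L F l⁻¹ = 1 := by
        rw [← map_mul, mul_inv_cancel₀ hl0, map_one]
      calc algebraMap L F l * (x - algebraMap L F c) *
            (algebraMap L F (a i₀)⁻¹ * algebraMap L F l⁻¹ * w)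
          = (algebraMap L F l * algebraMap L F l⁻¹) *
            (algebraMap L F (a i₀)⁻¹ * ((x - algebraMap L F c) * w)) := by ring
        _ = _ := by rw [h2, one_mul]
    rw [h1, hcw, Finset.mul_sum]
    refine Finset.sum_congr rfl fun i _ => ?_
    rw [hα]
    show _ = algebraMap L F (a i / a i₀) * b i
    rw [div_eq_mul_inv, map_mul]
    ring
  have hvO : v ∈ O := by
    have h1 : v = u⁻¹ * ∑ i, α i * b i := by
      rw [← huv, inv_mul_cancel_left₀ hune]
    rw [h1]
    exact O.mul_mem huinv (O.sum_mem fun i _ => O.mul_mem (hαO i) (hG.mem i))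
  have hvint : IsIntegral (Algebra.adjoin L {x}) v :=
    (isIntegral_of_mem_adjoin (Subalgebra.algebraMap_mem _ _)).mul hw
  have hvn : v ∉ PS L x b := by
    intro h
    apply hwn
    have h1 := PS_mul_mem (Subalgebra.algebraMap_mem (Algebra.adjoin L {x}) (a i₀ * l)) h
    have h2 : a i₀ * l ≠ 0 := mul_ne_zero ha₀ hl0
    rwa [hv, ← mul_assoc, ← map_mul, mul_inv_cancel₀ h2, map_one, one_mul] at h1
  have hxL : x ∈ L⟮x⟯ := IntermediateField.mem_adjoin_simple_self L x
  have huL : u ∈ L⟮x⟯ :=
    L⟮x⟯.mul_mem (L⟮x⟯.algebraMap_mem _) (L⟮x⟯.sub_mem hxL (L⟮x⟯.algebraMap_mem _))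
  have huR : u ∈ Algebra.adjoin L {x} :=
    Subalgebra.mul_mem _ (Subalgebra.algebraMap_mem _ _)
      (Subalgebra.sub_mem _ (Algebra.self_mem_adjoin_singleton L x) (Subalgebra.algebraMap_mem _ _))
  refine ⟨Function.update b i₀ v, ⟨?_, ?_, ?_, ?_⟩, ?_, v, ?_, hvn⟩
  · intro i
    by_cases hi : i = i₀
    · subst hi
      rw [Function.update_self]
      exact hvO
    · rw [Function.update_of_ne hi]
      exact hG.mem i
  · intro i
    by_cases hi : i = i₀
    · subst hi
      rw [Function.update_self]
      exact hvint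
    · rw [Function.update_of_ne hi]
      exact hG.int i
  · intro z
    obtain ⟨e, he, rfl⟩ := hG.span z
    exact update_repr b i₀ v u α hα₀ huv L⟮x⟯.toSubring (fun i => L⟮x⟯.algebraMap_mem _) huL e he
  · intro e he hsum
    rw [update_repr' b i₀ v u hune α hα₀ huv e] at hsum
    have hd := hG.orth _ (fun i => ?_) hsum
    · have hd₀ : e i₀ * u⁻¹ ∈ O := by
        have := hd i₀
        rw [if_pos rfl, hα₀, mul_one, add_sub_cancel_left] at this
        exact this
      have he₀ : e i₀ ∈ O := by
        have : e i₀ = e i₀ * u⁻¹ * u := by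
          rw [mul_assoc, inv_mul_cancel₀ hune, mul_one]
        rw [this]
        exact O.mul_mem hd₀ huO
      intro i
      by_cases hi : i = i₀
      · rw [hi]
        exact he₀
      · have := hd i
        rw [if_neg hi, sub_zero] at this
        have h2 : e i = (e i + e i₀ * u⁻¹ * α i) - e i₀ * u⁻¹ * α i := by ring
        rw [h2]
        exact O.sub_mem this (O.mul_mem hd₀ (hαO i))
    · refine L⟮x⟯.sub_mem (L⟮x⟯.add_mem (he i) (L⟮x⟯.mul_mem (L⟮x⟯.mul_mem (he i₀)
        (L⟮x⟯.inv_mem huL)) (L⟮x⟯.algebraMap_mem _))) ?_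
      split_ifs
      · exact he i₀
      · exact L⟮x⟯.zero_mem
  · intro z hz
    obtain ⟨e, he, rfl⟩ := mem_PS_iff.mp hz
    exact mem_PS_iff.mpr (update_repr b i₀ v u α hα₀ huv (Algebra.adjoin L {x}).toSubring
      (fun i => Subalgebra.algebraMap_mem _ _) huR e he)
  · exact Submodule.subset_span ⟨i₀, Function.update_self _ _ _⟩

end Good

/-! ### Noetherianity of the integral closure and the maximal good family -/

/-- `L[x] ≃ L[X]` for transcendental `x`. -/
def adjoinEquiv (hx : Transcendental L x) : L[X] ≃ₐ[L] Algebra.adjoin L {x} :=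
  (AlgEquiv.ofInjective (aeval x) (transcendental_iff_injective.mp hx)).trans
    (Subalgebra.equivOfEq _ _ (Algebra.adjoin_singleton_eq_range_aeval L x).symm)

theorem isIntegrallyClosed_adjoin (hx : Transcendental L x) :
    IsIntegrallyClosed (Algebra.adjoin L {x}) :=
  IsIntegrallyClosed.of_equiv (adjoinEquiv hx).toRingEquiv

theorem isNoetherianRing_adjoin (hx : Transcendental L x) :
    IsNoetherianRing (Algebra.adjoin L {x}) :=
  isNoetherianRing_of_ringEquiv L[X] (adjoinEquiv hx).toRingEquiv

/-- The integral closure of `L[x]` in a finite extension of `L(x)` is a Noetherian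
`L[x]`-module (characteristic zero). -/
theorem isNoetherian_integralClosure [CharZero L] [FiniteDimensional L⟮x⟯ F]
    (hx : Transcendental L x) :
    IsNoetherian (Algebra.adjoin L {x}) (integralClosure (Algebra.adjoin L {x}) F) := by
  have := isIntegrallyClosed_adjoin hx
  have := isNoetherianRing_adjoin hx
  exact IsIntegralClosure.isNoetherian (Algebra.adjoin L {x}) L⟮x⟯ F
    (integralClosure (Algebra.adjoin L {x}) F)

/-- **There is a good family spanning the integral closure of `L[x]` over `L[x]`.** -/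
theorem exists_good_spanning [IsAlgClosed L] [CharZero L] [FiniteDimensional L⟮x⟯ F]
    (hS : Setting x A O) (b₀ : ι → F) (h₀ : Good L x O b₀) :
    ∃ b : ι → F, Good L x O b ∧
      ∀ y : F, IsIntegral (Algebra.adjoin L {x}) y → y ∈ PS L x b := by
  have : IsNoetherian (Algebra.adjoin L {x}) (integralClosure (Algebra.adjoin L {x}) F) :=
    isNoetherian_integralClosure hS.transcendental
  let N : Submodule (Algebra.adjoin L {x}) F :=
    Subalgebra.toSubmodule (integralClosure (Algebra.adjoin L {x}) F)
  have : IsNoetherian (Algebra.adjoin L {x}) N :=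
    isNoetherian_integralClosure hS.transcendental
  let S : Set (Submodule (Algebra.adjoin L {x}) N) :=
    {M | ∃ b : ι → F, Good L x O b ∧ M = Submodule.comap N.subtype (PS L x b)}
  have hne : S.Nonempty := ⟨_, b₀, h₀, rfl⟩
  obtain ⟨M, ⟨b, hb, rfl⟩, hmax⟩ :=
    WellFounded.has_min (wellFounded_gt : WellFounded
      (fun M M' : Submodule (Algebra.adjoin L {x}) N => M > M')) S hne
  refine ⟨b, hb, fun y hy => ?_⟩
  by_contra hyn
  obtain ⟨b', hb', hle, z, hz, hzn⟩ := hb.exists_improve hS y hy hyn
  apply hmax _ ⟨b', hb', rfl⟩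
  have hzN : z ∈ N := hb'.isIntegral_of_mem_PS hz
  exact SetLike.lt_iff_le_and_exists.mpr ⟨Submodule.comap_mono hle, ⟨⟨z, hzN⟩, hz, hzn⟩⟩

/-- **T4 (abstract).**  In the Gauss setting, starting from a good family, there is a finite
family of elements of `O`, integral over `L[x]`, such that every element of `O` integral over
`L[x]` is a combination of the family with coefficients polynomials in `x` over `A`. -/
theorem exists_orth_basis [IsAlgClosed L] [CharZero L] [FiniteDimensional L⟮x⟯ F]
    (hS : Setting x A O) (b₀ : ι → F) (h₀ : Good L x O b₀) :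
    ∃ b : ι → F, (∀ i, b i ∈ O) ∧ (∀ i, IsIntegral (Algebra.adjoin L {x}) (b i)) ∧
      ∀ y : F, y ∈ O → IsIntegral (Algebra.adjoin L {x}) y →
        ∃ p : ι → Polynomial A, y = ∑ i, aeval x ((p i).map A.subtype) * b i := by
  obtain ⟨b, hb, hsp⟩ := exists_good_spanning hS b₀ h₀
  refine ⟨b, hb.mem, hb.int, fun y hyO hy => ?_⟩
  obtain ⟨c, hc, rfl⟩ := mem_PS_iff.mp (hsp y hy)
  have hcO : ∀ i, c i ∈ O :=
    hb.orth c (fun i => IntermediateField.algebra_adjoin_le_adjoin L {x} (hc i)) hyO
  have key : ∀ i, ∃ p : Polynomial A, aeval x (p.map A.subtype) = c i := by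
    intro i
    have h1 := hc i
    rw [Algebra.adjoin_singleton_eq_range_aeval] at h1
    obtain ⟨P, hP⟩ := h1
    have hP' : aeval x P = c i := hP
    obtain ⟨q, rfl⟩ := hS.exists_lift P (by rw [hP']; exact hcO i)
    exact ⟨q, hP'⟩
  choose p hp using key
  exact ⟨p, Finset.sum_congr rfl fun i _ => by rw [hp i]⟩

end Main

end

end Fermat.Agent.Lib.Red.Orth
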