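/-
ESJ / RED (V1 for a general chart function, abstract; Mathlib + `Lib/Red/Orth` only).

`F/L` fields, `A` a valuation subring of `L`, `O` a valuation subring of `F` with a residue map
`red : O →+* E`, `t ∈ O` a *chart function* (`Orth.Setting t A O`: `O ∩ L = A`, primitive
polynomials in `t` are units of `O`).

* `polyRing A t : Subring F` — the ring `A[t]`;
* `isIntegral_polyRing_of_isIntegral` — **Lemma A** for the chart `t`: if the minimal polynomial
  of `y` over `K = L(t)` has coefficients in `O`, and `y` is integral over `L[t]`, then `y` is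
  integral over `A[t]`;
* `RedData`, `red_aeval_map`, `isIntegral_red` — the reduction of an `A[t]`-integral element is
  integral over `k[t̄]`;
* `setting_of_red` — a function `t ∈ O` whose reduction is transcendental over `k` is a chart
  function.
-/
import Mathlib
import Fermat.Agent.Lib.Red.Orth

set_option autoImplicit false

namespace Fermat.Agent.Lib.Red.Chart

open Polynomial IntermediateField

open scoped IntermediateField.algebraAdjoinAdjoin

noncomputable section

variable {L F : Type*} [Field L] [Field F] [Algebra L F]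

/-- The ring `A[t]`, as a subring of `F`. -/
def polyRing (A : ValuationSubring L) (t : F) : Subring F :=
  ((Polynomial.aeval (R := L) t).toRingHom.comp (Polynomial.mapRingHom A.subtype)).range

variable {A : ValuationSubring L} {t : F}

theorem mem_polyRing_iff {z : F} :
    z ∈ polyRing A t ↔ ∃ p : Polynomial A, Polynomial.aeval t (p.map A.subtype) = z := Iff.rfl

theorem aeval_map_mem_polyRing (p : Polynomial A) :
    Polynomial.aeval t (p.map A.subtype) ∈ polyRing A t := ⟨p, rfl⟩

theorem self_mem_polyRing : t ∈ polyRing A t :=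
  ⟨Polynomial.X, by
    show Polynomial.aeval t ((Polynomial.X : Polynomial A).map A.subtype) = t
    rw [Polynomial.map_X, Polynomial.aeval_X]⟩

theorem algebraMap_mem_polyRing (a : A) : algebraMap L F (a : L) ∈ polyRing A t :=
  ⟨Polynomial.C a, by
    show Polynomial.aeval t ((Polynomial.C a : Polynomial A).map A.subtype) = _
    rw [Polynomial.map_C, Polynomial.aeval_C]
    rfl⟩

theorem polyRing_le_adjoin {z : F} (hz : z ∈ polyRing A t) : z ∈ Algebra.adjoin L {t} := by
  obtain ⟨p, rfl⟩ := hz
  rw [Algebra.adjoin_singleton_eq_range_aeval]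
  exact ⟨_, rfl⟩

theorem polyRing_le {O : Subring F} (h : Orth.Setting t A O) : polyRing A t ≤ O := by
  rintro z ⟨p, rfl⟩
  exact h.aeval_map_mem p

/-- `L[t] ∩ O = A[t]`. -/
theorem mem_polyRing_of_mem_adjoin {O : Subring F} (h : Orth.Setting t A O) {z : F}
    (hz : z ∈ Algebra.adjoin L {t}) (hzO : z ∈ O) : z ∈ polyRing A t := by
  have h3 : z ∈ (Polynomial.aeval (R := L) t).range := by
    rw [← Algebra.adjoin_singleton_eq_range_aeval]
    exact hz
  obtain ⟨p, rfl⟩ := h3
  obtain ⟨q, rfl⟩ := h.exists_lift p hzO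
  exact ⟨q, rfl⟩

theorem isIntegral_adjoin_of_isIntegral_polyRing {z : F} (hz : IsIntegral ↥(polyRing A t) z) :
    IsIntegral ↥(Algebra.adjoin L {t}) z := by
  obtain ⟨f, hf, hfz⟩ := hz
  let φ : ↥(polyRing A t) →+* ↥(Algebra.adjoin L {t}) :=
    ((polyRing A t).subtype).codRestrict (Algebra.adjoin L {t}) (fun c => polyRing_le_adjoin c.2)
  refine ⟨f.map φ, hf.map _, ?_⟩
  rw [Polynomial.eval₂_map]
  exact hfz

/-- An element integral over `A[t]` lies in the valuation ring `O`. -/
theorem mem_of_isIntegral_polyRing {O : ValuationSubring F} (h : Orth.Setting t A O.toSubring)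
    {z : F} (hz : IsIntegral ↥(polyRing A t) z) : z ∈ O := by
  obtain ⟨f, hf, hfz⟩ := hz
  have hz' : IsIntegral O z := by
    refine ⟨f.map (Subring.inclusion (polyRing_le h)), hf.map _, ?_⟩
    rw [Polynomial.eval₂_map]
    exact hfz
  obtain ⟨w, hw⟩ := IsIntegrallyClosed.isIntegral_iff.mp hz'
  rw [← hw]
  exact w.2

/-- A monic polynomial over a subalgebra whose coefficients lie in a subring gives integrality
over the subring. -/
theorem isIntegral_of_coeff_mem {R : Type*} [CommRing R] [Algebra R F] (S : Subring F) {y : F}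
    (m : Polynomial R) (hm : m.Monic) (hy : Polynomial.aeval y m = 0)
    (hcoeff : ∀ i, algebraMap R F (m.coeff i) ∈ S) : IsIntegral ↥S y := by
  set q : Polynomial F := m.map (algebraMap R F) with hq
  have hqm : q.Monic := hm.map _
  have hq0 : q.eval y = 0 := by
    rw [hq, Polynomial.eval_map, ← Polynomial.aeval_def]
    exact hy
  have hlift : q ∈ Polynomial.lifts S.subtype := by
    rw [Polynomial.lifts_iff_coeff_lifts]
    intro n
    rw [hq, Polynomial.coeff_map]
    exact ⟨⟨_, hcoeff n⟩, rfl⟩
  obtain ⟨q', hq', -, hq'm⟩ := Polynomial.lifts_and_natDegree_eq_and_monic hlift hqm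
  refine ⟨q', hq'm, ?_⟩
  have h5 : Polynomial.eval₂ (algebraMap ↥S F) y q' = (q'.map S.subtype).eval y := by
    rw [Polynomial.eval_map]
    rfl
  rw [h5, hq', hq0]

/-- **Lemma A** for the chart function `t` (abstract form).  If `K = L(t)`, the minimal polynomial
of `y` over `K` has coefficients in `O`, and `y` is integral over `L[t]`, then `y` is integral
over `A[t]`. -/
theorem isIntegral_polyRing_of_isIntegral {O : Subring F} (h : Orth.Setting t A O)
    (K : IntermediateField L F) (hK : L⟮t⟯ = K) {y : F}
    (hmin : ∀ i, algebraMap K F ((minpoly K y).coeff i) ∈ O)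
    (hy : IsIntegral ↥(Algebra.adjoin L {t}) y) : IsIntegral ↥(polyRing A t) y := by
  subst hK
  have := Orth.isIntegrallyClosed_adjoin h.transcendental
  have hmin' := minpoly.isIntegrallyClosed_eq_field_fractions' ↥(L⟮t⟯) hy
  refine isIntegral_of_coeff_mem (polyRing A t) (minpoly ↥(Algebra.adjoin L {t}) y)
    (minpoly.monic hy) (minpoly.aeval _ _) (fun i => ?_)
  refine mem_polyRing_of_mem_adjoin h (Subtype.property _) ?_
  have h1 : algebraMap ↥(Algebra.adjoin L {t}) ↥(L⟮t⟯)
      ((minpoly ↥(Algebra.adjoin L {t}) y).coeff i) = (minpoly ↥(L⟮t⟯) y).coeff i := by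
    rw [hmin', Polynomial.coeff_map]
  have h2 := hmin i
  rw [← h1] at h2
  exact h2

/-! ### Reduction -/

variable {k E : Type*} [Field k] [Field E] [Algebra k E]

/-- Compatibility of the residue maps on constants. -/
structure RedData (A : ValuationSubring L) (π : A →+* k) (O : ValuationSubring F)
    (red : O →+* E) : Prop where
  mem : ∀ a : A, algebraMap L F (a : L) ∈ O
  red_alg : ∀ a : A, red ⟨algebraMap L F (a : L), mem a⟩ = algebraMap k E (π a)

section Red

variable {π : A →+* k} {O : ValuationSubring F} {red : O →+* E}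

/-- The constants, as a ring hom `A → O`. -/
def RedData.const (hR : RedData A π O red) : A →+* O :=
  ((algebraMap L F).comp A.subtype).codRestrict O hR.mem

theorem RedData.coe_const (hR : RedData A π O red) (a : A) :
    ((hR.const a : O) : F) = algebraMap L F (a : L) := rfl

theorem RedData.red_const (hR : RedData A π O red) (a : A) :
    red (hR.const a) = algebraMap k E (π a) := hR.red_alg a

/-- `p(t)` for `p ∈ A[X]`, as an element of `O`. -/
def RedData.evalO (hR : RedData A π O red) (ht : t ∈ O) : Polynomial A →+* O :=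
  Polynomial.eval₂RingHom hR.const ⟨t, ht⟩

theorem RedData.coe_evalO (hR : RedData A π O red) (ht : t ∈ O) (p : Polynomial A) :
    ((hR.evalO ht p : O) : F) = Polynomial.aeval t (p.map A.subtype) := by
  have h1 := Polynomial.hom_eval₂ p hR.const O.subtype ⟨t, ht⟩
  have h2 : O.subtype.comp hR.const = (algebraMap L F).comp A.subtype := rfl
  rw [h2] at h1
  rw [Polynomial.aeval_def, Polynomial.eval₂_map]
  exact h1

theorem RedData.red_evalO (hR : RedData A π O red) (ht : t ∈ O) (p : Polynomial A) :
    red (hR.evalO ht p) = Polynomial.aeval (red ⟨t, ht⟩) (p.map π) := by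
  have h1 := Polynomial.hom_eval₂ p hR.const red ⟨t, ht⟩
  have h2 : red.comp hR.const = (algebraMap k E).comp π := by
    ext a
    exact hR.red_const a
  rw [h2] at h1
  rw [Polynomial.aeval_def, Polynomial.eval₂_map]
  exact h1

/-- The reduction of `p(t)` is `p̄(t̄)`. -/
theorem RedData.red_aeval_map (hR : RedData A π O red) (ht : t ∈ O) (p : Polynomial A)
    (hmem : Polynomial.aeval t (p.map A.subtype) ∈ O) :
    red ⟨_, hmem⟩ = Polynomial.aeval (red ⟨t, ht⟩) (p.map π) := by
  have e : (⟨_, hmem⟩ : O) = hR.evalO ht p := Subtype.ext (hR.coe_evalO ht p).symm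
  rw [e, hR.red_evalO]

/-- A function of `O` whose reduction is transcendental over `k` is a chart function. -/
theorem setting_of_red (hR : RedData A π O red)
    (hiff : ∀ c : L, algebraMap L F c ∈ O ↔ c ∈ A) (hker : ∀ f : O, red f ≠ 0 → IsUnit f)
    (ht : t ∈ O) (htt : Transcendental k (red ⟨t, ht⟩)) : Orth.Setting t A O.toSubring where
  hA := hiff
  hx := ht
  prim := by
    rintro q ⟨n, hn⟩
    have hq : q.map π ≠ 0 := by
      intro h0
      have h1 := congrArg (fun r => r.coeff n) h0
      simp only [Polynomial.coeff_map, Polynomial.coeff_zero] at h1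
      have h2 := hn.map π
      rw [h1] at h2
      exact not_isUnit_zero h2
    have hne : red (hR.evalO ht q) ≠ 0 := by
      rw [hR.red_evalO]
      exact fun h0 => hq ((transcendental_iff.mp htt) _ h0)
    obtain ⟨u, hu⟩ := hker _ hne
    have h1 : ((u⁻¹ : Oˣ) : O) * hR.evalO ht q = 1 := by
      rw [← hu]
      exact u.inv_mul
    have h2 : (((u⁻¹ : Oˣ) : O) : F) * Polynomial.aeval t (q.map A.subtype) = 1 := by
      rw [← hR.coe_evalO ht q]
      exact congrArg Subtype.val h1
    refine ⟨right_ne_zero_of_mul_eq_one h2, ?_⟩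
    rw [← eq_inv_of_mul_eq_one_left h2]
    exact Subtype.property _

/-- The reduction of an element integral over `A[t]` is integral over `k[t̄]`. -/
theorem isIntegral_red (hR : RedData A π O red) (hS : Orth.Setting t A O.toSubring) (y : O)
    (hy : IsIntegral ↥(polyRing A t) (y : F)) :
    IsIntegral ↥(Algebra.adjoin k {red ⟨t, hS.hx⟩}) (red y) := by
  obtain ⟨f, hf, hfy⟩ := hy
  -- the reduction of the coefficients
  have hcoe : ∀ c : ↥(polyRing A t),
      red ⟨(c : F), polyRing_le hS c.2⟩ ∈ Algebra.adjoin k {red ⟨t, hS.hx⟩} := by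
    rintro ⟨c, hc⟩
    obtain ⟨p, hp⟩ := mem_polyRing_iff.mp hc
    have e : (⟨c, polyRing_le hS hc⟩ : O) = ⟨_, hS.aeval_map_mem p⟩ := Subtype.ext hp.symm
    rw [e, hR.red_aeval_map hS.hx p, Algebra.adjoin_singleton_eq_range_aeval]
    exact ⟨_, rfl⟩
  let ψ : ↥(polyRing A t) →+* O := Subring.inclusion (polyRing_le hS)
  let φ : ↥(polyRing A t) →+* ↥(Algebra.adjoin k {red ⟨t, hS.hx⟩}) :=
    (red.comp ψ).codRestrict (Algebra.adjoin k {red ⟨t, hS.hx⟩}) hcoe
  refine ⟨f.map φ, hf.map _, ?_⟩
  rw [Polynomial.eval₂_map]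
  have h1 : (algebraMap ↥(Algebra.adjoin k {red ⟨t, hS.hx⟩}) E).comp φ = red.comp ψ := rfl
  rw [h1, ← Polynomial.hom_eval₂]
  have h2 : f.eval₂ ψ y = 0 := by
    apply Subtype.ext
    have h3 := Polynomial.hom_eval₂ f ψ O.subtype y
    exact h3.trans hfy
  rw [h2, map_zero]

end Red

end

end Fermat.Agent.Lib.Red.Chart
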