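import Mathlib
import Fermat.Prelude.Def_AlgebraicCurve_DivisorClassGroup
import Fermat.Prelude.Def_AlgebraicCurve_Repartitions
import Fermat.Agent.S24.PlaceBasic

/-!
# The place reduction on one tube (abstract)

`L ⊇ A` a valuation ring with residue map `π : A → k`, `F/L` and `Ft/k` fields with places,
`Ow` a valuation ring of `F` with reduction map `red : Ow → Ft`.  A *tube* is a set `T` of places
of `F` together with a finite set `Tt` of places of `Ft` (the points of the special fibre that the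
tube reduces to), subject to the hypotheses of `IsTube` (integrality of values, good reduction
`red (O_T) = O_{Tt}`, fibrewise conservation of the number of zeros).

Main result: `IsTube.exists_reduction` — there is a map `r : T → Tt` with
`∑_{P ∈ T, r P = Q} ord_P y = ord_Q (red y)` for every `y ∈ Ow` with `red y ≠ 0`.
-/

set_option autoImplicit false

noncomputable section

namespace Fermat.Agent.Lib.Red.PlaceRed

open AlgebraicCurve WithZero
open Fermat.Agent.S24

/-! ### Sums of a finitely supported function over a subset -/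

section TSum

variable {ι M : Type*} [AddCommMonoid M]

open Classical in
/-- The sum of a finitely supported function over the subset `S`, as an additive map. -/
def tsum (S : Set ι) : (ι →₀ M) →+ M :=
  Finsupp.liftAddHom fun i => if i ∈ S then AddMonoidHom.id M else 0

open Classical in
theorem tsum_apply (S : Set ι) (D : ι →₀ M) :
    tsum S D = ∑ i ∈ D.support, if i ∈ S then D i else 0 := by
  rw [tsum, Finsupp.liftAddHom_apply, Finsupp.sum]
  refine Finset.sum_congr rfl fun i _ => ?_
  split_ifs <;> simp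

open Classical in
theorem tsum_apply_of_subset (S : Set ι) (D : ι →₀ M) {s : Finset ι} (hs : D.support ⊆ s) :
    tsum S D = ∑ i ∈ s, if i ∈ S then D i else 0 := by
  rw [tsum_apply]
  refine Finset.sum_subset hs fun i _ hi => ?_
  rw [Finsupp.notMem_support_iff] at hi
  simp [hi]

theorem tsum_congr (S : Set ι) {D₁ D₂ : ι →₀ M} (h : ∀ i ∈ S, D₁ i = D₂ i) :
    tsum S D₁ = tsum S D₂ := by
  classical
  rw [tsum_apply_of_subset S D₁ (Finset.subset_union_left (s₂ := D₂.support)),
    tsum_apply_of_subset S D₂ (Finset.subset_union_right (s₁ := D₁.support))]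
  refine Finset.sum_congr rfl fun i _ => ?_
  split_ifs with hi
  · exact h i hi
  · rfl

theorem tsum_eq_zero (S : Set ι) {D : ι →₀ M} (h : ∀ i ∈ S, D i = 0) : tsum S D = 0 := by
  rw [tsum_congr S (D₂ := 0) (by simpa using h), map_zero]

open Classical in
theorem tsum_single (S : Set ι) (i : ι) (m : M) :
    tsum S (Finsupp.single i m) = if i ∈ S then m else 0 := by
  rw [tsum, Finsupp.liftAddHom_apply, Finsupp.sum_single_index]
  · split_ifs <;> simp
  · split_ifs <;> simp

theorem tsum_mono_set {S S' : Set ι} {D : ι →₀ M} (h : ∀ i, D i ≠ 0 → (i ∈ S ↔ i ∈ S')) :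
    tsum S D = tsum S' D := by
  classical
  rw [tsum_apply, tsum_apply]
  refine Finset.sum_congr rfl fun i hi => ?_
  rw [Finsupp.mem_support_iff] at hi
  simp only [h i hi]

open Classical in
theorem mapDomain_apply_eq_tsum {κ : Type*} (r : ι → κ) (D : ι →₀ M) (q : κ) :
    Finsupp.mapDomain r D q = tsum {i | r i = q} D := by
  rw [tsum_apply, Finsupp.mapDomain, Finsupp.sum_apply, Finsupp.sum]
  refine Finset.sum_congr rfl fun i _ => ?_
  rw [Finsupp.single_apply]
  rfl

end TSum

section TSumInt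

variable {ι : Type*}

theorem tsum_nonneg (S : Set ι) {D : ι →₀ ℤ} (h : ∀ i ∈ S, 0 ≤ D i) : 0 ≤ tsum S D := by
  classical
  rw [tsum_apply]
  refine Finset.sum_nonneg fun i _ => ?_
  split_ifs with hi
  · exact h i hi
  · exact le_rfl

theorem eq_zero_of_tsum_eq_zero (S : Set ι) {D : ι →₀ ℤ} (h : ∀ i ∈ S, 0 ≤ D i)
    (h0 : tsum S D = 0) : ∀ i ∈ S, D i = 0 := by
  classical
  intro i hi
  by_contra hne
  rw [tsum_apply] at h0
  have hnn : ∀ j ∈ D.support, 0 ≤ (if j ∈ S then D j else 0) := by
    intro j _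
    split_ifs with hj
    · exact h j hj
    · exact le_rfl
  have := (Finset.sum_eq_zero_iff_of_nonneg hnn).1 h0 i (Finsupp.mem_support_iff.2 hne)
  rw [if_pos hi] at this
  exact hne this

open Classical in
/-- If `D ≥ 0` on `S`, `D i ≥ 1` at `i ∈ S` and the sum over `S` is `1`, then `D` is the
indicator of `i` on `S`. -/
theorem eq_indicator_of_tsum_eq_one (S : Set ι) {D : ι →₀ ℤ} (h : ∀ i ∈ S, 0 ≤ D i)
    {i : ι} (hi : i ∈ S) (hi1 : 1 ≤ D i) (h1 : tsum S D = 1) :
    ∀ j ∈ S, D j = if j = i then 1 else 0 := by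
  have key : ∀ j ∈ S, (D - Finsupp.single i (1 : ℤ) : ι →₀ ℤ) j = 0 := by
    refine eq_zero_of_tsum_eq_zero S ?_ ?_
    · intro j hj
      rw [Finsupp.sub_apply, Finsupp.single_apply]
      split_ifs with hji
      · subst hji; linarith
      · simpa using h j hj
    · rw [map_sub, tsum_single, if_pos hi, h1, sub_self]
  intro j hj
  have := key j hj
  rw [Finsupp.sub_apply, Finsupp.single_apply] at this
  split_ifs with hji
  · rw [if_pos hji.symm] at this; linarith
  · rw [if_neg (fun h => hji h.symm)] at this; linarith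

theorem eq_zero_of_tsum_nat (S : Set ι) {E : ι →₀ ℕ} (h0 : tsum S E = 0) :
    ∀ i ∈ S, E i = 0 := by
  classical
  intro i hi
  by_contra hne
  rw [tsum_apply, Finset.sum_eq_zero_iff] at h0
  have := h0 i (Finsupp.mem_support_iff.2 hne)
  rw [if_pos hi] at this
  exact hne this

open Classical in
theorem mass_step (S : Set ι) {D D' : ι →₀ ℤ} {i : ι} (hi : i ∈ S)
    (hpt : ∀ j ∈ S, (D j).natAbs = (D' j).natAbs + if j = i then 1 else 0) :
    tsum S (D.mapRange Int.natAbs Int.natAbs_zero)
      = tsum S (D'.mapRange Int.natAbs Int.natAbs_zero) + 1 := by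
  rw [tsum_congr S (D₂ := D'.mapRange Int.natAbs Int.natAbs_zero + Finsupp.single i 1),
    map_add, tsum_single, if_pos hi]
  intro j hj
  rw [Finsupp.mapRange_apply, Finsupp.add_apply, Finsupp.mapRange_apply, Finsupp.single_apply,
    hpt j hj]
  congr 1
  by_cases hji : j = i
  · rw [if_pos hji, if_pos hji.symm]
  · rw [if_neg hji, if_neg (fun h => hji h.symm)]

end TSumInt

/-! ### Values of functions at a place, modulo the maximal ideal of `A` -/

section Eval

variable {L F k : Type*} [Field L] [Field F] [Algebra L F] [Field k]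

theorem adicValuation_algebraMap_eq_one (P : Place L F) {c : L} (hc : c ≠ 0) :
    P.adicValuation (algebraMap L F c) = 1 := by
  have h0 : algebraMap L F c ≠ 0 := by simpa using hc
  rw [P.adicValuation_eq_exp_neg_ord h0, ord_algebraMap, neg_zero, exp_zero]

theorem adicValuation_lt_one_iff (P : Place L F) {f : F} (hf : f ≠ 0) :
    P.adicValuation f < 1 ↔ 0 < P.ord f := by
  rw [P.adicValuation_eq_exp_neg_ord hf, ← exp_zero, exp_lt_exp]
  omega

theorem adicValuation_eq_one_iff (P : Place L F) {f : F} (hf : f ≠ 0) :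
    P.adicValuation f = 1 ↔ P.ord f = 0 := by
  rw [P.adicValuation_eq_exp_neg_ord hf, ← exp_zero, exp_inj]
  omega

theorem adicValuation_le_one_iff_mem (P : Place L F) {f : F} :
    P.adicValuation f ≤ 1 ↔ f ∈ P.toValuationSubring := by
  rw [P.adicValuation_le_one_iff, mem_iff_ord_nonneg]
  constructor
  · rintro (rfl | h)
    · simp
    · exact h
  · exact fun h => Or.inr h

variable (A : ValuationSubring L) (π : A →+* k)

/-- `f` takes the value `c ∈ k` at `P`: `f ≡ a` modulo the maximal ideal of `P` for some `a ∈ A`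
with `π a = c`. -/
def EvK (P : Place L F) (f : F) (c : k) : Prop :=
  ∃ a : A, π a = c ∧ P.adicValuation (f - algebraMap L F (a : L)) < 1

variable {A π}

theorem EvK.le_one {P : Place L F} {f : F} {c : k} (h : EvK A π P f c) :
    P.adicValuation f ≤ 1 := by
  obtain ⟨a, -, ha⟩ := h
  have : f = (f - algebraMap L F (a : L)) + algebraMap L F (a : L) := by ring
  rw [this]
  exact (P.adicValuation.map_add _ _).trans
    (max_le ha.le (P.adicValuation_algebraMap_le_one _))

theorem EvK.mem {P : Place L F} {f : F} {c : k} (h : EvK A π P f c) :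
    f ∈ P.toValuationSubring :=
  (adicValuation_le_one_iff_mem P).1 h.le_one

theorem EvK.unique {P : Place L F} {f : F} {c d : k} (h : EvK A π P f c) (h' : EvK A π P f d) :
    c = d := by
  obtain ⟨a, rfl, ha⟩ := h
  obtain ⟨b, rfl, hb⟩ := h'
  have h1 : P.adicValuation (algebraMap L F ((a : L) - (b : L))) < 1 := by
    have : algebraMap L F ((a : L) - (b : L))
        = (f - algebraMap L F (b : L)) - (f - algebraMap L F (a : L)) := by
      rw [map_sub]; ring
    rw [this]
    exact P.adicValuation.map_sub_lt hb ha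
  have h2 : (a : L) - (b : L) = 0 := by
    by_contra hne
    rw [adicValuation_algebraMap_eq_one P hne] at h1
    exact lt_irrefl _ h1
  have : a = b := Subtype.ext (sub_eq_zero.1 h2)
  rw [this]

theorem EvK.const (P : Place L F) (a : A) : EvK A π P (algebraMap L F (a : L)) (π a) :=
  ⟨a, rfl, by simp⟩

theorem EvK.zero (P : Place L F) : EvK A π P (0 : F) 0 :=
  ⟨0, map_zero π, by simp⟩

theorem EvK.one (P : Place L F) : EvK A π P (1 : F) 1 :=
  ⟨1, map_one π, by simp⟩

theorem EvK.add {P : Place L F} {f g : F} {c d : k} (hf : EvK A π P f c) (hg : EvK A π P g d) :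
    EvK A π P (f + g) (c + d) := by
  obtain ⟨a, rfl, ha⟩ := hf
  obtain ⟨b, rfl, hb⟩ := hg
  refine ⟨a + b, map_add π a b, ?_⟩
  have : f + g - algebraMap L F ((a + b : A) : L)
      = (f - algebraMap L F (a : L)) + (g - algebraMap L F (b : L)) := by
    have e : ((a + b : A) : L) = (a : L) + (b : L) := rfl
    rw [e, map_add]; ring
  rw [this]
  exact P.adicValuation.map_add_lt ha hb

theorem EvK.neg {P : Place L F} {f : F} {c : k} (hf : EvK A π P f c) :
    EvK A π P (-f) (-c) := by
  obtain ⟨a, rfl, ha⟩ := hf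
  refine ⟨-a, map_neg π a, ?_⟩
  have : -f - algebraMap L F ((-a : A) : L) = -(f - algebraMap L F (a : L)) := by
    have e : ((-a : A) : L) = -(a : L) := rfl
    rw [e, map_neg]; ring
  rw [this, Valuation.map_neg]
  exact ha

theorem EvK.sub {P : Place L F} {f g : F} {c d : k} (hf : EvK A π P f c) (hg : EvK A π P g d) :
    EvK A π P (f - g) (c - d) := by
  rw [sub_eq_add_neg, sub_eq_add_neg]
  exact hf.add hg.neg

theorem EvK.mul {P : Place L F} {f g : F} {c d : k} (hf : EvK A π P f c) (hg : EvK A π P g d) :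
    EvK A π P (f * g) (c * d) := by
  have hg1 := hg.le_one
  obtain ⟨a, rfl, ha⟩ := hf
  obtain ⟨b, rfl, hb⟩ := hg
  refine ⟨a * b, map_mul π a b, ?_⟩
  have : f * g - algebraMap L F ((a * b : A) : L)
      = (f - algebraMap L F (a : L)) * g + algebraMap L F (a : L) * (g - algebraMap L F (b : L)) := by
    have e : ((a * b : A) : L) = (a : L) * (b : L) := rfl
    rw [e, map_mul]; ring
  rw [this]
  refine P.adicValuation.map_add_lt ?_ ?_
  · rw [map_mul]
    exact mul_lt_one_of_lt_of_le ha hg1
  · rw [map_mul]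
    exact Right.mul_lt_one_of_le_of_lt (P.adicValuation_algebraMap_le_one _) hb

/-- `f` vanishes at `P` iff its value is `0` with representative `0`. -/
theorem EvK.of_lt_one {P : Place L F} {f : F} (h : P.adicValuation f < 1) : EvK A π P f 0 :=
  ⟨0, map_zero π, by simpa using h⟩

end Eval

/-! ### Tubes -/

section Tube

variable {L F k Ft : Type*} [Field L] [Field F] [Algebra L F] [Field k] [Field Ft] [Algebra k Ft]

/-- `f` is regular at every place of `T`. -/
def RegOn (T : Set (Place L F)) (f : F) : Prop := ∀ P ∈ T, f ∈ P.toValuationSubring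

/-- The subring of `Ow` of functions regular on `T`. -/
def regSubring (Ow : ValuationSubring F) (T : Set (Place L F)) : Subring Ow where
  carrier := {f | RegOn T (f : F)}
  mul_mem' := fun ha hb P hP => P.toValuationSubring.mul_mem _ _ (ha P hP) (hb P hP)
  one_mem' := fun P _ => P.toValuationSubring.one_mem
  add_mem' := fun ha hb P hP => P.toValuationSubring.add_mem _ _ (ha P hP) (hb P hP)
  zero_mem' := fun P _ => P.toValuationSubring.zero_mem
  neg_mem' := fun ha P hP => P.toValuationSubring.neg_mem _ (ha P hP)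

theorem mem_regSubring {Ow : ValuationSubring F} {T : Set (Place L F)} {f : Ow} :
    f ∈ regSubring Ow T ↔ RegOn T (f : F) := Iff.rfl

theorem regOn_algebraMap (T : Set (Place L F)) (c : L) : RegOn T (algebraMap L F c) :=
  fun P _ => P.algebraMap_mem' c

/-- The hypotheses on a tube `T` of places of `F` reducing to the finite set `Tt` of places of
`Ft`. -/
structure IsTube (A : ValuationSubring L) (π : A →+* k) (Ow : ValuationSubring F)
    (red : Ow →+* Ft) (T : Set (Place L F)) (Tt : Finset (Place k Ft)) : Prop where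
  surj : Function.Surjective π
  mem : ∀ a : A, algebraMap L F (a : L) ∈ Ow
  red_alg : ∀ (a : A) (f : Ow), (f : F) = algebraMap L F (a : L) → red f = algebraMap k Ft (π a)
  isUnit : ∀ u : Ow, red u ≠ 0 → IsUnit u
  scale : ∀ f : Ow, red f = 0 →
    ∃ (a : A) (g : Ow), π a = 0 ∧ (f : F) = algebraMap L F (a : L) * (g : F)
  ev : ∀ P ∈ T, ∀ f : Ow, RegOn T (f : F) → ∃ c : k, EvK A π P (f : F) c
  red_reg : ∀ f : Ow, RegOn T (f : F) → ∀ Q ∈ Tt, red f ∈ Q.toValuationSubring
  lift : ∀ g : Ft, (∀ Q ∈ Tt, g ∈ Q.toValuationSubring) → ∃ f : Ow, RegOn T (f : F) ∧ red f = g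
  approx : ∀ Q ∈ Tt, ∃ t : Ft, Q.ord t = 1 ∧ ∀ Q' ∈ Tt, Q' ≠ Q → Q'.ord t = 0
  nonempty : Tt.Nonempty
  fin : ∀ y : F, y ≠ 0 → {P : Place L F | P.ord y ≠ 0}.Finite
  cons : ∀ y : Ow, RegOn T (y : F) → red y ≠ 0 → ∀ s : Finset (Place L F),
    (∀ P, P ∈ s ↔ P ∈ T ∧ P.ord (y : F) ≠ 0) →
      ∑ P ∈ s, P.ord (y : F) = ∑ Q ∈ Tt, Q.ord (red y)

namespace IsTube

variable {A : ValuationSubring L} {π : A →+* k} {Ow : ValuationSubring F} {red : Ow →+* Ft}
  {T : Set (Place L F)} {Tt : Finset (Place k Ft)}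

/-- The constant `a ∈ A` as an element of `Ow`. -/
def const (h : IsTube A π Ow red T Tt) (a : A) : Ow := ⟨algebraMap L F (a : L), h.mem a⟩

theorem coe_const (h : IsTube A π Ow red T Tt) (a : A) :
    ((h.const a : Ow) : F) = algebraMap L F (a : L) := rfl

theorem red_const (h : IsTube A π Ow red T Tt) (a : A) :
    red (h.const a) = algebraMap k Ft (π a) := h.red_alg a _ rfl

theorem coe_ne_zero (_h : IsTube A π Ow red T Tt) {y : Ow} (hy : red y ≠ 0) : (y : F) ≠ 0 := by
  intro h0
  apply hy
  have : y = 0 := Subtype.ext h0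
  rw [this, map_zero]

/-- A regular function with zero reduction takes values in the maximal ideal of `A`. -/
theorem evK_zero_of_red_eq_zero (h : IsTube A π Ow red T Tt) {P : Place L F} (hP : P ∈ T)
    {f : Ow} (hf : RegOn T (f : F)) (hf0 : red f = 0) : EvK A π P (f : F) 0 := by
  obtain ⟨a, g, ha, hfg⟩ := h.scale f hf0
  by_cases ha0 : (a : L) = 0
  · rw [hfg, ha0, map_zero, zero_mul]
    exact EvK.zero P
  · have hg : RegOn T (g : F) := by
      intro P' hP'
      have hne : algebraMap L F (a : L) ≠ 0 := by simpa using ha0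
      have : (g : F) = (f : F) * algebraMap L F (a : L)⁻¹ := by
        rw [hfg, map_inv₀]
        field_simp
      rw [this]
      exact P'.toValuationSubring.mul_mem _ _ (hf P' hP') (P'.algebraMap_mem' _)
    obtain ⟨c, hc⟩ := h.ev P hP g hg
    have := (EvK.const (π := π) P a).mul hc
    rwa [ha, zero_mul, ← hfg] at this

/-- The value at `P ∈ T` of a regular function only depends on its reduction. -/
theorem evK_congr_red (h : IsTube A π Ow red T Tt) {P : Place L F} (hP : P ∈ T)
    {f g : Ow} (hf : RegOn T (f : F)) (hg : RegOn T (g : F)) (hfg : red f = red g) {c : k}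
    (hc : EvK A π P (f : F) c) : EvK A π P (g : F) c := by
  have hd : RegOn T ((g - f : Ow) : F) := (regSubring Ow T).sub_mem hg hf
  have h0 : red (g - f) = 0 := by rw [map_sub, hfg, sub_self]
  have := hc.add (h.evK_zero_of_red_eq_zero hP hd h0)
  rw [add_zero] at this
  have e : (f : F) + ((g - f : Ow) : F) = (g : F) := by
    have : ((g - f : Ow) : F) = (g : F) - (f : F) := rfl
    rw [this]; ring
  rwa [e] at this

/-- The tube sum of the divisor of a regular function equals the sum of the orders of its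
reduction. -/
theorem tsum_eq_sum (h : IsTube A π Ow red T Tt) {y : Ow} (hy : RegOn T (y : F))
    (hy0 : red y ≠ 0) {D : Place L F →₀ ℤ} (hD : ∀ P, D P = P.ord (y : F)) :
    tsum T D = ∑ Q ∈ Tt, Q.ord (red y) := by
  classical
  rw [tsum_apply, ← Finset.sum_filter, ← h.cons y hy hy0 (D.support.filter (· ∈ T))]
  · exact Finset.sum_congr rfl fun P _ => hD P
  · intro P
    rw [Finset.mem_filter, Finsupp.mem_support_iff, hD P, and_comm]

/-- Prime avoidance: the functions vanishing at `P ∈ T` all reduce into the maximal ideal of one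
of the places of `Tt`. -/
theorem exists_place_aux (h : IsTube A π Ow red T Tt) {P : Place L F} (hP : P ∈ T) :
    ∃ Q ∈ Tt, ∀ f : Ow, RegOn T (f : F) → EvK A π P (f : F) 0 →
      Q.adicValuation (red f) < 1 := by
  classical
  by_contra hcon
  push Not at hcon
  choose! φ hφ using hcon
  choose! t ht using h.approx
  have htmem : ∀ Q ∈ Tt, ∀ Q' ∈ Tt, t Q ∈ Q'.toValuationSubring := by
    intro Q hQ Q' hQ'
    apply mem_of_ord_nonneg
    by_cases hQQ : Q' = Q
    · rw [hQQ, (ht Q hQ).1]; norm_num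
    · rw [(ht Q hQ).2 Q' hQ' hQQ]
  have htne : ∀ Q ∈ Tt, t Q ≠ 0 := by
    intro Q hQ h0
    have := (ht Q hQ).1
    rw [h0, Place.ord_zero] at this
    exact zero_ne_one this
  choose! τ hτ using fun Q (hQ : Q ∈ Tt) => h.lift (t Q) (htmem Q hQ)
  set g : Ow := ∑ Q ∈ Tt, φ Q * ∏ Q' ∈ Tt.erase Q, τ Q' with hg
  have hrest : ∀ Q ∈ Tt, RegOn T ((∏ Q' ∈ Tt.erase Q, τ Q' : Ow) : F) := fun Q _ =>
    (regSubring Ow T).prod_mem fun Q' hQ' => (hτ Q' (Finset.mem_of_mem_erase hQ')).1
  have hgreg : RegOn T (g : F) :=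
    (regSubring Ow T).sum_mem fun Q hQ => (regSubring Ow T).mul_mem (hφ Q hQ).1 (hrest Q hQ)
  have hgev : EvK A π P (g : F) 0 := by
    have key : RegOn T (g : F) ∧ EvK A π P (g : F) 0 := by
      rw [hg]
      refine Finset.sum_induction _ (fun f : Ow => RegOn T (f : F) ∧ EvK A π P (f : F) 0)
        ?_ ?_ ?_
      · rintro a b ⟨ha, ha'⟩ ⟨hb, hb'⟩
        refine ⟨(regSubring Ow T).add_mem ha hb, ?_⟩
        have := ha'.add hb'
        rwa [add_zero] at this
      · exact ⟨(regSubring Ow T).zero_mem, EvK.zero P⟩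
      · intro Q hQ
        refine ⟨(regSubring Ow T).mul_mem (hφ Q hQ).1 (hrest Q hQ), ?_⟩
        obtain ⟨c, hc⟩ := h.ev P hP _ (hrest Q hQ)
        have := (hφ Q hQ).2.1.mul hc
        rwa [zero_mul] at this
    exact key.2
  -- the reduction of `g` is a unit at every place of `Tt`
  have hredg : red g = ∑ Q ∈ Tt, red (φ Q) * ∏ Q' ∈ Tt.erase Q, t Q' := by
    rw [hg, map_sum]
    refine Finset.sum_congr rfl fun Q _ => ?_
    rw [map_mul, map_prod]
    congr 1
    exact Finset.prod_congr rfl fun Q' hQ' => (hτ Q' (Finset.mem_of_mem_erase hQ')).2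
  have hval : ∀ Q₀ ∈ Tt, Q₀.adicValuation (red g) = 1 := by
    intro Q₀ hQ₀
    have hle : ∀ Q ∈ Tt, Q₀.adicValuation (red (φ Q)) ≤ 1 := fun Q hQ =>
      (adicValuation_le_one_iff_mem Q₀).2 (h.red_reg _ (hφ Q hQ).1 Q₀ hQ₀)
    have ht1 : ∀ Q ∈ Tt, Q₀.adicValuation (t Q) ≤ 1 := fun Q hQ =>
      (adicValuation_le_one_iff_mem Q₀).2 (htmem Q hQ Q₀ hQ₀)
    have hmain : Q₀.adicValuation (red (φ Q₀) * ∏ Q' ∈ Tt.erase Q₀, t Q') = 1 := by
      rw [map_mul, map_prod]
      have h1 : Q₀.adicValuation (red (φ Q₀)) = 1 :=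
        le_antisymm (hle Q₀ hQ₀) (hφ Q₀ hQ₀).2.2
      have h2 : ∏ Q' ∈ Tt.erase Q₀, Q₀.adicValuation (t Q') = 1 := by
        refine Finset.prod_eq_one fun Q' hQ' => ?_
        have hQ'T := Finset.mem_of_mem_erase hQ'
        rw [adicValuation_eq_one_iff Q₀ (htne Q' hQ'T)]
        exact (ht Q' hQ'T).2 Q₀ hQ₀ (fun hh => (Finset.ne_of_mem_erase hQ') hh.symm)
      rw [h1, h2, mul_one]
    have hother : Q₀.adicValuation
        (∑ Q ∈ Tt.erase Q₀, red (φ Q) * ∏ Q' ∈ Tt.erase Q, t Q') < 1 := by
      refine Q₀.adicValuation.map_sum_lt one_ne_zero fun Q hQ => ?_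
      have hQT := Finset.mem_of_mem_erase hQ
      have hQne := Finset.ne_of_mem_erase hQ
      have hQ₀' : Q₀ ∈ Tt.erase Q := Finset.mem_erase.2 ⟨fun hh => hQne hh.symm, hQ₀⟩
      rw [map_mul, map_prod, ← Finset.mul_prod_erase _ _ hQ₀']
      refine Right.mul_lt_one_of_le_of_lt (hle Q hQT) ?_
      refine mul_lt_one_of_lt_of_le ?_ ?_
      · rw [adicValuation_lt_one_iff Q₀ (htne Q₀ hQ₀), (ht Q₀ hQ₀).1]
        norm_num
      · refine Finset.prod_le_one' fun Q' hQ' => ?_
        exact ht1 Q' (Finset.mem_of_mem_erase (Finset.mem_of_mem_erase hQ'))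
    rw [hredg, ← Finset.add_sum_erase _ _ hQ₀, Valuation.map_add_eq_of_lt_left, hmain]
    rw [hmain]
    exact hother
  obtain ⟨Q₁, hQ₁⟩ := h.nonempty
  have hredg0 : red g ≠ 0 := by
    intro h0
    have := hval Q₁ hQ₁
    rw [h0, map_zero] at this
    exact zero_ne_one this
  obtain ⟨w, hwreg, hw⟩ := h.lift (red g)⁻¹ (fun Q hQ => by
    rw [← adicValuation_le_one_iff_mem, map_inv₀, hval Q hQ, inv_one])
  have hgw : red (g * w) = red 1 := by
    rw [map_mul, hw, mul_inv_cancel₀ hredg0, map_one]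
  obtain ⟨c, hc⟩ := h.ev P hP w hwreg
  have h1 : EvK A π P ((g * w : Ow) : F) 0 := by
    have := hgev.mul hc
    rwa [zero_mul] at this
  have h2 := h.evK_congr_red hP ((regSubring Ow T).mul_mem hgreg hwreg)
    ((regSubring Ow T).one_mem) hgw h1
  exact zero_ne_one (h2.unique (EvK.one P))

/-- The place of `Tt` that `P ∈ T` reduces to: a regular function vanishes at `P` modulo the
maximal ideal of `A` iff its reduction vanishes at `Q`. -/
theorem exists_place (h : IsTube A π Ow red T Tt) {P : Place L F} (hP : P ∈ T) :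
    ∃ Q ∈ Tt, ∀ f : Ow, RegOn T (f : F) →
      (EvK A π P (f : F) 0 ↔ Q.adicValuation (red f) < 1) := by
  obtain ⟨Q, hQ, hfwd⟩ := h.exists_place_aux hP
  refine ⟨Q, hQ, fun f hf => ⟨hfwd f hf, fun hlt => ?_⟩⟩
  obtain ⟨c, hc⟩ := h.ev P hP f hf
  suffices hc0 : c = 0 by rwa [hc0] at hc
  by_contra hc0
  obtain ⟨a, rfl⟩ := h.surj c
  have hreg : RegOn T ((f - h.const a : Ow) : F) :=
    (regSubring Ow T).sub_mem hf (regOn_algebraMap T _)
  have hev : EvK A π P ((f - h.const a : Ow) : F) 0 := by
    have := hc.sub (EvK.const (π := π) P a)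
    rwa [sub_self] at this
  have h1 := hfwd _ hreg hev
  rw [map_sub, h.red_const] at h1
  have h2 : Q.adicValuation (algebraMap k Ft (π a)) < 1 := by
    have : algebraMap k Ft (π a) = red f - (red f - algebraMap k Ft (π a)) := by ring
    rw [this]
    exact Q.adicValuation.map_sub_lt hlt h1
  rw [adicValuation_algebraMap_eq_one Q hc0] at h2
  exact lt_irrefl _ h2

open Classical in
/-- A function of `Ow`, regular on the tube, with a unique and simple zero on the tube, at `P`,
whose reduction is a uniformiser at `Q` and a unit at the other places of `Tt`. -/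
theorem exists_unif (h : IsTube A π Ow red T Tt) {P : Place L F} (hP : P ∈ T)
    {Q : Place k Ft} (hQ : Q ∈ Tt)
    (hPQ : ∀ f : Ow, RegOn T (f : F) → (EvK A π P (f : F) 0 ↔ Q.adicValuation (red f) < 1)) :
    ∃ u : Ow, RegOn T (u : F) ∧ red u ≠ 0 ∧
      (∀ Q' ∈ Tt, Q'.ord (red u) = if Q' = Q then 1 else 0) ∧
      ∀ D : Place L F →₀ ℤ, (∀ P', D P' = P'.ord (u : F)) →
        ∀ P' ∈ T, D P' = if P' = P then 1 else 0 := by
  obtain ⟨t, ht1, ht0⟩ := h.approx Q hQ
  have htne : t ≠ 0 := by
    intro h0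
    rw [h0, Place.ord_zero] at ht1
    exact zero_ne_one ht1
  have htmem : ∀ Q' ∈ Tt, t ∈ Q'.toValuationSubring := by
    intro Q' hQ'
    apply mem_of_ord_nonneg
    by_cases hQQ : Q' = Q
    · rw [hQQ, ht1]; norm_num
    · rw [ht0 Q' hQ' hQQ]
  obtain ⟨τ, hτreg, hτ⟩ := h.lift t htmem
  have hτev : EvK A π P (τ : F) 0 := by
    rw [hPQ τ hτreg, hτ, adicValuation_lt_one_iff Q htne, ht1]
    norm_num
  obtain ⟨a, ha0, hav⟩ := hτev
  have hured : red (τ - h.const a) = t := by
    rw [map_sub, h.red_const, ha0, map_zero, sub_zero, hτ]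
  have hureg : RegOn T ((τ - h.const a : Ow) : F) :=
    (regSubring Ow T).sub_mem hτreg (regOn_algebraMap T _)
  have hured0 : red (τ - h.const a) ≠ 0 := by rw [hured]; exact htne
  have hu0 : ((τ - h.const a : Ow) : F) ≠ 0 := h.coe_ne_zero hured0
  have hordQ : ∀ Q' ∈ Tt, Q'.ord (red (τ - h.const a)) = if Q' = Q then 1 else 0 := by
    intro Q' hQ'
    rw [hured]
    split_ifs with hQQ
    · rw [hQQ, ht1]
    · exact ht0 Q' hQ' hQQ
  refine ⟨τ - h.const a, hureg, hured0, hordQ, ?_⟩
  intro D hD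
  refine eq_indicator_of_tsum_eq_one T ?_ hP ?_ ?_
  · intro P' hP'
    rw [hD P']
    exact ord_nonneg_of_mem P' (hureg P' hP')
  · rw [hD P]
    have : 0 < P.ord ((τ - h.const a : Ow) : F) := by
      rw [← adicValuation_lt_one_iff P hu0]
      exact hav
    omega
  · rw [h.tsum_eq_sum hureg hured0 hD, Finset.sum_congr rfl hordQ, Finset.sum_ite_eq', if_pos hQ]

end IsTube

/-- `r` sends each place of the tube to the place of `Tt` it reduces to. -/
def IsRedMap (A : ValuationSubring L) (π : A →+* k) (Ow : ValuationSubring F)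
    (red : Ow →+* Ft) (T : Set (Place L F)) (Tt : Finset (Place k Ft))
    (r : Place L F → Place k Ft) : Prop :=
  ∀ P ∈ T, r P ∈ Tt ∧ ∀ f : Ow, RegOn T (f : F) →
    (EvK A π P (f : F) 0 ↔ (r P).adicValuation (red f) < 1)

namespace IsTube

variable {A : ValuationSubring L} {π : A →+* k} {Ow : ValuationSubring F} {red : Ow →+* Ft}
  {T : Set (Place L F)} {Tt : Finset (Place k Ft)}

theorem exists_isRedMap (h : IsTube A π Ow red T Tt) :
    ∃ r : Place L F → Place k Ft, IsRedMap A π Ow red T Tt r := by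
  classical
  obtain ⟨Q₀, -⟩ := h.nonempty
  refine ⟨fun P => if hP : P ∈ T then (h.exists_place hP).choose else Q₀, fun P hP => ?_⟩
  simp only [dif_pos hP]
  exact (h.exists_place hP).choose_spec

open Classical in
/-- Conservation of zeros and poles on the tube over each place of `Tt`, by induction on the
total number of zeros and poles in the tube. -/
theorem conservation_aux (h : IsTube A π Ow red T Tt) {r : Place L F → Place k Ft}
    (hr : IsRedMap A π Ow red T Tt r) :
    ∀ n : ℕ, ∀ y : Ow, red y ≠ 0 → ∀ D : Place L F →₀ ℤ, (∀ P, D P = P.ord (y : F)) →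
      tsum T (D.mapRange Int.natAbs Int.natAbs_zero) = n →
        ∀ Q ∈ Tt, tsum {P | P ∈ T ∧ r P = Q} D = Q.ord (red y) := by
  intro n
  induction n with
  | zero =>
    intro y hy0 D hD hmass Q hQ
    have hD0 : ∀ P ∈ T, D P = 0 := by
      intro P hP
      have := eq_zero_of_tsum_nat T hmass P hP
      rw [Finsupp.mapRange_apply] at this
      exact Int.natAbs_eq_zero.1 this
    have hyreg : RegOn T (y : F) := by
      intro P hP
      apply mem_of_ord_nonneg
      rw [← hD P, hD0 P hP]
    rw [tsum_eq_zero _ (fun P hP => hD0 P hP.1)]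
    have hsum : ∑ Q ∈ Tt, Q.ord (red y) = 0 := by
      rw [← h.tsum_eq_sum hyreg hy0 hD, tsum_eq_zero _ hD0]
    have hnn : ∀ Q ∈ Tt, 0 ≤ Q.ord (red y) := fun Q hQ =>
      ord_nonneg_of_mem Q (h.red_reg y hyreg Q hQ)
    exact ((Finset.sum_eq_zero_iff_of_nonneg hnn).1 hsum Q hQ).symm
  | succ n ih =>
    intro y hy0 D hD hmass Q hQ
    have hyF : (y : F) ≠ 0 := h.coe_ne_zero hy0
    -- a zero or pole in the tube
    obtain ⟨P, hP, hDP⟩ : ∃ P ∈ T, D P ≠ 0 := by
      by_contra hcon
      push Not at hcon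
      have : tsum T (D.mapRange Int.natAbs Int.natAbs_zero) = 0 := by
        refine tsum_eq_zero _ fun P hP => ?_
        rw [Finsupp.mapRange_apply, hcon P hP]
        rfl
      rw [this] at hmass
      exact absurd hmass (Nat.succ_ne_zero n).symm
    obtain ⟨hrP, hPQ⟩ := hr P hP
    obtain ⟨u, hureg, hured0, huQ, huD⟩ := h.exists_unif hP hrP hPQ
    have huF : (u : F) ≠ 0 := h.coe_ne_zero hured0
    obtain ⟨Du, hDu⟩ : ∃ Du : Place L F →₀ ℤ, ∀ P', Du P' = P'.ord (u : F) :=
      ⟨Finsupp.ofSupportFinite (fun P' => P'.ord (u : F)) (h.fin _ huF), fun _ => rfl⟩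
    have huT := huD Du hDu
    -- the tube sums of the divisor of `u`
    have hSu : tsum {P' | P' ∈ T ∧ r P' = Q} Du = if r P = Q then 1 else 0 := by
      rw [tsum_congr _ (D₂ := Finsupp.single P 1), tsum_single]
      · by_cases hQ' : r P = Q
        · rw [if_pos hQ', if_pos ⟨hP, hQ'⟩]
        · rw [if_neg hQ', if_neg (fun hh => hQ' hh.2)]
      · intro P' hP'
        rw [huT P' hP'.1, Finsupp.single_apply]
        by_cases hji : P' = P
        · rw [if_pos hji, if_pos hji.symm]
        · rw [if_neg hji, if_neg (fun h => hji h.symm)]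
    have hQu : Q.ord (red u) = if r P = Q then 1 else 0 := by
      rw [huQ Q hQ]
      by_cases hQ' : r P = Q
      · rw [if_pos hQ', if_pos hQ'.symm]
      · rw [if_neg hQ', if_neg (fun hh => hQ' hh.symm)]
    obtain ⟨ū, hū⟩ := h.isUnit u hured0
    rcases lt_or_gt_of_ne hDP with hneg | hpos
    · -- a pole at `P`: multiply by `u`
      have hw0 : red (y * u) ≠ 0 := by
        rw [map_mul]; exact mul_ne_zero hy0 hured0
      have hDw : ∀ P', (D + Du) P' = P'.ord ((y * u : Ow) : F) := by
        intro P'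
        have : ((y * u : Ow) : F) = (y : F) * (u : F) := rfl
        rw [this, P'.ord_mul hyF huF, Finsupp.add_apply, hD, hDu]
      have hmass' : tsum T ((D + Du).mapRange Int.natAbs Int.natAbs_zero) = n := by
        have := mass_step T (D := D) (D' := D + Du) hP (fun j hj => by
          rw [Finsupp.add_apply, huT j hj]
          by_cases hji : j = P
          · rw [if_pos hji, if_pos hji]
            subst hji
            omega
          · rw [if_neg hji, if_neg hji, add_zero, add_zero])
        omega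
      have := ih (y * u) hw0 (D + Du) hDw hmass' Q hQ
      rw [map_add, hSu, map_mul, Q.ord_mul hy0 hured0, hQu] at this
      linarith
    · -- a zero at `P`: divide by `u`
      have hinvF : ((↑ū⁻¹ : Ow) : F) = (u : F)⁻¹ := by
        have h1 : u * (↑ū⁻¹ : Ow) = 1 := by rw [← hū]; exact Units.mul_inv ū
        have h2 : (u : F) * ((↑ū⁻¹ : Ow) : F) = 1 := by
          have := congrArg (Subtype.val) h1
          simpa using this
        exact eq_inv_of_mul_eq_one_right h2
      have hinvr : red (↑ū⁻¹ : Ow) = (red u)⁻¹ := by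
        have h1 : u * (↑ū⁻¹ : Ow) = 1 := by rw [← hū]; exact Units.mul_inv ū
        have h2 : red u * red (↑ū⁻¹ : Ow) = 1 := by rw [← map_mul, h1, map_one]
        exact eq_inv_of_mul_eq_one_right h2
      have hw0 : red (y * (↑ū⁻¹ : Ow)) ≠ 0 := by
        rw [map_mul, hinvr]; exact mul_ne_zero hy0 (inv_ne_zero hured0)
      have hDw : ∀ P', (D - Du) P' = P'.ord ((y * (↑ū⁻¹ : Ow) : Ow) : F) := by
        intro P'
        have : ((y * (↑ū⁻¹ : Ow) : Ow) : F) = (y : F) * (u : F)⁻¹ := by
          rw [← hinvF]; rfl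
        rw [this, P'.ord_mul hyF (inv_ne_zero huF), P'.ord_inv, Finsupp.sub_apply, hD, hDu]
        ring
      have hmass' : tsum T ((D - Du).mapRange Int.natAbs Int.natAbs_zero) = n := by
        have := mass_step T (D := D) (D' := D - Du) hP (fun j hj => by
          rw [Finsupp.sub_apply, huT j hj]
          by_cases hji : j = P
          · rw [if_pos hji, if_pos hji]
            subst hji
            omega
          · rw [if_neg hji, if_neg hji, add_zero, sub_zero])
        omega
      have := ih (y * (↑ū⁻¹ : Ow)) hw0 (D - Du) hDw hmass' Q hQ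
      rw [map_sub, hSu, map_mul, hinvr, Q.ord_mul hy0 (inv_ne_zero hured0), Q.ord_inv, hQu] at this
      linarith

/-- **The place reduction on a tube**: there is a map `r` from the tube `T` to `Tt` such that for
every `y ∈ Ow` with nonzero reduction and every `Q ∈ Tt`,
`∑_{P ∈ T, r P = Q} ord_P y = ord_Q (red y)`. -/
theorem exists_reduction (h : IsTube A π Ow red T Tt) :
    ∃ r : Place L F → Place k Ft, (∀ P ∈ T, r P ∈ Tt) ∧
      ∀ y : Ow, red y ≠ 0 → ∀ D : Place L F →₀ ℤ, (∀ P, D P = P.ord (y : F)) →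
        ∀ Q ∈ Tt, tsum {P | P ∈ T ∧ r P = Q} D = Q.ord (red y) := by
  obtain ⟨r, hr⟩ := h.exists_isRedMap
  exact ⟨r, fun P hP => (hr P hP).1, fun y hy D hD Q hQ =>
    h.conservation_aux hr _ y hy D hD rfl Q hQ⟩

end IsTube

end Tube

/-! ### Gluing the tubes -/

section Glue

variable {L F k Ft : Type*} [Field L] [Field F] [Algebra L F] [Field k] [Field Ft] [Algebra k Ft]

/-- **The place reduction, glued from tubes.**  If the places of `F` are partitioned into tubes
`T i`, the places of `Ft` into finite sets `Tt i`, and every `(T i, Tt i)` satisfies `IsTube`, then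
there is a map `r` on places with `r_* div(y) = div(red y)` for every `y ∈ Ow` with nonzero
reduction. -/
theorem exists_global_reduction {I : Type*} (A : ValuationSubring L) (π : A →+* k)
    (Ow : ValuationSubring F) (red : Ow →+* Ft)
    (T : I → Set (Place L F)) (Tt : I → Finset (Place k Ft))
    (hT : ∀ P, ∃ i, P ∈ T i) (hTdisj : ∀ i j P, P ∈ T i → P ∈ T j → i = j)
    (hTt : ∀ Q, ∃ i, Q ∈ Tt i) (hTtdisj : ∀ i j Q, Q ∈ Tt i → Q ∈ Tt j → i = j)
    (h : ∀ i, IsTube A π Ow red (T i) (Tt i)) :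
    ∃ r : Place L F → Place k Ft, (∀ i, ∀ P ∈ T i, r P ∈ Tt i) ∧
      ∀ y : Ow, red y ≠ 0 → ∀ D : Place L F →₀ ℤ, (∀ P, D P = P.ord (y : F)) →
        ∀ Q, Finsupp.mapDomain r D Q = Q.ord (red y) := by
  choose ρ hρ using fun i => (h i).exists_reduction
  choose idx hidx using hT
  have hidx_eq : ∀ i P, P ∈ T i → idx P = i := fun i P hP => hTdisj _ _ P (hidx P) hP
  refine ⟨fun P => ρ (idx P) P, fun i P hP => ?_, fun y hy D hD Q => ?_⟩
  · show ρ (idx P) P ∈ Tt i
    rw [hidx_eq i P hP]
    exact (hρ i).1 P hP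
  · obtain ⟨j, hj⟩ := hTt Q
    rw [mapDomain_apply_eq_tsum]
    have hset : {P | ρ (idx P) P = Q} = {P | P ∈ T j ∧ ρ j P = Q} := by
      ext P
      show ρ (idx P) P = Q ↔ P ∈ T j ∧ ρ j P = Q
      constructor
      · intro hPQ
        have h1 := (hρ (idx P)).1 P (hidx P)
        rw [hPQ] at h1
        have h2 : idx P = j := hTtdisj _ _ Q h1 hj
        rw [h2] at hPQ
        exact ⟨h2 ▸ hidx P, hPQ⟩
      · rintro ⟨hPT, hPQ⟩
        rw [hidx_eq j P hPT]
        exact hPQ
    rw [hset]
    exact (hρ j).2 y hy D hD Q hj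

end Glue

end Fermat.Agent.Lib.Red.PlaceRed
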