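/-
ESJ / RED (V4, abstract): the semi-local form `O_γ = S_γ⁻¹ R` on a tube, and the two tube
hypotheses `ev`, `red_reg` of `PlaceRed.IsTube`.

Setting: `F/L` and `Ft/k` fields with places, `A ⊆ L` a valuation ring with residue map
`π : A → k`, `O` a valuation ring of `F` with residue map `red : O → Ft`, `t ∈ O` a chart function
(`Orth.Setting t A O`).  The *tube* of `γ ∈ k` is the set of places `P` of `F` at which `t` takes
a value `a ∈ A` with `π a = γ`.

* `exists_clearing` : a function `f ∈ O` regular on the tube of `γ` is `g / s(t)` with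
  `s ∈ A[X]`, `s̄(γ) ≠ 0` and `g` integral over `A[t]`;
* `evK_of_clearing` : then `f` takes an `A`-integral value at every place of the tube;
* `red_mem_of_clearing` : and `red f` is regular at every place of `Ft` over `t̄ = γ`.
-/
import Mathlib
import Fermat.Agent.Lib.Red.Chart
import Fermat.Agent.Lib.Red.PlaceRedLocal

set_option autoImplicit false

namespace Fermat.Agent.Lib.Red.Tube

open Polynomial AlgebraicCurve Fermat.Agent.S24 Fermat.Agent.Lib.Red.PlaceRed
  Fermat.Agent.Lib.Red.Chart

noncomputable section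

variable {L F k Ft : Type*} [Field L] [Field F] [Algebra L F] [Field k] [Field Ft] [Algebra k Ft]

/-- The tube of `γ` for the chart function `t`: the places at which `t` takes a value in `A`
reducing to `γ`. -/
def tube (A : ValuationSubring L) (π : A →+* k) (t : F) (γ : k) : Set (Place L F) :=
  {P | ∃ a : A, π a = γ ∧ 0 < P.ord (t - algebraMap L F (a : L))}

/-! ### Generalities on places -/

section Gen

variable {K E : Type*} [Field K] [Field E] [Algebra K E]

theorem ne_zero_of_ord_pos (P : Place K E) {f : E} (h : 0 < P.ord f) : f ≠ 0 := by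
  rintro rfl
  rw [Place.ord_zero] at h
  exact lt_irrefl _ h

theorem lt_one_of_ord_pos (P : Place K E) {f : E} (h : 0 < P.ord f) : P.adicValuation f < 1 :=
  (adicValuation_lt_one_iff P (ne_zero_of_ord_pos P h)).mpr h

theorem mem_of_ord_pos (P : Place K E) {f : E} (h : 0 < P.ord f) : f ∈ P.toValuationSubring :=
  mem_of_ord_nonneg P h.le

theorem aeval_mem (P : Place K E) {t : E} (ht : t ∈ P.toValuationSubring) (q : K[X]) :
    Polynomial.aeval t q ∈ P.toValuationSubring := by
  rw [Polynomial.aeval_eq_sum_range]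
  refine sum_mem fun i _ => ?_
  rw [Algebra.smul_def]
  exact mul_mem (P.algebraMap_mem' _) (pow_mem ht i)

theorem lt_one_of_mem_maximalIdeal (P : Place K E) {y : P.toValuationSubring}
    (h : y ∈ IsLocalRing.maximalIdeal P.toValuationSubring) : P.adicValuation (y : E) < 1 := by
  refine lt_of_le_of_ne (P.adicValuation_le_one_of_mem y.2) fun h1 => ?_
  exact h ((P.adicValuation_coe_eq_one_iff y).mp h1)

/-- A nonzero constant plus something small is a unit at `P`. -/
theorem adicValuation_eq_one_of_sub_lt (P : Place K E) {u : E} {c : K} (hc : c ≠ 0)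
    (h : P.adicValuation (u - algebraMap K E c) < 1) : P.adicValuation u = 1 := by
  have h1 : P.adicValuation (algebraMap K E c) = 1 := adicValuation_algebraMap_eq_one P hc
  have h2 : u = algebraMap K E c + (u - algebraMap K E c) := by ring
  rw [h2, Valuation.map_add_eq_of_lt_left _ (by rw [h1]; exact h), h1]

/-- The residue map at a place with residue field the constant field. -/
theorem exists_resHom (P : Place K E)
    (hres : ∀ y : P.toValuationSubring, ∃ c : K,
      y - algebraMap K P.toValuationSubring c ∈ IsLocalRing.maximalIdeal P.toValuationSubring) :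
    ∃ ev : P.toValuationSubring →+* K, ∀ y : P.toValuationSubring,
      P.adicValuation ((y : E) - algebraMap K E (ev y)) < 1 := by
  let ι : K →+* IsLocalRing.ResidueField P.toValuationSubring :=
    (IsLocalRing.residue P.toValuationSubring).comp (algebraMap K P.toValuationSubring)
  have hsurj : Function.Surjective ι := by
    intro z
    obtain ⟨y, rfl⟩ := IsLocalRing.residue_surjective z
    obtain ⟨c, hc⟩ := hres y
    refine ⟨c, ?_⟩
    show IsLocalRing.residue _ (algebraMap K _ c) = IsLocalRing.residue _ y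
    symm
    rw [← sub_eq_zero, ← map_sub, IsLocalRing.residue_eq_zero_iff]
    exact hc
  let e := RingEquiv.ofBijective ι ⟨ι.injective, hsurj⟩
  refine ⟨e.symm.toRingHom.comp (IsLocalRing.residue _), fun y => ?_⟩
  have h1 : IsLocalRing.residue _
      (y - algebraMap K P.toValuationSubring (e.symm (IsLocalRing.residue _ y))) = 0 := by
    rw [map_sub, sub_eq_zero]
    exact (e.apply_symm_apply _).symm
  exact lt_one_of_mem_maximalIdeal P ((IsLocalRing.residue_eq_zero_iff _).mp h1)

/-- An element integral over `K[t]` is regular at every place at which `t` is regular. -/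
theorem mem_of_isIntegral_adjoin (P : Place K E) {t : E} (ht : t ∈ P.toValuationSubring) {z : E}
    (hz : IsIntegral ↥(Algebra.adjoin K {t}) z) : z ∈ P.toValuationSubring := by
  obtain ⟨f, hf, hfz⟩ := hz
  have hle : ∀ c : ↥(Algebra.adjoin K {t}), (c : E) ∈ P.toValuationSubring := by
    rintro ⟨c, hc⟩
    rw [Algebra.adjoin_singleton_eq_range_aeval] at hc
    obtain ⟨q, rfl⟩ := hc
    exact aeval_mem P ht q
  let φ : ↥(Algebra.adjoin K {t}) →+* P.toValuationSubring :=
    (algebraMap ↥(Algebra.adjoin K {t}) E).codRestrict P.toValuationSubring hle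
  have hz' : IsIntegral P.toValuationSubring z := by
    refine ⟨f.map φ, hf.map _, ?_⟩
    rw [Polynomial.eval₂_map]
    exact hfz
  obtain ⟨w, hw⟩ := IsIntegrallyClosed.isIntegral_iff.mp hz'
  rw [← hw]
  exact w.2

end Gen

/-! ### Clearing denominators on a tube -/

section Clear

variable {A : ValuationSubring L} {π : A →+* k} {O : ValuationSubring F} {t : F}

/-- At a place `P` outside the tube of `γ` at which `t` is regular, there is `lam ∈ A[X]` with
`lam̄(γ) ≠ 0` and `lam(t)` vanishing at `P`. -/
theorem exists_factor (hπ : ∀ a : A, ¬ IsUnit a → π a = 0) (γ : k) (P : Place L F)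
    (hP : P ∉ tube A π t γ) (c : L) (hc : 0 < P.ord (t - algebraMap L F c)) :
    ∃ lam : Polynomial A, (lam.map π).eval γ ≠ 0 ∧
      0 < P.ord (Polynomial.aeval t (lam.map A.subtype)) := by
  by_cases hcA : c ∈ A
  · refine ⟨Polynomial.X - Polynomial.C ⟨c, hcA⟩, ?_, ?_⟩
    · rw [Polynomial.map_sub, Polynomial.map_X, Polynomial.map_C, Polynomial.eval_sub,
        Polynomial.eval_X, Polynomial.eval_C]
      intro h0
      exact hP ⟨⟨c, hcA⟩, (sub_eq_zero.mp h0).symm, hc⟩
    · rw [Polynomial.map_sub, Polynomial.map_X, Polynomial.map_C, map_sub, Polynomial.aeval_X,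
        Polynomial.aeval_C]
      exact hc
  · have hinv : c⁻¹ ∈ A := (A.mem_or_inv_mem c).resolve_left hcA
    have hc0 : c ≠ 0 := fun h => hcA (h ▸ A.zero_mem)
    have hnu : ¬ IsUnit (⟨c⁻¹, hinv⟩ : A) := by
      intro hu
      obtain ⟨b, hb⟩ := hu.exists_right_inv
      have hb' : c⁻¹ * (b : L) = 1 := congrArg Subtype.val hb
      have : (b : L) = c := by
        have h2 := eq_inv_of_mul_eq_one_right hb'
        rw [inv_inv] at h2
        exact h2
      exact hcA (this ▸ b.2)
    refine ⟨1 - Polynomial.C ⟨c⁻¹, hinv⟩ * Polynomial.X, ?_, ?_⟩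
    · rw [Polynomial.map_sub, Polynomial.map_one, Polynomial.map_mul, Polynomial.map_C,
        Polynomial.map_X, Polynomial.eval_sub, Polynomial.eval_one, Polynomial.eval_mul,
        Polynomial.eval_C, Polynomial.eval_X, hπ _ hnu, zero_mul, sub_zero]
      exact one_ne_zero
    · rw [Polynomial.map_sub, Polynomial.map_one, Polynomial.map_mul, Polynomial.map_C,
        Polynomial.map_X, map_sub, map_one, map_mul, Polynomial.aeval_C, Polynomial.aeval_X]
      have h1 : (1 : F) - algebraMap L F (A.subtype ⟨c⁻¹, hinv⟩) * t =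
          algebraMap L F (-c⁻¹) * (t - algebraMap L F c) := by
        have h2 : A.subtype ⟨c⁻¹, hinv⟩ = c⁻¹ := rfl
        have e2 : algebraMap L F c⁻¹ * algebraMap L F c = 1 := by
          rw [← map_mul, inv_mul_cancel₀ hc0, map_one]
        rw [h2, map_neg]
        linear_combination (-1 : F) * e2
      have h3 : algebraMap L F (-c⁻¹) ≠ 0 := by
        rw [Ne, map_eq_zero, neg_eq_zero, inv_eq_zero]
        exact hc0
      rw [h1, Place.ord_mul P h3 (ne_zero_of_ord_pos P hc), ord_algebraMap, zero_add]
      exact hc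

/-- **V4.**  A function of `O` regular on the tube of `γ` becomes integral over `A[t]` after
multiplication by some `s(t)`, `s ∈ A[X]` with `s̄(γ) ≠ 0`. -/
theorem exists_clearing (hS : Orth.Setting t A O.toSubring)
    (hπ : ∀ a : A, ¬ IsUnit a → π a = 0)
    (hval : ∀ P : Place L F, 0 ≤ P.ord t → ∃ c : L, 0 < P.ord (t - algebraMap L F c))
    (hfin : ∀ y : F, y ≠ 0 → {P : Place L F | P.ord y ≠ 0}.Finite)
    (hholo : ∀ y : F, (∀ P : Place L F, 0 ≤ P.ord t → 0 ≤ P.ord y) →
      IsIntegral ↥(Algebra.adjoin L {t}) y)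
    (hlemA : ∀ y : F, y ∈ O → IsIntegral ↥(Algebra.adjoin L {t}) y →
      IsIntegral ↥(polyRing A t) y)
    (γ : k) (f : F) (hfO : f ∈ O) (hf : RegOn (tube A π t γ) f) :
    ∃ s : Polynomial A, (s.map π).eval γ ≠ 0 ∧
      IsIntegral ↥(polyRing A t) (Polynomial.aeval t (s.map A.subtype) * f) := by
  classical
  by_cases hf0 : f = 0
  · refine ⟨1, ?_, ?_⟩
    · rw [Polynomial.map_one, Polynomial.eval_one]
      exact one_ne_zero
    · rw [hf0, mul_zero]
      exact isIntegral_zero
  -- the poles of `f` at places where `t` is regular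
  set Z : Finset (Place L F) :=
    (hfin f hf0).toFinset.filter (fun P => P.ord f < 0 ∧ 0 ≤ P.ord t) with hZ
  have hZmem : ∀ P : Place L F, P ∈ Z ↔ P.ord f < 0 ∧ 0 ≤ P.ord t := by
    intro P
    rw [hZ, Finset.mem_filter, Set.Finite.mem_toFinset]
    constructor
    · exact fun h => h.2
    · exact fun h => ⟨ne_of_lt h.1, h⟩
  have key : ∀ P : Place L F, ∃ lam : Polynomial A, (lam.map π).eval γ ≠ 0 ∧
      (P ∈ Z → 0 < P.ord (Polynomial.aeval t (lam.map A.subtype))) := by
    intro P
    by_cases hPZ : P ∈ Z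
    · obtain ⟨hneg, ht⟩ := (hZmem P).mp hPZ
      have hPT : P ∉ tube A π t γ := fun hPT =>
        absurd (ord_nonneg_of_mem P (hf P hPT)) (not_le.mpr hneg)
      obtain ⟨c, hc⟩ := hval P ht
      obtain ⟨lam, h1, h2⟩ := exists_factor hπ γ P hPT c hc
      exact ⟨lam, h1, fun _ => h2⟩
    · exact ⟨1, by rw [Polynomial.map_one, Polynomial.eval_one]; exact one_ne_zero,
        fun h => absurd h hPZ⟩
  choose lam hlam1 hlam2 using key
  set s : Polynomial A := ∏ P ∈ Z, lam P ^ (-P.ord f).toNat with hs
  refine ⟨s, ?_, ?_⟩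
  · rw [hs, Polynomial.map_prod, Polynomial.eval_prod]
    refine Finset.prod_ne_zero_iff.mpr fun P _ => ?_
    rw [Polynomial.map_pow, Polynomial.eval_pow]
    exact pow_ne_zero _ (hlam1 P)
  · have hsO : Polynomial.aeval t (s.map A.subtype) ∈ O := hS.aeval_map_mem s
    refine hlemA _ (O.mul_mem _ _ hsO hfO) (hholo _ fun P' hP't => ?_)
    have htP' : t ∈ P'.toValuationSubring := mem_of_ord_nonneg P' hP't
    apply ord_nonneg_of_mem
    by_cases hP'Z : P' ∈ Z
    · -- split off the factor at `P'`
      have hsplit : s = lam P' ^ (-P'.ord f).toNat *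
          ∏ P ∈ Z.erase P', lam P ^ (-P.ord f).toNat := by
        rw [hs, ← Finset.mul_prod_erase Z _ hP'Z]
      have h1 : Polynomial.aeval t (s.map A.subtype) * f =
          Polynomial.aeval t ((∏ P ∈ Z.erase P', lam P ^ (-P.ord f).toNat).map A.subtype) *
            (Polynomial.aeval t ((lam P').map A.subtype) ^ (-P'.ord f).toNat * f) := by
        rw [hsplit, Polynomial.map_mul, map_mul, Polynomial.map_pow, map_pow]
        ring
      rw [h1]
      refine mul_mem (aeval_mem P' htP' _) ?_
      have hu := hlam2 P' hP'Z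
      have hu0 := ne_zero_of_ord_pos P' hu
      apply mem_of_ord_nonneg
      have hneg := ((hZmem P').mp hP'Z).1
      rw [Place.ord_mul P' (pow_ne_zero _ hu0) hf0]
      have hpow : ∀ n : ℕ, (n : ℤ) ≤
          P'.ord (Polynomial.aeval t ((lam P').map A.subtype) ^ n) := by
        intro n
        induction n with
        | zero => simp
        | succ n ih =>
          rw [pow_succ, Place.ord_mul P' (pow_ne_zero _ hu0) hu0]
          push_cast
          omega
      have h2 := hpow (-P'.ord f).toNat
      have h3 : ((-P'.ord f).toNat : ℤ) = -P'.ord f := Int.toNat_of_nonneg (by omega)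
      omega
    · refine mul_mem (aeval_mem P' htP' _) ?_
      apply mem_of_ord_nonneg
      by_contra hneg
      exact hP'Z ((hZmem P').mpr ⟨not_le.mp hneg, hP't⟩)

end Clear

/-! ### Values on the tube -/

section Ev

variable {A : ValuationSubring L} {π : A →+* k} {t : F}

/-- On the tube of `γ`, `p(t)` takes the value `p̄(γ)`. -/
theorem evK_aeval (γ : k) (P : Place L F) (hP : P ∈ tube A π t γ) (p : Polynomial A) :
    EvK A π P (Polynomial.aeval t (p.map A.subtype)) ((p.map π).eval γ) := by
  obtain ⟨a, ha, hord⟩ := hP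
  have ht : EvK A π P t γ := ⟨a, ha, lt_one_of_ord_pos P hord⟩
  have hpow : ∀ n : ℕ, EvK A π P (t ^ n) (γ ^ n) := by
    intro n
    induction n with
    | zero => simpa using EvK.one (A := A) (π := π) P
    | succ n ih =>
      rw [pow_succ, pow_succ]
      exact ih.mul ht
  induction p using Polynomial.induction_on' with
  | add p q hp hq =>
    rw [Polynomial.map_add, map_add, Polynomial.map_add, Polynomial.eval_add]
    exact hp.add hq
  | monomial n b =>
    rw [Polynomial.map_monomial, Polynomial.aeval_monomial, Polynomial.map_monomial,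
      Polynomial.eval_monomial]
    exact (EvK.const P b).mul (hpow n)

/-- **Values on the tube are `A`-integral.**  If `s(t)·f` is integral over `A[t]` with
`s̄(γ) ≠ 0`, then `f` takes a value in `A` at every place of the tube of `γ` at which it is
regular. -/
theorem evK_of_clearing (hπ : ∀ a : A, ¬ IsUnit a → π a = 0) (γ : k) (P : Place L F)
    (hP : P ∈ tube A π t γ)
    (hres : ∀ y : P.toValuationSubring, ∃ c : L,
      y - algebraMap L P.toValuationSubring c ∈ IsLocalRing.maximalIdeal P.toValuationSubring)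
    (f : F) (hfP : f ∈ P.toValuationSubring) (s : Polynomial A) (hs : (s.map π).eval γ ≠ 0)
    (hg : IsIntegral ↥(polyRing A t) (Polynomial.aeval t (s.map A.subtype) * f)) :
    ∃ c : k, EvK A π P f c := by
  obtain ⟨ev, hev⟩ := exists_resHom P hres
  -- `A[t]` lies in the valuation ring of `P`, with residues in `A`
  have hle : polyRing A t ≤ P.toValuationSubring.toSubring := by
    rintro z ⟨p, rfl⟩
    exact (evK_aeval γ P hP p).mem
  have hevA : ∀ c : ↥(polyRing A t), ev ⟨(c : F), hle c.2⟩ ∈ A := by
    rintro ⟨c, hc⟩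
    obtain ⟨p, hp⟩ := mem_polyRing_iff.mp hc
    obtain ⟨a, -, ha⟩ := evK_aeval (π := π) γ P hP p
    rw [hp] at ha
    have h1 := hev ⟨c, hle hc⟩
    have h2 : P.adicValuation (algebraMap L F ((a : L) - ev ⟨c, hle hc⟩)) < 1 := by
      have : algebraMap L F ((a : L) - ev ⟨c, hle hc⟩) =
          (c - algebraMap L F (ev ⟨c, hle hc⟩)) - (c - algebraMap L F (a : L)) := by
        rw [map_sub]
        ring
      rw [this]
      exact P.adicValuation.map_sub_lt h1 ha
    have h3 : (a : L) - ev ⟨c, hle hc⟩ = 0 := by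
      by_contra hne
      rw [adicValuation_algebraMap_eq_one P hne] at h2
      exact lt_irrefl _ h2
    rw [← sub_eq_zero.mp h3]
    exact a.2
  -- the residue of `g = s(t) f` is integral over `A`, hence lies in `A`
  set g : F := Polynomial.aeval t (s.map A.subtype) * f with hgdef
  have hsP : Polynomial.aeval t (s.map A.subtype) ∈ P.toValuationSubring :=
    (evK_aeval (π := π) γ P hP s).mem
  have hgP : g ∈ P.toValuationSubring := mul_mem hsP hfP
  have hgA : ev ⟨g, hgP⟩ ∈ A := by
    obtain ⟨f₀, hf₀, hf₀g⟩ := hg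
    let ψ : ↥(polyRing A t) →+* P.toValuationSubring := Subring.inclusion hle
    let φ : ↥(polyRing A t) →+* A := (ev.comp ψ).codRestrict A hevA
    have hint : IsIntegral A (ev ⟨g, hgP⟩) := by
      refine ⟨f₀.map φ, hf₀.map _, ?_⟩
      rw [Polynomial.eval₂_map]
      have h1 : (algebraMap A L).comp φ = ev.comp ψ := rfl
      rw [h1, ← Polynomial.hom_eval₂]
      have h2 : f₀.eval₂ ψ ⟨g, hgP⟩ = 0 := by
        apply Subtype.ext
        have h3 := Polynomial.hom_eval₂ f₀ ψ P.toValuationSubring.subtype ⟨g, hgP⟩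
        exact h3.trans hf₀g
      rw [h2, map_zero]
    obtain ⟨w, hw⟩ := IsIntegrallyClosed.isIntegral_iff.mp hint
    rw [← hw]
    exact w.2
  have hgEv : P.adicValuation (g - algebraMap L F (ev ⟨g, hgP⟩)) < 1 := hev ⟨g, hgP⟩
  -- divide by `s(t)`
  obtain ⟨as, has, hasv⟩ := evK_aeval (π := π) γ P hP s
  have hasu : IsUnit as := by
    by_contra hnu
    exact hs (has ▸ hπ as hnu)
  obtain ⟨bs, hbs⟩ := hasu.exists_right_inv
  have hbs' : (as : L) * (bs : L) = 1 := congrArg Subtype.val hbs
  have has0 : (as : L) ≠ 0 := left_ne_zero_of_mul_eq_one hbs'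
  refine ⟨π (⟨ev ⟨g, hgP⟩, hgA⟩ * bs), ⟨ev ⟨g, hgP⟩, hgA⟩ * bs, rfl, ?_⟩
  have h1 : f - algebraMap L F (((⟨ev ⟨g, hgP⟩, hgA⟩ * bs : A)) : L) =
      algebraMap L F (bs : L) * ((g - algebraMap L F (ev ⟨g, hgP⟩)) -
        f * (Polynomial.aeval t (s.map A.subtype) - algebraMap L F (as : L))) := by
    have e : (((⟨ev ⟨g, hgP⟩, hgA⟩ * bs : A)) : L) = ev ⟨g, hgP⟩ * (bs : L) := rfl
    have e2 : algebraMap L F (as : L) * algebraMap L F (bs : L) = 1 := by
      rw [← map_mul, hbs', map_one]
    rw [e, map_mul]
    linear_combination (-(algebraMap L F (bs : L))) * hgdef + (-f) * e2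
  rw [h1, map_mul]
  refine Right.mul_lt_one_of_le_of_lt (P.adicValuation_algebraMap_le_one _) ?_
  refine P.adicValuation.map_sub_lt hgEv ?_
  rw [map_mul]
  exact Right.mul_lt_one_of_le_of_lt (P.adicValuation_le_one_of_mem hfP) hasv

end Ev

/-! ### Regularity of the reduction -/

section RedReg

variable {A : ValuationSubring L} {π : A →+* k} {O : ValuationSubring F} {red : O →+* Ft}
  {t : F}

/-- **The reduction is regular over `γ`.**  If `s(t)·f` is integral over `A[t]` with
`s̄(γ) ≠ 0`, then `red f` is regular at every place `Q` with `t̄(Q) = γ`. -/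
theorem red_mem_of_clearing (hR : RedData A π O red) (hS : Orth.Setting t A O.toSubring) (γ : k)
    (Q : Place k Ft) (hQ : 0 < Q.ord (red ⟨t, hS.hx⟩ - algebraMap k Ft γ))
    (f : O) (s : Polynomial A) (hs : (s.map π).eval γ ≠ 0)
    (hg : IsIntegral ↥(polyRing A t) (Polynomial.aeval t (s.map A.subtype) * (f : F))) :
    red f ∈ Q.toValuationSubring := by
  set tt : Ft := red ⟨t, hS.hx⟩ with htt
  have httQ : tt ∈ Q.toValuationSubring := by
    have h1 : tt = (tt - algebraMap k Ft γ) + algebraMap k Ft γ := by ring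
    rw [h1]
    exact add_mem (mem_of_ord_pos Q hQ) (Q.algebraMap_mem' γ)
  -- the reduction of `g = s(t) f`
  have hgO : IsIntegral ↥(polyRing A t) (((hR.evalO hS.hx s * f : O)) : F) := by
    have e : (((hR.evalO hS.hx s * f : O)) : F) =
        Polynomial.aeval t (s.map A.subtype) * (f : F) := by
      rw [← hR.coe_evalO hS.hx s]
      rfl
    rw [e]
    exact hg
  have h1 := isIntegral_red hR hS _ hgO
  have h2 : red (hR.evalO hS.hx s * f) ∈ Q.toValuationSubring :=
    mem_of_isIntegral_adjoin Q httQ h1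
  rw [map_mul, hR.red_evalO] at h2
  -- `s̄(t̄)` is a unit at `Q`
  set u : Ft := Polynomial.aeval tt (s.map π) with hu
  have hdvd : Polynomial.X - Polynomial.C γ ∣ s.map π - Polynomial.C ((s.map π).eval γ) := by
    rw [Polynomial.dvd_iff_isRoot, Polynomial.IsRoot, Polynomial.eval_sub, Polynomial.eval_C,
      sub_self]
  obtain ⟨q, hq⟩ := hdvd
  have h3 : u - algebraMap k Ft ((s.map π).eval γ) =
      (tt - algebraMap k Ft γ) * Polynomial.aeval tt q := by
    have h4 := congrArg (Polynomial.aeval tt) hq
    rw [map_sub, Polynomial.aeval_C, map_mul, map_sub, Polynomial.aeval_X,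
      Polynomial.aeval_C] at h4
    exact h4
  have h5 : Q.adicValuation (u - algebraMap k Ft ((s.map π).eval γ)) < 1 := by
    rw [h3, map_mul]
    exact mul_lt_one_of_lt_of_le (lt_one_of_ord_pos Q hQ)
      (Q.adicValuation_le_one_of_mem (aeval_mem Q httQ q))
  have h6 : Q.adicValuation u = 1 := adicValuation_eq_one_of_sub_lt Q hs h5
  have h7 : Q.adicValuation (u * red f) ≤ 1 := Q.adicValuation_le_one_of_mem h2
  rw [map_mul, h6, one_mul] at h7
  exact (adicValuation_le_one_iff_mem Q).mp h7

end RedReg

end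

end Fermat.Agent.Lib.Red.Tube
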