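/-
helper86 — RED-DISC, the two charts in instance-free form.

Setting: `F / L`, `E / k` fields, `x : F`, `xt : E`, a valuation subring `O` of `F` with
residue map `red : O →+* E`, a valuation subring `O₀` of `L⟮x⟯` with `red₀ : O₀ →+* k⟮xt⟯`.
A *chart* is a pair of generators `g : L⟮x⟯`, `gt : k⟮xt⟯` (in practice `(x, xt)` or
`(x⁻¹, xt⁻¹)`); the polynomial rings act through `X ↦ g`, `X ↦ gt` (`Lib/FF/PolyChart`).

* `IsGaussAt A π O₀ red₀ g gt` : the Gauss property for the chart `(g, gt)`, instance-free;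
  `IsGaussAt.isGauss` : it is `Disc.IsGauss` for the `PolyChart` algebra structures;
* `IsGaussAt.inv` : the Gauss property for `(g, gt)` implies it for `(g⁻¹, gt⁻¹)` if `g⁻¹ ∈ O₀`;
* `exists_goodBasis_inv` : a good basis integral over `L[x]` can be rescaled to a good basis
  integral over `L[x⁻¹]`;
* `lift_chart` : `DiscPlace.lift_regular` for the chart `(g, gt)` — T3 in place form, no
  instance arguments left;
* `lift_gen`, `lift_inv` : the two charts `(x, xt)` (T3) and `(x⁻¹, xt⁻¹)` (T3′).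
-/
import Mathlib
import Fermat.Agent.Lib.FF.PolyChart
import Fermat.Agent.Lib.Red.DiscMain
import Fermat.Agent.Lib.Red.DiscPlace
import Fermat.Agent.Lib.Red.BaseData
import Fermat.Agent.Lib.RedK.OrthChart

set_option autoImplicit false
set_option linter.style.haveILetI false
set_option linter.unusedSectionVars false

namespace Fermat.Agent.Lib.Red.DiscInv

open Polynomial Module AlgebraicCurve IntermediateField
open Fermat.Agent.Lib.Red.Ortho Fermat.Agent.Lib.Red.Disc Fermat.Agent.Lib.FF.PolyChart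

noncomputable section

variable {L k : Type*} [Field L] [Field k] {F E : Type*} [Field F] [Field E]
  [Algebra L F] [Algebra k E] {x : F} {xt : E}
  {O : ValuationSubring F} {red : O →+* E}
  {O₀ : ValuationSubring L⟮x⟯} {red₀ : O₀ →+* k⟮xt⟯}
  {A : ValuationSubring L} {π : A →+* k}

/-- The Gauss property of `(O₀, red₀)` for the chart `(g, gt)`, in instance-free form. -/
structure IsGaussAt (A : ValuationSubring L) (π : A →+* k) (O₀ : ValuationSubring L⟮x⟯)
    (red₀ : O₀ →+* k⟮xt⟯) (g : L⟮x⟯) (gt : k⟮xt⟯) : Prop where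
  mem : ∀ p : A[X], aeval g (p.map A.subtype) ∈ O₀
  red : ∀ (p : A[X]) (h : aeval g (p.map A.subtype) ∈ O₀), red₀ ⟨_, h⟩ = aeval gt (p.map π)
  coeff : ∀ p : L[X], aeval g p ∈ O₀ → ∀ i, p.coeff i ∈ A

namespace IsGaussAt

variable {g : L⟮x⟯} {gt : k⟮xt⟯}

/-- `IsGaussAt` is `Disc.IsGauss` for the chart algebra structures. -/
theorem isGauss (h : IsGaussAt A π O₀ red₀ g gt) :
    letI := algK L x g
    letI := algK k xt gt
    IsGauss A π O₀ red₀ := by
  letI := algK L x g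
  letI := algK k xt gt
  exact ⟨h.mem, h.red, h.coeff⟩

theorem g_mem (h : IsGaussAt A π O₀ red₀ g gt) : g ∈ O₀ := by
  have h1 := h.mem X
  rwa [Polynomial.map_X, aeval_X] at h1

theorem red_g (h : IsGaussAt A π O₀ red₀ g gt) : red₀ ⟨g, h.g_mem⟩ = gt := by
  have h1 : aeval g ((X : A[X]).map A.subtype) ∈ O₀ := h.mem X
  have h2 := h.red X h1
  have e : (⟨g, h.g_mem⟩ : O₀) = ⟨aeval g ((X : A[X]).map A.subtype), h1⟩ := by
    apply Subtype.ext
    show g = aeval g ((X : A[X]).map A.subtype)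
    rw [Polynomial.map_X, aeval_X]
  rw [e, h2, Polynomial.map_X, aeval_X]

/-- The Gauss property for the inverse chart. -/
theorem inv (h : IsGaussAt A π O₀ red₀ g gt) (hg : g⁻¹ ∈ O₀) :
    IsGaussAt A π O₀ red₀ g⁻¹ gt⁻¹ := by
  by_cases hg0 : g = 0
  · -- degenerate case: `g = 0`, then `gt = 0` and the statement is `h`
    have h1 := h.red_g
    have h2 : (⟨g, h.g_mem⟩ : O₀) = 0 := Subtype.ext hg0
    rw [h2, map_zero] at h1
    subst hg0
    rw [← h1, inv_zero, inv_zero]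
    rw [← h1] at h
    exact h
  have huv : (⟨g, h.g_mem⟩ : O₀) * ⟨g⁻¹, hg⟩ = 1 := Subtype.ext (mul_inv_cancel₀ hg0)
  have hred1 : gt * red₀ ⟨g⁻¹, hg⟩ = 1 := by
    rw [← h.red_g, ← map_mul, huv, map_one]
  have hgt0 : gt ≠ 0 := left_ne_zero_of_mul_eq_one hred1
  have hredv : red₀ ⟨g⁻¹, hg⟩ = gt⁻¹ := eq_inv_of_mul_eq_one_right hred1
  have hmemA : ∀ p : A[X], aeval g⁻¹ (p.map A.subtype) =
      g⁻¹ ^ p.natDegree * aeval g ((p.reflect p.natDegree).map A.subtype) := by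
    intro p
    rw [Fermat.Agent.Lib.RedK.OrthChart.aeval_inv_eq hg0 p.natDegree _ natDegree_map_le,
      reflect_map]
  refine ⟨fun p => ?_, fun p hp => ?_, fun p hp i => ?_⟩
  · rw [hmemA p]
    exact O₀.mul_mem _ _ (pow_mem hg _) (h.mem _)
  · have e : (⟨aeval g⁻¹ (p.map A.subtype), hp⟩ : O₀) =
        (⟨g⁻¹, hg⟩ : O₀) ^ p.natDegree *
          ⟨aeval g ((p.reflect p.natDegree).map A.subtype), h.mem _⟩ :=
      Subtype.ext (hmemA p)
    rw [e, map_mul, map_pow, hredv, h.red,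
      Fermat.Agent.Lib.RedK.OrthChart.aeval_inv_eq hgt0 p.natDegree _ natDegree_map_le,
      reflect_map]
  · have e : aeval g (p.reflect p.natDegree) = g ^ p.natDegree * aeval g⁻¹ p := by
      rw [Fermat.Agent.Lib.RedK.OrthChart.aeval_inv_eq hg0 p.natDegree p le_rfl, ← mul_assoc,
        ← mul_pow, mul_inv_cancel₀ hg0, one_pow, one_mul]
    have h1 : aeval g (p.reflect p.natDegree) ∈ O₀ := by
      rw [e]
      exact O₀.mul_mem _ _ (pow_mem h.g_mem _) hp
    have h2 := h.coeff _ h1 (revAt p.natDegree i)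
    rwa [coeff_reflect, revAt_invol] at h2

end IsGaussAt

/-! ### Integral good bases for the inverse chart -/

theorem algebraMap_genInv_pow (m : ℕ) :
    algebraMap L⟮x⟯ F ((gen L x)⁻¹ ^ m) = x⁻¹ ^ m := by
  rw [map_pow, map_inv₀]
  rfl

/-- A good basis of functions integral over `L[x]` can be rescaled (by powers of `x⁻¹`, a unit
of `O₀`) to a good basis of functions integral over `L[x⁻¹]`. -/
theorem exists_goodBasis_inv {ι : Type*} [Fintype ι] (G : GoodBasis O red O₀ red₀ ι)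
    (hx0 : x ≠ 0) (hmem : (gen L x)⁻¹ ∈ O₀) (hred : red₀ ⟨(gen L x)⁻¹, hmem⟩ ≠ 0)
    (hint : ∀ i, IsIntegral (Algebra.adjoin L ({x} : Set F)) ((G.b i : O) : F)) :
    ∃ G' : GoodBasis O red O₀ red₀ ι,
      ∀ i, IsIntegral (Algebra.adjoin L ({x⁻¹} : Set F)) ((G'.b i : O) : F) := by
  choose m hm using fun i => Fermat.Agent.Lib.RedK.OrthChart.isIntegral_inv_pow_mul hx0 (hint i)
  refine ⟨OrthoInter.scale G (fun i => (⟨(gen L x)⁻¹, hmem⟩ : O₀) ^ m i)
    (fun i => by rw [map_pow]; exact pow_ne_zero _ hred), fun i => ?_⟩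
  rw [OrthoInter.scale_b]
  have e : algebraMap L⟮x⟯ F (((⟨(gen L x)⁻¹, hmem⟩ : O₀) ^ m i : O₀) : L⟮x⟯) = x⁻¹ ^ m i :=
    algebraMap_genInv_pow (m i)
  rw [e]
  exact hm i

/-! ### T3 for a chart -/

/-- **T3 for the chart `(g, gt)`**, place form, no instance arguments: `DiscPlace.lift_regular`
with the polynomial rings acting through `X ↦ g`, `X ↦ gt`. -/
theorem lift_chart [IsAlgClosed L] [CharZero L] [IsAlgClosed k]
    [Algebra.IsSeparable L⟮x⟯ F] [Algebra.IsSeparable k⟮xt⟯ E]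
    {g : L⟮x⟯} {gt : k⟮xt⟯}
    (hg : Transcendental L (g : F)) (hgen : L⟮(g : F)⟯ = L⟮x⟯)
    (hgt : Transcendental k (gt : E)) (hgent : k⟮(gt : E)⟯ = k⟮xt⟯)
    (hG : IsGaussAt A π O₀ red₀ g gt) {ι : Type*} [Fintype ι] [DecidableEq ι]
    (G : GoodBasis O red O₀ red₀ ι)
    (hint : ∀ i, IsIntegral (Algebra.adjoin L ({(g : F)} : Set F)) ((G.b i : O) : F))
    (hπ : Function.Surjective π)
    (hbr : ∀ γ : k, ∃ c₀ : A, π c₀ = γ ∧ ∀ c : A, π c = γ → c ≠ c₀ →
      ∀ P : Place L F, 0 < P.ord ((g : F) - algebraMap L F (c : L)) →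
        P.ord ((g : F) - algebraMap L F (c : L)) = 1)
    (s : E) (hs : ∀ Q : Place k E, 0 ≤ Q.ord (gt : E) → 0 ≤ Q.ord s) :
    ∃ y : O, red y = s ∧ ∀ P : Place L F, 0 ≤ P.ord (g : F) → 0 ≤ P.ord (y : F) := by
  letI := algK L x g
  letI := algF L x g
  letI := algK k xt gt
  letI := algF k xt gt
  haveI := isScalarTower_algK_algF g
  haveI := isScalarTower_algK_algF gt
  haveI := isFractionRing_algK g hg hgen
  haveI := isFractionRing_algK gt hgt hgent
  have hint' : ∀ i, IsIntegral L[X] ((G.b i : O) : F) := fun i =>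
    (isIntegral_algF_iff g _).2 (hint i)
  obtain ⟨G', hI⟩ := Disc.exists_isIntBasis hG.isGauss G hint'
  exact DiscPlace.lift_regular (g : F) (fun p => rfl) (gt : E) (fun p => rfl) hG.isGauss G' hI
    hπ hbr s hs

/-- **T3** (the chart `x`): every `s` regular where `xt` is regular lifts to some `y : O`
regular where `x` is regular. -/
theorem lift_gen [IsAlgClosed L] [CharZero L] [IsAlgClosed k]
    [Algebra.IsSeparable L⟮x⟯ F] [Algebra.IsSeparable k⟮xt⟯ E]
    (hx : Transcendental L x) (hxt : Transcendental k xt)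
    (hG : IsGaussAt A π O₀ red₀ (gen L x) (gen k xt)) {ι : Type*} [Fintype ι] [DecidableEq ι]
    (G : GoodBasis O red O₀ red₀ ι)
    (hint : ∀ i, IsIntegral (Algebra.adjoin L ({x} : Set F)) ((G.b i : O) : F))
    (hπ : Function.Surjective π)
    (hbr : ∀ γ : k, ∃ c₀ : A, π c₀ = γ ∧ ∀ c : A, π c = γ → c ≠ c₀ →
      ∀ P : Place L F, 0 < P.ord (x - algebraMap L F (c : L)) →
        P.ord (x - algebraMap L F (c : L)) = 1)
    (s : E) (hs : ∀ Q : Place k E, 0 ≤ Q.ord xt → 0 ≤ Q.ord s) :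
    ∃ y : O, red y = s ∧ ∀ P : Place L F, 0 ≤ P.ord x → 0 ≤ P.ord (y : F) :=
  lift_chart (g := gen L x) (gt := gen k xt) hx rfl hxt rfl hG G hint hπ hbr s hs

/-- **T3′** (the chart `x⁻¹`): every `s` regular where `xt⁻¹` is regular lifts to some `y : O`
regular where `x⁻¹` is regular. -/
theorem lift_inv [IsAlgClosed L] [CharZero L] [IsAlgClosed k]
    [Algebra.IsSeparable L⟮x⟯ F] [Algebra.IsSeparable k⟮xt⟯ E]
    (hx : Transcendental L x) (hxt : Transcendental k xt)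
    (hG : IsGaussAt A π O₀ red₀ (gen L x) (gen k xt)) (hmem : (gen L x)⁻¹ ∈ O₀)
    {ι : Type*} [Fintype ι] [DecidableEq ι]
    (G : GoodBasis O red O₀ red₀ ι)
    (hint : ∀ i, IsIntegral (Algebra.adjoin L ({x} : Set F)) ((G.b i : O) : F))
    (hπ : Function.Surjective π)
    (hbr : ∀ γ : k, ∃ c₀ : A, π c₀ = γ ∧ ∀ c : A, π c = γ → c ≠ c₀ →
      ∀ P : Place L F, 0 < P.ord (x⁻¹ - algebraMap L F (c : L)) →
        P.ord (x⁻¹ - algebraMap L F (c : L)) = 1)
    (s : E) (hs : ∀ Q : Place k E, Q.ord xt ≤ 0 → 0 ≤ Q.ord s) :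
    ∃ y : O, red y = s ∧ ∀ P : Place L F, P.ord x ≤ 0 → 0 ≤ P.ord (y : F) := by
  have hx0 : x ≠ 0 := fun h0 => hx (h0 ▸ isAlgebraic_zero)
  have hxt0 : xt ≠ 0 := fun h0 => hxt (h0 ▸ isAlgebraic_zero)
  have hgt0 : gen k xt ≠ 0 := fun h0 => hxt0 (by
    have := congrArg (Subtype.val : k⟮xt⟯ → E) h0
    exact this)
  have hg0 : gen L x ≠ 0 := fun h0 => hx0 (by
    have := congrArg (Subtype.val : L⟮x⟯ → F) h0
    exact this)
  -- the reduction of `x⁻¹` is `xt⁻¹ ≠ 0`
  have huv : (⟨gen L x, hG.g_mem⟩ : O₀) * ⟨(gen L x)⁻¹, hmem⟩ = 1 :=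
    Subtype.ext (mul_inv_cancel₀ hg0)
  have hred1 : gen k xt * red₀ ⟨(gen L x)⁻¹, hmem⟩ = 1 := by
    rw [← hG.red_g, ← map_mul, huv, map_one]
  have hred : red₀ ⟨(gen L x)⁻¹, hmem⟩ ≠ 0 := right_ne_zero_of_mul_eq_one hred1
  obtain ⟨G', hint'⟩ := exists_goodBasis_inv G hx0 hmem hred hint
  have hG' : IsGaussAt A π O₀ red₀ (genInv L x) (genInv k xt) := hG.inv hmem
  have h := lift_chart (g := genInv L x) (gt := genInv k xt)
    (by rw [coe_genInv]; exact transcendental_inv' hx) (by rw [coe_genInv, adjoin_inv_eq'])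
    (by rw [coe_genInv]; exact transcendental_inv' hxt) (by rw [coe_genInv, adjoin_inv_eq'])
    hG' G' (by rw [coe_genInv]; exact hint') hπ (by rw [coe_genInv]; exact hbr) s
    (by
      intro Q hQ
      rw [coe_genInv, Place.ord_inv] at hQ
      exact hs Q (by omega))
  obtain ⟨y, hy, hreg⟩ := h
  refine ⟨y, hy, fun P hP => hreg P ?_⟩
  rw [coe_genInv, Place.ord_inv]
  omega

end

end Fermat.Agent.Lib.Red.DiscInv
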