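/-
ESJ / RED-23 (T4 for an arbitrary base function): port of `Lib/Red/OrthInst.lean` to a base
function `B : BaseFn.Data A π N` of `F = L·F_N`: the finite chart ring
`Ow ∩ (integral closure of L[x])`, `x = B.x`, is a finitely generated `A[x]`-module.

* `setting B hπ hNk` : the Gauss setting `Orth.Setting B.x A Ow`;
* `good B hNk hπ G hint` : a good basis (`Ortho.GoodBasis`) of functions integral over `L[x]` is
  a good family (`Orth.Good`);
* `exists_chart_basis B hπ hsurj hNk` : T4 in integral-closure form;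
* `hT4 B hπ hsurj hNk` : T4 in place form (with `B.x` in place of `xL L N`).
-/
import Mathlib
import Fermat.Agent.Lib.Red.Orth
import Fermat.Agent.Lib.Red.BaseData
import Fermat.Agent.Lib.FF.Holo

set_option autoImplicit false

namespace Fermat.Agent.Lib.Red.OrthInstX

open HahnSeries ModularCurve Polynomial AlgebraicCurve Fermat.Agent.S28 IntermediateField
  Fermat.Agent.Lib.FF Fermat.Agent.Lib.Red

noncomputable section

variable {L : Type*} [Field L] [Algebra ℚ L] {A : ValuationSubring L} {k : Type} [Field k]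
  {π : A →+* k} {N : ℕ} [NeZero N]

/-- The Gauss setting for the base function `B.x` and the Gauss valuation ring. -/
theorem setting (B : BaseFn.Data A π N) (hπ : ∀ a : A, ¬ IsUnit a → π a = 0)
    (hNk : (N : k) ≠ 0) : Orth.Setting B.x A (Ow A π N hNk).toSubring where
  hA := algebraMap_mem_Ow_iff hπ hNk
  hx := B.x_mem_Ow hNk
  prim := by
    rintro q ⟨n, hn⟩
    have hq : q.map π ≠ 0 := by
      intro h0
      have h1 := congrArg (fun r => r.coeff n) h0
      simp only [Polynomial.coeff_map, Polynomial.coeff_zero] at h1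
      exact (hn.map π).ne_zero h1
    obtain ⟨u, hu⟩ := B.isUnit_aeval_map hπ hNk q hq
    have hne : Polynomial.aeval B.x (q.map A.subtype) ≠ 0 := by
      intro h0
      have h2 : ((u : Ow A π N hNk) : ↥(laurentBaseChange L (modularFunctionFieldFull N))) = 0 := by
        rw [hu]
        exact h0
      exact u.ne_zero (Subtype.ext h2)
    refine ⟨hne, ?_⟩
    have h1 : ((u⁻¹ : (Ow A π N hNk)ˣ) : Ow A π N hNk) * ⟨_, B.aeval_map_mem_Ow hNk q⟩ = 1 := by
      rw [← hu]
      exact u.inv_mul
    have h2 : (((u⁻¹ : (Ow A π N hNk)ˣ) : Ow A π N hNk) :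
        ↥(laurentBaseChange L (modularFunctionFieldFull N))) *
        Polynomial.aeval B.x (q.map A.subtype) = 1 := congrArg Subtype.val h1
    rw [← eq_inv_of_mul_eq_one_left h2]
    exact Subtype.property _

/-- A good basis of functions integral over `L[x]` is a good family. -/
theorem good (B : BaseFn.Data A π N) (hNk : (N : k) ≠ 0) (hπ : ∀ a : A, ¬ IsUnit a → π a = 0)
    {ι : Type*} [Fintype ι]
    (G : Ortho.GoodBasis (Ow A π N hNk) (redF A π N hπ hNk) (B.Ov hNk) (B.redv hπ hNk) ι)
    (hint : ∀ i, IsIntegral ↥(Algebra.adjoin L {B.x})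
      ((G.b i : Ow A π N hNk) : ↥(laurentBaseChange L (modularFunctionFieldFull N)))) :
    Orth.Good L B.x (Ow A π N hNk).toSubring
      (fun i => ((G.b i : Ow A π N hNk) : ↥(laurentBaseChange L (modularFunctionFieldFull N)))) := by
  refine ⟨fun i => (G.b i).2, hint, ?_, ?_⟩
  · intro y
    obtain ⟨c, hc⟩ := G.span y
    exact ⟨fun i => ((c i : ↥(L⟮B.x⟯)) : ↥(laurentBaseChange L (modularFunctionFieldFull N))),
      fun i => (c i).2, hc⟩
  · intro c hc h i
    have e : ∑ i, algebraMap ↥(L⟮B.x⟯) ↥(laurentBaseChange L (modularFunctionFieldFull N))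
        (⟨c i, hc i⟩ : ↥(L⟮B.x⟯)) *
        ((G.b i : Ow A π N hNk) : ↥(laurentBaseChange L (modularFunctionFieldFull N))) =
        ∑ i, c i * ((G.b i : Ow A π N hNk) : ↥(laurentBaseChange L (modularFunctionFieldFull N))) :=
      Finset.sum_congr rfl fun i _ => rfl
    have h' : ∑ i, algebraMap ↥(L⟮B.x⟯) ↥(laurentBaseChange L (modularFunctionFieldFull N))
        (⟨c i, hc i⟩ : ↥(L⟮B.x⟯)) *
        ((G.b i : Ow A π N hNk) : ↥(laurentBaseChange L (modularFunctionFieldFull N))) ∈
        Ow A π N hNk := by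
      rw [e]
      exact h
    have hcm := G.compat.coeff_mem G.b G.ind
    have hcm1 := hcm (fun i => (⟨c i, hc i⟩ : ↥(L⟮B.x⟯)))
    have hcm2 := hcm1 h'
    have hcm3 := hcm2 i
    exact hcm3

variable [IsAlgClosed L]

/-- **T4, integral-closure form**: the ring of Gauss-integral functions integral over `L[x]`,
`x = B.x`, is a finitely generated `A[x]`-module. -/
theorem exists_chart_basis (B : BaseFn.Data A π N) (hπ : ∀ a : A, ¬ IsUnit a → π a = 0)
    (hsurj : Function.Surjective π) (hNk : (N : k) ≠ 0) :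
    ∃ (n : ℕ) (g : Fin n → ↥(laurentBaseChange L (modularFunctionFieldFull N))),
      (∀ i, g i ∈ Ow A π N hNk) ∧
      (∀ i, IsIntegral ↥(Algebra.adjoin L {B.x}) (g i)) ∧
      ∀ y : ↥(laurentBaseChange L (modularFunctionFieldFull N)), y ∈ Ow A π N hNk →
        IsIntegral ↥(Algebra.adjoin L {B.x}) y →
        ∃ p : Fin n → Polynomial A,
          y = ∑ i, Polynomial.aeval B.x ((p i).map A.subtype) * g i := by
  obtain ⟨n, G, hG⟩ := B.exists_goodBasis_integral hπ hsurj hNk
  have hfin : FiniteDimensional ↥(L⟮B.x⟯) ↥(laurentBaseChange L (modularFunctionFieldFull N)) :=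
    B.finite_L hπ hsurj hNk
  have hchar : CharZero L := charZero_of_injective_algebraMap (algebraMap ℚ L).injective
  obtain ⟨b, hbO, hbint, hb⟩ :=
    Orth.exists_orth_basis (setting B hπ hNk) _ (good B hNk hπ G hG)
  exact ⟨n, b, hbO, hbint, hb⟩

/-- **T4, place form** for the base function `B.x`. -/
theorem hT4 (B : BaseFn.Data A π N) (hπ : ∀ a : A, ¬ IsUnit a → π a = 0)
    (hsurj : Function.Surjective π) (hNk : (N : k) ≠ 0) :
    ∃ (n : ℕ) (g : Fin n → ↥(laurentBaseChange L (modularFunctionFieldFull N))),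
      (∀ i, g i ∈ Ow A π N hNk) ∧
      (∀ i, ∀ P : Place L ↥(laurentBaseChange L (modularFunctionFieldFull N)),
        0 ≤ P.ord B.x → 0 ≤ P.ord (g i)) ∧
      ∀ y : Ow A π N hNk,
        (∀ P : Place L ↥(laurentBaseChange L (modularFunctionFieldFull N)),
          0 ≤ P.ord B.x →
            0 ≤ P.ord (y : ↥(laurentBaseChange L (modularFunctionFieldFull N)))) →
        ∃ p : Fin n → Polynomial A,
          (y : ↥(laurentBaseChange L (modularFunctionFieldFull N))) =
            ∑ i, Polynomial.aeval B.x ((p i).map A.subtype) * g i := by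
  have hfin : FiniteDimensional ↥(L⟮B.x⟯) ↥(laurentBaseChange L (modularFunctionFieldFull N)) :=
    B.finite_L hπ hsurj hNk
  obtain ⟨n, g, hgO, hgint, hg⟩ := exists_chart_basis B hπ hsurj hNk
  refine ⟨n, g, hgO, fun i => (Holo.isIntegral_adjoin_iff B.x (g i)).mp (hgint i),
    fun y hy => ?_⟩
  exact hg y y.2 ((Holo.isIntegral_adjoin_iff B.x _).mpr hy)

end

end Fermat.Agent.Lib.Red.OrthInstX
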