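/-
helper86 — RED-DISC, the modular instance in place form (T3 / T3′) for an arbitrary base
function `B : BaseFn.Data A π N`.

* `isGaussAt_of_compat` (abstract) : the Gauss property of the chart `(x, xt)` from the
  Gauss-setting facts (polynomials over `A` are integral and reduce coefficientwise, primitive
  polynomials are units, `O ∩ L = A`);
* `lift_both` (abstract) : T3 and T3′ from the chart-`x` data;
* `isGaussAt_data B hπ hNk` : the Gauss property for `(B.Ov, B.redv)`;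
* `hT3_data`, `hT3'_data` : good reduction of both charts of `B.x`, in the place form consumed
  by R1 (`redTorsionInjective_of_chart`), PLACE (`IsChart.lift`) and RED-K (`k18_prime_of_T3`).
-/
import Mathlib
import Fermat.Agent.Lib.Red.DiscInv
import Fermat.Agent.Lib.Red.OrthInstX
import Fermat.Agent.Lib.FF.ModLSepX

set_option autoImplicit false
set_option linter.style.haveILetI false
set_option linter.unusedSectionVars false

namespace Fermat.Agent.Lib.Red.DiscInv

open Polynomial Module AlgebraicCurve IntermediateField ModularCurve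
open Fermat.Agent.Lib.Red.Ortho Fermat.Agent.Lib.Red.Disc Fermat.Agent.Lib.FF.PolyChart

noncomputable section

section Abstract

variable {L k : Type*} [Field L] [Field k] {F E : Type*} [Field F] [Field E]
  [Algebra L F] [Algebra k E] {x : F} {xt : E}
  {O : ValuationSubring F} {red : O →+* E}
  {O₀ : ValuationSubring L⟮x⟯} {red₀ : O₀ →+* k⟮xt⟯}
  {A : ValuationSubring L} {π : A →+* k}

/-- The Gauss property of the chart `(x, xt)` from the Gauss-setting facts on `(O, red)`. -/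
theorem isGaussAt_of_compat (hC : Compat O red O₀ red₀) (hx : Transcendental L x)
    (hmem : ∀ p : A[X], aeval x (p.map A.subtype) ∈ O)
    (hred : ∀ (p : A[X]) (h : aeval x (p.map A.subtype) ∈ O), red ⟨_, h⟩ = aeval xt (p.map π))
    (hA : ∀ a : L, algebraMap L F a ∈ O → a ∈ A)
    (hunit : ∀ p : A[X], p.map π ≠ 0 → (aeval x (p.map A.subtype))⁻¹ ∈ O) :
    IsGaussAt A π O₀ red₀ (gen L x) (gen k xt) := by
  have hco : ∀ q : L[X], algebraMap L⟮x⟯ F (aeval (gen L x) q) = aeval x q := fun q =>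
    coe_aeval (gen L x) q
  have hcot : ∀ q : k[X], algebraMap k⟮xt⟯ E (aeval (gen k xt) q) = aeval xt q := fun q =>
    coe_aeval (gen k xt) q
  refine ⟨fun p => ?_, fun p hp => ?_, fun p hp i => ?_⟩
  · rw [hC.mem_iff, hco]
    exact hmem p
  · have h1 : algebraMap L⟮x⟯ F (aeval (gen L x) (p.map A.subtype)) ∈ O :=
      (hC.mem_iff _).1 hp
    have h2 := hC.red_comp ⟨_, hp⟩ h1
    have h3 : (⟨algebraMap L⟮x⟯ F (aeval (gen L x) (p.map A.subtype)), h1⟩ : O) =
        ⟨aeval x (p.map A.subtype), hmem p⟩ := Subtype.ext (hco _)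
    rw [h3, hred p (hmem p), ← hcot] at h2
    exact ((algebraMap k⟮xt⟯ E).injective h2).symm
  · by_cases hp0 : p = 0
    · rw [hp0, coeff_zero]
      exact A.zero_mem
    obtain ⟨c, hc, P₀, hP₀, hne⟩ := Fermat.Agent.Lib.Red.exists_primitive_scaling π p hp0
    have h1 : aeval x p ∈ O := by
      rw [← hco]
      exact (hC.mem_iff _).1 hp
    have hxp : aeval x p ≠ 0 := fun h0 => hp0 ((transcendental_iff.1 hx) p h0)
    have hcF : algebraMap L F c ≠ 0 := fun h0 => hc ((map_eq_zero (algebraMap L F)).1 h0)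
    have h2 : aeval x (P₀.map A.subtype) = algebraMap L F c * aeval x p := by
      rw [hP₀, map_mul, aeval_C]
    have h3 := hunit P₀ hne
    have h4 : algebraMap L F c⁻¹ = aeval x p * (aeval x (P₀.map A.subtype))⁻¹ := by
      rw [h2, map_inv₀]
      field_simp
    have h5 : c⁻¹ ∈ A := hA _ (by rw [h4]; exact O.mul_mem _ _ h1 h3)
    have h6 : p.coeff i = c⁻¹ * ((P₀.coeff i : A) : L) := by
      have h7 : (P₀.map A.subtype).coeff i = c * p.coeff i := by rw [hP₀, coeff_C_mul]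
      rw [coeff_map] at h7
      have h8 : ((P₀.coeff i : A) : L) = c * p.coeff i := h7
      rw [h8, ← mul_assoc, inv_mul_cancel₀ hc, one_mul]
    rw [h6]
    exact A.mul_mem _ _ h5 (P₀.coeff i).2

/-- **T3 and T3′** from the chart-`x` data. -/
theorem lift_both [IsAlgClosed L] [CharZero L] [IsAlgClosed k]
    [Algebra.IsSeparable L⟮x⟯ F] [Algebra.IsSeparable k⟮xt⟯ E]
    (hx : Transcendental L x) (hxt : Transcendental k xt)
    (hG : IsGaussAt A π O₀ red₀ (gen L x) (gen k xt)) (hmem : (gen L x)⁻¹ ∈ O₀)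
    {ι : Type*} [Fintype ι] [DecidableEq ι]
    (G : GoodBasis O red O₀ red₀ ι)
    (hint : ∀ i, IsIntegral (Algebra.adjoin L ({x} : Set F)) ((G.b i : O) : F))
    (hπ : Function.Surjective π)
    (hbr : ∀ γ : k, ∃ c₀ : A, π c₀ = γ ∧ ∀ c : A, π c = γ → c ≠ c₀ →
      ∀ P : Place L F, 0 < P.ord (x - algebraMap L F (c : L)) →
        P.ord (x - algebraMap L F (c : L)) = 1)
    (hbr' : ∀ γ : k, ∃ c₀ : A, π c₀ = γ ∧ ∀ c : A, π c = γ → c ≠ c₀ →
      ∀ P : Place L F, 0 < P.ord (x⁻¹ - algebraMap L F (c : L)) →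
        P.ord (x⁻¹ - algebraMap L F (c : L)) = 1) :
    (∀ s : E, (∀ Q : Place k E, 0 ≤ Q.ord xt → 0 ≤ Q.ord s) →
      ∃ y : O, red y = s ∧ ∀ P : Place L F, 0 ≤ P.ord x → 0 ≤ P.ord (y : F)) ∧
    (∀ s : E, (∀ Q : Place k E, Q.ord xt ≤ 0 → 0 ≤ Q.ord s) →
      ∃ y : O, red y = s ∧ ∀ P : Place L F, P.ord x ≤ 0 → 0 ≤ P.ord (y : F)) :=
  ⟨fun s hs => lift_gen hx hxt hG G hint hπ hbr s hs,
    fun s hs => lift_inv hx hxt hG hmem G hint hπ hbr' s hs⟩

end Abstract

section Modular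

open Fermat.Agent.Lib.Red Fermat.Agent.Lib.Red.BaseFn

variable {L : Type*} [Field L] [Algebra ℚ L] {A : ValuationSubring L} {k : Type} [Field k]
  {π : A →+* k} {N : ℕ} [NeZero N]

/-- The Gauss property of `(B.Ov, B.redv)` for the chart `(B.x, B.xt)`. -/
theorem isGaussAt_data (B : BaseFn.Data A π N) (hπ : ∀ a : A, ¬ IsUnit a → π a = 0)
    (hNk : (N : k) ≠ 0) :
    IsGaussAt A π (B.Ov hNk) (B.redv hπ hNk) (gen L B.x) (gen k (B.xt hπ hNk)) := by
  refine isGaussAt_of_compat (O := Ow A π N hNk) (red := redF A π N hπ hNk)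
    (B.compat hπ hNk) (B.transcendental_x hπ hNk) (fun p => B.aeval_map_mem_Ow hNk p)
    (fun p h => B.redF_aeval_map hπ hNk p) (fun a ha => (algebraMap_mem_Ow_iff hπ hNk a).1 ha)
    (fun p hp => ?_)
  obtain ⟨u, hu⟩ := B.isUnit_aeval_map hπ hNk p hp
  have h1 : ((u⁻¹ : (Ow A π N hNk)ˣ) : Ow A π N hNk) * ⟨_, B.aeval_map_mem_Ow hNk p⟩ = 1 := by
    rw [← hu]
    exact u.inv_mul
  have h2 : (((u⁻¹ : (Ow A π N hNk)ˣ) : Ow A π N hNk) :
      ↥(laurentBaseChange L (modularFunctionFieldFull N))) *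
      Polynomial.aeval B.x (p.map A.subtype) = 1 := congrArg Subtype.val h1
  rw [← eq_inv_of_mul_eq_one_left h2]
  exact Subtype.property _

/-- `x⁻¹` lies in the Gauss valuation ring of `L(x)`. -/
theorem gen_inv_mem_Ov (B : BaseFn.Data A π N) (hπ : ∀ a : A, ¬ IsUnit a → π a = 0)
    (hNk : (N : k) ≠ 0) : (gen L B.x)⁻¹ ∈ B.Ov hNk := by
  rw [B.mem_Ov_iff hNk]
  have h := B.x_inv_mem_Ow hπ hNk
  have e : (((gen L B.x)⁻¹ : ↥(L⟮B.x⟯)) : ↥(laurentBaseChange L (modularFunctionFieldFull N))) =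
      (B.x)⁻¹ := coe_genInv L B.x
  rw [e]
  exact h

/-- **T3 and T3′ for a base function** (place form, `Ow`/`redF`): good reduction of both charts
of `B.x`.  Hypotheses: `L`, `k` algebraically closed, `π` onto with kernel the nonunits,
`(N : k) ≠ 0`, and the branch hypothesis (H) for `B.x` and `B.x⁻¹` (`Lib/Red/BranchH`). -/
theorem hT3_both [IsAlgClosed L] [IsAlgClosed k] (B : BaseFn.Data A π N)
    (hπ : ∀ a : A, ¬ IsUnit a → π a = 0) (hsurj : Function.Surjective π) (hNk : (N : k) ≠ 0)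
    (hbr : ∀ γ : k, ∃ c₀ : A, π c₀ = γ ∧ ∀ c : A, π c = γ → c ≠ c₀ →
      ∀ P : Place L ↥(laurentBaseChange L (modularFunctionFieldFull N)),
        0 < P.ord (B.x - algebraMap L _ (c : L)) → P.ord (B.x - algebraMap L _ (c : L)) = 1)
    (hbr' : ∀ γ : k, ∃ c₀ : A, π c₀ = γ ∧ ∀ c : A, π c = γ → c ≠ c₀ →
      ∀ P : Place L ↥(laurentBaseChange L (modularFunctionFieldFull N)),
        0 < P.ord ((B.x)⁻¹ - algebraMap L _ (c : L)) →
          P.ord ((B.x)⁻¹ - algebraMap L _ (c : L)) = 1) :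
    (∀ s : ↥(modularFunctionFieldFullC k N),
      (∀ Q : Place k ↥(modularFunctionFieldFullC k N), 0 ≤ Q.ord (B.xt hπ hNk) → 0 ≤ Q.ord s) →
      ∃ y : Ow A π N hNk, redF A π N hπ hNk y = s ∧
        ∀ P : Place L ↥(laurentBaseChange L (modularFunctionFieldFull N)),
          0 ≤ P.ord B.x → 0 ≤ P.ord (y : ↥(laurentBaseChange L (modularFunctionFieldFull N)))) ∧
    (∀ s : ↥(modularFunctionFieldFullC k N),
      (∀ Q : Place k ↥(modularFunctionFieldFullC k N), Q.ord (B.xt hπ hNk) ≤ 0 → 0 ≤ Q.ord s) →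
      ∃ y : Ow A π N hNk, redF A π N hπ hNk y = s ∧
        ∀ P : Place L ↥(laurentBaseChange L (modularFunctionFieldFull N)),
          P.ord B.x ≤ 0 → 0 ≤ P.ord (y : ↥(laurentBaseChange L (modularFunctionFieldFull N)))) := by
  haveI : CharZero L := algebraRat.charZero L
  haveI := Fermat.Agent.Lib.FF.ModL.isSeparable_x B hπ hsurj hNk
  haveI := Fermat.Agent.Lib.FF.ModL.isSeparable_xt B hπ hNk
  obtain ⟨n, G, hint⟩ := B.exists_goodBasis_integral hπ hsurj hNk
  exact lift_both (B.transcendental_x hπ hNk) (B.transcendental_xt hπ hNk)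
    (isGaussAt_data B hπ hNk) (gen_inv_mem_Ov B hπ hNk) G hint hsurj hbr hbr'

/-- **T3 for a base function** (the chart `x`). -/
theorem hT3_data [IsAlgClosed L] [IsAlgClosed k] (B : BaseFn.Data A π N)
    (hπ : ∀ a : A, ¬ IsUnit a → π a = 0) (hsurj : Function.Surjective π) (hNk : (N : k) ≠ 0)
    (hbr : ∀ γ : k, ∃ c₀ : A, π c₀ = γ ∧ ∀ c : A, π c = γ → c ≠ c₀ →
      ∀ P : Place L ↥(laurentBaseChange L (modularFunctionFieldFull N)),
        0 < P.ord (B.x - algebraMap L _ (c : L)) → P.ord (B.x - algebraMap L _ (c : L)) = 1)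
    (s : ↥(modularFunctionFieldFullC k N))
    (hs : ∀ Q : Place k ↥(modularFunctionFieldFullC k N),
      0 ≤ Q.ord (B.xt hπ hNk) → 0 ≤ Q.ord s) :
    ∃ y : Ow A π N hNk, redF A π N hπ hNk y = s ∧
      ∀ P : Place L ↥(laurentBaseChange L (modularFunctionFieldFull N)),
        0 ≤ P.ord B.x → 0 ≤ P.ord (y : ↥(laurentBaseChange L (modularFunctionFieldFull N))) := by
  haveI : CharZero L := algebraRat.charZero L
  haveI := Fermat.Agent.Lib.FF.ModL.isSeparable_x B hπ hsurj hNk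
  haveI := Fermat.Agent.Lib.FF.ModL.isSeparable_xt B hπ hNk
  obtain ⟨n, G, hint⟩ := B.exists_goodBasis_integral hπ hsurj hNk
  exact lift_gen (B.transcendental_x hπ hNk) (B.transcendental_xt hπ hNk)
    (isGaussAt_data B hπ hNk) G hint hsurj hbr s hs

/-- **T3′ for a base function** (the chart `x⁻¹`). -/
theorem hT3'_data [IsAlgClosed L] [IsAlgClosed k] (B : BaseFn.Data A π N)
    (hπ : ∀ a : A, ¬ IsUnit a → π a = 0) (hsurj : Function.Surjective π) (hNk : (N : k) ≠ 0)
    (hbr' : ∀ γ : k, ∃ c₀ : A, π c₀ = γ ∧ ∀ c : A, π c = γ → c ≠ c₀ →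
      ∀ P : Place L ↥(laurentBaseChange L (modularFunctionFieldFull N)),
        0 < P.ord ((B.x)⁻¹ - algebraMap L _ (c : L)) →
          P.ord ((B.x)⁻¹ - algebraMap L _ (c : L)) = 1)
    (s : ↥(modularFunctionFieldFullC k N))
    (hs : ∀ Q : Place k ↥(modularFunctionFieldFullC k N),
      Q.ord (B.xt hπ hNk) ≤ 0 → 0 ≤ Q.ord s) :
    ∃ y : Ow A π N hNk, redF A π N hπ hNk y = s ∧
      ∀ P : Place L ↥(laurentBaseChange L (modularFunctionFieldFull N)),
        P.ord B.x ≤ 0 → 0 ≤ P.ord (y : ↥(laurentBaseChange L (modularFunctionFieldFull N))) := by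
  haveI : CharZero L := algebraRat.charZero L
  haveI := Fermat.Agent.Lib.FF.ModL.isSeparable_x B hπ hsurj hNk
  haveI := Fermat.Agent.Lib.FF.ModL.isSeparable_xt B hπ hNk
  obtain ⟨n, G, hint⟩ := B.exists_goodBasis_integral hπ hsurj hNk
  exact lift_inv (B.transcendental_x hπ hNk) (B.transcendental_xt hπ hNk)
    (isGaussAt_data B hπ hNk) (gen_inv_mem_Ov B hπ hNk) G hint hsurj hbr' s hs

end Modular

end

end Fermat.Agent.Lib.Red.DiscInv
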