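import Mathlib

/-!
# RED-KUMMER: the lattice lemma (LAT), abstract form (Mathlib only)

* `exists_indep_span_finset` : a finitely generated `A`-submodule of an `L`-vector space (`A` a
  valuation ring of `L`) is generated by a finite `L`-linearly independent family;
* `fg_inf_of_fg` : if `M` is a finitely generated `A`-submodule of an `L`-vector space and `V` an
  `L`-subspace, then `V ∩ M` is finitely generated (it is a direct summand of `M`);
* `lat_of_goodBasis` : **(LAT)** let `F / L` be a field extension, `x ∈ F` transcendental,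
  `O` a valuation ring of `F` with `L[x] ∩ O = A[x]` in which primitive polynomials in `x` are
  units, and `b` a finite family of `O` spanning `F` over `L(x)` which is orthonormal
  (`∑ c i * b i ∈ O` forces `c i ∈ O`).  Then for every finite-dimensional `L`-subspace `V` of
  `F`, the `A`-module `V ∩ O` is finitely generated.  (Common denominators in `L(x)` put
  `V ∩ O` inside the finitely generated `A`-module `⊕ d⁻¹ A[x]_{≤ m} b_i ⊆ O`; then
  `fg_inf_of_fg`.)
-/

set_option autoImplicit false

namespace Fermat.Agent.Lib.Red.Kummer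

section Abstract

variable {L : Type*} [Field L] (A : ValuationSubring L) {W : Type*} [AddCommGroup W] [Module L W]

/-- A finitely generated `A`-submodule of an `L`-vector space (`A` a valuation ring of `L`) is
generated by a finite `L`-linearly independent family. -/
theorem exists_indep_span_finset (s : Finset W) :
    ∃ t : Finset W, LinearIndependent L (fun x : t => (x : W)) ∧
      Submodule.span A (t : Set W) = Submodule.span A (s : Set W) := by
  classical
  induction' hn : s.card using Nat.strong_induction_on with n ih generalizing s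
  by_cases hli : LinearIndependent L (fun x : s => (x : W))
  · exact ⟨s, hli, rfl⟩
  · rw [Fintype.not_linearIndependent_iff] at hli
    obtain ⟨g, hg, i₀, hi₀⟩ := hli
    obtain ⟨j, -, hj⟩ := Finset.exists_max_image Finset.univ (fun i : s => A.valuation (g i))
      ⟨i₀, Finset.mem_univ _⟩
    have hgj : g j ≠ 0 := by
      intro h0
      have h1 := hj i₀ (Finset.mem_univ _)
      rw [h0, map_zero] at h1
      exact hi₀ ((map_eq_zero (A.valuation)).mp (le_antisymm h1 zero_le))
    have hdiv : ∀ i, g i / g j ∈ A := by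
      intro i
      rw [← A.valuation_le_one_iff, map_div₀]
      exact div_le_one_of_le₀ (hj i (Finset.mem_univ _)) zero_le
    -- `j` is an `A`-combination of the other elements
    have hjmem : (j : W) ∈ Submodule.span A ((s.erase (j : W) : Finset W) : Set W) := by
      have h1 : (j : W) = - ∑ i ∈ Finset.univ.erase j, (g i / g j) • (i : W) := by
        have h2 : ∑ i, (g i / g j) • (i : W) = 0 := by
          have : ∑ i, (g i / g j) • (i : W) = (g j)⁻¹ • ∑ i, g i • (i : W) := by
            rw [Finset.smul_sum]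
            refine Finset.sum_congr rfl fun i _ => ?_
            rw [smul_smul, div_eq_inv_mul]
          rw [this, hg, smul_zero]
        rw [← Finset.add_sum_erase _ _ (Finset.mem_univ j), div_self hgj, one_smul] at h2
        exact eq_neg_of_add_eq_zero_left h2
      have h3 : - ∑ i ∈ Finset.univ.erase j, (g i / g j) • (i : W) ∈
          Submodule.span A ((s.erase (j : W) : Finset W) : Set W) := by
        refine Submodule.neg_mem _ (Submodule.sum_mem _ fun i hi => ?_)
        have hmem : (i : W) ∈ ((s.erase (j : W) : Finset W) : Set W) := by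
          rw [Finset.mem_coe, Finset.mem_erase]
          refine ⟨fun h => (Finset.mem_erase.mp hi).1 (Subtype.ext h), i.2⟩
        exact Submodule.smul_mem _ (⟨g i / g j, hdiv i⟩ : A) (Submodule.subset_span hmem)
      rwa [← h1] at h3
    have hspan : Submodule.span A ((s.erase (j : W) : Finset W) : Set W) =
        Submodule.span A (s : Set W) := by
      apply le_antisymm
      · exact Submodule.span_mono (by exact_mod_cast Finset.erase_subset _ _)
      · rw [Submodule.span_le]
        intro w hw
        by_cases hwj : w = (j : W)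
        · rw [hwj]
          exact hjmem
        · exact Submodule.subset_span (by
            rw [Finset.mem_coe, Finset.mem_erase]
            exact ⟨hwj, hw⟩)
    have hcard : (s.erase (j : W)).card < n := by
      rw [← hn]
      exact Finset.card_erase_lt_of_mem j.2
    obtain ⟨t, ht, hts⟩ := ih _ hcard (s.erase (j : W)) rfl
    exact ⟨t, ht, hts.trans hspan⟩

/-- If `M` is a finitely generated `A`-submodule of an `L`-vector space `W` and `V` is an
`L`-subspace of `W`, then `V ∩ M` is a finitely generated `A`-module. -/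
theorem fg_inf_of_fg (M : Submodule A W) (hM : M.FG) (V : Submodule L W) :
    ∃ Nn : Submodule A W, Nn.FG ∧ ∀ x : W, x ∈ Nn ↔ (x ∈ V ∧ x ∈ M) := by
  classical
  obtain ⟨s, rfl⟩ := hM
  set q : W →ₗ[L] W ⧸ V := V.mkQ with hq
  obtain ⟨t, hli, hts⟩ := exists_indep_span_finset A (s.image q)
  have hmap : Submodule.span A ((s.image q : Finset (W ⧸ V)) : Set (W ⧸ V)) =
      (Submodule.span A (s : Set W)).map (q.restrictScalars A) := by
    rw [Submodule.map_span, Finset.coe_image]
    rfl
  -- lifts of the independent generators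
  have hlift : ∀ e : t, ∃ u : W, u ∈ Submodule.span A (s : Set W) ∧ q u = (e : W ⧸ V) := by
    intro e
    have h1 : (e : W ⧸ V) ∈ Submodule.span A ((s.image q : Finset (W ⧸ V)) : Set (W ⧸ V)) := by
      rw [← hts]
      exact Submodule.subset_span e.2
    rw [hmap] at h1
    obtain ⟨u, hu, hue⟩ := h1
    exact ⟨u, hu, hue⟩
  choose u hu hqu using hlift
  -- coordinates
  obtain ⟨c, hc⟩ := LinearMap.exists_extend hli.repr
  have hce : ∀ e : t, c (e : W ⧸ V) = Finsupp.single e 1 := by
    intro e
    have h1 : c (e : W ⧸ V) = hli.repr ⟨(e : W ⧸ V), Submodule.subset_span ⟨e, rfl⟩⟩ := by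
      rw [← hc]
      rfl
    rw [h1]
    exact hli.repr_eq_single e _ rfl
  -- the projection onto `V`
  set φ : W →ₗ[L] W := LinearMap.id - ∑ e : t, ((Finsupp.lapply e).comp (c.comp q)).smulRight (u e)
    with hφ
  have hφapp : ∀ w : W, φ w = w - ∑ e : t, (c (q w) e) • u e := by
    intro w
    simp [hφ, LinearMap.sub_apply, LinearMap.sum_apply]
  refine ⟨(Submodule.span A (s : Set W)).map (φ.restrictScalars A), Submodule.FG.map _ ⟨s, rfl⟩,
    fun x => ⟨?_, ?_⟩⟩
  · rintro ⟨m, hm, rfl⟩
    -- `q m` is an `A`-combination of `t`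
    have h1 : q m ∈ Submodule.span A ((t : Finset (W ⧸ V)) : Set (W ⧸ V)) := by
      rw [hts, hmap]
      exact ⟨m, hm, rfl⟩
    have h2 : ((t : Finset (W ⧸ V)) : Set (W ⧸ V)) = Set.range (fun e : t => (e : W ⧸ V)) := by
      ext x
      simp
    rw [h2, Submodule.mem_span_range_iff_exists_fun] at h1
    obtain ⟨a, ha⟩ := h1
    have hcoord : ∀ e : t, c (q m) e = (a e : L) := by
      intro e
      have : ∀ e' : t, c (a e' • (e' : W ⧸ V)) e = if e' = e then (a e' : L) else 0 := by
        intro e'
        have h3 : a e' • (e' : W ⧸ V) = (a e' : L) • (e' : W ⧸ V) := rfl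
        rw [h3, map_smul, hce, Finsupp.smul_apply, Finsupp.single_apply, smul_eq_mul]
        split_ifs <;> simp
      rw [← ha, map_sum, Finsupp.finsetSum_apply, Finset.sum_congr rfl (fun e' _ => this e'),
        Finset.sum_ite_eq', if_pos (Finset.mem_univ e)]
    have hφm : (φ.restrictScalars A) m = m - ∑ e : t, a e • u e := by
      show φ m = _
      rw [hφapp]
      congr 1
      refine Finset.sum_congr rfl fun e _ => ?_
      rw [hcoord]
      rfl
    constructor
    · rw [← Submodule.Quotient.mk_eq_zero, hφm]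
      show q (m - ∑ e : t, a e • u e) = 0
      rw [map_sub, map_sum, sub_eq_zero, ← ha]
      refine Finset.sum_congr rfl fun e _ => ?_
      have h3 : a e • u e = (a e : L) • u e := rfl
      rw [h3, map_smul, hqu]
      rfl
    · rw [hφm]
      exact Submodule.sub_mem _ hm (Submodule.sum_mem _ fun e _ => Submodule.smul_mem _ _ (hu e))
  · rintro ⟨hxV, hxM⟩
    refine ⟨x, hxM, ?_⟩
    show φ x = x
    have hq0 : q x = 0 := (Submodule.Quotient.mk_eq_zero V).mpr hxV
    rw [hφapp, hq0, map_zero]
    simp

end Abstract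


section Lattice

open Polynomial IntermediateField

variable {L F : Type*} [Field L] [Field F] [Algebra L F]

/-- Common denominators in `L(x)`. -/
theorem exists_common_denom_adjoin {x : F} (hx : Transcendental L x) (T : Finset ↥(L⟮x⟯)) :
    ∃ D : L[X], D ≠ 0 ∧ ∀ c ∈ T, ∃ P : L[X], (c : F) * aeval x D = aeval x P := by
  classical
  induction T using Finset.induction_on with
  | empty => exact ⟨1, one_ne_zero, by simp⟩
  | insert c T hc ih =>
    obtain ⟨D, hD, hT⟩ := ih
    obtain ⟨r, s₀, hrs⟩ := (IntermediateField.mem_adjoin_simple_iff L _).mp c.2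
    by_cases hs : s₀ = 0
    · refine ⟨D, hD, fun c' hc' => ?_⟩
      rcases Finset.mem_insert.mp hc' with rfl | h
      · exact ⟨0, by rw [hrs, hs]; simp⟩
      · exact hT c' h
    · have hs' : aeval x s₀ ≠ 0 := fun h => hs ((transcendental_iff.mp hx) _ h)
      refine ⟨D * s₀, mul_ne_zero hD hs, fun c' hc' => ?_⟩
      rcases Finset.mem_insert.mp hc' with rfl | h
      · refine ⟨r * D, ?_⟩
        rw [hrs, map_mul, map_mul]
        field_simp
      · obtain ⟨P, hP⟩ := hT c' h
        exact ⟨P * s₀, by rw [map_mul, map_mul, ← mul_assoc, hP]⟩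

/-- A nonzero polynomial over `L` is a constant times a polynomial with coefficients in `A`
one of which is `1`. -/
theorem exists_primitive_scaling_coeff (A : ValuationSubring L) (D : L[X]) (hD : D ≠ 0) :
    ∃ a : L, a ≠ 0 ∧ (∀ i, (C a * D).coeff i ∈ A) ∧ ∃ j, (C a * D).coeff j = 1 := by
  classical
  obtain ⟨j, hj, hmax⟩ := Finset.exists_max_image D.support (fun i => A.valuation (D.coeff i))
    (Polynomial.support_nonempty.mpr hD)
  have hcj : D.coeff j ≠ 0 := Polynomial.mem_support_iff.mp hj
  refine ⟨(D.coeff j)⁻¹, inv_ne_zero hcj, fun i => ?_, j, ?_⟩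
  · rw [Polynomial.coeff_C_mul]
    by_cases hi : i ∈ D.support
    · rw [← A.valuation_le_one_iff, map_mul, map_inv₀]
      rw [inv_mul_le_iff₀ (lt_of_le_of_ne zero_le
        (Ne.symm ((map_ne_zero (A.valuation)).mpr hcj))), mul_one]
      exact hmax i hi
    · rw [Polynomial.notMem_support_iff.mp hi, mul_zero]
      exact A.zero_mem
  · rw [Polynomial.coeff_C_mul, inv_mul_cancel₀ hcj]

/-- **(LAT)**, abstract form. -/
theorem lat_of_goodBasis (A : ValuationSubring L) (O : ValuationSubring F) {x : F}
    (hx : Transcendental L x)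
    (hA : ∀ c : L, c ∈ A → algebraMap L F c ∈ O)
    (hxO : x ∈ O)
    (hpoly : ∀ p : L[X], aeval x p ∈ O → ∀ i, p.coeff i ∈ A)
    (hunit : ∀ p : L[X], (∀ i, p.coeff i ∈ A) → (∃ j, p.coeff j = 1) → (aeval x p)⁻¹ ∈ O)
    {ι : Type*} [Fintype ι] (b : ι → F) (hb : ∀ i, b i ∈ O)
    (hspan : ∀ y : F, ∃ c : ι → ↥(L⟮x⟯), y = ∑ i, (c i : F) * b i)
    (hcoeff : ∀ c : ι → ↥(L⟮x⟯), ∑ i, (c i : F) * b i ∈ O → ∀ i, (c i : F) ∈ O)
    (V : Submodule L F) (hV : FiniteDimensional L V) :
    ∃ Nn : Submodule A F, Nn.FG ∧ ∀ y : F, y ∈ Nn ↔ (y ∈ V ∧ y ∈ O) := by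
  classical
  obtain ⟨s, hs⟩ := (Submodule.fg_iff_finiteDimensional V).mpr hV
  choose co hco using hspan
  -- a common denominator of the coordinates of the generators
  obtain ⟨D₀, hD₀, hT⟩ := exists_common_denom_adjoin hx
    ((s ×ˢ (Finset.univ : Finset ι)).image (fun p : F × ι => co p.1 p.2))
  obtain ⟨a, ha, hDA, hD1⟩ := exists_primitive_scaling_coeff A D₀ hD₀
  set d : F := aeval x (C a * D₀) with hd
  have hP : ∀ (w : F) (i : ι), ∃ P : L[X], w ∈ s → (co w i : F) * d = aeval x P := by
    intro w i
    by_cases hw : w ∈ s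
    · obtain ⟨P, hP⟩ := hT _ (Finset.mem_image.mpr
        ⟨(w, i), Finset.mem_product.mpr ⟨hw, Finset.mem_univ i⟩, rfl⟩)
      refine ⟨C a * P, fun _ => ?_⟩
      rw [hd, map_mul, map_mul, ← hP]
      ring
    · exact ⟨0, fun h => absurd h hw⟩
  choose P hP using hP
  set m : ℕ := (s ×ˢ (Finset.univ : Finset ι)).sup
    (fun p : F × ι => (P p.1 p.2).natDegree) with hm
  have hdinv : d⁻¹ ∈ O := hunit _ hDA hD1
  have hd0 : d ≠ 0 := by
    intro h0
    have h1 := (transcendental_iff.mp hx) _ h0
    exact mul_ne_zero (by simpa using ha) hD₀ h1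
  have hdO : d ∈ O := by
    rcases O.mem_or_inv_mem d with h | h
    · exact h
    · -- both `d⁻¹` and `d⁻¹⁻¹`... use the polynomial description
      rw [hd, Polynomial.aeval_eq_sum_range]
      refine Subring.sum_mem O.toSubring fun i _ => ?_
      rw [Algebra.smul_def]
      exact mul_mem (hA _ (hDA i)) (pow_mem hxO i)
  -- the lattice
  set gen : ι × Fin (m + 1) → F := fun p => d⁻¹ * x ^ (p.2 : ℕ) * b p.1 with hgen
  set M : Submodule A F := Submodule.span A (Set.range gen) with hM
  have hMfg : M.FG := Submodule.fg_span (Set.finite_range gen)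
  have hMO : ∀ y ∈ M, y ∈ O := by
    intro y hy
    induction hy using Submodule.span_induction with
    | mem y hy =>
      obtain ⟨p, rfl⟩ := hy
      exact mul_mem (mul_mem hdinv (pow_mem hxO _)) (hb p.1)
    | zero => exact zero_mem _
    | add y z _ _ hy hz => exact add_mem hy hz
    | smul c y _ hy =>
      have h1 : c • y = algebraMap L F (c : L) * y := by
        rw [← Algebra.smul_def]
        rfl
      rw [h1]
      exact mul_mem (hA _ c.2) hy
  have hVM : ∀ v, v ∈ V → v ∈ O → v ∈ M := by
    intro v hvV hvO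
    rw [← hs, Submodule.mem_span_finset] at hvV
    obtain ⟨cf, -, hcf⟩ := hvV
    -- coordinates of `v`
    set cv : ι → ↥(L⟮x⟯) := fun i => ∑ w ∈ s, algebraMap L ↥(L⟮x⟯) (cf w) * co w i with hcv
    have hvsum : v = ∑ i, (cv i : F) * b i := by
      rw [← hcf]
      have h1 : ∀ w ∈ s, cf w • w = ∑ i, (algebraMap L F (cf w) * (co w i : F)) * b i := by
        intro w _
        have h2 : cf w • w = cf w • ∑ i, (co w i : F) * b i := congrArg (cf w • ·) (hco w)
        rw [h2, Finset.smul_sum]
        refine Finset.sum_congr rfl fun i _ => ?_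
        rw [Algebra.smul_def, mul_assoc]
      rw [Finset.sum_congr rfl h1, Finset.sum_comm]
      refine Finset.sum_congr rfl fun i _ => ?_
      rw [hcv, ← Finset.sum_mul]
      congr 1
      simp only [AddSubmonoidClass.coe_finsetSum, MulMemClass.coe_mul]
      rfl
    set R : ι → L[X] := fun i => ∑ w ∈ s, C (cf w) * P w i with hR
    have hRdeg : ∀ i, (R i).natDegree < m + 1 := by
      intro i
      refine Nat.lt_succ_of_le ((Polynomial.natDegree_sum_le_of_forall_le _ _ ?_))
      intro w hw
      refine (Polynomial.natDegree_C_mul_le _ _).trans ?_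
      exact Finset.le_sup (f := fun p : F × ι => (P p.1 p.2).natDegree) (b := (w, i))
        (Finset.mem_product.mpr ⟨hw, Finset.mem_univ i⟩)
    have hRval : ∀ i, (cv i : F) * d = aeval x (R i) := by
      intro i
      have h1 : (cv i : F) = ∑ w ∈ s, algebraMap L F (cf w) * (co w i : F) := by
        simp only [hcv, AddSubmonoidClass.coe_finsetSum, MulMemClass.coe_mul]
        rfl
      rw [h1, Finset.sum_mul, hR, map_sum]
      refine Finset.sum_congr rfl fun w hw => ?_
      rw [mul_assoc, hP w i hw, map_mul, aeval_C]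
    have hRA : ∀ i j, (R i).coeff j ∈ A := by
      intro i
      refine hpoly _ ?_
      rw [← hRval]
      exact mul_mem (hcoeff cv (hvsum ▸ hvO) i) hdO
    have hv : v = ∑ i, ∑ e : Fin (m + 1), (⟨(R i).coeff e, hRA i e⟩ : A) • gen (i, e) := by
      conv_lhs => rw [hvsum]
      refine Finset.sum_congr rfl fun i _ => ?_
      have h1 : (cv i : F) = d⁻¹ * aeval x (R i) := by
        rw [← hRval]
        field_simp
      rw [h1, Polynomial.aeval_eq_sum_range' (hRdeg i), Finset.mul_sum, Finset.sum_mul,
        ← Fin.sum_univ_eq_sum_range (fun e => d⁻¹ * ((R i).coeff e • x ^ e) * b i)]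
      refine Finset.sum_congr rfl fun e _ => ?_
      have h2 : (⟨(R i).coeff e, hRA i e⟩ : A) • gen (i, e) =
          (R i).coeff (e : ℕ) • gen (i, e) := rfl
      rw [h2, hgen]
      simp only [Algebra.smul_def]
      ring
    rw [hv]
    exact Submodule.sum_mem _ fun i _ => Submodule.sum_mem _ fun e _ =>
      Submodule.smul_mem _ _ (Submodule.subset_span ⟨(i, e), rfl⟩)
  obtain ⟨Nn, hfg, hNn⟩ := fg_inf_of_fg A M hMfg V
  exact ⟨Nn, hfg, fun y => ⟨fun h => ⟨((hNn y).mp h).1, hMO y ((hNn y).mp h).2⟩,
    fun h => (hNn y).mpr ⟨h.1, hVM y h.1 h.2⟩⟩⟩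

end Lattice

end Fermat.Agent.Lib.Red.Kummer
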