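import Mathlib

/-!
# RED-KUMMER, layer 1: the abstract algebraic core

"An unramified cyclic cover of degree `p` which splits on the special fibre is trivial",
in a two-chart Čech form with no completion.

Setting: `A ⊆ L` a valuation ring, `O ⊆ F` a valuation ring above it, `𝔄` an `F`-algebra
(in the application `𝔄 = F[T]/(T^p - f)`), `κ : 𝔄 → F` an `F`-linear functional
(the `T¹`-coordinate) and three increasing multiplicative filtrations `R0 n`, `R1 n`,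
`R01 n` of `𝔄` by `A`-submodules (in the application `R(n·E₀)`, `R(n·E₁)`, `R(n·(E₀+E₁))`,
where `R(E) = ⊕_j (L(E + jD) ∩ O) T^j`).  Given

* two almost-idempotents `e ∈ R0`, `e' ∈ R1` which agree modulo `c0` and whose
  `κ`-coordinate is a unit of `O`,
* `κ = 0` on `R0 ∩ R1`,
* stabilisation and bounded torsion of `R01 / (R0 + R1)`,

one gets a contradiction.  Everything here is elementary commutative algebra.
-/

set_option autoImplicit false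

namespace Fermat.Agent.Lib.Red.Kummer

section Newton

variable {B : Type*} [CommRing B]

/-- Newton iteration `x ↦ 3x² - 2x³` for almost-idempotents. -/
theorem newton_idempotent {γ e g0 : B} (h0 : e ^ 2 - e = γ * g0) (t : ℕ) :
    ∃ x g h : B, x ^ 2 - x = γ ^ (2 ^ t) * g ∧ x - e = γ * h := by
  induction t with
  | zero => exact ⟨e, g0, 0, by simpa using h0, by simp⟩
  | succ t ih =>
    obtain ⟨x, g, h, h1, h2⟩ := ih
    refine ⟨3 * x ^ 2 - 2 * x ^ 3, -(g ^ 2 * (3 - 2 * x) * (2 * x + 1)),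
      γ ^ (2 ^ t - 1) * (g * (1 - 2 * x)) + h, ?_, ?_⟩
    · have e1 : (3 * x ^ 2 - 2 * x ^ 3) ^ 2 - (3 * x ^ 2 - 2 * x ^ 3) =
          -((x ^ 2 - x) ^ 2 * (3 - 2 * x) * (2 * x + 1)) := by ring
      rw [e1, h1, pow_succ 2 t, pow_mul]
      ring
    · have e1 : 3 * x ^ 2 - 2 * x ^ 3 - e = (x ^ 2 - x) * (1 - 2 * x) + (x - e) := by ring
      have e2 : γ ^ (2 ^ t) = γ * γ ^ (2 ^ t - 1) := by
        rw [← pow_succ', Nat.sub_add_cancel Nat.one_le_two_pow]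
      rw [e1, h1, h2, e2]
      ring

/-- Two almost-idempotents (modulo `γ^K`) that agree modulo `γ` agree modulo `γ^K`. -/
theorem idempotent_lift_unique {γ x y a b d1 : B} {K : ℕ}
    (hx : x ^ 2 - x = γ ^ K * a) (hy : y ^ 2 - y = γ ^ K * b) (hxy : x - y = γ * d1)
    (hK : 1 ≤ K) : ∃ d : B, x - y = γ ^ K * d := by
  have hu : (x - y) ^ 3 - (x - y) = γ ^ K * (a * (1 + x - 3 * y) - b * (1 + y - 3 * x)) := by
    linear_combination (x + 1 - 3 * y) * hx + (3 * x - y - 1) * hy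
  have key : ∀ k : ℕ, 1 ≤ k → k ≤ K → ∃ d : B, x - y = γ ^ k * d := by
    intro k hk
    induction k, hk using Nat.le_induction with
    | base => intro _; exact ⟨d1, by simpa using hxy⟩
    | succ k hk ih =>
      intro hkK
      obtain ⟨d, hd⟩ := ih (by omega)
      obtain ⟨i, rfl⟩ : ∃ i, k = i + 1 := ⟨k - 1, by omega⟩
      obtain ⟨j, rfl⟩ : ∃ j, K = i + 1 + 1 + j := ⟨K - (i + 1 + 1), by omega⟩
      refine ⟨γ ^ (2 * i + 1) * d ^ 3 -
        γ ^ j * (a * (1 + x - 3 * y) - b * (1 + y - 3 * x)), ?_⟩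
      have e3 : x - y = (x - y) ^ 3 - ((x - y) ^ 3 - (x - y)) := by ring
      rw [e3, hu]
      rw [hd]
      ring
  exact key K hK le_rfl

end Newton

section Core

variable {L F 𝔄 : Type*} [Field L] [Field F] [CommRing 𝔄] [Algebra L F] [Algebra F 𝔄]
  [Algebra L 𝔄] [IsScalarTower L F 𝔄]

/-- The union of an increasing multiplicative filtration, as a subring. -/
def unionSubring (R : ℕ → AddSubgroup 𝔄) (hmono : Monotone R)
    (hmul : ∀ m n x y, x ∈ R m → y ∈ R n → x * y ∈ R (m + n)) (hone : (1 : 𝔄) ∈ R 0) :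
    Subring 𝔄 where
  carrier := {x | ∃ n, x ∈ R n}
  mul_mem' := by
    rintro x y ⟨m, hx⟩ ⟨n, hy⟩
    exact ⟨m + n, hmul m n x y hx hy⟩
  one_mem' := ⟨0, hone⟩
  add_mem' := by
    rintro x y ⟨m, hx⟩ ⟨n, hy⟩
    exact ⟨max m n, (R _).add_mem (hmono (le_max_left m n) hx) (hmono (le_max_right m n) hy)⟩
  zero_mem' := ⟨0, (R 0).zero_mem⟩
  neg_mem' := by
    rintro x ⟨m, hx⟩
    exact ⟨m, (R m).neg_mem hx⟩

theorem mem_unionSubring {R : ℕ → AddSubgroup 𝔄} {hmono : Monotone R}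
    {hmul : ∀ m n x y, x ∈ R m → y ∈ R n → x * y ∈ R (m + n)} {hone : (1 : 𝔄) ∈ R 0} {x : 𝔄} :
    x ∈ unionSubring R hmono hmul hone ↔ ∃ n, x ∈ R n := Iff.rfl

omit [Algebra L F] [Field F] [Algebra F 𝔄] [IsScalarTower L F 𝔄] in
/-- Scalars from `A` lie in the union subring. -/
theorem algebraMap_mem_unionSubring (A : ValuationSubring L) {R : ℕ → AddSubgroup 𝔄}
    {hmono : Monotone R} {hmul : ∀ m n x y, x ∈ R m → y ∈ R n → x * y ∈ R (m + n)}
    {hone : (1 : 𝔄) ∈ R 0} (hsmul : ∀ n (c : L), c ∈ A → ∀ x ∈ R n, c • x ∈ R n)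
    {c : L} (hc : c ∈ A) : algebraMap L 𝔄 c ∈ unionSubring R hmono hmul hone := by
  refine ⟨0, ?_⟩
  have := hsmul 0 c hc 1 hone
  rwa [Algebra.smul_def, mul_one] at this

/-- **RED-KUMMER, abstract core.**  See the module docstring. -/
theorem kummer_core_false
    (A : ValuationSubring L) (O : ValuationSubring F)
    (hOA : ∀ c : L, algebraMap L F c ∈ O → c ∈ A)
    (κ : 𝔄 →ₗ[F] F)
    (R0 R1 R01 : ℕ → AddSubgroup 𝔄)
    (hmono0 : Monotone R0) (hmono1 : Monotone R1) (hmono01 : Monotone R01)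
    (hmul0 : ∀ m n x y, x ∈ R0 m → y ∈ R0 n → x * y ∈ R0 (m + n))
    (hmul1 : ∀ m n x y, x ∈ R1 m → y ∈ R1 n → x * y ∈ R1 (m + n))
    (hmul01 : ∀ m n x y, x ∈ R01 m → y ∈ R01 n → x * y ∈ R01 (m + n))
    (hle0 : ∀ n, R0 n ≤ R01 n) (hle1 : ∀ n, R1 n ≤ R01 n)
    (hone0 : (1 : 𝔄) ∈ R0 0) (hone1 : (1 : 𝔄) ∈ R1 0)
    (hsmul0 : ∀ n (c : L), c ∈ A → ∀ x ∈ R0 n, c • x ∈ R0 n)
    (hsmul1 : ∀ n (c : L), c ∈ A → ∀ x ∈ R1 n, c • x ∈ R1 n)
    (hsmul01 : ∀ n (c : L), c ∈ A → ∀ x ∈ R01 n, c • x ∈ R01 n)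
    (hκ0 : ∀ n x, x ∈ R0 n → κ x ∈ O)
    (hint : ∀ m n x, x ∈ R0 m → x ∈ R1 n → κ x = 0)
    (hinj : ∀ m n y0 y1, n ≤ m → y0 ∈ R0 m → y1 ∈ R1 m → y0 + y1 ∈ R01 n →
      y0 ∈ R0 n ∧ y1 ∈ R1 n)
    (N0 : ℕ)
    (hstab : ∀ n, N0 ≤ n → ∀ x ∈ R01 (n + 1),
      ∃ d ∈ R01 n, ∃ y0 ∈ R0 (n + 1), ∃ y1 ∈ R1 (n + 1), x = d + y0 + y1)
    (cs : L) (hcsA : cs ∈ A) (hcs : cs ≠ 0)
    (htors : ∀ d ∈ R01 N0, ∀ ε : L, ε ∈ A → ε ≠ 0 →
      (∃ y0 ∈ R0 N0, ∃ y1 ∈ R1 N0, ε • d = y0 + y1) →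
      ∃ y0 ∈ R0 N0, ∃ y1 ∈ R1 N0, cs • d = y0 + y1)
    (c0 : L) (hc0A : c0 ∈ A) (hc0 : c0 ≠ 0) (hc0m : c0⁻¹ ∉ A)
    (hrk : ∃ n : ℕ, c0 ^ n * cs⁻¹ ∈ A)
    (n0 : ℕ) (e e' : 𝔄) (he : e ∈ R0 n0) (he' : e' ∈ R1 n0)
    (hee : ∃ g, (∃ n, g ∈ R0 n) ∧ e ^ 2 - e = c0 • g)
    (hee' : ∃ g, (∃ n, g ∈ R1 n) ∧ e' ^ 2 - e' = c0 • g)
    (hdiff : ∃ g, (∃ n, g ∈ R01 n) ∧ e - e' = c0 • g)
    (hκe : ∃ u : F, u ∈ O ∧ κ e * u = 1) : False := by
  classical
  -- the three union rings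
  have hone01 : (1 : 𝔄) ∈ R01 0 := hle0 0 hone0
  set S0 : Subring 𝔄 := unionSubring R0 hmono0 hmul0 hone0 with hS0
  set S1 : Subring 𝔄 := unionSubring R1 hmono1 hmul1 hone1 with hS1
  set S : Subring 𝔄 := unionSubring R01 hmono01 hmul01 hone01 with hS
  have hS0S : ∀ x, x ∈ S0 → x ∈ S := by
    rintro x ⟨n, hx⟩; exact ⟨n, hle0 n hx⟩
  have hS1S : ∀ x, x ∈ S1 → x ∈ S := by
    rintro x ⟨n, hx⟩; exact ⟨n, hle1 n hx⟩
  set γ : 𝔄 := algebraMap L 𝔄 c0 with hγ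
  have hγ0 : γ ∈ S0 := algebraMap_mem_unionSubring A hsmul0 hc0A
  have hγ1 : γ ∈ S1 := algebraMap_mem_unionSubring A hsmul1 hc0A
  have hγS : γ ∈ S := algebraMap_mem_unionSubring A hsmul01 hc0A
  have hsm : ∀ (c : L) (x : 𝔄), c • x = algebraMap L 𝔄 c * x := fun c x => Algebra.smul_def c x
  -- κ and scalars
  have hκsmul : ∀ (c : L) (x : 𝔄), κ (c • x) = algebraMap L F c * κ x := by
    intro c x
    rw [← algebraMap_smul F c x, map_smul, smul_eq_mul]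
  -- valuations
  have hvc0 : A.valuation c0 < 1 := by
    by_contra hnot
    rw [not_lt] at hnot
    apply hc0m
    rw [← A.valuation_le_one_iff, map_inv₀]
    exact inv_le_one_of_one_le₀ hnot
  have hvc0pos : 0 < A.valuation c0 := by
    rw [pos_iff_ne_zero]
    exact (Valuation.ne_zero_iff _).mpr hc0
  have hOc0 : O.valuation (algebraMap L F c0) < 1 := by
    by_contra hnot
    rw [not_lt] at hnot
    apply hc0m
    apply hOA
    rw [← O.valuation_le_one_iff, map_inv₀, map_inv₀]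
    exact inv_le_one_of_one_le₀ hnot
  -- Claim A: stabilisation at all levels
  have claimA : ∀ n, N0 ≤ n → ∀ x ∈ R01 n,
      ∃ d ∈ R01 N0, ∃ y0 ∈ R0 n, ∃ y1 ∈ R1 n, x = d + y0 + y1 := by
    intro n hn
    induction n, hn using Nat.le_induction with
    | base =>
      intro x hx
      exact ⟨x, hx, 0, (R0 _).zero_mem, 0, (R1 _).zero_mem, by simp⟩
    | succ n hn ih =>
      intro x hx
      obtain ⟨d, hd, y0, hy0, y1, hy1, rfl⟩ := hstab n hn x hx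
      obtain ⟨d', hd', z0, hz0, z1, hz1, rfl⟩ := ih d hd
      refine ⟨d', hd', z0 + y0, (R0 _).add_mem (hmono0 (Nat.le_succ n) hz0) hy0,
        z1 + y1, (R1 _).add_mem (hmono1 (Nat.le_succ n) hz1) hy1, ?_⟩
      abel
  -- Claim B: bounded torsion at all levels
  have claimB : ∀ (n : ℕ) (d : 𝔄), d ∈ R01 n → ∀ (ε : L), ε ∈ A → ε ≠ 0 →
      ∀ (m : ℕ) (z0 z1 : 𝔄), z0 ∈ R0 m → z1 ∈ R1 m → ε • d = z0 + z1 →
      ∃ M, ∃ w0 ∈ R0 M, ∃ w1 ∈ R1 M, cs • d = w0 + w1 := by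
    intro n d hd ε hεA hε m z0 z1 hz0 hz1 hεd
    set M := max (max n N0) m with hM
    have hnM : max n N0 ≤ M := le_max_left _ _
    have hN0M : N0 ≤ M := le_trans (le_max_right n N0) hnM
    have hmM : m ≤ M := le_max_right _ _
    obtain ⟨d0, hd0, y0, hy0, y1, hy1, hdd⟩ :=
      claimA (max n N0) (le_max_right _ _) d (hmono01 (le_max_left _ _) hd)
    have hy0M : y0 ∈ R0 M := hmono0 hnM hy0
    have hy1M : y1 ∈ R1 M := hmono1 hnM hy1
    have hsum : (z0 - ε • y0) + (z1 - ε • y1) = ε • d0 := by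
      have : ε • d0 = ε • d - ε • y0 - ε • y1 := by
        rw [hdd]; simp only [smul_add]; abel
      rw [this, hεd]; abel
    obtain ⟨h0, h1⟩ := hinj M N0 (z0 - ε • y0) (z1 - ε • y1) hN0M
      ((R0 M).sub_mem (hmono0 hmM hz0) (hsmul0 M ε hεA y0 hy0M))
      ((R1 M).sub_mem (hmono1 hmM hz1) (hsmul1 M ε hεA y1 hy1M))
      (by rw [hsum]; exact hsmul01 N0 ε hεA d0 hd0)
    obtain ⟨v0, hv0, v1, hv1, hv⟩ := htors d0 hd0 ε hεA hε ⟨_, h0, _, h1, hsum.symm⟩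
    refine ⟨M, v0 + cs • y0, (R0 M).add_mem (hmono0 hN0M hv0) (hsmul0 M cs hcsA y0 hy0M),
      v1 + cs • y1, (R1 M).add_mem (hmono1 hN0M hv1) (hsmul1 M cs hcsA y1 hy1M), ?_⟩
    rw [hdd]; simp only [smul_add]; rw [hv]; abel
  -- the exponent
  obtain ⟨nrk, hnrk⟩ := hrk
  set K : ℕ := 2 ^ nrk with hK
  have hK1 : 1 ≤ K := Nat.one_le_two_pow
  have hKlt : nrk < K := Nat.lt_two_pow_self
  -- Newton in S0 and S1
  obtain ⟨g0, hg0, hg0e⟩ := hee
  obtain ⟨g1, hg1, hg1e⟩ := hee'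
  obtain ⟨gd, hgd, hgde⟩ := hdiff
  have heS0 : e ∈ S0 := ⟨n0, he⟩
  have he'S1 : e' ∈ S1 := ⟨n0, he'⟩
  obtain ⟨x, a, h, hxa, hxe⟩ := newton_idempotent (B := S0) (γ := ⟨γ, hγ0⟩) (e := ⟨e, heS0⟩)
    (g0 := ⟨g0, hg0⟩) (by ext; push_cast; rw [hg0e, hsm]) nrk
  obtain ⟨y, b, h', hyb, hye⟩ := newton_idempotent (B := S1) (γ := ⟨γ, hγ1⟩) (e := ⟨e', he'S1⟩)
    (g0 := ⟨g1, hg1⟩) (by ext; push_cast; rw [hg1e, hsm]) nrk
  have hxa' : (x : 𝔄) ^ 2 - x = γ ^ K * a := by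
    have := congrArg Subtype.val hxa
    push_cast at this
    exact this
  have hxe' : (x : 𝔄) - e = γ * h := by
    have := congrArg Subtype.val hxe
    push_cast at this
    exact this
  have hyb' : (y : 𝔄) ^ 2 - y = γ ^ K * b := by
    have := congrArg Subtype.val hyb
    push_cast at this
    exact this
  have hye' : (y : 𝔄) - e' = γ * h' := by
    have := congrArg Subtype.val hye
    push_cast at this
    exact this
  -- uniqueness in S
  have hxy1 : (x : 𝔄) - y = γ * ((h : 𝔄) + gd - h') := by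
    have : (x : 𝔄) - y = ((x : 𝔄) - e) + (e - e') - ((y : 𝔄) - e') := by ring
    rw [this, hxe', hye', hgde, hsm]; ring
  obtain ⟨d, hd⟩ := idempotent_lift_unique (B := S) (γ := ⟨γ, hγS⟩)
    (x := ⟨x, hS0S _ x.2⟩) (y := ⟨y, hS1S _ y.2⟩) (a := ⟨a, hS0S _ a.2⟩) (b := ⟨b, hS1S _ b.2⟩)
    (d1 := ⟨(h : 𝔄) + gd - h', S.sub_mem (S.add_mem (hS0S _ h.2) hgd) (hS1S _ h'.2)⟩) (K := K)
    (by ext; push_cast; exact hxa')
    (by ext; push_cast; exact hyb')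
    (by ext; push_cast; exact hxy1) hK1
  have hd' : (x : 𝔄) - y = (c0 ^ K) • (d : 𝔄) := by
    have := congrArg Subtype.val hd
    push_cast at this
    rw [this, hsm, map_pow]
  -- bounded torsion
  obtain ⟨nd, hnd⟩ := d.2
  obtain ⟨nx, hnx⟩ := x.2
  obtain ⟨ny, hny⟩ := y.2
  have hεA : c0 ^ K ∈ A := A.pow_mem hc0A K
  have hε : c0 ^ K ≠ 0 := pow_ne_zero K hc0
  obtain ⟨M, w0, hw0, w1, hw1, hw⟩ := claimB nd d hnd (c0 ^ K) hεA hε (max nx ny) x (-y)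
    (hmono0 (le_max_left _ _) hnx) ((R1 _).neg_mem (hmono1 (le_max_right _ _) hny))
    (by rw [← hd']; ring)
  -- the element of R0 ∩ R1
  set ξ : 𝔄 := cs • (x : 𝔄) - (c0 ^ K) • w0 with hξ
  have hξ0 : ξ ∈ R0 (max nx M) :=
    (R0 _).sub_mem (hsmul0 _ cs hcsA _ (hmono0 (le_max_left _ _) hnx))
      (hsmul0 _ _ hεA _ (hmono0 (le_max_right _ _) hw0))
  have hξeq : ξ = cs • (y : 𝔄) + (c0 ^ K) • w1 := by
    have h1 : cs • ((x : 𝔄) - y) = (c0 ^ K) • (w0 + w1) := by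
      rw [hd', ← hw, smul_comm]
    rw [hξ]
    have h2 : cs • (x : 𝔄) = cs • ((x : 𝔄) - y) + cs • (y : 𝔄) := by
      rw [← smul_add]; congr 1; ring
    rw [h2, h1, smul_add]; abel
  have hξ1 : ξ ∈ R1 (max ny M) := by
    rw [hξeq]
    exact (R1 _).add_mem (hsmul1 _ cs hcsA _ (hmono1 (le_max_left _ _) hny))
      (hsmul1 _ _ hεA _ (hmono1 (le_max_right _ _) hw1))
  have hκξ : κ ξ = 0 := hint _ _ ξ hξ0 hξ1
  rw [hξ, map_sub, hκsmul, hκsmul, sub_eq_zero] at hκξ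
  -- κ x is a unit of O
  obtain ⟨u, huO, hu⟩ := hκe
  have hve : O.valuation (κ e) = 1 := by
    have h1 : O.valuation (κ e) ≤ 1 := (O.valuation_le_one_iff _).mpr (hκ0 n0 e he)
    have h2 : O.valuation u ≤ 1 := (O.valuation_le_one_iff _).mpr huO
    have h3 : O.valuation (κ e) * O.valuation u = 1 := by rw [← map_mul, hu, map_one]
    refine le_antisymm h1 ?_
    calc (1 : _) = O.valuation (κ e) * O.valuation u := h3.symm
      _ ≤ O.valuation (κ e) * 1 := mul_le_mul' le_rfl h2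
      _ = O.valuation (κ e) := mul_one _
  obtain ⟨nh, hnh⟩ := h.2
  have hvx : O.valuation (κ (x : 𝔄)) = 1 := by
    have : (x : 𝔄) = e + c0 • (h : 𝔄) := by
      rw [hsm, ← hxe']; ring
    rw [this, map_add, hκsmul]
    have hlt : O.valuation (algebraMap L F c0 * κ (h : 𝔄)) < O.valuation (κ e) := by
      rw [hve, map_mul]
      calc O.valuation (algebraMap L F c0) * O.valuation (κ (h : 𝔄))
          ≤ O.valuation (algebraMap L F c0) * 1 :=
            mul_le_mul' le_rfl ((O.valuation_le_one_iff _).mpr (hκ0 nh _ hnh))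
        _ = O.valuation (algebraMap L F c0) := mul_one _
        _ < 1 := hOc0
    rw [Valuation.map_add_eq_of_lt_left _ hlt, hve]
  -- conclusion: cs / c0^K ∈ A
  have hmem : cs * (c0 ^ K)⁻¹ ∈ A := by
    apply hOA
    rw [← O.valuation_le_one_iff, map_mul, map_inv₀, map_mul, map_inv₀]
    have h1 := congrArg O.valuation hκξ
    rw [map_mul, map_mul, hvx, mul_one] at h1
    rw [h1]
    have hne : O.valuation (algebraMap L F (c0 ^ K)) ≠ 0 := by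
      rw [Valuation.ne_zero_iff]
      exact (map_ne_zero _).mpr hε
    rw [mul_comm (O.valuation (algebraMap L F (c0 ^ K))), mul_assoc, mul_inv_cancel₀ hne, mul_one]
    exact (O.valuation_le_one_iff _).mpr (hκ0 M w0 hw0)
  -- contradiction with the rank-one hypothesis
  have hfin : c0 ^ nrk * (c0 ^ K)⁻¹ ∈ A := by
    have : c0 ^ nrk * (c0 ^ K)⁻¹ = (c0 ^ nrk * cs⁻¹) * (cs * (c0 ^ K)⁻¹) := by
      field_simp
    rw [this]
    exact A.mul_mem _ _ hnrk hmem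
  rw [← A.valuation_le_one_iff, map_mul, map_inv₀, map_pow, map_pow] at hfin
  have hlt : A.valuation c0 ^ K < A.valuation c0 ^ nrk :=
    pow_lt_pow_right_of_lt_one₀ hvc0pos hvc0 hKlt
  have hposK : 0 < A.valuation c0 ^ K := pow_pos hvc0pos K
  have : A.valuation c0 ^ nrk ≤ A.valuation c0 ^ K := by
    have h2 := mul_le_mul' hfin (le_refl (A.valuation c0 ^ K))
    rwa [mul_assoc, inv_mul_cancel₀ hposK.ne', mul_one, one_mul] at h2
  exact absurd hlt (not_lt.mpr this)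

end Core

end Fermat.Agent.Lib.Red.Kummer
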