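import Mathlib
import Fermat.Prelude.Def_AlgebraicCurve_Repartitions
import Fermat.Agent.Lib.Red.KummerCore

/-!
# RED-KUMMER, layer 2a: the Kummer algebra `R[T]/(T^p - f)` and its pole-order filtration

* `KAlg p f := AdjoinRoot (X^p - C f)` over any commutative ring, with the class `kT` of `T`,
  the coordinate functionals `kco j` (`j < p`) and functoriality `kmap` in the base ring.
* For a field `F` with Prelude places over `L`, a valuation subring `O` of `F`, a divisor `D`
  with `div f = p • D`: the filtration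
  `Rfil E = {a | ∀ j < p, kco j a ∈ L(E + j • D) ∩ O}` is multiplicative, monotone,
  stable under `A`-scalars, and satisfies the "two charts" separation properties.
-/

set_option autoImplicit false

namespace Fermat.Agent.Lib.Red.Kummer

open Polynomial

section Model

variable {R : Type*} [CommRing R] (p : ℕ) (f : R)

/-- The Kummer polynomial `X^p - f`. -/
noncomputable def kpoly : R[X] := X ^ p - C f

theorem kpoly_monic (hp : p ≠ 0) : (kpoly p f).Monic := monic_X_pow_sub_C f hp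

theorem kpoly_natDegree [Nontrivial R] : (kpoly p f).natDegree = p := natDegree_X_pow_sub_C

theorem kpoly_map {S : Type*} [CommRing S] (φ : R →+* S) :
    (kpoly p f).map φ = kpoly p (φ f) := by
  simp [kpoly]

/-- The Kummer algebra `R[T]/(T^p - f)`. -/
abbrev KAlg : Type _ := AdjoinRoot (kpoly p f)

/-- The class of `T`. -/
noncomputable def kT : KAlg p f := AdjoinRoot.root (kpoly p f)

theorem kT_eq_mk : kT p f = AdjoinRoot.mk (kpoly p f) X := rfl

theorem kT_pow_self : kT p f ^ p = algebraMap R (KAlg p f) f := by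
  have h : AdjoinRoot.mk (kpoly p f) (X ^ p - C f) = 0 := AdjoinRoot.mk_self
  rw [map_sub, map_pow, AdjoinRoot.mk_X, AdjoinRoot.mk_C, sub_eq_zero] at h
  rw [kT, h, AdjoinRoot.algebraMap_eq]

/-- The `j`-th coordinate with respect to `1, T, …, T^(p-1)`. -/
noncomputable def kco (hp : p ≠ 0) (j : ℕ) : KAlg p f →ₗ[R] R :=
  (Polynomial.lcoeff R j).comp (AdjoinRoot.modByMonicHom (kpoly_monic p f hp))

theorem kco_mk (hp : p ≠ 0) (j : ℕ) (q : R[X]) :
    kco p f hp j (AdjoinRoot.mk (kpoly p f) q) = (q %ₘ kpoly p f).coeff j := rfl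

theorem kco_eq_zero_of_le [Nontrivial R] (hp : p ≠ 0) {j : ℕ} (hj : p ≤ j) (a : KAlg p f) :
    kco p f hp j a = 0 := by
  induction a using AdjoinRoot.induction_on with
  | ih q =>
    rw [kco_mk]
    apply coeff_eq_zero_of_natDegree_lt
    have hne : kpoly p f ≠ 1 := by
      intro h
      have := congrArg natDegree h
      rw [kpoly_natDegree, natDegree_one] at this
      exact hp this
    have := natDegree_modByMonic_lt q (kpoly_monic p f hp) hne
    rw [kpoly_natDegree] at this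
    omega

theorem kco_kT_pow [Nontrivial R] (hp : p ≠ 0) (i : ℕ) {j : ℕ} (hj : j < p) :
    kco p f hp i (kT p f ^ j) = if i = j then 1 else 0 := by
  rw [kT_eq_mk, ← map_pow, kco_mk]
  have h : (X ^ j : R[X]) %ₘ kpoly p f = X ^ j := by
    rw [modByMonic_eq_self_iff (kpoly_monic p f hp), degree_X_pow,
      degree_eq_natDegree (kpoly_monic p f hp).ne_zero, kpoly_natDegree]
    exact_mod_cast hj
  rw [h, coeff_X_pow]

theorem k_expand [Nontrivial R] (hp : p ≠ 0) (a : KAlg p f) :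
    a = ∑ j ∈ Finset.range p, kco p f hp j a • kT p f ^ j := by
  induction a using AdjoinRoot.induction_on with
  | ih q =>
    have h1 : AdjoinRoot.mk (kpoly p f) q = AdjoinRoot.mk (kpoly p f) (q %ₘ kpoly p f) := by
      have := AdjoinRoot.mk_leftInverse (kpoly_monic p f hp) (AdjoinRoot.mk (kpoly p f) q)
      rw [AdjoinRoot.modByMonicHom_mk] at this
      exact this.symm
    have hne : kpoly p f ≠ 1 := by
      intro h
      have := congrArg natDegree h
      rw [kpoly_natDegree, natDegree_one] at this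
      exact hp this
    have hdeg : (q %ₘ kpoly p f).natDegree < p := by
      have := natDegree_modByMonic_lt q (kpoly_monic p f hp) hne
      rwa [kpoly_natDegree] at this
    conv_lhs => rw [h1, as_sum_range_C_mul_X_pow' (q %ₘ kpoly p f) hdeg]
    rw [map_sum]
    refine Finset.sum_congr rfl fun j _ => ?_
    rw [map_mul, map_pow, AdjoinRoot.mk_X, AdjoinRoot.mk_C, kco_mk, Algebra.smul_def,
      AdjoinRoot.algebraMap_eq]
    rfl

theorem k_ext [Nontrivial R] (hp : p ≠ 0) {a b : KAlg p f}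
    (h : ∀ j, j < p → kco p f hp j a = kco p f hp j b) : a = b := by
  rw [k_expand p f hp a, k_expand p f hp b]
  exact Finset.sum_congr rfl fun j hj => by rw [h j (Finset.mem_range.mp hj)]

/-- Coordinates of a linear combination of the monomials. -/
theorem kco_sum_smul [Nontrivial R] (hp : p ≠ 0) (c : ℕ → R) {i : ℕ} (hi : i < p) :
    kco p f hp i (∑ j ∈ Finset.range p, c j • kT p f ^ j) = c i := by
  rw [map_sum]
  rw [Finset.sum_eq_single i]
  · rw [map_smul, kco_kT_pow p f hp i hi, if_pos rfl, smul_eq_mul, mul_one]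
  · intro j hj hji
    rw [map_smul, kco_kT_pow p f hp i (Finset.mem_range.mp hj), if_neg (Ne.symm hji), smul_zero]
  · intro h
    exact absurd (Finset.mem_range.mpr hi) h

section Functorial

variable {S : Type*} [CommRing S] (φ : R →+* S)

/-- Functoriality of the Kummer algebra in the base ring. -/
noncomputable def kmap : KAlg p f →+* KAlg p (φ f) :=
  AdjoinRoot.map φ (kpoly p f) (kpoly p (φ f)) (by rw [kpoly_map])

theorem kmap_mk (q : R[X]) :
    kmap p f φ (AdjoinRoot.mk (kpoly p f) q) = AdjoinRoot.mk (kpoly p (φ f)) (q.map φ) := by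
  rw [kmap, AdjoinRoot.map, AdjoinRoot.lift_mk, ← Polynomial.eval₂_map, ← AdjoinRoot.algebraMap_eq,
    ← aeval_def, AdjoinRoot.aeval_eq]

theorem kmap_kT : kmap p f φ (kT p f) = kT p (φ f) := by
  rw [kT_eq_mk, kmap_mk, Polynomial.map_X, kT_eq_mk]

theorem kco_kmap (hp : p ≠ 0) (j : ℕ) (a : KAlg p f) :
    kco p (φ f) hp j (kmap p f φ a) = φ (kco p f hp j a) := by
  induction a using AdjoinRoot.induction_on with
  | ih q =>
    rw [kmap_mk, kco_mk, kco_mk, ← kpoly_map, ← map_modByMonic φ (kpoly_monic p f hp), coeff_map]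

theorem kmap_sum_smul (c : ℕ → R) :
    kmap p f φ (∑ j ∈ Finset.range p, c j • kT p f ^ j) =
      ∑ j ∈ Finset.range p, φ (c j) • kT p (φ f) ^ j := by
  rw [map_sum]
  refine Finset.sum_congr rfl fun j _ => ?_
  rw [Algebra.smul_def, Algebra.smul_def, map_mul, map_pow, kmap_kT, AdjoinRoot.algebraMap_eq,
    AdjoinRoot.algebraMap_eq]
  congr 1
  rw [kmap, AdjoinRoot.map_of]

end Functorial

end Model

section Filtration

open AlgebraicCurve WithZero

variable {L F : Type*} [Field L] [Field F] [Algebra L F]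

theorem mem_rrSpace_iff {B : Divisor L F} {x : F} :
    x ∈ riemannRochSpace B ↔ ∀ v : Place L F, v.adicValuation x ≤ exp (B v) := Iff.rfl

/-- `L(B) ∩ O` as an additive subgroup of `F`. -/
def lam (O : ValuationSubring F) (B : Divisor L F) : AddSubgroup F where
  carrier := {x | x ∈ riemannRochSpace B ∧ x ∈ O}
  zero_mem' := ⟨Submodule.zero_mem _, O.zero_mem⟩
  add_mem' := fun hx hy => ⟨Submodule.add_mem _ hx.1 hy.1, O.add_mem _ _ hx.2 hy.2⟩
  neg_mem' := fun hx => ⟨Submodule.neg_mem _ hx.1, O.neg_mem _ hx.2⟩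

theorem mem_lam {O : ValuationSubring F} {B : Divisor L F} {x : F} :
    x ∈ lam O B ↔ x ∈ riemannRochSpace B ∧ x ∈ O := Iff.rfl

theorem lam_mono (O : ValuationSubring F) {B B' : Divisor L F} (h : B ≤ B') :
    lam O B ≤ lam O B' := by
  rintro x ⟨hx, hxO⟩
  exact ⟨fun v => (hx v).trans (exp_le_exp.mpr (h v)), hxO⟩

theorem mul_mem_lam {O : ValuationSubring F} {B B' : Divisor L F} {x y : F}
    (hx : x ∈ lam O B) (hy : y ∈ lam O B') : x * y ∈ lam O (B + B') := by
  refine ⟨fun v => ?_, O.mul_mem _ _ hx.2 hy.2⟩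
  rw [map_mul, Finsupp.add_apply, exp_add]
  exact mul_le_mul' (hx.1 v) (hy.1 v)

theorem mul_f_mem_lam {O : ValuationSubring F} {p : ℕ} {f : F} {D : Divisor L F} (hfO : f ∈ O)
    (hdiv : ∀ v : Place L F, v.adicValuation f = exp (-((p : ℤ) * D v)))
    {B : Divisor L F} {m : ℕ} {x : F} (hx : x ∈ lam O (B + (p + m) • D)) :
    x * f ∈ lam O (B + m • D) := by
  refine ⟨fun v => ?_, O.mul_mem _ _ hx.2 hfO⟩
  rw [map_mul, hdiv v]
  have h1 := hx.1 v
  have h2 : exp ((B + (p + m) • D) v) * exp (-((p : ℤ) * D v)) = exp ((B + m • D) v) := by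
    rw [← exp_add]
    congr 1
    simp only [Finsupp.add_apply, Finsupp.smul_apply, nsmul_eq_mul]
    push_cast
    ring
  rw [← h2]
  exact mul_le_mul' h1 le_rfl

theorem algebraMap_mul_mem_lam {A : ValuationSubring L} {O : ValuationSubring F}
    (hAO : ∀ c : L, c ∈ A → algebraMap L F c ∈ O) {B : Divisor L F} {c : L} (hc : c ∈ A)
    {x : F} (hx : x ∈ lam O B) : algebraMap L F c * x ∈ lam O B := by
  refine ⟨?_, O.mul_mem _ _ (hAO c hc) hx.2⟩
  rw [← Algebra.smul_def]
  exact Submodule.smul_mem _ c hx.1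

/-- Separation of the two charts at the level of `L(B) ∩ O`. -/
theorem lam_sep {O : ValuationSubring F} {E0 E1 B : Divisor L F}
    (hE : ∀ v : Place L F, 0 ≤ E0 v ∧ 0 ≤ E1 v ∧ (E0 v = 0 ∨ E1 v = 0))
    {m n : ℕ} {x y : F} (hx : x ∈ lam O (m • E0 + B))
    (hy : y ∈ lam O (m • E1 + B)) (hxy : x + y ∈ lam O (n • (E0 + E1) + B)) :
    x ∈ lam O (n • E0 + B) := by
  refine ⟨fun v => ?_, hx.2⟩
  obtain ⟨h0, h1, h01⟩ := hE v
  have hxv := hx.1 v
  have hyv := hy.1 v
  have hxyv := hxy.1 v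
  simp only [Finsupp.add_apply, Finsupp.smul_apply, nsmul_eq_mul] at hxv hyv hxyv ⊢
  rcases h01 with h | h
  · rw [h, mul_zero, zero_add] at hxv
    rw [h, mul_zero, zero_add]
    exact hxv
  · rw [h, mul_zero, zero_add] at hyv
    rw [h, add_zero] at hxyv
    have hx' : x = (x + y) - y := by ring
    rw [hx']
    refine (Valuation.map_sub _ _ _).trans (max_le hxyv (hyv.trans (exp_le_exp.mpr ?_)))
    have : (0 : ℤ) ≤ (n : ℤ) * E0 v := mul_nonneg (Int.natCast_nonneg n) h0
    linarith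

theorem lam_inter {O : ValuationSubring F} {E0 E1 B : Divisor L F}
    (hE : ∀ v : Place L F, 0 ≤ E0 v ∧ 0 ≤ E1 v ∧ (E0 v = 0 ∨ E1 v = 0))
    {m n : ℕ} {x : F} (hx : x ∈ lam O (m • E0 + B)) (hx' : x ∈ lam O (n • E1 + B)) :
    x ∈ lam O B := by
  refine ⟨fun v => ?_, hx.2⟩
  obtain ⟨h0, h1, h01⟩ := hE v
  have hxv := hx.1 v
  have hxv' := hx'.1 v
  simp only [Finsupp.add_apply, Finsupp.smul_apply, nsmul_eq_mul] at hxv hxv'
  rcases h01 with h | h
  · rwa [h, mul_zero, zero_add] at hxv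
  · rwa [h, mul_zero, zero_add] at hxv'

variable (O : ValuationSubring F) (p : ℕ) (hp : p ≠ 0) (f : F) (D : Divisor L F)

/-- The filtration `R(E) = ⊕_{j<p} (L(E + jD) ∩ O) T^j` of the Kummer algebra. -/
def Rfil (E : Divisor L F) : AddSubgroup (KAlg p f) where
  carrier := {a | ∀ j, j < p → kco p f hp j a ∈ lam O (E + j • D)}
  zero_mem' := fun j _ => by rw [map_zero]; exact AddSubgroup.zero_mem _
  add_mem' := fun ha hb j hj => by rw [map_add]; exact AddSubgroup.add_mem _ (ha j hj) (hb j hj)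
  neg_mem' := fun ha j hj => by rw [map_neg]; exact AddSubgroup.neg_mem _ (ha j hj)

variable {O p hp f D}

theorem mem_Rfil {E : Divisor L F} {a : KAlg p f} :
    a ∈ Rfil O p hp f D E ↔ ∀ j, j < p → kco p f hp j a ∈ lam O (E + j • D) := Iff.rfl

theorem Rfil_mono {E E' : Divisor L F} (h : E ≤ E') :
    Rfil O p hp f D E ≤ Rfil O p hp f D E' := fun _ ha j hj =>
  lam_mono O (add_le_add_left h _) (ha j hj)

theorem smul_kT_pow_mem_Rfil {E : Divisor L F} {m : ℕ} (hm : m < p) {x : F}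
    (hx : x ∈ lam O (E + m • D)) : x • kT p f ^ m ∈ Rfil O p hp f D E := by
  intro j hj
  rw [map_smul, kco_kT_pow p f hp j hm, smul_eq_mul]
  split_ifs with h
  · subst h; rw [mul_one]; exact hx
  · rw [mul_zero]; exact AddSubgroup.zero_mem _

theorem sum_smul_mem_Rfil {E : Divisor L F} {c : ℕ → F}
    (hc : ∀ j, j < p → c j ∈ lam O (E + j • D)) :
    ∑ j ∈ Finset.range p, c j • kT p f ^ j ∈ Rfil O p hp f D E :=
  AddSubgroup.sum_mem _ fun j hj =>
    smul_kT_pow_mem_Rfil (Finset.mem_range.mp hj) (hc j (Finset.mem_range.mp hj))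

theorem monomial_mul_mem_Rfil (hfO : f ∈ O)
    (hdiv : ∀ v : Place L F, v.adicValuation f = exp (-((p : ℤ) * D v)))
    {E E' : Divisor L F} {i j : ℕ} (hi : i < p) (hj : j < p) {x y : F}
    (hx : x ∈ lam O (E + i • D)) (hy : y ∈ lam O (E' + j • D)) :
    (x * y) • kT p f ^ (i + j) ∈ Rfil O p hp f D (E + E') := by
  have hxy : x * y ∈ lam O (E + E' + (i + j) • D) := by
    have := mul_mem_lam hx hy
    have e : E + i • D + (E' + j • D) = E + E' + (i + j) • D := by rw [add_smul]; abel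
    rwa [e] at this
  rcases lt_or_ge (i + j) p with h | h
  · exact smul_kT_pow_mem_Rfil h hxy
  · obtain ⟨m, hm⟩ := Nat.exists_eq_add_of_le h
    have hmp : m < p := by omega
    rw [hm, pow_add, kT_pow_self, ← Algebra.smul_def, smul_smul]
    rw [hm] at hxy
    exact smul_kT_pow_mem_Rfil hmp (mul_f_mem_lam hfO hdiv hxy)

theorem Rfil_mul (hfO : f ∈ O)
    (hdiv : ∀ v : Place L F, v.adicValuation f = exp (-((p : ℤ) * D v)))
    {E E' : Divisor L F} {a b : KAlg p f}
    (ha : a ∈ Rfil O p hp f D E) (hb : b ∈ Rfil O p hp f D E') :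
    a * b ∈ Rfil O p hp f D (E + E') := by
  have hab : a * b = ∑ i ∈ Finset.range p, ∑ j ∈ Finset.range p,
      (kco p f hp i a * kco p f hp j b) • kT p f ^ (i + j) := by
    conv_lhs => rw [k_expand p f hp a, k_expand p f hp b, Finset.sum_mul_sum]
    refine Finset.sum_congr rfl fun i _ => Finset.sum_congr rfl fun j _ => ?_
    rw [smul_mul_smul_comm, ← pow_add]
  rw [hab]
  refine AddSubgroup.sum_mem _ fun i hi => AddSubgroup.sum_mem _ fun j hj => ?_
  rw [Finset.mem_range] at hi hj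
  exact monomial_mul_mem_Rfil hfO hdiv hi hj (ha i hi) (hb j hj)

theorem one_mem_Rfil (hp1 : 0 < p) : (1 : KAlg p f) ∈ Rfil O p hp f D 0 := by
  have h1 : (1 : F) ∈ lam O ((0 : Divisor L F) + 0 • D) := by
    refine ⟨fun v => ?_, O.one_mem⟩
    simp
  have := smul_kT_pow_mem_Rfil (hp := hp) (f := f) hp1 h1
  simpa using this

theorem smul_mem_Rfil {A : ValuationSubring L} (hAO : ∀ c : L, c ∈ A → algebraMap L F c ∈ O)
    {E : Divisor L F} {c : L} (hc : c ∈ A) {a : KAlg p f} (ha : a ∈ Rfil O p hp f D E) :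
    c • a ∈ Rfil O p hp f D E := by
  intro j hj
  rw [← algebraMap_smul F c a, map_smul, smul_eq_mul]
  exact algebraMap_mul_mem_lam hAO hc (ha j hj)

theorem Rfil_sep {E0 E1 : Divisor L F}
    (hE : ∀ v : Place L F, 0 ≤ E0 v ∧ 0 ≤ E1 v ∧ (E0 v = 0 ∨ E1 v = 0))
    {m n : ℕ} {y0 y1 : KAlg p f} (h0 : y0 ∈ Rfil O p hp f D (m • E0))
    (h1 : y1 ∈ Rfil O p hp f D (m • E1)) (h01 : y0 + y1 ∈ Rfil O p hp f D (n • (E0 + E1))) :
    y0 ∈ Rfil O p hp f D (n • E0) ∧ y1 ∈ Rfil O p hp f D (n • E1) := by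
  have hE' : ∀ v : Place L F, 0 ≤ E1 v ∧ 0 ≤ E0 v ∧ (E1 v = 0 ∨ E0 v = 0) := fun v =>
    ⟨(hE v).2.1, (hE v).1, (hE v).2.2.symm⟩
  constructor
  · intro j hj
    have := h01 j hj
    rw [map_add] at this
    exact lam_sep hE (h0 j hj) (h1 j hj) this
  · intro j hj
    have := h01 j hj
    rw [map_add, add_comm (kco p f hp j y0), add_comm E0 E1] at this
    exact lam_sep hE' (h1 j hj) (h0 j hj) this

theorem Rfil_inter {E0 E1 : Divisor L F}
    (hE : ∀ v : Place L F, 0 ≤ E0 v ∧ 0 ≤ E1 v ∧ (E0 v = 0 ∨ E1 v = 0))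
    {m n : ℕ} {x : KAlg p f} (h0 : x ∈ Rfil O p hp f D (m • E0))
    (h1 : x ∈ Rfil O p hp f D (n • E1)) {j : ℕ} (hj : j < p) :
    kco p f hp j x ∈ lam O (j • D) :=
  lam_inter hE (h0 j hj) (h1 j hj)

end Filtration

end Fermat.Agent.Lib.Red.Kummer
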