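import Mathlib
import Fermat.Prelude.Def_AlgebraicCurve_Repartitions
import Fermat.Agent.Lib.Red.KummerModel

/-!
# RED-KUMMER, layer 2b: reduction of divisor classes is injective on `p`-torsion

Abstract "reduction setting" (`RedSetting`): fields `F/L` and `Ft/k` with Prelude places,
valuation rings `A ⊆ L`, `O ⊆ F`, a reduction map `red : O →+* Ft` and a place reduction
`r : Place L F → Place k Ft` satisfying the Prelude spec, together with

* (LAT) lattices: `V ∩ O` is a finitely generated `A`-module for finite-dimensional `V ⊆ F`;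
* (LP) lifting: `L(B) ∩ O → L~(r_* B)` is onto for `deg B` large;
* (MV) Mayer–Vietoris on `Ft`: `L~(G + E₀ + E₁) = L~(G + E₀) + L~(G + E₁)` for `deg G` large
  and `E₀, E₁ ≥ 0` with disjoint supports.

Main result `kummer_red_injective`: if `p • D` and `r_* D` are principal (`p` prime, invertible
on the special fibre, `deg D = 0`) then `D` is principal.
-/

set_option autoImplicit false

namespace Fermat.Agent.Lib.Red.Kummer

open AlgebraicCurve WithZero

variable {L F k Ft : Type*} [Field L] [Field F] [Field k] [Field Ft] [Algebra L F] [Algebra k Ft]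

/-- The abstract reduction setting consumed by RED-KUMMER. -/
structure RedSetting (A : ValuationSubring L) (O : ValuationSubring F) (red : O →+* Ft)
    (r : Place L F → Place k Ft) : Prop where
  /-- `O ∩ L = A`. -/
  hOA : ∀ c : L, algebraMap L F c ∈ O ↔ c ∈ A
  /-- the value group of `O` is that of `A`: every nonzero element is a constant times a unit. -/
  hscale : ∀ y : F, y ≠ 0 → ∃ c : L, c ≠ 0 ∧ O.valuation (algebraMap L F c * y) = 1
  /-- the kernel of the reduction map is the maximal ideal. -/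
  hker : ∀ y : O, red y = 0 ↔ O.valuation (y : F) < 1
  /-- the Prelude spec of a place reduction. -/
  hspec : ∀ y : O, red y ≠ 0 → ∀ B : Divisor L F, (∀ P, B P = P.ord (y : F)) →
    ∀ Q, Finsupp.mapDomain r B Q = Q.ord (red y)
  hdegr : ∀ P, (r P).deg = P.deg
  hdeg1 : ∀ P : Place L F, P.deg = 1
  hprin : ∀ y : F, y ≠ 0 → ∃ B : Divisor L F, (∀ P, B P = P.ord y) ∧ Divisor.degree B = 0
  hfin : ∀ B : Divisor L F, FiniteDimensional L (riemannRochSpace B)
  /-- (LAT) -/
  hlat : ∀ V : Submodule L F, FiniteDimensional L V →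
    ∃ N : Submodule A F, N.FG ∧ ∀ x : F, x ∈ N ↔ (x ∈ V ∧ x ∈ O)
  /-- (LP) -/
  hLP : ∃ e : ℤ, ∀ B : Divisor L F, e ≤ Divisor.degree B →
    ∀ h ∈ riemannRochSpace (Finsupp.mapDomain r B),
      ∃ y : O, (y : F) ∈ riemannRochSpace B ∧ red y = h
  /-- (MV) -/
  hMV : ∃ e : ℤ, ∀ G E0 E1 : Divisor k Ft, e ≤ Divisor.degree G →
    (∀ Q, 0 ≤ E0 Q ∧ 0 ≤ E1 Q ∧ (E0 Q = 0 ∨ E1 Q = 0)) →
      riemannRochSpace (G + E0 + E1) ≤ riemannRochSpace (G + E0) ⊔ riemannRochSpace (G + E1)
  /-- `A` has rank one. -/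
  hrk : ∀ c a : L, c ∈ A → a ∈ A → a ≠ 0 → c⁻¹ ∉ A → ∃ n : ℕ, c ^ n * a⁻¹ ∈ A
  hnontriv : ∃ c : L, c ∈ A ∧ c ≠ 0 ∧ c⁻¹ ∉ A
  hplaces : ∃ P0 P1 : Place L F, r P0 ≠ r P1

section Generalities

omit [Field k] [Algebra k Ft] [Field Ft] in
/-- A place is trivial on nonzero constants. -/
theorem adicValuation_algebraMap_eq_one (v : Place L F) {c : L} (hc : c ≠ 0) :
    v.adicValuation (algebraMap L F c) = 1 := by
  refine le_antisymm (v.adicValuation_algebraMap_le_one c) ?_
  have h := v.adicValuation_algebraMap_le_one c⁻¹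
  rw [map_inv₀, map_inv₀] at h
  have hne : v.adicValuation (algebraMap L F c) ≠ 0 :=
    v.adicValuation_ne_zero ((map_ne_zero _).mpr hc)
  exact (inv_le_one₀ (zero_lt_iff.mpr hne)).mp h

theorem mapDomain_nonneg_of_nonneg (r : Place L F → Place k Ft) {G : Divisor L F}
    (hG : ∀ P, 0 ≤ G P) (Q : Place k Ft) : 0 ≤ Finsupp.mapDomain r G Q := by
  classical
  rw [Finsupp.mapDomain, Finsupp.sum_apply]
  refine Finset.sum_nonneg fun P _ => ?_
  show 0 ≤ (Finsupp.single (r P) (G P)) Q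
  rw [Finsupp.single_apply]
  split_ifs
  · exact hG P
  · exact le_rfl

theorem degree_mapDomain_eq (r : Place L F → Place k Ft) (hdeg : ∀ P, (r P).deg = P.deg)
    (G : Divisor L F) : Divisor.degree (Finsupp.mapDomain r G) = Divisor.degree G := by
  induction G using Finsupp.induction with
  | zero => simp
  | single_add P n G _ _ ih =>
    rw [Finsupp.mapDomain_add, map_add, map_add, ih, Finsupp.mapDomain_single,
      Divisor.degree_single, Divisor.degree_single, hdeg]

omit [Field F] [Algebra L F] [Field k] [Algebra k Ft] [Field Ft] in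
theorem valA_lt_one_of_inv_notMem {A : ValuationSubring L} {c : L} (hc : c⁻¹ ∉ A) :
    A.valuation c < 1 := by
  by_contra h
  rw [not_lt] at h
  exact hc ((A.valuation_le_one_iff _).mp (by rw [map_inv₀]; exact inv_le_one_of_one_le₀ h))

omit [Field k] [Algebra k Ft] [Field Ft] in
/-- An effective divisor of degree zero is zero (all places of degree one). -/
theorem eq_zero_of_nonneg_of_degree_eq_zero (hdeg1 : ∀ P : Place L F, P.deg = 1)
    {G : Divisor L F} (hG : ∀ P, 0 ≤ G P) (hdeg : Divisor.degree G = 0) : G = 0 := by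
  classical
  have h1 : Divisor.degree G = ∑ P ∈ G.support, G P := by
    rw [Divisor.degree, Finsupp.liftAddHom_apply, Finsupp.sum]
    refine Finset.sum_congr rfl fun P _ => ?_
    rw [AddMonoidHom.mulRight_apply, hdeg1, Nat.cast_one, mul_one]
  rw [h1] at hdeg
  have h2 := (Finset.sum_eq_zero_iff_of_nonneg (fun P _ => hG P)).mp hdeg
  ext P
  by_cases hP : P ∈ G.support
  · exact h2 P hP
  · rw [Finsupp.notMem_support_iff] at hP
    rw [hP]
    rfl

end Generalities

/-- A finitely generated module each of whose elements is scaled into a submodule by a nonzero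
scalar is scaled into it by one common nonzero scalar. -/
theorem exists_smul_mem_of_fg {R M : Type*} [CommRing R] [IsDomain R] [AddCommGroup M]
    [Module R M] {N T : Submodule R M} (hN : N.FG)
    (h : ∀ x ∈ N, ∃ c : R, c ≠ 0 ∧ c • x ∈ T) :
    ∃ c : R, c ≠ 0 ∧ ∀ x ∈ N, c • x ∈ T := by
  classical
  obtain ⟨t, rfl⟩ := hN
  induction t using Finset.induction_on with
  | empty =>
    refine ⟨1, one_ne_zero, fun x hx => ?_⟩
    rw [Finset.coe_empty, Submodule.span_empty, Submodule.mem_bot] at hx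
    rw [hx, smul_zero]
    exact Submodule.zero_mem _
  | insert τ t _ ih =>
    rw [Finset.coe_insert] at h ⊢
    obtain ⟨c1, hc1, hc1t⟩ := ih fun x hx =>
      h x (Submodule.span_mono (Set.subset_insert _ _) hx)
    obtain ⟨c2, hc2, hc2τ⟩ := h τ (Submodule.subset_span (Set.mem_insert _ _))
    refine ⟨c1 * c2, mul_ne_zero hc1 hc2, fun x hx => ?_⟩
    obtain ⟨a, z, hz, rfl⟩ := Submodule.mem_span_insert.mp hx
    have e : (c1 * c2) • (a • τ + z) = (c1 * a) • (c2 • τ) + c2 • (c1 • z) := by module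
    rw [e]
    exact Submodule.add_mem _ (Submodule.smul_mem _ _ hc2τ) (Submodule.smul_mem _ _ (hc1t z hz))


namespace RedSetting

variable {A : ValuationSubring L} {O : ValuationSubring F} {red : O →+* Ft}
  {r : Place L F → Place k Ft} (S : RedSetting A O red r)

include S

theorem val_le_one {c : L} (hc : c ∈ A) : O.valuation (algebraMap L F c) ≤ 1 :=
  (O.valuation_le_one_iff _).mpr ((S.hOA c).mpr hc)

theorem mem_of_val_le_one {c : L} (h : O.valuation (algebraMap L F c) ≤ 1) : c ∈ A :=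
  (S.hOA c).mp ((O.valuation_le_one_iff _).mp h)

theorem val_lt_one {c : L} (hc : c⁻¹ ∉ A) : O.valuation (algebraMap L F c) < 1 := by
  by_contra hnot
  rw [not_lt] at hnot
  apply hc
  apply S.mem_of_val_le_one
  rw [map_inv₀, map_inv₀]
  exact inv_le_one_of_one_le₀ hnot

/-- A nonzero nonunit of `O` is a nonunit constant times a unit. -/
theorem exists_const_of_val_lt_one {y : F} (hy : y ≠ 0) (hv : O.valuation y < 1) :
    ∃ c : L, c ∈ A ∧ c ≠ 0 ∧ c⁻¹ ∉ A ∧ O.valuation (algebraMap L F c⁻¹ * y) = 1 := by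
  obtain ⟨c', hc', hval⟩ := S.hscale y hy
  have hvy : O.valuation y ≠ 0 := (Valuation.ne_zero_iff _).mpr hy
  have hvc' : O.valuation (algebraMap L F c') = (O.valuation y)⁻¹ := by
    rw [map_mul] at hval
    exact eq_inv_of_mul_eq_one_left hval
  refine ⟨c'⁻¹, ?_, inv_ne_zero hc', ?_, by rwa [inv_inv]⟩
  · apply S.mem_of_val_le_one
    rw [map_inv₀, map_inv₀, hvc', inv_inv]
    exact hv.le
  · rw [inv_inv]
    intro hmem
    have := S.val_le_one hmem
    rw [hvc'] at this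
    have h1 : 1 < (O.valuation y)⁻¹ := (one_lt_inv₀ (zero_lt_iff.mpr hvy)).mpr hv
    exact absurd this (not_le.mpr h1)

/-- Finitely many nonunits of `O` are divisible by a common nonunit constant. -/
theorem exists_common_const (n : ℕ) (y : ℕ → F) (hy : ∀ j, j < n → O.valuation (y j) < 1) :
    ∃ c : L, c ∈ A ∧ c ≠ 0 ∧ c⁻¹ ∉ A ∧
      ∀ j, j < n → O.valuation (algebraMap L F c⁻¹ * y j) ≤ 1 := by
  induction n with
  | zero =>
    obtain ⟨c, hcA, hc0, hcm⟩ := S.hnontriv
    exact ⟨c, hcA, hc0, hcm, fun j hj => absurd hj (Nat.not_lt_zero j)⟩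
  | succ n ih =>
    obtain ⟨c, hcA, hc0, hcm, hc⟩ := ih fun j hj => hy j (Nat.lt_succ_of_lt hj)
    rcases eq_or_ne (y n) 0 with h0 | h0
    · refine ⟨c, hcA, hc0, hcm, fun j hj => ?_⟩
      rcases Nat.lt_succ_iff_lt_or_eq.mp hj with h | h
      · exact hc j h
      · rw [h, h0, mul_zero, map_zero]; exact zero_le_one
    · obtain ⟨c', hc'A, hc'0, hc'm, hc'⟩ := S.exists_const_of_val_lt_one h0 (hy n (Nat.lt_succ_self n))
      rcases A.mem_or_inv_mem (c * c'⁻¹) with hq | hq
      · -- `c = c' * a`: use `c'`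
        refine ⟨c', hc'A, hc'0, hc'm, fun j hj => ?_⟩
        rcases Nat.lt_succ_iff_lt_or_eq.mp hj with h | h
        · have e : algebraMap L F c'⁻¹ * y j =
              algebraMap L F (c * c'⁻¹) * (algebraMap L F c⁻¹ * y j) := by
            simp only [map_mul, map_inv₀]
            have : algebraMap L F c ≠ 0 := (map_ne_zero _).mpr hc0
            field_simp
          rw [e, map_mul]
          exact mul_le_one' (S.val_le_one hq) (hc j h)
        · rw [h]; exact hc'.le
      · -- `c' = c * a`: use `c`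
        refine ⟨c, hcA, hc0, hcm, fun j hj => ?_⟩
        rcases Nat.lt_succ_iff_lt_or_eq.mp hj with h | h
        · exact hc j h
        · subst h
          have e : algebraMap L F c⁻¹ * y j =
              algebraMap L F (c * c'⁻¹)⁻¹ * (algebraMap L F c'⁻¹ * y j) := by
            simp only [map_mul, map_inv₀]
            have : algebraMap L F c ≠ 0 := (map_ne_zero _).mpr hc0
            have : algebraMap L F c' ≠ 0 := (map_ne_zero _).mpr hc'0
            field_simp
          rw [e, map_mul, hc', mul_one]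
          exact S.val_le_one hq

/-- Reduction maps `L(B) ∩ O` into `L~(r_* B)`. -/
theorem red_mem_rr {B : Divisor L F} {x : O} (hx : (x : F) ∈ riemannRochSpace B) :
    red x ∈ riemannRochSpace (Finsupp.mapDomain r B) := by
  by_cases h0 : red x = 0
  · rw [h0]; exact Submodule.zero_mem _
  have hx0 : (x : F) ≠ 0 := by
    intro h
    apply h0
    have : x = 0 := Subtype.ext h
    rw [this, map_zero]
  obtain ⟨Bx, hBx, -⟩ := S.hprin (x : F) hx0
  have hspec := S.hspec x h0 Bx hBx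
  rw [mem_riemannRochSpace_iff] at hx ⊢
  intro Q
  right
  have hnn : ∀ P, 0 ≤ (Bx + B) P := by
    intro P
    rw [Finsupp.add_apply, hBx P]
    rcases hx P with h | h
    · exact absurd h hx0
    · linarith
  have := mapDomain_nonneg_of_nonneg r hnn Q
  rw [Finsupp.mapDomain_add, Finsupp.add_apply, hspec Q] at this
  linarith

/-- `L(B) ∩ O` as an `A`-submodule of `F`. -/
def lamSub (S : RedSetting A O red r) (B : Divisor L F) : Submodule A F where
  carrier := {x | x ∈ riemannRochSpace B ∧ x ∈ O}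
  zero_mem' := ⟨Submodule.zero_mem _, O.zero_mem⟩
  add_mem' := fun hx hy => ⟨Submodule.add_mem _ hx.1 hy.1, O.add_mem _ _ hx.2 hy.2⟩
  smul_mem' := fun c x hx => ⟨Submodule.smul_mem _ (c : L) hx.1, by
    show (c : L) • x ∈ O
    rw [Algebra.smul_def]
    exact O.mul_mem _ _ ((S.hOA c).mpr c.2) hx.2⟩

theorem mem_lamSub {B : Divisor L F} {x : F} : x ∈ S.lamSub B ↔ x ∈ lam O B := Iff.rfl

/-- Every element of `F` is scaled into `O` by a nonzero element of `A`. -/
theorem exists_scale_mem (y : F) : ∃ c : L, c ∈ A ∧ c ≠ 0 ∧ algebraMap L F c * y ∈ O := by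
  rcases eq_or_ne y 0 with rfl | hy
  · exact ⟨1, A.one_mem, one_ne_zero, by rw [mul_zero]; exact O.zero_mem⟩
  obtain ⟨c', hc', hval⟩ := S.hscale y hy
  by_cases hA : c' ∈ A
  · exact ⟨c', hA, hc', (O.valuation_le_one_iff _).mp hval.le⟩
  · refine ⟨1, A.one_mem, one_ne_zero, ?_⟩
    rw [map_one, one_mul, ← O.valuation_le_one_iff]
    have h1 : 1 < O.valuation (algebraMap L F c') := by
      by_contra hnot
      exact hA (S.mem_of_val_le_one (not_lt.mp hnot))
    rw [map_mul] at hval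
    have : O.valuation y = (O.valuation (algebraMap L F c'))⁻¹ := eq_inv_of_mul_eq_one_right hval
    rw [this]
    exact inv_le_one_of_one_le₀ h1.le

/-- **Bounded torsion** at the level of lattices. -/
theorem lam_tors (B0 B1 : Divisor L F) :
    ∃ cs : L, cs ∈ A ∧ cs ≠ 0 ∧ ∀ d : F, d ∈ O →
      d ∈ riemannRochSpace B0 ⊔ riemannRochSpace B1 →
      ∃ u ∈ lam O B0, ∃ w ∈ lam O B1, algebraMap L F cs * d = u + w := by
  have := S.hfin B0
  have := S.hfin B1
  obtain ⟨N, hNfg, hN⟩ := S.hlat (riemannRochSpace B0 ⊔ riemannRochSpace B1) inferInstance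
  have key : ∀ x ∈ N, ∃ c : A, c ≠ 0 ∧ c • x ∈ S.lamSub B0 ⊔ S.lamSub B1 := by
    intro x hx
    obtain ⟨hxV, -⟩ := (hN x).mp hx
    obtain ⟨y, hy, z, hz, rfl⟩ := Submodule.mem_sup.mp hxV
    obtain ⟨c1, hc1A, hc1, hc1y⟩ := S.exists_scale_mem y
    obtain ⟨c2, hc2A, hc2, hc2z⟩ := S.exists_scale_mem z
    refine ⟨⟨c1 * c2, A.mul_mem _ _ hc1A hc2A⟩, ?_, ?_⟩
    · intro h
      exact mul_ne_zero hc1 hc2 (congrArg Subtype.val h)
    · show (c1 * c2) • (y + z) ∈ _
      rw [smul_add]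
      refine Submodule.add_mem_sup ?_ ?_
      · refine ⟨Submodule.smul_mem _ _ hy, ?_⟩
        rw [Algebra.smul_def, map_mul, mul_comm (algebraMap L F c1), mul_assoc]
        exact O.mul_mem _ _ ((S.hOA c2).mpr hc2A) hc1y
      · refine ⟨Submodule.smul_mem _ _ hz, ?_⟩
        rw [Algebra.smul_def, map_mul, mul_assoc]
        exact O.mul_mem _ _ ((S.hOA c1).mpr hc1A) hc2z
  obtain ⟨cs, hcs, hcsN⟩ := exists_smul_mem_of_fg hNfg key
  refine ⟨cs, cs.2, fun h => hcs (Subtype.ext h), fun d hdO hdV => ?_⟩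
  have hdN : d ∈ N := (hN d).mpr ⟨hdV, hdO⟩
  obtain ⟨u, hu, w, hw, huw⟩ := Submodule.mem_sup.mp (hcsN d hdN)
  refine ⟨u, hu, w, hw, ?_⟩
  rw [huw, ← Algebra.smul_def]
  rfl

/-- **Stabilisation** of the Čech `H¹` at the level of lattices. -/
theorem lam_stab (P0 P1 : Place L F) (hP : r P0 ≠ r P1) (N1 : ℕ)
    (hLP : ∀ B : Divisor L F, (N1 : ℤ) ≤ Divisor.degree B →
      ∀ h ∈ riemannRochSpace (Finsupp.mapDomain r B),
        ∃ y : O, (y : F) ∈ riemannRochSpace B ∧ red y = h)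
    (hMV : ∀ G E0 E1 : Divisor k Ft, (N1 : ℤ) ≤ Divisor.degree G →
      (∀ Q, 0 ≤ E0 Q ∧ 0 ≤ E1 Q ∧ (E0 Q = 0 ∨ E1 Q = 0)) →
      riemannRochSpace (G + E0 + E1) ≤ riemannRochSpace (G + E0) ⊔ riemannRochSpace (G + E1))
    (C : Divisor L F) (hC : Divisor.degree C = 0) (n : ℕ) (hn : 1 ≤ n) (x : F)
    (hx : x ∈ lam O ((n + 1) • (Finsupp.single P0 (N1 : ℤ) + Finsupp.single P1 (N1 : ℤ)) + C)) :
    ∃ d ∈ lam O (n • (Finsupp.single P0 (N1 : ℤ) + Finsupp.single P1 (N1 : ℤ)) + C),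
      ∃ y0 ∈ lam O ((n + 1) • Finsupp.single P0 (N1 : ℤ) + C),
        ∃ y1 ∈ lam O ((n + 1) • Finsupp.single P1 (N1 : ℤ) + C), x = d + y0 + y1 := by
  classical
  set E0 : Divisor L F := Finsupp.single P0 (N1 : ℤ) with hE0
  set E1 : Divisor L F := Finsupp.single P1 (N1 : ℤ) with hE1
  set B : Divisor L F := (n + 1) • (E0 + E1) + C with hB
  set Ba : Divisor L F := n • (E0 + E1) + C with hBa
  set Bb : Divisor L F := (n + 1) • E0 + C with hBb
  set Bc : Divisor L F := (n + 1) • E1 + C with hBc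
  have hE0nn : (0 : Divisor L F) ≤ E0 := by
    intro P
    rw [hE0, Finsupp.single_apply]
    split_ifs
    · exact Int.natCast_nonneg N1
    · exact le_rfl
  have hE1nn : (0 : Divisor L F) ≤ E1 := by
    intro P
    rw [hE1, Finsupp.single_apply]
    split_ifs
    · exact Int.natCast_nonneg N1
    · exact le_rfl
  have hBaB : Ba ≤ B := by
    have : B = Ba + (E0 + E1) := by rw [hB, hBa]; module
    rw [this]
    exact le_add_of_nonneg_right (add_nonneg hE0nn hE1nn)
  have hBbB : Bb ≤ B := by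
    have : B = Bb + (n + 1) • E1 := by rw [hB, hBb]; module
    rw [this]
    exact le_add_of_nonneg_right (nsmul_nonneg hE1nn _)
  have hBcB : Bc ≤ B := by
    have : B = Bc + (n + 1) • E0 := by rw [hB, hBc]; module
    rw [this]
    exact le_add_of_nonneg_right (nsmul_nonneg hE0nn _)
  -- push-forward of divisors
  set ρ : Divisor L F →+ Divisor k Ft := Finsupp.mapDomain.addMonoidHom r with hρ
  have hρapp : ∀ X : Divisor L F, Finsupp.mapDomain r X = ρ X := fun X => rfl
  have hρE0 : ρ E0 = Finsupp.single (r P0) (N1 : ℤ) := Finsupp.mapDomain_single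
  have hρE1 : ρ E1 = Finsupp.single (r P1) (N1 : ℤ) := Finsupp.mapDomain_single
  have hdegρ : ∀ X, Divisor.degree (ρ X) = Divisor.degree X := degree_mapDomain_eq r S.hdegr
  have hdegE0 : Divisor.degree E0 = N1 := by
    rw [hE0, Divisor.degree_single, S.hdeg1, Nat.cast_one, mul_one]
  have hdegE1 : Divisor.degree E1 = N1 := by
    rw [hE1, Divisor.degree_single, S.hdeg1, Nat.cast_one, mul_one]
  have hn' : (1 : ℤ) ≤ n := by exact_mod_cast hn
  have hN1' : (0 : ℤ) ≤ N1 := Int.natCast_nonneg N1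
  have hdisj : ∀ (a b : ℕ) (Q : Place k Ft),
      0 ≤ (a • ρ E0) Q ∧ 0 ≤ (b • ρ E1) Q ∧ ((a • ρ E0) Q = 0 ∨ (b • ρ E1) Q = 0) := by
    intro a b Q
    rw [hρE0, hρE1]
    simp only [Finsupp.smul_apply, Finsupp.single_apply, nsmul_eq_mul]
    refine ⟨?_, ?_, ?_⟩
    · split_ifs <;> positivity
    · split_ifs <;> positivity
    · by_cases h0 : r P0 = Q
      · right
        rw [if_neg (fun h1 => hP (h0.trans h1.symm)), mul_zero]
      · left
        rw [if_neg h0, mul_zero]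
  have dBa : (N1 : ℤ) ≤ Divisor.degree Ba := by
    rw [hBa, map_add, map_nsmul, map_add, hdegE0, hdegE1, hC, nsmul_eq_mul, add_zero]
    nlinarith
  have dBb : (N1 : ℤ) ≤ Divisor.degree Bb := by
    rw [hBb, map_add, map_nsmul, hdegE0, hC, nsmul_eq_mul, add_zero]
    push_cast
    nlinarith
  have dBc : (N1 : ℤ) ≤ Divisor.degree Bc := by
    rw [hBc, map_add, map_nsmul, hdegE1, hC, nsmul_eq_mul, add_zero]
    push_cast
    nlinarith
  -- step (i): approximate modulo the maximal ideal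
  have step1 : ∀ z ∈ lam O B, ∃ a ∈ lam O Ba, ∃ b ∈ lam O Bb, ∃ c ∈ lam O Bc,
      O.valuation (z - a - b - c) < 1 := by
    intro z hz
    have hred := S.red_mem_rr (x := ⟨z, hz.2⟩) hz.1
    rw [hρapp] at hred
    -- MV #1
    have e1 : ρ B = ρ Ba + ρ E0 + ρ E1 := by
      rw [← map_add, ← map_add]
      congr 1
      rw [hB, hBa]
      module
    have m1 := hMV (ρ Ba) (ρ E0) (ρ E1) (by rw [hdegρ]; exact dBa) (fun Q => by
      have := hdisj 1 1 Q
      rwa [one_smul, one_smul] at this)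
    rw [← e1] at m1
    obtain ⟨h0, hh0, h1, hh1, hsum⟩ := Submodule.mem_sup.mp (m1 hred)
    -- MV #2a
    have e2 : ρ Ba + ρ E0 = ρ (n • E0 + C) + ρ E0 + n • ρ E1 := by
      rw [← map_nsmul, ← map_add, ← map_add, ← map_add]
      congr 1
      rw [hBa]
      module
    have d2 : (N1 : ℤ) ≤ Divisor.degree (ρ (n • E0 + C)) := by
      rw [hdegρ, map_add, map_nsmul, hdegE0, hC, nsmul_eq_mul, add_zero]
      nlinarith
    have m2 := hMV (ρ (n • E0 + C)) (ρ E0) (n • ρ E1) d2 (fun Q => by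
      have := hdisj 1 n Q
      rwa [one_smul] at this)
    have e2b : ρ (n • E0 + C) + ρ E0 = ρ Bb := by
      rw [← map_add]
      congr 1
      rw [hBb]
      module
    have e2a : ρ (n • E0 + C) + n • ρ E1 = ρ Ba := by
      rw [← map_nsmul, ← map_add]
      congr 1
      rw [hBa]
      module
    rw [← e2, e2b, e2a] at m2
    obtain ⟨hb, hhb, ha, hha, hsum0⟩ := Submodule.mem_sup.mp (m2 hh0)
    -- MV #2b
    have e3 : ρ Ba + ρ E1 = ρ (n • E1 + C) + n • ρ E0 + ρ E1 := by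
      rw [← map_nsmul, ← map_add, ← map_add, ← map_add]
      congr 1
      rw [hBa]
      module
    have d3 : (N1 : ℤ) ≤ Divisor.degree (ρ (n • E1 + C)) := by
      rw [hdegρ, map_add, map_nsmul, hdegE1, hC, nsmul_eq_mul, add_zero]
      nlinarith
    have m3 := hMV (ρ (n • E1 + C)) (n • ρ E0) (ρ E1) d3 (fun Q => by
      have := hdisj n 1 Q
      rwa [one_smul] at this)
    have e3a : ρ (n • E1 + C) + n • ρ E0 = ρ Ba := by
      rw [← map_nsmul, ← map_add]
      congr 1
      rw [hBa]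
      module
    have e3c : ρ (n • E1 + C) + ρ E1 = ρ Bc := by
      rw [← map_add]
      congr 1
      rw [hBc]
      module
    rw [← e3, e3a, e3c] at m3
    obtain ⟨ha', hha', hc, hhc, hsum1⟩ := Submodule.mem_sup.mp (m3 hh1)
    -- lifts
    obtain ⟨ya, hya, hyared⟩ := hLP Ba dBa (ha + ha') (Submodule.add_mem _ hha hha')
    obtain ⟨yb, hyb, hybred⟩ := hLP Bb dBb hb hhb
    obtain ⟨yc, hyc, hycred⟩ := hLP Bc dBc hc hhc
    refine ⟨ya, ⟨hya, ya.2⟩, yb, ⟨hyb, yb.2⟩, yc, ⟨hyc, yc.2⟩, ?_⟩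
    have h0' : red (⟨z, hz.2⟩ - ya - yb - yc) = 0 := by
      rw [map_sub, map_sub, map_sub, hyared, hybred, hycred, ← hsum, ← hsum0, ← hsum1]
      ring
    exact (S.hker _).mp h0'
  -- Nakayama
  obtain ⟨N, hNfg, hN⟩ := S.hlat (riemannRochSpace B) (S.hfin B)
  have hle : N ≤ (S.lamSub Ba ⊔ S.lamSub Bb ⊔ S.lamSub Bc) ⊔ IsLocalRing.maximalIdeal A • N := by
    intro z hz
    have hz' : z ∈ lam O B := (hN z).mp hz
    obtain ⟨a, ha, b, hb, c, hc, hv⟩ := step1 z hz'
    have hy : z - a - b - c ∈ lam O B :=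
      sub_mem (sub_mem (sub_mem hz' (lam_mono O hBaB ha)) (lam_mono O hBbB hb))
        (lam_mono O hBcB hc)
    have hzsum : z = (a + b + c) + (z - a - b - c) := by ring
    rw [hzsum]
    refine Submodule.add_mem_sup
      (Submodule.add_mem_sup (Submodule.add_mem_sup (S.mem_lamSub.mpr ha) (S.mem_lamSub.mpr hb))
        (S.mem_lamSub.mpr hc)) ?_
    rcases eq_or_ne (z - a - b - c) 0 with h0 | h0
    · rw [h0]; exact Submodule.zero_mem _
    · obtain ⟨c0, hc0A, hc0, hc0m, hval⟩ := S.exists_const_of_val_lt_one h0 hv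
      have hu : algebraMap L F c0⁻¹ * (z - a - b - c) ∈ N := by
        rw [hN]
        refine ⟨?_, (O.valuation_le_one_iff _).mp hval.le⟩
        rw [← Algebra.smul_def]
        exact Submodule.smul_mem _ _ hy.1
      have hmem : (⟨c0, hc0A⟩ : A) ∈ IsLocalRing.maximalIdeal A := by
        rw [A.valuation_lt_one_iff]
        exact valA_lt_one_of_inv_notMem hc0m
      have hsm := Submodule.smul_mem_smul hmem hu
      have e : z - a - b - c = (⟨c0, hc0A⟩ : A) • (algebraMap L F c0⁻¹ * (z - a - b - c)) := by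
        show _ = c0 • (algebraMap L F c0⁻¹ * (z - a - b - c))
        rw [Algebra.smul_def, ← mul_assoc, ← map_mul, mul_inv_cancel₀ hc0, map_one, one_mul]
      rw [e]
      exact hsm
  have hfinal := Submodule.le_of_le_smul_of_le_jacobson_bot hNfg
    (le_of_eq (IsLocalRing.jacobson_eq_maximalIdeal ⊥ bot_ne_top).symm) hle
  have hxN : x ∈ N := (hN x).mpr hx
  obtain ⟨ab, hab, c, hc, rfl⟩ := Submodule.mem_sup.mp (hfinal hxN)
  obtain ⟨a, ha, b, hb, rfl⟩ := Submodule.mem_sup.mp hab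
  exact ⟨a, ha, b, hb, c, hc, rfl⟩

end RedSetting

section Idempotent

/-- The idempotent `(1/p) ∑_{j<p} ζ^j` attached to a `p`-th root of unity. -/
theorem idempotent_of_pow_eq_one {B : Type*} [CommRing B] {p : ℕ} {ζ u : B} (hζ : ζ ^ p = 1)
    (hu : u * (p : B) = 1) :
    (u * ∑ j ∈ Finset.range p, ζ ^ j) ^ 2 = u * ∑ j ∈ Finset.range p, ζ ^ j := by
  set s := ∑ j ∈ Finset.range p, ζ ^ j with hs
  have h1 : s * ζ = s := by
    have key := (Finset.sum_range_succ' (fun j => ζ ^ j) p).symm.trans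
      (Finset.sum_range_succ (fun j => ζ ^ j) p)
    rw [pow_zero, hζ] at key
    have key' := add_right_cancel key
    rw [hs, Finset.sum_mul, ← key']
    exact Finset.sum_congr rfl fun j _ => (pow_succ ζ j).symm
  have h2 : ∀ i : ℕ, s * ζ ^ i = s := by
    intro i
    induction i with
    | zero => rw [pow_zero, mul_one]
    | succ i ih => rw [pow_succ, ← mul_assoc, ih, h1]
  have h3 : s * s = (p : B) * s := by
    conv_lhs => rw [hs, Finset.mul_sum]
    rw [← hs]
    rw [Finset.sum_congr rfl fun i _ => h2 i, Finset.sum_const, Finset.card_range, nsmul_eq_mul]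
  linear_combination u ^ 2 * h3 + u * s * hu

end Idempotent

namespace RedSetting

variable {A : ValuationSubring L} {O : ValuationSubring F} {red : O →+* Ft}
  {r : Place L F → Place k Ft} (S : RedSetting A O red r)

include S

/-- **RED-KUMMER, normalised form.**  If `f` is a unit of `O` with `div f = p • D`, whose
reduction is a `p`-th power, and `L(D) = 0`, we get a contradiction. -/
theorem kummer_red_false {p : ℕ} (hp : p.Prime) (hpFt : (p : Ft) ≠ 0)
    (D : Divisor L F) (hD0 : Divisor.degree D = 0)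
    (f : O) (hfdiv : ∀ P : Place L F, P.ord (f : F) = (p : ℤ) * D P)
    (ψ : Ft) (hψ : ψ ≠ 0) (hfψ : red f = ψ ^ p)
    (hLD : ∀ x ∈ riemannRochSpace D, x = 0) : False := by
  classical
  have hp0 : p ≠ 0 := hp.ne_zero
  have hp1 : 1 < p := hp.one_lt
  have hredf : red f ≠ 0 := by rw [hfψ]; exact pow_ne_zero p hψ
  have hf0 : (f : F) ≠ 0 := by
    intro h
    have : f = 0 := Subtype.ext h
    rw [this, map_zero] at hredf
    exact hredf rfl
  have hfO : O.subtype f ∈ O := f.2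
  have hdiv : ∀ v : Place L F, v.adicValuation (O.subtype f) = exp (-((p : ℤ) * D v)) :=
    fun v => by
      show v.adicValuation (f : F) = _
      rw [v.adicValuation_eq_exp_neg_ord hf0, hfdiv v]
  have hmapsmul : ∀ (j : ℕ) (X : Divisor L F),
      Finsupp.mapDomain r (j • X) = j • Finsupp.mapDomain r X := fun j X =>
    map_nsmul (Finsupp.mapDomain.addMonoidHom r) j X
  -- `r_* D = div ψ`
  have hrD : ∀ Q : Place k Ft, Finsupp.mapDomain r D Q = Q.ord ψ := by
    intro Q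
    have h1 := S.hspec f hredf (p • D)
      (fun P => by rw [Finsupp.smul_apply, nsmul_eq_mul, hfdiv P]) Q
    have h3 : Q.ord (ψ ^ p) = (p : ℤ) * Q.ord ψ := by rw [← zpow_natCast, Q.ord_zpow]
    rw [hfψ, hmapsmul, Finsupp.smul_apply, nsmul_eq_mul, h3] at h1
    exact mul_left_cancel₀ (Nat.cast_ne_zero.mpr hp0) h1
  -- the two auxiliary divisors
  obtain ⟨P0, P1, hP⟩ := S.hplaces
  obtain ⟨eLP, hLP⟩ := S.hLP
  obtain ⟨eMV, hMV⟩ := S.hMV
  obtain ⟨N1, hN1LP, hN1MV⟩ : ∃ N1 : ℕ, eLP ≤ (N1 : ℤ) ∧ eMV ≤ (N1 : ℤ) :=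
    ⟨(max eLP eMV).toNat, by omega, by omega⟩
  set E0 : Divisor L F := Finsupp.single P0 (N1 : ℤ) with hE0
  set E1 : Divisor L F := Finsupp.single P1 (N1 : ℤ) with hE1
  have hP01 : P0 ≠ P1 := fun h => hP (by rw [h])
  have hE : ∀ v : Place L F, 0 ≤ E0 v ∧ 0 ≤ E1 v ∧ (E0 v = 0 ∨ E1 v = 0) := by
    intro v
    rw [hE0, hE1]
    simp only [Finsupp.single_apply]
    refine ⟨by split_ifs <;> positivity, by split_ifs <;> positivity, ?_⟩
    by_cases h0 : P0 = v
    · right
      rw [if_neg (fun h1 => hP01 (h0.trans h1.symm))]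
    · left
      rw [if_neg h0]
  have hE0nn : (0 : Divisor L F) ≤ E0 := fun v => (hE v).1
  have hE1nn : (0 : Divisor L F) ≤ E1 := fun v => (hE v).2.1
  have hdegE0 : Divisor.degree E0 = N1 := by
    rw [hE0, Divisor.degree_single, S.hdeg1, Nat.cast_one, mul_one]
  have hdegE1 : Divisor.degree E1 = N1 := by
    rw [hE1, Divisor.degree_single, S.hdeg1, Nat.cast_one, mul_one]
  have hdegjD : ∀ j : ℕ, Divisor.degree (j • D) = 0 := fun j => by
    rw [map_nsmul, hD0, smul_zero]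
  have hLP' : ∀ B : Divisor L F, (N1 : ℤ) ≤ Divisor.degree B →
      ∀ h ∈ riemannRochSpace (Finsupp.mapDomain r B),
        ∃ y : O, (y : F) ∈ riemannRochSpace B ∧ red y = h := fun B hB => hLP B (hN1LP.trans hB)
  have hMV' : ∀ G E0 E1 : Divisor k Ft, (N1 : ℤ) ≤ Divisor.degree G →
      (∀ Q, 0 ≤ E0 Q ∧ 0 ≤ E1 Q ∧ (E0 Q = 0 ∨ E1 Q = 0)) →
      riemannRochSpace (G + E0 + E1) ≤ riemannRochSpace (G + E0) ⊔ riemannRochSpace (G + E1) :=
    fun G E0 E1 hG => hMV G E0 E1 (hN1MV.trans hG)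
  -- the three Kummer algebras
  set ι : KAlg p f →+* KAlg p (O.subtype f) := kmap p f O.subtype with hι
  set ρ : KAlg p f →+* KAlg p (red f) := kmap p f red with hρ
  -- the idempotent on the special fibre
  set u : Ft := (p : Ft)⁻¹ with hu
  have hup : u * (p : Ft) = 1 := inv_mul_cancel₀ hpFt
  set ζ : KAlg p (red f) := ψ⁻¹ • kT p (red f) with hζ
  have hζp : ζ ^ p = 1 := by
    rw [hζ, smul_pow, kT_pow_self, hfψ, Algebra.algebraMap_eq_smul_one, smul_smul, inv_pow,
      inv_mul_cancel₀ (pow_ne_zero p hψ), one_smul]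
  set ebar : KAlg p (red f) :=
    algebraMap Ft (KAlg p (red f)) u * ∑ j ∈ Finset.range p, ζ ^ j with hebar
  have hebar_idem : ebar ^ 2 = ebar :=
    idempotent_of_pow_eq_one hζp (by
      rw [← map_natCast (algebraMap Ft (KAlg p (red f))), ← map_mul, hup, map_one])
  have hebar_sum : ebar = ∑ j ∈ Finset.range p, (u * ψ⁻¹ ^ j) • kT p (red f) ^ j := by
    rw [hebar, Finset.mul_sum]
    refine Finset.sum_congr rfl fun j _ => ?_
    rw [hζ, smul_pow, ← Algebra.smul_def, smul_smul]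
  -- its coefficients lie in the right Riemann–Roch spaces
  have hcoef : ∀ (E : Divisor L F), 0 ≤ E → ∀ j : ℕ,
      u * ψ⁻¹ ^ j ∈ riemannRochSpace (Finsupp.mapDomain r (E + j • D)) := by
    intro E hEnn j
    have h1 : ψ⁻¹ ^ j ∈ riemannRochSpace (Finsupp.mapDomain r (E + j • D)) := by
      rw [mem_riemannRochSpace_iff]
      intro Q
      right
      rw [Finsupp.mapDomain_add, Finsupp.add_apply, hmapsmul, Finsupp.smul_apply, nsmul_eq_mul,
        hrD Q]
      have h2 : Q.ord (ψ⁻¹ ^ j) = -((j : ℤ) * Q.ord ψ) := by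
        rw [inv_pow, Q.ord_inv, ← zpow_natCast, Q.ord_zpow]
      rw [h2]
      have := mapDomain_nonneg_of_nonneg r (fun P => hEnn P) Q
      linarith
    have h3 : u * ψ⁻¹ ^ j = (algebraMap k Ft (p : k)⁻¹) * ψ⁻¹ ^ j := by
      rw [map_inv₀, map_natCast]
    rw [h3, ← Algebra.smul_def]
    exact Submodule.smul_mem _ _ h1
  -- lifts of the coefficients
  have hlift0 : ∀ j : ℕ, ∃ y : O, (y : F) ∈ riemannRochSpace (E0 + j • D) ∧
      red y = u * ψ⁻¹ ^ j := fun j =>
    hLP' (E0 + j • D) (by rw [map_add, hdegE0, hdegjD, add_zero]) _ (hcoef E0 hE0nn j)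
  have hlift1 : ∀ j : ℕ, ∃ y : O, (y : F) ∈ riemannRochSpace (E1 + j • D) ∧
      red y = u * ψ⁻¹ ^ j := fun j =>
    hLP' (E1 + j • D) (by rw [map_add, hdegE1, hdegjD, add_zero]) _ (hcoef E1 hE1nn j)
  choose a0 ha0 ha0red using hlift0
  choose a1 ha1 ha1red using hlift1
  set ε0 : KAlg p f := ∑ j ∈ Finset.range p, a0 j • kT p f ^ j with hε0
  set ε1 : KAlg p f := ∑ j ∈ Finset.range p, a1 j • kT p f ^ j with hε1
  have hρ0 : ρ ε0 = ebar := by
    rw [hρ, hε0, kmap_sum_smul, hebar_sum]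
    exact Finset.sum_congr rfl fun j _ => by rw [ha0red]
  have hρ1 : ρ ε1 = ebar := by
    rw [hρ, hε1, kmap_sum_smul, hebar_sum]
    exact Finset.sum_congr rfl fun j _ => by rw [ha1red]
  have hι0 : ι ε0 = ∑ j ∈ Finset.range p, O.subtype (a0 j) • kT p (O.subtype f) ^ j :=
    kmap_sum_smul p f O.subtype _
  have hι1 : ι ε1 = ∑ j ∈ Finset.range p, O.subtype (a1 j) • kT p (O.subtype f) ^ j :=
    kmap_sum_smul p f O.subtype _
  -- the filtration
  set Rf : Divisor L F → AddSubgroup (KAlg p (O.subtype f)) :=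
    fun E => Rfil O p hp0 (O.subtype f) D E with hRf
  have hAO : ∀ c : L, c ∈ A → algebraMap L F c ∈ O := fun c hc => (S.hOA c).mpr hc
  have he : ι ε0 ∈ Rf E0 := by
    rw [hι0]
    exact sum_smul_mem_Rfil (fun j _ => ⟨ha0 j, (a0 j).2⟩)
  have he' : ι ε1 ∈ Rf E1 := by
    rw [hι1]
    exact sum_smul_mem_Rfil (fun j _ => ⟨ha1 j, (a1 j).2⟩)
  -- elements killed by reduction have nonunit coordinates
  have hker_coord : ∀ w : KAlg p f, ρ w = 0 →
      ∀ j, O.valuation (kco p (O.subtype f) hp0 j (ι w)) < 1 := by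
    intro w hw j
    rw [hι, kco_kmap]
    apply (S.hker _).mp
    rw [← kco_kmap p f red hp0 j w, ← hρ, hw, map_zero]
  have hdivide : ∀ (E : Divisor L F) (z : KAlg p (O.subtype f)), z ∈ Rf E →
      (∀ j, O.valuation (kco p (O.subtype f) hp0 j z) < 1) →
      ∃ c : L, c ∈ A ∧ c ≠ 0 ∧ c⁻¹ ∉ A ∧ c⁻¹ • z ∈ Rf E := by
    intro E z hz hv
    obtain ⟨c, hcA, hc0, hcm, hc⟩ :=
      S.exists_common_const p (fun j => kco p (O.subtype f) hp0 j z) (fun j _ => hv j)
    refine ⟨c, hcA, hc0, hcm, fun j hj => ?_⟩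
    rw [← algebraMap_smul F c⁻¹ z, map_smul, smul_eq_mul]
    refine ⟨?_, (O.valuation_le_one_iff _).mp (hc j hj)⟩
    rw [← Algebra.smul_def]
    exact Submodule.smul_mem _ _ (hz j hj).1
  have hmax : ∀ c c' : L, c ∈ A → c ≠ 0 → c⁻¹ ∉ A → c' ∈ A → c' ≠ 0 → c'⁻¹ ∉ A →
      ∃ c0 : L, c0 ∈ A ∧ c0 ≠ 0 ∧ c0⁻¹ ∉ A ∧ c0⁻¹ * c ∈ A ∧ c0⁻¹ * c' ∈ A := by
    intro c c' hcA hc0 hcm hc'A hc'0 hc'm
    rcases A.mem_or_inv_mem (c * c'⁻¹) with h | h
    · refine ⟨c', hc'A, hc'0, hc'm, by rwa [mul_comm], ?_⟩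
      rw [inv_mul_cancel₀ hc'0]
      exact A.one_mem
    · refine ⟨c, hcA, hc0, hcm, ?_, ?_⟩
      · rw [inv_mul_cancel₀ hc0]
        exact A.one_mem
      · rwa [mul_inv, inv_inv] at h
  have hrescale : ∀ (E : Divisor L F) (z : KAlg p (O.subtype f)) (c c0 : L), c ≠ 0 →
      c0⁻¹ * c ∈ A → c⁻¹ • z ∈ Rf E → c0⁻¹ • z ∈ Rf E := by
    intro E z c c0 hc0 hA hz
    have e : c0⁻¹ • z = (c0⁻¹ * c) • (c⁻¹ • z) := by
      rw [smul_smul, mul_assoc, mul_inv_cancel₀ hc0, mul_one]
    rw [e]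
    exact smul_mem_Rfil hAO hA hz
  -- the three congruences
  have hz1 : (ι ε0) ^ 2 - ι ε0 ∈ Rf (E0 + E0) := by
    refine sub_mem ?_ (Rfil_mono (le_add_of_nonneg_right hE0nn) he)
    rw [pow_two]
    exact Rfil_mul hfO hdiv he he
  have hz2 : (ι ε1) ^ 2 - ι ε1 ∈ Rf (E1 + E1) := by
    refine sub_mem ?_ (Rfil_mono (le_add_of_nonneg_right hE1nn) he')
    rw [pow_two]
    exact Rfil_mul hfO hdiv he' he'
  have hz3 : ι ε0 - ι ε1 ∈ Rf (E0 + E1) :=
    sub_mem (Rfil_mono (le_add_of_nonneg_right hE1nn) he)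
      (Rfil_mono (le_add_of_nonneg_left hE0nn) he')
  obtain ⟨c1, hc1A, hc10, hc1m, hc1⟩ := hdivide _ _ hz1 (by
    have := hker_coord (ε0 ^ 2 - ε0) (by rw [map_sub, map_pow, hρ0, hebar_idem, sub_self])
    rwa [map_sub, map_pow] at this)
  obtain ⟨c2, hc2A, hc20, hc2m, hc2⟩ := hdivide _ _ hz2 (by
    have := hker_coord (ε1 ^ 2 - ε1) (by rw [map_sub, map_pow, hρ1, hebar_idem, sub_self])
    rwa [map_sub, map_pow] at this)
  obtain ⟨c3, hc3A, hc30, hc3m, hc3⟩ := hdivide _ _ hz3 (by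
    have := hker_coord (ε0 - ε1) (by rw [map_sub, hρ0, hρ1, sub_self])
    rwa [map_sub] at this)
  obtain ⟨c12, hc12A, hc120, hc12m, h12a, h12b⟩ := hmax c1 c2 hc1A hc10 hc1m hc2A hc20 hc2m
  obtain ⟨c0, hc0A, hc00, hc0m, h0a, h0b⟩ := hmax c12 c3 hc12A hc120 hc12m hc3A hc30 hc3m
  have h01 : c0⁻¹ * c1 ∈ A := by
    have : c0⁻¹ * c1 = (c0⁻¹ * c12) * (c12⁻¹ * c1) := by
      field_simp
    rw [this]
    exact A.mul_mem _ _ h0a h12a
  have h02 : c0⁻¹ * c2 ∈ A := by
    have : c0⁻¹ * c2 = (c0⁻¹ * c12) * (c12⁻¹ * c2) := by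
      field_simp
    rw [this]
    exact A.mul_mem _ _ h0a h12b
  have hg1 := hrescale _ _ c1 c0 hc10 h01 hc1
  have hg2 := hrescale _ _ c2 c0 hc20 h02 hc2
  have hg3 := hrescale _ _ c3 c0 hc30 h0b hc3
  -- the three filtrations
  set R0 : ℕ → AddSubgroup (KAlg p (O.subtype f)) := fun n => Rf (n • E0) with hR0
  set R1 : ℕ → AddSubgroup (KAlg p (O.subtype f)) := fun n => Rf (n • E1) with hR1
  set R01 : ℕ → AddSubgroup (KAlg p (O.subtype f)) := fun n => Rf (n • (E0 + E1)) with hR01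
  have hE01nn : (0 : Divisor L F) ≤ E0 + E1 := add_nonneg hE0nn hE1nn
  -- bounded torsion
  have htors_all : ∀ n : ℕ, ∃ cs : L, cs ∈ A ∧ cs ≠ 0 ∧ ∀ j, j < n → ∀ d : F, d ∈ O →
      d ∈ riemannRochSpace (1 • E0 + j • D) ⊔ riemannRochSpace (1 • E1 + j • D) →
      ∃ u ∈ lam O (1 • E0 + j • D), ∃ w ∈ lam O (1 • E1 + j • D),
        algebraMap L F cs * d = u + w := by
    intro n
    induction n with
    | zero => exact ⟨1, A.one_mem, one_ne_zero, fun j hj => absurd hj (Nat.not_lt_zero j)⟩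
    | succ n ih =>
      obtain ⟨cs, hcsA, hcs0, hcs⟩ := ih
      obtain ⟨cs', hcs'A, hcs'0, hcs'⟩ := S.lam_tors (1 • E0 + n • D) (1 • E1 + n • D)
      refine ⟨cs * cs', A.mul_mem _ _ hcsA hcs'A, mul_ne_zero hcs0 hcs'0, fun j hj d hdO hdV => ?_⟩
      rcases Nat.lt_succ_iff_lt_or_eq.mp hj with h | h
      · obtain ⟨u', hu', w', hw', huw⟩ := hcs j h d hdO hdV
        refine ⟨algebraMap L F cs' * u', algebraMap_mul_mem_lam hAO hcs'A hu',
          algebraMap L F cs' * w', algebraMap_mul_mem_lam hAO hcs'A hw', ?_⟩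
        rw [← mul_add, ← huw, map_mul]
        ring
      · subst h
        obtain ⟨u', hu', w', hw', huw⟩ := hcs' d hdO hdV
        refine ⟨algebraMap L F cs * u', algebraMap_mul_mem_lam hAO hcsA hu',
          algebraMap L F cs * w', algebraMap_mul_mem_lam hAO hcsA hw', ?_⟩
        rw [← mul_add, ← huw, map_mul]
        ring
  obtain ⟨cs, hcsA, hcs0, hcs⟩ := htors_all p
  -- coordinates and scalars
  have hkco_smul : ∀ (c : L) (j : ℕ) (z : KAlg p (O.subtype f)),
      kco p (O.subtype f) hp0 j (c • z) = algebraMap L F c * kco p (O.subtype f) hp0 j z := by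
    intro c j z
    rw [← algebraMap_smul F c z, map_smul, smul_eq_mul]
  refine kummer_core_false A O (fun c h => (S.hOA c).mp h) (kco p (O.subtype f) hp0 1) R0 R1 R01
    ?mono0 ?mono1 ?mono01 ?mul0 ?mul1 ?mul01 ?le0 ?le1 ?one0 ?one1 ?smul0 ?smul1 ?smul01
    ?k0 ?int ?inj 1 ?stab cs hcsA hcs0 ?tors c0 hc0A hc00 hc0m (S.hrk c0 cs hc0A hcsA hcs0 hc0m)
    1 (ι ε0) (ι ε1) ?he ?he' ?hee ?hee' ?hdiff ?hk
  case mono0 => exact fun m n h => Rfil_mono (nsmul_le_nsmul_left hE0nn h)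
  case mono1 => exact fun m n h => Rfil_mono (nsmul_le_nsmul_left hE1nn h)
  case mono01 => exact fun m n h => Rfil_mono (nsmul_le_nsmul_left hE01nn h)
  case mul0 =>
    intro m n x y hx hy
    have := Rfil_mul hfO hdiv hx hy
    rwa [← add_smul] at this
  case mul1 =>
    intro m n x y hx hy
    have := Rfil_mul hfO hdiv hx hy
    rwa [← add_smul] at this
  case mul01 =>
    intro m n x y hx hy
    have := Rfil_mul hfO hdiv hx hy
    rwa [← add_smul] at this
  case le0 => exact fun n => Rfil_mono (nsmul_le_nsmul_right (le_add_of_nonneg_right hE1nn) n)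
  case le1 => exact fun n => Rfil_mono (nsmul_le_nsmul_right (le_add_of_nonneg_left hE0nn) n)
  case one0 =>
    show (1 : KAlg p (O.subtype f)) ∈ Rfil O p hp0 (O.subtype f) D (0 • E0)
    rw [zero_smul]
    exact one_mem_Rfil hp.pos
  case one1 =>
    show (1 : KAlg p (O.subtype f)) ∈ Rfil O p hp0 (O.subtype f) D (0 • E1)
    rw [zero_smul]
    exact one_mem_Rfil hp.pos
  case smul0 => exact fun n c hc x hx => smul_mem_Rfil hAO hc hx
  case smul1 => exact fun n c hc x hx => smul_mem_Rfil hAO hc hx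
  case smul01 => exact fun n c hc x hx => smul_mem_Rfil hAO hc hx
  case k0 => exact fun n x hx => (hx 1 hp1).2
  case int =>
    intro m n x hx hx'
    have h := Rfil_inter hE hx hx' hp1
    rw [one_smul] at h
    exact hLD _ h.1
  case inj => exact fun m n y0 y1 _ h0 h1 h01 => Rfil_sep hE h0 h1 h01
  case he =>
    show ι ε0 ∈ Rf (1 • E0)
    rw [one_smul]
    exact he
  case he' =>
    show ι ε1 ∈ Rf (1 • E1)
    rw [one_smul]
    exact he'
  case hee =>
    refine ⟨c0⁻¹ • ((ι ε0) ^ 2 - ι ε0), ⟨2, ?_⟩, ?_⟩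
    · show _ ∈ Rf (2 • E0)
      rw [two_smul]
      exact hg1
    · rw [smul_smul, mul_inv_cancel₀ hc00, one_smul]
  case hee' =>
    refine ⟨c0⁻¹ • ((ι ε1) ^ 2 - ι ε1), ⟨2, ?_⟩, ?_⟩
    · show _ ∈ Rf (2 • E1)
      rw [two_smul]
      exact hg2
    · rw [smul_smul, mul_inv_cancel₀ hc00, one_smul]
  case hdiff =>
    refine ⟨c0⁻¹ • (ι ε0 - ι ε1), ⟨1, ?_⟩, ?_⟩
    · show _ ∈ Rf (1 • (E0 + E1))
      rw [one_smul]
      exact hg3
    · rw [smul_smul, mul_inv_cancel₀ hc00, one_smul]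
  case hk =>
    have hk1 : kco p (O.subtype f) hp0 1 (ι ε0) = O.subtype (a0 1) := by
      rw [hι0]
      exact kco_sum_smul p (O.subtype f) hp0 (fun j => O.subtype (a0 j)) hp1
    have hred1 : red (a0 1) ≠ 0 := by
      rw [ha0red]
      exact mul_ne_zero (inv_ne_zero hpFt) (pow_ne_zero 1 (inv_ne_zero hψ))
    have hval : O.valuation ((a0 1 : O) : F) = 1 := by
      refine le_antisymm ((O.valuation_le_one_iff _).mpr (a0 1).2) ?_
      by_contra hnot
      exact hred1 ((S.hker _).mpr (not_le.mp hnot))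
    have hne : ((a0 1 : O) : F) ≠ 0 := by
      intro h
      rw [h, map_zero] at hval
      exact zero_ne_one hval
    refine ⟨((a0 1 : O) : F)⁻¹, ?_, ?_⟩
    · rw [← O.valuation_le_one_iff, map_inv₀, hval, inv_one]
    · rw [hk1]
      exact mul_inv_cancel₀ hne
  case stab =>
    intro n hn x hx
    have H : ∀ j : ℕ, ∃ d y0 y1 : F, j < p →
        (d ∈ lam O (n • (E0 + E1) + j • D) ∧ y0 ∈ lam O ((n + 1) • E0 + j • D) ∧
          y1 ∈ lam O ((n + 1) • E1 + j • D) ∧
          kco p (O.subtype f) hp0 j x = d + y0 + y1) := by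
      intro j
      by_cases hj : j < p
      · obtain ⟨d, hd, y0, hy0, y1, hy1, hsum⟩ :=
          S.lam_stab P0 P1 hP N1 hLP' hMV' (j • D) (hdegjD j) n hn _ (hx j hj)
        exact ⟨d, y0, y1, fun _ => ⟨hd, hy0, hy1, hsum⟩⟩
      · exact ⟨0, 0, 0, fun h => absurd h hj⟩
    choose dj y0j y1j Hj using H
    refine ⟨∑ j ∈ Finset.range p, dj j • kT p (O.subtype f) ^ j,
      sum_smul_mem_Rfil (fun j hj => (Hj j hj).1),
      ∑ j ∈ Finset.range p, y0j j • kT p (O.subtype f) ^ j,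
      sum_smul_mem_Rfil (fun j hj => (Hj j hj).2.1),
      ∑ j ∈ Finset.range p, y1j j • kT p (O.subtype f) ^ j,
      sum_smul_mem_Rfil (fun j hj => (Hj j hj).2.2.1), ?_⟩
    refine k_ext p (O.subtype f) hp0 fun j hj => ?_
    rw [map_add, map_add, kco_sum_smul p _ hp0 _ hj, kco_sum_smul p _ hp0 _ hj,
      kco_sum_smul p _ hp0 _ hj]
    exact (Hj j hj).2.2.2
  case tors =>
    intro d hd ε hεA hε0 hy
    obtain ⟨y0, hy0, y1, hy1, hsum⟩ := hy
    have H : ∀ j : ℕ, ∃ u' w' : F, j < p →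
        (u' ∈ lam O (1 • E0 + j • D) ∧ w' ∈ lam O (1 • E1 + j • D) ∧
          algebraMap L F cs * kco p (O.subtype f) hp0 j d = u' + w') := by
      intro j
      by_cases hj : j < p
      · have hdO : kco p (O.subtype f) hp0 j d ∈ O := (hd j hj).2
        have hdV : kco p (O.subtype f) hp0 j d ∈
            riemannRochSpace (1 • E0 + j • D) ⊔ riemannRochSpace (1 • E1 + j • D) := by
          have h1 := congrArg (kco p (O.subtype f) hp0 j) hsum
          rw [hkco_smul, map_add] at h1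
          have h2 : kco p (O.subtype f) hp0 j d =
              ε⁻¹ • (kco p (O.subtype f) hp0 j y0 + kco p (O.subtype f) hp0 j y1) := by
            rw [← h1, Algebra.smul_def, ← mul_assoc, ← map_mul, inv_mul_cancel₀ hε0, map_one,
              one_mul]
          rw [h2]
          exact Submodule.smul_mem _ _
            (Submodule.add_mem_sup (hy0 j hj).1 (hy1 j hj).1)
        obtain ⟨u', hu', w', hw', huw⟩ := hcs j hj _ hdO hdV
        exact ⟨u', w', fun _ => ⟨hu', hw', huw⟩⟩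
      · exact ⟨0, 0, fun h => absurd h hj⟩
    choose uj wj Hj using H
    refine ⟨∑ j ∈ Finset.range p, uj j • kT p (O.subtype f) ^ j,
      sum_smul_mem_Rfil (fun j hj => (Hj j hj).1),
      ∑ j ∈ Finset.range p, wj j • kT p (O.subtype f) ^ j,
      sum_smul_mem_Rfil (fun j hj => (Hj j hj).2.1), ?_⟩
    refine k_ext p (O.subtype f) hp0 fun j hj => ?_
    rw [map_add, kco_sum_smul p _ hp0 _ hj, kco_sum_smul p _ hp0 _ hj, hkco_smul]
    exact (Hj j hj).2.2

end RedSetting

namespace RedSetting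

variable {A : ValuationSubring L} {O : ValuationSubring F} {red : O →+* Ft}
  {r : Place L F → Place k Ft} (S : RedSetting A O red r)

include S

/-- A divisor of degree zero with `L(D) ≠ 0` is principal. -/
theorem isPrincipal_of_mem_rr {D : Divisor L F} (hD0 : Divisor.degree D = 0) {x : F}
    (hx : x ∈ riemannRochSpace D) (hx0 : x ≠ 0) : Divisor.IsPrincipal D := by
  obtain ⟨Bx, hBx, hBdeg⟩ := S.hprin x hx0
  rw [mem_riemannRochSpace_iff] at hx
  have hnn : ∀ P, 0 ≤ (Bx + D) P := by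
    intro P
    rw [Finsupp.add_apply, hBx P]
    rcases hx P with h | h
    · exact absurd h hx0
    · linarith
  have hzero := eq_zero_of_nonneg_of_degree_eq_zero S.hdeg1 hnn (by rw [map_add, hBdeg, hD0, add_zero])
  refine ⟨x⁻¹, inv_ne_zero hx0, fun P => ?_⟩
  have := congrArg (fun G : Divisor L F => G P) hzero
  simp only [Finsupp.add_apply, Finsupp.zero_apply] at this
  rw [P.ord_inv, ← hBx P]
  linarith

/-- **RED-KUMMER.**  In a reduction setting, let `p` be a prime invertible on the special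
fibre, and suppose constants of `Ft` are `p`-th powers.  If `D` has degree zero, `p • D` is
principal and the reduction `r_* D` is principal, then `D` is principal. -/
theorem kummer_red_injective {p : ℕ} (hp : p.Prime) (hpFt : (p : Ft) ≠ 0)
    (hconst : ∀ h : Ft, h ≠ 0 → (∀ Q : Place k Ft, Q.ord h = 0) →
      ∃ c : Ft, c ≠ 0 ∧ h = c ^ p)
    (D : Divisor L F) (hD0 : Divisor.degree D = 0)
    (hpD : Divisor.IsPrincipal (p • D))
    (hrD : Divisor.IsPrincipal (Finsupp.mapDomain r D)) : Divisor.IsPrincipal D := by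
  by_contra hnp
  have hLD : ∀ x ∈ riemannRochSpace D, x = 0 := by
    intro x hx
    by_contra hx0
    exact hnp (S.isPrincipal_of_mem_rr hD0 hx hx0)
  obtain ⟨f0, hf0, hf0div⟩ := hpD
  obtain ⟨c, hc, hval⟩ := S.hscale f0 hf0
  set f : O := ⟨algebraMap L F c * f0, (O.valuation_le_one_iff _).mp hval.le⟩ with hf
  have hfdiv : ∀ P : Place L F, P.ord (f : F) = (p : ℤ) * D P := by
    intro P
    show P.ord (algebraMap L F c * f0) = _
    rw [P.ord_mul ((map_ne_zero _).mpr hc) hf0, ← hf0div P, Finsupp.smul_apply, nsmul_eq_mul]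
    have : P.ord (algebraMap L F c) = 0 := by
      rw [Place.ord, adicValuation_algebraMap_eq_one P hc, WithZero.log_one, neg_zero]
    rw [this, zero_add]
  have hredf : red f ≠ 0 := by
    intro h
    have := (S.hker f).mp h
    rw [show ((f : O) : F) = algebraMap L F c * f0 from rfl, hval] at this
    exact lt_irrefl _ this
  obtain ⟨ψ0, hψ0, hψ0div⟩ := hrD
  have hmapsmul : Finsupp.mapDomain r (p • D) = p • Finsupp.mapDomain r D :=
    map_nsmul (Finsupp.mapDomain.addMonoidHom r) p D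
  have hspec := S.hspec f hredf (p • D)
    (fun P => by rw [Finsupp.smul_apply, nsmul_eq_mul, hfdiv P])
  have hψp : ψ0 ^ p ≠ 0 := pow_ne_zero p hψ0
  obtain ⟨c', hc', hc'eq⟩ := hconst (red f * (ψ0 ^ p)⁻¹) (mul_ne_zero hredf (inv_ne_zero hψp))
    (fun Q => by
      rw [Q.ord_mul hredf (inv_ne_zero hψp), Q.ord_inv, ← hspec Q, hmapsmul,
        Finsupp.smul_apply, nsmul_eq_mul, hψ0div Q, ← zpow_natCast, Q.ord_zpow]
      ring)
  refine S.kummer_red_false hp hpFt D hD0 f hfdiv (c' * ψ0) (mul_ne_zero hc' hψ0) ?_ hLD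
  rw [mul_pow, ← hc'eq, mul_assoc, inv_mul_cancel₀ hψp, mul_one]

end RedSetting

end Fermat.Agent.Lib.Red.Kummer
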