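import Mathlib
import Fermat.Prelude.Def_AlgebraicCurve_Repartitions
import Fermat.Agent.Lib.Red.KummerRed

/-!
# RED-KUMMER: the inputs (MV) and (LP) from Riemann's theorem in large degree

* `mv_of_riemann` : (MV) on a function field in which `ℓ(D) = deg D + 1 - g` for `deg D ≥ c`.
* `lp_of_riemann` : (LP) from the lattice property, Riemann's theorem on both sides and the
  genus inequality `g ≤ g~`.
-/

set_option autoImplicit false

namespace Fermat.Agent.Lib.Red.Kummer

open AlgebraicCurve WithZero Module

section MV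

variable {k Ft : Type*} [Field k] [Field Ft] [Algebra k Ft]

/-- The degree of an effective divisor is nonnegative. -/
theorem degree_nonneg_of_nonneg {E : Divisor k Ft} (hE : ∀ Q, 0 ≤ E Q) :
    0 ≤ Divisor.degree E := by
  classical
  rw [Divisor.degree, Finsupp.liftAddHom_apply, Finsupp.sum]
  refine Finset.sum_nonneg fun Q _ => ?_
  rw [AddMonoidHom.mulRight_apply]
  exact mul_nonneg (hE Q) (Int.natCast_nonneg _)

theorem rr_mono {D D' : Divisor k Ft} (h : D ≤ D') :
    riemannRochSpace D ≤ riemannRochSpace D' := fun _ hx v =>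
  (hx v).trans (exp_le_exp.mpr (h v))

/-- **(MV)** from Riemann's theorem in large degree. -/
theorem mv_of_riemann (hfin : ∀ D : Divisor k Ft, Module.Finite k (riemannRochSpace D))
    (c g : ℤ)
    (hR : ∀ D : Divisor k Ft, c ≤ Divisor.degree D →
      (finrank k (riemannRochSpace D) : ℤ) = Divisor.degree D + 1 - g)
    (G E0 E1 : Divisor k Ft) (hG : c ≤ Divisor.degree G)
    (hE : ∀ Q, 0 ≤ E0 Q ∧ 0 ≤ E1 Q ∧ (E0 Q = 0 ∨ E1 Q = 0)) :
    riemannRochSpace (G + E0 + E1) ≤ riemannRochSpace (G + E0) ⊔ riemannRochSpace (G + E1) := by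
  have hE0 : (0 : Divisor k Ft) ≤ E0 := fun Q => (hE Q).1
  have hE1 : (0 : Divisor k Ft) ≤ E1 := fun Q => (hE Q).2.1
  have hd0 := degree_nonneg_of_nonneg (fun Q => (hE Q).1)
  have hd1 := degree_nonneg_of_nonneg (fun Q => (hE Q).2.1)
  have := hfin (G + E0)
  have := hfin (G + E1)
  have := hfin (G + E0 + E1)
  have hU : riemannRochSpace (G + E0) ≤ riemannRochSpace (G + E0 + E1) :=
    rr_mono (le_add_of_nonneg_right hE1)
  have hW : riemannRochSpace (G + E1) ≤ riemannRochSpace (G + E0 + E1) :=
    rr_mono (by rw [add_assoc, add_comm E0 E1, ← add_assoc]; exact le_add_of_nonneg_right hE0)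
  have hinf : riemannRochSpace (G + E0) ⊓ riemannRochSpace (G + E1) = riemannRochSpace G := by
    apply le_antisymm
    · rintro x ⟨h0, h1⟩ v
      have h0v := h0 v
      have h1v := h1 v
      simp only [Finsupp.add_apply] at h0v h1v
      rcases (hE v).2.2 with h | h
      · rwa [h, add_zero] at h0v
      · rwa [h, add_zero] at h1v
    · exact le_inf (rr_mono (le_add_of_nonneg_right hE0)) (rr_mono (le_add_of_nonneg_right hE1))
  have hsum := Submodule.finrank_sup_add_finrank_inf_eq (riemannRochSpace (G + E0))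
    (riemannRochSpace (G + E1))
  rw [hinf] at hsum
  have h1 := hR (G + E0) (by rw [map_add]; linarith)
  have h2 := hR (G + E1) (by rw [map_add]; linarith)
  have h3 := hR G hG
  have h4 := hR (G + E0 + E1) (by rw [map_add, map_add]; linarith)
  have hle : riemannRochSpace (G + E0) ⊔ riemannRochSpace (G + E1) ≤
      riemannRochSpace (G + E0 + E1) := sup_le hU hW
  have hfr : finrank k (riemannRochSpace (G + E0 + E1)) ≤
      finrank k ↥(riemannRochSpace (G + E0) ⊔ riemannRochSpace (G + E1)) := by
    have hsum' : (finrank k ↥(riemannRochSpace (G + E0) ⊔ riemannRochSpace (G + E1)) : ℤ) +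
        finrank k (riemannRochSpace G) =
          finrank k (riemannRochSpace (G + E0)) + finrank k (riemannRochSpace (G + E1)) := by
      exact_mod_cast hsum
    rw [map_add] at h1 h2
    rw [map_add, map_add] at h4
    have : (finrank k (riemannRochSpace (G + E0 + E1)) : ℤ) ≤
        finrank k ↥(riemannRochSpace (G + E0) ⊔ riemannRochSpace (G + E1)) := by linarith
    exact_mod_cast this
  exact (Submodule.eq_of_le_of_finrank_le hle hfr).ge

end MV

section LP

variable {L F k Ft : Type*} [Field L] [Field F] [Field k] [Field Ft] [Algebra L F] [Algebra k Ft]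

/-- **(LP)** from the lattice property (LAT), Riemann's theorem in large degree on both
sides and the genus inequality `g ≤ g'`. -/
theorem lp_of_riemann (A : ValuationSubring L) (O : ValuationSubring F) (red : O →+* Ft)
    (r : Place L F → Place k Ft) (π : A →+* k) (hπsurj : Function.Surjective π)
    (hπ : ∀ a : A, ¬ IsUnit a → π a = 0)
    (hOA : ∀ c : L, algebraMap L F c ∈ O ↔ c ∈ A)
    (hscale : ∀ y : F, y ≠ 0 → ∃ c : L, c ≠ 0 ∧ O.valuation (algebraMap L F c * y) = 1)
    (hker : ∀ y : O, red y = 0 ↔ O.valuation (y : F) < 1)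
    (hredconst : ∀ c : A, red ⟨algebraMap L F (c : L), (hOA _).mpr c.2⟩ = algebraMap k Ft (π c))
    (hredrr : ∀ (B : Divisor L F) (x : O), (x : F) ∈ riemannRochSpace B →
      red x ∈ riemannRochSpace (Finsupp.mapDomain r B))
    (hdegr : ∀ B : Divisor L F, Divisor.degree (Finsupp.mapDomain r B) = Divisor.degree B)
    (hlat : ∀ B : Divisor L F, ∃ N : Submodule A F, N.FG ∧
      ∀ x : F, x ∈ N ↔ (x ∈ riemannRochSpace B ∧ x ∈ O))
    (hfink : ∀ B : Divisor k Ft, Module.Finite k (riemannRochSpace B))
    (c g : ℤ) (hR : ∀ B : Divisor L F, c ≤ Divisor.degree B →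
      (finrank L (riemannRochSpace B) : ℤ) = Divisor.degree B + 1 - g)
    (c' g' : ℤ) (hR' : ∀ B : Divisor k Ft, c' ≤ Divisor.degree B →
      (finrank k (riemannRochSpace B) : ℤ) = Divisor.degree B + 1 - g')
    (hgg : g ≤ g') :
    ∃ e : ℤ, ∀ B : Divisor L F, e ≤ Divisor.degree B →
      ∀ h ∈ riemannRochSpace (Finsupp.mapDomain r B),
        ∃ y : O, (y : F) ∈ riemannRochSpace B ∧ red y = h := by
  classical
  refine ⟨max c c', fun B hB h hh => ?_⟩
  have hBc : c ≤ Divisor.degree B := le_trans (le_max_left _ _) hB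
  have hBc' : c' ≤ Divisor.degree (Finsupp.mapDomain r B) := by
    rw [hdegr]; exact le_trans (le_max_right _ _) hB
  obtain ⟨N, hNfg, hN⟩ := hlat B
  -- a generating finset of minimal cardinality
  have hex : ∃ n : ℕ, ∃ s : Finset F, s.card = n ∧ Submodule.span A (s : Set F) = N := by
    obtain ⟨s, hs⟩ := hNfg
    exact ⟨s.card, s, rfl, hs⟩
  obtain ⟨s, hscard, hspan⟩ := Nat.find_spec hex
  have hmin : ∀ t : Finset F, Submodule.span A (t : Set F) = N → s.card ≤ t.card := by
    intro t ht
    rw [hscard]
    exact Nat.find_min' hex ⟨t, rfl, ht⟩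
  have hsN : ∀ x ∈ s, x ∈ N := fun x hx => by
    rw [← hspan]; exact Submodule.subset_span hx
  have hsO : ∀ x ∈ s, x ∈ O := fun x hx => ((hN x).mp (hsN x hx)).2
  have hsB : ∀ x ∈ s, x ∈ riemannRochSpace B := fun x hx => ((hN x).mp (hsN x hx)).1
  -- constants as elements of `O`
  set cO : A → O := fun a => ⟨algebraMap L F (a : L), (hOA _).mpr a.2⟩ with hcO
  set gO : s → O := fun i => ⟨(i : F), hsO i i.2⟩ with hgO
  set gb : s → Ft := fun i => red (gO i) with hgb
  -- reduction of an `A`-combination
  have hcomb : ∀ a : s → A,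
      ((∑ i, cO (a i) * gO i : O) : F) = ∑ i, a i • (i : F) ∧
      red (∑ i, cO (a i) * gO i) = ∑ i, π (a i) • gb i := by
    intro a
    constructor
    · rw [AddSubmonoidClass.coe_finsetSum]
      refine Finset.sum_congr rfl fun i _ => ?_
      show algebraMap L F (a i : L) * (i : F) = (a i : L) • (i : F)
      rw [Algebra.smul_def]
    · rw [map_sum]
      refine Finset.sum_congr rfl fun i _ => ?_
      rw [map_mul, hredconst, Algebra.smul_def]
  -- nonunits with zero reduction are divisible by a nonunit constant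
  have hdivide : ∀ y : F, y ∈ N → O.valuation y < 1 →
      ∃ (cc : A) (u : F), ¬ IsUnit cc ∧ u ∈ N ∧ y = cc • u := by
    intro y hyN hv
    rcases eq_or_ne y 0 with h0 | h0
    · exact ⟨0, 0, not_isUnit_zero, N.zero_mem, by rw [h0, smul_zero]⟩
    obtain ⟨c1, hc1, hval⟩ := hscale y h0
    have hvy : O.valuation y ≠ 0 := (Valuation.ne_zero_iff _).mpr h0
    have hvc1 : O.valuation (algebraMap L F c1) = (O.valuation y)⁻¹ := by
      rw [map_mul] at hval
      exact eq_inv_of_mul_eq_one_left hval
    have hcA : c1⁻¹ ∈ A := by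
      rw [← hOA, ← O.valuation_le_one_iff, map_inv₀, map_inv₀, hvc1, inv_inv]
      exact hv.le
    have hcm : c1 ∉ A := by
      intro hmem
      have h1 := (O.valuation_le_one_iff _).mpr ((hOA c1).mpr hmem)
      rw [hvc1] at h1
      have h2 : 1 < (O.valuation y)⁻¹ := (one_lt_inv₀ (zero_lt_iff.mpr hvy)).mpr hv
      exact absurd h1 (not_le.mpr h2)
    refine ⟨⟨c1⁻¹, hcA⟩, algebraMap L F c1 * y, ?_, ?_, ?_⟩
    · intro hu
      have hval1 := (A.valuation_eq_one_iff ⟨c1⁻¹, hcA⟩).mp hu
      apply hcm
      rw [← A.valuation_le_one_iff]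
      have : A.valuation c1 = 1 := by
        have h3 : A.valuation (c1⁻¹ : L) = 1 := hval1
        rw [map_inv₀, inv_eq_one] at h3
        exact h3
      exact this.le
    · rw [hN]
      refine ⟨?_, (O.valuation_le_one_iff _).mp hval.le⟩
      rw [← Algebra.smul_def]
      exact Submodule.smul_mem _ _ ((hN y).mp hyN).1
    · show y = (c1⁻¹ : L) • (algebraMap L F c1 * y)
      rw [Algebra.smul_def, ← mul_assoc, ← map_mul, inv_mul_cancel₀ hc1, map_one, one_mul]
  -- the reductions of a minimal generating set are linearly independent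
  have hli : LinearIndependent k gb := by
    by_contra hnot
    obtain ⟨γ, hγsum, i0, hi0⟩ := Fintype.not_linearIndependent_iff.mp hnot
    choose a ha using fun i => hπsurj (γ i)
    obtain ⟨hyF, hyred⟩ := hcomb a
    set y : O := ∑ i, cO (a i) * gO i with hy
    have hy0 : red y = 0 := by
      rw [hyred]
      simp only [ha]
      exact hγsum
    have hval := (hker y).mp hy0
    have hai0 : IsUnit (a i0) := by
      by_contra h
      exact hi0 (by rw [← ha i0]; exact hπ _ h)
    have hyN : (y : F) ∈ N := by
      rw [hyF]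
      exact Submodule.sum_mem _ fun i _ => Submodule.smul_mem _ _ (hsN i i.2)
    obtain ⟨cc, u, hcc, huN, hyu⟩ := hdivide (y : F) hyN hval
    rw [← hspan] at huN
    have hrange : (s : Set F) = Set.range (fun i : s => (i : F)) := by
      ext x
      simp
    rw [hrange] at huN
    obtain ⟨b, hb⟩ := (Submodule.mem_span_range_iff_exists_fun A).mp huN
    have hrel : ∑ i, (a i - cc * b i) • (i : F) = 0 := by
      simp only [sub_smul, Finset.sum_sub_distrib, mul_smul]
      rw [← Finset.smul_sum, hb, ← hyu, ← hyF, sub_self]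
    have hunit : IsUnit (a i0 - cc * b i0) := by
      by_contra h
      have hcb : ¬ IsUnit (cc * b i0) := fun h' => hcc (isUnit_of_mul_isUnit_left h')
      have := IsLocalRing.nonunits_add h hcb
      rw [sub_add_cancel] at this
      exact this hai0
    obtain ⟨w, hw⟩ := hunit
    -- `i0` is in the span of the others
    have hi0span : (i0 : F) ∈ Submodule.span A ((s.erase (i0 : F) : Finset F) : Set F) := by
      have h1 : (a i0 - cc * b i0) • (i0 : F) =
          - ∑ i ∈ Finset.univ.erase i0, (a i - cc * b i) • (i : F) := by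
        rw [eq_neg_iff_add_eq_zero,
          Finset.add_sum_erase Finset.univ (fun i : s => (a i - cc * b i) • (i : F))
            (Finset.mem_univ i0)]
        exact hrel
      have h3 : (↑w⁻¹ : A) • -(∑ i ∈ Finset.univ.erase i0, (a i - cc * b i) • (i : F)) ∈
          Submodule.span A ((s.erase (i0 : F) : Finset F) : Set F) := by
        refine Submodule.smul_mem _ _ (Submodule.neg_mem _ (Submodule.sum_mem _ fun i hi => ?_))
        refine Submodule.smul_mem _ _ (Submodule.subset_span ?_)
        rw [Finset.mem_coe, Finset.mem_erase]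
        exact ⟨fun h => (Finset.mem_erase.mp hi).1 (Subtype.ext h), i.2⟩
      rwa [← h1, smul_smul, ← hw, Units.inv_mul, one_smul] at h3
    have hspan' : Submodule.span A ((s.erase (i0 : F) : Finset F) : Set F) = N := by
      apply le_antisymm
      · rw [← hspan]
        exact Submodule.span_mono (Finset.coe_subset.mpr (Finset.erase_subset _ _))
      · rw [← hspan, Submodule.span_le]
        intro x hx
        by_cases hx0 : x = (i0 : F)
        · rw [hx0]; exact hi0span
        · exact Submodule.subset_span (Finset.mem_coe.mpr (Finset.mem_erase.mpr ⟨hx0, hx⟩))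
    have := hmin _ hspan'
    rw [Finset.card_erase_of_mem i0.2] at this
    have hpos : 0 < s.card := Finset.card_pos.mpr ⟨i0, i0.2⟩
    omega
  -- the generating set spans `L(B)` over `L`
  have hLspan : riemannRochSpace B ≤ Submodule.span L (s : Set F) := by
    intro y hy
    have hyscale : ∃ c1 : L, c1 ≠ 0 ∧ algebraMap L F c1 * y ∈ O := by
      rcases eq_or_ne y 0 with rfl | h0
      · exact ⟨1, one_ne_zero, by rw [mul_zero]; exact O.zero_mem⟩
      · obtain ⟨c1, hc1, hval⟩ := hscale y h0
        exact ⟨c1, hc1, (O.valuation_le_one_iff _).mp hval.le⟩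
    obtain ⟨c1, hc1, hmem⟩ := hyscale
    have hN1 : algebraMap L F c1 * y ∈ N := by
      rw [hN]
      refine ⟨?_, hmem⟩
      rw [← Algebra.smul_def]
      exact Submodule.smul_mem _ _ hy
    rw [← hspan] at hN1
    have h1 : algebraMap L F c1 * y ∈ Submodule.span L (s : Set F) :=
      Submodule.span_le_restrictScalars A L (s : Set F) hN1
    have h2 : y = c1⁻¹ • (algebraMap L F c1 * y) := by
      rw [Algebra.smul_def, ← mul_assoc, ← map_mul, inv_mul_cancel₀ hc1, map_one, one_mul]
    rw [h2]
    exact Submodule.smul_mem _ _ h1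
  have hcardL : finrank L (riemannRochSpace B) ≤ s.card :=
    (Submodule.finrank_mono hLspan).trans (finrank_span_finset_le_card s)
  -- the span of the reductions is all of `L~(r_* B)`
  have hgbmem : Submodule.span k (Set.range gb) ≤ riemannRochSpace (Finsupp.mapDomain r B) := by
    rw [Submodule.span_le]
    rintro _ ⟨i, rfl⟩
    exact hredrr B (gO i) (hsB i i.2)
  have hfr : finrank k (Submodule.span k (Set.range gb)) = s.card := by
    rw [finrank_span_eq_card hli, Fintype.card_coe]
  have := hfink (Finsupp.mapDomain r B)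
  have hle : finrank k (riemannRochSpace (Finsupp.mapDomain r B)) ≤
      finrank k (Submodule.span k (Set.range gb)) := by
    rw [hfr]
    have h1 := hR B hBc
    have h2 := hR' _ hBc'
    rw [hdegr] at h2
    have h3 : (finrank k (riemannRochSpace (Finsupp.mapDomain r B)) : ℤ) ≤
        finrank L (riemannRochSpace B) := by linarith
    exact (Int.ofNat_le.mp h3).trans hcardL
  have heq := Submodule.eq_of_le_of_finrank_le hgbmem hle
  rw [← heq] at hh
  obtain ⟨γ, hγ⟩ := (Submodule.mem_span_range_iff_exists_fun k).mp hh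
  choose a ha using fun i => hπsurj (γ i)
  obtain ⟨hyF, hyred⟩ := hcomb a
  refine ⟨∑ i, cO (a i) * gO i, ?_, ?_⟩
  · rw [hyF]
    exact Submodule.sum_mem _ fun i _ => Submodule.smul_mem _ (a i : L) (hsB i i.2)
  · rw [hyred]
    simp only [ha]
    exact hγ

end LP

end Fermat.Agent.Lib.Red.Kummer
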