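import Mathlib
import Fermat.Prelude.Def_AlgebraicCurve_Repartitions
import Fermat.Agent.Lib.Red.KummerInputs

/-!
# RED-KUMMER: the reduction setting from Riemann's theorem and the genus inequality

`RedSetting.of_riemann` builds the abstract `RedSetting` consumed by
`RedSetting.kummer_red_injective` from

* the valuation-theoretic data (`O ∩ L = A`, scaling, kernel of `red`, reduction of constants),
* the Prelude specification of a place reduction,
* the lattice property (LAT),
* Riemann's theorem in large degree on both function fields with genera `g ≤ g'`,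
* rank one of `A`,
* two places with different reductions.

`principal_of_prime_torsion` is the resulting statement: `p • D` and `r_* D` principal imply
`D` principal.
-/

set_option autoImplicit false

namespace Fermat.Agent.Lib.Red.Kummer

open AlgebraicCurve WithZero Module

variable {L F k Ft : Type*} [Field L] [Field F] [Field k] [Field Ft] [Algebra L F] [Algebra k Ft]

/-- Reduction maps `L(B) ∩ O` into `L~(r_* B)` (from the specification of `r`). -/
theorem red_mem_rr_of_spec {O : ValuationSubring F} {red : O →+* Ft} {r : Place L F → Place k Ft}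
    (hprin : ∀ y : F, y ≠ 0 → ∃ B : Divisor L F, (∀ P, B P = P.ord y) ∧ Divisor.degree B = 0)
    (hspec : ∀ y : O, red y ≠ 0 → ∀ B : Divisor L F, (∀ P, B P = P.ord (y : F)) →
      ∀ Q, Finsupp.mapDomain r B Q = Q.ord (red y))
    (B : Divisor L F) (x : O) (hx : (x : F) ∈ riemannRochSpace B) :
    red x ∈ riemannRochSpace (Finsupp.mapDomain r B) := by
  by_cases h0 : red x = 0
  · rw [h0]; exact Submodule.zero_mem _
  have hx0 : (x : F) ≠ 0 := by
    intro h
    apply h0
    have : x = 0 := Subtype.ext h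
    rw [this, map_zero]
  obtain ⟨Bx, hBx, -⟩ := hprin (x : F) hx0
  have hsp := hspec x h0 Bx hBx
  rw [mem_riemannRochSpace_iff] at hx ⊢
  intro Q
  right
  have hnn : ∀ P, 0 ≤ (Bx + B) P := by
    intro P
    rw [Finsupp.add_apply, hBx P]
    rcases hx P with h | h
    · exact absurd h hx0
    · linarith
  have := mapDomain_nonneg_of_nonneg r hnn Q
  rw [Finsupp.mapDomain_add, Finsupp.add_apply, hsp Q] at this
  linarith

/-- The abstract reduction setting from Riemann's theorem on both sides, the lattice property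
and the genus inequality. -/
theorem RedSetting.of_riemann (A : ValuationSubring L) (O : ValuationSubring F) (red : O →+* Ft)
    (r : Place L F → Place k Ft) (π : A →+* k) (hπsurj : Function.Surjective π)
    (hπ : ∀ a : A, ¬ IsUnit a → π a = 0)
    (hOA : ∀ c : L, algebraMap L F c ∈ O ↔ c ∈ A)
    (hscale : ∀ y : F, y ≠ 0 → ∃ c : L, c ≠ 0 ∧ O.valuation (algebraMap L F c * y) = 1)
    (hker : ∀ y : O, red y = 0 ↔ O.valuation (y : F) < 1)
    (hredconst : ∀ c : A, red ⟨algebraMap L F (c : L), (hOA _).mpr c.2⟩ = algebraMap k Ft (π c))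
    (hspec : ∀ y : O, red y ≠ 0 → ∀ B : Divisor L F, (∀ P, B P = P.ord (y : F)) →
      ∀ Q, Finsupp.mapDomain r B Q = Q.ord (red y))
    (hdegr : ∀ P, (r P).deg = P.deg)
    (hdeg1 : ∀ P : Place L F, P.deg = 1)
    (hprin : ∀ y : F, y ≠ 0 → ∃ B : Divisor L F, (∀ P, B P = P.ord y) ∧ Divisor.degree B = 0)
    (hfin : ∀ B : Divisor L F, Module.Finite L (riemannRochSpace B))
    (hlat : ∀ V : Submodule L F, FiniteDimensional L V →
      ∃ N : Submodule A F, N.FG ∧ ∀ x : F, x ∈ N ↔ (x ∈ V ∧ x ∈ O))
    (hfink : ∀ B : Divisor k Ft, Module.Finite k (riemannRochSpace B))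
    (c g : ℤ) (hR : ∀ B : Divisor L F, c ≤ Divisor.degree B →
      (finrank L (riemannRochSpace B) : ℤ) = Divisor.degree B + 1 - g)
    (c' g' : ℤ) (hR' : ∀ B : Divisor k Ft, c' ≤ Divisor.degree B →
      (finrank k (riemannRochSpace B) : ℤ) = Divisor.degree B + 1 - g')
    (hgg : g ≤ g')
    (hrk : ∀ c a : L, c ∈ A → a ∈ A → a ≠ 0 → c⁻¹ ∉ A → ∃ n : ℕ, c ^ n * a⁻¹ ∈ A)
    (hnontriv : ∃ c : L, c ∈ A ∧ c ≠ 0 ∧ c⁻¹ ∉ A)
    (hplaces : ∃ P0 P1 : Place L F, r P0 ≠ r P1) :
    RedSetting A O red r where
  hOA := hOA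
  hscale := hscale
  hker := hker
  hspec := hspec
  hdegr := hdegr
  hdeg1 := hdeg1
  hprin := hprin
  hfin := hfin
  hlat := hlat
  hLP := lp_of_riemann A O red r π hπsurj hπ hOA hscale hker hredconst
    (red_mem_rr_of_spec hprin hspec) (degree_mapDomain_eq r hdegr) (fun B => hlat _ (hfin B))
    hfink c g hR c' g' hR' hgg
  hMV := ⟨c', fun G E0 E1 hG hE => mv_of_riemann hfink c' g' hR' G E0 E1 hG hE⟩
  hrk := hrk
  hnontriv := hnontriv
  hplaces := hplaces

end Fermat.Agent.Lib.Red.Kummer
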