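/-
ESJ / RED (SPEC-UNIT): the Prelude's specification of a place reduction `r`
(`IsPlaceReductionAlong A π N r`: `r_*(div y) = div (ȳ)` for `A`-integral series `y` with nonzero
reduction) holds for ALL elements of the Gauss valuation ring `O_w` with nonzero reduction:

* `mapDomain_eq_ord_redF` : `r_*(div f) = div (red f)` for `f ∈ O_w`, `red f ≠ 0`;
* `mapDomain_eq_ord_redF'` : the same under `[HasPrincipalDivisors L (L·F_N)]`;
* `mapDomain_isPrincipal_of_unit` : `r_*(div f)` is the principal divisor of `red f`.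

(`hfin`: every nonzero function of `L·F_N` has a divisor, i.e. finitely many zeros and poles.)
-/
import Mathlib
import Fermat.Agent.Lib.Red.Ow

set_option autoImplicit false

namespace Fermat.Agent.Lib.Red.SpecUnit

open HahnSeries ModularCurve Polynomial AlgebraicCurve Fermat.Agent.S28 Fermat.Agent.Lib.Red

noncomputable section

variable {L : Type*} [Field L] [Algebra ℚ L] {A : ValuationSubring L} {k : Type} [Field k]
  {π : A →+* k} {N : ℕ} [NeZero N]

/-- **The spec of a place reduction for all units of the Gauss valuation ring.** -/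
theorem mapDomain_eq_ord_redF (hπ : ∀ a : A, ¬ IsUnit a → π a = 0) (hNk : (N : k) ≠ 0)
    (hfin : ∀ f : laurentBaseChange L (modularFunctionFieldFull N), f ≠ 0 →
      ∃ D : Divisor L (laurentBaseChange L (modularFunctionFieldFull N)), ∀ P, D P = P.ord f)
    (r : Place L ↥(laurentBaseChange L (modularFunctionFieldFull N)) →
      Place k ↥(modularFunctionFieldFullC k N))
    (hr : IsPlaceReductionAlong A π N r) (f : Ow A π N hNk) (hf : redF A π N hπ hNk f ≠ 0)
    (D : Divisor L ↥(laurentBaseChange L (modularFunctionFieldFull N)))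
    (hD : ∀ P, D P = P.ord (f : ↥(laurentBaseChange L (modularFunctionFieldFull N))))
    (Q : Place k ↥(modularFunctionFieldFullC k N)) :
    Finsupp.mapDomain r D Q = Q.ord (redF A π N hπ hNk f) := by
  have hf0 : (f : ↥(laurentBaseChange L (modularFunctionFieldFull N))) ≠ 0 := by
    intro h0
    apply hf
    have : f = 0 := Subtype.ext h0
    rw [this, map_zero]
  have hf0' : ((f : ↥(laurentBaseChange L (modularFunctionFieldFull N))) : LaurentSeries L) ≠ 0 :=
    fun h => hf0 (Subtype.ext h)
  obtain ⟨a, P, s, ha, hPF, hsF, hP, hs, hPκ, hsκ, heq⟩ :=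
    goodV_full' A π N hNk _ (f : ↥(laurentBaseChange L (modularFunctionFieldFull N))).2 hf0'
  set fP : laurentBaseChange L (modularFunctionFieldFull N) := ⟨incl A P, hPF⟩ with hfP
  set fs : laurentBaseChange L (modularFunctionFieldFull N) := ⟨incl A s, hsF⟩ with hfs
  have hfs0 : fs ≠ 0 := by
    intro h0
    have h1 : incl A s = 0 := congrArg Subtype.val h0
    have h2 : s = 0 := incl_injective A (by rw [h1, map_zero])
    exact hs (by rw [h2, map_zero])
  have hfP0 : fP ≠ 0 := by
    intro h0
    have h1 : incl A P = 0 := congrArg Subtype.val h0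
    have h2 : P = 0 := incl_injective A (by rw [h1, map_zero])
    exact hP (by rw [h2, map_zero])
  have hrel : algebraMap L (laurentBaseChange L (modularFunctionFieldFull N)) a *
      (f : ↥(laurentBaseChange L (modularFunctionFieldFull N))) * fs = fP := by
    apply Subtype.ext
    show algebraMap L (LaurentSeries L) a *
      ((f : ↥(laurentBaseChange L (modularFunctionFieldFull N))) : LaurentSeries L) * incl A s =
        incl A P
    rw [← C_eq_algebraMap]
    exact heq
  have hca0 : algebraMap L (laurentBaseChange L (modularFunctionFieldFull N)) a ≠ 0 := by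
    rw [Ne, map_eq_zero]
    exact ha
  obtain ⟨DP, hDP⟩ := hfin fP hfP0
  obtain ⟨Ds, hDs⟩ := hfin fs hfs0
  have hDeq : D + Ds = DP := by
    ext v
    rw [Finsupp.add_apply, hD v, hDP v, hDs v, ← hrel, v.ord_mul (mul_ne_zero hca0 hf0) hfs0,
      v.ord_mul hca0 hf0, ord_algebraMap v ha]
    ring
  -- the spec for `P` and `s`
  have h1 := hr.2 P hPF hPκ hP DP hDP Q
  have h2 := hr.2 s hsF hsκ hs Ds hDs Q
  have h3 : Finsupp.mapDomain r D Q + Finsupp.mapDomain r Ds Q = Finsupp.mapDomain r DP Q := by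
    rw [← Finsupp.add_apply, ← Finsupp.mapDomain_add, hDeq]
  -- the reduction of `f`
  set gP : ↥(modularFunctionFieldFullC k N) := ⟨coeffMap π P, hPκ⟩ with hgP
  set gs : ↥(modularFunctionFieldFullC k N) := ⟨coeffMap π s, hsκ⟩ with hgs
  have hgP0 : gP ≠ 0 := fun h0 => hP (congrArg Subtype.val h0)
  have hgs0 : gs ≠ 0 := fun h0 => hs (congrArg Subtype.val h0)
  have hmem : HahnSeries.C a *
      ((f : ↥(laurentBaseChange L (modularFunctionFieldFull N))) : LaurentSeries L) ∈
        gaussRing A π := mem_gaussRing_of_mul_eq hs heq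
  have hredaf : red A π ⟨_, hmem⟩ = rbar A π P / rbar A π s := red_of_mul_eq hs heq hmem
  have hne : red A π ⟨_, hmem⟩ ≠ 0 := by
    rw [hredaf]
    exact div_ne_zero hP hs
  have hfG : ((f : ↥(laurentBaseChange L (modularFunctionFieldFull N))) : LaurentSeries L) ∈
      gaussRing A π := f.2
  obtain ⟨hinv, hred⟩ := red_eq_C_mul A π hπ ha hfG hmem hne
  have hfcoe : ((redF A π N hπ hNk f : ↥(modularFunctionFieldFullC k N)) : LaurentSeries k) =
      HahnSeries.C (π ⟨a⁻¹, hinv⟩) * (rbar A π P / rbar A π s) := by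
    rw [coe_redF, ← hredaf, ← hred]
    rfl
  have hc0 : π ⟨a⁻¹, hinv⟩ ≠ 0 := by
    intro h0
    apply hf
    apply Subtype.ext
    rw [hfcoe, h0, map_zero, zero_mul]
    rfl
  have hfeq : redF A π N hπ hNk f =
      algebraMap k ↥(modularFunctionFieldFullC k N) (π ⟨a⁻¹, hinv⟩) * (gP * gs⁻¹) := by
    apply Subtype.ext
    rw [hfcoe, C_eq_algebraMap, div_eq_mul_inv]
    rfl
  have hca0' : algebraMap k ↥(modularFunctionFieldFullC k N) (π ⟨a⁻¹, hinv⟩) ≠ 0 := by
    rw [Ne, map_eq_zero]
    exact hc0
  rw [hfeq, Q.ord_mul hca0' (mul_ne_zero hgP0 (inv_ne_zero hgs0)), ord_algebraMap Q hc0,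
    Q.ord_mul hgP0 (inv_ne_zero hgs0), Q.ord_inv]
  rw [h1, h2] at h3
  linarith

/-- The same with the finiteness of divisors as an instance. -/
theorem mapDomain_eq_ord_redF' [HasPrincipalDivisors L ↥(laurentBaseChange L (modularFunctionFieldFull N))]
    (hπ : ∀ a : A, ¬ IsUnit a → π a = 0) (hNk : (N : k) ≠ 0)
    (r : Place L ↥(laurentBaseChange L (modularFunctionFieldFull N)) →
      Place k ↥(modularFunctionFieldFullC k N))
    (hr : IsPlaceReductionAlong A π N r) (f : Ow A π N hNk) (hf : redF A π N hπ hNk f ≠ 0)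
    (D : Divisor L ↥(laurentBaseChange L (modularFunctionFieldFull N)))
    (hD : ∀ P, D P = P.ord (f : ↥(laurentBaseChange L (modularFunctionFieldFull N))))
    (Q : Place k ↥(modularFunctionFieldFullC k N)) :
    Finsupp.mapDomain r D Q = Q.ord (redF A π N hπ hNk f) :=
  mapDomain_eq_ord_redF hπ hNk
    (fun g hg => by
      obtain ⟨E, hE, -⟩ := HasPrincipalDivisors.exists_divisor (K := L) g hg
      exact ⟨E, hE⟩) r hr f hf D hD Q

/-- For an arbitrary nonzero function `f`: `r_*(div f) = div (red (a f))` for a suitable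
constant `a ≠ 0` with `a f` a unit of the Gauss valuation ring. -/
theorem exists_mapDomain_eq_ord (hπ : ∀ a : A, ¬ IsUnit a → π a = 0) (hNk : (N : k) ≠ 0)
    (hfin : ∀ f : laurentBaseChange L (modularFunctionFieldFull N), f ≠ 0 →
      ∃ D : Divisor L (laurentBaseChange L (modularFunctionFieldFull N)), ∀ P, D P = P.ord f)
    (r : Place L ↥(laurentBaseChange L (modularFunctionFieldFull N)) →
      Place k ↥(modularFunctionFieldFullC k N))
    (hr : IsPlaceReductionAlong A π N r)
    (f : ↥(laurentBaseChange L (modularFunctionFieldFull N))) (hf : f ≠ 0)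
    (D : Divisor L ↥(laurentBaseChange L (modularFunctionFieldFull N)))
    (hD : ∀ P, D P = P.ord f) :
    ∃ a : L, a ≠ 0 ∧ ∃ h : algebraMap L _ a * f ∈ Ow A π N hNk,
      redF A π N hπ hNk ⟨_, h⟩ ≠ 0 ∧
      ∀ Q, Finsupp.mapDomain r D Q = Q.ord (redF A π N hπ hNk ⟨_, h⟩) := by
  obtain ⟨a, ha, h, hne⟩ := exists_scaling_Ow hπ hNk f hf
  refine ⟨a, ha, h, hne, fun Q => ?_⟩
  refine mapDomain_eq_ord_redF hπ hNk hfin r hr ⟨_, h⟩ hne D (fun P => ?_) Q
  have hca0 : algebraMap L (laurentBaseChange L (modularFunctionFieldFull N)) a ≠ 0 := by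
    rw [Ne, map_eq_zero]
    exact ha
  show D P = P.ord (algebraMap L _ a * f)
  rw [hD P, P.ord_mul hca0 hf, ord_algebraMap P ha, zero_add]

/-- A place reduction is surjective (for surjective `π`). -/
theorem r_surjective (hπ : ∀ a : A, ¬ IsUnit a → π a = 0) (hsurj : Function.Surjective π)
    (hNk : (N : k) ≠ 0)
    (hfin : ∀ f : laurentBaseChange L (modularFunctionFieldFull N), f ≠ 0 →
      ∃ D : Divisor L (laurentBaseChange L (modularFunctionFieldFull N)), ∀ P, D P = P.ord f)
    (r : Place L ↥(laurentBaseChange L (modularFunctionFieldFull N)) →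
      Place k ↥(modularFunctionFieldFullC k N))
    (hr : IsPlaceReductionAlong A π N r) : Function.Surjective r := by
  intro Q
  obtain ⟨ϖ, hϖ⟩ := IsDiscreteValuationRing.exists_irreducible Q.toValuationSubring
  have hord : Q.ord ((ϖ : Q.toValuationSubring) : ↥(modularFunctionFieldFullC k N)) = 1 :=
    Q.ord_coe_irreducible hϖ
  obtain ⟨f, hf⟩ := redF_surjective hπ hsurj hNk
    ((ϖ : Q.toValuationSubring) : ↥(modularFunctionFieldFullC k N))
  have hne : redF A π N hπ hNk f ≠ 0 := by
    rw [hf]
    intro h0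
    rw [h0, Place.ord_zero] at hord
    exact zero_ne_one hord
  have hf0 : (f : ↥(laurentBaseChange L (modularFunctionFieldFull N))) ≠ 0 := by
    intro h0
    apply hne
    have : f = 0 := Subtype.ext h0
    rw [this, map_zero]
  obtain ⟨D, hD⟩ := hfin _ hf0
  have h := mapDomain_eq_ord_redF hπ hNk hfin r hr f hne D hD Q
  rw [hf, hord] at h
  by_contra hcon
  have h0 : Finsupp.mapDomain r D Q = 0 := Finsupp.mapDomain_of_notMem_range _ _ hcon
  rw [h0] at h
  exact zero_ne_one h

end

end Fermat.Agent.Lib.Red.SpecUnit
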