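import Mathlib
import Fermat.Agent.Lib.Red.KummerSetting
import Fermat.Agent.Lib.Red.KummerLat
import Fermat.Agent.Lib.Red.InstGenus
import Fermat.Agent.Lib.Red.SpecUnit
import Fermat.Agent.Lib.Red.Integral

/-!
# RED-KUMMER: the modular instance

For the modular function fields `F = L·F_N` (`L` algebraically closed of characteristic zero
with a valuation ring `A` of rank one) and `F~ = k(J̄(q^d) : d ∣ N)` (`k` the algebraically
closed residue field, `N` invertible in `k`), the Gauss valuation ring `Ow` with its reduction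
map `redF` and ANY place reduction `r` satisfying the Prelude specification form a
`Kummer.RedSetting`, under the single geometric hypothesis

  `genusFF L F ≤ genusFF k F~`.

Consequently (`principal_of_prime_torsion_Ow`): if `p` is a prime invertible in `k`, `deg D = 0`
and both `p • D` and `r_* D` are principal, then `D` is principal.

Inputs: V0 (`Ow`, `redF`: helper90), the good basis of `F / L(x)` (helper90) through
`lat_of_goodBasis`, `SpecUnit` (helper45), `IsFF1` on both sides (helper86/helper83/helper18),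
Riemann's theorem in large degree (helper83).  No discriminants, no tube coordinates, no
non-special divisors.
-/

set_option autoImplicit false

namespace Fermat.Agent.Lib.Red.Kummer

open ModularCurve AlgebraicCurve Polynomial IntermediateField Fermat.Agent.Lib.FF
  Fermat.Agent.Lib.Red

section Inst

variable {L : Type*} [Field L] [Algebra ℚ L] {A : ValuationSubring L} {k : Type} [Field k]
  {π : A →+* k} {N : ℕ} [NeZero N]

/-- Primitive polynomials in `x` are units of the Gauss valuation ring. -/
theorem inv_aeval_mem_Ow_of_coeff (hπ : ∀ a : A, ¬ IsUnit a → π a = 0) (hNk : (N : k) ≠ 0)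
    (p : L[X]) (hp : ∀ i, p.coeff i ∈ A) (h1 : ∃ j, p.coeff j = 1) :
    (aeval (xL L N) p)⁻¹ ∈ Ow A π N hNk := by
  have hsub : ((p.coeffs : Finset L) : Set L) ⊆ A.toSubring := by
    intro c hc
    obtain ⟨i, -, rfl⟩ := Polynomial.mem_coeffs_iff.mp (Finset.mem_coe.mp hc)
    exact hp i
  have hmap : (p.toSubring A.toSubring hsub).map A.subtype = p :=
    Polynomial.map_toSubring _ _ hsub
  have hne : (p.toSubring A.toSubring hsub).map π ≠ 0 := by
    obtain ⟨j, hj⟩ := h1
    intro h0
    have h2 := congrArg (fun q : k[X] => q.coeff j) h0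
    simp only [Polynomial.coeff_map, Polynomial.coeff_zero] at h2
    have h3 : (p.toSubring A.toSubring hsub).coeff j = (1 : A) := by
      apply Subtype.ext
      rw [Polynomial.coeff_toSubring, hj]
      rfl
    rw [h3, map_one] at h2
    exact one_ne_zero h2
  have h := inv_aeval_map_mem_Ow (N := N) hπ hNk (p.toSubring A.toSubring hsub) hne
  rwa [hmap] at h

variable [IsAlgClosed L] [IsAlgClosed k]

/-- **The KUMMER reduction setting for the modular function fields**: for every place reduction
`r` (Prelude specification), the Gauss valuation ring `Ow` with its reduction map `redF` is a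
`RedSetting`, provided `A` has rank one and the genus does not drop. -/
theorem redSetting_Ow (hπ : ∀ a : A, ¬ IsUnit a → π a = 0) (hsurj : Function.Surjective π)
    (hNk : (N : k) ≠ 0)
    (r : Place L ↥(laurentBaseChange L (modularFunctionFieldFull N)) →
      Place k ↥(modularFunctionFieldFullC k N))
    (hr : IsPlaceReductionAlong A π N r)
    (hrk : ∀ c a : L, c ∈ A → a ∈ A → a ≠ 0 → c⁻¹ ∉ A → ∃ n : ℕ, c ^ n * a⁻¹ ∈ A)
    (hnontriv : ∃ c : L, c ∈ A ∧ c ≠ 0 ∧ c⁻¹ ∉ A)
    (hgg : genusFF L ↥(laurentBaseChange L (modularFunctionFieldFull N)) ≤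
      genusFF k ↥(modularFunctionFieldFullC k N)) :
    RedSetting A (Ow A π N hNk) (redF A π N hπ hNk) r := by
  have hFL := InstGenus.isFF1_xL (A := A) (π := π) hπ hsurj hNk
  have hFk := InstGenus.isFF1_xk (A := A) (π := π) hπ hsurj hNk
  have hpd := hFL.hasPrincipalDivisors
  have hfinD : ∀ f : ↥(laurentBaseChange L (modularFunctionFieldFull N)), f ≠ 0 →
      ∃ D : Divisor L ↥(laurentBaseChange L (modularFunctionFieldFull N)),
        ∀ P, D P = P.ord f := fun f hf => by
    obtain ⟨D, hD, -⟩ := HasPrincipalDivisors.exists_divisor (K := L) f hf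
    exact ⟨D, hD⟩
  obtain ⟨c, hc⟩ := hFL.exists_degree_bound
  obtain ⟨c', hc'⟩ := hFk.exists_degree_bound
  obtain ⟨ι, _, G, -⟩ := exists_goodBasis hπ hsurj hNk
  have hinf := hFk.infinite_place
  obtain ⟨Q0, Q1, hQ⟩ := exists_pair_ne (Place k ↥(modularFunctionFieldFullC k N))
  obtain ⟨P0, rfl⟩ := SpecUnit.r_surjective hπ hsurj hNk hfinD r hr Q0
  obtain ⟨P1, rfl⟩ := SpecUnit.r_surjective hπ hsurj hNk hfinD r hr Q1
  refine RedSetting.of_riemann A _ _ r π hsurj hπ
    (fun a => algebraMap_mem_Ow_iff hπ hNk a)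
    ?hscale ?hker (fun a => redF_algebraMap hπ hNk a)
    (fun y hy B hB Q => SpecUnit.mapDomain_eq_ord_redF hπ hNk hfinD r hr y hy B hB Q)
    hr.1 hFL.deg_eq_one (fun y hy => HasPrincipalDivisors.exists_divisor (K := L) y hy)
    hFL.finite_L ?hlat hFk.finite_L c (genusFF L _) (fun B hB => (hc B hB).2)
    c' (genusFF k _) (fun B hB => (hc' B hB).2)
    (by exact_mod_cast hgg) hrk hnontriv ⟨P0, P1, hQ⟩
  case hscale =>
    intro y hy
    obtain ⟨a, ha, hmem, hne⟩ := exists_scaling_Ow hπ hNk y hy
    refine ⟨a, ha, ?_⟩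
    have hu : IsUnit (⟨_, hmem⟩ : Ow A π N hNk) := by
      by_contra hnu
      exact hne ((redF_eq_zero_iff hπ hNk _).mpr hnu)
    exact (ValuationSubring.valuation_eq_one_iff _ ⟨_, hmem⟩).mp hu
  case hker =>
    intro y
    rw [redF_eq_zero_iff hπ hNk, ← ValuationSubring.valuation_lt_one_iff (Ow A π N hNk) y,
      IsLocalRing.mem_maximalIdeal, mem_nonunits_iff]
  case hlat =>
    intro V hV
    exact lat_of_goodBasis A (Ow A π N hNk) (transcendental_xL N)
      (fun c hc => (algebraMap_mem_Ow_iff hπ hNk c).mpr hc) (xL_mem_Ow hNk)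
      (fun p hp => (aeval_mem_Ow_iff hπ hNk p).mp hp)
      (inv_aeval_mem_Ow_of_coeff hπ hNk)
      (fun i => ((G.b i : Ow A π N hNk) : ↥(laurentBaseChange L (modularFunctionFieldFull N))))
      (fun i => (G.b i).2) G.span
      (fun cf h i => G.compat.coeff_mem G.b G.ind cf h i) V hV

/-- **RED-KUMMER for the modular function fields**: for a place reduction `r`, a prime `p`
invertible in `k` and a divisor `D` of degree zero, if `p • D` and `r_* D` are principal then so
is `D` — under the only geometric hypothesis that the genus does not drop. -/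
theorem principal_of_prime_torsion_Ow (hπ : ∀ a : A, ¬ IsUnit a → π a = 0)
    (hsurj : Function.Surjective π) (hNk : (N : k) ≠ 0)
    (r : Place L ↥(laurentBaseChange L (modularFunctionFieldFull N)) →
      Place k ↥(modularFunctionFieldFullC k N))
    (hr : IsPlaceReductionAlong A π N r)
    (hrk : ∀ c a : L, c ∈ A → a ∈ A → a ≠ 0 → c⁻¹ ∉ A → ∃ n : ℕ, c ^ n * a⁻¹ ∈ A)
    (hnontriv : ∃ c : L, c ∈ A ∧ c ≠ 0 ∧ c⁻¹ ∉ A)
    (hgg : genusFF L ↥(laurentBaseChange L (modularFunctionFieldFull N)) ≤
      genusFF k ↥(modularFunctionFieldFullC k N))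
    {p : ℕ} (hp : p.Prime) (hpk : (p : k) ≠ 0)
    (D : Divisor L ↥(laurentBaseChange L (modularFunctionFieldFull N)))
    (hD0 : Divisor.degree D = 0) (hpD : Divisor.IsPrincipal (p • D))
    (hrD : Divisor.IsPrincipal (Finsupp.mapDomain r D)) : Divisor.IsPrincipal D := by
  have hFk := InstGenus.isFF1_xk (A := A) (π := π) hπ hsurj hNk
  refine (redSetting_Ow hπ hsurj hNk r hr hrk hnontriv hgg).kummer_red_injective hp ?_ ?_ D hD0
    hpD hrD
  · intro h
    apply hpk
    have h1 : algebraMap k ↥(modularFunctionFieldFullC k N) (p : k) = 0 := by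
      rw [map_natCast]
      exact h
    exact (map_eq_zero _).mp h1
  · intro h hh hord
    obtain ⟨c, rfl⟩ := hFk.const_of_ord_nonneg h (fun Q => (hord Q).ge)
    obtain ⟨z, hz⟩ := IsAlgClosed.exists_pow_nat_eq c hp.pos
    refine ⟨algebraMap k _ z, ?_, by rw [← map_pow, hz]⟩
    intro h0
    apply hh
    rw [← hz, map_pow, h0, zero_pow hp.ne_zero]

end Inst

end Fermat.Agent.Lib.Red.Kummer
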