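import Mathlib
import Fermat.Agent.ESJ.Interfaces
import Fermat.Agent.ESJ.HeckeInputs
import Fermat.Agent.Lib.FF.CharP.ModLInst

/-!
# RED: descent of R1 (`RedTorsionInjective`) from level `N * q` to level `N`

For `ℓ ∈ {2, 3}` the reduction layer works at the auxiliary level `M = N * q`
(`q = 2` for `ℓ = 3`, `q = 3` for `ℓ = 2`).  This file descends the statement R1
("reduction of divisor classes is injective on the prime-to-`ℓ` torsion, for EVERY place
reduction `r`") from level `N * q` to level `N`, when the degree `[F_{Nq} : F_N]` is prime to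
every `m` with `ℓ ∤ m` (e.g. the degree `q + 1` is a power of `ℓ`).

* `pushforward_pullback` : `π_* π^* D = [F' : F] • D` (from `SumRamificationInertia`);
* `mapDomain_pullback_eq_of_torsion` : two place maps `r`, `r'` at the two levels which are
  compatible with pull-back on a generating set of the principal divisors are compatible with
  pull-back on every divisor with a principal multiple;
* `principal_of_torsion_of_pullback` : the abstract descent;
* `redTorsionInjective_of_mul` : the modular statement.
-/

set_option autoImplicit false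
set_option linter.style.haveILetI false

noncomputable section

namespace Fermat.Agent.Lib.Red.LevelDescent

open AlgebraicCurve ModularCurve

section Abstract

variable {L : Type*} [Field L]
variable {F F' : Type*} [Field F] [Field F'] [Algebra L F] [Algebra L F'] [Algebra F F']
  [IsScalarTower L F F'] [Algebra.IsIntegral F F'] [HasPrincipalDivisors L F']

theorem pushforward_pullback_single [SumRamificationInertia L F F'] (v : Place L F) (n : ℤ) :
    Divisor.pushforward F (Divisor.pullback F' (Finsupp.single v n)) =
      Module.finrank F F' • Finsupp.single v n := by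
  classical
  rw [Divisor.pullback_single, map_sum]
  have h1 : ∀ w ∈ v.fiber F',
      Divisor.pushforward F (Finsupp.single w (n * (w.ramificationIndex F : ℤ)))
        = Finsupp.single v (n * ((w.ramificationIndex F : ℤ) * (w.inertiaDeg F : ℤ))) := by
    intro w hw
    rw [Divisor.pushforward_single, Place.mem_fiber.mp hw, mul_assoc]
  rw [Finset.sum_congr rfl h1, ← Finsupp.single_finsetSum, ← Finset.mul_sum,
    SumRamificationInertia.sum_ramificationIndex_mul_inertiaDeg (K := L) (F := F) (F' := F') v,
    Finsupp.smul_single, nsmul_eq_mul, mul_comm]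

/-- `π_* π^* D = [F' : F] • D`. -/
theorem pushforward_pullback [SumRamificationInertia L F F'] (D : Divisor L F) :
    Divisor.pushforward F (Divisor.pullback F' D) = Module.finrank F F' • D := by
  induction D using Finsupp.induction with
  | zero => simp
  | single_add v n D _ _ ih =>
    rw [map_add, map_add, ih, smul_add, pushforward_pullback_single]

variable {k : Type*} [Field k]
variable {G G' : Type*} [Field G] [Field G'] [Algebra k G] [Algebra k G'] [Algebra G G']
  [IsScalarTower k G G'] [Algebra.IsIntegral G G'] [HasPrincipalDivisors k G']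

/-- Two place maps `r` (lower level) and `r'` (upper level) that are compatible with pull-back on
a set `S` of divisors generating the principal divisors are compatible with pull-back on every
divisor `D` having a nonzero principal multiple. -/
theorem mapDomain_pullback_eq_of_torsion
    (r : Place L F → Place k G) (r' : Place L F' → Place k G')
    (S : Set (Divisor L F))
    (hgen : Divisor.principal (K := L) (F := F) ≤ AddSubgroup.closure S)
    (hS : ∀ D ∈ S, Finsupp.mapDomain r' (Divisor.pullback F' D) =
      Divisor.pullback G' (Finsupp.mapDomain r D))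
    {m : ℕ} (hm : m ≠ 0) {D : Divisor L F}
    (hD : m • D ∈ Divisor.principal (K := L) (F := F)) :
    Finsupp.mapDomain r' (Divisor.pullback F' D) =
      Divisor.pullback G' (Finsupp.mapDomain r D) := by
  classical
  let δ : Divisor L F →+ Divisor k G' :=
    (Finsupp.mapDomain.addMonoidHom r').comp (Divisor.pullback F') -
      (Divisor.pullback G').comp (Finsupp.mapDomain.addMonoidHom r)
  have hδapp : ∀ E, δ E = Finsupp.mapDomain r' (Divisor.pullback F' E) -
      Divisor.pullback G' (Finsupp.mapDomain r E) := fun E => rfl
  have hδprin : ∀ E ∈ Divisor.principal (K := L) (F := F), δ E = 0 := by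
    intro E hE
    have hE' := hgen hE
    clear hE
    induction hE' using AddSubgroup.closure_induction with
    | mem E hE => rw [hδapp, hS E hE, sub_self]
    | zero => exact map_zero δ
    | add E E' _ _ hE hE' => rw [map_add, hE, hE', add_zero]
    | neg E _ hE => rw [map_neg, hE, neg_zero]
  have h0 := hδprin _ hD
  rw [map_nsmul] at h0
  have h1 : δ D = 0 := by
    ext Q
    have h2 := congrArg (fun E : Divisor k G' => E Q) h0
    simp only [Finsupp.smul_apply, Finsupp.zero_apply, nsmul_eq_mul] at h2
    rcases mul_eq_zero.mp h2 with h | h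
    · exact absurd (by exact_mod_cast h) hm
    · simpa using h
  rw [hδapp, sub_eq_zero] at h1
  exact h1

/-- **Abstract descent.**  If `m • D` and the reduction `r_* D` are principal, `[F' : F]` is
prime to `m`, and the upper level satisfies "R1 for `π^* D`", then `D` is principal. -/
theorem principal_of_torsion_of_pullback [SumRamificationInertia L F F'] [Module.Finite F F']
    (Hnorm : Divisor.PushforwardNormFormula L F F')
    (r : Place L F → Place k G) (r' : Place L F' → Place k G')
    (S : Set (Divisor L F))
    (hgen : Divisor.principal (K := L) (F := F) ≤ AddSubgroup.closure S)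
    (hS : ∀ D ∈ S, Finsupp.mapDomain r' (Divisor.pullback F' D) =
      Divisor.pullback G' (Finsupp.mapDomain r D))
    {m : ℕ} (hm : m ≠ 0) (hcop : Nat.Coprime (Module.finrank F F') m)
    (D : Divisor L F) (hmD : m • D ∈ Divisor.principal (K := L) (F := F))
    (hrD : Finsupp.mapDomain r D ∈ Divisor.principal (K := k) (F := G))
    (hR1 : m • Divisor.pullback F' D ∈ Divisor.principal (K := L) (F := F') →
      Finsupp.mapDomain r' (Divisor.pullback F' D) ∈ Divisor.principal (K := k) (F := G') →
      Divisor.pullback F' D ∈ Divisor.principal (K := L) (F := F')) :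
    D ∈ Divisor.principal (K := L) (F := F) := by
  have h1 : m • Divisor.pullback F' D ∈ Divisor.principal (K := L) (F := F') := by
    rw [← map_nsmul]
    exact Divisor.pullback_mem_principal hmD
  have h2 : Finsupp.mapDomain r' (Divisor.pullback F' D) ∈
      Divisor.principal (K := k) (F := G') := by
    rw [mapDomain_pullback_eq_of_torsion r r' S hgen hS hm hmD]
    exact Divisor.pullback_mem_principal hrD
  have h3 := hR1 h1 h2
  have h4 : Module.finrank F F' • D ∈ Divisor.principal (K := L) (F := F) := by
    rw [← pushforward_pullback]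
    exact Divisor.isPrincipal_pushforward_of_normFormula Hnorm h3
  have h5 : ((Nat.gcd (Module.finrank F F') m : ℕ) : ℤ) • D ∈
      Divisor.principal (K := L) (F := F) := by
    rw [Nat.gcd_eq_gcd_ab, add_zsmul, mul_comm, mul_zsmul, mul_comm, mul_zsmul, natCast_zsmul,
      natCast_zsmul]
    exact AddSubgroup.add_mem _ (AddSubgroup.zsmul_mem _ h4 _) (AddSubgroup.zsmul_mem _ hmD _)
  rw [hcop] at h5
  simpa using h5

end Abstract

section Along

variable {L : Type*} [Field L]
variable {F F' : Type*} [Field F] [Field F'] [Algebra L F] [Algebra L F']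
  [HasPrincipalDivisors L F']
variable {k : Type*} [Field k]
variable {G G' : Type*} [Field G] [Field G'] [Algebra k G] [Algebra k G']
  [HasPrincipalDivisors k G']

/-- `SumRamificationInertia` along an embedding. -/
def SumRamificationInertiaAlong (φ : F →ₐ[L] F') (hφ : φ.toRingHom.IsIntegral) : Prop :=
  letI := algebraAlong φ
  haveI := isScalarTower_along φ
  haveI := isIntegral_along φ hφ
  SumRamificationInertia L F F'

/-- The abstract descent in the `Along` vocabulary of the Prelude. -/
theorem principal_of_torsion_of_pullbackAlong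
    (φ : F →ₐ[L] F') (hφ : φ.toRingHom.IsIntegral) (hfin : FiniteAlong L φ)
    (hSRI : SumRamificationInertiaAlong φ hφ) (Hnorm : NormFormulaAlong L φ hfin)
    (ψ : G →ₐ[k] G') (hψ : ψ.toRingHom.IsIntegral)
    (r : Place L F → Place k G) (r' : Place L F' → Place k G')
    (S : Set (Divisor L F))
    (hgen : Divisor.principal (K := L) (F := F) ≤ AddSubgroup.closure S)
    (hS : ∀ D ∈ S, Finsupp.mapDomain r' (Divisor.pullbackAlong φ hφ D) =
      Divisor.pullbackAlong ψ hψ (Finsupp.mapDomain r D))
    {m : ℕ} (hm : m ≠ 0) (hcop : Nat.Coprime (finrankAlong L φ) m)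
    (D : Divisor L F) (hmD : m • D ∈ Divisor.principal (K := L) (F := F))
    (hrD : Finsupp.mapDomain r D ∈ Divisor.principal (K := k) (F := G))
    (hR1 : m • Divisor.pullbackAlong φ hφ D ∈ Divisor.principal (K := L) (F := F') →
      Finsupp.mapDomain r' (Divisor.pullbackAlong φ hφ D) ∈
        Divisor.principal (K := k) (F := G') →
      Divisor.pullbackAlong φ hφ D ∈ Divisor.principal (K := L) (F := F')) :
    D ∈ Divisor.principal (K := L) (F := F) := by
  letI := algebraAlong φ
  haveI := isScalarTower_along φ
  haveI := isIntegral_along φ hφ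
  haveI : Module.Finite F F' := hfin
  haveI : SumRamificationInertia L F F' := hSRI
  letI := algebraAlong ψ
  haveI := isScalarTower_along ψ
  haveI := isIntegral_along ψ hψ
  exact principal_of_torsion_of_pullback Hnorm r r' S hgen hS hm hcop D hmD hrD hR1

/-- Pull-back along `φ` of the divisor of `f` is the divisor of `φ f`. -/
theorem pullbackAlong_apply_eq_ord (φ : F →ₐ[L] F') (hφ : φ.toRingHom.IsIntegral) {f : F}
    {D : Divisor L F} (hD : ∀ v : Place L F, D v = v.ord f) (w : Place L F') :
    Divisor.pullbackAlong φ hφ D w = w.ord (φ f) := by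
  letI := algebraAlong φ
  haveI := isScalarTower_along φ
  haveI := isIntegral_along φ hφ
  exact Divisor.pullback_apply_eq_ord hD w

end Along

section Modular

open Fermat.Agent.ESJ.HeckeInputs Fermat.Agent.S24

theorem pic0_mk_eq_zero_iff {K F : Type*} [Field K] [Field F] [Algebra K F]
    (D : Divisor.degZero (K := K) (F := F)) :
    Pic0.mk D = 0 ↔ (D : Divisor K F) ∈ Divisor.principal (K := K) (F := F) := by
  rw [Pic0.mk, QuotientAddGroup.eq_zero_iff, AddSubgroup.mem_addSubgroupOf]

variable (N q : ℕ) [NeZero N] [NeZero q]

/-- The inclusion `k(X₀(N)) ⊆ k(X₀(N q))` over an arbitrary field `k`. -/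
def inclC (k : Type*) [Field k] :
    modularFunctionFieldFullC k N →ₐ[k] modularFunctionFieldFullC k (N * q) :=
  IntermediateField.inclusion (full_degeneracyC_le k (Dvd.intro q rfl))

theorem coe_inclC (k : Type*) [Field k] (x : modularFunctionFieldFullC k N) :
    ((inclC N q k x : modularFunctionFieldFullC k (N * q)) : LaurentSeries k) = x :=
  IntermediateField.coe_inclusion (full_degeneracyC_le k (Dvd.intro q rfl)) x

theorem finiteDimensional_JbarC (k : Type*) [Field k] :
    FiniteDimensional (IntermediateField.adjoin k {Fermat.Agent.Lib.FF.ModL.Jbar k (N * q)})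
      (modularFunctionFieldFullC k (N * q)) :=
  Fermat.Agent.Lib.FF.ModL.finiteDimensional_Jbar k (N * q)

theorem finiteAlong_inclC (k : Type*) [Field k] : FiniteAlong k (inclC N q k) :=
  haveI := finiteDimensional_JbarC N q k
  finiteAlong (inclC N q k) (Fermat.Agent.Lib.FF.ModL.transcendental_Jbar k N)
    (Fermat.Agent.Lib.FF.ModL.Jbar k (N * q))

theorem isIntegral_inclC (k : Type*) [Field k] : (inclC N q k).toRingHom.IsIntegral :=
  isIntegral_of_finiteAlong _ (finiteAlong_inclC N q k)

section General

variable {L : Type*} [Field L] [Algebra ℚ L] (A : ValuationSubring L)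
variable {k : Type*} [Field k] (π : A →+* k)
variable [HasPrincipalDivisors L (laurentBaseChange L (modularFunctionFieldFull (N * q)))]
variable [HasPrincipalDivisors k (modularFunctionFieldFullC k (N * q))]

/-- The place reductions at the two levels are compatible with pull-back on the integral
principal divisors (the Prelude specification at both levels, for the same series `y`). -/
theorem mapDomain_pullbackAlong_of_mem_integral
    (hα : (heckeAlphaBar L N q).toRingHom.IsIntegral)
    (hαt : (inclC N q k).toRingHom.IsIntegral)
    (r : Place L (laurentBaseChange L (modularFunctionFieldFull N)) →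
      Place k (modularFunctionFieldFullC k N))
    (hr : IsPlaceReductionAlong A π N r)
    (r' : Place L (laurentBaseChange L (modularFunctionFieldFull (N * q))) →
      Place k (modularFunctionFieldFullC k (N * q)))
    (hr' : IsPlaceReductionAlong A π (N * q) r')
    (E : Divisor L (laurentBaseChange L (modularFunctionFieldFull N)))
    (hE : E ∈ integralPrincipalDivisors A π N) :
    Finsupp.mapDomain r' (Divisor.pullbackAlong (heckeAlphaBar L N q) hα E) =
      Divisor.pullbackAlong (inclC N q k) hαt (Finsupp.mapDomain r E) := by
  obtain ⟨y, hy, hyk, hne, hE⟩ := hE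
  have hy' : coeffMap A.subtype y ∈ laurentBaseChange L (modularFunctionFieldFull (N * q)) := by
    have h := (heckeAlphaBar L N q ⟨coeffMap A.subtype y, hy⟩).2
    rwa [coe_heckeAlphaBar N q ⟨coeffMap A.subtype y, hy⟩] at h
  have hyk' : coeffMap π y ∈ modularFunctionFieldFullC k (N * q) :=
    full_degeneracyC_le k (Dvd.intro q rfl) hyk
  have e1 : heckeAlphaBar L N q ⟨coeffMap A.subtype y, hy⟩ = ⟨coeffMap A.subtype y, hy'⟩ :=
    Subtype.ext (coe_heckeAlphaBar N q ⟨coeffMap A.subtype y, hy⟩)
  have e2 : inclC N q k ⟨coeffMap π y, hyk⟩ = ⟨coeffMap π y, hyk'⟩ :=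
    Subtype.ext (coe_inclC N q k ⟨coeffMap π y, hyk⟩)
  ext Q
  rw [hr'.2 y hy' hyk' hne (Divisor.pullbackAlong (heckeAlphaBar L N q) hα E) (fun P => ?_) Q]
  · rw [pullbackAlong_apply_eq_ord (inclC N q k) hαt
      (f := (⟨coeffMap π y, hyk⟩ : modularFunctionFieldFullC k N))
      (fun Q0 => hr.2 y hy hyk hne E hE Q0) Q, e2]
  · rw [pullbackAlong_apply_eq_ord (heckeAlphaBar L N q) hα hE P, e1]

/-- **Descent of R1 from level `N * q` to level `N`** (general coefficients). -/
theorem eq_zero_of_reduction_eq_zero
    (hα : (heckeAlphaBar L N q).toRingHom.IsIntegral)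
    (hfin : FiniteAlong L (heckeAlphaBar L N q))
    (hSRI : SumRamificationInertiaAlong (heckeAlphaBar L N q) hα)
    (Hnorm : NormFormulaAlong L (heckeAlphaBar L N q) hfin)
    (r : Place L (laurentBaseChange L (modularFunctionFieldFull N)) →
      Place k (modularFunctionFieldFullC k N))
    (hr : IsPlaceReductionAlong A π N r) (hgen : PrincipalGeneratedByIntegral A π N)
    (r' : Place L (laurentBaseChange L (modularFunctionFieldFull (N * q))) →
      Place k (modularFunctionFieldFullC k (N * q)))
    (hr' : IsPlaceReductionAlong A π (N * q) r')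
    (hgen' : PrincipalGeneratedByIntegral A π (N * q))
    {m : ℕ} (hm : m ≠ 0) (hcop : Nat.Coprime (finrankAlong L (heckeAlphaBar L N q)) m)
    (hR1 : ∀ z' : Pic0 L (laurentBaseChange L (modularFunctionFieldFull (N * q))),
      m • z' = 0 → reductionPic0Along r' hr' hgen' z' = 0 → z' = 0)
    (z : Pic0 L (laurentBaseChange L (modularFunctionFieldFull N))) (hmz : m • z = 0)
    (hred : reductionPic0Along r hr hgen z = 0) : z = 0 := by
  obtain ⟨D, rfl⟩ := Pic0.mk_surjective z
  rw [pic0_mk_eq_zero_iff]
  have hmD : m • (D : Divisor L (laurentBaseChange L (modularFunctionFieldFull N))) ∈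
      Divisor.principal (K := L) (F := laurentBaseChange L (modularFunctionFieldFull N)) := by
    have h : Pic0.mk (m • D) = 0 := hmz
    rw [pic0_mk_eq_zero_iff] at h
    exact h
  have hrD : Finsupp.mapDomain r
      (D : Divisor L (laurentBaseChange L (modularFunctionFieldFull N))) ∈
      Divisor.principal (K := k) (F := modularFunctionFieldFullC k N) := by
    have h := hred
    rw [reductionPic0Along_mk, pic0_mk_eq_zero_iff] at h
    exact h
  have hFI : FundamentalIdentityAlong L (heckeAlphaBar L N q) hα := by
    letI := algebraAlong (heckeAlphaBar L N q)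
    haveI := isScalarTower_along (heckeAlphaBar L N q)
    haveI := isIntegral_along (heckeAlphaBar L N q) hα
    haveI : SumRamificationInertia L (laurentBaseChange L (modularFunctionFieldFull N))
      (laurentBaseChange L (modularFunctionFieldFull (N * q))) := hSRI
    exact (inferInstance : FundamentalIdentity L (laurentBaseChange L (modularFunctionFieldFull N))
      (laurentBaseChange L (modularFunctionFieldFull (N * q))))
  refine principal_of_torsion_of_pullbackAlong (heckeAlphaBar L N q) hα hfin hSRI Hnorm
    (inclC N q k) (isIntegral_inclC N q k) r r' (integralPrincipalDivisors A π N) hgen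
    (fun E hE => mapDomain_pullbackAlong_of_mem_integral N q A π hα (isIntegral_inclC N q k)
      r hr r' hr' E hE) hm hcop
    (D : Divisor L (laurentBaseChange L (modularFunctionFieldFull N))) hmD hrD ?_
  intro h1 h2
  have hD'0 : Divisor.pullbackAlong (heckeAlphaBar L N q) hα
      (D : Divisor L (laurentBaseChange L (modularFunctionFieldFull N))) ∈
      Divisor.degZero (K := L) (F := laurentBaseChange L (modularFunctionFieldFull (N * q))) :=
    Divisor.pullbackAlong_mem_degZero _ hα hFI D.2
  have h3 := hR1 (Pic0.mk ⟨_, hD'0⟩) ?_ ?_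
  · rwa [pic0_mk_eq_zero_iff] at h3
  · show Pic0.mk (m • ⟨_, hD'0⟩) = 0
    rw [pic0_mk_eq_zero_iff]
    exact h1
  · rw [reductionPic0Along_mk, pic0_mk_eq_zero_iff]
    exact h2

end General

theorem sumRamificationInertiaAlong_heckeAlphaBar :
    haveI := hasPrincipalDivisors_bar (N * q)
    SumRamificationInertiaAlong (heckeAlphaBar (AlgebraicClosure ℚ) N q)
      (heckeAlphaBarIntegral N q) := by
  haveI := isAlgebraic_bar N
  haveI := isAlgebraic_bar (N * q)
  haveI := hasPrincipalDivisors_bar (N * q)
  letI := algebraAlong (heckeAlphaBar (AlgebraicClosure ℚ) N q)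
  haveI := isScalarTower_along (heckeAlphaBar (AlgebraicClosure ℚ) N q)
  haveI := isIntegral_along (heckeAlphaBar (AlgebraicClosure ℚ) N q) (heckeAlphaBarIntegral N q)
  haveI : FiniteDimensional (FN N) (FN (N * q)) := finiteAlong_heckeAlphaBar N q
  exact Fermat.Agent.Lib.FF.ExtNorm.sumRamificationInertia (jBar N) (jBar (N * q))

theorem normFormulaAlong_heckeAlphaBar :
    NormFormulaAlong (AlgebraicClosure ℚ) (heckeAlphaBar (AlgebraicClosure ℚ) N q)
      (finiteAlong_heckeAlphaBar N q) := by
  haveI := isAlgebraic_bar N
  haveI := isAlgebraic_bar (N * q)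
  haveI := hasPrincipalDivisors_bar (N * q)
  exact normFormulaAlong _ _ (jBar N) (jBar (N * q))

set_option synthInstance.maxHeartbeats 400000 in
/-- **Descent of R1 from level `N * q` to level `N`.** -/
theorem redTorsionInjective_of_mul (ℓ : ℕ) (A : ValuationSubring (AlgebraicClosure ℚ))
    (hcop : ∀ m : ℕ, ¬ ℓ ∣ m → Nat.Coprime
      (finrankAlong (AlgebraicClosure ℚ) (heckeAlphaBar (AlgebraicClosure ℚ) N q)) m)
    (hR2 : ReductionInputsModL A (N * q))
    (hR1 : Fermat.Agent.ESJ.RedTorsionInjective (N * q) ℓ A) :
    Fermat.Agent.ESJ.RedTorsionInjective N ℓ A := by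
  intro r hr hgen m hm z hmz hred
  obtain ⟨r', hr', hgen'⟩ := hR2
  have hm0 : m ≠ 0 := by
    rintro rfl
    exact hm (dvd_zero ℓ)
  haveI := hasPrincipalDivisors_bar (N * q)
  haveI : IsAlgClosed (IsLocalRing.ResidueField A) :=
    Fermat.Agent.Lib.FF.CharP.isAlgClosed_residueField A
  haveI := Fermat.Agent.Lib.FF.CharP.hasPrincipalDivisors_fullC (IsLocalRing.ResidueField A) (N * q)
  exact eq_zero_of_reduction_eq_zero N q A (IsLocalRing.residue A) (heckeAlphaBarIntegral N q)
    (finiteAlong_heckeAlphaBar N q) (sumRamificationInertiaAlong_heckeAlphaBar N q)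
    (normFormulaAlong_heckeAlphaBar N q) r hr hgen r' hr' hgen' hm0 (hcop m hm)
    (fun z' h1 h2 => hR1 r' hr' hgen' m hm z' h1 h2) z hmz hred

end Modular

end Fermat.Agent.Lib.Red.LevelDescent
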