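import Mathlib
import Fermat.Agent.Lib.Red.LevelDescent
import Fermat.Agent.ESJ.Cong.ConjNormAnalytic

/-!
# RED: descent of R1 from level `N * q` to level `N` — the degree `q + 1`

`[F_{Nq} : F_N] = q + 1` for a prime `q ∤ N` (`ConjAnalytic.finrank_alpha`), so R1 descends from
level `N * q` to level `N` whenever `q + 1` is a power of `ℓ`:

* `redTorsionInjective_of_mul_prime` : the general statement;
* `redTorsionInjective_three` : `ℓ = 3`, `q = 2` (degree `3`);
* `redTorsionInjective_two`   : `ℓ = 2`, `q = 3` (degree `4`).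
-/

set_option autoImplicit false

namespace Fermat.Agent.Lib.Red.LevelDescent

open AlgebraicCurve ModularCurve

theorem finrankAlong_heckeAlphaBar (N q : ℕ) [NeZero N] [NeZero q] (hq : q.Prime)
    (hqN : ¬ q ∣ N) :
    finrankAlong (AlgebraicClosure ℚ) (heckeAlphaBar (AlgebraicClosure ℚ) N q) = q + 1 :=
  Fermat.Agent.ESJ.Cong.ConjAnalytic.finrank_alpha N q hq hqN

/-- R1 descends from level `N * q` to level `N` when `q ∤ N` is a prime with `q + 1` a power
of the prime `ℓ`. -/
theorem redTorsionInjective_of_mul_prime (N q ℓ : ℕ) [NeZero N] [NeZero q] (hq : q.Prime)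
    (hqN : ¬ q ∣ N) (hℓ : ℓ.Prime) (a : ℕ) (ha : q + 1 = ℓ ^ a)
    (A : ValuationSubring (AlgebraicClosure ℚ))
    (hR2 : ReductionInputsModL A (N * q))
    (hR1 : Fermat.Agent.ESJ.RedTorsionInjective (N * q) ℓ A) :
    Fermat.Agent.ESJ.RedTorsionInjective N ℓ A := by
  refine redTorsionInjective_of_mul N q ℓ A (fun m hm => ?_) hR2 hR1
  rw [finrankAlong_heckeAlphaBar N q hq hqN, ha]
  exact Nat.Coprime.pow_left a ((Nat.Prime.coprime_iff_not_dvd hℓ).mpr hm)

/-- `ℓ = 3`: R1 at level `N` from R1 + R2 at level `2N` (`2 ∤ N`). -/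
theorem redTorsionInjective_three (N : ℕ) [NeZero N] (hN : ¬ 2 ∣ N)
    (A : ValuationSubring (AlgebraicClosure ℚ))
    (hR2 : ReductionInputsModL A (N * 2))
    (hR1 : Fermat.Agent.ESJ.RedTorsionInjective (N * 2) 3 A) :
    Fermat.Agent.ESJ.RedTorsionInjective N 3 A :=
  redTorsionInjective_of_mul_prime N 2 3 Nat.prime_two hN Nat.prime_three 1 (by norm_num) A hR2 hR1

/-- `ℓ = 2`: R1 at level `N` from R1 + R2 at level `3N` (`3 ∤ N`). -/
theorem redTorsionInjective_two (N : ℕ) [NeZero N] (hN : ¬ 3 ∣ N)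
    (A : ValuationSubring (AlgebraicClosure ℚ))
    (hR2 : ReductionInputsModL A (N * 3))
    (hR1 : Fermat.Agent.ESJ.RedTorsionInjective (N * 3) 2 A) :
    Fermat.Agent.ESJ.RedTorsionInjective N 2 A :=
  redTorsionInjective_of_mul_prime N 3 2 Nat.prime_three hN Nat.prime_two 2 (by norm_num) A hR2 hR1

end Fermat.Agent.Lib.Red.LevelDescent
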