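/-
ESJ / RED-23 (helper41): char-0 branch data of the Hauptmodul base functions, in the vocabulary
of the RED layer (`BaseFn.Data`).

For `L = ℚ̄`, `M = m * 2`, `x = (ofHaupt2 A π M m hM h2).x = y₂(q^m)`: the extension
`ℚ̄·F_M / ℚ̄(x)` is unramified over every `c ∉ {0, -64}`; for `M = m * 3`,
`x = (ofHaupt3 A π M m hM h3).x = t₃(q^m)`: unramified over every `c ∉ {0, -27}`.
(From helper19's `S24/HauptBranch.lean` and the relations `ofHaupt2_rel`, `ofHaupt3_rel`.)
-/
import Mathlib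
import Fermat.Agent.Lib.Red.HauptData
import Fermat.Agent.Lib.Red.BranchInst
import Fermat.Agent.S24.HauptBranch

set_option autoImplicit false
set_option linter.unusedSectionVars false

namespace Fermat.Agent.Lib.Red.BaseFn

open ModularCurve AlgebraicCurve Fermat.Agent.S28 Fermat.Agent.S24 Fermat.Agent.Lib.Red

noncomputable section

variable (A : ValuationSubring KQ) {k : Type} [Field k] (π : A →+* k)

/-- **Branch data, level 2**: `ℚ̄·F_M / ℚ̄(x)`, `x = y₂(q^m)`, is unramified over every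
`c ∉ {0, -64}`. -/
theorem ord_ofHaupt2_sub_eq_one (M m : ℕ) [NeZero M] [NeZero m] (hM : M = m * 2)
    (h2 : (2 : k) ≠ 0) (c : KQ) (hc0 : c ≠ 0) (hc1 : c ≠ -64)
    (v : Place KQ ↥(laurentBaseChange KQ (modularFunctionFieldFull M)))
    (hv : 0 < v.ord ((ofHaupt2 A π M m hM h2).x - algebraMap KQ _ c)) :
    v.ord ((ofHaupt2 A π M m hM h2).x - algebraMap KQ _ c) = 1 := by
  have hrel := ofHaupt2_rel (A := A) (π := π) M m hM h2
  rw [BranchInst.xL_eq_jFormal] at hrel
  exact HauptBranch.ord_sub_eq_one_two M hrel c hc0 hc1 v hv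

/-- **Branch data, level 3**: `ℚ̄·F_M / ℚ̄(x)`, `x = t₃(q^m)`, is unramified over every
`c ∉ {0, -27}`. -/
theorem ord_ofHaupt3_sub_eq_one (M m : ℕ) [NeZero M] [NeZero m] (hM : M = m * 3)
    (h3 : (3 : k) ≠ 0) (c : KQ) (hc0 : c ≠ 0) (hc1 : c ≠ -27)
    (v : Place KQ ↥(laurentBaseChange KQ (modularFunctionFieldFull M)))
    (hv : 0 < v.ord ((ofHaupt3 A π M m hM h3).x - algebraMap KQ _ c)) :
    v.ord ((ofHaupt3 A π M m hM h3).x - algebraMap KQ _ c) = 1 := by
  have hrel := ofHaupt3_rel (A := A) (π := π) M m hM h3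
  rw [BranchInst.xL_eq_jFormal] at hrel
  exact HauptBranch.ord_sub_eq_one_three M hrel c hc0 hc1 v hv

end

end Fermat.Agent.Lib.Red.BaseFn
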