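import Mathlib
import Fermat.Agent.Lib.FF.ExtNorm

/-!
# The norm formula at a place, characteristic-free

`K` algebraically closed (any characteristic), `F'/F` a finite extension of function fields of
one variable over `K` all of whose places have degree one.  For a place `v` of `F` such that the
integral closure of its valuation ring in `F'` is a finite module (e.g. `F'/F` separable):
`ord_v (N_{F'/F} f) = ∑_{w | v} ord_w f`.

This is the analogue of `Fermat.Agent.Lib.FF.ExtNorm.ord_norm_of_dedekind` without the
perfectness assumption on `F`: the norm of a prime element is computed from the fundamental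
identity `∑ e(w | v) = [F' : F]` instead of the ideal norm.
-/

set_option autoImplicit false

noncomputable section

namespace Fermat.Agent.Lib.Red.NormPlace

open AlgebraicCurve WithZero IsDedekindDomain IntermediateField
open Fermat.Agent.S24 Fermat.Agent.Lib.FF.ExtNorm

variable {K F F' : Type*} [Field K] [Field F] [Field F']
  [Algebra K F] [Algebra K F'] [Algebra F F'] [IsScalarTower K F F']
  [Algebra.IsIntegral F F'] [HasPrincipalDivisors K F'] [IsAlgClosed K]

/-- **Norm formula at a place `v`**, characteristic-free, from a Dedekind domain `C` which is the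
integral closure in `F'` of the valuation ring of `v` and is finite over it. -/
theorem ord_norm_of_dedekind' [FiniteDimensional F F'] (v : Place K F)
    (hres : ∀ a : v.toValuationSubring, ∃ c : K, a - algebraMap K v.toValuationSubring c ∈
      IsLocalRing.maximalIdeal v.toValuationSubring)
    (hdeg' : ∀ w : Place K F', w.deg = 1)
    (C : Type*) [CommRing C] [IsDedekindDomain C] [Algebra v.toValuationSubring C]
    [Module.Finite v.toValuationSubring C] [Module.IsTorsionFree v.toValuationSubring C]
    [Algebra C F'] [IsFractionRing C F'] [IsScalarTower v.toValuationSubring C F']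
    [IsIntegralClosure C v.toValuationSubring F']
    (f : F') (hf : f ≠ 0) :
    v.ord (Algebra.norm F f) = ∑ w ∈ v.fiber F', w.ord f := by
  classical
  have : Algebra.IsIntegral v.toValuationSubring C := Algebra.IsIntegral.of_finite _ _
  set p : Ideal v.toValuationSubring := IsLocalRing.maximalIdeal v.toValuationSubring with hp
  obtain ⟨π, hπ⟩ := IsDiscreteValuationRing.exists_irreducible v.toValuationSubring
  have hπ1 : v.ord (π : F) = 1 := v.ord_coe_irreducible hπ
  have hπ0 : (π : F) ≠ 0 := by
    intro h; rw [h] at hπ1; simp at hπ1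
  have hK : ∀ a : K, algebraMap K F' a ∈ (algebraMap C F').range := range_of_dedekind v C
  have hinj : Function.Injective (algebraMap C F') := IsFractionRing.injective C F'
  -- the primes of `C` are finite in number and parametrise the fibre
  let Ψ : HeightOneSpectrum C → {w : Place K F' // w ∈ v.fiber F'} := fun Q =>
    ⟨placeOfPrime hK Q, Place.mem_fiber.2 (restrict_placeOfPrime v C hK Q)⟩
  have hΨinj : Function.Injective Ψ := fun Q Q' h =>
    placeOfPrime_injective hK (congrArg Subtype.val h)
  have : Finite (HeightOneSpectrum C) := Finite.of_injective Ψ hΨinj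
  let _ : Fintype (HeightOneSpectrum C) := Fintype.ofFinite _
  have hfib : v.fiber F' = Finset.univ.image (placeOfPrime (K := K) (F := F') (C := C) hK) := by
    ext w
    simp only [Place.mem_fiber, Finset.mem_image, Finset.mem_univ, true_and]
    constructor
    · intro hw
      exact exists_prime_of_restrict_eq v C hK w hw
    · rintro ⟨Q, rfl⟩
      exact restrict_placeOfPrime v C hK Q
  have hsumfib : ∀ g : F', ∑ w ∈ v.fiber F', w.ord g
      = ∑ Q : HeightOneSpectrum C, (placeOfPrime hK Q).ord g := by
    intro g
    rw [hfib, Finset.sum_image (fun x _ y _ h => placeOfPrime_injective hK h)]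
  -- `C` is a principal ideal domain
  have : IsPrincipalIdealRing C := by
    apply IsPrincipalIdealRing.of_finite_primes
    have : {I : Ideal C | I.IsPrime} ⊆
        insert ⊥ (Set.range (HeightOneSpectrum.asIdeal : HeightOneSpectrum C → Ideal C)) := by
      intro I hI
      by_cases hI0 : I = ⊥
      · exact Or.inl hI0
      · exact Or.inr ⟨⟨I, hI, hI0⟩, rfl⟩
    exact ((Set.finite_range _).insert ⊥).subset this
  -- the norm of an element of `C`
  have hnorm : ∀ c : C, Algebra.norm F (algebraMap C F' c)
      = ((Algebra.intNorm v.toValuationSubring C c : v.toValuationSubring) : F) := fun c =>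
    (Algebra.algebraMap_intNorm (A := v.toValuationSubring) (K := F) (L := F') (B := C) c).symm
  have hnorm0 : ∀ c : C, c ≠ 0 → Algebra.norm F (algebraMap C F' c) ≠ 0 := fun c hc =>
    Algebra.norm_ne_zero_iff.2 fun h => hc (hinj (by rw [h, map_zero]))
  -- the two additive functions
  set lhs : C → ℤ := fun c => v.ord (Algebra.norm F (algebraMap C F' c)) with hlhs
  set rhs : C → ℤ := fun c =>
    ∑ Q : HeightOneSpectrum C, (placeOfPrime hK Q).ord (algebraMap C F' c) with hrhs
  have hlhs_mul : ∀ a b : C, a ≠ 0 → b ≠ 0 → lhs (a * b) = lhs a + lhs b := by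
    intro a b ha hb
    simp only [hlhs]
    rw [map_mul, map_mul, v.ord_mul (hnorm0 a ha) (hnorm0 b hb)]
  have hrhs_mul : ∀ a b : C, a ≠ 0 → b ≠ 0 → rhs (a * b) = rhs a + rhs b := by
    intro a b ha hb
    have haF : algebraMap C F' a ≠ 0 := fun h => ha (hinj (by rw [h, map_zero]))
    have hbF : algebraMap C F' b ≠ 0 := fun h => hb (hinj (by rw [h, map_zero]))
    simp only [hrhs]
    rw [← Finset.sum_add_distrib]
    refine Finset.sum_congr rfl fun Q _ => ?_
    rw [map_mul, (placeOfPrime hK Q).ord_mul haF hbF]
  have hlhs_unit : ∀ u : C, IsUnit u → lhs u = 0 := by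
    intro u hu
    have h1 : IsUnit (Algebra.intNorm v.toValuationSubring C u) := hu.map _
    simp only [hlhs]
    rw [hnorm u]
    have := v.ord_coe_unit h1.unit
    rwa [IsUnit.unit_spec] at this
  have hrhs_unit : ∀ u : C, IsUnit u → rhs u = 0 := by
    intro u hu
    simp only [hrhs]
    refine Finset.sum_eq_zero fun Q _ => ?_
    exact ord_placeOfPrime_eq_zero C hK Q
      (fun hmem => Q.isPrime.ne_top (Ideal.eq_top_of_isUnit_mem _ hmem hu))
  -- a prime element has `rhs = 1` and `lhs ≥ 1`
  have hrhs_prime : ∀ ϖ : C, Prime ϖ → rhs ϖ = 1 := by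
    intro ϖ hϖ
    have hϖ0 : ϖ ≠ 0 := hϖ.ne_zero
    have hPprime : (Ideal.span {ϖ} : Ideal C).IsPrime := (Ideal.span_singleton_prime hϖ0).2 hϖ
    have hPne : (Ideal.span {ϖ} : Ideal C) ≠ ⊥ := by
      rw [Ne, Ideal.span_singleton_eq_bot]; exact hϖ0
    let Q₀ : HeightOneSpectrum C := ⟨Ideal.span {ϖ}, hPprime, hPne⟩
    have hPmax : (Ideal.span {ϖ} : Ideal C).IsMaximal := hPprime.isMaximal hPne
    simp only [hrhs]
    rw [Finset.sum_eq_single Q₀]
    · exact ord_placeOfPrime_generator C hK Q₀ hϖ0 rfl
    · intro Q _ hQ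
      refine ord_placeOfPrime_eq_zero C hK Q fun hmem => hQ ?_
      have hle : Q₀.asIdeal ≤ Q.asIdeal := by
        show Ideal.span {ϖ} ≤ Q.asIdeal
        rw [Ideal.span_le, Set.singleton_subset_iff]
        exact hmem
      exact HeightOneSpectrum.ext (hPmax.eq_of_le Q.isPrime.ne_top hle).symm
    · intro h
      exact absurd (Finset.mem_univ _) h
  have hlhs_prime : ∀ ϖ : C, Prime ϖ → 1 ≤ lhs ϖ := by
    intro ϖ hϖ
    have hϖ0 : ϖ ≠ 0 := hϖ.ne_zero
    simp only [hlhs]
    rw [hnorm ϖ]
    have hn0 : ((Algebra.intNorm v.toValuationSubring C ϖ : v.toValuationSubring) : F) ≠ 0 := by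
      rw [← hnorm ϖ]
      exact hnorm0 ϖ hϖ0
    have hnn : 0 ≤ v.ord ((Algebra.intNorm v.toValuationSubring C ϖ : v.toValuationSubring) : F) :=
      ord_nonneg_of_mem v (Algebra.intNorm v.toValuationSubring C ϖ).2
    by_contra hlt
    have h0 : v.ord ((Algebra.intNorm v.toValuationSubring C ϖ : v.toValuationSubring) : F) = 0 := by
      omega
    -- then the norm is a unit of the valuation ring, so `ϖ` is a unit of `C`
    have hunit : IsUnit (Algebra.intNorm v.toValuationSubring C ϖ) := by
      have hinv : ((Algebra.intNorm v.toValuationSubring C ϖ : v.toValuationSubring) : F)⁻¹ ∈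
          v.toValuationSubring := by
        apply mem_of_ord_nonneg
        rw [v.ord_inv, h0, neg_zero]
      refine IsUnit.of_mul_eq_one ⟨_, hinv⟩ ?_
      ext
      simp [hn0]
    have hdvd := Algebra.dvd_algebraMap_intNorm_self (A := v.toValuationSubring) (B := C) ϖ
    exact hϖ.not_isUnit (isUnit_of_dvd_unit hdvd (hunit.map _))
  -- `rhs ≤ lhs`
  have hle : ∀ c : C, c ≠ 0 → rhs c ≤ lhs c := by
    intro c
    induction c using UniqueFactorizationMonoid.induction_on_prime with
    | h₁ => intro h; exact absurd rfl h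
    | h₂ u hu =>
      intro _
      rw [hlhs_unit u hu, hrhs_unit u hu]
    | h₃ a ϖ ha hϖ ih =>
      intro _
      rw [hlhs_mul ϖ a hϖ.ne_zero ha, hrhs_mul ϖ a hϖ.ne_zero ha, hrhs_prime ϖ hϖ]
      have := hlhs_prime ϖ hϖ
      have := ih ha
      omega
  -- equality at the uniformiser of `v`
  set πC : C := algebraMap v.toValuationSubring C π with hπC
  have hπCF : algebraMap C F' πC = algebraMap F F' (π : F) := algebraMap_tower v C π
  have hπC0 : πC ≠ 0 := by
    intro h
    rw [h, map_zero] at hπCF
    exact hπ0 ((algebraMap F F').injective (by rw [← hπCF, map_zero]))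
  have hinert : ∀ w : Place K F', w.inertiaDeg F = 1 := by
    intro w
    have h := w.deg_restrict_mul_inertiaDeg (F := F)
    rw [hdeg' w] at h
    exact Nat.eq_one_of_mul_eq_one_left h
  have hπeq : lhs πC = rhs πC := by
    have h1 : lhs πC = (Module.finrank F F' : ℤ) := by
      simp only [hlhs]
      rw [hπCF, Algebra.norm_algebraMap, ← zpow_natCast, v.ord_zpow, hπ1, mul_one]
    have h2 : rhs πC = (Module.finrank F F' : ℤ) := by
      simp only [hrhs]
      rw [← hsumfib, ← sum_ramificationIndex_of_dedekind v hres hdeg' C]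
      refine Finset.sum_congr rfl fun w hw => ?_
      rw [hπCF, w.ord_restrict (F := F) (π : F), Place.mem_fiber.1 hw, hπ1, hinert w]
      push_cast
      ring
    rw [h1, h2]
  -- every prime divides the uniformiser
  have hdvdπ : ∀ ϖ : C, Prime ϖ → ϖ ∣ πC := by
    intro ϖ hϖ
    have hϖ0 : ϖ ≠ 0 := hϖ.ne_zero
    have hPprime : (Ideal.span {ϖ} : Ideal C).IsPrime := (Ideal.span_singleton_prime hϖ0).2 hϖ
    have hPne : (Ideal.span {ϖ} : Ideal C) ≠ ⊥ := by
      rw [Ne, Ideal.span_singleton_eq_bot]; exact hϖ0
    let Q₀ : HeightOneSpectrum C := ⟨Ideal.span {ϖ}, hPprime, hPne⟩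
    have hπQ : πC ∈ Q₀.asIdeal := by
      rw [mem_asIdeal_iff_ord_pos hK Q₀ hπC0, hπCF,
        (placeOfPrime hK Q₀).ord_restrict (F := F) (π : F), restrict_placeOfPrime v C hK Q₀, hπ1,
        mul_one]
      exact_mod_cast (placeOfPrime hK Q₀).ramificationIndex_pos (F := F)
    exact Ideal.mem_span_singleton.1 hπQ
  -- key claim on `C`
  have key : ∀ c : C, c ≠ 0 → lhs c = rhs c := by
    intro c
    induction c using UniqueFactorizationMonoid.induction_on_prime with
    | h₁ => intro h; exact absurd rfl h
    | h₂ u hu =>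
      intro _
      rw [hlhs_unit u hu, hrhs_unit u hu]
    | h₃ a ϖ ha hϖ ih =>
      intro _
      obtain ⟨d, hd⟩ := hdvdπ ϖ hϖ
      have hd0 : d ≠ 0 := by
        rintro rfl
        rw [mul_zero] at hd
        exact hπC0 hd
      have e1 := hlhs_mul ϖ d hϖ.ne_zero hd0
      have e2 := hrhs_mul ϖ d hϖ.ne_zero hd0
      rw [← hd] at e1 e2
      have e3 := hrhs_prime ϖ hϖ
      have e4 := hlhs_prime ϖ hϖ
      have e5 := hle d hd0
      have hϖ1 : lhs ϖ = 1 := by omega
      rw [hlhs_mul ϖ a hϖ.ne_zero ha, hrhs_mul ϖ a hϖ.ne_zero ha, hrhs_prime ϖ hϖ, hϖ1, ih ha]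
  -- general `f`
  obtain ⟨a, b, hb, hab⟩ := IsFractionRing.div_surjective (A := C) f
  have hb0 : b ≠ 0 := nonZeroDivisors.ne_zero hb
  have hbF : algebraMap C F' b ≠ 0 := fun h => hb0 (hinj (by rw [h, map_zero]))
  have ha0 : a ≠ 0 := by
    rintro rfl
    rw [map_zero, zero_div] at hab
    exact hf hab.symm
  have haF : algebraMap C F' a ≠ 0 := fun h => ha0 (hinj (by rw [h, map_zero]))
  have hNinv : Algebra.norm F (algebraMap C F' b)⁻¹ = (Algebra.norm F (algebraMap C F' b))⁻¹ := by
    apply eq_inv_of_mul_eq_one_left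
    rw [← map_mul, inv_mul_cancel₀ hbF, map_one]
  have ka := key a ha0
  have kb := key b hb0
  simp only [hlhs, hrhs] at ka kb
  rw [hsumfib, ← hab, div_eq_mul_inv, map_mul, hNinv,
    v.ord_mul (Algebra.norm_ne_zero_iff.2 haF) (inv_ne_zero (Algebra.norm_ne_zero_iff.2 hbF)),
    v.ord_inv, ka, kb, ← sub_eq_add_neg, ← Finset.sum_sub_distrib]
  refine Finset.sum_congr rfl fun Q _ => ?_
  rw [(placeOfPrime hK Q).ord_mul haF (inv_ne_zero hbF), (placeOfPrime hK Q).ord_inv]
  ring

/-- **Norm formula at a place** for a finite separable extension of function fields all of whose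
places have degree one (any characteristic). -/
theorem ord_norm_eq_sum_of_isSeparable [FiniteDimensional F F'] [Algebra.IsSeparable F F']
    (v : Place K F)
    (hres : ∀ a : v.toValuationSubring, ∃ c : K, a - algebraMap K v.toValuationSubring c ∈
      IsLocalRing.maximalIdeal v.toValuationSubring)
    (hdeg' : ∀ w : Place K F', w.deg = 1) (f : F') (hf : f ≠ 0) :
    v.ord (Algebra.norm F f) = ∑ w ∈ v.fiber F', w.ord f := by
  have : IsDedekindDomain (integralClosure v.toValuationSubring F') :=
    integralClosure.isDedekindDomain v.toValuationSubring F F'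
  have : IsFractionRing (integralClosure v.toValuationSubring F') F' :=
    integralClosure.isFractionRing_of_finite_extension F F'
  have : Module.Finite v.toValuationSubring (integralClosure v.toValuationSubring F') :=
    IsIntegralClosure.finite v.toValuationSubring F F' _
  have : Module.IsTorsionFree v.toValuationSubring (integralClosure v.toValuationSubring F') :=
    Subalgebra.instIsTorsionFree (integralClosure v.toValuationSubring F')
  exact ord_norm_of_dedekind' v hres hdeg' (integralClosure v.toValuationSubring F') f hf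

end Fermat.Agent.Lib.Red.NormPlace
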