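import Mathlib
import Fermat.Agent.Lib.Red.PlaceRedLocal

/-!
# The place reduction from two charts

A *chart* is a function `x ∈ Ow` with nonconstant reduction such that the ring of functions of
`Ow` regular wherever `x` is regular has good reduction (`IsChart`).  Every residue disc
`{P : x(P) ∈ A, x(P) ≡ γ}` of a chart is a tube in the sense of `IsTube`
(`IsChart.isTube`), and two charts `x`, `x⁻¹` cover all places, whence the place reduction
(`exists_reduction_of_charts`).
-/

set_option autoImplicit false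

noncomputable section

namespace Fermat.Agent.Lib.Red.PlaceRed

open AlgebraicCurve WithZero
open Fermat.Agent.S24

section General

variable {K F : Type*} [Field K] [Field F] [Algebra K F]

theorem ord_pow (P : Place K F) (f : F) (n : ℕ) : P.ord (f ^ n) = n * P.ord f := by
  rw [← zpow_natCast, P.ord_zpow]

theorem ord_prod_pow (P : Place K F) {ι : Type*} (S : Finset ι) (φ : ι → F) (n : ι → ℕ)
    (hφ : ∀ i ∈ S, φ i ≠ 0) :
    P.ord (∏ i ∈ S, φ i ^ n i) = ∑ i ∈ S, (n i : ℤ) * P.ord (φ i) := by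
  classical
  induction S using Finset.induction_on with
  | empty => simp
  | insert a s ha ih =>
    rw [Finset.prod_insert ha, Finset.sum_insert ha,
      P.ord_mul (pow_ne_zero _ (hφ a (Finset.mem_insert_self a s)))
        (Finset.prod_ne_zero_iff.2 fun i hi => pow_ne_zero _ (hφ i (Finset.mem_insert_of_mem hi))),
      ord_pow, ih fun i hi => hφ i (Finset.mem_insert_of_mem hi)]

end General

section EvalMore

variable {L F k : Type*} [Field L] [Field F] [Algebra L F] [Field k]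
variable {A : ValuationSubring L} {π : A →+* k}

theorem EvK.adicValuation_eq_one {P : Place L F} {f : F} {c : k} (h : EvK A π P f c)
    (hc : c ≠ 0) : P.adicValuation f = 1 := by
  obtain ⟨a, rfl, ha⟩ := h
  have ha0 : (a : L) ≠ 0 := by
    intro h0
    apply hc
    have : a = 0 := Subtype.ext h0
    rw [this, map_zero]
  have h1 := adicValuation_algebraMap_eq_one P ha0
  have : f = (f - algebraMap L F (a : L)) + algebraMap L F (a : L) := by ring
  rw [this, Valuation.map_add_eq_of_lt_right, h1]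
  rw [h1]
  exact ha

theorem EvK.pow {P : Place L F} {f : F} {c : k} (h : EvK A π P f c) (n : ℕ) :
    EvK A π P (f ^ n) (c ^ n) := by
  induction n with
  | zero => simpa using EvK.one (A := A) (π := π) P
  | succ n ih =>
    rw [pow_succ, pow_succ]
    exact ih.mul h

theorem EvK.inv (hπ : ∀ a : A, ¬ IsUnit a → π a = 0) {P : Place L F} {f : F} {c : k}
    (h : EvK A π P f c) (hc : c ≠ 0) : EvK A π P f⁻¹ c⁻¹ := by
  have hf1 := h.adicValuation_eq_one hc
  obtain ⟨a, rfl, ha⟩ := h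
  have hau : IsUnit a := by
    by_contra hnu
    exact hc (hπ a hnu)
  obtain ⟨u, rfl⟩ := hau
  have hu0 : ((u : A) : L) ≠ 0 := by
    intro h0
    apply hc
    have : (u : A) = 0 := Subtype.ext h0
    rw [this, map_zero]
  have hinv : (((u⁻¹ : Aˣ) : A) : L) = ((u : A) : L)⁻¹ := by
    have h1 : ((u : A) : L) * (((u⁻¹ : Aˣ) : A) : L) = 1 :=
      congrArg (Subtype.val) (Units.mul_inv u)
    exact eq_inv_of_mul_eq_one_right h1
  have hπinv : π ((u⁻¹ : Aˣ) : A) = (π (u : A))⁻¹ := by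
    have h1 : π (u : A) * π ((u⁻¹ : Aˣ) : A) = 1 := by
      rw [← map_mul, Units.mul_inv, map_one]
    exact eq_inv_of_mul_eq_one_right h1
  have hf0 : f ≠ 0 := by
    intro h0
    rw [h0, map_zero] at hf1
    exact zero_ne_one hf1
  refine ⟨((u⁻¹ : Aˣ) : A), hπinv, ?_⟩
  have e : f⁻¹ - algebraMap L F (((u⁻¹ : Aˣ) : A) : L)
      = -((f - algebraMap L F ((u : A) : L)) * f⁻¹ * algebraMap L F (((u : A) : L)⁻¹)) := by
    have hu0' : algebraMap L F ((u : A) : L) ≠ 0 := by simp [hu0]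
    rw [hinv, map_inv₀]
    field_simp
    ring
  rw [e, Valuation.map_neg, map_mul, map_mul, map_inv₀, hf1, inv_one, mul_one,
    adicValuation_algebraMap_eq_one P (inv_ne_zero hu0), mul_one]
  exact ha

end EvalMore

section ClearGeneral

variable {K E : Type*} [Field K] [Field E] [Algebra K E]

/-- Clearing poles: if `ψ P` vanishes at `P` for every pole `P ∈ S` of `g`, then
`g * ∏_{P ∈ S} ψ P ^ (pole order)` is regular at every place where the `ψ P` are regular and
whose possible pole lies in `S`. -/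
theorem ord_mul_prod_nonneg (P' : Place K E) {g : E} (hg : g ≠ 0) (D : Place K E →₀ ℤ)
    (hD : ∀ P, D P = P.ord g) (S : Finset (Place K E)) (ψ : Place K E → E)
    (hψ0 : ∀ P ∈ S, ψ P ≠ 0) (hψ : ∀ P ∈ S, 0 ≤ P'.ord (ψ P))
    (hS : D P' < 0 → P' ∈ S ∧ 0 < P'.ord (ψ P')) :
    0 ≤ P'.ord (g * ∏ P ∈ S, ψ P ^ (-D P).toNat) := by
  have hprod0 : ∏ P ∈ S, ψ P ^ (-D P).toNat ≠ 0 :=
    Finset.prod_ne_zero_iff.2 fun P hP => pow_ne_zero _ (hψ0 P hP)
  rw [P'.ord_mul hg hprod0, ord_prod_pow P' S ψ _ hψ0, ← hD P']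
  have hnn : ∀ P ∈ S, 0 ≤ (((-D P).toNat : ℕ) : ℤ) * P'.ord (ψ P) := fun P hP =>
    mul_nonneg (Int.natCast_nonneg _) (hψ P hP)
  by_cases hneg : D P' < 0
  · obtain ⟨hP'S, hpos⟩ := hS hneg
    have h1 := Finset.single_le_sum hnn hP'S
    have h2 : -D P' ≤ (((-D P').toNat : ℕ) : ℤ) * P'.ord (ψ P') := by
      have h3 : (((-D P').toNat : ℕ) : ℤ) = -D P' := Int.toNat_of_nonneg (by omega)
      rw [h3]
      nlinarith
    linarith
  · have := Finset.sum_nonneg hnn
    omega

end ClearGeneral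

/-! ### Charts -/

section Chart

variable {L F k Ft : Type*} [Field L] [Field F] [Algebra L F] [Field k] [Field Ft] [Algebra k Ft]

/-- `y` is regular at every place where `x` is regular. -/
def RegChart (K : Type*) {E : Type*} [Field K] [Field E] [Algebra K E] (x y : E) : Prop :=
  ∀ P : Place K E, 0 ≤ P.ord x → 0 ≤ P.ord y

/-- The subring of `Ow` of functions regular wherever `x` is regular. -/
def chartSubring (L : Type*) {F : Type*} [Field L] [Field F] [Algebra L F]
    (Ow : ValuationSubring F) (x : F) : Subring Ow where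
  carrier := {y | RegChart L x (y : F)}
  mul_mem' := fun ha hb P hP => by
    rw [← mem_iff_ord_nonneg]
    exact P.toValuationSubring.mul_mem _ _ (mem_of_ord_nonneg P (ha P hP))
      (mem_of_ord_nonneg P (hb P hP))
  one_mem' := fun P _ => by simp
  add_mem' := fun ha hb P hP => by
    rw [← mem_iff_ord_nonneg]
    exact P.toValuationSubring.add_mem _ _ (mem_of_ord_nonneg P (ha P hP))
      (mem_of_ord_nonneg P (hb P hP))
  zero_mem' := fun P _ => by simp
  neg_mem' := fun ha P hP => by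
    rw [← mem_iff_ord_nonneg]
    exact P.toValuationSubring.neg_mem _ (mem_of_ord_nonneg P (ha P hP))

theorem mem_chartSubring {Ow : ValuationSubring F} {x : F} {y : Ow} :
    y ∈ chartSubring L Ow x ↔ RegChart L x (y : F) := Iff.rfl

/-- The hypotheses on a chart `x ∈ Ow`. -/
structure IsChart (A : ValuationSubring L) (π : A →+* k) (Ow : ValuationSubring F)
    (red : Ow →+* Ft) (x : Ow) : Prop where
  surj : Function.Surjective π
  mem : ∀ a : A, algebraMap L F (a : L) ∈ Ow
  red_alg : ∀ (a : A) (f : Ow), (f : F) = algebraMap L F (a : L) → red f = algebraMap k Ft (π a)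
  isUnit : ∀ u : Ow, red u ≠ 0 → IsUnit u
  scale : ∀ f : Ow, red f = 0 →
    ∃ (a : A) (g : Ow), π a = 0 ∧ (f : F) = algebraMap L F (a : L) * (g : F)
  fin : ∀ y : F, y ≠ 0 → {P : Place L F | P.ord y ≠ 0}.Finite
  fin_t : ∀ g : Ft, g ≠ 0 → {Q : Place k Ft | Q.ord g ≠ 0}.Finite
  resK : ∀ (P : Place L F) (f : F), f ∈ P.toValuationSubring →
    ∃ b : L, P.adicValuation (f - algebraMap L F b) < 1
  resK_t : ∀ (Q : Place k Ft) (g : Ft), g ∈ Q.toValuationSubring →
    ∃ b : k, Q.adicValuation (g - algebraMap k Ft b) < 1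
  nonconst : ∀ c : k, red x ≠ algebraMap k Ft c
  exists_zero : ∀ γ : k, ∃ Q : Place k Ft, 0 < Q.ord (red x - algebraMap k Ft γ)
  approx : ∀ (S : Finset (Place k Ft)) (n : Place k Ft → ℤ),
    ∃ f : Ft, f ≠ 0 ∧ ∀ v ∈ S, v.ord f = n v
  lift : ∀ s : Ft, RegChart k (red x) s → ∃ y : Ow, red y = s ∧ RegChart L (x : F) (y : F)
  red_reg : ∀ y : Ow, RegChart L (x : F) (y : F) → RegChart k (red x) (red y)
  ev : ∀ y : Ow, RegChart L (x : F) (y : F) → ∀ (P : Place L F) (c : k),
    EvK A π P (x : F) c → ∃ c', EvK A π P (y : F) c'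
  cons : ∀ y : Ow, RegChart L (x : F) (y : F) → red y ≠ 0 →
    ∀ (γ : k) (s : Finset (Place L F)) (Tt : Finset (Place k Ft)),
      (∀ P, P ∈ s ↔ EvK A π P (x : F) γ ∧ P.ord (y : F) ≠ 0) →
      (∀ Q, Q ∈ Tt ↔ 0 < Q.ord (red x - algebraMap k Ft γ)) →
        ∑ P ∈ s, P.ord (y : F) = ∑ Q ∈ Tt, Q.ord (red y)

namespace IsChart

variable {A : ValuationSubring L} {π : A →+* k} {Ow : ValuationSubring F} {red : Ow →+* Ft}
  {x : Ow}

theorem ker (h : IsChart A π Ow red x) (a : A) (ha : ¬ IsUnit a) : π a = 0 := by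
  have hmax := RingHom.ker_isMaximal_of_surjective π h.surj
  have := IsLocalRing.eq_maximalIdeal hmax
  have hmem : a ∈ RingHom.ker π := by
    rw [this, IsLocalRing.mem_maximalIdeal]
    exact ha
  exact hmem

/-- The constant `a ∈ A` as an element of `Ow`. -/
def const (h : IsChart A π Ow red x) (a : A) : Ow := ⟨algebraMap L F (a : L), h.mem a⟩

theorem coe_const (h : IsChart A π Ow red x) (a : A) :
    ((h.const a : Ow) : F) = algebraMap L F (a : L) := rfl

theorem red_const (h : IsChart A π Ow red x) (a : A) :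
    red (h.const a) = algebraMap k Ft (π a) := h.red_alg a _ rfl

theorem regChart_const (h : IsChart A π Ow red x) (a : A) :
    RegChart L (x : F) ((h.const a : Ow) : F) := fun P _ => by
  rw [coe_const, ord_algebraMap]

theorem regChart_self (_h : IsChart A π Ow red x) : RegChart L (x : F) (x : F) := fun _ hP => hP

theorem coe_ne_zero (_h : IsChart A π Ow red x) {y : Ow} (hy : red y ≠ 0) : (y : F) ≠ 0 := by
  intro h0
  apply hy
  have : y = 0 := Subtype.ext h0
  rw [this, map_zero]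

theorem red_x_sub_ne_zero (h : IsChart A π Ow red x) (γ : k) :
    red x - algebraMap k Ft γ ≠ 0 := fun h0 => h.nonconst γ (sub_eq_zero.1 h0)

/-- A place of the residue disc of `γ` is a place where `x` is regular. -/
theorem ord_x_nonneg_of_evK (_h : IsChart A π Ow red x) {P : Place L F} {γ : k}
    (hP : EvK A π P (x : F) γ) : 0 ≤ P.ord (x : F) :=
  ord_nonneg_of_mem P hP.mem

/-- A zero of `red x - γ` is a place where `red x` is regular. -/
theorem ord_redx_nonneg (_h : IsChart A π Ow red x) {Q : Place k Ft} {γ : k}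
    (hQ : 0 < Q.ord (red x - algebraMap k Ft γ)) : 0 ≤ Q.ord (red x) := by
  rw [← mem_iff_ord_nonneg]
  have : red x = (red x - algebraMap k Ft γ) + algebraMap k Ft γ := by ring
  rw [this]
  exact Q.toValuationSubring.add_mem _ _ (mem_of_ord_nonneg Q hQ.le) (Q.algebraMap_mem' γ)

/-- A linear factor in `x` vanishing at a given place `P` outside the residue disc of `γ` at which
`x` is regular: a unit on the disc, with reduction a unit at the places over `γ`. -/
theorem exists_factor (h : IsChart A π Ow red x) (γ : k) {P : Place L F}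
    (hPx : 0 ≤ P.ord (x : F)) (hPT : ¬ EvK A π P (x : F) γ) :
    ∃ φ : Ow, RegChart L (x : F) (φ : F) ∧ red φ ≠ 0 ∧ 0 < P.ord (φ : F) ∧
      (∀ P', EvK A π P' (x : F) γ → ∃ c, c ≠ 0 ∧ EvK A π P' (φ : F) c) ∧
      ∀ Q : Place k Ft, 0 < Q.ord (red x - algebraMap k Ft γ) → Q.adicValuation (red φ) = 1 := by
  obtain ⟨b, hb⟩ := h.resK P (x : F) (mem_of_ord_nonneg P hPx)
  by_cases hbA : b ∈ A
  · have hc : π ⟨b, hbA⟩ ≠ γ := fun hcγ => hPT ⟨⟨b, hbA⟩, hcγ, hb⟩
    have hred : red (x - h.const ⟨b, hbA⟩) = red x - algebraMap k Ft (π ⟨b, hbA⟩) := by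
      rw [map_sub, h.red_const]
    have hred0 : red (x - h.const ⟨b, hbA⟩) ≠ 0 := by
      rw [hred]; exact h.red_x_sub_ne_zero _
    refine ⟨x - h.const ⟨b, hbA⟩, (chartSubring L Ow (x : F)).sub_mem h.regChart_self
      (h.regChart_const _), hred0, ?_, ?_, ?_⟩
    · rw [← adicValuation_lt_one_iff P (h.coe_ne_zero hred0)]
      exact hb
    · intro P' hP'
      exact ⟨γ - π ⟨b, hbA⟩, sub_ne_zero.2 (Ne.symm hc), hP'.sub (EvK.const P' _)⟩
    · intro Q hQ
      have hQ' : Q.adicValuation (red x - algebraMap k Ft γ) < 1 :=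
        (adicValuation_lt_one_iff Q (h.red_x_sub_ne_zero γ)).2 hQ
      have h1 : Q.adicValuation (algebraMap k Ft (γ - π ⟨b, hbA⟩)) = 1 :=
        adicValuation_algebraMap_eq_one Q (sub_ne_zero.2 (Ne.symm hc))
      have e : red x - algebraMap k Ft (π ⟨b, hbA⟩)
          = (red x - algebraMap k Ft γ) + algebraMap k Ft (γ - π ⟨b, hbA⟩) := by
        rw [map_sub]; ring
      rw [hred, e, Valuation.map_add_eq_of_lt_right, h1]
      rw [h1]
      exact hQ'
  · have hb0 : b ≠ 0 := fun h0 => hbA (h0 ▸ A.zero_mem)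
    have hbinv : b⁻¹ ∈ A := (A.mem_or_inv_mem b).resolve_left hbA
    have hnu : ¬ IsUnit (⟨b⁻¹, hbinv⟩ : A) := by
      intro hu
      have := Submonoid.inv_mem_of_isUnit hu
      simp only [inv_inv] at this
      exact hbA this
    have hπ0 : π ⟨b⁻¹, hbinv⟩ = 0 := h.ker _ hnu
    have hred : red (1 - h.const ⟨b⁻¹, hbinv⟩ * x) = 1 := by
      rw [map_sub, map_one, map_mul, h.red_const, hπ0, map_zero, zero_mul, sub_zero]
    have hred0 : red (1 - h.const ⟨b⁻¹, hbinv⟩ * x) ≠ 0 := by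
      rw [hred]; exact one_ne_zero
    refine ⟨1 - h.const ⟨b⁻¹, hbinv⟩ * x, (chartSubring L Ow (x : F)).sub_mem
      (chartSubring L Ow (x : F)).one_mem
      ((chartSubring L Ow (x : F)).mul_mem (h.regChart_const _) h.regChart_self), hred0, ?_, ?_, ?_⟩
    · rw [← adicValuation_lt_one_iff P (h.coe_ne_zero hred0)]
      have e : ((1 - h.const ⟨b⁻¹, hbinv⟩ * x : Ow) : F)
          = -(algebraMap L F b⁻¹ * ((x : F) - algebraMap L F b)) := by
        have h1 : algebraMap L F b⁻¹ * algebraMap L F b = 1 := by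
          rw [← map_mul, inv_mul_cancel₀ hb0, map_one]
        have h2 : ((1 - h.const ⟨b⁻¹, hbinv⟩ * x : Ow) : F)
            = 1 - algebraMap L F b⁻¹ * (x : F) := rfl
        rw [h2]
        linear_combination (-1 : F) * h1
      rw [e, Valuation.map_neg, map_mul, adicValuation_algebraMap_eq_one P (inv_ne_zero hb0),
        one_mul]
      exact hb
    · intro P' hP'
      refine ⟨1, one_ne_zero, ?_⟩
      have := (EvK.one (A := A) (π := π) P').sub ((EvK.const (π := π) P' ⟨b⁻¹, hbinv⟩).mul hP')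
      rwa [hπ0, zero_mul, sub_zero] at this
    · intro Q _
      rw [hred, map_one]

/-- A linear factor in `x` whose reduction vanishes at a given place `Q` of `Ft` outside the fibre
of `γ` at which `red x` is regular. -/
theorem exists_factor_t (h : IsChart A π Ow red x) (γ : k) {Q : Place k Ft}
    (hQx : 0 ≤ Q.ord (red x)) (hQT : ¬ 0 < Q.ord (red x - algebraMap k Ft γ)) :
    ∃ φ : Ow, RegChart L (x : F) (φ : F) ∧ red φ ≠ 0 ∧ 0 < Q.ord (red φ) ∧
      RegChart k (red x) (red φ) ∧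
      (∀ P', EvK A π P' (x : F) γ → ∃ c, c ≠ 0 ∧ EvK A π P' (φ : F) c) := by
  obtain ⟨γ', hγ'⟩ := h.resK_t Q (red x) (mem_of_ord_nonneg Q hQx)
  have hne : γ' ≠ γ := by
    rintro rfl
    exact hQT ((adicValuation_lt_one_iff Q (h.red_x_sub_ne_zero _)).1 hγ')
  obtain ⟨a, rfl⟩ := h.surj γ'
  have hred : red (x - h.const a) = red x - algebraMap k Ft (π a) := by
    rw [map_sub, h.red_const]
  have hred0 : red (x - h.const a) ≠ 0 := by
    rw [hred]; exact h.red_x_sub_ne_zero _
  refine ⟨x - h.const a, (chartSubring L Ow (x : F)).sub_mem h.regChart_self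
    (h.regChart_const _), hred0, ?_, ?_, ?_⟩
  · rw [hred, ← adicValuation_lt_one_iff Q (h.red_x_sub_ne_zero _)]
    exact hγ'
  · intro Q' hQ'
    rw [hred, ← mem_iff_ord_nonneg]
    exact sub_mem (mem_of_ord_nonneg Q' hQ') (Q'.algebraMap_mem' _)
  · intro P' hP'
    exact ⟨γ - π a, sub_ne_zero.2 (Ne.symm hne), hP'.sub (EvK.const P' _)⟩

/-- Clearing the poles of a function regular on the residue disc of `γ`: a product `g` of linear
factors in `x`, units on the disc with reduction a unit over `γ`, such that `f * g` is regular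
wherever `x` is. -/
theorem exists_clear (h : IsChart A π Ow red x) (γ : k) (f : Ow)
    (hf : ∀ P, EvK A π P (x : F) γ → (f : F) ∈ P.toValuationSubring) :
    ∃ g : Ow, RegChart L (x : F) (g : F) ∧ RegChart L (x : F) ((f * g : Ow) : F) ∧ red g ≠ 0 ∧
      (∀ P', EvK A π P' (x : F) γ → ∃ c, c ≠ 0 ∧ EvK A π P' (g : F) c) ∧
      ∀ Q : Place k Ft, 0 < Q.ord (red x - algebraMap k Ft γ) → Q.adicValuation (red g) = 1 := by
  classical
  by_cases hf0 : (f : F) = 0
  · refine ⟨1, (chartSubring L Ow (x : F)).one_mem, ?_, by rw [map_one]; exact one_ne_zero,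
      fun P' _ => ⟨1, one_ne_zero, EvK.one P'⟩, fun Q _ => by rw [map_one, map_one]⟩
    intro P _
    have : ((f * 1 : Ow) : F) = 0 := by rw [mul_one]; exact hf0
    rw [this, Place.ord_zero]
  obtain ⟨D, hD⟩ : ∃ D : Place L F →₀ ℤ, ∀ P, D P = P.ord (f : F) :=
    ⟨Finsupp.ofSupportFinite (fun P => P.ord (f : F)) (h.fin _ hf0), fun _ => rfl⟩
  set S : Finset (Place L F) := D.support.filter (fun P => D P < 0 ∧ 0 ≤ P.ord (x : F)) with hS
  have key : ∀ P : Place L F, ∃ φ : Ow, P ∈ S →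
      (RegChart L (x : F) (φ : F) ∧ red φ ≠ 0 ∧ 0 < P.ord (φ : F) ∧
      (∀ P', EvK A π P' (x : F) γ → ∃ c, c ≠ 0 ∧ EvK A π P' (φ : F) c) ∧
      ∀ Q : Place k Ft, 0 < Q.ord (red x - algebraMap k Ft γ) →
        Q.adicValuation (red φ) = 1) := by
    intro P
    by_cases hP : P ∈ S
    · obtain ⟨-, hneg, hx⟩ := Finset.mem_filter.1 hP
      have hPT : ¬ EvK A π P (x : F) γ := by
        intro hE
        have := ord_nonneg_of_mem P (hf P hE)
        rw [← hD] at this
        omega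
      obtain ⟨φ, hφ⟩ := h.exists_factor γ hx hPT
      exact ⟨φ, fun _ => hφ⟩
    · exact ⟨1, fun hh => absurd hh hP⟩
  choose φ hφ using key
  have hcoe : ((∏ P ∈ S, φ P ^ (-D P).toNat : Ow) : F)
      = ∏ P ∈ S, ((φ P : Ow) : F) ^ (-D P).toNat := by
    rw [← ValuationSubring.subtype_apply, map_prod]
    exact Finset.prod_congr rfl fun P _ => by rw [map_pow]; rfl
  have hredg : red (∏ P ∈ S, φ P ^ (-D P).toNat) = ∏ P ∈ S, red (φ P) ^ (-D P).toNat := by
    rw [map_prod]
    exact Finset.prod_congr rfl fun P _ => by rw [map_pow]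
  refine ⟨∏ P ∈ S, φ P ^ (-D P).toNat, ?_, ?_, ?_, ?_, ?_⟩
  · exact (chartSubring L Ow (x : F)).prod_mem fun P hP =>
      (chartSubring L Ow (x : F)).pow_mem (hφ P hP).1 _
  · intro P' hP'
    have e : ((f * ∏ P ∈ S, φ P ^ (-D P).toNat : Ow) : F)
        = (f : F) * ∏ P ∈ S, ((φ P : Ow) : F) ^ (-D P).toNat := by
      rw [← hcoe]; rfl
    rw [e]
    refine ord_mul_prod_nonneg P' hf0 D hD S (fun P => ((φ P : Ow) : F))
      (fun P hP => h.coe_ne_zero (hφ P hP).2.1) (fun P hP => (hφ P hP).1 P' hP') ?_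
    intro hneg
    have hP'S : P' ∈ S :=
      Finset.mem_filter.2 ⟨Finsupp.mem_support_iff.2 (ne_of_lt hneg), hneg, hP'⟩
    exact ⟨hP'S, (hφ P' hP'S).2.2.1⟩
  · rw [hredg]
    exact Finset.prod_ne_zero_iff.2 fun P hP => pow_ne_zero _ (hφ P hP).2.1
  · intro P' hP'
    refine Finset.prod_induction _ (fun g : Ow => ∃ c, c ≠ 0 ∧ EvK A π P' (g : F) c) ?_ ?_ ?_
    · rintro a b ⟨c, hc, hac⟩ ⟨d, hd, hbd⟩
      exact ⟨c * d, mul_ne_zero hc hd, hac.mul hbd⟩
    · exact ⟨1, one_ne_zero, EvK.one P'⟩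
    · intro P hP
      obtain ⟨c, hc, hφc⟩ := (hφ P hP).2.2.2.1 P' hP'
      exact ⟨c ^ (-D P).toNat, pow_ne_zero _ hc, hφc.pow _⟩
  · intro Q hQ
    rw [hredg, map_prod]
    refine Finset.prod_eq_one fun P hP => ?_
    rw [map_pow, (hφ P hP).2.2.2.2 Q hQ, one_pow]

/-- Clearing the poles of a function on `Ft` regular over `γ`. -/
theorem exists_clear_t (h : IsChart A π Ow red x) (γ : k) (g : Ft)
    (hg : ∀ Q : Place k Ft, 0 < Q.ord (red x - algebraMap k Ft γ) → 0 ≤ Q.ord g) :
    ∃ w : Ow, RegChart L (x : F) (w : F) ∧ red w ≠ 0 ∧ RegChart k (red x) (g * red w) ∧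
      (∀ P', EvK A π P' (x : F) γ → ∃ c, c ≠ 0 ∧ EvK A π P' (w : F) c) := by
  classical
  by_cases hg0 : g = 0
  · refine ⟨1, (chartSubring L Ow (x : F)).one_mem, by rw [map_one]; exact one_ne_zero, ?_,
      fun P' _ => ⟨1, one_ne_zero, EvK.one P'⟩⟩
    intro Q _
    rw [hg0, zero_mul, Place.ord_zero]
  obtain ⟨D, hD⟩ : ∃ D : Place k Ft →₀ ℤ, ∀ Q, D Q = Q.ord g :=
    ⟨Finsupp.ofSupportFinite (fun Q => Q.ord g) (h.fin_t _ hg0), fun _ => rfl⟩
  set S : Finset (Place k Ft) := D.support.filter (fun Q => D Q < 0 ∧ 0 ≤ Q.ord (red x)) with hS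
  have key : ∀ Q : Place k Ft, ∃ φ : Ow, Q ∈ S →
      (RegChart L (x : F) (φ : F) ∧ red φ ≠ 0 ∧ 0 < Q.ord (red φ) ∧
      RegChart k (red x) (red φ) ∧
      (∀ P', EvK A π P' (x : F) γ → ∃ c, c ≠ 0 ∧ EvK A π P' (φ : F) c)) := by
    intro Q
    by_cases hQ : Q ∈ S
    · obtain ⟨-, hneg, hx⟩ := Finset.mem_filter.1 hQ
      have hQT : ¬ 0 < Q.ord (red x - algebraMap k Ft γ) := by
        intro hE
        have := hg Q hE
        rw [← hD] at this
        omega
      obtain ⟨φ, hφ⟩ := h.exists_factor_t γ hx hQT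
      exact ⟨φ, fun _ => hφ⟩
    · exact ⟨1, fun hh => absurd hh hQ⟩
  choose φ hφ using key
  have hredg : red (∏ Q ∈ S, φ Q ^ (-D Q).toNat) = ∏ Q ∈ S, red (φ Q) ^ (-D Q).toNat := by
    rw [map_prod]
    exact Finset.prod_congr rfl fun P _ => by rw [map_pow]
  refine ⟨∏ Q ∈ S, φ Q ^ (-D Q).toNat, ?_, ?_, ?_, ?_⟩
  · exact (chartSubring L Ow (x : F)).prod_mem fun Q hQ =>
      (chartSubring L Ow (x : F)).pow_mem (hφ Q hQ).1 _
  · rw [hredg]
    exact Finset.prod_ne_zero_iff.2 fun Q hQ => pow_ne_zero _ (hφ Q hQ).2.1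
  · intro Q' hQ'
    rw [hredg]
    refine ord_mul_prod_nonneg Q' hg0 D hD S (fun Q => red (φ Q))
      (fun Q hQ => (hφ Q hQ).2.1) (fun Q hQ => (hφ Q hQ).2.2.2.1 Q' hQ') ?_
    intro hneg
    have hQ'S : Q' ∈ S :=
      Finset.mem_filter.2 ⟨Finsupp.mem_support_iff.2 (ne_of_lt hneg), hneg, hQ'⟩
    exact ⟨hQ'S, (hφ Q' hQ'S).2.2.1⟩
  · intro P' hP'
    refine Finset.prod_induction _ (fun g : Ow => ∃ c, c ≠ 0 ∧ EvK A π P' (g : F) c) ?_ ?_ ?_
    · rintro a b ⟨c, hc, hac⟩ ⟨d, hd, hbd⟩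
      exact ⟨c * d, mul_ne_zero hc hd, hac.mul hbd⟩
    · exact ⟨1, one_ne_zero, EvK.one P'⟩
    · intro Q hQ
      obtain ⟨c, hc, hφc⟩ := (hφ Q hQ).2.2.2.2 P' hP'
      exact ⟨c ^ (-D Q).toNat, pow_ne_zero _ hc, hφc.pow _⟩

theorem coe_units_inv (Ow : ValuationSubring F) (u : Owˣ) :
    (((u⁻¹ : Owˣ) : Ow) : F) = ((u : Ow) : F)⁻¹ := by
  have h1 : ((u : Ow) : F) * (((u⁻¹ : Owˣ) : Ow) : F) = 1 :=
    congrArg (Subtype.val) (Units.mul_inv u)
  exact eq_inv_of_mul_eq_one_right h1

theorem red_units_inv (red : Ow →+* Ft) (u : Owˣ) :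
    red ((u⁻¹ : Owˣ) : Ow) = (red (u : Ow))⁻¹ := by
  have h1 : red (u : Ow) * red ((u⁻¹ : Owˣ) : Ow) = 1 := by
    rw [← map_mul, Units.mul_inv, map_one]
  exact eq_inv_of_mul_eq_one_right h1

/-- **Every residue disc of a chart is a tube.** -/
theorem isTube (h : IsChart A π Ow red x) (γ : k) (Tt : Finset (Place k Ft))
    (hTt : ∀ Q, Q ∈ Tt ↔ 0 < Q.ord (red x - algebraMap k Ft γ)) :
    IsTube A π Ow red {P | EvK A π P (x : F) γ} Tt where
  surj := h.surj
  mem := h.mem
  red_alg := h.red_alg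
  isUnit := h.isUnit
  scale := h.scale
  fin := h.fin
  ev := by
    intro P hP f hf
    have hP' : EvK A π P (x : F) γ := hP
    obtain ⟨g, -, hfg, hg0, hgT, -⟩ := h.exists_clear γ f (fun P' hP' => hf P' hP')
    obtain ⟨c₁, hc₁⟩ := h.ev (f * g) hfg P γ hP'
    obtain ⟨c₂, hc₂0, hc₂⟩ := hgT P hP'
    have hmul := hc₁.mul (hc₂.inv h.ker hc₂0)
    have e : ((f * g : Ow) : F) * ((g : Ow) : F)⁻¹ = (f : F) := by
      have : ((f * g : Ow) : F) = (f : F) * (g : F) := rfl
      rw [this, mul_assoc, mul_inv_cancel₀ (h.coe_ne_zero hg0), mul_one]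
    rw [e] at hmul
    exact ⟨_, hmul⟩
  red_reg := by
    intro f hf Q hQ
    rw [hTt] at hQ
    obtain ⟨g, -, hfg, hg0, -, hgQ⟩ := h.exists_clear γ f (fun P' hP' => hf P' hP')
    have h1 := h.red_reg (f * g) hfg Q (h.ord_redx_nonneg hQ)
    have e : red f = red (f * g) * (red g)⁻¹ := by
      rw [map_mul, mul_assoc, mul_inv_cancel₀ hg0, mul_one]
    rw [← adicValuation_le_one_iff_mem, e, map_mul, map_inv₀, hgQ Q hQ, inv_one, mul_one]
    exact (adicValuation_le_one_iff_mem Q).2 (mem_of_ord_nonneg Q h1)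
  lift := by
    intro g hg
    obtain ⟨w, -, hw0, hgw, hwT⟩ := h.exists_clear_t γ g
      (fun Q hQ => ord_nonneg_of_mem Q (hg Q ((hTt Q).2 hQ)))
    obtain ⟨y, hy, hyreg⟩ := h.lift (g * red w) hgw
    obtain ⟨u, hu⟩ := h.isUnit w hw0
    refine ⟨y * ((u⁻¹ : Owˣ) : Ow), ?_, ?_⟩
    · intro P hP
      have hP' : EvK A π P (x : F) γ := hP
      have e : ((y * ((u⁻¹ : Owˣ) : Ow) : Ow) : F) = (y : F) * ((w : Ow) : F)⁻¹ := by
        rw [← hu, ← coe_units_inv]; rfl
      rw [e]
      obtain ⟨c, hc0, hc⟩ := hwT P hP'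
      exact P.toValuationSubring.mul_mem _ _
        (mem_of_ord_nonneg P (hyreg P (h.ord_x_nonneg_of_evK hP'))) (hc.inv h.ker hc0).mem
    · rw [map_mul, red_units_inv, hu, hy, mul_assoc, mul_inv_cancel₀ hw0, mul_one]
  approx := by
    classical
    intro Q hQ
    obtain ⟨t, -, ht⟩ := h.approx Tt (fun Q' => if Q' = Q then 1 else 0)
    refine ⟨t, ?_, fun Q' hQ' hne => ?_⟩
    · have := ht Q hQ
      rwa [if_pos rfl] at this
    · have := ht Q' hQ'
      rwa [if_neg hne] at this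
  nonempty := by
    obtain ⟨Q, hQ⟩ := h.exists_zero γ
    exact ⟨Q, (hTt Q).2 hQ⟩
  cons := by
    intro y hy hy0 s hs
    obtain ⟨g, -, hyg, hg0, hgT, hgQ⟩ := h.exists_clear γ y (fun P' hP' => hy P' hP')
    have hyF : (y : F) ≠ 0 := h.coe_ne_zero hy0
    have hgF : (g : F) ≠ 0 := h.coe_ne_zero hg0
    have hord : ∀ P, EvK A π P (x : F) γ → P.ord ((y * g : Ow) : F) = P.ord (y : F) := by
      intro P hP
      have e : ((y * g : Ow) : F) = (y : F) * (g : F) := rfl
      obtain ⟨c, hc0, hc⟩ := hgT P hP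
      rw [e, P.ord_mul hyF hgF, (adicValuation_eq_one_iff P hgF).1 (hc.adicValuation_eq_one hc0),
        add_zero]
    have hyg0 : red (y * g) ≠ 0 := by rw [map_mul]; exact mul_ne_zero hy0 hg0
    have hs' : ∀ P, P ∈ s ↔ EvK A π P (x : F) γ ∧ P.ord ((y * g : Ow) : F) ≠ 0 := by
      intro P
      rw [hs P]
      constructor
      · rintro ⟨hP, hne⟩
        exact ⟨hP, by rw [hord P hP]; exact hne⟩
      · rintro ⟨hP, hne⟩
        exact ⟨hP, by rw [← hord P hP]; exact hne⟩
    have key := h.cons (y * g) hyg hyg0 γ s Tt hs' hTt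
    have h1 : ∑ P ∈ s, P.ord (y : F) = ∑ P ∈ s, P.ord ((y * g : Ow) : F) :=
      Finset.sum_congr rfl fun P hP => (hord P ((hs P).1 hP).1).symm
    have h2 : ∑ Q ∈ Tt, Q.ord (red (y * g)) = ∑ Q ∈ Tt, Q.ord (red y) := by
      refine Finset.sum_congr rfl fun Q hQ => ?_
      rw [map_mul, Q.ord_mul hy0 hg0,
        (adicValuation_eq_one_iff Q hg0).1 (hgQ Q ((hTt Q).1 hQ)), add_zero]
    rw [h1, key, h2]

end IsChart

/-- **The place reduction from two charts** `x` and `x' = x⁻¹`: there is a map `r` on places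
with `r_* div(y) = div(red y)` for every `y ∈ Ow` with nonzero reduction; moreover `r` maps the
residue disc `x ≡ γ` to the fibre `red x = γ` and the disc `x' ≡ 0` to the zeros of `red x'`. -/
theorem exists_reduction_of_charts {A : ValuationSubring L} {π : A →+* k}
    {Ow : ValuationSubring F} {red : Ow →+* Ft} {x x' : Ow}
    (hx : IsChart A π Ow red x) (hx' : IsChart A π Ow red x') (hxx' : (x : F) * (x' : F) = 1) :
    ∃ r : Place L F → Place k Ft,
      (∀ (P : Place L F) (γ : k), EvK A π P (x : F) γ →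
        0 < (r P).ord (red x - algebraMap k Ft γ)) ∧
      (∀ P : Place L F, EvK A π P (x' : F) 0 → 0 < (r P).ord (red x')) ∧
      ∀ y : Ow, red y ≠ 0 → ∀ D : Place L F →₀ ℤ, (∀ P, D P = P.ord (y : F)) →
        ∀ Q, Finsupp.mapDomain r D Q = Q.ord (red y) := by
  classical
  have hxF : (x : F) ≠ 0 := left_ne_zero_of_mul_eq_one hxx'
  have hx'F : (x' : F) ≠ 0 := right_ne_zero_of_mul_eq_one hxx'
  have hx'inv : (x' : F) = (x : F)⁻¹ := eq_inv_of_mul_eq_one_right hxx'
  have hredmul : red x * red x' = 1 := by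
    have : x * x' = 1 := Subtype.ext hxx'
    rw [← map_mul, this, map_one]
  have hredx0 : red x ≠ 0 := left_ne_zero_of_mul_eq_one hredmul
  have hredx'0 : red x' ≠ 0 := right_ne_zero_of_mul_eq_one hredmul
  have hredx'inv : red x' = (red x)⁻¹ := eq_inv_of_mul_eq_one_right hredmul
  -- the finite fibres
  have hfinγ : ∀ γ : k, {Q : Place k Ft | 0 < Q.ord (red x - algebraMap k Ft γ)}.Finite :=
    fun γ => (hx.fin_t _ (hx.red_x_sub_ne_zero γ)).subset fun Q hQ => ne_of_gt hQ
  have hfinI : {Q : Place k Ft | 0 < Q.ord (red x')}.Finite :=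
    (hx.fin_t _ hredx'0).subset fun Q hQ => ne_of_gt hQ
  let T : Option k → Set (Place L F) := fun i =>
    match i with
    | some γ => {P | EvK A π P (x : F) γ}
    | none => {P | EvK A π P (x' : F) 0}
  let Tt : Option k → Finset (Place k Ft) := fun i =>
    match i with
    | some γ => (hfinγ γ).toFinset
    | none => hfinI.toFinset
  have hTtsome : ∀ γ Q, Q ∈ Tt (some γ) ↔ 0 < Q.ord (red x - algebraMap k Ft γ) := fun γ Q =>
    (hfinγ γ).mem_toFinset
  have hTtnone : ∀ Q, Q ∈ Tt none ↔ 0 < Q.ord (red x') := fun Q => hfinI.mem_toFinset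
  have htube : ∀ i, IsTube A π Ow red (T i) (Tt i) := by
    intro i
    cases i with
    | some γ => exact hx.isTube γ _ (hTtsome γ)
    | none =>
      refine hx'.isTube 0 _ fun Q => ?_
      rw [hTtnone, map_zero, sub_zero]
  have hT : ∀ P, ∃ i, P ∈ T i := by
    intro P
    by_cases hPx : (x : F) ∈ P.toValuationSubring
    · obtain ⟨b, hb⟩ := hx.resK P (x : F) hPx
      by_cases hbA : b ∈ A
      · exact ⟨some (π ⟨b, hbA⟩), ⟨⟨b, hbA⟩, rfl, hb⟩⟩
      · have hb0 : b ≠ 0 := fun h0 => hbA (h0 ▸ A.zero_mem)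
        have hbinv : b⁻¹ ∈ A := (A.mem_or_inv_mem b).resolve_left hbA
        have hnu : ¬ IsUnit (⟨b⁻¹, hbinv⟩ : A) := by
          intro hu
          have := Submonoid.inv_mem_of_isUnit hu
          simp only [inv_inv] at this
          exact hbA this
        refine ⟨none, ⟨⟨b⁻¹, hbinv⟩, hx.ker _ hnu, ?_⟩⟩
        have hb1 : P.adicValuation (algebraMap L F b) = 1 :=
          adicValuation_algebraMap_eq_one P hb0
        have hx1 : P.adicValuation (x : F) = 1 := by
          have : (x : F) = ((x : F) - algebraMap L F b) + algebraMap L F b := by ring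
          rw [this, Valuation.map_add_eq_of_lt_right, hb1]
          rw [hb1]
          exact hb
        have hb0' : algebraMap L F b ≠ 0 := by simp [hb0]
        have e : (x' : F) - algebraMap L F b⁻¹
            = -(((x : F) - algebraMap L F b) * (x : F)⁻¹ * (algebraMap L F b)⁻¹) := by
          rw [hx'inv, map_inv₀]
          field_simp
          ring
        show P.adicValuation ((x' : F) - algebraMap L F b⁻¹) < 1
        rw [e, Valuation.map_neg, map_mul, map_mul, map_inv₀, map_inv₀, hx1, hb1, inv_one,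
          mul_one, mul_one]
        exact hb
    · refine ⟨none, EvK.of_lt_one ?_⟩
      rw [adicValuation_lt_one_iff P hx'F, hx'inv, P.ord_inv]
      have := (notMem_iff_ord_neg P).1 hPx
      omega
  have hTdisj : ∀ i j P, P ∈ T i → P ∈ T j → i = j := by
    intro i j P hi hj
    cases i with
    | some γ =>
      cases j with
      | some γ' =>
        have h1 : EvK A π P (x : F) γ := hi
        have h2 : EvK A π P (x : F) γ' := hj
        rw [h1.unique h2]
      | none =>
        exfalso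
        have h1 : EvK A π P (x : F) γ := hi
        have h2 : EvK A π P (x' : F) 0 := hj
        have := h1.mul h2
        rw [hxx', mul_zero] at this
        exact zero_ne_one (this.unique (EvK.one P))
    | none =>
      cases j with
      | some γ' =>
        exfalso
        have h1 : EvK A π P (x' : F) 0 := hi
        have h2 : EvK A π P (x : F) γ' := hj
        have := h2.mul h1
        rw [hxx', mul_zero] at this
        exact zero_ne_one (this.unique (EvK.one P))
      | none => rfl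
  have hTtcov : ∀ Q, ∃ i, Q ∈ Tt i := by
    intro Q
    by_cases hQx : 0 ≤ Q.ord (red x)
    · obtain ⟨γ, hγ⟩ := hx.resK_t Q (red x) (mem_of_ord_nonneg Q hQx)
      exact ⟨some γ, (hTtsome γ Q).2
        ((adicValuation_lt_one_iff Q (hx.red_x_sub_ne_zero γ)).1 hγ)⟩
    · refine ⟨none, (hTtnone Q).2 ?_⟩
      rw [hredx'inv, Q.ord_inv]
      omega
  have hTtdisj : ∀ i j Q, Q ∈ Tt i → Q ∈ Tt j → i = j := by
    intro i j Q hi hj
    have aux : ∀ γ : k, Q ∈ Tt (some γ) → Q ∈ Tt none → False := by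
      intro γ h1 h2
      have h1' := hx.ord_redx_nonneg ((hTtsome γ Q).1 h1)
      have h2' := (hTtnone Q).1 h2
      rw [hredx'inv, Q.ord_inv] at h2'
      omega
    cases i with
    | some γ =>
      cases j with
      | some γ' =>
        by_contra hne
        have hne' : γ' - γ ≠ 0 := sub_ne_zero.2 fun hh => hne (by rw [hh])
        have h1 := (adicValuation_lt_one_iff Q (hx.red_x_sub_ne_zero γ)).2 ((hTtsome γ Q).1 hi)
        have h2 := (adicValuation_lt_one_iff Q (hx.red_x_sub_ne_zero γ')).2 ((hTtsome γ' Q).1 hj)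
        have h3 : Q.adicValuation (algebraMap k Ft (γ' - γ)) < 1 := by
          have : algebraMap k Ft (γ' - γ)
              = (red x - algebraMap k Ft γ) - (red x - algebraMap k Ft γ') := by
            rw [map_sub]; ring
          rw [this]
          exact Q.adicValuation.map_sub_lt h1 h2
        rw [adicValuation_algebraMap_eq_one Q hne'] at h3
        exact lt_irrefl _ h3
      | none => exact (aux γ hi hj).elim
    | none =>
      cases j with
      | some γ' => exact (aux γ' hj hi).elim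
      | none => rfl
  obtain ⟨r, hr1, hr2⟩ := exists_global_reduction A π Ow red T Tt hT hTdisj hTtcov hTtdisj htube
  refine ⟨r, fun P γ hP => ?_, fun P hP => ?_, hr2⟩
  · exact (hTtsome γ (r P)).1 (hr1 (some γ) P hP)
  · exact (hTtnone (r P)).1 (hr1 none P hP)

end Chart

end Fermat.Agent.Lib.Red.PlaceRed
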