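import Mathlib
import Fermat.Prelude.Def_AlgebraicCurve_DivisorPushPull
import Fermat.Agent.Lib.Red.PlaceRedChart

/-!
# Places of a rational function field and the norm formula on a fibre

* `P1`: for a field `K₀ = K(z)` (every element a quotient of polynomials in the transcendental
  `z`), the place at `z = c` is unique, `z - c` is a uniformiser there and
  `ord (p(z)) = rootMultiplicity c p`.
* `fiber_sum_eq`: for `E / K₀` with the norm formula, the orders of `y ∈ E` at the places of `E`
  over `z = c` add up to `rootMultiplicity c q - rootMultiplicity c r`, where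
  `N_{E/K₀}(y) = q(z)/r(z)`.
-/

set_option autoImplicit false

noncomputable section

namespace Fermat.Agent.Lib.Red.NormFiber

open AlgebraicCurve WithZero Polynomial
open Fermat.Agent.S24 Fermat.Agent.Lib.Red.PlaceRed

section P1

variable {K K₀ : Type*} [Field K] [Field K₀] [Algebra K K₀]

/-- The trivial valuation ring of `K`, used to express "`f ≡ c` modulo the maximal ideal". -/
abbrev triv (K : Type*) [Field K] : ValuationSubring K := ⊤

/-- `f ≡ c` modulo the maximal ideal of `v`. -/
abbrev Ev (v : Place K K₀) (f : K₀) (c : K) : Prop :=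
  EvK (triv K) (triv K).subtype v f c

theorem ev_iff (v : Place K K₀) (f : K₀) (c : K) :
    Ev v f c ↔ v.adicValuation (f - algebraMap K K₀ c) < 1 := by
  constructor
  · rintro ⟨a, rfl, ha⟩
    exact ha
  · intro h
    exact ⟨⟨c, trivial⟩, rfl, h⟩

theorem ev_of_ord_pos (v : Place K K₀) {f : K₀} {c : K}
    (h : 0 < v.ord (f - algebraMap K K₀ c)) : Ev v f c := by
  rw [ev_iff]
  have hne : f - algebraMap K K₀ c ≠ 0 := by
    intro h0
    rw [h0, Place.ord_zero] at h
    exact lt_irrefl _ h
  exact (adicValuation_lt_one_iff v hne).2 h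

theorem ev_aeval (v : Place K K₀) {z : K₀} {c : K} (h : Ev v z c) (p : K[X]) :
    Ev v (aeval z p) (p.eval c) := by
  induction p using Polynomial.induction_on' with
  | add p q hp hq =>
    rw [map_add, eval_add]
    exact hp.add hq
  | monomial n a =>
    rw [aeval_monomial, eval_monomial]
    exact (EvK.const (A := triv K) (π := (triv K).subtype) v ⟨a, trivial⟩).mul (h.pow n)

variable (z : K₀)

/-- A polynomial in `z` not vanishing at `c` is a unit at the place `z = c`. -/
theorem ord_aeval_eq_zero (v : Place K K₀) (c : K) (hv : 0 < v.ord (z - algebraMap K K₀ c))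
    (p : K[X]) (hp : p.eval c ≠ 0) : aeval z p ≠ 0 ∧ v.ord (aeval z p) = 0 := by
  have h1 := (ev_aeval v (ev_of_ord_pos v hv) p).adicValuation_eq_one hp
  have hne : aeval z p ≠ 0 := by
    intro h0
    rw [h0, map_zero] at h1
    exact zero_ne_one h1
  exact ⟨hne, (adicValuation_eq_one_iff v hne).1 h1⟩

/-- The order at the place `z = c` of a polynomial in `z`. -/
theorem ord_aeval (v : Place K K₀) (c : K) (hv : 0 < v.ord (z - algebraMap K K₀ c))
    (p : K[X]) (hp : p ≠ 0) :
    aeval z p ≠ 0 ∧
      v.ord (aeval z p) = (p.rootMultiplicity c : ℤ) * v.ord (z - algebraMap K K₀ c) := by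
  obtain ⟨q, hpq, hq⟩ := exists_eq_pow_rootMultiplicity_mul_and_not_dvd p hp c
  have hqc : q.eval c ≠ 0 := fun h0 => hq (dvd_iff_isRoot.2 h0)
  obtain ⟨hq0, hqord⟩ := ord_aeval_eq_zero z v c hv q hqc
  have hzc : z - algebraMap K K₀ c ≠ 0 := by
    intro h0
    rw [h0, Place.ord_zero] at hv
    exact lt_irrefl _ hv
  have e : aeval z p = (z - algebraMap K K₀ c) ^ p.rootMultiplicity c * aeval z q := by
    conv_lhs => rw [hpq]
    rw [map_mul, map_pow, map_sub, aeval_X, aeval_C]
  refine ⟨?_, ?_⟩
  · rw [e]
    exact mul_ne_zero (pow_ne_zero _ hzc) hq0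
  · rw [e, v.ord_mul (pow_ne_zero _ hzc) hq0, ord_pow, hqord, add_zero]

/-- The order at the place `z = c` of a quotient of polynomials in `z`. -/
theorem ord_div (v : Place K K₀) (c : K) (hv : 0 < v.ord (z - algebraMap K K₀ c))
    (r s : K[X]) (hr : r ≠ 0) (hs : s ≠ 0) :
    v.ord (aeval z r / aeval z s) =
      ((r.rootMultiplicity c : ℤ) - s.rootMultiplicity c) * v.ord (z - algebraMap K K₀ c) := by
  obtain ⟨hr0, hrord⟩ := ord_aeval z v c hv r hr
  obtain ⟨hs0, hsord⟩ := ord_aeval z v c hv s hs
  rw [div_eq_mul_inv, v.ord_mul hr0 (inv_ne_zero hs0), v.ord_inv, hrord, hsord]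
  ring

variable {z}

/-- The sign of the order of `f ∈ K(z)` at a place over `z = c` does not depend on the place. -/
theorem ord_nonneg_iff (hgen : ∀ f : K₀, ∃ r s : K[X], f = aeval z r / aeval z s)
    (v v' : Place K K₀) (c : K) (hv : 0 < v.ord (z - algebraMap K K₀ c))
    (hv' : 0 < v'.ord (z - algebraMap K K₀ c)) (f : K₀) (hf : 0 ≤ v.ord f) : 0 ≤ v'.ord f := by
  obtain ⟨r, s, rfl⟩ := hgen f
  by_cases hr : r = 0
  · rw [hr, map_zero, zero_div, Place.ord_zero]
  by_cases hs : s = 0
  · rw [hs, map_zero, div_zero, Place.ord_zero]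
  rw [ord_div z v c hv r s hr hs] at hf
  rw [ord_div z v' c hv' r s hr hs]
  have h1 : 0 ≤ (r.rootMultiplicity c : ℤ) - s.rootMultiplicity c := by
    by_contra hneg
    push Not at hneg
    nlinarith
  exact mul_nonneg h1 hv'.le

/-- **Uniqueness of the place `z = c` of `K(z)`.** -/
theorem place_unique (hgen : ∀ f : K₀, ∃ r s : K[X], f = aeval z r / aeval z s)
    (v v' : Place K K₀) (c : K) (hv : 0 < v.ord (z - algebraMap K K₀ c))
    (hv' : 0 < v'.ord (z - algebraMap K K₀ c)) : v = v' :=
  place_eq_of_ord fun f hf => ord_nonneg_iff hgen v v' c hv hv' f hf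

/-- `z - c` is a uniformiser at the place `z = c` of `K(z)`. -/
theorem ord_sub_eq_one (hgen : ∀ f : K₀, ∃ r s : K[X], f = aeval z r / aeval z s)
    (v : Place K K₀) (c : K) (hv : 0 < v.ord (z - algebraMap K K₀ c)) :
    v.ord (z - algebraMap K K₀ c) = 1 := by
  obtain ⟨ϖ, hϖ⟩ := IsDiscreteValuationRing.exists_irreducible v.toValuationSubring
  have h1 : v.ord (ϖ : K₀) = 1 := v.ord_coe_irreducible hϖ
  obtain ⟨r, s, hrs⟩ := hgen (ϖ : K₀)
  have hr : r ≠ 0 := by
    rintro rfl
    rw [hrs, map_zero, zero_div, Place.ord_zero] at h1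
    exact zero_ne_one h1
  have hs : s ≠ 0 := by
    rintro rfl
    rw [hrs, map_zero, div_zero, Place.ord_zero] at h1
    exact zero_ne_one h1
  rw [hrs, ord_div z v c hv r s hr hs] at h1
  exact Int.eq_one_of_dvd_one hv.le ⟨_, by rw [mul_comm]; exact h1.symm⟩

end P1

section Fiber

variable {K F E : Type*} [Field K] [Field F] [Field E] [Algebra K F] [Algebra K E] [Algebra F E]
  [IsScalarTower K F E] [Algebra.IsIntegral F E] {z : F}

/-- The order of `z - c` at a place of `E`, in terms of its restriction to `F`. -/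
theorem ord_restrict_sub (w : Place K E) (c : K) :
    w.ord (algebraMap F E z - algebraMap K E c) =
      (w.ramificationIndex F : ℤ) * (w.restrict F).ord (z - algebraMap K F c) := by
  rw [← w.ord_restrict (F := F), map_sub, ← IsScalarTower.algebraMap_apply]

theorem ord_restrict_sub_pos_iff (w : Place K E) (c : K) :
    0 < w.ord (algebraMap F E z - algebraMap K E c) ↔
      0 < (w.restrict F).ord (z - algebraMap K F c) := by
  rw [ord_restrict_sub]
  have he : (0 : ℤ) < (w.ramificationIndex F : ℤ) := by
    exact_mod_cast w.ramificationIndex_pos (F := F)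
  constructor
  · intro h
    by_contra hneg
    push Not at hneg
    nlinarith
  · intro h
    exact mul_pos he h

/-- **The fibre over the place `z = c` of `F = K(z)`** consists of the places of `E` at which
`z - c` vanishes. -/
theorem restrict_eq_iff (hgen : ∀ f : F, ∃ r s : K[X], f = aeval z r / aeval z s)
    (v : Place K F) (c : K) (hv : 0 < v.ord (z - algebraMap K F c)) (w : Place K E) :
    w.restrict F = v ↔ 0 < w.ord (algebraMap F E z - algebraMap K E c) := by
  rw [ord_restrict_sub_pos_iff]
  constructor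
  · rintro rfl
    exact hv
  · intro h
    exact place_unique hgen _ _ c h hv

variable [HasPrincipalDivisors K E]

/-- **Sum of the orders over a fibre.** If the norm formula holds at the place `z = c` of
`F = K(z)` and `N_{E/F}(y) = q(z)/r(z)`, then the orders of `y` at the places of `E` with
`z = c` add up to `rootMultiplicity c q - rootMultiplicity c r`. -/
theorem fiber_sum_eq (hgen : ∀ f : F, ∃ r s : K[X], f = aeval z r / aeval z s)
    (c : K) (P₀ : Place K E) (hP₀ : 0 < P₀.ord (algebraMap F E z - algebraMap K E c))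
    (y : E)
    (hnorm : (P₀.restrict F).ord (Algebra.norm F y) = ∑ w ∈ (P₀.restrict F).fiber E, w.ord y)
    (q r : K[X]) (hq : q ≠ 0) (hr : r ≠ 0)
    (hN : algebraMap F E (Algebra.norm F y) =
      aeval (algebraMap F E z) q / aeval (algebraMap F E z) r)
    (s : Finset (Place K E))
    (hs : ∀ P, P ∈ s ↔ 0 < P.ord (algebraMap F E z - algebraMap K E c) ∧ P.ord y ≠ 0) :
    ∑ P ∈ s, P.ord y = (q.rootMultiplicity c : ℤ) - r.rootMultiplicity c := by
  set v := P₀.restrict F with hvdef
  have hv : 0 < v.ord (z - algebraMap K F c) := (ord_restrict_sub_pos_iff P₀ c).1 hP₀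
  have hN' : Algebra.norm F y = aeval z q / aeval z r := by
    apply (algebraMap F E).injective
    rw [hN, map_div₀, aeval_algebraMap_apply, aeval_algebraMap_apply]
  have h1 : v.ord (Algebra.norm F y) = (q.rootMultiplicity c : ℤ) - r.rootMultiplicity c := by
    rw [hN', ord_div z v c hv q r hq hr, ord_sub_eq_one hgen v c hv, mul_one]
  rw [← h1, hnorm]
  refine Finset.sum_subset ?_ ?_
  · intro P hP
    rw [Place.mem_fiber, restrict_eq_iff hgen v c hv]
    exact ((hs P).1 hP).1
  · intro P hP hPs
    rw [Place.mem_fiber, restrict_eq_iff hgen v c hv] at hP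
    by_contra h0
    exact hPs ((hs P).2 ⟨hP, h0⟩)

end Fiber

end Fermat.Agent.Lib.Red.NormFiber
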