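import Mathlib
import Fermat.Agent.Lib.Red.NormFiber
import Fermat.Agent.Lib.Red.DiscRoots

/-!
# Conservation on a residue disc from the norm formula

The field `cons` of `PlaceRed.IsChart`: for `y` in the Gauss ring with nonzero reduction, the
orders of `y` at the places of `F` in the residue disc `z ≡ γ` add up to the sum of the orders of
the reduction of `y` at the places `z̄ = γ`.

* `cons_of_fiber` : the combinatorial core.  If the sum of the orders of `y` over `z = a`
  (`a ∈ A`) is `mult_a(p) - mult_a(q)`, and the sum of the orders of `ȳ` over `z̄ = γ` is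
  `mult_γ(p̄) - mult_γ(q̄)` for some `p, q ∈ A[X]` with nonzero reductions, the two sums agree
  (the roots of `p` in the disc of `γ`, with multiplicity, are as many as `mult_γ(p̄)`).
* `cons_of_norm` : the same from the norm formulas on both sides and
  `N(y) = p(z)/q(z)`, `N(ȳ) = p̄(z̄)/q̄(z̄)`.
-/

set_option autoImplicit false

noncomputable section

namespace Fermat.Agent.Lib.Red.PlaceRedCons

open AlgebraicCurve WithZero Polynomial
open Fermat.Agent.S24 Fermat.Agent.Lib.Red.PlaceRed Fermat.Agent.Lib.Red.NormFiber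

variable {L F k Ft : Type*} [Field L] [Field F] [Algebra L F] [Field k] [Field Ft] [Algebra k Ft]
  {A : ValuationSubring L} {π : A →+* k}

/-- Sum over a finite set of the root multiplicities of `g` at the points of the residue disc of
`γ`, when the set contains all the roots of `g` in the disc. -/
theorem sum_rootMultiplicity_disc [IsAlgClosed L] (hπ : Function.Surjective π) (g : A[X])
    (hg : g.map π ≠ 0) (γ : k) (U : Finset L)
    (hU : ∀ c ∈ U, ∃ a : A, (a : L) = c ∧ π a = γ)
    (hroots : ∀ a : A, π a = γ → (g.map A.subtype).IsRoot (a : L) → (a : L) ∈ U) :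
    ∑ c ∈ U, ((g.map A.subtype).rootMultiplicity c : ℤ) = ((g.map π).rootMultiplicity γ : ℤ) := by
  classical
  have hg0 : g.map A.subtype ≠ 0 := by
    intro h0
    apply hg
    have hg' : g = 0 := by
      apply Polynomial.map_injective A.subtype A.subtype_injective
      rw [h0, Polynomial.map_zero]
    rw [hg', Polynomial.map_zero]
  have key := DiscRoots.card_filter_roots_eq_rootMultiplicity (L := L) π hπ g hg γ
  set M : Multiset L := (g.map (algebraMap A L)).roots.filter
    (fun c => ∃ a : A, algebraMap A L a = c ∧ π a = γ) with hM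
  have hMU : M.toFinset ⊆ U := by
    intro c hc
    rw [Multiset.mem_toFinset, hM, Multiset.mem_filter] at hc
    obtain ⟨hc1, a, rfl, ha⟩ := hc
    exact hroots a ha (Polynomial.isRoot_of_mem_roots hc1)
  have hcount : ∀ c ∈ U, ((g.map A.subtype).rootMultiplicity c : ℤ) = (M.count c : ℤ) := by
    intro c hc
    have h' : (fun c => ∃ a : A, algebraMap A L a = c ∧ π a = γ) c := hU c hc
    rw [hM, Multiset.count_filter_of_pos (p := fun c => ∃ a : A, algebraMap A L a = c ∧ π a = γ) h',
      Polynomial.count_roots]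
    rfl
  rw [Finset.sum_congr rfl hcount, ← key, ← Multiset.toFinset_sum_count_eq M]
  push_cast
  symm
  refine Finset.sum_subset hMU ?_
  intro c _ hc
  rw [Multiset.mem_toFinset] at hc
  rw [Multiset.count_eq_zero_of_notMem hc]
  rfl

/-- **Conservation on a residue disc (combinatorial core).** -/
theorem cons_of_fiber [IsAlgClosed L] (hπ : Function.Surjective π) (z : F)
    (hz : ∀ c : L, z ≠ algebraMap L F c) (zt : Ft) (y : F) (yt : Ft)
    (p q : A[X]) (hp : p.map π ≠ 0) (hq : q.map π ≠ 0)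
    (hL : ∀ (a : A) (s : Finset (Place L F)),
      (∀ P, P ∈ s ↔ 0 < P.ord (z - algebraMap L F (a : L)) ∧ P.ord y ≠ 0) →
        ∑ P ∈ s, P.ord y = ((p.map A.subtype).rootMultiplicity (a : L) : ℤ)
          - (q.map A.subtype).rootMultiplicity (a : L))
    (hk : ∀ (γ : k) (t : Finset (Place k Ft)),
      (∀ Q, Q ∈ t ↔ 0 < Q.ord (zt - algebraMap k Ft γ) ∧ Q.ord yt ≠ 0) →
        ∑ Q ∈ t, Q.ord yt = ((p.map π).rootMultiplicity γ : ℤ) - (q.map π).rootMultiplicity γ)
    (γ : k) (s : Finset (Place L F)) (Tt : Finset (Place k Ft))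
    (hs : ∀ P, P ∈ s ↔ EvK A π P z γ ∧ P.ord y ≠ 0)
    (hTt : ∀ Q, Q ∈ Tt ↔ 0 < Q.ord (zt - algebraMap k Ft γ)) :
    ∑ P ∈ s, P.ord y = ∑ Q ∈ Tt, Q.ord yt := by
  classical
  -- right-hand side
  have hR : ∑ Q ∈ Tt, Q.ord yt
      = ((p.map π).rootMultiplicity γ : ℤ) - (q.map π).rootMultiplicity γ := by
    rw [← hk γ (Tt.filter fun Q => Q.ord yt ≠ 0) (fun Q => by rw [Finset.mem_filter, hTt])]
    exact (Finset.sum_filter_of_ne (fun Q _ h => h)).symm
  rw [hR]
  -- the value of `z` at the places of `s`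
  have hval : ∀ P ∈ s, ∃ a : A, π a = γ ∧ 0 < P.ord (z - algebraMap L F (a : L)) := by
    intro P hP
    obtain ⟨a, ha, hlt⟩ := ((hs P).1 hP).1
    exact ⟨a, ha, (adicValuation_lt_one_iff P (sub_ne_zero.2 (hz a))).1 hlt⟩
  choose! cv hcv1 hcv2 using hval
  have huniq : ∀ (P : Place L F) (a b : A), 0 < P.ord (z - algebraMap L F (a : L)) →
      0 < P.ord (z - algebraMap L F (b : L)) → a = b := by
    intro P a b ha hb
    have h1 := ev_of_ord_pos P ha
    have h2 := ev_of_ord_pos P hb
    exact Subtype.ext (h1.unique h2)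
  -- the finite set of values
  set U : Finset L := s.image (fun P => ((cv P : A) : L)) ∪
    (((p.map A.subtype).roots + (q.map A.subtype).roots).toFinset.filter
      (fun c => ∃ a : A, (a : L) = c ∧ π a = γ)) with hU
  have hUdisc : ∀ c ∈ U, ∃ a : A, (a : L) = c ∧ π a = γ := by
    intro c hc
    rw [hU, Finset.mem_union] at hc
    rcases hc with hc | hc
    · obtain ⟨P, hP, rfl⟩ := Finset.mem_image.1 hc
      exact ⟨cv P, rfl, hcv1 P hP⟩
    · exact (Finset.mem_filter.1 hc).2
  have hp0 : p.map A.subtype ≠ 0 := by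
    intro h0
    apply hp
    have hp' : p = 0 := by
      apply Polynomial.map_injective A.subtype A.subtype_injective
      rw [h0, Polynomial.map_zero]
    rw [hp', Polynomial.map_zero]
  have hq0 : q.map A.subtype ≠ 0 := by
    intro h0
    apply hq
    have hq' : q = 0 := by
      apply Polynomial.map_injective A.subtype A.subtype_injective
      rw [h0, Polynomial.map_zero]
    rw [hq', Polynomial.map_zero]
  have hUp : ∀ a : A, π a = γ → (p.map A.subtype).IsRoot (a : L) → (a : L) ∈ U := by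
    intro a ha hroot
    rw [hU, Finset.mem_union]
    right
    rw [Finset.mem_filter, Multiset.mem_toFinset, Multiset.mem_add]
    exact ⟨Or.inl ((Polynomial.mem_roots hp0).2 hroot), a, rfl, ha⟩
  have hUq : ∀ a : A, π a = γ → (q.map A.subtype).IsRoot (a : L) → (a : L) ∈ U := by
    intro a ha hroot
    rw [hU, Finset.mem_union]
    right
    rw [Finset.mem_filter, Multiset.mem_toFinset, Multiset.mem_add]
    exact ⟨Or.inr ((Polynomial.mem_roots hq0).2 hroot), a, rfl, ha⟩
  -- group the sum by the value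
  have hmaps : ∀ P ∈ s, ((cv P : A) : L) ∈ U := by
    intro P hP
    rw [hU, Finset.mem_union]
    left
    exact Finset.mem_image.2 ⟨P, hP, rfl⟩
  rw [← Finset.sum_fiberwise_of_maps_to hmaps (fun P => P.ord y)]
  have hfib : ∀ c ∈ U, ∑ P ∈ s with ((cv P : A) : L) = c, P.ord y
      = ((p.map A.subtype).rootMultiplicity c : ℤ) - (q.map A.subtype).rootMultiplicity c := by
    intro c hc
    obtain ⟨a, rfl, ha⟩ := hUdisc c hc
    refine hL a _ fun P => ?_
    rw [Finset.mem_filter]
    constructor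
    · rintro ⟨hP, hPa⟩
      have : cv P = a := Subtype.ext hPa
      rw [← this]
      exact ⟨hcv2 P hP, ((hs P).1 hP).2⟩
    · rintro ⟨hPa, hPy⟩
      have hP : P ∈ s := (hs P).2
        ⟨⟨a, ha, (adicValuation_lt_one_iff P (sub_ne_zero.2 (hz a))).2 hPa⟩, hPy⟩
      exact ⟨hP, congrArg Subtype.val (huniq P (cv P) a (hcv2 P hP) hPa)⟩
  rw [Finset.sum_congr rfl hfib, Finset.sum_sub_distrib,
    sum_rootMultiplicity_disc hπ p hp γ U hUdisc hUp,
    sum_rootMultiplicity_disc hπ q hq γ U hUdisc hUq]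

/-- **Conservation on a residue disc from the norm formula.**  `K₀ = L(z)`, `K₀t = k(z̄)`; if
`N_{F/K₀}(y) = p(z)/q(z)` and `N_{Ft/K₀t}(ȳ) = p̄(z̄)/q̄(z̄)` with `p, q ∈ A[X]` of nonzero
reduction, and the norm formula holds on both sides, then the orders of `y` on the residue disc
`z ≡ γ` add up to the sum of the orders of `ȳ` over `z̄ = γ`. -/
theorem cons_of_norm [IsAlgClosed L]
    {K₀ K₀t : Type*} [Field K₀] [Algebra L K₀] [Algebra K₀ F] [IsScalarTower L K₀ F]
    [Algebra.IsIntegral K₀ F] [Field K₀t] [Algebra k K₀t] [Algebra K₀t Ft] [IsScalarTower k K₀t Ft]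
    [Algebra.IsIntegral K₀t Ft] [HasPrincipalDivisors L F] [HasPrincipalDivisors k Ft]
    (hπ : Function.Surjective π) (z₀ : K₀) (zt₀ : K₀t)
    (hz : ∀ c : L, algebraMap K₀ F z₀ ≠ algebraMap L F c)
    (hgen : ∀ f : K₀, ∃ r s : L[X], f = aeval z₀ r / aeval z₀ s)
    (hgen_t : ∀ f : K₀t, ∃ r s : k[X], f = aeval zt₀ r / aeval zt₀ s)
    (hex : ∀ a : A, ∃ P : Place L F, 0 < P.ord (algebraMap K₀ F z₀ - algebraMap L F (a : L)))
    (hex_t : ∀ γ : k, ∃ Q : Place k Ft, 0 < Q.ord (algebraMap K₀t Ft zt₀ - algebraMap k Ft γ))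
    (y : F) (yt : Ft)
    (hnorm : ∀ P₀ : Place L F, (P₀.restrict K₀).ord (Algebra.norm K₀ y)
      = ∑ w ∈ (P₀.restrict K₀).fiber F, w.ord y)
    (hnorm_t : ∀ Q₀ : Place k Ft, (Q₀.restrict K₀t).ord (Algebra.norm K₀t yt)
      = ∑ w ∈ (Q₀.restrict K₀t).fiber Ft, w.ord yt)
    (p q : A[X]) (hp : p.map π ≠ 0) (hq : q.map π ≠ 0)
    (hN : algebraMap K₀ F (Algebra.norm K₀ y) =
      aeval (algebraMap K₀ F z₀) (p.map A.subtype) / aeval (algebraMap K₀ F z₀) (q.map A.subtype))
    (hNt : algebraMap K₀t Ft (Algebra.norm K₀t yt) =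
      aeval (algebraMap K₀t Ft zt₀) (p.map π) / aeval (algebraMap K₀t Ft zt₀) (q.map π))
    (γ : k) (s : Finset (Place L F)) (Tt : Finset (Place k Ft))
    (hs : ∀ P, P ∈ s ↔ EvK A π P (algebraMap K₀ F z₀) γ ∧ P.ord y ≠ 0)
    (hTt : ∀ Q, Q ∈ Tt ↔ 0 < Q.ord (algebraMap K₀t Ft zt₀ - algebraMap k Ft γ)) :
    ∑ P ∈ s, P.ord y = ∑ Q ∈ Tt, Q.ord yt := by
  have hp0 : p.map A.subtype ≠ 0 := by
    intro h0
    apply hp
    have hp' : p = 0 := by
      apply Polynomial.map_injective A.subtype A.subtype_injective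
      rw [h0, Polynomial.map_zero]
    rw [hp', Polynomial.map_zero]
  have hq0 : q.map A.subtype ≠ 0 := by
    intro h0
    apply hq
    have hq' : q = 0 := by
      apply Polynomial.map_injective A.subtype A.subtype_injective
      rw [h0, Polynomial.map_zero]
    rw [hq', Polynomial.map_zero]
  refine cons_of_fiber hπ (algebraMap K₀ F z₀) hz (algebraMap K₀t Ft zt₀) y yt p q hp hq
    ?_ ?_ γ s Tt hs hTt
  · intro a s' hs'
    obtain ⟨P₀, hP₀⟩ := hex a
    exact fiber_sum_eq hgen (a : L) P₀ hP₀ y (hnorm P₀) _ _ hp0 hq0 hN s' hs'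
  · intro γ' t ht
    obtain ⟨Q₀, hQ₀⟩ := hex_t γ'
    exact fiber_sum_eq hgen_t γ' Q₀ hQ₀ yt (hnorm_t Q₀) _ _ hp hq hNt t ht

end Fermat.Agent.Lib.Red.PlaceRedCons
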