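import Mathlib
import Fermat.Agent.Lib.Red.PlaceRedCons
import Fermat.Agent.Lib.Red.NormPlace
import Fermat.Agent.Lib.Red.Chart
import Fermat.Agent.Lib.Red.Ortho

/-!
# Conservation on a residue disc from a good basis

Abstract setting of the Gauss valuation: `F/L`, `Ft/k` function fields, `A ⊆ L` a valuation ring
with residue map `π`, `O ⊆ F` a valuation ring with residue map `red : O → Ft`, subfields
`F₀ = L(x) ⊆ F`, `E₀ = k(x̄) ⊆ Ft` with a good basis (`Ortho.GoodBasis`), so that norms of
elements of `O` lie in `O₀` and reduce to the norms of the reductions.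

* `NormData z` : for every `y ∈ O` with nonzero reduction, `N(y) = p(z)/q(z)` and
  `N(ȳ) = p̄(z̄)/q̄(z̄)` with `p, q ∈ A[X]` of nonzero reduction;
* `normData_of_goodBasis` : `NormData x` for the base function `x`;
* `NormData.inv` : `NormData x → NormData x⁻¹` (the chart at infinity);
* `cons_of_normData` : the field `cons` of `PlaceRed.IsChart` (conservation on the residue disc
  `z ≡ γ`), from `NormData z` and the norm formula on both sides (separable extensions, all
  places of degree one).
-/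

set_option autoImplicit false

noncomputable section

namespace Fermat.Agent.Lib.Red.PlaceRedNorm

open AlgebraicCurve Polynomial
open Fermat.Agent.S24 Fermat.Agent.Lib.Red.PlaceRed

section Reflect

variable {L F : Type*} [Field L] [Field F] [Algebra L F]

theorem aeval_eq_reflect (z : F) (hz : z ≠ 0) (M : ℕ) (p : L[X]) (hp : p.natDegree ≤ M) :
    aeval z p = aeval z⁻¹ (p.reflect M) * z ^ M := by
  let _ : Invertible z := invertibleOfNonzero hz
  have h := Polynomial.eval₂_reflect_mul_pow (algebraMap L F) z M p hp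
  rw [invOf_eq_inv] at h
  rw [aeval_def, aeval_def, h]

theorem aeval_div_reflect (z : F) (hz : z ≠ 0) (M : ℕ) (p q : L[X]) (hp : p.natDegree ≤ M)
    (hq : q.natDegree ≤ M) :
    aeval z p / aeval z q = aeval z⁻¹ (p.reflect M) / aeval z⁻¹ (q.reflect M) := by
  rw [aeval_eq_reflect z hz M p hp, aeval_eq_reflect z hz M q hq,
    mul_div_mul_right _ _ (pow_ne_zero M hz)]

/-- If every element of a field is a quotient of polynomials in `z`, the same holds for
`z⁻¹`. -/
theorem gen_inv {z : F} (hz : z ≠ 0) (hgen : ∀ f : F, ∃ r s : L[X], f = aeval z r / aeval z s)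
    (f : F) : ∃ r s : L[X], f = aeval z⁻¹ r / aeval z⁻¹ s := by
  obtain ⟨r, s, rfl⟩ := hgen f
  exact ⟨r.reflect (max r.natDegree s.natDegree), s.reflect (max r.natDegree s.natDegree),
    aeval_div_reflect z hz _ r s (le_max_left _ _) (le_max_right _ _)⟩

end Reflect

section Norm

variable {L F k Ft : Type*} [Field L] [Field F] [Algebra L F] [Field k] [Field Ft] [Algebra k Ft]
variable {A : ValuationSubring L} {π : A →+* k} {O : ValuationSubring F} {red : O →+* Ft}

/-- An element of `O` with nonzero reduction which is a quotient of polynomials in `x` is a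
quotient of polynomials over `A` with nonzero reductions, and its reduction is the quotient of
the reduced polynomials. -/
theorem exists_quot (hR : Chart.RedData A π O red)
    (hAO : ∀ c : L, algebraMap L F c ∈ O → c ∈ A)
    (hunit : ∀ u : O, red u ≠ 0 → IsUnit u) (x : O) (htr : Transcendental k (red x))
    (g : O) (hg : red g ≠ 0) (r s : L[X])
    (hgrs : (g : F) = aeval (x : F) r / aeval (x : F) s) :
    ∃ p q : A[X], p.map π ≠ 0 ∧ q.map π ≠ 0 ∧
      (g : F) = aeval (x : F) (p.map A.subtype) / aeval (x : F) (q.map A.subtype) ∧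
      red g = aeval (red x) (p.map π) / aeval (red x) (q.map π) := by
  have hg0 : (g : F) ≠ 0 := fun h => hg (by rw [show g = 0 from Subtype.ext h, map_zero])
  have hr0 : r ≠ 0 := by
    rintro rfl
    rw [map_zero, zero_div] at hgrs
    exact hg0 hgrs
  have hs0 : s ≠ 0 := by
    rintro rfl
    rw [map_zero, div_zero] at hgrs
    exact hg0 hgrs
  obtain ⟨a, P, ha, ⟨n, hPn⟩, hr⟩ := Orth.exists_prim A r hr0
  obtain ⟨b, Q, hb, ⟨m, hQm⟩, hs⟩ := Orth.exists_prim A s hs0
  have hPπ : P.map π ≠ 0 := by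
    intro h0
    have h1 : (P.map π).coeff n = 0 := by rw [h0, coeff_zero]
    rw [coeff_map] at h1
    exact (hPn.map π).ne_zero h1
  have hQπ : Q.map π ≠ 0 := by
    intro h0
    have h1 : (Q.map π).coeff m = 0 := by rw [h0, coeff_zero]
    rw [coeff_map] at h1
    exact (hQm.map π).ne_zero h1
  set eP : O := hR.evalO x.2 P with heP'
  set eQ : O := hR.evalO x.2 Q with heQ'
  have heP : (eP : F) = aeval (x : F) (P.map A.subtype) := hR.coe_evalO x.2 P
  have heQ : (eQ : F) = aeval (x : F) (Q.map A.subtype) := hR.coe_evalO x.2 Q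
  have hredP : red eP = aeval (red x) (P.map π) := hR.red_evalO x.2 P
  have hredQ : red eQ = aeval (red x) (Q.map π) := hR.red_evalO x.2 Q
  have hredP0 : red eP ≠ 0 := by
    rw [hredP]
    exact fun h => hPπ ((transcendental_iff.1 htr) _ h)
  have hredQ0 : red eQ ≠ 0 := by
    rw [hredQ]
    exact fun h => hQπ ((transcendental_iff.1 htr) _ h)
  have hP0 : (eP : F) ≠ 0 := fun h => hredP0 (by rw [show eP = 0 from Subtype.ext h, map_zero])
  have hQ0 : (eQ : F) ≠ 0 := fun h => hredQ0 (by rw [show eQ = 0 from Subtype.ext h, map_zero])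
  obtain ⟨w, hw⟩ := (hunit eP hredP0).exists_right_inv
  have hwF : (w : F) = (eP : F)⁻¹ := eq_inv_of_mul_eq_one_right (congrArg Subtype.val hw)
  have hbF : algebraMap L F b ≠ 0 := by simpa using hb
  have hgeq : (g : F) * (eQ : F) = algebraMap L F (a / b) * (eP : F) := by
    rw [hgrs, hr, hs, map_mul, map_mul, aeval_C, aeval_C, ← heP, ← heQ, map_div₀]
    field_simp
  have hc : algebraMap L F (a / b) = (g : F) * (eQ : F) * (w : F) := by
    rw [hgeq, hwF, mul_assoc, mul_inv_cancel₀ hP0, mul_one]
  have hcO : algebraMap L F (a / b) ∈ O := by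
    rw [hc]
    exact mul_mem (mul_mem g.2 eQ.2) w.2
  set cA : A := ⟨a / b, hAO _ hcO⟩ with hcA
  have hrel : g * eQ = hR.const cA * eP := Subtype.ext hgeq
  have hredrel : red g * red eQ = algebraMap k Ft (π cA) * red eP := by
    rw [← map_mul, hrel, map_mul, hR.red_const]
  have hπc : π cA ≠ 0 := by
    intro h0
    rw [h0, map_zero, zero_mul] at hredrel
    exact (mul_ne_zero hg hredQ0) hredrel
  refine ⟨C cA * P, Q, ?_, hQπ, ?_, ?_⟩
  · rw [Polynomial.map_mul, Polynomial.map_C]
    exact mul_ne_zero (C_ne_zero.2 hπc) hPπ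
  · rw [Polynomial.map_mul, Polynomial.map_C, map_mul, aeval_C, ← heP, ← heQ, eq_div_iff hQ0]
    exact hgeq
  · rw [Polynomial.map_mul, Polynomial.map_C, map_mul, aeval_C, ← hredP, ← hredQ,
      eq_div_iff hredQ0]
    exact hredrel

variable {F₀ E₀ : Type*} [Field F₀] [Field E₀] [Algebra F₀ F] [Algebra E₀ Ft]

variable (A π red F₀ E₀) in
/-- **Norm data for the chart coordinate `z`**: the norm of every `y ∈ O` with nonzero reduction
is `p(z)/q(z)` with `p, q ∈ A[X]` of nonzero reduction, and the norm of the reduction of `y` is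
`p̄(z̄)/q̄(z̄)`. -/
def NormData (z : O) : Prop :=
  ∀ y : O, red y ≠ 0 → ∃ p q : A[X], p.map π ≠ 0 ∧ q.map π ≠ 0 ∧
    algebraMap F₀ F (Algebra.norm F₀ (y : F)) =
      aeval (z : F) (p.map A.subtype) / aeval (z : F) (q.map A.subtype) ∧
    algebraMap E₀ Ft (Algebra.norm E₀ (red y)) =
      aeval (red z) (p.map π) / aeval (red z) (q.map π)

/-- Norm data for the base function, from a good basis. -/
theorem normData_of_goodBasis {O₀ : ValuationSubring F₀} {red₀ : O₀ →+* E₀} {ι : Type*}
    [Fintype ι] (G : Ortho.GoodBasis O red O₀ red₀ ι) (hR : Chart.RedData A π O red)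
    (hAO : ∀ c : L, algebraMap L F c ∈ O → c ∈ A)
    (hunit : ∀ u : O, red u ≠ 0 → IsUnit u) (x : O) (htr : Transcendental k (red x))
    (hgen : ∀ f : F₀, ∃ r s : L[X], algebraMap F₀ F f = aeval (x : F) r / aeval (x : F) s) :
    NormData A π red F₀ E₀ x := by
  classical
  intro y hy
  have hmem : algebraMap F₀ F (Algebra.norm F₀ (y : F)) ∈ O :=
    (G.compat.mem_iff _).1 (G.norm_mem y)
  have hred : red ⟨_, hmem⟩ = algebraMap E₀ Ft (Algebra.norm E₀ (red y)) := by
    rw [G.compat.red_comp ⟨_, G.norm_mem y⟩ hmem, G.red_norm y]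
  have hne : red ⟨_, hmem⟩ ≠ 0 := by
    rw [hred]
    have := G.finite_E
    intro h0
    have h1 : Algebra.norm E₀ (red y) = 0 := (algebraMap E₀ Ft).injective (by rw [h0, map_zero])
    exact hy (Algebra.norm_eq_zero_iff.1 h1)
  obtain ⟨r, s, hrs⟩ := hgen (Algebra.norm F₀ (y : F))
  obtain ⟨p, q, hp, hq, h1, h2⟩ := exists_quot hR hAO hunit x htr ⟨_, hmem⟩ hne r s hrs
  exact ⟨p, q, hp, hq, h1, by rw [← hred]; exact h2⟩

/-- Norm data for the chart at infinity. -/
theorem NormData.inv {x x' : O} (h : NormData A π red F₀ E₀ x) (hxx' : x * x' = 1) :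
    NormData A π red F₀ E₀ x' := by
  intro y hy
  obtain ⟨p, q, hp, hq, h1, h2⟩ := h y hy
  have hxF : (x : F) * (x' : F) = 1 := congrArg Subtype.val hxx'
  have hx0 : (x : F) ≠ 0 := left_ne_zero_of_mul_eq_one hxF
  have hx' : (x' : F) = (x : F)⁻¹ := eq_inv_of_mul_eq_one_right hxF
  have hr : red x * red x' = 1 := by rw [← map_mul, hxx', map_one]
  have hrx0 : red x ≠ 0 := left_ne_zero_of_mul_eq_one hr
  have hrx' : red x' = (red x)⁻¹ := eq_inv_of_mul_eq_one_right hr
  set M := max p.natDegree q.natDegree with hM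
  refine ⟨p.reflect M, q.reflect M, ?_, ?_, ?_, ?_⟩
  · rw [← Polynomial.reflect_map, Ne, Polynomial.reflect_eq_zero_iff]
    exact hp
  · rw [← Polynomial.reflect_map, Ne, Polynomial.reflect_eq_zero_iff]
    exact hq
  · rw [h1, hx', ← Polynomial.reflect_map, ← Polynomial.reflect_map]
    exact aeval_div_reflect (x : F) hx0 M _ _
      ((natDegree_map_le).trans (le_max_left _ _)) ((natDegree_map_le).trans (le_max_right _ _))
  · rw [h2, hrx', ← Polynomial.reflect_map, ← Polynomial.reflect_map]
    exact aeval_div_reflect (red x) hrx0 M _ _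
      ((natDegree_map_le).trans (le_max_left _ _)) ((natDegree_map_le).trans (le_max_right _ _))

end Norm

section Cons

variable {L F k Ft : Type*} [Field L] [Field F] [Algebra L F] [Field k] [Field Ft] [Algebra k Ft]
variable {A : ValuationSubring L} {π : A →+* k} {O : ValuationSubring F} {red : O →+* Ft}
variable {F₀ E₀ : Type*} [Field F₀] [Field E₀] [Algebra F₀ F] [Algebra E₀ Ft]
  [Algebra L F₀] [IsScalarTower L F₀ F] [Algebra k E₀] [IsScalarTower k E₀ Ft]

/-- The residue field of the restriction of a place with residue field the constants is the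
field of constants. -/
theorem resK_restrict {K F' E' : Type*} [Field K] [Field F'] [Field E'] [Algebra K F']
    [Algebra K E'] [Algebra F' E'] [IsScalarTower K F' E'] [Algebra.IsIntegral F' E']
    (w : Place K E')
    (hw : ∀ a : w.toValuationSubring, ∃ c : K, a - algebraMap K w.toValuationSubring c ∈
      IsLocalRing.maximalIdeal w.toValuationSubring)
    (a : (w.restrict F').toValuationSubring) :
    ∃ c : K, a - algebraMap K (w.restrict F').toValuationSubring c ∈
      IsLocalRing.maximalIdeal (w.restrict F').toValuationSubring := by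
  obtain ⟨c, hc⟩ := hw (Place.restrictInclusion F' w a)
  refine ⟨c, ?_⟩
  rw [IsLocalRing.mem_maximalIdeal, mem_nonunits_iff] at hc ⊢
  intro hu
  apply hc
  have h1 : Place.restrictInclusion F' w (a - algebraMap K (w.restrict F').toValuationSubring c)
      = Place.restrictInclusion F' w a - algebraMap K w.toValuationSubring c := by
    apply Subtype.ext
    rw [Place.coe_restrictInclusion]
    show algebraMap F' E' ((a : F') - algebraMap K F' c) = algebraMap F' E' (a : F') -
      algebraMap K E' c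
    rw [map_sub, ← IsScalarTower.algebraMap_apply]
  rw [← h1]
  exact hu.map _

/-- **Conservation on a residue disc** (the field `cons` of `PlaceRed.IsChart`) from norm data
and the norm formula on both sides. -/
theorem cons_of_normData [IsAlgClosed L] [IsAlgClosed k]
    [FiniteDimensional F₀ F] [FiniteDimensional E₀ Ft] [Algebra.IsSeparable F₀ F]
    [Algebra.IsSeparable E₀ Ft] [HasPrincipalDivisors L F] [HasPrincipalDivisors k Ft]
    (hresL : ∀ (P : Place L F) (a : P.toValuationSubring), ∃ c : L,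
      a - algebraMap L P.toValuationSubring c ∈ IsLocalRing.maximalIdeal P.toValuationSubring)
    (hresk : ∀ (Q : Place k Ft) (a : Q.toValuationSubring), ∃ c : k,
      a - algebraMap k Q.toValuationSubring c ∈ IsLocalRing.maximalIdeal Q.toValuationSubring)
    (hdegL : ∀ w : Place L F, w.deg = 1) (hdegk : ∀ w : Place k Ft, w.deg = 1)
    (hπ : Function.Surjective π) {z : O} (h : NormData A π red F₀ E₀ z)
    (z₀ : F₀) (hz₀ : algebraMap F₀ F z₀ = (z : F)) (zt₀ : E₀) (hzt₀ : algebraMap E₀ Ft zt₀ = red z)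
    (hz : ∀ c : L, (z : F) ≠ algebraMap L F c)
    (hgen : ∀ f : F₀, ∃ r s : L[X], f = aeval z₀ r / aeval z₀ s)
    (hgen_t : ∀ f : E₀, ∃ r s : k[X], f = aeval zt₀ r / aeval zt₀ s)
    (hex : ∀ a : A, ∃ P : Place L F, 0 < P.ord ((z : F) - algebraMap L F (a : L)))
    (hex_t : ∀ γ : k, ∃ Q : Place k Ft, 0 < Q.ord (red z - algebraMap k Ft γ))
    (y : O) (hy : red y ≠ 0) (γ : k) (s : Finset (Place L F)) (Tt : Finset (Place k Ft))
    (hs : ∀ P, P ∈ s ↔ EvK A π P (z : F) γ ∧ P.ord (y : F) ≠ 0)
    (hTt : ∀ Q, Q ∈ Tt ↔ 0 < Q.ord (red z - algebraMap k Ft γ)) :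
    ∑ P ∈ s, P.ord (y : F) = ∑ Q ∈ Tt, Q.ord (red y) := by
  have hy0 : (y : F) ≠ 0 := fun h0 => hy (by rw [show y = 0 from Subtype.ext h0, map_zero])
  obtain ⟨p, q, hp, hq, hN, hNt⟩ := h y hy
  rw [← hz₀] at hz hex hs hN
  rw [← hzt₀] at hex_t hTt hNt
  refine PlaceRedCons.cons_of_norm hπ z₀ zt₀ hz hgen hgen_t hex hex_t (y : F) (red y) ?_ ?_
    p q hp hq hN hNt γ s Tt hs hTt
  · intro P₀
    exact NormPlace.ord_norm_eq_sum_of_isSeparable (P₀.restrict F₀)
      (resK_restrict P₀ (hresL P₀)) hdegL (y : F) hy0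
  · intro Q₀
    exact NormPlace.ord_norm_eq_sum_of_isSeparable (Q₀.restrict E₀)
      (resK_restrict Q₀ (hresk Q₀)) hdegk (red y) hy

end Cons

end Fermat.Agent.Lib.Red.PlaceRedNorm
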