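import Mathlib
import Fermat.Agent.Lib.Red.PlaceRedNorm
import Fermat.Agent.Lib.Red.Tube
import Fermat.Agent.Lib.Red.Integral
import Fermat.Agent.Lib.FF.Holo
import Fermat.Agent.Lib.FF.RRApprox

/-!
# The place reduction in the abstract Gauss setting

`F/L`, `Ft/k` function fields of one variable over algebraically closed fields (`IsFF1`),
`A ⊆ L` a valuation ring with residue map `π : A → k`, `O ⊆ F` a valuation ring with residue map
`red : O → Ft` (the Gauss valuation), `x ∈ O` a base function with `x⁻¹ ∈ O`, and a good basis of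
`F` over `K₀ = L(x)` reducing to a basis of `Ft` over `E₀ = k(x̄)`, both extensions separable.

* `isChart_of_gauss` : `PlaceRed.IsChart A π O red z` for a chart coordinate `z` (`= x` or
  `x⁻¹`), from the good-reduction statement `lift` (T3) of the chart;
* `exists_reduction_of_gauss` : **the place reduction** `r : Place L F → Place k Ft` with
  `r_*(div y) = div (red y)` for every `y ∈ O` with `red y ≠ 0`, from T3 for the two charts.
-/

set_option autoImplicit false

noncomputable section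

namespace Fermat.Agent.Lib.Red.PlaceRedMain

open AlgebraicCurve Polynomial IntermediateField
open Fermat.Agent.S24 Fermat.Agent.Lib.Red.PlaceRed Fermat.Agent.Lib.FF
open Fermat.Agent.Lib.Red.PlaceRedNorm

variable {L F k Ft : Type*} [Field L] [Field F] [Algebra L F] [Field k] [Field Ft] [Algebra k Ft]
variable {A : ValuationSubring L} {π : A →+* k} {O : ValuationSubring F} {red : O →+* Ft}

/-- Every element of `L(z)` is a quotient of polynomials in the generator. -/
theorem gen_adjoin_simple {K E : Type*} [Field K] [Field E] [Algebra K E] (z : E)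
    (f : ↥(K⟮z⟯)) :
    ∃ r s : K[X], f = aeval (⟨z, mem_adjoin_simple_self K z⟩ : ↥(K⟮z⟯)) r /
      aeval (⟨z, mem_adjoin_simple_self K z⟩ : ↥(K⟮z⟯)) s := by
  obtain ⟨r, s, hrs⟩ := (mem_adjoin_simple_iff K (f : E)).1 f.2
  refine ⟨r, s, ?_⟩
  apply Subtype.ext
  have h1 : ∀ p : K[X], ((aeval (⟨z, mem_adjoin_simple_self K z⟩ : ↥(K⟮z⟯)) p : ↥(K⟮z⟯)) : E)
      = aeval z p := by
    intro p
    exact (aeval_algebraMap_apply E (⟨z, mem_adjoin_simple_self K z⟩ : ↥(K⟮z⟯)) p).symm
  rw [hrs]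
  show _ = ((aeval (⟨z, mem_adjoin_simple_self K z⟩ : ↥(K⟮z⟯)) r : ↥(K⟮z⟯)) : E) /
    ((aeval (⟨z, mem_adjoin_simple_self K z⟩ : ↥(K⟮z⟯)) s : ↥(K⟮z⟯)) : E)
  rw [h1, h1]

theorem finite_ord_ne_zero {K E : Type*} [Field K] [Field E] [Algebra K E]
    [HasPrincipalDivisors K E] (y : E) (hy : y ≠ 0) : {P : Place K E | P.ord y ≠ 0}.Finite := by
  obtain ⟨D, hD, -⟩ := HasPrincipalDivisors.exists_divisor (K := K) y hy
  refine D.support.finite_toSet.subset fun P hP => ?_
  rw [Finset.mem_coe, Finsupp.mem_support_iff, hD P]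
  exact hP

/-- **`IsChart` for a chart coordinate of the Gauss valuation.** -/
theorem isChart_of_gauss [IsAlgClosed L] [IsAlgClosed k]
    (hπ0 : ∀ a : A, ¬ IsUnit a → π a = 0) (hsurj : Function.Surjective π)
    (hR : Chart.RedData A π O red) (hA : ∀ c : L, algebraMap L F c ∈ O ↔ c ∈ A)
    (hker : ∀ y : O, red y = 0 ↔ ¬ IsUnit y)
    (hscale : ∀ f : O, red f = 0 →
      ∃ (a : A) (g : O), π a = 0 ∧ (f : F) = algebraMap L F (a : L) * (g : F))
    (z : O) (hF : IsFF1 L F (z : F)) (hFt : IsFF1 k Ft (red z))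
    (K₀ : IntermediateField L F) (hK₀ : L⟮(z : F)⟯ = K₀)
    (E₀ : IntermediateField k Ft) (hE₀ : k⟮red z⟯ = E₀)
    [Algebra.IsSeparable K₀ F] [Algebra.IsSeparable E₀ Ft]
    (hmin : ∀ (y : O) (i : ℕ), algebraMap K₀ F ((minpoly K₀ (y : F)).coeff i) ∈ O)
    (hND : NormData A π red K₀ E₀ z)
    (hlift : ∀ s : Ft, RegChart k (red z) s →
      ∃ y : O, red y = s ∧ RegChart L (z : F) (y : F)) :
    IsChart A π O red z := by
  subst hK₀ hE₀
  have := hF.hasPrincipalDivisors
  have := hFt.hasPrincipalDivisors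
  have := hF.finiteDimensional
  have := hFt.finiteDimensional
  have hunit : ∀ u : O, red u ≠ 0 → IsUnit u := fun u hu => by
    by_contra h
    exact hu ((hker u).2 h)
  have htr : Transcendental k (red z) := hFt.transcendental
  have hS : Orth.Setting (z : F) A O.toSubring :=
    Chart.setting_of_red hR hA hunit z.2 htr
  have hnc : ∀ c : L, (z : F) ≠ algebraMap L F c := fun c hc =>
    hF.transcendental (hc ▸ isAlgebraic_algebraMap c)
  have hnct : ∀ c : k, red z ≠ algebraMap k Ft c := fun c hc =>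
    htr (hc ▸ isAlgebraic_algebraMap c)
  have hresL : ∀ (P : Place L F) (f : F), f ∈ P.toValuationSubring →
      ∃ b : L, P.adicValuation (f - algebraMap L F b) < 1 := by
    intro P f hf
    obtain ⟨c, hc⟩ := hF.resK P ⟨f, hf⟩
    exact ⟨c, Tube.lt_one_of_mem_maximalIdeal P hc⟩
  have hresk : ∀ (Q : Place k Ft) (g : Ft), g ∈ Q.toValuationSubring →
      ∃ b : k, Q.adicValuation (g - algebraMap k Ft b) < 1 := by
    intro Q g hg
    obtain ⟨c, hc⟩ := hFt.resK Q ⟨g, hg⟩
    exact ⟨c, Tube.lt_one_of_mem_maximalIdeal Q hc⟩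
  -- the clearing lemma on every tube
  have hclear : ∀ (γ : k) (y : O), RegChart L (z : F) (y : F) →
      ∃ s : Polynomial A, (s.map π).eval γ ≠ 0 ∧
        IsIntegral ↥(Chart.polyRing A (z : F)) (Polynomial.aeval (z : F) (s.map A.subtype) * (y : F)) := by
    intro γ y hy
    refine Tube.exists_clearing hS hπ0 ?_ finite_ord_ne_zero
      (fun y hy => (hF.isIntegral_adjoin_iff y).mpr hy)
      (fun y hyO hy => Chart.isIntegral_polyRing_of_isIntegral hS _ rfl (hmin ⟨y, hyO⟩) hy)
      γ (y : F) y.2 ?_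
    · intro P hP
      obtain ⟨c, hc⟩ := hresL P (z : F) (mem_of_ord_nonneg P hP)
      exact ⟨c, (adicValuation_lt_one_iff P (sub_ne_zero.2 (hnc c))).1 hc⟩
    · rintro P ⟨a, -, ha⟩
      apply mem_of_ord_nonneg
      apply hy
      have h1 : (z : F) = ((z : F) - algebraMap L F (a : L)) + algebraMap L F (a : L) := by ring
      rw [h1]
      exact ord_nonneg_of_mem P (add_mem (Tube.mem_of_ord_pos P ha) (P.algebraMap_mem' _))
  refine
    { surj := hsurj
      mem := hR.mem
      red_alg := ?_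
      isUnit := hunit
      scale := hscale
      fin := finite_ord_ne_zero
      fin_t := finite_ord_ne_zero
      resK := hresL
      resK_t := hresk
      nonconst := hnct
      exists_zero := fun γ => hFt.exists_zero_sub γ
      approx := fun S n => hFt.exists_ord_eq' S n
      lift := hlift
      red_reg := ?_
      ev := ?_
      cons := ?_ }
  · intro a f hf
    have : f = ⟨algebraMap L F (a : L), hR.mem a⟩ := Subtype.ext hf
    rw [this, hR.red_alg]
  · intro y hy Q hQ
    obtain ⟨γ, hγ⟩ := hresk Q (red z) (mem_of_ord_nonneg Q hQ)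
    have hγ' : 0 < Q.ord (red z - algebraMap k Ft γ) :=
      (adicValuation_lt_one_iff Q (sub_ne_zero.2 (hnct γ))).1 hγ
    obtain ⟨s, hs, hg⟩ := hclear γ y hy
    exact ord_nonneg_of_mem Q (Tube.red_mem_of_clearing hR hS γ Q hγ' y s hs hg)
  · intro y hy P c hc
    obtain ⟨s, hs, hg⟩ := hclear c y hy
    have hP : P ∈ Tube.tube A π (z : F) c := by
      obtain ⟨a, ha, hlt⟩ := hc
      exact ⟨a, ha, (adicValuation_lt_one_iff P (sub_ne_zero.2 (hnc a))).1 hlt⟩
    have hyP : (y : F) ∈ P.toValuationSubring := mem_of_ord_nonneg P (hy P (ord_nonneg_of_mem P hc.mem))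
    exact Tube.evK_of_clearing hπ0 c P hP (hF.resK P) (y : F) hyP s hs hg
  · intro y _ hy γ s Tt hs hTt
    exact cons_of_normData (F₀ := ↥(L⟮(z : F)⟯)) (E₀ := ↥(k⟮red z⟯)) hF.resK hFt.resK
      hF.deg_eq_one hFt.deg_eq_one hsurj hND
      ⟨(z : F), mem_adjoin_simple_self L (z : F)⟩ rfl ⟨red z, mem_adjoin_simple_self k (red z)⟩ rfl
      hnc (gen_adjoin_simple (z : F)) (gen_adjoin_simple (red z))
      (fun a => hF.exists_zero_sub (a : L)) (fun γ => hFt.exists_zero_sub γ) y hy γ s Tt hs hTt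

/-- The minimal polynomial over `K₀` of an element of `O` has coefficients in `O`, from a good
basis. -/
theorem coeff_minpoly_mem_of_goodBasis {F₀ E₀ : Type*} [Field F₀] [Field E₀] [Algebra F₀ F]
    [Algebra E₀ Ft] {O₀ : ValuationSubring F₀} {red₀ : O₀ →+* E₀} {ι : Type*} [Fintype ι]
    (G : Ortho.GoodBasis O red O₀ red₀ ι) (y : O) (i : ℕ) :
    algebraMap F₀ F ((minpoly F₀ (y : F)).coeff i) ∈ O := by
  obtain ⟨g, hg⟩ := G.exists_map_eq_minpoly y
  rw [← hg, Polynomial.coeff_map]
  exact (G.compat.mem_iff _).1 (g.coeff i).2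

/-- **The place reduction in the abstract Gauss setting.**  From a good basis over
`K₀ = L(x)`, separability on both sides and good reduction (T3) of the two charts `x`, `x⁻¹`,
there is a map `r` from the places of `F` to the places of `Ft` with
`r_*(div y) = div (red y)` for every `y ∈ O` with nonzero reduction; `r` is compatible with the
values of `x`. -/
theorem exists_reduction_of_gauss [IsAlgClosed L] [IsAlgClosed k]
    (hπ0 : ∀ a : A, ¬ IsUnit a → π a = 0) (hsurj : Function.Surjective π)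
    (hR : Chart.RedData A π O red) (hA : ∀ c : L, algebraMap L F c ∈ O ↔ c ∈ A)
    (hker : ∀ y : O, red y = 0 ↔ ¬ IsUnit y)
    (hscale : ∀ f : O, red f = 0 →
      ∃ (a : A) (g : O), π a = 0 ∧ (f : F) = algebraMap L F (a : L) * (g : F))
    (x x' : O) (hxx' : x * x' = 1) (hF : IsFF1 L F (x : F)) (hFt : IsFF1 k Ft (red x))
    (K₀ : IntermediateField L F) (hK₀ : L⟮(x : F)⟯ = K₀)
    (E₀ : IntermediateField k Ft) (hE₀ : k⟮red x⟯ = E₀)
    [Algebra.IsSeparable K₀ F] [Algebra.IsSeparable E₀ Ft]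
    {O₀ : ValuationSubring K₀} {red₀ : O₀ →+* E₀} {ι : Type*} [Fintype ι]
    (G : Ortho.GoodBasis O red O₀ red₀ ι)
    (hT3 : ∀ s : Ft, (∀ Q : Place k Ft, 0 ≤ Q.ord (red x) → 0 ≤ Q.ord s) →
      ∃ y : O, red y = s ∧ ∀ P : Place L F, 0 ≤ P.ord (x : F) → 0 ≤ P.ord (y : F))
    (hT3' : ∀ s : Ft, (∀ Q : Place k Ft, Q.ord (red x) ≤ 0 → 0 ≤ Q.ord s) →
      ∃ y : O, red y = s ∧ ∀ P : Place L F, P.ord (x : F) ≤ 0 → 0 ≤ P.ord (y : F)) :
    ∃ r : Place L F → Place k Ft,
      (∀ (P : Place L F) (γ : k), EvK A π P (x : F) γ →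
        0 < (r P).ord (red x - algebraMap k Ft γ)) ∧
      (∀ P : Place L F, EvK A π P (x' : F) 0 → 0 < (r P).ord (red x')) ∧
      ∀ y : O, red y ≠ 0 → ∀ D : Place L F →₀ ℤ, (∀ P, D P = P.ord (y : F)) →
        ∀ Q, Finsupp.mapDomain r D Q = Q.ord (red y) := by
  have hxF : (x : F) * (x' : F) = 1 := congrArg Subtype.val hxx'
  have hx' : (x' : F) = (x : F)⁻¹ := eq_inv_of_mul_eq_one_right hxF
  have hr : red x * red x' = 1 := by rw [← map_mul, hxx', map_one]
  have hrx' : red x' = (red x)⁻¹ := eq_inv_of_mul_eq_one_right hr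
  have htr : Transcendental k (red x) := hFt.transcendental
  have hunit : ∀ u : O, red u ≠ 0 → IsUnit u := fun u hu => by
    by_contra h
    exact hu ((hker u).2 h)
  -- norm data for the two charts
  have hND : NormData A π red K₀ E₀ x := by
    refine normData_of_goodBasis G hR (fun c hc => (hA c).1 hc) hunit x htr ?_
    intro f
    subst hK₀
    obtain ⟨r, s, hrs⟩ := (mem_adjoin_simple_iff L (f : F)).1 f.2
    exact ⟨r, s, hrs⟩
  have hND' : NormData A π red K₀ E₀ x' := hND.inv hxx'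
  have hmin := coeff_minpoly_mem_of_goodBasis G
  -- the chart `x`
  have hchart : IsChart A π O red x :=
    isChart_of_gauss hπ0 hsurj hR hA hker hscale x hF hFt K₀ hK₀ E₀ hE₀ hmin hND hT3
  -- the chart `x'`
  have hF' : IsFF1 L F (x' : F) := by rw [hx']; exact hF.inv
  have hFt' : IsFF1 k Ft (red x') := by rw [hrx']; exact hFt.inv
  have hK₀' : L⟮(x' : F)⟯ = K₀ := by
    rw [← hK₀, hx']
    apply le_antisymm
    · rw [adjoin_simple_le_iff]
      exact inv_mem (mem_adjoin_simple_self L (x : F))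
    · rw [adjoin_simple_le_iff]
      have h := inv_mem (mem_adjoin_simple_self L (x : F)⁻¹)
      rwa [inv_inv] at h
  have hE₀' : k⟮red x'⟯ = E₀ := by
    rw [← hE₀, hrx']
    apply le_antisymm
    · rw [adjoin_simple_le_iff]
      exact inv_mem (mem_adjoin_simple_self k (red x))
    · rw [adjoin_simple_le_iff]
      have h := inv_mem (mem_adjoin_simple_self k (red x)⁻¹)
      rwa [inv_inv] at h
  have hlift' : ∀ s : Ft, RegChart k (red x') s →
      ∃ y : O, red y = s ∧ RegChart L (x' : F) (y : F) := by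
    intro s hs
    obtain ⟨y, hy, hreg⟩ := hT3' s (fun Q hQ => hs Q (by rw [hrx', Place.ord_inv]; omega))
    refine ⟨y, hy, fun P hP => hreg P ?_⟩
    rw [hx', Place.ord_inv] at hP
    omega
  have hchart' : IsChart A π O red x' :=
    isChart_of_gauss hπ0 hsurj hR hA hker hscale x' hF' hFt' K₀ hK₀' E₀ hE₀' hmin hND' hlift'
  exact exists_reduction_of_charts hchart hchart' hxF

end Fermat.Agent.Lib.Red.PlaceRedMain
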