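import Mathlib
import Fermat.Agent.Lib.Red.PlaceRedMain
import Fermat.Agent.Lib.Red.InstGenusX
import Fermat.Agent.Lib.Red.Unconditional

/-!
# RED / PLACE: the place reduction for the modular function fields

For a base function `B : BaseFn.Data A π N` of `F = L·F_N` (e.g. `J(q^N)`, `Data.ofJ`), `L` and
`k` algebraically closed, `F~/k(x̄)` separable, and good reduction of the two charts `x`, `x⁻¹`
(`hT3`, `hT3'`, in the shape of `InstGenusX.genusFF_le_modular`):

* `exists_reduction` : a map `r` from the places of `F` to the places of `F~` with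
  `r_*(div y) = div (redF y)` for every Gauss-integral `y` with nonzero reduction, compatible with
  the values of `x`;
* `exists_isPlaceReductionAlong` : `∃ r, IsPlaceReductionAlong A π N r` (the Prelude's predicate).
-/

set_option autoImplicit false
set_option linter.unusedSectionVars false

noncomputable section

namespace Fermat.Agent.Lib.Red.InstPlace

open HahnSeries ModularCurve Polynomial AlgebraicCurve Fermat.Agent.S28 IntermediateField
  Fermat.Agent.Lib.FF Fermat.Agent.Lib.Red Fermat.Agent.Lib.Red.PlaceRed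

variable {L : Type*} [Field L] [Algebra ℚ L] {A : ValuationSubring L} {k : Type} [Field k]
  {π : A →+* k} {N : ℕ} [NeZero N] (B : BaseFn.Data A π N)

variable [IsAlgClosed L] [IsAlgClosed k]

/-- The base function as an element of the Gauss ring. -/
def xO (hNk : (N : k) ≠ 0) : Ow A π N hNk := ⟨B.x, B.x_mem_Ow hNk⟩

/-- Its inverse as an element of the Gauss ring. -/
def xO' (hπ : ∀ a : A, ¬ IsUnit a → π a = 0) (hNk : (N : k) ≠ 0) : Ow A π N hNk :=
  ⟨(B.x)⁻¹, B.x_inv_mem_Ow hπ hNk⟩

set_option synthInstance.maxHeartbeats 400000 in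
set_option maxHeartbeats 1000000 in
/-- **The place reduction for the modular function fields**, for all Gauss-integral functions. -/
theorem exists_reduction (hπ : ∀ a : A, ¬ IsUnit a → π a = 0) (hsurj : Function.Surjective π)
    (hNk : (N : k) ≠ 0)
    [Algebra.IsSeparable ↥(k⟮B.xt hπ hNk⟯) ↥(modularFunctionFieldFullC k N)]
    (hT3 : ∀ s : ↥(modularFunctionFieldFullC k N),
        (∀ Q : Place k ↥(modularFunctionFieldFullC k N), 0 ≤ Q.ord (B.xt hπ hNk) → 0 ≤ Q.ord s) →
        ∃ y : Ow A π N hNk, redF A π N hπ hNk y = s ∧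
          ∀ P : Place L ↥(laurentBaseChange L (modularFunctionFieldFull N)),
            0 ≤ P.ord B.x →
              0 ≤ P.ord (y : ↥(laurentBaseChange L (modularFunctionFieldFull N))))
    (hT3' : ∀ s : ↥(modularFunctionFieldFullC k N),
        (∀ Q : Place k ↥(modularFunctionFieldFullC k N), Q.ord (B.xt hπ hNk) ≤ 0 → 0 ≤ Q.ord s) →
        ∃ y : Ow A π N hNk, redF A π N hπ hNk y = s ∧
          ∀ P : Place L ↥(laurentBaseChange L (modularFunctionFieldFull N)),
            P.ord B.x ≤ 0 →
              0 ≤ P.ord (y : ↥(laurentBaseChange L (modularFunctionFieldFull N)))) :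
    ∃ r : Place L ↥(laurentBaseChange L (modularFunctionFieldFull N)) →
        Place k ↥(modularFunctionFieldFullC k N),
      (∀ (P : Place L ↥(laurentBaseChange L (modularFunctionFieldFull N))) (γ : k),
        EvK A π P B.x γ →
          0 < (r P).ord (B.xt hπ hNk - algebraMap k ↥(modularFunctionFieldFullC k N) γ)) ∧
      (∀ P : Place L ↥(laurentBaseChange L (modularFunctionFieldFull N)),
        EvK A π P (B.x)⁻¹ 0 → (r P).ord (B.xt hπ hNk) < 0) ∧
      ∀ y : Ow A π N hNk, redF A π N hπ hNk y ≠ 0 →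
        ∀ D : Place L ↥(laurentBaseChange L (modularFunctionFieldFull N)) →₀ ℤ,
          (∀ P, D P = P.ord (y : ↥(laurentBaseChange L (modularFunctionFieldFull N)))) →
            ∀ Q, Finsupp.mapDomain r D Q = Q.ord (redF A π N hπ hNk y) := by
  have hF := InstGenusX.isFF1_x B hπ hsurj hNk
  have hFt := InstGenusX.isFF1_xt B hπ hsurj hNk
  have hR : Chart.RedData A π (Ow A π N hNk) (redF A π N hπ hNk) :=
    ⟨fun a => (algebraMap_mem_Ow_iff hπ hNk (a : L)).mpr a.2, fun a => redF_algebraMap hπ hNk a⟩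
  have hscale : ∀ f : Ow A π N hNk, redF A π N hπ hNk f = 0 →
      ∃ (a : A) (g : Ow A π N hNk), π a = 0 ∧
        (f : ↥(laurentBaseChange L (modularFunctionFieldFull N))) =
          algebraMap L _ (a : L) * (g : ↥(laurentBaseChange L (modularFunctionFieldFull N))) := by
    intro f hf
    obtain ⟨a, ha, g, hg⟩ := InstGenus.exists_div_of_redF_eq_zero hπ hNk f hf
    exact ⟨a, g, hπ a ha, hg⟩
  have hxx' : xO B hNk * xO' B hπ hNk = 1 :=
    Subtype.ext (mul_inv_cancel₀ (B.x_ne_zero hπ hNk))
  have hredx' : redF A π N hπ hNk (xO' B hπ hNk) = (B.xt hπ hNk)⁻¹ := by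
    have h1 := congrArg (redF A π N hπ hNk) hxx'
    rw [map_mul, map_one] at h1
    exact eq_inv_of_mul_eq_one_right h1
  -- separability in characteristic zero
  have : CharZero L := charZero_of_injective_algebraMap (algebraMap ℚ L).injective
  have : CharZero ↥(L⟮B.x⟯) := charZero_of_injective_algebraMap (algebraMap L ↥(L⟮B.x⟯)).injective
  have : FiniteDimensional ↥(L⟮B.x⟯) ↥(laurentBaseChange L (modularFunctionFieldFull N)) :=
    B.finite_L hπ hsurj hNk
  have hsepL : Algebra.IsSeparable ↥(L⟮B.x⟯) ↥(laurentBaseChange L (modularFunctionFieldFull N)) :=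
    inferInstance
  obtain ⟨n, ⟨G⟩⟩ := B.exists_goodBasis hπ hsurj hNk
  obtain ⟨r, hr1, hr2, hr3⟩ := PlaceRedMain.exists_reduction_of_gauss hπ hsurj hR
    (algebraMap_mem_Ow_iff hπ hNk) (redF_eq_zero_iff hπ hNk) hscale (xO B hNk) (xO' B hπ hNk) hxx'
    hF hFt (L⟮B.x⟯) rfl (k⟮B.xt hπ hNk⟯) rfl G hT3 hT3'
  refine ⟨r, hr1, ?_, hr3⟩
  intro P hP
  have h := hr2 P hP
  rw [hredx', Place.ord_inv] at h
  omega

set_option synthInstance.maxHeartbeats 400000 in
set_option maxHeartbeats 1000000 in
/-- **Existence of a place reduction** (the Prelude's `IsPlaceReductionAlong`) from good reduction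
of the two charts of the base function. -/
theorem exists_isPlaceReductionAlong (hπ : ∀ a : A, ¬ IsUnit a → π a = 0)
    (hsurj : Function.Surjective π) (hNk : (N : k) ≠ 0)
    [Algebra.IsSeparable ↥(k⟮B.xt hπ hNk⟯) ↥(modularFunctionFieldFullC k N)]
    (hT3 : ∀ s : ↥(modularFunctionFieldFullC k N),
        (∀ Q : Place k ↥(modularFunctionFieldFullC k N), 0 ≤ Q.ord (B.xt hπ hNk) → 0 ≤ Q.ord s) →
        ∃ y : Ow A π N hNk, redF A π N hπ hNk y = s ∧
          ∀ P : Place L ↥(laurentBaseChange L (modularFunctionFieldFull N)),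
            0 ≤ P.ord B.x →
              0 ≤ P.ord (y : ↥(laurentBaseChange L (modularFunctionFieldFull N))))
    (hT3' : ∀ s : ↥(modularFunctionFieldFullC k N),
        (∀ Q : Place k ↥(modularFunctionFieldFullC k N), Q.ord (B.xt hπ hNk) ≤ 0 → 0 ≤ Q.ord s) →
        ∃ y : Ow A π N hNk, redF A π N hπ hNk y = s ∧
          ∀ P : Place L ↥(laurentBaseChange L (modularFunctionFieldFull N)),
            P.ord B.x ≤ 0 →
              0 ≤ P.ord (y : ↥(laurentBaseChange L (modularFunctionFieldFull N)))) :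
    ∃ r : Place L ↥(laurentBaseChange L (modularFunctionFieldFull N)) →
        Place k ↥(modularFunctionFieldFullC k N),
      IsPlaceReductionAlong A π N r ∧
      (∀ (P : Place L ↥(laurentBaseChange L (modularFunctionFieldFull N))) (γ : k),
        EvK A π P B.x γ →
          0 < (r P).ord (B.xt hπ hNk - algebraMap k ↥(modularFunctionFieldFullC k N) γ)) ∧
      (∀ P : Place L ↥(laurentBaseChange L (modularFunctionFieldFull N)),
        EvK A π P (B.x)⁻¹ 0 → (r P).ord (B.xt hπ hNk) < 0) := by
  have hF := InstGenusX.isFF1_x B hπ hsurj hNk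
  have hFt := InstGenusX.isFF1_xt B hπ hsurj hNk
  obtain ⟨r, hr1, hr2, hr⟩ := exists_reduction B hπ hsurj hNk hT3 hT3'
  refine ⟨r, ⟨fun P => ?_, ?_⟩, hr1, hr2⟩
  · rw [hFt.deg_eq_one, hF.deg_eq_one]
  · intro y hy hyk hne D hD Q
    have hmem : incl A y ∈ laurentBaseChange L (modularFunctionFieldFull N) := hy
    have hredeq : redF A π N hπ hNk ⟨⟨incl A y, hmem⟩, incl_mem_gaussRing A π y⟩ =
        ⟨coeffMap π y, hyk⟩ := Subtype.ext (coe_redF_incl hπ hNk y hmem)
    have h := hr ⟨⟨incl A y, hmem⟩, incl_mem_gaussRing A π y⟩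
      (by rw [hredeq]; intro h0; exact hne (congrArg Subtype.val h0)) D hD Q
    rw [hredeq] at h
    exact h

set_option synthInstance.maxHeartbeats 400000 in
set_option maxHeartbeats 1000000 in
/-- **R2 for a base function**: `ReductionInputsAlong A π N` from good reduction of the two
charts. -/
theorem reductionInputsAlong (hπ : ∀ a : A, ¬ IsUnit a → π a = 0)
    (hsurj : Function.Surjective π) (hNk : (N : k) ≠ 0)
    [Algebra.IsSeparable ↥(k⟮B.xt hπ hNk⟯) ↥(modularFunctionFieldFullC k N)]
    (hT3 : ∀ s : ↥(modularFunctionFieldFullC k N),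
        (∀ Q : Place k ↥(modularFunctionFieldFullC k N), 0 ≤ Q.ord (B.xt hπ hNk) → 0 ≤ Q.ord s) →
        ∃ y : Ow A π N hNk, redF A π N hπ hNk y = s ∧
          ∀ P : Place L ↥(laurentBaseChange L (modularFunctionFieldFull N)),
            0 ≤ P.ord B.x →
              0 ≤ P.ord (y : ↥(laurentBaseChange L (modularFunctionFieldFull N))))
    (hT3' : ∀ s : ↥(modularFunctionFieldFullC k N),
        (∀ Q : Place k ↥(modularFunctionFieldFullC k N), Q.ord (B.xt hπ hNk) ≤ 0 → 0 ≤ Q.ord s) →
        ∃ y : Ow A π N hNk, redF A π N hπ hNk y = s ∧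
          ∀ P : Place L ↥(laurentBaseChange L (modularFunctionFieldFull N)),
            P.ord B.x ≤ 0 →
              0 ≤ P.ord (y : ↥(laurentBaseChange L (modularFunctionFieldFull N)))) :
    ReductionInputsAlong A π N := by
  have hF := InstGenusX.isFF1_x B hπ hsurj hNk
  have := hF.hasPrincipalDivisors
  obtain ⟨r, hr, -, -⟩ := exists_isPlaceReductionAlong B hπ hsurj hNk hT3 hT3'
  refine ⟨r, hr, principalGeneratedByIntegral' A π N hNk fun f hf => ?_⟩
  obtain ⟨D, hD, -⟩ := HasPrincipalDivisors.exists_divisor (K := L) f hf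
  exact ⟨D, hD⟩

end Fermat.Agent.Lib.Red.InstPlace
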