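import Mathlib
import Fermat.Agent.Lib.Red.TorsionOneStep
import Fermat.Agent.Lib.FF.RRNonSpecial
import Fermat.Agent.Lib.Red.Ow
import Fermat.Agent.Lib.Red.SpecUnit

/-!
# Glue for RED-INJ (one-step form): tube coordinates from a base function

`Lib/Red/TorsionOneStep.lean` proves `IsRed.principal_of_torsion` under a hypothesis `hns`
(reduced non-special divisors of degree `g` on the reduction, made of places carrying a tube
coordinate) and surjectivity of the place map.  This file discharges these hypotheses from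
the inputs the RED layer actually produces:

* `poles_reduce` : if the pole divisor of a unit `x` of `O` has degree at most the degree of
  the pole divisor of its reduction, every pole of `x` reduces to a pole of `red x`;
* `exists_tube_coord` : at a place `Q` where `red x` is regular and unramified, `x - c`
  (`c` a constant lifting the value of `red x` at `Q`) is a tube coordinate;
* `hns_of` : the hypothesis `hns` from non-special divisors on the reduction and tube
  coordinates outside a finite set;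
* `principal_of_torsion_base` : RED-INJ with all of this assembled, abstract form;
* `principal_of_torsion_ff1` : the same with both sides given as `IsFF1`.
-/

set_option autoImplicit false

noncomputable section

namespace Fermat.Agent.Lib.Red.OneStepGlue

open AlgebraicCurve Fermat.Agent.Lib.Red.OneStep

/-! ### Degrees -/

section Degree

variable {K F : Type*} [Field K] [Field F] [Algebra K F]

theorem degree_eq_sum_mul (D : Divisor K F) :
    Divisor.degree D = ∑ v ∈ D.support, D v * (v.deg : ℤ) := by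
  rw [Divisor.degree, Finsupp.liftAddHom_apply, Finsupp.sum]
  rfl

/-- A pointwise nonnegative divisor of degree `≤ 0` is zero (all places of positive degree). -/
theorem eq_zero_of_nonneg_of_degree_le (E : Divisor K F) (hpos : ∀ Q : Place K F, 0 < Q.deg)
    (hnn : ∀ Q, 0 ≤ E Q) (hdeg : Divisor.degree E ≤ 0) : E = 0 := by
  rw [degree_eq_sum_mul] at hdeg
  have hterm : ∀ v ∈ E.support, 0 ≤ E v * (v.deg : ℤ) := fun v _ =>
    mul_nonneg (hnn v) (Int.natCast_nonneg _)
  have hsum : ∑ v ∈ E.support, E v * (v.deg : ℤ) = 0 :=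
    le_antisymm hdeg (Finset.sum_nonneg hterm)
  have hz := (Finset.sum_eq_zero_iff_of_nonneg hterm).1 hsum
  ext Q
  rw [Finsupp.zero_apply]
  by_contra hQ
  have h1 := hz Q (Finsupp.mem_support_iff.2 hQ)
  have h2 : (0 : ℤ) < (Q.deg : ℤ) := by exact_mod_cast hpos Q
  rcases mul_eq_zero.1 h1 with h | h
  · exact hQ h
  · omega

end Degree

section Abstract

variable {L F k Ft : Type*} [Field L] [Field F] [Algebra L F] [Field k] [Field Ft] [Algebra k Ft]

theorem degree_mapDomain (r : Place L F → Place k Ft) (hdegr : ∀ P, (r P).deg = P.deg)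
    (D : Divisor L F) : Divisor.degree (Finsupp.mapDomain r D) = Divisor.degree D := by
  induction D using Finsupp.induction with
  | zero => simp
  | single_add P n D _ _ ih =>
    rw [Finsupp.mapDomain_add, map_add, map_add, ih, Finsupp.mapDomain_single,
      Divisor.degree_single, Divisor.degree_single, hdegr]

variable {O : ValuationSubring F} {red : O →+* Ft} {r : Place L F → Place k Ft}

/-- **Poles reduce to poles.**  If the pole divisor `Dp` of a unit `x` of `O` has degree at most
the degree of the pole divisor `Dq` of `red x`, then `r_* Dp = Dq`; in particular every pole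
of `x` lies in the tube of a pole of `red x`. -/
theorem mapDomain_poleDiv_eq (h : IsRed O red r) [HasPrincipalDivisors L F]
    (hdegr : ∀ P, (r P).deg = P.deg) (hpos : ∀ Q : Place k Ft, 0 < Q.deg) (x : Oˣ)
    (Dp : Divisor L F) (hDp : ∀ P, Dp P = max (-(P.ord ((x : O) : F))) 0)
    (Dq : Divisor k Ft) (hDq : ∀ Q, Dq Q = max (-(Q.ord (red x))) 0)
    (hdeg : Divisor.degree Dp ≤ Divisor.degree Dq) :
    Finsupp.mapDomain r Dp = Dq := by
  have hge : ∀ Q, Dq Q ≤ Finsupp.mapDomain r Dp Q := by
    intro Q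
    have h0 : 0 ≤ Finsupp.mapDomain r Dp Q :=
      mapDomain_nonneg_of r Dp Q (fun P _ => by rw [hDp]; exact le_max_right _ _)
    have hz : 0 ≤ Finsupp.mapDomain r (Dp + pdiv L ((x : O) : F)) Q :=
      mapDomain_nonneg_of r _ Q (fun P _ => by
        rw [Finsupp.add_apply, hDp, pdiv_apply]
        have := le_max_left (-(P.ord ((x : O) : F))) 0
        omega)
    rw [Finsupp.mapDomain_add, Finsupp.add_apply, h.spec' x Q] at hz
    rw [hDq]
    exact max_le (by omega) h0
  have hE : Finsupp.mapDomain r Dp - Dq = 0 := by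
    refine eq_zero_of_nonneg_of_degree_le _ hpos (fun Q => ?_) ?_
    · rw [Finsupp.sub_apply]
      have := hge Q
      omega
    · rw [map_sub, degree_mapDomain r hdegr]
      omega
  exact sub_eq_zero.1 hE

theorem poles_reduce (h : IsRed O red r) [HasPrincipalDivisors L F]
    (hdegr : ∀ P, (r P).deg = P.deg) (hpos : ∀ Q : Place k Ft, 0 < Q.deg) (x : Oˣ)
    (Dp : Divisor L F) (hDp : ∀ P, Dp P = max (-(P.ord ((x : O) : F))) 0)
    (Dq : Divisor k Ft) (hDq : ∀ Q, Dq Q = max (-(Q.ord (red x))) 0)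
    (hdeg : Divisor.degree Dp ≤ Divisor.degree Dq) (P : Place L F)
    (hP : P.ord ((x : O) : F) < 0) : (r P).ord (red x) < 0 := by
  by_contra hnot
  have heq := mapDomain_poleDiv_eq h hdegr hpos x Dp hDp Dq hDq hdeg
  have h0 : Finsupp.mapDomain r Dp (r P) = 0 := by
    rw [heq, hDq]
    exact max_eq_right (by omega)
  have h1 := eq_zero_of_mapDomain_eq_zero r Dp (r P)
    (fun P' _ => by rw [hDp]; exact le_max_right _ _) h0 P rfl
  rw [hDp] at h1
  have := le_max_left (-(P.ord ((x : O) : F))) 0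
  omega

/-- **Tube coordinate.**  Let `x ∈ O` be such that poles of `x` reduce to poles of `red x`,
and let `Q` be a place with residue field `k` at which `red x` is regular and unramified.
Then `x - c`, for a constant `c` lifting the value of `red x` at `Q`, reduces to a
uniformiser at `Q` and is regular on the tube of `Q`. -/
theorem exists_tube_coord (x : O)
    (hpoles : ∀ P : Place L F, P.ord (x : F) < 0 → (r P).ord (red x) < 0)
    (hlift : ∀ γ : k, ∃ c : O, IsConst L c ∧ red c = algebraMap k Ft γ)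
    (Q : Place k Ft) (hQres : Fermat.Agent.Lib.FF.RR.ResK Q) (hQreg : 0 ≤ Q.ord (red x))
    (hnc : ∀ γ : k, red x ≠ algebraMap k Ft γ)
    (hunr : ∀ γ : k, 0 < Q.ord (red x - algebraMap k Ft γ) →
      Q.ord (red x - algebraMap k Ft γ) = 1) :
    ∃ t : O, Q.ord (red t) = 1 ∧ ∀ P, r P = Q → 0 ≤ P.ord (t : F) := by
  obtain ⟨γ, hγ | hγ⟩ := exists_const_sub_pos Q hQres hQreg
  · exact absurd hγ (hnc γ)
  obtain ⟨c, ⟨c₀, hc₀⟩, hc⟩ := hlift γ
  refine ⟨x - c, ?_, fun P hP => ?_⟩
  · rw [map_sub, hc]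
    exact hunr γ hγ
  · have hx : 0 ≤ P.ord (x : F) := by
      by_contra hneg
      have := hpoles P (by omega)
      rw [hP] at this
      omega
    have := ord_sub_const_nonneg P hx c₀
    rw [hc₀] at this
    exact this

/-- The hypothesis `hns` of `IsRed.principal_of_torsion` from non-special divisors on the
reduction (`hNS`, the shape of `IsFF1.exists_nonspecial'`) and tube coordinates outside a
finite set `S₀`. -/
theorem hns_of (g : ℕ)
    (hNS : ∀ S : Finset (Place k Ft), ∃ T : Finset (Place k Ft), T.card = g ∧ Disjoint T S ∧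
      ∀ f : Ft, (∀ Q ∈ T, -1 ≤ Q.ord f) → (∀ Q ∉ T, 0 ≤ Q.ord f) →
        ∃ c : k, f = algebraMap k Ft c)
    (S₀ : Finset (Place k Ft))
    (htube : ∀ Q ∉ S₀, ∃ t : O, Q.ord (red t) = 1 ∧ ∀ P, r P = Q → 0 ≤ P.ord (t : F)) :
    ∀ S : Finset (Place k Ft), ∃ Qs : Finset (Place k Ft), Qs.card = g ∧ Disjoint Qs S ∧
      (∀ Q ∈ Qs, ∃ t : O, Q.ord (red t) = 1 ∧ ∀ P, r P = Q → 0 ≤ P.ord (t : F)) ∧
      ∀ w : Ft, w ≠ 0 → (∀ Q ∈ Qs, -1 ≤ Q.ord w) → (∀ Q, Q ∉ Qs → 0 ≤ Q.ord w) →
        ∃ κ : k, w = algebraMap k Ft κ := by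
  classical
  intro S
  obtain ⟨T, hcard, hdisj, hT⟩ := hNS (S ∪ S₀)
  refine ⟨T, hcard, ?_, fun Q hQ => htube Q ?_, fun w _ h1 h2 => hT w h1 h2⟩
  · exact Finset.disjoint_of_subset_right Finset.subset_union_left hdisj
  · intro hQ0
    exact Finset.disjoint_left.1 hdisj hQ (Finset.mem_union_right _ hQ0)

/-- **RED-INJ, abstract form with a base function.**  `x` is a unit of `O` whose pole divisor
has degree at most that of `red x` (`hdeg`); outside the finite set `S₀` the reduction `red x`
is regular and unramified; the reduction carries non-special reduced divisors of degree `g`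
(`hNS`), where `g` is a Riemann constant for `F` (`hRR`). -/
theorem principal_of_torsion_base (h : IsRed O red r) [HasPrincipalDivisors L F]
    (hdeg1 : ∀ P : Place L F, P.deg = 1)
    (hres : ∀ P : Place L F, Fermat.Agent.Lib.FF.RR.ResK P)
    (hresQ : ∀ Q : Place k Ft, Fermat.Agent.Lib.FF.RR.ResK Q)
    (hdegr : ∀ P, (r P).deg = P.deg)
    (hsurj : Function.Surjective r) (g : ℕ)
    (hRR : ∀ D : Divisor L F, (g : ℤ) ≤ Divisor.degree D →
      ∃ f : F, f ≠ 0 ∧ ∀ P : Place L F, 0 ≤ P.ord f + D P)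
    (hNS : ∀ S : Finset (Place k Ft), ∃ T : Finset (Place k Ft), T.card = g ∧ Disjoint T S ∧
      ∀ f : Ft, (∀ Q ∈ T, -1 ≤ Q.ord f) → (∀ Q ∉ T, 0 ≤ Q.ord f) →
        ∃ c : k, f = algebraMap k Ft c)
    (hlift : ∀ γ : k, ∃ c : O, IsConst L c ∧ red c = algebraMap k Ft γ)
    (x : Oˣ)
    (Dp : Divisor L F) (hDp : ∀ P, Dp P = max (-(P.ord ((x : O) : F))) 0)
    (Dq : Divisor k Ft) (hDq : ∀ Q, Dq Q = max (-(Q.ord (red x))) 0)
    (hdeg : Divisor.degree Dp ≤ Divisor.degree Dq)
    (hnc : ∀ γ : k, red (x : O) ≠ algebraMap k Ft γ)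
    (S₀ : Finset (Place k Ft))
    (hS₀ : ∀ Q ∉ S₀, 0 ≤ Q.ord (red x) ∧ ∀ γ : k, 0 < Q.ord (red (x : O) - algebraMap k Ft γ) →
      Q.ord (red (x : O) - algebraMap k Ft γ) = 1)
    {m : ℕ} (hm : (m : Ft) ≠ 0) (D : Divisor L F) (hD0 : Divisor.degree D = 0)
    (f₀ : F) (hf₀ : f₀ ≠ 0) (hmD : ∀ P : Place L F, (m : ℤ) * D P = P.ord f₀)
    (hbar : Ft) (hhbar : hbar ≠ 0)
    (hrD : ∀ Q : Place k Ft, Finsupp.mapDomain r D Q = Q.ord hbar) :
    ∃ φ : F, φ ≠ 0 ∧ ∀ P : Place L F, D P = P.ord φ := by
  have hposQ : ∀ Q : Place k Ft, 0 < Q.deg := fun Q => by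
    rw [Fermat.Agent.Lib.FF.RR.deg_eq_one (hresQ Q)]
    exact Nat.one_pos
  have hpoles := poles_reduce h hdegr hposQ x Dp hDp Dq hDq hdeg
  have htube : ∀ Q ∉ S₀, ∃ t : O, Q.ord (red t) = 1 ∧ ∀ P, r P = Q → 0 ≤ P.ord (t : F) :=
    fun Q hQ => exists_tube_coord (x : O) hpoles hlift Q (hresQ Q) (hS₀ Q hQ).1 hnc (hS₀ Q hQ).2
  exact h.principal_of_torsion hdeg1 hres hsurj g hRR (hns_of g hNS S₀ htube) hm D hD0 f₀ hf₀
    hmD hbar hhbar hrD

end Abstract

/-! ### The `IsFF1` form -/

section FF1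

open Fermat.Agent.Lib.FF

variable {L F k Ft : Type*} [Field L] [Field F] [Algebra L F] [Field k] [Field Ft] [Algebra k Ft]
variable {O : ValuationSubring F} {red : O →+* Ft} {r : Place L F → Place k Ft}

/-- A finite set of places outside of which `y` is regular and unramified, from
"unramified outside finitely many values" (the shape of DISC (T2)). -/
theorem exists_bad_set {y : Ft} (hFt : IsFF1 k Ft y) (bad : Finset k)
    (hT2 : ∀ γ : k, γ ∉ bad → ∀ Q : Place k Ft, 0 < Q.ord (y - algebraMap k Ft γ) →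
      Q.ord (y - algebraMap k Ft γ) = 1) :
    ∃ S₀ : Finset (Place k Ft), ∀ Q ∉ S₀, 0 ≤ Q.ord y ∧
      ∀ γ : k, 0 < Q.ord (y - algebraMap k Ft γ) → Q.ord (y - algebraMap k Ft γ) = 1 := by
  classical
  have := hFt.hasPrincipalDivisors
  refine ⟨(pdiv k y).support ∪ bad.biUnion (fun γ => (pdiv k (y - algebraMap k Ft γ)).support),
    fun Q hQ => ?_⟩
  rw [Finset.mem_union, not_or] at hQ
  obtain ⟨hQ1, hQ2⟩ := hQ
  have hy0 : Q.ord y = 0 := by
    rw [Finsupp.mem_support_iff, not_not, pdiv_apply] at hQ1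
    exact hQ1
  refine ⟨by omega, fun γ hγ => ?_⟩
  by_cases hb : γ ∈ bad
  · exfalso
    have : Q ∉ (pdiv k (y - algebraMap k Ft γ)).support := fun hmem =>
      hQ2 (Finset.mem_biUnion.2 ⟨γ, hb, hmem⟩)
    rw [Finsupp.mem_support_iff, not_not, pdiv_apply] at this
    omega
  · exact hT2 γ hb Q hγ

/-- **RED-INJ, `IsFF1` form.**  Both function fields are `IsFF1` with base functions `x`
(a unit of `O`) and `red x`; the genus does not drop (`hgenus`), the pole degree does not
drop (`hdeg`), and `red x` is unramified outside a finite set `S₀`. -/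
theorem principal_of_torsion_ff1 [Infinite k] (h : IsRed O red r) (x : Oˣ)
    (hF : IsFF1 L F ((x : O) : F)) (hFt : IsFF1 k Ft (red (x : O)))
    (hsurj : Function.Surjective r)
    (hgenus : genusFF L F ≤ genusFF k Ft)
    (hdeg : Divisor.degree hF.poleDiv ≤ Divisor.degree hFt.poleDiv)
    (hlift : ∀ γ : k, ∃ c : O, IsConst L c ∧ red c = algebraMap k Ft γ)
    (S₀ : Finset (Place k Ft))
    (hS₀ : ∀ Q ∉ S₀, 0 ≤ Q.ord (red x) ∧ ∀ γ : k, 0 < Q.ord (red (x : O) - algebraMap k Ft γ) →
      Q.ord (red (x : O) - algebraMap k Ft γ) = 1)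
    {m : ℕ} (hm : (m : Ft) ≠ 0) (D : Divisor L F) (hD0 : Divisor.degree D = 0)
    (f₀ : F) (hf₀ : f₀ ≠ 0) (hmD : ∀ P : Place L F, (m : ℤ) * D P = P.ord f₀)
    (hbar : Ft) (hhbar : hbar ≠ 0)
    (hrD : ∀ Q : Place k Ft, Finsupp.mapDomain r D Q = Q.ord hbar) :
    ∃ φ : F, φ ≠ 0 ∧ ∀ P : Place L F, D P = P.ord φ := by
  have := hF.hasPrincipalDivisors
  have hnc : ∀ γ : k, red (x : O) ≠ algebraMap k Ft γ := fun γ hγ =>
    hFt.transcendental (hγ ▸ isAlgebraic_algebraMap γ)
  exact principal_of_torsion_base h hF.deg_eq_one hF.resK hFt.resK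
    (fun P => by rw [hF.deg_eq_one, hFt.deg_eq_one]) hsurj (genusFF L F)
    (fun D hD => hF.exists_ne_zero_of_degree_ge D hD)
    (fun S => hFt.exists_nonspecial' S (genusFF L F) hgenus) hlift x
    hF.poleDiv (fun P => hF.poleDiv_apply P) hFt.poleDiv (fun Q => hFt.poleDiv_apply Q) hdeg hnc
    S₀ hS₀ hm D hD0 f₀ hf₀ hmD hbar hhbar hrD

end FF1

/-! ### The modular setting -/

section Modular

open ModularCurve HahnSeries Fermat.Agent.Lib.FF

variable {L : Type*} [Field L] [Algebra ℚ L] {A : ValuationSubring L} {k : Type} [Field k]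
  {π : A →+* k} {N : ℕ} [NeZero N]

/-- (G1) The Gauss valuation ring of `L·F_N` with its residue map and a place map satisfying
the Prelude spec on all of `O_w` is reduction data in the sense of `IsRed`. -/
theorem isRed_Ow (hπ : ∀ a : A, ¬ IsUnit a → π a = 0) (hNk : (N : k) ≠ 0)
    (r : Place L ↥(laurentBaseChange L (modularFunctionFieldFull N)) →
      Place k ↥(modularFunctionFieldFullC k N))
    (hspec : ∀ f : Ow A π N hNk, redF A π N hπ hNk f ≠ 0 →
      ∀ D : Divisor L ↥(laurentBaseChange L (modularFunctionFieldFull N)),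
        (∀ P, D P = P.ord (f : ↥(laurentBaseChange L (modularFunctionFieldFull N)))) →
        ∀ Q, Finsupp.mapDomain r D Q = Q.ord (redF A π N hπ hNk f)) :
    IsRed (Ow A π N hNk) (redF A π N hπ hNk) r where
  scale := by
    intro y hy
    obtain ⟨a, ha, hmem, hne⟩ := exists_scaling_Ow hπ hNk y hy
    have hu : IsUnit (⟨_, hmem⟩ : Ow A π N hNk) := by
      by_contra hnu
      exact hne ((redF_eq_zero_iff hπ hNk _).2 hnu)
    refine ⟨a⁻¹, hu.unit, ?_⟩
    rw [IsUnit.unit_spec]
    show y = algebraMap L _ a⁻¹ * (algebraMap L _ a * y)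
    rw [← mul_assoc, ← map_mul, inv_mul_cancel₀ ha, map_one, one_mul]
  ker := fun y hy => (redF_eq_zero_iff hπ hNk y).2 hy
  const := by
    rintro y ⟨c, hc⟩
    have hcA : c ∈ A := (algebraMap_mem_Ow_iff hπ hNk c).1 (by rw [hc]; exact y.2)
    refine ⟨π ⟨c, hcA⟩, ?_⟩
    have hy : y = ⟨algebraMap L _ ((⟨c, hcA⟩ : A) : L),
        (algebraMap_mem_Ow_iff hπ hNk _).2 hcA⟩ := Subtype.ext hc.symm
    rw [hy]
    exact redF_algebraMap hπ hNk ⟨c, hcA⟩
  spec := fun u D hD Q => hspec u (IsRed.red_unit_ne_zero u) D hD Q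

/-- Constants of the residue field lift to constants of `O_w`. -/
theorem exists_const_lift (hπ : ∀ a : A, ¬ IsUnit a → π a = 0) (hsurj : Function.Surjective π)
    (hNk : (N : k) ≠ 0) (γ : k) :
    ∃ c : Ow A π N hNk, IsConst L c ∧
      redF A π N hπ hNk c = algebraMap k ↥(modularFunctionFieldFullC k N) γ := by
  obtain ⟨a, rfl⟩ := hsurj γ
  exact ⟨⟨algebraMap L _ (a : L), (algebraMap_mem_Ow_iff hπ hNk (a : L)).mpr a.2⟩,
    isConst_mk _ _, redF_algebraMap hπ hNk a⟩

/-- (G4) The Pic⁰ wrapper: a divisor-level injectivity statement gives injectivity of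
`reductionPic0Along` on `m`-torsion. -/
theorem pic0_eq_zero_of_divisor {L : Type*} [Field L] [Algebra ℚ L] {A : ValuationSubring L}
    {k : Type*} [Field k] {π : A →+* k} {N : ℕ}
    (r : Place L ↥(laurentBaseChange L (modularFunctionFieldFull N)) →
      Place k ↥(modularFunctionFieldFullC k N))
    (hr : IsPlaceReductionAlong A π N r) (hgen : PrincipalGeneratedByIntegral A π N) (m : ℕ)
    (hdiv : ∀ D : Divisor L ↥(laurentBaseChange L (modularFunctionFieldFull N)),
      Divisor.degree D = 0 →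
      ∀ f₀ : ↥(laurentBaseChange L (modularFunctionFieldFull N)), f₀ ≠ 0 →
      (∀ P, (m : ℤ) * D P = P.ord f₀) →
      ∀ hbar : ↥(modularFunctionFieldFullC k N), hbar ≠ 0 →
      (∀ Q, Finsupp.mapDomain r D Q = Q.ord hbar) →
      ∃ φ : ↥(laurentBaseChange L (modularFunctionFieldFull N)), φ ≠ 0 ∧ ∀ P, D P = P.ord φ)
    (z : Pic0 L ↥(laurentBaseChange L (modularFunctionFieldFull N))) (hmz : m • z = 0)
    (hz : reductionPic0Along r hr hgen z = 0) : z = 0 := by
  obtain ⟨D, rfl⟩ := Pic0.mk_surjective z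
  rw [reductionPic0Along_mk] at hz
  have hz' : Divisor.IsPrincipal (Finsupp.mapDomain r
      (D : Divisor L ↥(laurentBaseChange L (modularFunctionFieldFull N)))) := by
    have h1 := (QuotientAddGroup.eq_zero_iff _).1 hz
    rw [AddSubgroup.mem_addSubgroupOf] at h1
    exact h1
  have hm' : Divisor.IsPrincipal
      (m • (D : Divisor L ↥(laurentBaseChange L (modularFunctionFieldFull N)))) := by
    have h1 : Pic0.mk (m • D) = 0 := hmz
    have h2 := (QuotientAddGroup.eq_zero_iff _).1 h1
    rw [AddSubgroup.mem_addSubgroupOf] at h2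
    exact h2
  obtain ⟨f₀, hf₀, hf₀D⟩ := hm'
  obtain ⟨hbar, hhbar, hbarD⟩ := hz'
  obtain ⟨φ, hφ, hφD⟩ := hdiv D D.2 f₀ hf₀
    (fun P => by rw [← hf₀D P, Finsupp.smul_apply, nsmul_eq_mul]) hbar hhbar hbarD
  exact (QuotientAddGroup.eq_zero_iff _).2 (AddSubgroup.mem_addSubgroupOf.2 ⟨φ, hφ, hφD⟩)

end Modular

/-! ### The final statement: RED-INJ for `J₀(N)` over `ℚ̄` -/

section Final

open ModularCurve Fermat.Agent.Lib.FF

/-- The residue map of a local ring kills the nonunits. -/
theorem residue_eq_zero_of_not_isUnit (A : ValuationSubring (AlgebraicClosure ℚ)) :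
    ∀ a : A, ¬ IsUnit a → IsLocalRing.residue A a = 0 := fun a ha =>
  (IsLocalRing.residue_eq_zero_iff a).2 ((IsLocalRing.mem_maximalIdeal a).2 ha)

set_option synthInstance.maxHeartbeats 400000 in
set_option maxHeartbeats 1000000 in
/-- **RED-INJ for the modular function field, from the RED inputs.**  The conclusion is
literally `Fermat.Agent.ESJ.RedTorsionInjective N ℓ A` unfolded.  Inputs:

* `hspec`  : the Prelude spec of a place reduction on all of `O_w` (task RED-SPEC-UNIT);
* `x`      : a base function, a unit of `O_w`; `hF`, `hFt`: both function fields are `IsFF1`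
             with base functions `x` and `red x`;
* `hgenus` : the genus does not drop (GEN);   `hdeg` : the pole degree of `x` does not drop;
* `S₀`, `hS₀` : `red x` is regular and unramified outside a finite set (DISC (T2), see
             `exists_bad_set`). -/
theorem redTorsionInjective_of_inputs (N ℓ : ℕ) [NeZero N]
    (A : ValuationSubring (AlgebraicClosure ℚ)) [Infinite (IsLocalRing.ResidueField A)]
    (hNk : (N : IsLocalRing.ResidueField A) ≠ 0)
    (hℓ : ∀ m : ℕ, ¬ ℓ ∣ m → (m : IsLocalRing.ResidueField A) ≠ 0)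
    (hspec : ∀ r : Place (AlgebraicClosure ℚ) ↥(modularFunctionFieldBar N) →
        Place (IsLocalRing.ResidueField A)
          ↥(modularFunctionFieldFullC (IsLocalRing.ResidueField A) N),
      IsPlaceReductionModL A N r →
      ∀ f : Ow A (IsLocalRing.residue A) N hNk,
        redF A (IsLocalRing.residue A) N (residue_eq_zero_of_not_isUnit A) hNk f ≠ 0 →
        ∀ D : Divisor (AlgebraicClosure ℚ) ↥(modularFunctionFieldBar N),
          (∀ P, D P = P.ord (f : ↥(modularFunctionFieldBar N))) →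
          ∀ Q, Finsupp.mapDomain r D Q =
            Q.ord (redF A (IsLocalRing.residue A) N (residue_eq_zero_of_not_isUnit A) hNk f))
    (x : (Ow A (IsLocalRing.residue A) N hNk)ˣ)
    (hF : IsFF1 (AlgebraicClosure ℚ) ↥(modularFunctionFieldBar N)
      ((x : Ow A (IsLocalRing.residue A) N hNk) : ↥(modularFunctionFieldBar N)))
    (hFt : IsFF1 (IsLocalRing.ResidueField A)
      ↥(modularFunctionFieldFullC (IsLocalRing.ResidueField A) N)
      (redF A (IsLocalRing.residue A) N (residue_eq_zero_of_not_isUnit A) hNk x))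
    (hgenus : genusFF (AlgebraicClosure ℚ) ↥(modularFunctionFieldBar N) ≤
      genusFF (IsLocalRing.ResidueField A)
        ↥(modularFunctionFieldFullC (IsLocalRing.ResidueField A) N))
    (hdeg : Divisor.degree hF.poleDiv ≤ Divisor.degree hFt.poleDiv)
    (S₀ : Finset (Place (IsLocalRing.ResidueField A)
      ↥(modularFunctionFieldFullC (IsLocalRing.ResidueField A) N)))
    (hS₀ : ∀ Q ∉ S₀,
      0 ≤ Q.ord (redF A (IsLocalRing.residue A) N (residue_eq_zero_of_not_isUnit A) hNk x) ∧
      ∀ γ : IsLocalRing.ResidueField A,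
        0 < Q.ord (redF A (IsLocalRing.residue A) N (residue_eq_zero_of_not_isUnit A) hNk x -
          algebraMap _ _ γ) →
        Q.ord (redF A (IsLocalRing.residue A) N (residue_eq_zero_of_not_isUnit A) hNk x -
          algebraMap _ _ γ) = 1) :
    ∀ (r : Place (AlgebraicClosure ℚ) ↥(modularFunctionFieldBar N) →
        Place (IsLocalRing.ResidueField A)
          ↥(modularFunctionFieldFullC (IsLocalRing.ResidueField A) N))
      (hr : IsPlaceReductionModL A N r)
      (hgen : PrincipalGeneratedByIntegral A (IsLocalRing.residue A) N)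
      (m : ℕ), ¬ ℓ ∣ m → ∀ z : JZero N, m • z = 0 →
        reductionPic0Along r hr hgen z = 0 → z = 0 := by
  intro r hr hgen m hm z hmz hz
  refine pic0_eq_zero_of_divisor r hr hgen m ?_ z hmz hz
  intro D hD0 f₀ hf₀ hmD hbar hhbar hrD
  have hred := isRed_Ow (residue_eq_zero_of_not_isUnit A) hNk r (hspec r hr)
  have := hF.hasPrincipalDivisors
  have hsurj : Function.Surjective r :=
    hred.surjective_of_red_surjective
      (redF_surjective (residue_eq_zero_of_not_isUnit A) IsLocalRing.residue_surjective hNk)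
  have hmFt : ((m : ℕ) : ↥(modularFunctionFieldFullC (IsLocalRing.ResidueField A) N)) ≠ 0 := by
    intro h0
    apply hℓ m hm
    have h1 : algebraMap (IsLocalRing.ResidueField A)
        ↥(modularFunctionFieldFullC (IsLocalRing.ResidueField A) N)
        ((m : ℕ) : IsLocalRing.ResidueField A) = 0 := by
      rw [map_natCast]
      exact h0
    exact (map_eq_zero _).1 h1
  exact principal_of_torsion_ff1 hred x hF hFt hsurj hgenus hdeg
    (exists_const_lift (residue_eq_zero_of_not_isUnit A) IsLocalRing.residue_surjective hNk)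
    S₀ hS₀ hmFt D hD0 f₀ hf₀ hmD hbar hhbar hrD

set_option synthInstance.maxHeartbeats 400000 in
set_option maxHeartbeats 1000000 in
/-- `redTorsionInjective_of_inputs` with the spec on `O_w` discharged by
`SpecUnit.mapDomain_eq_ord_redF'` (task RED-SPEC-UNIT).  Remaining inputs: a base function `x`
(unit of `O_w`), `IsFF1` on both sides, GEN (`hgenus`), the pole-degree inequality (`hdeg`)
and the finite bad set (`S₀`, `hS₀`; see `exists_bad_set`). -/
theorem redTorsionInjective_of_inputs' (N ℓ : ℕ) [NeZero N]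
    (A : ValuationSubring (AlgebraicClosure ℚ)) [Infinite (IsLocalRing.ResidueField A)]
    (hNk : (N : IsLocalRing.ResidueField A) ≠ 0)
    (hℓ : ∀ m : ℕ, ¬ ℓ ∣ m → (m : IsLocalRing.ResidueField A) ≠ 0)
    (x : (Ow A (IsLocalRing.residue A) N hNk)ˣ)
    (hF : IsFF1 (AlgebraicClosure ℚ) ↥(modularFunctionFieldBar N)
      ((x : Ow A (IsLocalRing.residue A) N hNk) : ↥(modularFunctionFieldBar N)))
    (hFt : IsFF1 (IsLocalRing.ResidueField A)
      ↥(modularFunctionFieldFullC (IsLocalRing.ResidueField A) N)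
      (redF A (IsLocalRing.residue A) N (residue_eq_zero_of_not_isUnit A) hNk x))
    (hgenus : genusFF (AlgebraicClosure ℚ) ↥(modularFunctionFieldBar N) ≤
      genusFF (IsLocalRing.ResidueField A)
        ↥(modularFunctionFieldFullC (IsLocalRing.ResidueField A) N))
    (hdeg : Divisor.degree hF.poleDiv ≤ Divisor.degree hFt.poleDiv)
    (S₀ : Finset (Place (IsLocalRing.ResidueField A)
      ↥(modularFunctionFieldFullC (IsLocalRing.ResidueField A) N)))
    (hS₀ : ∀ Q ∉ S₀,
      0 ≤ Q.ord (redF A (IsLocalRing.residue A) N (residue_eq_zero_of_not_isUnit A) hNk x) ∧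
      ∀ γ : IsLocalRing.ResidueField A,
        0 < Q.ord (redF A (IsLocalRing.residue A) N (residue_eq_zero_of_not_isUnit A) hNk x -
          algebraMap _ _ γ) →
        Q.ord (redF A (IsLocalRing.residue A) N (residue_eq_zero_of_not_isUnit A) hNk x -
          algebraMap _ _ γ) = 1) :
    ∀ (r : Place (AlgebraicClosure ℚ) ↥(modularFunctionFieldBar N) →
        Place (IsLocalRing.ResidueField A)
          ↥(modularFunctionFieldFullC (IsLocalRing.ResidueField A) N))
      (hr : IsPlaceReductionModL A N r)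
      (hgen : PrincipalGeneratedByIntegral A (IsLocalRing.residue A) N)
      (m : ℕ), ¬ ℓ ∣ m → ∀ z : JZero N, m • z = 0 →
        reductionPic0Along r hr hgen z = 0 → z = 0 := by
  have := hF.hasPrincipalDivisors
  exact redTorsionInjective_of_inputs N ℓ A hNk hℓ
    (fun r hr f hf D hD Q =>
      SpecUnit.mapDomain_eq_ord_redF' (residue_eq_zero_of_not_isUnit A) hNk r hr f hf D hD Q)
    x hF hFt hgenus hdeg S₀ hS₀

end Final

end Fermat.Agent.Lib.Red.OneStepGlue
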