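/-
ESJ / RED (T4, modular instance): for `F = L·F_N`, `x = J(q^N)` and the Gauss valuation ring
`Ow`, the finite chart ring `Ow ∩ (integral closure of L[x])` is a finitely generated
`A[x]`-module.

* `setting` : the Gauss setting `Orth.Setting x A Ow`;
* `good` : a good basis (`Ortho.GoodBasis`) of `A[x]`-integral functions is a good family
  (`Orth.Good`);
* `exists_chart_basis` : T4 in integral-closure form;
* `hT4` : T4 in place form — exactly the hypothesis `hT4` of `InstGenus.genusFF_le_modular`.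
-/
import Mathlib
import Fermat.Agent.Lib.Red.Orth
import Fermat.Agent.Lib.Red.Integral
import Fermat.Agent.Lib.FF.Holo

set_option autoImplicit false

namespace Fermat.Agent.Lib.Red.OrthInst

open HahnSeries ModularCurve Polynomial AlgebraicCurve Fermat.Agent.S28 IntermediateField
  Fermat.Agent.Lib.FF Fermat.Agent.Lib.Red

noncomputable section

variable {L : Type*} [Field L] [Algebra ℚ L] {A : ValuationSubring L} {k : Type} [Field k]
  {π : A →+* k} {N : ℕ} [NeZero N]

/-- The Gauss setting for `x = J(q^N)` and the Gauss valuation ring. -/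
theorem setting (hπ : ∀ a : A, ¬ IsUnit a → π a = 0) (hNk : (N : k) ≠ 0) :
    Orth.Setting (xL L N) A (Ow A π N hNk).toSubring where
  hA := algebraMap_mem_Ow_iff hπ hNk
  hx := xL_mem_Ow hNk
  prim := by
    rintro q ⟨n, hn⟩
    have hq : q.map π ≠ 0 := by
      intro h0
      have h1 := congrArg (fun r => r.coeff n) h0
      simp only [Polynomial.coeff_map, Polynomial.coeff_zero] at h1
      exact (hn.map π).ne_zero h1
    obtain ⟨u, hu⟩ := isUnit_aeval_map (N := N) hπ hNk q hq
    refine ⟨?_, inv_aeval_map_mem_Ow hπ hNk q hq⟩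
    intro h0
    have h2 : ((u : Ow A π N hNk) : ↥(laurentBaseChange L (modularFunctionFieldFull N))) = 0 := by
      rw [hu]
      exact h0
    exact u.ne_zero (Subtype.ext h2)

/-- A good basis of `A[x]`-integral functions is a good family. -/
theorem good (hNk : (N : k) ≠ 0) (hπ : ∀ a : A, ¬ IsUnit a → π a = 0) {ι : Type*} [Fintype ι]
    (G : Ortho.GoodBasis (Ow A π N hNk) (redF A π N hπ hNk) (Ov A π N hNk)
      (redv A π N hπ hNk) ι)
    (hint : ∀ i, IsIntegral ↥(AX A N)
      ((G.b i : Ow A π N hNk) : ↥(laurentBaseChange L (modularFunctionFieldFull N)))) :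
    Orth.Good L (xL L N) (Ow A π N hNk).toSubring
      (fun i => ((G.b i : Ow A π N hNk) : ↥(laurentBaseChange L (modularFunctionFieldFull N)))) := by
  refine ⟨fun i => (G.b i).2, fun i => isIntegral_adjoin_of_isIntegral_AX (hint i), ?_, ?_⟩
  · intro y
    obtain ⟨c, hc⟩ := G.span y
    exact ⟨fun i => ((c i : ↥(L⟮xL L N⟯)) : ↥(laurentBaseChange L (modularFunctionFieldFull N))),
      fun i => (c i).2, hc⟩
  · intro c hc h i
    have e : ∑ i, algebraMap ↥(L⟮xL L N⟯) ↥(laurentBaseChange L (modularFunctionFieldFull N))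
        (⟨c i, hc i⟩ : ↥(L⟮xL L N⟯)) *
        ((G.b i : Ow A π N hNk) : ↥(laurentBaseChange L (modularFunctionFieldFull N))) =
        ∑ i, c i * ((G.b i : Ow A π N hNk) : ↥(laurentBaseChange L (modularFunctionFieldFull N))) :=
      Finset.sum_congr rfl fun i _ => rfl
    have h' : ∑ i, algebraMap ↥(L⟮xL L N⟯) ↥(laurentBaseChange L (modularFunctionFieldFull N))
        (⟨c i, hc i⟩ : ↥(L⟮xL L N⟯)) *
        ((G.b i : Ow A π N hNk) : ↥(laurentBaseChange L (modularFunctionFieldFull N))) ∈
        Ow A π N hNk := by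
      rw [e]
      exact h
    have h1 : (⟨c i, hc i⟩ : ↥(L⟮xL L N⟯)) ∈ Ov A π N hNk :=
      G.compat.coeff_mem G.b G.ind (fun i => (⟨c i, hc i⟩ : ↥(L⟮xL L N⟯))) h' i
    exact h1

variable [IsAlgClosed L]

/-- **T4, integral-closure form**: the ring of Gauss-integral functions integral over `L[x]` is
a finitely generated `A[x]`-module. -/
theorem exists_chart_basis (hπ : ∀ a : A, ¬ IsUnit a → π a = 0) (hsurj : Function.Surjective π)
    (hNk : (N : k) ≠ 0) :
    ∃ (n : ℕ) (g : Fin n → ↥(laurentBaseChange L (modularFunctionFieldFull N))),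
      (∀ i, g i ∈ Ow A π N hNk) ∧
      (∀ i, IsIntegral ↥(Algebra.adjoin L {xL L N}) (g i)) ∧
      ∀ y : ↥(laurentBaseChange L (modularFunctionFieldFull N)), y ∈ Ow A π N hNk →
        IsIntegral ↥(Algebra.adjoin L {xL L N}) y →
        ∃ p : Fin n → Polynomial A,
          y = ∑ i, Polynomial.aeval (xL L N) ((p i).map A.subtype) * g i := by
  obtain ⟨ι, hι, G, hG⟩ := exists_goodBasis_integral hπ hsurj hNk
  have hfin : FiniteDimensional ↥(L⟮xL L N⟯) ↥(laurentBaseChange L (modularFunctionFieldFull N)) :=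
    finite_L hπ hsurj hNk
  have hchar : CharZero L := charZero_of_injective_algebraMap (algebraMap ℚ L).injective
  obtain ⟨b, hbO, hbint, hb⟩ := Orth.exists_orth_basis (setting hπ hNk) _ (good hNk hπ G hG)
  let e := Fintype.equivFin ι
  refine ⟨Fintype.card ι, fun j => b (e.symm j), fun j => hbO _, fun j => hbint _,
    fun y hyO hy => ?_⟩
  obtain ⟨p, hp⟩ := hb y hyO hy
  refine ⟨fun j => p (e.symm j), ?_⟩
  rw [hp]
  exact (Equiv.sum_comp e.symm
    (fun i => Polynomial.aeval (xL L N) ((p i).map A.subtype) * b i)).symm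

/-- **T4, place form** (the hypothesis `hT4` of `InstGenus.genusFF_le_modular`). -/
theorem hT4 (hπ : ∀ a : A, ¬ IsUnit a → π a = 0) (hsurj : Function.Surjective π)
    (hNk : (N : k) ≠ 0) :
    ∃ (n : ℕ) (g : Fin n → ↥(laurentBaseChange L (modularFunctionFieldFull N))),
      (∀ i, g i ∈ Ow A π N hNk) ∧
      (∀ i, ∀ P : Place L ↥(laurentBaseChange L (modularFunctionFieldFull N)),
        0 ≤ P.ord (xL L N) → 0 ≤ P.ord (g i)) ∧
      ∀ y : Ow A π N hNk,
        (∀ P : Place L ↥(laurentBaseChange L (modularFunctionFieldFull N)),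
          0 ≤ P.ord (xL L N) →
            0 ≤ P.ord (y : ↥(laurentBaseChange L (modularFunctionFieldFull N)))) →
        ∃ p : Fin n → Polynomial A,
          (y : ↥(laurentBaseChange L (modularFunctionFieldFull N))) =
            ∑ i, Polynomial.aeval (xL L N) ((p i).map A.subtype) * g i := by
  have hfin : FiniteDimensional ↥(L⟮xL L N⟯) ↥(laurentBaseChange L (modularFunctionFieldFull N)) :=
    finite_L hπ hsurj hNk
  obtain ⟨n, g, hgO, hgint, hg⟩ := exists_chart_basis hπ hsurj hNk
  refine ⟨n, g, hgO, fun i => (Holo.isIntegral_adjoin_iff (xL L N) (g i)).mp (hgint i),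
    fun y hy => ?_⟩
  exact hg y y.2 ((Holo.isIntegral_adjoin_iff (xL L N) _).mpr hy)

end

end Fermat.Agent.Lib.Red.OrthInst
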