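import Mathlib
import Fermat.Agent.Lib.FF.CharP.Fund
import Fermat.Agent.S24.KaehlerOrd

/-!
# RED, second route (G-A): separability of the reduction via `θ = q d/dq`

* `theta R : Derivation R (LaurentSeries R) (LaurentSeries R)`, `(θ f)_n = n f_n`;
* `D_ne_zero_of_theta_ne_zero` : for an intermediate field `E` of `k((q))/k` and `y ∈ E` with
  `θ y ≠ 0`, the Kähler differential `d y ∈ Ω[E/k]` is nonzero;
* `span_D_eq_top_of_isSeparable`, `span_D_eq_top_of_ne_zero` : in a function field of one variable
  over a perfect field every nonzero `d y` spans `Ω[F/K]`.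
-/

set_option autoImplicit false
set_option linter.style.haveILetI false

namespace Fermat.Agent.Lib.Red.GenusGA

open KaehlerDifferential IntermediateField

/-! ### `Ω[F/K]` is spanned by any nonzero `dy` -/

section Span

variable {K F : Type*} [Field K] [Field F] [Algebra K F]

open scoped IntermediateField.algebraAdjoinAdjoin in
/-- A field separable over `K(t)` is formally étale over `K[t]`. -/
theorem formallyEtale_adjoin_of_isSeparable (t : F) [Algebra.IsSeparable K⟮t⟯ F] :
    Algebra.FormallyEtale (Algebra.adjoin K ({t} : Set F)) F := by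
  haveI : Algebra.FormallyEtale K⟮t⟯ F := Algebra.FormallyEtale.of_isSeparable K⟮t⟯ F
  haveI : Algebra.FormallyEtale (Algebra.adjoin K ({t} : Set F)) K⟮t⟯ :=
    Algebra.FormallyEtale.of_isLocalization (nonZeroDivisors (Algebra.adjoin K ({t} : Set F)))
  exact Algebra.FormallyEtale.comp (Algebra.adjoin K ({t} : Set F)) K⟮t⟯ F

open scoped IntermediateField.algebraAdjoinAdjoin in
/-- `Ω[F/K] = F · dt` when `F` is separable over `K(t)`. -/
theorem span_D_eq_top_of_isSeparable (t : F) [Algebra.IsSeparable K⟮t⟯ F] :
    Submodule.span F {D K F t} = ⊤ := by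
  haveI := formallyEtale_adjoin_of_isSeparable (K := K) t
  rw [eq_top_iff]
  rintro ω -
  obtain ⟨s, rfl⟩ := (KaehlerDifferential.tensorKaehlerEquivOfFormallyEtale K
    (Algebra.adjoin K ({t} : Set F)) F).surjective ω
  induction s using TensorProduct.induction_on with
  | zero => rw [map_zero]; exact zero_mem _
  | tmul f η =>
    rw [KaehlerDifferential.tensorKaehlerEquivOfFormallyEtale_apply,
      KaehlerDifferential.mapBaseChange_tmul]
    refine Submodule.smul_mem _ _ ?_
    have hη : η ∈ Submodule.span (Algebra.adjoin K ({t} : Set F))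
        (Set.range (D K (Algebra.adjoin K ({t} : Set F)))) := by
      rw [KaehlerDifferential.span_range_derivation]; trivial
    induction hη using Submodule.span_induction with
    | mem y hy =>
      obtain ⟨a, rfl⟩ := hy
      rw [KaehlerDifferential.map_D]
      exact Fermat.Agent.S24.KaehlerOrd.D_mem_span_of_mem_adjoin t a.2
    | zero => rw [map_zero]; exact zero_mem _
    | add y z _ _ hy hz => rw [map_add]; exact add_mem hy hz
    | smul r y _ hy =>
      rw [map_smul, ← algebraMap_smul F r]
      exact Submodule.smul_mem _ _ hy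
  | add s s' hs hs' => rw [map_add]; exact add_mem hs hs'

/-- In a function field of one variable over a perfect field, every nonzero `dy` spans
`Ω[F/K]`. -/
theorem span_D_eq_top_of_ne_zero [PerfectField K] (x : F) (hx : Transcendental K x)
    [FiniteDimensional K⟮x⟯ F] {y : F} (hy : D K F y ≠ 0) :
    Submodule.span F {D K F y} = ⊤ := by
  obtain ⟨t, -, hsep⟩ := Fermat.Agent.Lib.FF.CharP.exists_separating (K := K) x hx
  have ht := span_D_eq_top_of_isSeparable (K := K) t
  have hmem : D K F y ∈ Submodule.span F {D K F t} := by rw [ht]; trivial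
  obtain ⟨a, ha⟩ := Submodule.mem_span_singleton.mp hmem
  have ha0 : a ≠ 0 := by
    rintro rfl
    rw [zero_smul] at ha
    exact hy ha.symm
  rw [eq_top_iff, ← ht, Submodule.span_singleton_le_iff_mem]
  refine Submodule.mem_span_singleton.mpr ⟨a⁻¹, ?_⟩
  rw [← ha, smul_smul, inv_mul_cancel₀ ha0, one_smul]

end Span

/-! ### The derivation `θ = q d/dq` of Laurent series -/

section Theta

variable (R : Type*) [CommRing R]

/-- `θ f = ∑ n f_n qⁿ`. -/
noncomputable def thetaFun (f : LaurentSeries R) : LaurentSeries R :=
  HahnSeries.mk (fun n : ℤ => (n : R) * f.coeff n) (f.isPWO_support.mono fun n hn => by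
    rw [Function.mem_support] at hn
    rw [HahnSeries.mem_support]
    intro h0
    rw [h0, mul_zero] at hn
    exact hn rfl)

variable {R}

@[simp]
theorem thetaFun_coeff (f : LaurentSeries R) (n : ℤ) :
    (thetaFun R f).coeff n = (n : R) * f.coeff n := rfl

theorem support_thetaFun_subset (f : LaurentSeries R) : (thetaFun R f).support ⊆ f.support := by
  intro n hn
  rw [HahnSeries.mem_support] at hn ⊢
  intro h0
  rw [thetaFun_coeff, h0, mul_zero] at hn
  exact hn rfl

theorem thetaFun_mul (f g : LaurentSeries R) :
    thetaFun R (f * g) = f * thetaFun R g + g * thetaFun R f := by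
  ext n
  rw [HahnSeries.coeff_add, thetaFun_coeff, HahnSeries.coeff_mul,
    HahnSeries.coeff_mul_right' g.isPWO_support (support_thetaFun_subset g), mul_comm g,
    HahnSeries.coeff_mul_left' f.isPWO_support (support_thetaFun_subset f), Finset.mul_sum,
    ← Finset.sum_add_distrib]
  refine Finset.sum_congr rfl fun ij hij => ?_
  rw [Finset.mem_antidiagonal] at hij
  rw [thetaFun_coeff, thetaFun_coeff, ← hij.2.2]
  push_cast
  ring

theorem algebraMap_eq_C (c : R) : algebraMap R (LaurentSeries R) c = HahnSeries.C c := by
  have h1 : algebraMap R (PowerSeries R) c = PowerSeries.C c := by simp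
  rw [HahnSeries.algebraMap_apply', h1, HahnSeries.ofPowerSeries_C]

theorem thetaFun_C_mul (c : R) (f : LaurentSeries R) :
    thetaFun R (HahnSeries.C c * f) = HahnSeries.C c * thetaFun R f := by
  rw [HahnSeries.C_mul_eq_smul, HahnSeries.C_mul_eq_smul]
  ext n
  rw [thetaFun_coeff, HahnSeries.coeff_smul, HahnSeries.coeff_smul, thetaFun_coeff, smul_eq_mul,
    smul_eq_mul]
  ring

variable (R)

/-- The derivation `θ = q d/dq` of `R((q))`. -/
noncomputable def theta : Derivation R (LaurentSeries R) (LaurentSeries R) where
  toFun := thetaFun R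
  map_add' f g := by
    ext n
    rw [HahnSeries.coeff_add, thetaFun_coeff, thetaFun_coeff, thetaFun_coeff,
      HahnSeries.coeff_add, mul_add]
  map_smul' c f := by
    rw [RingHom.id_apply, Algebra.smul_def, algebraMap_eq_C, thetaFun_C_mul,
      HahnSeries.C_mul_eq_smul]
  map_one_eq_zero' := by
    ext n
    show (thetaFun R 1).coeff n = 0
    rw [thetaFun_coeff, HahnSeries.coeff_one]
    split_ifs with h
    · rw [h]; simp
    · rw [mul_zero]
  leibniz' f g := by
    show thetaFun R (f * g) = f • thetaFun R g + g • thetaFun R f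
    rw [thetaFun_mul, smul_eq_mul, smul_eq_mul]

variable {R}

@[simp]
theorem theta_apply (f : LaurentSeries R) : theta R f = thetaFun R f := rfl

theorem theta_coeff (f : LaurentSeries R) (n : ℤ) :
    (theta R f).coeff n = (n : R) * f.coeff n := rfl

end Theta

/-! ### Nonvanishing of `dy` from `θ y ≠ 0` -/

section DNe

variable {k : Type*} [Field k] (E : IntermediateField k (LaurentSeries k))

theorem coe_smul_eq_C_mul (c : k) (e : E) :
    ((c • e : E) : LaurentSeries k) = HahnSeries.C c * (e : LaurentSeries k) := by
  rw [← algebraMap_eq_C, Algebra.smul_def]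
  rfl

/-- The tower `k ⊆ E ⊆ k((q))` for the coefficientwise scalar action of `k`. -/
theorem isScalarTower_laurent : IsScalarTower k E (LaurentSeries k) :=
  ⟨fun c e m => by
    show ((c • e : E) : LaurentSeries k) * m = c • ((e : LaurentSeries k) * m)
    rw [coe_smul_eq_C_mul, mul_assoc, HahnSeries.C_mul_eq_smul]⟩

/-- The restriction of `θ` to an intermediate field, as a derivation into `k((q))`. -/
noncomputable def thetaRestrict : Derivation k E (LaurentSeries k) where
  toFun e := thetaFun k (e : LaurentSeries k)
  map_add' a b := by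
    show thetaFun k ((a : LaurentSeries k) + (b : LaurentSeries k)) = _
    exact (theta k).map_add _ _
  map_smul' c a := by
    rw [RingHom.id_apply, coe_smul_eq_C_mul, thetaFun_C_mul, HahnSeries.C_mul_eq_smul]
  map_one_eq_zero' := (theta k).map_one_eq_zero
  leibniz' a b := by
    show thetaFun k ((a : LaurentSeries k) * (b : LaurentSeries k)) =
      (a : LaurentSeries k) * thetaFun k (b : LaurentSeries k) +
        (b : LaurentSeries k) * thetaFun k (a : LaurentSeries k)
    exact thetaFun_mul _ _

@[simp]
theorem thetaRestrict_apply (e : E) : thetaRestrict E e = thetaFun k (e : LaurentSeries k) := rfl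

/-- If `θ y ≠ 0` then `dy ≠ 0` in `Ω[E/k]`. -/
theorem D_ne_zero_of_theta_ne_zero (y : E) (hy : thetaFun k (y : LaurentSeries k) ≠ 0) :
    D k E y ≠ 0 := by
  intro h0
  apply hy
  haveI := isScalarTower_laurent E
  have h1 : (thetaRestrict E).liftKaehlerDifferential (D k E y) = thetaRestrict E y :=
    Derivation.liftKaehlerDifferential_comp_D (thetaRestrict E) y
  rw [h0, map_zero] at h1
  exact h1.symm

/-- If some coefficient `y_n` with `(n : k) ≠ 0` is nonzero then `dy ≠ 0`. -/
theorem D_ne_zero_of_coeff_ne_zero (y : E) (n : ℤ) (hn : (n : k) ≠ 0)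
    (hyn : (y : LaurentSeries k).coeff n ≠ 0) : D k E y ≠ 0 := by
  refine D_ne_zero_of_theta_ne_zero E y fun h0 => ?_
  have h1 := congrArg (fun f : LaurentSeries k => f.coeff n) h0
  simp only [thetaFun_coeff, HahnSeries.coeff_zero] at h1
  exact (mul_ne_zero hn hyn) h1

end DNe

end Fermat.Agent.Lib.Red.GenusGA
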