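/-
RED2-5 (helper84; consumer helper25): the characteristic-`ℓ` inputs of the second RED route on
the modular function field `modularFunctionFieldFullC k N` over an algebraically closed field
`k` (any characteristic), for the base functions `J̄ = ModL.Jbar k N` and, more generally,
`J̄(q^d) = ModL.Jdbar k N d hd` (`d ∣ N`; in particular `J̄_N = ModL.JNbar k N`):

* separability of `F̃ / k(x̄)` (`J̄` always; `J̄(q^d)` if `d ≠ 0` in `k`);
* every place is a pole of `x̄` or a zero of `x̄ - γ`;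
* the pole orders of `x̄` add up to `[F̃ : k(x̄)]`;
* the divisor of `dx̄`, with the `(e - 1)`-inequalities and degree `2 g - 2`.

Namespace `Fermat.Agent.Lib.Red.SpecInst` (statements), `Fermat.Agent.Lib.Red.SpecCharLAux`
(auxiliary lemmas).
-/
import Mathlib
import Fermat.Agent.Lib.FF.DivisorD
import Fermat.Agent.Lib.FF.ModLBase
import Fermat.Agent.Lib.Red.TorsionOneStep

set_option autoImplicit false
set_option linter.style.haveILetI false

namespace Fermat.Agent.Lib.Red.SpecCharLAux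

open AlgebraicCurve ModularCurve IntermediateField Fermat.Agent.Lib.FF Fermat.Agent.S28

section Generic

variable {K F : Type*} [Field K] [Field F] [Algebra K F]

/-- Every place is a pole of a transcendental function `y` or a zero of `y - γ`. -/
theorem value_of_transcendental {x : F} (h : IsFF1 K F x) {y : F} (hy : Transcendental K y)
    (Q : Place K F) : Q.ord y < 0 ∨ ∃ γ : K, 0 < Q.ord (y - algebraMap K F γ) := by
  by_cases hQ : Q.ord y < 0
  · exact Or.inl hQ
  · right
    obtain ⟨c, hc | hc⟩ :=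
      Fermat.Agent.Lib.Red.OneStep.exists_const_sub_pos Q (h.resK Q) (not_lt.mp hQ)
    · exact absurd (hc ▸ isAlgebraic_algebraMap c) hy
    · exact ⟨c, hc⟩

/-- The divisor of `dy` for a separating function `y`, in the shape of RED2. -/
theorem exists_divisor_D_of_sep {x : F} (h : IsFF1 K F x) (y : F)
    [Algebra.IsSeparable K⟮y⟯ F] :
    ∃ Wt : Divisor K F,
      (∀ Q : Place K F, Q.ord y < 0 → Q.ord y - 1 ≤ Wt Q) ∧
      (∀ (Q : Place K F) (γ : K), 0 < Q.ord (y - algebraMap K F γ) →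
        Q.ord (y - algebraMap K F γ) - 1 ≤ Wt Q) ∧
      Divisor.degree Wt = 2 * (genusFF K F : ℤ) - 2 := by
  obtain ⟨Wt, h1, h2, h3⟩ := Res.exists_divisor_D_ff1 h y (Res.span_D_eq_top_of_isSeparable y)
  exact ⟨Wt, h2, h1, h3⟩

end Generic

section Order

variable {k : Type*} [Field k]

/-- The order of a power of a Laurent series over a field. -/
theorem order_pow_laurent (z : LaurentSeries k) (n : ℕ) : (z ^ n).order = n • z.order := by
  by_cases hz : z = 0
  · rcases Nat.eq_zero_or_pos n with rfl | hn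
    · simp
    · rw [hz, zero_pow hn.ne', HahnSeries.order_zero, smul_zero]
  induction n with
  | zero => simp
  | succ n ih =>
    have h1 : (z ^ n).leadingCoeff * z.leadingCoeff ≠ 0 :=
      mul_ne_zero (HahnSeries.leadingCoeff_ne_zero.mpr (pow_ne_zero n hz))
        (HahnSeries.leadingCoeff_ne_zero.mpr hz)
    rw [pow_succ, HahnSeries.order_mul_of_ne_zero h1, ih, succ_nsmul]

/-- A series whose order is not divisible by `p` is not a `p`-th power. -/
theorem not_dvd_order_of_pow_eq {z y : LaurentSeries k} {p : ℕ} (h : z ^ p = y) :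
    (p : ℤ) ∣ y.order := by
  rw [← h, order_pow_laurent, nsmul_eq_mul]
  exact dvd_mul_right _ _

theorem order_jqModC : (jqModC k).order = -1 := by
  have hne : jqModC k ≠ 0 := jqModC_ne_zero_of_nontrivial k
  refine le_antisymm (HahnSeries.order_le_of_coeff_ne_zero ?_) ?_
  · rw [coeff_jqModC_neg_one]
    exact one_ne_zero
  · rw [HahnSeries.le_order_iff_forall hne]
    intro j hj
    exact coeff_jqModC_of_lt k hj

theorem order_Jd (d : ℕ) [NeZero d] : (TD.Jd k d).order = -(d : ℤ) := by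
  rw [TD.Jd_eq]
  have hc : (qExpand k d (jqModC k)).coeff ((d : ℤ) * (-1)) = 1 := by
    rw [qExpand_coeff_mul, coeff_jqModC_neg_one]
  have hne : qExpand k d (jqModC k) ≠ 0 := by
    intro h0
    rw [h0, HahnSeries.coeff_zero] at hc
    exact zero_ne_one hc
  have hd : (0 : ℤ) < d := by exact_mod_cast Nat.pos_of_ne_zero (NeZero.ne d)
  refine le_antisymm ?_ ?_
  · have h1 := HahnSeries.order_le_of_coeff_ne_zero (x := qExpand k d (jqModC k))
      (g := (d : ℤ) * (-1)) (by rw [hc]; exact one_ne_zero)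
    rwa [mul_neg_one] at h1
  · rw [HahnSeries.le_order_iff_forall hne]
    intro j hj
    by_cases hdj : (d : ℤ) ∣ j
    · obtain ⟨i, rfl⟩ := hdj
      rw [qExpand_coeff_mul]
      apply coeff_jqModC_of_lt
      by_contra hi
      rw [not_lt] at hi
      have : -(d : ℤ) ≤ (d : ℤ) * i := by nlinarith
      omega
    · exact qExpand_coeff_of_not_dvd d _ hdj

end Order

section Sep

variable {k : Type*} [Field k] [IsAlgClosed k]

/-- An element of a function field inside `k((q))` whose `q`-order is prime to the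
characteristic is a separating element. -/
theorem isSeparable_of_order (E : IntermediateField k (LaurentSeries k)) (y : E)
    (hy : Transcendental k y) [FiniteDimensional k⟮y⟯ E]
    (hord : ∀ p : ℕ, p.Prime → CharP k p →
      ¬ (p : ℤ) ∣ HahnSeries.order (y : LaurentSeries k)) :
    Algebra.IsSeparable k⟮y⟯ E := by
  obtain ⟨p, hp⟩ := _root_.CharP.exists k
  rcases _root_.CharP.char_is_prime_or_zero k p with hprime | h0
  · haveI : Fact p.Prime := ⟨hprime⟩
    obtain ⟨t, -, hsep⟩ := Fermat.Agent.Lib.FF.CharP.exists_separating (K := k) y hy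
    haveI := hsep
    rcases Fermat.Agent.Lib.FF.CharP.exists_pow_eq_or_isSeparable (K := k) p t y with
      ⟨z, hz⟩ | hs
    · exfalso
      have hz' : (z : LaurentSeries k) ^ p = (y : LaurentSeries k) := by
        rw [← hz]
        rfl
      exact hord p hprime hp (not_dvd_order_of_pow_eq hz')
    · exact hs
  · haveI : CharP k 0 := h0 ▸ hp
    haveI : CharZero k := _root_.CharP.charP_to_charZero k
    haveI : CharZero (LaurentSeries k) :=
      charZero_of_injective_algebraMap (algebraMap k (LaurentSeries k)).injective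
    haveI : CharZero E := inferInstance
    haveI : CharZero k⟮y⟯ := inferInstance
    haveI : Algebra.IsAlgebraic k⟮y⟯ E := Algebra.IsAlgebraic.of_finite _ _
    exact Algebra.IsAlgebraic.isSeparable_of_perfectField

end Sep

end Fermat.Agent.Lib.Red.SpecCharLAux

namespace Fermat.Agent.Lib.Red.SpecInst

open AlgebraicCurve ModularCurve IntermediateField Fermat.Agent.Lib.FF Fermat.Agent.S28
open Fermat.Agent.Lib.Red.SpecCharLAux

variable (k : Type*) [Field k] [IsAlgClosed k] (N : ℕ) [NeZero N]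

/-! ### The base function `J̄ = J̄(q)` -/

/-- (a) `F̃ / k(J̄)` is separable (`J̄ = q⁻¹ + …` is not a `p`-th power). -/
theorem isSeparable_Jbar :
    Algebra.IsSeparable k⟮ModL.Jbar k N⟯ (modularFunctionFieldFullC k N) := by
  haveI := ModL.finiteDimensional_Jbar k N
  refine isSeparable_of_order (modularFunctionFieldFullC k N) (ModL.Jbar k N)
    (ModL.transcendental_Jbar k N) fun p hp _ hdvd => ?_
  rw [ModL.coe_Jbar, order_jqModC] at hdvd
  have h1 : (p : ℤ) ∣ 1 := (dvd_neg (a := (p : ℤ)) (b := 1)).mp hdvd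
  have h2 : p ∣ 1 := by exact_mod_cast h1
  exact hp.one_lt.ne' (Nat.dvd_one.mp h2)

/-- (b) every place is a pole of `J̄` or a zero of `J̄ - γ`. -/
theorem value_Jbar (Q : Place k (modularFunctionFieldFullC k N)) :
    Q.ord (ModL.Jbar k N) < 0 ∨
      ∃ γ : k, 0 < Q.ord (ModL.Jbar k N - algebraMap k (modularFunctionFieldFullC k N) γ) :=
  value_of_transcendental (isFF1_Jbar k N) (ModL.transcendental_Jbar k N) Q

/-- (c) the pole orders of `J̄` add up to `[F̃ : k(J̄)]`. -/
theorem poles_Jbar :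
    ∃ hfin : {Q : Place k (modularFunctionFieldFullC k N) | Q.ord (ModL.Jbar k N) < 0}.Finite,
      ∑ Q ∈ hfin.toFinset, (-Q.ord (ModL.Jbar k N))
        = (Module.finrank k⟮ModL.Jbar k N⟯ (modularFunctionFieldFullC k N) : ℤ) := by
  haveI := ModL.finiteDimensional_Jbar k N
  exact Fermat.Agent.Lib.FF.CharP.polesOf_finite_sum (ModL.Jbar k N)
    (ModL.transcendental_Jbar k N)

/-- (e) the divisor of `dJ̄`. -/
theorem exists_divisor_D_Jbar :
    ∃ Wt : Divisor k (modularFunctionFieldFullC k N),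
      (∀ Q, Q.ord (ModL.Jbar k N) < 0 → Q.ord (ModL.Jbar k N) - 1 ≤ Wt Q) ∧
      (∀ Q (γ : k), 0 < Q.ord (ModL.Jbar k N - algebraMap k _ γ) →
        Q.ord (ModL.Jbar k N - algebraMap k _ γ) - 1 ≤ Wt Q) ∧
      Divisor.degree Wt = 2 * (genusFF k (modularFunctionFieldFullC k N) : ℤ) - 2 := by
  haveI := isSeparable_Jbar k N
  exact exists_divisor_D_of_sep (isFF1_Jbar k N) (ModL.Jbar k N)

/-! ### The base functions `J̄(q^d)`, `d ∣ N` -/

/-- (a) `F̃ / k(J̄(q^d))` is separable if `d ≠ 0` in `k`. -/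
theorem isSeparable_Jdbar (d : ℕ) [NeZero d] (hd : d ∣ N) (hdk : (d : k) ≠ 0) :
    Algebra.IsSeparable k⟮ModL.Jdbar k N d hd⟯ (modularFunctionFieldFullC k N) := by
  haveI := ModL.finiteDimensional_Jdbar k N d hd
  refine isSeparable_of_order (modularFunctionFieldFullC k N) (ModL.Jdbar k N d hd)
    (ModL.transcendental_Jdbar k N d hd) fun p hp hchar hdvd => ?_
  rw [ModL.coe_Jdbar_eq_Jd, order_Jd] at hdvd
  have h1 : (p : ℤ) ∣ (d : ℤ) := (dvd_neg (a := (p : ℤ)) (b := (d : ℤ))).mp hdvd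
  have h2 : p ∣ d := by exact_mod_cast h1
  exact hdk ((_root_.CharP.cast_eq_zero_iff k p d).mpr h2)

/-- (b) every place is a pole of `J̄(q^d)` or a zero of `J̄(q^d) - γ`. -/
theorem value_Jdbar (d : ℕ) [NeZero d] (hd : d ∣ N)
    (Q : Place k (modularFunctionFieldFullC k N)) :
    Q.ord (ModL.Jdbar k N d hd) < 0 ∨
      ∃ γ : k, 0 < Q.ord (ModL.Jdbar k N d hd
        - algebraMap k (modularFunctionFieldFullC k N) γ) :=
  value_of_transcendental (isFF1_Jbar k N) (ModL.transcendental_Jdbar k N d hd) Q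

/-- (c) the pole orders of `J̄(q^d)` add up to `[F̃ : k(J̄(q^d))]`. -/
theorem poles_Jdbar (d : ℕ) [NeZero d] (hd : d ∣ N) :
    ∃ hfin : {Q : Place k (modularFunctionFieldFullC k N) |
        Q.ord (ModL.Jdbar k N d hd) < 0}.Finite,
      ∑ Q ∈ hfin.toFinset, (-Q.ord (ModL.Jdbar k N d hd))
        = (Module.finrank k⟮ModL.Jdbar k N d hd⟯ (modularFunctionFieldFullC k N) : ℤ) := by
  haveI := ModL.finiteDimensional_Jdbar k N d hd
  exact Fermat.Agent.Lib.FF.CharP.polesOf_finite_sum (ModL.Jdbar k N d hd)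
    (ModL.transcendental_Jdbar k N d hd)

/-- (e) the divisor of `dJ̄(q^d)`, if `d ≠ 0` in `k`. -/
theorem exists_divisor_D_Jdbar (d : ℕ) [NeZero d] (hd : d ∣ N) (hdk : (d : k) ≠ 0) :
    ∃ Wt : Divisor k (modularFunctionFieldFullC k N),
      (∀ Q, Q.ord (ModL.Jdbar k N d hd) < 0 → Q.ord (ModL.Jdbar k N d hd) - 1 ≤ Wt Q) ∧
      (∀ Q (γ : k), 0 < Q.ord (ModL.Jdbar k N d hd - algebraMap k _ γ) →
        Q.ord (ModL.Jdbar k N d hd - algebraMap k _ γ) - 1 ≤ Wt Q) ∧
      Divisor.degree Wt = 2 * (genusFF k (modularFunctionFieldFullC k N) : ℤ) - 2 := by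
  haveI := isSeparable_Jdbar k N d hd hdk
  exact exists_divisor_D_of_sep (isFF1_Jbar k N) (ModL.Jdbar k N d hd)

/-! ### The base function `J̄_N = J̄(q^N)` -/

/-- (a) `F̃ / k(J̄_N)` is separable if `N ≠ 0` in `k`. -/
theorem isSeparable_JNbar (hNk : (N : k) ≠ 0) :
    Algebra.IsSeparable k⟮ModL.JNbar k N⟯ (modularFunctionFieldFullC k N) :=
  isSeparable_Jdbar k N N dvd_rfl hNk

/-- (b) every place is a pole of `J̄_N` or a zero of `J̄_N - γ`. -/
theorem value_JNbar (Q : Place k (modularFunctionFieldFullC k N)) :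
    Q.ord (ModL.JNbar k N) < 0 ∨
      ∃ γ : k, 0 < Q.ord (ModL.JNbar k N - algebraMap k (modularFunctionFieldFullC k N) γ) :=
  value_Jdbar k N N dvd_rfl Q

/-- (c) the pole orders of `J̄_N` add up to `[F̃ : k(J̄_N)]`. -/
theorem poles_JNbar :
    ∃ hfin : {Q : Place k (modularFunctionFieldFullC k N) | Q.ord (ModL.JNbar k N) < 0}.Finite,
      ∑ Q ∈ hfin.toFinset, (-Q.ord (ModL.JNbar k N))
        = (Module.finrank k⟮ModL.JNbar k N⟯ (modularFunctionFieldFullC k N) : ℤ) :=
  poles_Jdbar k N N dvd_rfl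

/-- (e) the divisor of `dJ̄_N`, if `N ≠ 0` in `k`. -/
theorem exists_divisor_D_JNbar (hNk : (N : k) ≠ 0) :
    ∃ Wt : Divisor k (modularFunctionFieldFullC k N),
      (∀ Q, Q.ord (ModL.JNbar k N) < 0 → Q.ord (ModL.JNbar k N) - 1 ≤ Wt Q) ∧
      (∀ Q (γ : k), 0 < Q.ord (ModL.JNbar k N - algebraMap k _ γ) →
        Q.ord (ModL.JNbar k N - algebraMap k _ γ) - 1 ≤ Wt Q) ∧
      Divisor.degree Wt = 2 * (genusFF k (modularFunctionFieldFullC k N) : ℤ) - 2 :=
  exists_divisor_D_Jdbar k N N dvd_rfl hNk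

end Fermat.Agent.Lib.Red.SpecInst
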