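/-
ESJ / RED-23 (task 276, port of `Lib/Red/Integral.lean` to an arbitrary base function).

For `B : BaseFn.Data A π N` (base function `x = B.x`, reduction `x̄ = B.xt hπ hNk`):

* `B.coe_aeval_x`, `B.coe_aeval_xt`, `B.coe_aeval_map_x`;
* `B.aeval_mem_Ow_iff` : `p(x) ∈ Ow ↔ p ∈ A[X]` (for `p ∈ L[X]`);
* `B.AX : Subring F` : the ring `A[x]`; `B.mem_AX_iff`, `B.AX_le_Ow`, `B.mem_Ow_of_isIntegral_AX`;
* `B.isIntegral_AX_of_isIntegral` (**Lemma A**), `B.isIntegral_AX_iff`;
* `B.redAX`, `B.isIntegral_redF`, `B.inv_aeval_map_mem_Ow`, `B.inv_x_sub_mem_Ow`;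
* `B.exists_goodBasis_integral_AX` : a good basis made of `A[x]`-integral functions.

The abstract statements of `Integral.lean` (`Ortho.GoodBasis.exists_map_eq_minpoly`,
`inv_mem_of_redF_ne_zero`, …) are reused, not copied.
-/
import Mathlib
import Fermat.Agent.Lib.Red.BaseData
import Fermat.Agent.Lib.Red.Integral

set_option autoImplicit false
set_option linter.unusedSectionVars false

namespace Fermat.Agent.Lib.Red.BaseFn.Data

open HahnSeries ModularCurve Polynomial AlgebraicCurve Fermat.Agent.S28 IntermediateField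
open Fermat.Agent.Lib.Red

open scoped IntermediateField.algebraAdjoinAdjoin

noncomputable section

variable {L : Type*} [Field L] [Algebra ℚ L] {A : ValuationSubring L} {k : Type} [Field k]
  {π : A →+* k} {N : ℕ} [NeZero N] (B : Data A π N)

/-- The value of a polynomial in `x`, as a series. -/
theorem coe_aeval_x (p : Polynomial L) :
    ((Polynomial.aeval B.x p : ↥(laurentBaseChange L (modularFunctionFieldFull N))) :
      LaurentSeries L) = p.eval₂ (HahnSeries.C : L →+* LaurentSeries L) (incl A B.X) := by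
  have h := Polynomial.aeval_algHom_apply (laurentBaseChange L (modularFunctionFieldFull N)).val
    B.x p
  rw [← aeval_eq_eval₂_C]
  exact h.symm

/-- The value of a polynomial in `x̄`, as a series. -/
theorem coe_aeval_xt (hπ : ∀ a : A, ¬ IsUnit a → π a = 0) (hNk : (N : k) ≠ 0)
    (p : Polynomial k) :
    ((Polynomial.aeval (B.xt hπ hNk) p : ↥(modularFunctionFieldFullC k N)) :
      LaurentSeries k) = p.eval₂ (HahnSeries.C : k →+* LaurentSeries k) (rbar A π B.X) := by
  have h := Polynomial.aeval_algHom_apply (modularFunctionFieldFullC k N).val (B.xt hπ hNk) p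
  rw [← aeval_eq_eval₂_C, ← B.coe_xt hπ hNk]
  exact h.symm

/-- `p(x)` for `p ∈ A[X]`, as a series, is the image of an `A`-integral series. -/
theorem coe_aeval_map_x (p : Polynomial A) :
    ((Polynomial.aeval B.x (p.map A.subtype) :
      ↥(laurentBaseChange L (modularFunctionFieldFull N))) : LaurentSeries L) =
      incl A (p.eval₂ (HahnSeries.C : A →+* LaurentSeries A) B.X) := by
  rw [coe_aeval_x, incl_eval₂]

theorem aeval_map_X_x :
    Polynomial.aeval B.x ((Polynomial.X : Polynomial A).map A.subtype) = B.x := by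
  rw [Polynomial.map_X, Polynomial.aeval_X]

/-- A polynomial in `x` is Gauss-integral iff its coefficients lie in `A`. -/
theorem aeval_mem_Ow_iff (hπ : ∀ a : A, ¬ IsUnit a → π a = 0) (hNk : (N : k) ≠ 0)
    (p : Polynomial L) :
    Polynomial.aeval B.x p ∈ Ow A π N hNk ↔ ∀ i, p.coeff i ∈ A := by
  constructor
  · intro h
    by_cases hp : p = 0
    · intro i
      rw [hp, Polynomial.coeff_zero]
      exact A.zero_mem
    · obtain ⟨c, hc, P₀, hP₀, hne⟩ := exists_primitive_scaling π p hp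
      have hF : algebraMap L ↥(laurentBaseChange L (modularFunctionFieldFull N)) c *
          Polynomial.aeval B.x p = Polynomial.aeval B.x (P₀.map A.subtype) := by
        rw [hP₀, map_mul, Polynomial.aeval_C]
      have hcy : algebraMap L _ c * Polynomial.aeval B.x p ∈ Ow A π N hNk := by
        rw [hF]
        exact B.aeval_map_mem_Ow hNk P₀
      have hred : redF A π N hπ hNk ⟨_, hcy⟩ ≠ 0 := by
        have h1 := B.redF_aeval_map hπ hNk P₀
        have h2 : (⟨_, hcy⟩ : Ow A π N hNk) = ⟨_, B.aeval_map_mem_Ow hNk P₀⟩ :=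
          Subtype.ext hF
        rw [h2, h1]
        intro h0
        exact hne ((transcendental_iff.mp (B.transcendental_xt hπ hNk)) _ h0)
      have hinv := inv_mem_of_redF_ne_zero hπ hNk h hcy hred
      intro i
      have h3 : p.coeff i = c⁻¹ * (P₀.coeff i : L) := by
        have h4 := congrArg (fun R => R.coeff i) hP₀
        simp only [Polynomial.coeff_map, Polynomial.coeff_C_mul] at h4
        have h5 : (P₀.coeff i : L) = c * p.coeff i := h4
        rw [h5, ← mul_assoc, inv_mul_cancel₀ hc, one_mul]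
      rw [h3]
      exact mul_mem hinv (P₀.coeff i).2
  · intro h
    obtain ⟨P₀, hP₀⟩ := exists_map_subtype_eq p h
    rw [← hP₀]
    exact B.aeval_map_mem_Ow hNk P₀

/-- The ring `A[x]`, as a subring of `L·F_N`. -/
def AX : Subring ↥(laurentBaseChange L (modularFunctionFieldFull N)) :=
  ((Polynomial.aeval (R := L) B.x).toRingHom.comp (Polynomial.mapRingHom A.subtype)).range

theorem mem_AX_iff {z : ↥(laurentBaseChange L (modularFunctionFieldFull N))} :
    z ∈ B.AX ↔ ∃ p : Polynomial A, Polynomial.aeval B.x (p.map A.subtype) = z :=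
  Iff.rfl

theorem AX_le_Ow (hNk : (N : k) ≠ 0) {z : ↥(laurentBaseChange L (modularFunctionFieldFull N))}
    (hz : z ∈ B.AX) : z ∈ Ow A π N hNk := by
  obtain ⟨p, rfl⟩ := hz
  exact B.aeval_map_mem_Ow hNk p

/-- An element integral over `A[x]` is Gauss-integral. -/
theorem mem_Ow_of_isIntegral_AX (hNk : (N : k) ≠ 0)
    {z : ↥(laurentBaseChange L (modularFunctionFieldFull N))} (hz : IsIntegral B.AX z) :
    z ∈ Ow A π N hNk := by
  obtain ⟨f, hf, hfz⟩ := hz
  have hz' : IsIntegral (Ow A π N hNk) z := by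
    refine ⟨f.map (Subring.inclusion (fun w hw => B.AX_le_Ow hNk hw :
      B.AX ≤ (Ow A π N hNk).toSubring)), hf.map _, ?_⟩
    rw [Polynomial.eval₂_map]
    exact hfz
  obtain ⟨w, hw⟩ := IsIntegrallyClosed.isIntegral_iff.mp hz'
  rw [← hw]
  exact w.2

/-! ### Lemma A -/

theorem isIntegrallyClosed_adjoin_x (hπ : ∀ a : A, ¬ IsUnit a → π a = 0) (hNk : (N : k) ≠ 0) :
    IsIntegrallyClosed ↥(Algebra.adjoin L {B.x}) :=
  IsIntegrallyClosed.of_equiv
    (Polynomial.algEquivOfTranscendental L B.x (B.transcendental_x hπ hNk)).toRingEquiv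

/-- An element of `L[x]` which is Gauss-integral lies in `A[x]`. -/
theorem mem_AX_of_mem_adjoin (hπ : ∀ a : A, ¬ IsUnit a → π a = 0) (hNk : (N : k) ≠ 0)
    {z : ↥(laurentBaseChange L (modularFunctionFieldFull N))}
    (hz : z ∈ Algebra.adjoin L {B.x}) (hzO : z ∈ Ow A π N hNk) : z ∈ B.AX := by
  have h3 : z ∈ (Polynomial.aeval (R := L) B.x).range := by
    rw [← Algebra.adjoin_singleton_eq_range_aeval]
    exact hz
  obtain ⟨p, rfl⟩ := h3
  obtain ⟨P₀, hP₀⟩ := exists_map_subtype_eq p ((B.aeval_mem_Ow_iff hπ hNk p).mp hzO)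
  exact ⟨P₀, by rw [← hP₀]; rfl⟩

/-- The coefficients of the minimal polynomial over `L[x]` of a Gauss-integral element integral
over `L[x]` lie in `A[x]`. -/
theorem coeff_minpoly_mem_AX (hπ : ∀ a : A, ¬ IsUnit a → π a = 0)
    (hsurj : Function.Surjective π) (hNk : (N : k) ≠ 0) (y : Ow A π N hNk)
    (hy : IsIntegral ↥(Algebra.adjoin L {B.x})
      (y : ↥(laurentBaseChange L (modularFunctionFieldFull N)))) (i : ℕ) :
    (((minpoly ↥(Algebra.adjoin L {B.x})
      (y : ↥(laurentBaseChange L (modularFunctionFieldFull N)))).coeff i :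
        ↥(Algebra.adjoin L {B.x})) :
      ↥(laurentBaseChange L (modularFunctionFieldFull N))) ∈ B.AX := by
  obtain ⟨n, ⟨G⟩⟩ := B.exists_goodBasis hπ hsurj hNk
  have := B.isIntegrallyClosed_adjoin_x hπ hNk
  obtain ⟨g', hg'⟩ := G.exists_map_eq_minpoly y
  have hmin := minpoly.isIntegrallyClosed_eq_field_fractions' ↥(L⟮B.x⟯) hy
  refine B.mem_AX_of_mem_adjoin hπ hNk (Subtype.property _) ?_
  have h1 : algebraMap ↥(Algebra.adjoin L {B.x}) ↥(L⟮B.x⟯)
      ((minpoly ↥(Algebra.adjoin L {B.x})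
        (y : ↥(laurentBaseChange L (modularFunctionFieldFull N)))).coeff i) =
      ((g'.coeff i : B.Ov hNk) : ↥(L⟮B.x⟯)) := by
    have h2 := congrArg (fun p => p.coeff i) (hg'.trans hmin)
    simp only [Polynomial.coeff_map] at h2
    exact h2.symm
  have h4 := congrArg (algebraMap ↥(L⟮B.x⟯)
    ↥(laurentBaseChange L (modularFunctionFieldFull N))) h1
  have h6 : algebraMap ↥(L⟮B.x⟯) ↥(laurentBaseChange L (modularFunctionFieldFull N))
      ((g'.coeff i : B.Ov hNk) : ↥(L⟮B.x⟯)) ∈ Ow A π N hNk := (g'.coeff i).2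
  rw [← h4] at h6
  exact h6

/-- **Lemma A.** A Gauss-integral element of `L·F_N` which is integral over `L[x]` is integral
over `A[x]`. -/
theorem isIntegral_AX_of_isIntegral (hπ : ∀ a : A, ¬ IsUnit a → π a = 0)
    (hsurj : Function.Surjective π) (hNk : (N : k) ≠ 0) (y : Ow A π N hNk)
    (hy : IsIntegral ↥(Algebra.adjoin L {B.x})
      (y : ↥(laurentBaseChange L (modularFunctionFieldFull N)))) :
    IsIntegral ↥(B.AX) (y : ↥(laurentBaseChange L (modularFunctionFieldFull N))) := by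
  have hcoeff := B.coeff_minpoly_mem_AX hπ hsurj hNk y hy
  -- lift the minimal polynomial to `A[x]`
  set q : Polynomial ↥(laurentBaseChange L (modularFunctionFieldFull N)) :=
    (minpoly ↥(Algebra.adjoin L {B.x})
      (y : ↥(laurentBaseChange L (modularFunctionFieldFull N)))).map
      (algebraMap ↥(Algebra.adjoin L {B.x})
      ↥(laurentBaseChange L (modularFunctionFieldFull N))) with hq
  have hqm : q.Monic := (minpoly.monic hy).map _
  have hq0 : q.eval (y : ↥(laurentBaseChange L (modularFunctionFieldFull N))) = 0 := by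
    rw [hq, Polynomial.eval_map, ← Polynomial.aeval_def]
    exact minpoly.aeval _ _
  have hlift : q ∈ Polynomial.lifts (B.AX).subtype := by
    rw [Polynomial.lifts_iff_coeff_lifts]
    intro n
    rw [hq, Polynomial.coeff_map]
    exact ⟨⟨_, hcoeff n⟩, rfl⟩
  obtain ⟨q', hq', -, hq'm⟩ := Polynomial.lifts_and_natDegree_eq_and_monic hlift hqm
  refine ⟨q', hq'm, ?_⟩
  have h5 : Polynomial.eval₂ (algebraMap ↥(B.AX)
      ↥(laurentBaseChange L (modularFunctionFieldFull N)))
      (y : ↥(laurentBaseChange L (modularFunctionFieldFull N))) q' =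
      (q'.map (B.AX).subtype).eval (y : ↥(laurentBaseChange L (modularFunctionFieldFull N))) := by
    rw [Polynomial.eval_map]
    rfl
  rw [h5, hq', hq0]

/-! ### `A[x]`-integrality: further properties -/

theorem x_mem_AX : B.x ∈ B.AX := ⟨Polynomial.X, B.aeval_map_X_x⟩

/-- `A[x] ⊆ L[x]`. -/
theorem AX_le_adjoin {z : ↥(laurentBaseChange L (modularFunctionFieldFull N))}
    (hz : z ∈ B.AX) : z ∈ Algebra.adjoin L {B.x} := by
  obtain ⟨p, rfl⟩ := hz
  rw [Algebra.adjoin_singleton_eq_range_aeval]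
  exact ⟨_, rfl⟩

theorem isIntegral_adjoin_of_isIntegral_AX
    {z : ↥(laurentBaseChange L (modularFunctionFieldFull N))} (hz : IsIntegral ↥(B.AX) z) :
    IsIntegral ↥(Algebra.adjoin L {B.x}) z := by
  obtain ⟨f, hf, hfz⟩ := hz
  let φ : ↥(B.AX) →+* ↥(Algebra.adjoin L {B.x}) :=
    ((B.AX).subtype).codRestrict (Algebra.adjoin L {B.x}) (fun c => B.AX_le_adjoin c.2)
  refine ⟨f.map φ, hf.map _, ?_⟩
  rw [Polynomial.eval₂_map]
  exact hfz

/-- **Lemma A**, as an equivalence: integral over `A[x]` ⟺ Gauss-integral and integral over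
`L[x]`. -/
theorem isIntegral_AX_iff (hπ : ∀ a : A, ¬ IsUnit a → π a = 0)
    (hsurj : Function.Surjective π) (hNk : (N : k) ≠ 0)
    {z : ↥(laurentBaseChange L (modularFunctionFieldFull N))} :
    IsIntegral ↥(B.AX) z ↔
      z ∈ Ow A π N hNk ∧ IsIntegral ↥(Algebra.adjoin L {B.x}) z :=
  ⟨fun h => ⟨B.mem_Ow_of_isIntegral_AX hNk h, B.isIntegral_adjoin_of_isIntegral_AX h⟩,
   fun h => B.isIntegral_AX_of_isIntegral hπ hsurj hNk ⟨z, h.1⟩ h.2⟩

theorem AX_le_Ow_toSubring (hNk : (N : k) ≠ 0) : B.AX ≤ (Ow A π N hNk).toSubring :=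
  fun _ hz => B.AX_le_Ow hNk hz

/-- The reduction of an element of `A[x]` lies in `k[x̄]`. -/
theorem redF_mem_adjoin (hπ : ∀ a : A, ¬ IsUnit a → π a = 0) (hNk : (N : k) ≠ 0)
    {z : ↥(laurentBaseChange L (modularFunctionFieldFull N))} (hz : z ∈ B.AX) :
    redF A π N hπ hNk ⟨z, B.AX_le_Ow hNk hz⟩ ∈ Algebra.adjoin k {B.xt hπ hNk} := by
  obtain ⟨p, hp⟩ := hz
  have e : (⟨z, B.AX_le_Ow hNk ⟨p, hp⟩⟩ : Ow A π N hNk) = ⟨_, B.aeval_map_mem_Ow hNk p⟩ :=
    Subtype.ext hp.symm
  rw [e, B.redF_aeval_map hπ hNk p, Algebra.adjoin_singleton_eq_range_aeval]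
  exact ⟨_, rfl⟩

/-- The reduction `A[x] → k[x̄]`. -/
def redAX (hπ : ∀ a : A, ¬ IsUnit a → π a = 0) (hNk : (N : k) ≠ 0) :
    ↥(B.AX) →+* ↥(Algebra.adjoin k {B.xt hπ hNk}) :=
  ((redF A π N hπ hNk).comp (Subring.inclusion (B.AX_le_Ow_toSubring hNk))).codRestrict
    (Algebra.adjoin k {B.xt hπ hNk}) (fun c => B.redF_mem_adjoin hπ hNk c.2)

theorem coe_redAX (hπ : ∀ a : A, ¬ IsUnit a → π a = 0) (hNk : (N : k) ≠ 0) (c : ↥(B.AX)) :
    ((B.redAX hπ hNk c : ↥(Algebra.adjoin k {B.xt hπ hNk})) :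
      ↥(modularFunctionFieldFullC k N)) = redF A π N hπ hNk ⟨c, B.AX_le_Ow hNk c.2⟩ := rfl

/-- The reduction of an element integral over `A[x]` is integral over `k[x̄]`. -/
theorem isIntegral_redF (hπ : ∀ a : A, ¬ IsUnit a → π a = 0) (hNk : (N : k) ≠ 0)
    (y : Ow A π N hNk)
    (hy : IsIntegral ↥(B.AX) (y : ↥(laurentBaseChange L (modularFunctionFieldFull N)))) :
    IsIntegral ↥(Algebra.adjoin k {B.xt hπ hNk}) (redF A π N hπ hNk y) := by
  obtain ⟨f, hf, hfy⟩ := hy
  refine ⟨f.map (B.redAX hπ hNk), hf.map _, ?_⟩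
  rw [Polynomial.eval₂_map]
  have h1 : (algebraMap ↥(Algebra.adjoin k {B.xt hπ hNk})
      ↥(modularFunctionFieldFullC k N)).comp (B.redAX hπ hNk) =
      (redF A π N hπ hNk).comp (Subring.inclusion (B.AX_le_Ow_toSubring hNk)) := rfl
  rw [h1, ← Polynomial.hom_eval₂]
  have h2 : f.eval₂ (Subring.inclusion (B.AX_le_Ow_toSubring (π := π) hNk)) y = 0 := by
    apply Subtype.ext
    have h3 := Polynomial.hom_eval₂ f (Subring.inclusion (B.AX_le_Ow_toSubring (π := π) hNk))
      (Ow A π N hNk).subtype y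
    exact h3.trans hfy
  rw [h2, map_zero]

theorem inv_aeval_map_mem_Ow (hπ : ∀ a : A, ¬ IsUnit a → π a = 0) (hNk : (N : k) ≠ 0)
    (p : Polynomial A) (hp : p.map π ≠ 0) :
    (Polynomial.aeval B.x (p.map A.subtype))⁻¹ ∈ Ow A π N hNk := by
  obtain ⟨u, hu⟩ := B.isUnit_aeval_map hπ hNk p hp
  have h1 : ((u⁻¹ : (Ow A π N hNk)ˣ) : Ow A π N hNk) * ⟨_, B.aeval_map_mem_Ow hNk p⟩ = 1 := by
    rw [← hu]
    exact u.inv_mul
  have h2 : (((u⁻¹ : (Ow A π N hNk)ˣ) : Ow A π N hNk) :
      ↥(laurentBaseChange L (modularFunctionFieldFull N))) *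
      Polynomial.aeval B.x (p.map A.subtype) = 1 := congrArg Subtype.val h1
  rw [← eq_inv_of_mul_eq_one_left h2]
  exact Subtype.property _

/-- `(x - c)⁻¹` is Gauss-integral for `c ∈ A`. -/
theorem inv_x_sub_mem_Ow (hπ : ∀ a : A, ¬ IsUnit a → π a = 0) (hNk : (N : k) ≠ 0) (c : A) :
    (B.x - algebraMap L ↥(laurentBaseChange L (modularFunctionFieldFull N)) (c : L))⁻¹ ∈
      Ow A π N hNk := by
  have h := B.inv_aeval_map_mem_Ow hπ hNk (Polynomial.X - Polynomial.C c) (by
    rw [Polynomial.map_sub, Polynomial.map_X, Polynomial.map_C]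
    exact Polynomial.X_sub_C_ne_zero _)
  rw [Polynomial.map_sub, Polynomial.map_X, Polynomial.map_C, map_sub, Polynomial.aeval_X,
    Polynomial.aeval_C] at h
  exact h

/-! ### Integrality of the good basis -/

/-- **A good basis made of `A[x]`-integral functions.** -/
theorem exists_goodBasis_integral_AX (hπ : ∀ a : A, ¬ IsUnit a → π a = 0)
    (hsurj : Function.Surjective π) (hNk : (N : k) ≠ 0) :
    ∃ (n : ℕ) (G : Ortho.GoodBasis (Ow A π N hNk) (redF A π N hπ hNk) (B.Ov hNk)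
        (B.redv hπ hNk) (Fin n)),
      ∀ i, IsIntegral ↥(B.AX)
        ((G.b i : Ow A π N hNk) : ↥(laurentBaseChange L (modularFunctionFieldFull N))) := by
  obtain ⟨n, G, hG⟩ := B.exists_goodBasis_integral hπ hsurj hNk
  exact ⟨n, G, fun i => B.isIntegral_AX_of_isIntegral hπ hsurj hNk (G.b i) (hG i)⟩

end

end Fermat.Agent.Lib.Red.BaseFn.Data
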