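import Mathlib
import Fermat.Agent.Lib.Red.TorsionOneStep

/-!
# RED, second route: the genus inequality from a given place reduction ("G-A")

Abstract statement.  `F / L` and `Ft / k` function fields, `r : Place L F → Place k Ft` a
degree preserving map of places, `x : F`, `xb : Ft` ("the reduction of `x`") such that the
push-forward along `r` of the divisor of `x - c` is the divisor of `xb - π c` for `c` in a
valuation ring `A ⊆ L` with residue map `π`, and is zero for `c ∉ A` (both are instances of
the Prelude's specification of a place reduction: `x - c`, resp. `x / c - 1`, is an integral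
series with nonzero reduction).  Assume moreover that `x` and `xb` have the same number of
poles (counted with multiplicity), and that the branch values of `x` lie in `A` and stay
distinct under `π`.

Then: poles of `x` reduce to poles of `xb` (with conservation of multiplicities), zeros of
`x - c` reduce to zeros of `xb - π c`, and if `W`, `Wt` are divisors with the local shape of
`div (dx)` (tame on `F`: `W P = e - 1` resp. `-e - 1`; on `Ft` only the inequalities
`Wt Q ≥ e - 1`, `≥ -e - 1`, which hold in every characteristic) then `deg W ≤ deg Wt`.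
With `deg W = 2 g - 2` and `deg Wt = 2 gt - 2` this is `g ≤ gt`.
-/

set_option autoImplicit false

namespace Fermat.Agent.Lib.Red.GenusGA

open AlgebraicCurve Fermat.Agent.Lib.Red.OneStep

/-! ### Finitely supported integer functions: totals, positive and negative parts -/

section Fin

variable {α β : Type*}

/-- The sum of all values. -/
noncomputable def tot : (α →₀ ℤ) →+ ℤ := Finsupp.liftAddHom fun _ => AddMonoidHom.id ℤ

theorem tot_apply (D : α →₀ ℤ) : tot D = ∑ P ∈ D.support, D P := by
  simp [tot, Finsupp.sum]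

theorem tot_mapDomain (r : α → β) (D : α →₀ ℤ) : tot (Finsupp.mapDomain r D) = tot D := by
  classical
  induction D using Finsupp.induction with
  | zero => simp
  | single_add P n D _ _ ih =>
    rw [Finsupp.mapDomain_add, map_add, map_add, ih, Finsupp.mapDomain_single]
    simp [tot]

theorem eq_zero_of_nonneg_of_tot (D : α →₀ ℤ) (h : ∀ P, 0 ≤ D P) (h0 : tot D = 0) : D = 0 := by
  ext P
  rw [tot_apply] at h0
  by_contra hP
  exact hP ((Finset.sum_eq_zero_iff_of_nonneg (fun P _ => h P)).1 h0 P
    (Finsupp.mem_support_iff.2 hP))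

/-- The negative part. -/
noncomputable def negP (D : α →₀ ℤ) : α →₀ ℤ :=
  Finsupp.mapRange (fun a : ℤ => max (-a) 0) (by simp) D

/-- The positive part. -/
noncomputable def posP (D : α →₀ ℤ) : α →₀ ℤ :=
  Finsupp.mapRange (fun a : ℤ => max a 0) (by simp) D

theorem negP_apply (D : α →₀ ℤ) (P : α) : negP D P = max (-(D P)) 0 :=
  Finsupp.mapRange_apply ..

theorem posP_apply (D : α →₀ ℤ) (P : α) : posP D P = max (D P) 0 :=
  Finsupp.mapRange_apply ..

theorem negP_nonneg (D : α →₀ ℤ) (P : α) : 0 ≤ negP D P := by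
  rw [negP_apply]; exact le_max_right _ _

theorem posP_nonneg (D : α →₀ ℤ) (P : α) : 0 ≤ posP D P := by
  rw [posP_apply]; exact le_max_right _ _

theorem posP_sub_negP (D : α →₀ ℤ) : posP D - negP D = D := by
  ext P
  rw [Finsupp.sub_apply, posP_apply, negP_apply]
  rcases le_total (D P) 0 with h | h
  · rw [max_eq_right h, max_eq_left (by omega)]; omega
  · rw [max_eq_left h, max_eq_right (by omega)]; omega

theorem mapDomain_sub' (r : α → β) (D E : α →₀ ℤ) :
    Finsupp.mapDomain r (D - E) = Finsupp.mapDomain r D - Finsupp.mapDomain r E :=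
  Finsupp.mapDomain_sub

/-- **Conservation**: if `r_* D = Db` and the negative parts have the same total, then `r_*`
maps the negative part onto the negative part (and the positive part onto the positive part). -/
theorem mapDomain_negP (r : α → β) (D : α →₀ ℤ) (Db : β →₀ ℤ)
    (h : Finsupp.mapDomain r D = Db) (ht : tot (negP D) = tot (negP Db)) :
    Finsupp.mapDomain r (negP D) = negP Db := by
  have hE : Finsupp.mapDomain r (negP D) - negP Db = Finsupp.mapDomain r (posP D) - posP Db := by
    have h1 : Finsupp.mapDomain r (posP D) - Finsupp.mapDomain r (negP D) = posP Db - negP Db := by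
      rw [← mapDomain_sub', posP_sub_negP, posP_sub_negP, h]
    have h2 : Finsupp.mapDomain r (posP D) =
        posP Db - negP Db + Finsupp.mapDomain r (negP D) := by
      rw [← h1]; abel
    rw [h2]; abel
  have h0 : Finsupp.mapDomain r (negP D) - negP Db = 0 := by
    refine eq_zero_of_nonneg_of_tot _ (fun Q => ?_) ?_
    · rcases le_total 0 (Db Q) with hQ | hQ
      · rw [Finsupp.sub_apply, negP_apply, max_eq_right (by omega), sub_zero]
        exact mapDomain_nonneg_of r _ Q fun P _ => negP_nonneg D P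
      · rw [hE, Finsupp.sub_apply, posP_apply, max_eq_right hQ, sub_zero]
        exact mapDomain_nonneg_of r _ Q fun P _ => posP_nonneg D P
    · rw [map_sub, tot_mapDomain, ht, sub_self]
  exact sub_eq_zero.1 h0

theorem mapDomain_posP (r : α → β) (D : α →₀ ℤ) (Db : β →₀ ℤ)
    (h : Finsupp.mapDomain r D = Db) (hn : Finsupp.mapDomain r (negP D) = negP Db) :
    Finsupp.mapDomain r (posP D) = posP Db := by
  have h1 : Finsupp.mapDomain r (posP D) - Finsupp.mapDomain r (negP D) = posP Db - negP Db := by
    rw [← mapDomain_sub', posP_sub_negP, posP_sub_negP, h]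
  rw [hn] at h1
  exact sub_left_injective h1

/-- A fibre sum is `≤ -1` if all terms are `≤ 0` and one of them is `≤ -1`. -/
theorem mapDomain_le_neg_one (r : α → β) (E : α →₀ ℤ) (Q : β)
    (h : ∀ P, r P = Q → E P ≤ 0) {P₀ : α} (h0 : r P₀ = Q) (h1 : E P₀ ≤ -1) :
    Finsupp.mapDomain r E Q ≤ -1 := by
  have h2 := le_mapDomain_of r (-E) Q (fun P hP => by
    rw [Finsupp.neg_apply]; have := h P hP; omega) h0
  have h3 : Finsupp.mapDomain r (-E) = -Finsupp.mapDomain r E := by
    rw [← Finsupp.mapDomain.addMonoidHom_apply, map_neg, Finsupp.mapDomain.addMonoidHom_apply]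
  rw [h3, Finsupp.neg_apply, Finsupp.neg_apply] at h2
  omega

theorem exists_pos_of_mapDomain_pos (r : α → β) (D : α →₀ ℤ) (Q : β)
    (h : 0 < Finsupp.mapDomain r D Q) : ∃ P, r P = Q ∧ 0 < D P := by
  by_contra hcon
  push Not at hcon
  have h2 := mapDomain_nonneg_of r (-D) Q (fun P hP => by
    rw [Finsupp.neg_apply]; have := hcon P hP; omega)
  have h3 : Finsupp.mapDomain r (-D) = -Finsupp.mapDomain r D := by
    rw [← Finsupp.mapDomain.addMonoidHom_apply, map_neg, Finsupp.mapDomain.addMonoidHom_apply]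
  rw [h3, Finsupp.neg_apply] at h2
  omega

end Fin

/-! ### Degrees -/

section Degree

variable {L F k Ft : Type*} [Field L] [Field F] [Algebra L F] [Field k] [Field Ft] [Algebra k Ft]

theorem degree_mapDomain (r : Place L F → Place k Ft) (hdeg : ∀ P, (r P).deg = P.deg)
    (D : Divisor L F) : Divisor.degree (Finsupp.mapDomain r D) = Divisor.degree D := by
  induction D using Finsupp.induction with
  | zero => simp
  | single_add P n D _ _ ih =>
    rw [Finsupp.mapDomain_add, map_add, map_add, ih, Finsupp.mapDomain_single,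
      Divisor.degree_single, Divisor.degree_single, hdeg]

theorem degree_nonneg {D : Divisor L F} (h : ∀ P, 0 ≤ D P) : 0 ≤ Divisor.degree D := by
  have : Divisor.degree D = D.sum fun v a => a * (v.deg : ℤ) := by
    simp [Divisor.degree]
  rw [this]
  exact Finset.sum_nonneg fun P _ => mul_nonneg (h P) (Int.natCast_nonneg _)

theorem degree_le_of_le {D D' : Divisor L F} (h : ∀ P, D P ≤ D' P) :
    Divisor.degree D ≤ Divisor.degree D' := by
  have h1 := degree_nonneg (D := D' - D) fun P => by
    rw [Finsupp.sub_apply]; have := h P; omega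
  rw [map_sub] at h1
  omega

end Degree

/-! ### The pencil `x - c` -/

section Curve

variable {L F k Ft : Type*} [Field L] [Field F] [Algebra L F] [Field k] [Field Ft] [Algebra k Ft]

theorem ord_sub_const_of_neg (P : Place L F) {x : F} (hx : P.ord x < 0) (c : L) :
    P.ord (x - algebraMap L F c) = P.ord x := by
  have hx0 : x ≠ 0 := by
    rintro rfl
    simp at hx
  have h1 : P.ord (algebraMap L F c - x) = P.ord x := by
    refine ord_sub_eq_of_lt P hx0 ?_
    by_cases hc : algebraMap L F c = 0
    · exact Or.inl hc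
    · refine Or.inr ?_
      rw [Fermat.Agent.S24.ord_algebraMap]
      exact hx
  rw [← h1, ← ord_neg, neg_sub]

theorem ord_sub_const_neg_iff (P : Place L F) (x : F) (c : L) :
    P.ord (x - algebraMap L F c) < 0 ↔ P.ord x < 0 := by
  constructor
  · intro h
    by_contra h'
    have := ord_sub_const_nonneg P (not_lt.1 h') c
    omega
  · intro h
    rw [ord_sub_const_of_neg P h]
    exact h

variable [HasPrincipalDivisors L F]

theorem negP_pdiv_sub_const (x : F) (c : L) :
    negP (pdiv L (x - algebraMap L F c)) = negP (pdiv L x) := by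
  ext P
  rw [negP_apply, negP_apply, pdiv_apply, pdiv_apply]
  by_cases h : P.ord x < 0
  · rw [ord_sub_const_of_neg P h]
  · have h1 := ord_sub_const_nonneg P (not_lt.1 h) c
    rw [max_eq_right (by omega), max_eq_right (by omega)]

theorem tot_negP_pdiv (f : F) (hf : {P : Place L F | P.ord f < 0}.Finite) :
    tot (negP (pdiv L f)) = ∑ P ∈ hf.toFinset, (-P.ord f) := by
  classical
  rw [tot_apply]
  have hs : (negP (pdiv L f)).support = hf.toFinset := by
    ext P
    rw [Finsupp.mem_support_iff, negP_apply, pdiv_apply, Set.Finite.mem_toFinset,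
      Set.mem_ofPred_eq]
    constructor
    · intro h
      by_contra h'
      exact h (max_eq_right (by omega))
    · intro h h'
      rw [max_eq_left (by omega)] at h'
      omega
  rw [hs]
  refine Finset.sum_congr rfl fun P hP => ?_
  rw [Set.Finite.mem_toFinset, Set.mem_ofPred_eq] at hP
  rw [negP_apply, pdiv_apply, max_eq_left (by omega)]

variable [HasPrincipalDivisors k Ft]

/-- The hypotheses on the pencil `x - c`: both specification clauses and the equality of the
numbers of poles. -/
structure Setting (A : ValuationSubring L) (π : A →+* k) (r : Place L F → Place k Ft)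
    (x : F) (xb : Ft) : Prop where
  /-- `xb` is not constant -/
  hxbc : ∀ κ : k, xb ≠ algebraMap k Ft κ
  /-- `r_* div (x - c) = div (xb - π c)` for `c ∈ A` -/
  fin : ∀ c : A, ∀ D : Divisor L F, (∀ P, D P = P.ord (x - algebraMap L F (c : L))) →
      ∀ Q, Finsupp.mapDomain r D Q = Q.ord (xb - algebraMap k Ft (π c))
  /-- `r_* div (x - c) = 0` for `c ∉ A` -/
  inf : ∀ c : L, c ∉ A → ∀ D : Divisor L F, (∀ P, D P = P.ord (x - algebraMap L F c)) →
      ∀ Q, Finsupp.mapDomain r D Q = 0
  /-- `x` and `xb` have the same number of poles -/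
  poles : ∃ n : ℤ, (∃ hf : {P : Place L F | P.ord x < 0}.Finite,
      ∑ P ∈ hf.toFinset, (-P.ord x) = n) ∧
    ∃ hf : {Q : Place k Ft | Q.ord xb < 0}.Finite, ∑ Q ∈ hf.toFinset, (-Q.ord xb) = n

namespace Setting

variable {A : ValuationSubring L} {π : A →+* k} {r : Place L F → Place k Ft} {x : F} {xb : Ft}

theorem mapDomain_pdiv (h : Setting A π r x xb) :
    Finsupp.mapDomain r (pdiv L x) = pdiv k xb := by
  ext Q
  have h1 := h.fin 0 (pdiv L x) (fun P => by
    rw [pdiv_apply, ZeroMemClass.coe_zero, map_zero, sub_zero]) Q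
  rw [h1, pdiv_apply, map_zero, map_zero, sub_zero]

/-- **Poles reduce to poles, with conservation of the multiplicities.** -/
theorem mapDomain_negP_pdiv (h : Setting A π r x xb) :
    Finsupp.mapDomain r (negP (pdiv L x)) = negP (pdiv k xb) := by
  refine mapDomain_negP r _ _ h.mapDomain_pdiv ?_
  obtain ⟨n, ⟨hf, hn⟩, ⟨hfb, hnb⟩⟩ := h.poles
  rw [tot_negP_pdiv x hf, tot_negP_pdiv xb hfb, hn, hnb]

/-- A pole of `x` reduces to a pole of `xb`. -/
theorem ord_neg_of_ord_neg (h : Setting A π r x xb) {P : Place L F} (hP : P.ord x < 0) :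
    (r P).ord xb < 0 := by
  have h1 := le_mapDomain_of r (negP (pdiv L x)) (r P) (fun P' _ => negP_nonneg _ P') rfl
  rw [h.mapDomain_negP_pdiv, negP_apply, negP_apply, pdiv_apply, pdiv_apply,
    max_eq_left (by omega)] at h1
  by_contra h'
  rw [max_eq_right (by omega)] at h1
  omega

/-- If `Q` is not a pole of `xb` then no pole of `x` reduces to `Q`. -/
theorem ord_nonneg_of_ord_nonneg (h : Setting A π r x xb) {P : Place L F}
    (hP : 0 ≤ (r P).ord xb) : 0 ≤ P.ord x := by
  by_contra h'
  have := h.ord_neg_of_ord_neg (not_le.1 h')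
  omega

/-- Zeros of `x - c`, `c ∈ A`, reduce to zeros of `xb - π c`, with conservation. -/
theorem mapDomain_posP_fin (h : Setting A π r x xb) (c : A) :
    Finsupp.mapDomain r (posP (pdiv L (x - algebraMap L F (c : L)))) =
      posP (pdiv k (xb - algebraMap k Ft (π c))) := by
  refine mapDomain_posP r _ _ ?_ ?_
  · ext Q
    rw [h.fin c _ (fun P => pdiv_apply _ P) Q, pdiv_apply]
  · rw [negP_pdiv_sub_const, negP_pdiv_sub_const, h.mapDomain_negP_pdiv]

/-- Zeros of `x - c`, `c ∉ A`, reduce to the poles of `xb`, with conservation. -/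
theorem mapDomain_posP_inf (h : Setting A π r x xb) {c : L} (hc : c ∉ A) :
    Finsupp.mapDomain r (posP (pdiv L (x - algebraMap L F c))) = negP (pdiv k xb) := by
  have h0 : Finsupp.mapDomain r (pdiv L (x - algebraMap L F c)) = 0 := by
    ext Q
    rw [h.inf c hc _ (fun P => pdiv_apply _ P) Q, Finsupp.zero_apply]
  have h1 : posP (pdiv L (x - algebraMap L F c)) =
      pdiv L (x - algebraMap L F c) + negP (pdiv L (x - algebraMap L F c)) :=
    eq_add_of_sub_eq (posP_sub_negP _)
  rw [h1, Finsupp.mapDomain_add, h0, zero_add, negP_pdiv_sub_const, h.mapDomain_negP_pdiv]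

/-- **Local inequality** `r_* W ≤ Wt`, where `W` has the shape of `div (dx)` (tame) and `Wt`
is bounded below by the shape of `div (d xb)`. `B` is the set of branch values. -/
theorem mapDomain_le (h : Setting A π r x xb) (hπ : Function.Surjective π)
    (hx : ∀ P : Place L F, 0 ≤ P.ord x → ∃ c : L, 0 < P.ord (x - algebraMap L F c))
    (hxb : ∀ Q : Place k Ft, 0 ≤ Q.ord xb → ∃ κ : k, 0 < Q.ord (xb - algebraMap k Ft κ))
    (B : Set L) (hBA : ∀ b ∈ B, b ∈ A)
    (hBinj : ∀ b b' : A, (b : L) ∈ B → (b' : L) ∈ B → π b = π b' → b = b')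
    (hB : ∀ (P : Place L F) (c : L), c ∉ B → 0 < P.ord (x - algebraMap L F c) →
      P.ord (x - algebraMap L F c) = 1)
    (W : Divisor L F)
    (hW1 : ∀ (P : Place L F) (c : L), 0 < P.ord (x - algebraMap L F c) →
      W P = P.ord (x - algebraMap L F c) - 1)
    (hW2 : ∀ P : Place L F, P.ord x < 0 → W P = P.ord x - 1)
    (Wt : Divisor k Ft)
    (hWt1 : ∀ (Q : Place k Ft) (κ : k), 0 < Q.ord (xb - algebraMap k Ft κ) →
      Q.ord (xb - algebraMap k Ft κ) - 1 ≤ Wt Q)
    (hWt2 : ∀ Q : Place k Ft, Q.ord xb < 0 → Q.ord xb - 1 ≤ Wt Q) (Q : Place k Ft) :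
    Finsupp.mapDomain r W Q ≤ Wt Q := by
  by_cases hQ : Q.ord xb < 0
  · -- `Q` is a pole of `xb`
    have hT := h.mapDomain_negP_pdiv
    have hTQ : Finsupp.mapDomain r (negP (pdiv L x)) Q = -Q.ord xb := by
      rw [hT, negP_apply, pdiv_apply, max_eq_left (by omega)]
    obtain ⟨P₀, hP₀Q, hP₀⟩ := exists_pos_of_mapDomain_pos r (negP (pdiv L x)) Q (by omega)
    have hP₀x : P₀.ord x < 0 := by
      rw [negP_apply, pdiv_apply] at hP₀
      by_contra h'
      rw [max_eq_right (by omega)] at hP₀
      omega
    have key : Finsupp.mapDomain r (W + negP (pdiv L x)) Q ≤ -1 := by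
      refine mapDomain_le_neg_one r _ Q (fun P hPQ => ?_) hP₀Q ?_
      · rw [Finsupp.add_apply, negP_apply, pdiv_apply]
        by_cases hP : P.ord x < 0
        · rw [hW2 P hP, max_eq_left (by omega)]; omega
        · obtain ⟨c, hc⟩ := hx P (not_lt.1 hP)
          have hcA : c ∉ A := by
            intro hcA
            have h1 := h.mapDomain_posP_fin ⟨c, hcA⟩
            have h2 : Finsupp.mapDomain r (posP (pdiv L (x - algebraMap L F c))) Q = 0 := by
              rw [h1, posP_apply, pdiv_apply, ord_sub_const_of_neg Q hQ, max_eq_right (by omega)]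
            have h3 := eq_zero_of_mapDomain_eq_zero r _ Q (fun P' _ => posP_nonneg _ P') h2 P hPQ
            rw [posP_apply, pdiv_apply, max_eq_left (by omega)] at h3
            omega
          have hcB : c ∉ B := fun hcB => hcA (hBA c hcB)
          rw [hW1 P c hc, hB P c hcB hc, max_eq_right (by omega)]; omega
      · rw [Finsupp.add_apply, negP_apply, pdiv_apply, hW2 P₀ hP₀x, max_eq_left (by omega)]
        omega
    rw [Finsupp.mapDomain_add, Finsupp.add_apply, hTQ] at key
    have := hWt2 Q hQ
    omega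
  · -- `Q` is not a pole of `xb`
    obtain ⟨κ, hκ⟩ := hxb Q (not_lt.1 hQ)
    obtain ⟨cs, hcs, hcsB⟩ : ∃ cs : A, π cs = κ ∧ ∀ b : A, (b : L) ∈ B → π b = κ → b = cs := by
      by_cases hex : ∃ b : A, (b : L) ∈ B ∧ π b = κ
      · obtain ⟨b, hbB, hbκ⟩ := hex
        exact ⟨b, hbκ, fun b' hb' hb'κ => hBinj b' b hb' hbB (hb'κ.trans hbκ.symm)⟩
      · obtain ⟨c, hc⟩ := hπ κ
        exact ⟨c, hc, fun b hb hbκ => absurd ⟨b, hb, hbκ⟩ hex⟩
    have hT := h.mapDomain_posP_fin cs
    have hTQ : Finsupp.mapDomain r (posP (pdiv L (x - algebraMap L F (cs : L)))) Q =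
        Q.ord (xb - algebraMap k Ft κ) := by
      rw [hT, posP_apply, pdiv_apply, hcs, max_eq_left (by omega)]
    obtain ⟨P₀, hP₀Q, hP₀⟩ := exists_pos_of_mapDomain_pos r
      (posP (pdiv L (x - algebraMap L F (cs : L)))) Q (by omega)
    have hP₀x : 0 < P₀.ord (x - algebraMap L F (cs : L)) := by
      rw [posP_apply, pdiv_apply] at hP₀
      by_contra h'
      rw [max_eq_right (by omega)] at hP₀
      omega
    have key : Finsupp.mapDomain r (W - posP (pdiv L (x - algebraMap L F (cs : L)))) Q ≤ -1 := by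
      refine mapDomain_le_neg_one r _ Q (fun P hPQ => ?_) hP₀Q ?_
      · rw [Finsupp.sub_apply, posP_apply, pdiv_apply]
        have hPx : 0 ≤ P.ord x := h.ord_nonneg_of_ord_nonneg (by rw [hPQ]; omega)
        obtain ⟨c, hc⟩ := hx P hPx
        have hcA : c ∈ A := by
          by_contra hcA
          have h1 := h.mapDomain_posP_inf hcA
          have h2 : Finsupp.mapDomain r (posP (pdiv L (x - algebraMap L F c))) Q = 0 := by
            rw [h1, negP_apply, pdiv_apply, max_eq_right (by omega)]
          have h3 := eq_zero_of_mapDomain_eq_zero r _ Q (fun P' _ => posP_nonneg _ P') h2 P hPQ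
          rw [posP_apply, pdiv_apply, max_eq_left (by omega)] at h3
          omega
        have hcQ : 0 < Q.ord (xb - algebraMap k Ft (π ⟨c, hcA⟩)) := by
          have h1 := h.mapDomain_posP_fin ⟨c, hcA⟩
          have h2 := le_mapDomain_of r (posP (pdiv L (x - algebraMap L F c))) Q
            (fun P' _ => posP_nonneg _ P') hPQ
          rw [h1, posP_apply, posP_apply, pdiv_apply, pdiv_apply, max_eq_left (by omega)] at h2
          by_contra h'
          rw [max_eq_right (by omega)] at h2
          omega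
        have hπc : π ⟨c, hcA⟩ = κ := by
          by_contra hne
          have hd : (xb - algebraMap k Ft (π ⟨c, hcA⟩)) - (xb - algebraMap k Ft κ) =
              algebraMap k Ft (κ - π ⟨c, hcA⟩) := by
            rw [map_sub]; ring
          have hd0 : (xb - algebraMap k Ft (π ⟨c, hcA⟩)) - (xb - algebraMap k Ft κ) ≠ 0 := by
            rw [hd]
            exact (map_ne_zero _).2 (sub_ne_zero.2 (Ne.symm hne))
          have h1 := Fermat.Agent.S24.ord_sub_ge Q (sub_ne_zero.2 (h.hxbc _))
            (sub_ne_zero.2 (h.hxbc κ)) hd0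
          rw [hd, Fermat.Agent.S24.ord_algebraMap] at h1
          have := lt_min hcQ hκ
          omega
        by_cases hcc : c = (cs : L)
        · rw [← hcc, hW1 P c hc, max_eq_left (by omega)]; omega
        · have hcB : c ∉ B := by
            intro hcB
            exact hcc (congrArg Subtype.val (hcsB ⟨c, hcA⟩ hcB hπc))
          have h0 : P.ord (x - algebraMap L F (cs : L)) = 0 := by
            have he : x - algebraMap L F (cs : L) =
                (x - algebraMap L F c) - algebraMap L F ((cs : L) - c) := by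
              rw [map_sub]; ring
            have hne : algebraMap L F ((cs : L) - c) ≠ 0 :=
              (map_ne_zero _).2 (sub_ne_zero.2 (Ne.symm hcc))
            rw [he, ord_sub_eq_of_lt P hne (Or.inr (by
              rw [Fermat.Agent.S24.ord_algebraMap]; exact hc)), Fermat.Agent.S24.ord_algebraMap]
          rw [hW1 P c hc, hB P c hcB hc, h0, max_eq_right le_rfl]; omega
      · rw [Finsupp.sub_apply, posP_apply, pdiv_apply, hW1 P₀ _ hP₀x, max_eq_left (by omega)]
        omega
    rw [mapDomain_sub', Finsupp.sub_apply, hTQ] at key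
    have := hWt1 Q κ hκ
    omega

/-- **The genus inequality, divisor form**: `deg W ≤ deg Wt`. -/
theorem degree_le (h : Setting A π r x xb) (hπ : Function.Surjective π)
    (hdeg : ∀ P, (r P).deg = P.deg)
    (hx : ∀ P : Place L F, 0 ≤ P.ord x → ∃ c : L, 0 < P.ord (x - algebraMap L F c))
    (hxb : ∀ Q : Place k Ft, 0 ≤ Q.ord xb → ∃ κ : k, 0 < Q.ord (xb - algebraMap k Ft κ))
    (B : Set L) (hBA : ∀ b ∈ B, b ∈ A)
    (hBinj : ∀ b b' : A, (b : L) ∈ B → (b' : L) ∈ B → π b = π b' → b = b')
    (hB : ∀ (P : Place L F) (c : L), c ∉ B → 0 < P.ord (x - algebraMap L F c) →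
      P.ord (x - algebraMap L F c) = 1)
    (W : Divisor L F)
    (hW1 : ∀ (P : Place L F) (c : L), 0 < P.ord (x - algebraMap L F c) →
      W P = P.ord (x - algebraMap L F c) - 1)
    (hW2 : ∀ P : Place L F, P.ord x < 0 → W P = P.ord x - 1)
    (Wt : Divisor k Ft)
    (hWt1 : ∀ (Q : Place k Ft) (κ : k), 0 < Q.ord (xb - algebraMap k Ft κ) →
      Q.ord (xb - algebraMap k Ft κ) - 1 ≤ Wt Q)
    (hWt2 : ∀ Q : Place k Ft, Q.ord xb < 0 → Q.ord xb - 1 ≤ Wt Q) :
    Divisor.degree W ≤ Divisor.degree Wt := by
  rw [← degree_mapDomain r hdeg W]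
  exact degree_le_of_le fun Q =>
    h.mapDomain_le hπ hx hxb B hBA hBinj hB W hW1 hW2 Wt hWt1 hWt2 Q

/-- **The genus inequality**: `g ≤ gt`, given `deg W = 2 g - 2` and `deg Wt = 2 gt - 2`. -/
theorem genus_le (h : Setting A π r x xb) (hπ : Function.Surjective π)
    (hdeg : ∀ P, (r P).deg = P.deg)
    (hx : ∀ P : Place L F, 0 ≤ P.ord x → ∃ c : L, 0 < P.ord (x - algebraMap L F c))
    (hxb : ∀ Q : Place k Ft, 0 ≤ Q.ord xb → ∃ κ : k, 0 < Q.ord (xb - algebraMap k Ft κ))
    (B : Set L) (hBA : ∀ b ∈ B, b ∈ A)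
    (hBinj : ∀ b b' : A, (b : L) ∈ B → (b' : L) ∈ B → π b = π b' → b = b')
    (hB : ∀ (P : Place L F) (c : L), c ∉ B → 0 < P.ord (x - algebraMap L F c) →
      P.ord (x - algebraMap L F c) = 1)
    (W : Divisor L F)
    (hW1 : ∀ (P : Place L F) (c : L), 0 < P.ord (x - algebraMap L F c) →
      W P = P.ord (x - algebraMap L F c) - 1)
    (hW2 : ∀ P : Place L F, P.ord x < 0 → W P = P.ord x - 1)
    (Wt : Divisor k Ft)
    (hWt1 : ∀ (Q : Place k Ft) (κ : k), 0 < Q.ord (xb - algebraMap k Ft κ) →
      Q.ord (xb - algebraMap k Ft κ) - 1 ≤ Wt Q)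
    (hWt2 : ∀ Q : Place k Ft, Q.ord xb < 0 → Q.ord xb - 1 ≤ Wt Q)
    {g gt : ℕ} (hg : Divisor.degree W = 2 * (g : ℤ) - 2)
    (hgt : Divisor.degree Wt = 2 * (gt : ℤ) - 2) : g ≤ gt := by
  have := h.degree_le hπ hdeg hx hxb B hBA hBinj hB W hW1 hW2 Wt hWt1 hWt2
  omega

end Setting

end Curve

end Fermat.Agent.Lib.Red.GenusGA
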