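import Mathlib
import Fermat.Agent.Lib.FF.Canonical
import Fermat.Agent.Lib.FF.Setting
import Fermat.Agent.Lib.FF.RRFF1
import Fermat.Agent.S24.ResidueTrivial
import Fermat.Agent.S24.ARest
import Fermat.Agent.S24.Transfer
import Fermat.Agent.S24.DNeZero

/-!
# RED, second route (G-A): the divisor of `dx` in characteristic zero

`K` algebraically closed of characteristic zero, `F` finite over `K(x)`.  If `x` is unramified
outside a finite set `Bv` of values (and `∞`), then there is a divisor `W` with
`W P = ord_P (x - c) - 1` at the zeros of `x - c`, `W P = ord_P x - 1` at the poles of `x`, and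
`deg W = 2 * genusFF - 2` (the divisor of the differential `dx`).
-/

set_option autoImplicit false
set_option linter.style.haveILetI false

namespace Fermat.Agent.Lib.Red.GenusGA

open AlgebraicCurve IntermediateField KaehlerDifferential Fermat.Agent.Lib.FF

variable {K F : Type*} [Field K] [Field F] [Algebra K F]

/-- **The divisor of `dx`, characteristic zero.** -/
theorem exists_divisor_D_charZero [IsAlgClosed K] [CharZero K] (x : F) (hx : Transcendental K x)
    [FiniteDimensional K⟮x⟯ F] (Bv : Finset K)
    (hB : ∀ (P : Place K F) (c : K), c ∉ Bv → 0 < P.ord (x - algebraMap K F c) →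
      P.ord (x - algebraMap K F c) = 1) :
    ∃ W : Divisor K F,
      (∀ (P : Place K F) (c : K), 0 < P.ord (x - algebraMap K F c) →
        W P = P.ord (x - algebraMap K F c) - 1) ∧
      (∀ P : Place K F, P.ord x < 0 → W P = P.ord x - 1) ∧
      Divisor.degree W = 2 * (genusFF K F : ℤ) - 2 := by
  classical
  haveI : Algebra.IsAlgebraic K⟮x⟯ F := Algebra.IsAlgebraic.of_finite _ _
  have hFF : IsFF1 K F x := isFF1_of_charZero x hx
  haveI := hFF.hasPrincipalDivisors
  haveI : ∀ v : Place K F, v.DCoordGenerates := fun v => Fermat.Agent.S24.Diff.dCoordGenerates x v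
  have hxc : ∀ c : K, x - algebraMap K F c ≠ 0 := by
    intro c h
    apply hx
    rw [sub_eq_zero.mp h]
    exact isAlgebraic_algebraMap c
  have hx0 : x ≠ 0 := by
    have := hxc 0
    rwa [map_zero, sub_zero] at this
  obtain ⟨hpoles, -⟩ := Fermat.Agent.S24.Transfer.polesOf_finite_sum x hx
  have hfib : ∀ c : K, {v : Place K F | 0 < v.ord (x - algebraMap K F c)}.Finite := fun c =>
    (Fermat.Agent.S24.Transfer.placesOver_finite_sum x hx c).1
  -- the values of the divisor
  have hval1 : ∀ (P : Place K F) (c : K), 0 < P.ord (x - algebraMap K F c) →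
      P.ordDifferential (D K F x) = P.ord (x - algebraMap K F c) - 1 := fun P c hc =>
    Fermat.Agent.S24.Diff.ordDifferential_D_sub_eq x P c (hxc c) hc.ne'
  have hval2 : ∀ P : Place K F, P.ord x < 0 → P.ordDifferential (D K F x) = P.ord x - 1 :=
    fun P hP => Fermat.Agent.S24.Diff.ordDifferential_D_eq x P hx0 hP.ne
  let S : Finset (Place K F) := hpoles.toFinset ∪ Bv.biUnion fun c => (hfib c).toFinset
  let W : Divisor K F := Finsupp.onFinset S (fun P => P.ordDifferential (D K F x)) (by
    intro P hP
    by_contra hPS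
    apply hP
    rcases Fermat.Agent.S24.ARest.exists_value x hx P with hpole | ⟨c, hc⟩
    · exact absurd (Finset.mem_union_left _ (hpoles.mem_toFinset.mpr hpole)) hPS
    · have hcB : c ∉ Bv := by
        intro hcB
        exact hPS (Finset.mem_union_right _
          (Finset.mem_biUnion.mpr ⟨c, hcB, (hfib c).mem_toFinset.mpr hc⟩))
      rw [hval1 P c hc, hB P c hcB hc]
      rfl)
  have hW : ∀ P : Place K F, W P = P.ordDifferential (D K F x) := fun P => rfl
  obtain ⟨P₀⟩ := hFF.exists_place
  refine ⟨W, fun P c hc => by rw [hW, hval1 P c hc], fun P hP => by rw [hW, hval2 P hP], ?_⟩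
  have hω : D K F x ≠ 0 := Fermat.Agent.S24.DNeZero.D_ne_zero x hx
  exact Res.degree_canonical hFF.resK P₀ (fun D => hFF.riemannRoch D) hFF.finrank_L_zero hω hW

end Fermat.Agent.Lib.Red.GenusGA
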