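import Mathlib
import Fermat.Agent.Lib.Red.GenusGA
import Fermat.Agent.Lib.Red.GenusGADiff
import Fermat.Agent.Lib.Red.GenusGASep
import Fermat.Agent.Lib.Red.SpecUnit
import Fermat.Agent.Lib.FF.CanonicalIsFF1
import Fermat.Agent.Lib.FF.SettingP

/-!
# RED, second route (G-A): the genus inequality for the modular function fields

For every place reduction `r` (Prelude spec `IsPlaceReductionAlong A π N r`) and every base
function `x ∈ O_w` whose branch values are integral and stay distinct mod the maximal ideal:
`genusFF L (L·F_N) ≤ genusFF k F̃_N`.  No discriminants, no good basis beyond the degree equality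
`[F : L(x)] = [F̃ : k(x̄)]`.

* `exists_bad_set_of_span` : `y` is regular and unramified outside a finite set of places;
* `genusFF_le_of_base` : the genus inequality, generic base function.
-/

set_option autoImplicit false
set_option linter.style.haveILetI false

namespace Fermat.Agent.Lib.Red.GenusGA

open AlgebraicCurve IntermediateField KaehlerDifferential Fermat.Agent.Lib.FF ModularCurve
  Fermat.Agent.Lib.Red.OneStep Fermat.Agent.Lib.Red

noncomputable section

/-! ### The divisor of `dy`, any characteristic -/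

section Span

variable {K F : Type*} [Field K] [Field F] [Algebra K F] {x : F}

/-- If `dy` spans `Ω[F/K]`, then `y` is regular and unramified outside a finite set of places. -/
theorem exists_bad_set_of_span (h : IsFF1 K F x) (y : F)
    (hspan : Submodule.span F {D K F y} = ⊤)
    (hpoles : {v : Place K F | v.ord y < 0}.Finite) :
    ∃ S₀ : Finset (Place K F), ∀ Q ∉ S₀, 0 ≤ Q.ord y ∧
      ∀ γ : K, 0 < Q.ord (y - algebraMap K F γ) → Q.ord (y - algebraMap K F γ) = 1 := by
  classical
  obtain ⟨W, -, -, hW, -⟩ := Res.exists_divisor_D_of_span h y hspan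
  refine ⟨hpoles.toFinset ∪ W.support, fun Q hQ => ⟨?_, fun γ hγ => ?_⟩⟩
  · by_contra hneg
    exact hQ (Finset.mem_union_left _ (hpoles.mem_toFinset.mpr (not_le.mp hneg)))
  · have hW0 : W Q = 0 := by
      by_contra h0
      exact hQ (Finset.mem_union_right _ (Finsupp.mem_support_iff.mpr h0))
    have := hW γ Q
    omega

end Span

/-! ### The modular instance, generic base function -/

section Modular

variable {L : Type*} [Field L] [Algebra ℚ L] {A : ValuationSubring L} {k : Type} [Field k]
  {π : A →+* k} {N : ℕ} [NeZero N]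

/-- Constants of `A` as elements of the Gauss valuation ring `O_w`. -/
def constOw (hπ : ∀ a : A, ¬ IsUnit a → π a = 0) (hNk : (N : k) ≠ 0) (c : A) : Ow A π N hNk :=
  ⟨algebraMap L ↥(laurentBaseChange L (modularFunctionFieldFull N)) (c : L),
    (algebraMap_mem_Ow_iff hπ hNk (c : L)).mpr c.2⟩

theorem coe_constOw (hπ : ∀ a : A, ¬ IsUnit a → π a = 0) (hNk : (N : k) ≠ 0) (c : A) :
    ((constOw hπ hNk c : Ow A π N hNk) : ↥(laurentBaseChange L (modularFunctionFieldFull N))) =
      algebraMap L ↥(laurentBaseChange L (modularFunctionFieldFull N)) (c : L) := rfl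

theorem redF_constOw (hπ : ∀ a : A, ¬ IsUnit a → π a = 0) (hNk : (N : k) ≠ 0) (c : A) :
    redF A π N hπ hNk (constOw hπ hNk c) =
      algebraMap k ↥(modularFunctionFieldFullC k N) (π c) :=
  redF_algebraMap hπ hNk c

theorem coe_sub_constOw (hπ : ∀ a : A, ¬ IsUnit a → π a = 0) (hNk : (N : k) ≠ 0)
    (x : Ow A π N hNk) (c : A) :
    ((x - constOw hπ hNk c : Ow A π N hNk) : ↥(laurentBaseChange L (modularFunctionFieldFull N))) =
      (x : ↥(laurentBaseChange L (modularFunctionFieldFull N))) -
        algebraMap L ↥(laurentBaseChange L (modularFunctionFieldFull N)) (c : L) := rfl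

theorem coe_constOw_mul_sub_one (hπ : ∀ a : A, ¬ IsUnit a → π a = 0) (hNk : (N : k) ≠ 0)
    (x : Ow A π N hNk) (c : A) :
    ((constOw hπ hNk c * x - 1 : Ow A π N hNk) :
        ↥(laurentBaseChange L (modularFunctionFieldFull N))) =
      algebraMap L ↥(laurentBaseChange L (modularFunctionFieldFull N)) (c : L) *
        (x : ↥(laurentBaseChange L (modularFunctionFieldFull N))) - 1 := rfl

/-- `r_* div (x - c) = div (x̄ - π c)` for `c ∈ A`. -/
theorem mapDomain_sub_const
    [HasPrincipalDivisors L ↥(laurentBaseChange L (modularFunctionFieldFull N))]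
    (hπ : ∀ a : A, ¬ IsUnit a → π a = 0) (hNk : (N : k) ≠ 0)
    (x : Ow A π N hNk)
    (r : Place L ↥(laurentBaseChange L (modularFunctionFieldFull N)) →
      Place k ↥(modularFunctionFieldFullC k N))
    (hr : IsPlaceReductionAlong A π N r) (c : A)
    (hne : redF A π N hπ hNk x ≠ algebraMap k ↥(modularFunctionFieldFullC k N) (π c))
    (D : Divisor L ↥(laurentBaseChange L (modularFunctionFieldFull N)))
    (hD : ∀ P, D P = P.ord ((x : ↥(laurentBaseChange L (modularFunctionFieldFull N))) -
      algebraMap L ↥(laurentBaseChange L (modularFunctionFieldFull N)) (c : L)))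
    (Q : Place k ↥(modularFunctionFieldFullC k N)) :
    Finsupp.mapDomain r D Q =
      Q.ord (redF A π N hπ hNk x - algebraMap k ↥(modularFunctionFieldFullC k N) (π c)) := by
  have hred : redF A π N hπ hNk (x - constOw hπ hNk c) =
      redF A π N hπ hNk x - algebraMap k ↥(modularFunctionFieldFullC k N) (π c) := by
    rw [map_sub, redF_constOw]
  have hne' : redF A π N hπ hNk (x - constOw hπ hNk c) ≠ 0 := by
    rw [hred]
    exact sub_ne_zero.mpr hne
  have hD' : ∀ P, D P = P.ord ((x - constOw hπ hNk c : Ow A π N hNk) :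
      ↥(laurentBaseChange L (modularFunctionFieldFull N))) := by
    intro P
    rw [coe_sub_constOw]
    exact hD P
  rw [SpecUnit.mapDomain_eq_ord_redF' hπ hNk r hr (x - constOw hπ hNk c) hne' D hD' Q, hred]

/-- `r_* div (x - c) = 0` for `c ∉ A`. -/
theorem mapDomain_sub_const_inf
    [HasPrincipalDivisors L ↥(laurentBaseChange L (modularFunctionFieldFull N))]
    (hπ : ∀ a : A, ¬ IsUnit a → π a = 0) (hNk : (N : k) ≠ 0)
    (x : Ow A π N hNk)
    (r : Place L ↥(laurentBaseChange L (modularFunctionFieldFull N)) →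
      Place k ↥(modularFunctionFieldFullC k N))
    (hr : IsPlaceReductionAlong A π N r) (c : L) (hc : c ∉ A)
    (D : Divisor L ↥(laurentBaseChange L (modularFunctionFieldFull N)))
    (hD : ∀ P, D P = P.ord ((x : ↥(laurentBaseChange L (modularFunctionFieldFull N))) -
      algebraMap L ↥(laurentBaseChange L (modularFunctionFieldFull N)) c))
    (Q : Place k ↥(modularFunctionFieldFullC k N)) :
    Finsupp.mapDomain r D Q = 0 := by
  have hc0 : c ≠ 0 := fun h0 => hc (h0 ▸ A.zero_mem)
  have hinv : c⁻¹ ∈ A := (A.mem_or_inv_mem c).resolve_left hc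
  have hpi : π ⟨c⁻¹, hinv⟩ = 0 := pi_inv_eq_zero A π hπ hc hinv
  have hred : redF A π N hπ hNk (constOw hπ hNk ⟨c⁻¹, hinv⟩ * x - 1) = -1 := by
    rw [map_sub, map_mul, map_one, redF_constOw, hpi, map_zero, zero_mul, zero_sub]
  have hne' : redF A π N hπ hNk (constOw hπ hNk ⟨c⁻¹, hinv⟩ * x - 1) ≠ 0 := by
    rw [hred]
    exact neg_ne_zero.mpr one_ne_zero
  have hD' : ∀ P, D P = P.ord ((constOw hπ hNk ⟨c⁻¹, hinv⟩ * x - 1 : Ow A π N hNk) :
      ↥(laurentBaseChange L (modularFunctionFieldFull N))) := by
    intro P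
    have he : ((constOw hπ hNk ⟨c⁻¹, hinv⟩ * x - 1 : Ow A π N hNk) :
        ↥(laurentBaseChange L (modularFunctionFieldFull N))) =
        algebraMap L ↥(laurentBaseChange L (modularFunctionFieldFull N)) c⁻¹ *
          ((x : ↥(laurentBaseChange L (modularFunctionFieldFull N))) -
            algebraMap L ↥(laurentBaseChange L (modularFunctionFieldFull N)) c) := by
      rw [coe_constOw_mul_sub_one, mul_sub, ← map_mul, inv_mul_cancel₀ hc0, map_one]
    rw [he, ord_const_mul P (inv_ne_zero hc0)]
    exact hD P
  rw [SpecUnit.mapDomain_eq_ord_redF' hπ hNk r hr (constOw hπ hNk ⟨c⁻¹, hinv⟩ * x - 1) hne' D hD' Q,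
    hred, ord_neg, Place.ord_one]

set_option maxHeartbeats 1000000 in
set_option synthInstance.maxHeartbeats 400000 in
/-- The pencil `x - c` of a base function `x ∈ O_w` satisfies the hypotheses `GenusGA.Setting`,
for every place reduction `r`. -/
theorem setting_of_base [IsAlgClosed L] [IsAlgClosed k]
    [HasPrincipalDivisors L ↥(laurentBaseChange L (modularFunctionFieldFull N))]
    [HasPrincipalDivisors k ↥(modularFunctionFieldFullC k N)]
    (hπ : ∀ a : A, ¬ IsUnit a → π a = 0) (hNk : (N : k) ≠ 0)
    (x : Ow A π N hNk)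
    (hF : IsFF1 L ↥(laurentBaseChange L (modularFunctionFieldFull N))
      (x : ↥(laurentBaseChange L (modularFunctionFieldFull N))))
    (hFt : IsFF1 k ↥(modularFunctionFieldFullC k N) (redF A π N hπ hNk x))
    (hfr : Module.finrank
        L⟮(x : ↥(laurentBaseChange L (modularFunctionFieldFull N)))⟯
        ↥(laurentBaseChange L (modularFunctionFieldFull N)) =
      Module.finrank k⟮redF A π N hπ hNk x⟯ ↥(modularFunctionFieldFullC k N))
    (r : Place L ↥(laurentBaseChange L (modularFunctionFieldFull N)) →
      Place k ↥(modularFunctionFieldFullC k N))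
    (hr : IsPlaceReductionAlong A π N r) :
    Setting A π r (x : ↥(laurentBaseChange L (modularFunctionFieldFull N)))
      (redF A π N hπ hNk x) := by
  haveI := hF.finiteDimensional
  haveI := hFt.finiteDimensional
  haveI : CharZero L := charZero_of_injective_algebraMap (algebraMap ℚ L).injective
  have hxbc : ∀ κ : k, redF A π N hπ hNk x ≠ algebraMap k ↥(modularFunctionFieldFullC k N) κ := by
    intro κ h
    exact hFt.transcendental (h ▸ isAlgebraic_algebraMap κ)
  refine ⟨hxbc, ?_, ?_, ?_⟩
  · intro c D hD Q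
    exact mapDomain_sub_const hπ hNk x r hr c (hxbc _) D hD Q
  · intro c hc D hD Q
    exact mapDomain_sub_const_inf hπ hNk x r hr c hc D hD Q
  · -- the pole sums
    refine ⟨(Module.finrank
        L⟮(x : ↥(laurentBaseChange L (modularFunctionFieldFull N)))⟯
        ↥(laurentBaseChange L (modularFunctionFieldFull N)) : ℤ),
      Fermat.Agent.S24.Transfer.polesOf_finite_sum _ hF.transcendental, ?_⟩
    rw [hfr]
    exact Fermat.Agent.Lib.FF.CharP.polesOf_finite_sum _ hFt.transcendental

set_option maxHeartbeats 1000000 in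
set_option synthInstance.maxHeartbeats 400000 in
/-- **The genus inequality (G-A), generic base function.**  `x ∈ O_w` a base function with
`[F : L(x)] = [F̃ : k(x̄)]`, branch values in the finite set `Bv ⊆ A` on which `π` is injective,
and `d x̄` spanning the differentials of `F̃`.  Then for every place reduction `r`:
`genusFF L F ≤ genusFF k F̃`. -/
theorem genusFF_le_of_base [IsAlgClosed L] [IsAlgClosed k]
    (hπ : ∀ a : A, ¬ IsUnit a → π a = 0) (hsurj : Function.Surjective π) (hNk : (N : k) ≠ 0)
    (x : Ow A π N hNk)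
    (hF : IsFF1 L ↥(laurentBaseChange L (modularFunctionFieldFull N))
      (x : ↥(laurentBaseChange L (modularFunctionFieldFull N))))
    (hFt : IsFF1 k ↥(modularFunctionFieldFullC k N) (redF A π N hπ hNk x))
    (hfr : Module.finrank
        L⟮(x : ↥(laurentBaseChange L (modularFunctionFieldFull N)))⟯
        ↥(laurentBaseChange L (modularFunctionFieldFull N)) =
      Module.finrank k⟮redF A π N hπ hNk x⟯ ↥(modularFunctionFieldFullC k N))
    (Bv : Finset L) (hBvA : ∀ b ∈ Bv, b ∈ A)
    (hBvinj : ∀ b b' : A, (b : L) ∈ Bv → (b' : L) ∈ Bv → π b = π b' → b = b')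
    (hB : ∀ (P : Place L ↥(laurentBaseChange L (modularFunctionFieldFull N))) (c : L), c ∉ Bv →
      0 < P.ord ((x : ↥(laurentBaseChange L (modularFunctionFieldFull N))) -
        algebraMap L ↥(laurentBaseChange L (modularFunctionFieldFull N)) c) →
      P.ord ((x : ↥(laurentBaseChange L (modularFunctionFieldFull N))) -
        algebraMap L ↥(laurentBaseChange L (modularFunctionFieldFull N)) c) = 1)
    (hsep : Submodule.span ↥(modularFunctionFieldFullC k N)
      {D k ↥(modularFunctionFieldFullC k N) (redF A π N hπ hNk x)} = ⊤)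
    (r : Place L ↥(laurentBaseChange L (modularFunctionFieldFull N)) →
      Place k ↥(modularFunctionFieldFullC k N))
    (hr : IsPlaceReductionAlong A π N r) :
    genusFF L ↥(laurentBaseChange L (modularFunctionFieldFull N)) ≤
      genusFF k ↥(modularFunctionFieldFullC k N) := by
  haveI := hF.hasPrincipalDivisors
  haveI := hFt.hasPrincipalDivisors
  haveI := hF.finiteDimensional
  haveI := hFt.finiteDimensional
  haveI : CharZero L := charZero_of_injective_algebraMap (algebraMap ℚ L).injective
  haveI : Algebra.IsAlgebraic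
      L⟮(x : ↥(laurentBaseChange L (modularFunctionFieldFull N)))⟯
      ↥(laurentBaseChange L (modularFunctionFieldFull N)) := Algebra.IsAlgebraic.of_finite _ _
  have hS := setting_of_base hπ hNk x hF hFt hfr r hr
  obtain ⟨W, hW1, hW2, hWdeg⟩ := exists_divisor_D_charZero
    (x : ↥(laurentBaseChange L (modularFunctionFieldFull N))) hF.transcendental Bv hB
  obtain ⟨Wt, -, hWtdeg, hWt, -⟩ := Res.exists_divisor_D_of_span hFt (redF A π N hπ hNk x) hsep
  refine hS.genus_le hsurj hr.1
    (fun P hP => (Fermat.Agent.S24.ARest.exists_value _ hF.transcendental P).resolve_left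
      (not_lt.mpr hP))
    (fun Q hQ => ?_) (↑Bv : Set L) (fun b hb => hBvA b (Finset.mem_coe.mp hb))
    (fun b b' hb hb' => hBvinj b b' (Finset.mem_coe.mp hb) (Finset.mem_coe.mp hb'))
    (fun P c hc => hB P c fun h => hc (Finset.mem_coe.mpr h)) W hW1 hW2 Wt
    (fun Q κ _ => hWt κ Q) (fun Q _ => ?_) hWdeg hWtdeg
  · obtain ⟨κ, h | h⟩ := exists_const_sub_pos Q (hFt.resK Q) hQ
    · exact absurd h (hS.hxbc κ)
    · exact ⟨κ, h⟩
  · have := hWt 0 Q
    rwa [map_zero, sub_zero] at this

end Modular

end

end Fermat.Agent.Lib.Red.GenusGA
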