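/-
ESJ / RED (V4, chart level, abstract): the two fields `red_reg` and `ev` of
`PlaceRed.IsChart` for a chart function `t` of a valuation ring `O` of `F`.

Inputs (all available for the modular instance):
* `hS : Orth.Setting t A O` (`t` is a chart function),
* `hholo` : regular where `t` is regular ⇒ integral over `L[t]` (`Lib/FF/Holo`),
* `hlemA` : Lemma A — `O`-integral and integral over `L[t]` ⇒ integral over `A[t]`.

Outputs:
* `regChart_red`  : `RegChart L t y → RegChart k (red t) (red y)`  (`IsChart.red_reg`);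
* `evK_of_regChart` : `RegChart L t y → EvK A π P t c → ∃ c', EvK A π P y c'`  (`IsChart.ev`).
-/
import Mathlib
import Fermat.Agent.Lib.Red.Tube
import Fermat.Agent.Lib.Red.PlaceRedChart

set_option autoImplicit false

namespace Fermat.Agent.Lib.Red.ChartEv

open Polynomial AlgebraicCurve Fermat.Agent.S24 Fermat.Agent.Lib.Red.PlaceRed
  Fermat.Agent.Lib.Red.Chart

noncomputable section

variable {L F k Ft : Type*} [Field L] [Field F] [Algebra L F] [Field k] [Field Ft] [Algebra k Ft]
variable {A : ValuationSubring L} {π : A →+* k} {O : ValuationSubring F} {red : O →+* Ft}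
  {t : F}

/-- A point of the residue disc `t ≡ γ` lies in the tube of `γ` (for non-constant `t`). -/
theorem mem_tube_of_evK (hnc : ∀ c : L, t ≠ algebraMap L F c) {P : Place L F} {γ : k}
    (h : EvK A π P t γ) : P ∈ Tube.tube A π t γ := by
  obtain ⟨a, ha, hlt⟩ := h
  exact ⟨a, ha, (adicValuation_lt_one_iff P (sub_ne_zero.mpr (hnc (a : L)))).mp hlt⟩

theorem evK_of_mem_tube {P : Place L F} {γ : k} (h : P ∈ Tube.tube A π t γ) :
    EvK A π P t γ := by
  obtain ⟨a, ha, hord⟩ := h
  exact ⟨a, ha, Tube.lt_one_of_ord_pos P hord⟩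

theorem ord_nonneg_of_evK {P : Place L F} {f : F} {γ : k} (h : EvK A π P f γ) :
    0 ≤ P.ord f := by
  rw [← mem_iff_ord_nonneg]
  exact (adicValuation_le_one_iff_mem P).mp h.le_one

/-- **`IsChart.red_reg`**: the reduction of a Gauss-integral function regular on the chart `t`
is regular on the chart `t̄`. -/
theorem regChart_red (hR : RedData A π O red) (hS : Orth.Setting t A O.toSubring)
    (hholo : ∀ y : F, RegChart L t y → IsIntegral ↥(Algebra.adjoin L {t}) y)
    (hlemA : ∀ y : F, y ∈ O → IsIntegral ↥(Algebra.adjoin L {t}) y →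
      IsIntegral ↥(polyRing A t) y)
    (y : O) (hy : RegChart L t (y : F)) : RegChart k (red ⟨t, hS.hx⟩) (red y) := by
  intro Q hQ
  have h1 := isIntegral_red hR hS y (hlemA _ y.2 (hholo _ hy))
  rw [← mem_iff_ord_nonneg]
  exact Tube.mem_of_isIntegral_adjoin Q (mem_of_ord_nonneg Q hQ) h1

/-- **`IsChart.ev`**: a Gauss-integral function regular on the chart `t` takes `A`-integral
values on the residue discs of `t`. -/
theorem evK_of_regChart (hπ : ∀ a : A, ¬ IsUnit a → π a = 0)
    (hnc : ∀ c : L, t ≠ algebraMap L F c)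
    (hholo : ∀ y : F, RegChart L t y → IsIntegral ↥(Algebra.adjoin L {t}) y)
    (hlemA : ∀ y : F, y ∈ O → IsIntegral ↥(Algebra.adjoin L {t}) y →
      IsIntegral ↥(polyRing A t) y)
    (y : O) (hy : RegChart L t (y : F)) (P : Place L F)
    (hres : ∀ z : P.toValuationSubring, ∃ c : L,
      z - algebraMap L P.toValuationSubring c ∈ IsLocalRing.maximalIdeal P.toValuationSubring)
    (c : k) (hc : EvK A π P t c) : ∃ c', EvK A π P (y : F) c' := by
  have hP : P ∈ Tube.tube A π t c := mem_tube_of_evK hnc hc
  have hyP : (y : F) ∈ P.toValuationSubring :=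
    mem_of_ord_nonneg P (hy P (ord_nonneg_of_evK hc))
  refine Tube.evK_of_clearing hπ c P hP hres (y : F) hyP 1 ?_ ?_
  · rw [Polynomial.map_one, Polynomial.eval_one]
    exact one_ne_zero
  · have e : Polynomial.aeval t ((1 : Polynomial A).map A.subtype) * (y : F) = (y : F) := by
      rw [Polynomial.map_one, map_one, one_mul]
    rw [e]
    exact hlemA _ y.2 (hholo _ hy)

end

end Fermat.Agent.Lib.Red.ChartEv
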