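/-
ESJ / RED (V4, modular instance): the tubes of the base function `x = J(q^N)` on `L·F_N`, and
the hypotheses `ev`, `red_reg` of `PlaceRed.IsTube` for them (both charts: `x` over `γ ∈ k`, and
`x⁻¹` over `0`, i.e. the tube at infinity).

* `setting_xL`, `setting_xL_inv` : `x` and `x⁻¹` are chart functions for the Gauss valuation ring;
* `exists_clearing_xL`, `exists_clearing_xL_inv` : **V4** — a Gauss-integral function regular on a
  tube is `g / s(x)` with `g` integral over `A[x]` and `s̄(γ) ≠ 0` (resp. with `x⁻¹`);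
* `ev_tube`, `red_reg_tube`, `ev_tube_inf`, `red_reg_tube_inf`.
-/
import Mathlib
import Fermat.Agent.Lib.Red.Integral
import Fermat.Agent.Lib.Red.Tube
import Fermat.Agent.Lib.FF.ModLRed
import Fermat.Agent.Lib.FF.Holo

set_option autoImplicit false

namespace Fermat.Agent.Lib.Red

open HahnSeries ModularCurve Polynomial AlgebraicCurve Fermat.Agent.S28 IntermediateField
  Fermat.Agent.S24 Fermat.Agent.Lib.Red.PlaceRed Fermat.Agent.Lib.FF

noncomputable section

variable {L : Type*} [Field L] [Algebra ℚ L] {A : ValuationSubring L} {k : Type} [Field k]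
  {π : A →+* k} {N : ℕ} [NeZero N]

/-! ### Generalities -/

/-- The value of a non-constant function at a place with residue field the constants. -/
theorem Tube.exists_ord_sub_pos {K E : Type*} [Field K] [Field E] [Algebra K E] (P : Place K E)
    (hres : ∀ y : P.toValuationSubring, ∃ c : K,
      y - algebraMap K P.toValuationSubring c ∈ IsLocalRing.maximalIdeal P.toValuationSubring)
    {t : E} (ht : 0 ≤ P.ord t) (hnc : ∀ c : K, t ≠ algebraMap K E c) :
    ∃ c : K, 0 < P.ord (t - algebraMap K E c) := by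
  obtain ⟨c, hc⟩ := hres ⟨t, mem_of_ord_nonneg P ht⟩
  refine ⟨c, ?_⟩
  have h1 := Tube.lt_one_of_mem_maximalIdeal P hc
  have h2 : t - algebraMap K E c ≠ 0 := sub_ne_zero.mpr (hnc c)
  exact (adicValuation_lt_one_iff P h2).mp h1

/-- Finiteness of zeros and poles from `HasPrincipalDivisors`. -/
theorem Tube.finite_ord_ne_zero {K E : Type*} [Field K] [Field E] [Algebra K E]
    [HasPrincipalDivisors K E] (y : E) (hy : y ≠ 0) : {P : Place K E | P.ord y ≠ 0}.Finite := by
  obtain ⟨D, hD, -⟩ := HasPrincipalDivisors.exists_divisor (K := K) y hy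
  refine D.support.finite_toSet.subset fun P hP => ?_
  rw [Finset.mem_coe, Finsupp.mem_support_iff, hD P]
  exact hP

theorem Tube.ne_algebraMap_of_transcendental {K E : Type*} [Field K] [Field E] [Algebra K E]
    {t : E} (ht : Transcendental K t) (c : K) : t ≠ algebraMap K E c := by
  rintro rfl
  exact ht (isAlgebraic_algebraMap c)

/-! ### The two chart functions -/

theorem redData (hπ : ∀ a : A, ¬ IsUnit a → π a = 0) (hNk : (N : k) ≠ 0) :
    Chart.RedData A π (Ow A π N hNk) (redF A π N hπ hNk) where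
  mem a := (algebraMap_mem_Ow_iff hπ hNk (a : L)).mpr a.2
  red_alg a := redF_algebraMap hπ hNk a

theorem isUnit_of_redF_ne_zero (hπ : ∀ a : A, ¬ IsUnit a → π a = 0) (hNk : (N : k) ≠ 0)
    (f : Ow A π N hNk) (hf : redF A π N hπ hNk f ≠ 0) : IsUnit f := by
  by_contra h
  exact hf ((redF_eq_zero_iff hπ hNk f).mpr h)

/-- `x = J(q^N)` is a chart function. -/
theorem setting_xL (hπ : ∀ a : A, ¬ IsUnit a → π a = 0) (hNk : (N : k) ≠ 0) :
    Orth.Setting (xL L N) A (Ow A π N hNk).toSubring :=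
  Chart.setting_of_red (redData hπ hNk) (algebraMap_mem_Ow_iff hπ hNk)
    (isUnit_of_redF_ne_zero hπ hNk) (xL_mem_Ow hNk)
    (by rw [redF_xL hπ hNk]; exact transcendental_xk N)

theorem xL_inv_mem_Ow (hπ : ∀ a : A, ¬ IsUnit a → π a = 0) (hNk : (N : k) ≠ 0) :
    (xL L N)⁻¹ ∈ Ow A π N hNk := by
  have h := inv_xL_sub_mem_Ow (N := N) hπ hNk (0 : A)
  have e : ((0 : A) : L) = 0 := rfl
  rwa [e, map_zero, sub_zero] at h

theorem xL_ne_zero : xL L N ≠ 0 := by
  intro h
  exact transcendental_xL (L := L) N (h ▸ isAlgebraic_zero)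

theorem xk_ne_zero : xk k N ≠ 0 := by
  intro h
  exact transcendental_xk (k := k) N (h ▸ isAlgebraic_zero)

theorem redF_xL_inv (hπ : ∀ a : A, ¬ IsUnit a → π a = 0) (hNk : (N : k) ≠ 0) :
    redF A π N hπ hNk ⟨(xL L N)⁻¹, xL_inv_mem_Ow hπ hNk⟩ = (xk k N)⁻¹ := by
  have h1 : (⟨(xL L N)⁻¹, xL_inv_mem_Ow hπ hNk⟩ : Ow A π N hNk) * ⟨xL L N, xL_mem_Ow hNk⟩ = 1 :=
    Subtype.ext (inv_mul_cancel₀ xL_ne_zero)
  have h2 := congrArg (redF A π N hπ hNk) h1
  rw [map_mul, map_one, redF_xL hπ hNk] at h2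
  exact eq_inv_of_mul_eq_one_left h2

/-- `x⁻¹` is a chart function. -/
theorem setting_xL_inv (hπ : ∀ a : A, ¬ IsUnit a → π a = 0) (hNk : (N : k) ≠ 0) :
    Orth.Setting (xL L N)⁻¹ A (Ow A π N hNk).toSubring :=
  Chart.setting_of_red (redData hπ hNk) (algebraMap_mem_Ow_iff hπ hNk)
    (isUnit_of_redF_ne_zero hπ hNk) (xL_inv_mem_Ow hπ hNk)
    (by rw [redF_xL_inv hπ hNk]; exact Transfer.transcendental_inv (transcendental_xk N))

theorem adjoin_xL_inv : L⟮(xL L N)⁻¹⟯ = L⟮xL L N⟯ := by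
  apply le_antisymm
  · rw [adjoin_simple_le_iff]
    exact inv_mem (mem_adjoin_simple_self L (xL L N))
  · rw [adjoin_simple_le_iff]
    have h := inv_mem (mem_adjoin_simple_self L (xL L N)⁻¹)
    rwa [inv_inv] at h

/-- The minimal polynomial over `L(x)` of a Gauss-integral function has Gauss-integral
coefficients. -/
theorem coeff_minpoly_mem_Ow (hπ : ∀ a : A, ¬ IsUnit a → π a = 0)
    (hsurj : Function.Surjective π) (hNk : (N : k) ≠ 0) (y : Ow A π N hNk) (i : ℕ) :
    algebraMap ↥(L⟮xL L N⟯) ↥(laurentBaseChange L (modularFunctionFieldFull N))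
      ((minpoly ↥(L⟮xL L N⟯)
        (y : ↥(laurentBaseChange L (modularFunctionFieldFull N)))).coeff i) ∈ Ow A π N hNk := by
  obtain ⟨ι, _, G, -⟩ := exists_goodBasis hπ hsurj hNk
  obtain ⟨g, hg⟩ := G.exists_map_eq_minpoly y
  rw [← hg, Polynomial.coeff_map]
  exact (g.coeff i).2

set_option synthInstance.maxHeartbeats 200000 in
/-- **Lemma A for the chart at infinity**: a Gauss-integral function integral over `L[x⁻¹]` is
integral over `A[x⁻¹]`. -/
theorem isIntegral_polyRing_inv (hπ : ∀ a : A, ¬ IsUnit a → π a = 0)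
    (hsurj : Function.Surjective π) (hNk : (N : k) ≠ 0)
    (y : ↥(laurentBaseChange L (modularFunctionFieldFull N))) (hyO : y ∈ Ow A π N hNk)
    (hy : IsIntegral ↥(Algebra.adjoin L {(xL L N)⁻¹}) y) :
    IsIntegral ↥(Chart.polyRing A (xL L N)⁻¹) y :=
  Chart.isIntegral_polyRing_of_isIntegral (setting_xL_inv hπ hNk) _ adjoin_xL_inv
    (coeff_minpoly_mem_Ow hπ hsurj hNk ⟨y, hyO⟩) hy

set_option synthInstance.maxHeartbeats 200000 in
/-- Lemma A for the chart `x`, in `polyRing` form. -/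
theorem isIntegral_polyRing_xL (hπ : ∀ a : A, ¬ IsUnit a → π a = 0)
    (hsurj : Function.Surjective π) (hNk : (N : k) ≠ 0)
    (y : ↥(laurentBaseChange L (modularFunctionFieldFull N))) (hyO : y ∈ Ow A π N hNk)
    (hy : IsIntegral ↥(Algebra.adjoin L {xL L N}) y) :
    IsIntegral ↥(Chart.polyRing A (xL L N)) y :=
  isIntegral_AX_of_isIntegral hπ hsurj hNk ⟨y, hyO⟩ hy

/-! ### V4 and the tube hypotheses -/

section Closed

variable [IsAlgClosed L]

set_option synthInstance.maxHeartbeats 200000 in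
/-- **V4** on the chart `x`: a Gauss-integral function regular on the tube of `γ` is `g / s(x)`
with `s ∈ A[X]`, `s̄(γ) ≠ 0`, and `g` integral over `A[x]`. -/
theorem exists_clearing_xL (hπ : ∀ a : A, ¬ IsUnit a → π a = 0)
    (hsurj : Function.Surjective π) (hNk : (N : k) ≠ 0) (γ : k)
    (f : ↥(laurentBaseChange L (modularFunctionFieldFull N))) (hfO : f ∈ Ow A π N hNk)
    (hf : RegOn (Tube.tube A π (xL L N) γ) f) :
    ∃ s : Polynomial A, (s.map π).eval γ ≠ 0 ∧
      IsIntegral ↥(Chart.polyRing A (xL L N))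
        (Polynomial.aeval (xL L N) (s.map A.subtype) * f) := by
  have hF := isFF1_xL L N
  have := hF.hasPrincipalDivisors
  exact Tube.exists_clearing (setting_xL hπ hNk) hπ
    (fun P hP => Tube.exists_ord_sub_pos P (hF.resK P) hP
      (Tube.ne_algebraMap_of_transcendental (transcendental_xL N)))
    Tube.finite_ord_ne_zero (fun y hy => (hF.isIntegral_adjoin_iff y).mpr hy)
    (isIntegral_polyRing_xL hπ hsurj hNk) γ f hfO hf

set_option synthInstance.maxHeartbeats 200000 in
/-- **V4** on the chart at infinity. -/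
theorem exists_clearing_xL_inv (hπ : ∀ a : A, ¬ IsUnit a → π a = 0)
    (hsurj : Function.Surjective π) (hNk : (N : k) ≠ 0) (γ : k)
    (f : ↥(laurentBaseChange L (modularFunctionFieldFull N))) (hfO : f ∈ Ow A π N hNk)
    (hf : RegOn (Tube.tube A π (xL L N)⁻¹ γ) f) :
    ∃ s : Polynomial A, (s.map π).eval γ ≠ 0 ∧
      IsIntegral ↥(Chart.polyRing A (xL L N)⁻¹)
        (Polynomial.aeval (xL L N)⁻¹ (s.map A.subtype) * f) := by
  have hF := (isFF1_xL L N).inv
  have := hF.hasPrincipalDivisors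
  exact Tube.exists_clearing (setting_xL_inv hπ hNk) hπ
    (fun P hP => Tube.exists_ord_sub_pos P (hF.resK P) hP
      (Tube.ne_algebraMap_of_transcendental hF.transcendental))
    Tube.finite_ord_ne_zero (fun y hy => (hF.isIntegral_adjoin_iff y).mpr hy)
    (isIntegral_polyRing_inv hπ hsurj hNk) γ f hfO hf

set_option synthInstance.maxHeartbeats 200000 in
/-- **`IsTube.ev` for the tube of `γ`** (chart `x`): a Gauss-integral function regular on the tube
takes `A`-integral values on it. -/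
theorem ev_tube (hπ : ∀ a : A, ¬ IsUnit a → π a = 0) (hsurj : Function.Surjective π)
    (hNk : (N : k) ≠ 0) (γ : k)
    (P : Place L ↥(laurentBaseChange L (modularFunctionFieldFull N)))
    (hP : P ∈ Tube.tube A π (xL L N) γ) (f : Ow A π N hNk)
    (hf : RegOn (Tube.tube A π (xL L N) γ)
      (f : ↥(laurentBaseChange L (modularFunctionFieldFull N)))) :
    ∃ c : k, EvK A π P (f : ↥(laurentBaseChange L (modularFunctionFieldFull N))) c := by
  obtain ⟨s, hs, hg⟩ := exists_clearing_xL hπ hsurj hNk γ _ f.2 hf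
  exact Tube.evK_of_clearing hπ γ P hP ((isFF1_xL L N).resK P) _ (hf P hP) s hs hg

set_option synthInstance.maxHeartbeats 200000 in
/-- **`IsTube.red_reg` for the tube of `γ`** (chart `x`). -/
theorem red_reg_tube (hπ : ∀ a : A, ¬ IsUnit a → π a = 0) (hsurj : Function.Surjective π)
    (hNk : (N : k) ≠ 0) (γ : k) (f : Ow A π N hNk)
    (hf : RegOn (Tube.tube A π (xL L N) γ)
      (f : ↥(laurentBaseChange L (modularFunctionFieldFull N))))
    (Q : Place k ↥(modularFunctionFieldFullC k N))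
    (hQ : 0 < Q.ord (xk k N - algebraMap k ↥(modularFunctionFieldFullC k N) γ)) :
    redF A π N hπ hNk f ∈ Q.toValuationSubring := by
  obtain ⟨s, hs, hg⟩ := exists_clearing_xL hπ hsurj hNk γ _ f.2 hf
  refine Tube.red_mem_of_clearing (redData hπ hNk) (setting_xL hπ hNk) γ Q ?_ f s hs hg
  have e : redF A π N hπ hNk ⟨xL L N, (setting_xL (π := π) hπ hNk).hx⟩ = xk k N :=
    redF_xL hπ hNk
  rw [e]
  exact hQ

set_option synthInstance.maxHeartbeats 200000 in
/-- **`IsTube.ev` for the tube at infinity** (chart `x⁻¹`, value `0`). -/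
theorem ev_tube_inf (hπ : ∀ a : A, ¬ IsUnit a → π a = 0) (hsurj : Function.Surjective π)
    (hNk : (N : k) ≠ 0)
    (P : Place L ↥(laurentBaseChange L (modularFunctionFieldFull N)))
    (hP : P ∈ Tube.tube A π (xL L N)⁻¹ 0) (f : Ow A π N hNk)
    (hf : RegOn (Tube.tube A π (xL L N)⁻¹ 0)
      (f : ↥(laurentBaseChange L (modularFunctionFieldFull N)))) :
    ∃ c : k, EvK A π P (f : ↥(laurentBaseChange L (modularFunctionFieldFull N))) c := by
  obtain ⟨s, hs, hg⟩ := exists_clearing_xL_inv hπ hsurj hNk 0 _ f.2 hf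
  exact Tube.evK_of_clearing hπ 0 P hP ((isFF1_xL L N).resK P) _ (hf P hP) s hs hg

set_option synthInstance.maxHeartbeats 200000 in
/-- **`IsTube.red_reg` for the tube at infinity**: the reduction is regular at the poles of
`x̄`. -/
theorem red_reg_tube_inf (hπ : ∀ a : A, ¬ IsUnit a → π a = 0) (hsurj : Function.Surjective π)
    (hNk : (N : k) ≠ 0) (f : Ow A π N hNk)
    (hf : RegOn (Tube.tube A π (xL L N)⁻¹ 0)
      (f : ↥(laurentBaseChange L (modularFunctionFieldFull N))))
    (Q : Place k ↥(modularFunctionFieldFullC k N)) (hQ : Q.ord (xk k N) < 0) :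
    redF A π N hπ hNk f ∈ Q.toValuationSubring := by
  obtain ⟨s, hs, hg⟩ := exists_clearing_xL_inv hπ hsurj hNk 0 _ f.2 hf
  refine Tube.red_mem_of_clearing (redData hπ hNk) (setting_xL_inv hπ hNk) 0 Q ?_ f s hs hg
  have e : redF A π N hπ hNk ⟨(xL L N)⁻¹, (setting_xL_inv (π := π) hπ hNk).hx⟩ = (xk k N)⁻¹ :=
    redF_xL_inv hπ hNk
  rw [e, map_zero, sub_zero, Place.ord_inv]
  omega

end Closed

end

end Fermat.Agent.Lib.Red
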