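/-
ESJ / RED (V4, chart level, modular instance for an arbitrary base function
`B : BaseFn.Data A π N`): the fields `red_reg` and `ev` of `PlaceRed.IsChart` for the two charts
`x = B.x` and `x' = B.x⁻¹` of `L·F_N`, Gauss valuation ring `Ow A π N hNk`, residue map `redF`.

* `setting_x`, `setting_x_inv` : `x` and `x⁻¹` are chart functions (`Orth.Setting`);
* `isIntegral_polyRing_x`, `isIntegral_polyRing_x_inv` : **Lemma A** for both charts
  (Gauss-integral + integral over `L[x^{±1}]` ⇒ integral over `A[x^{±1}]`);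
* `red_reg_x`, `red_reg_x_inv` : `IsChart.red_reg` for both charts (no algebraic closedness);
* `ev_x`, `ev_x_inv` : `IsChart.ev` for both charts (`L` algebraically closed).

For `J_N` use `B := BaseFn.Data.ofJ A π N`.
-/
import Mathlib
import Fermat.Agent.Lib.Red.InstTube
import Fermat.Agent.Lib.Red.InstGenusX
import Fermat.Agent.Lib.Red.ChartEv

set_option autoImplicit false

namespace Fermat.Agent.Lib.Red.InstChartX

open HahnSeries ModularCurve Polynomial AlgebraicCurve Fermat.Agent.S28 IntermediateField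
  Fermat.Agent.S24 Fermat.Agent.Lib.Red.PlaceRed Fermat.Agent.Lib.FF Fermat.Agent.Lib.Red

noncomputable section

variable {L : Type*} [Field L] [Algebra ℚ L] {A : ValuationSubring L} {k : Type} [Field k]
  {π : A →+* k} {N : ℕ} [NeZero N] (B : BaseFn.Data A π N)

/-! ### The two chart functions -/

/-- `x` is a chart function. -/
theorem setting_x (hπ : ∀ a : A, ¬ IsUnit a → π a = 0) (hNk : (N : k) ≠ 0) :
    Orth.Setting B.x A (Ow A π N hNk).toSubring :=
  Chart.setting_of_red (redData hπ hNk) (algebraMap_mem_Ow_iff hπ hNk)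
    (isUnit_of_redF_ne_zero hπ hNk) (B.x_mem_Ow hNk)
    (by rw [B.redF_x hπ hNk]; exact B.transcendental_xt hπ hNk)

theorem xt_ne_zero (hπ : ∀ a : A, ¬ IsUnit a → π a = 0) (hNk : (N : k) ≠ 0) :
    B.xt hπ hNk ≠ 0 := fun h0 => B.transcendental_xt hπ hNk (h0 ▸ isAlgebraic_zero)

theorem redF_x_inv (hπ : ∀ a : A, ¬ IsUnit a → π a = 0) (hNk : (N : k) ≠ 0) :
    redF A π N hπ hNk ⟨(B.x)⁻¹, B.x_inv_mem_Ow hπ hNk⟩ = (B.xt hπ hNk)⁻¹ := by
  have h1 : (⟨(B.x)⁻¹, B.x_inv_mem_Ow hπ hNk⟩ : Ow A π N hNk) * ⟨B.x, B.x_mem_Ow hNk⟩ = 1 :=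
    Subtype.ext (inv_mul_cancel₀ (B.x_ne_zero hπ hNk))
  have h2 := congrArg (redF A π N hπ hNk) h1
  rw [map_mul, map_one, B.redF_x hπ hNk] at h2
  exact eq_inv_of_mul_eq_one_left h2

/-- `x⁻¹` is a chart function. -/
theorem setting_x_inv (hπ : ∀ a : A, ¬ IsUnit a → π a = 0) (hNk : (N : k) ≠ 0) :
    Orth.Setting (B.x)⁻¹ A (Ow A π N hNk).toSubring :=
  Chart.setting_of_red (redData hπ hNk) (algebraMap_mem_Ow_iff hπ hNk)
    (isUnit_of_redF_ne_zero hπ hNk) (B.x_inv_mem_Ow hπ hNk)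
    (by rw [redF_x_inv B hπ hNk]
        exact Transfer.transcendental_inv (B.transcendental_xt hπ hNk))

theorem adjoin_x_inv : L⟮(B.x)⁻¹⟯ = L⟮B.x⟯ := by
  apply le_antisymm
  · rw [adjoin_simple_le_iff]
    exact inv_mem (mem_adjoin_simple_self L B.x)
  · rw [adjoin_simple_le_iff]
    have h := inv_mem (mem_adjoin_simple_self L (B.x)⁻¹)
    rwa [inv_inv] at h

/-- The minimal polynomial over `L(x)` of a Gauss-integral function has Gauss-integral
coefficients. -/
theorem coeff_minpoly_mem_Ow (hπ : ∀ a : A, ¬ IsUnit a → π a = 0)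
    (hsurj : Function.Surjective π) (hNk : (N : k) ≠ 0) (y : Ow A π N hNk) (i : ℕ) :
    algebraMap ↥(L⟮B.x⟯) ↥(laurentBaseChange L (modularFunctionFieldFull N))
      ((minpoly ↥(L⟮B.x⟯)
        (y : ↥(laurentBaseChange L (modularFunctionFieldFull N)))).coeff i) ∈ Ow A π N hNk := by
  obtain ⟨n, ⟨G⟩⟩ := B.exists_goodBasis hπ hsurj hNk
  obtain ⟨g, hg⟩ := G.exists_map_eq_minpoly y
  rw [← hg, Polynomial.coeff_map]
  exact (g.coeff i).2

set_option synthInstance.maxHeartbeats 200000 in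
/-- **Lemma A for the chart `x`**: a Gauss-integral function integral over `L[x]` is integral
over `A[x]`. -/
theorem isIntegral_polyRing_x (hπ : ∀ a : A, ¬ IsUnit a → π a = 0)
    (hsurj : Function.Surjective π) (hNk : (N : k) ≠ 0)
    (y : ↥(laurentBaseChange L (modularFunctionFieldFull N))) (hyO : y ∈ Ow A π N hNk)
    (hy : IsIntegral ↥(Algebra.adjoin L {B.x}) y) :
    IsIntegral ↥(Chart.polyRing A B.x) y :=
  Chart.isIntegral_polyRing_of_isIntegral (setting_x B hπ hNk) _ rfl
    (coeff_minpoly_mem_Ow B hπ hsurj hNk ⟨y, hyO⟩) hy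

set_option synthInstance.maxHeartbeats 200000 in
/-- **Lemma A for the chart at infinity**: a Gauss-integral function integral over `L[x⁻¹]` is
integral over `A[x⁻¹]`. -/
theorem isIntegral_polyRing_x_inv (hπ : ∀ a : A, ¬ IsUnit a → π a = 0)
    (hsurj : Function.Surjective π) (hNk : (N : k) ≠ 0)
    (y : ↥(laurentBaseChange L (modularFunctionFieldFull N))) (hyO : y ∈ Ow A π N hNk)
    (hy : IsIntegral ↥(Algebra.adjoin L {(B.x)⁻¹}) y) :
    IsIntegral ↥(Chart.polyRing A (B.x)⁻¹) y :=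
  Chart.isIntegral_polyRing_of_isIntegral (setting_x_inv B hπ hNk) _ (adjoin_x_inv B)
    (coeff_minpoly_mem_Ow B hπ hsurj hNk ⟨y, hyO⟩) hy

/-! ### `IsChart.red_reg` for both charts -/

set_option synthInstance.maxHeartbeats 200000 in
/-- **`IsChart.red_reg` for the chart `x`.** -/
theorem red_reg_x (hπ : ∀ a : A, ¬ IsUnit a → π a = 0) (hsurj : Function.Surjective π)
    (hNk : (N : k) ≠ 0) (y : Ow A π N hNk)
    (hy : RegChart L B.x (y : ↥(laurentBaseChange L (modularFunctionFieldFull N)))) :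
    RegChart k (redF A π N hπ hNk ⟨B.x, B.x_mem_Ow hNk⟩) (redF A π N hπ hNk y) := by
  haveI : FiniteDimensional ↥(L⟮B.x⟯) ↥(laurentBaseChange L (modularFunctionFieldFull N)) :=
    B.finite_L hπ hsurj hNk
  exact ChartEv.regChart_red (redData hπ hNk) (setting_x B hπ hNk)
    (fun z hz => (Holo.isIntegral_adjoin_iff B.x z).mpr hz)
    (isIntegral_polyRing_x B hπ hsurj hNk) y hy

set_option synthInstance.maxHeartbeats 200000 in
/-- **`IsChart.red_reg` for the chart `x⁻¹`.** -/
theorem red_reg_x_inv (hπ : ∀ a : A, ¬ IsUnit a → π a = 0) (hsurj : Function.Surjective π)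
    (hNk : (N : k) ≠ 0) (y : Ow A π N hNk)
    (hy : RegChart L (B.x)⁻¹ (y : ↥(laurentBaseChange L (modularFunctionFieldFull N)))) :
    RegChart k (redF A π N hπ hNk ⟨(B.x)⁻¹, B.x_inv_mem_Ow hπ hNk⟩)
      (redF A π N hπ hNk y) := by
  haveI : FiniteDimensional ↥(L⟮B.x⟯) ↥(laurentBaseChange L (modularFunctionFieldFull N)) :=
    B.finite_L hπ hsurj hNk
  haveI := Transfer.finiteDimensional_inv (K := L) B.x
  exact ChartEv.regChart_red (redData hπ hNk) (setting_x_inv B hπ hNk)
    (fun z hz => (Holo.isIntegral_adjoin_iff (B.x)⁻¹ z).mpr hz)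
    (isIntegral_polyRing_x_inv B hπ hsurj hNk) y hy

/-- `red_reg` for the chart `x`, with `x̄` spelled `B.xt`. -/
theorem red_reg_xt (hπ : ∀ a : A, ¬ IsUnit a → π a = 0) (hsurj : Function.Surjective π)
    (hNk : (N : k) ≠ 0) (y : Ow A π N hNk)
    (hy : RegChart L B.x (y : ↥(laurentBaseChange L (modularFunctionFieldFull N)))) :
    RegChart k (B.xt hπ hNk) (redF A π N hπ hNk y) :=
  red_reg_x B hπ hsurj hNk y hy

/-- `red_reg` for the chart `x⁻¹`, with the reduced chart spelled `(B.xt)⁻¹`. -/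
theorem red_reg_xt_inv (hπ : ∀ a : A, ¬ IsUnit a → π a = 0) (hsurj : Function.Surjective π)
    (hNk : (N : k) ≠ 0) (y : Ow A π N hNk)
    (hy : RegChart L (B.x)⁻¹ (y : ↥(laurentBaseChange L (modularFunctionFieldFull N)))) :
    RegChart k (B.xt hπ hNk)⁻¹ (redF A π N hπ hNk y) := by
  have h := red_reg_x_inv B hπ hsurj hNk y hy
  rwa [redF_x_inv B hπ hNk] at h

/-! ### `IsChart.ev` for both charts -/

section Closed

variable [IsAlgClosed L]

set_option synthInstance.maxHeartbeats 200000 in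
/-- **`IsChart.ev` for the chart `x`.** -/
theorem ev_x (hπ : ∀ a : A, ¬ IsUnit a → π a = 0) (hsurj : Function.Surjective π)
    (hNk : (N : k) ≠ 0) (y : Ow A π N hNk)
    (hy : RegChart L B.x (y : ↥(laurentBaseChange L (modularFunctionFieldFull N))))
    (P : Place L ↥(laurentBaseChange L (modularFunctionFieldFull N))) (c : k)
    (hc : EvK A π P B.x c) :
    ∃ c', EvK A π P (y : ↥(laurentBaseChange L (modularFunctionFieldFull N))) c' := by
  haveI : FiniteDimensional ↥(L⟮B.x⟯) ↥(laurentBaseChange L (modularFunctionFieldFull N)) :=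
    B.finite_L hπ hsurj hNk
  have hF : IsFF1 L ↥(laurentBaseChange L (modularFunctionFieldFull N)) B.x :=
    isFF1_of_isAlgClosed B.x (B.transcendental_x hπ hNk)
  exact ChartEv.evK_of_regChart hπ
    (Tube.ne_algebraMap_of_transcendental (B.transcendental_x hπ hNk))
    (fun z hz => (Holo.isIntegral_adjoin_iff B.x z).mpr hz)
    (isIntegral_polyRing_x B hπ hsurj hNk) y hy P (hF.resK P) c hc

set_option synthInstance.maxHeartbeats 200000 in
/-- **`IsChart.ev` for the chart `x⁻¹`.** -/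
theorem ev_x_inv (hπ : ∀ a : A, ¬ IsUnit a → π a = 0) (hsurj : Function.Surjective π)
    (hNk : (N : k) ≠ 0) (y : Ow A π N hNk)
    (hy : RegChart L (B.x)⁻¹ (y : ↥(laurentBaseChange L (modularFunctionFieldFull N))))
    (P : Place L ↥(laurentBaseChange L (modularFunctionFieldFull N))) (c : k)
    (hc : EvK A π P (B.x)⁻¹ c) :
    ∃ c', EvK A π P (y : ↥(laurentBaseChange L (modularFunctionFieldFull N))) c' := by
  haveI : FiniteDimensional ↥(L⟮B.x⟯) ↥(laurentBaseChange L (modularFunctionFieldFull N)) :=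
    B.finite_L hπ hsurj hNk
  haveI := Transfer.finiteDimensional_inv (K := L) B.x
  have hF : IsFF1 L ↥(laurentBaseChange L (modularFunctionFieldFull N)) B.x :=
    isFF1_of_isAlgClosed B.x (B.transcendental_x hπ hNk)
  exact ChartEv.evK_of_regChart hπ
    (Tube.ne_algebraMap_of_transcendental
      (Transfer.transcendental_inv (B.transcendental_x hπ hNk)))
    (fun z hz => (Holo.isIntegral_adjoin_iff (B.x)⁻¹ z).mpr hz)
    (isIntegral_polyRing_x_inv B hπ hsurj hNk) y hy P (hF.resK P) c hc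

end Closed

end

end Fermat.Agent.Lib.Red.InstChartX
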