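/-
ESJ / RED (PLACE instance, V0 builder): `PlaceRed.IsChart` for the two charts `x = B.x` and
`x' = B.x⁻¹` of `L·F_N` (Gauss valuation ring `Ow A π N hNk`, residue map `redF`), for an
arbitrary base function `B : BaseFn.Data A π N`, from the two remaining inputs

* `lift` = good reduction `T3` / `T3'` (DISC, in the place form of `InstGenusX.genusFF_le_modular`),
* `cons` = conservation on residue discs (`PlaceRedCons.cons_of_norm`).

All the other fields (`surj`, `mem`, `red_alg`, `isUnit`, `scale`, `fin`, `fin_t`, `resK`,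
`resK_t`, `nonconst`, `exists_zero`, `approx`, `red_reg`, `ev`) are discharged here.

* `ChartV0.isChart_of_ff` : the abstract builder (any function fields with `IsFF1`);
* `scale_Ow` : the field `scale` for the Gauss valuation ring;
* `isChart_x`, `isChart_x_inv` : the two charts;
* `exists_reduction` : the place reduction map `r` with `r_* div(y) = div(ȳ)` for all
  `y ∈ Ow` with `ȳ ≠ 0`, from `T3`, `T3'` and the two `cons`.
-/
import Mathlib
import Fermat.Agent.Lib.Red.InstChartX
import Fermat.Agent.Lib.FF.RRApprox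

set_option autoImplicit false

namespace Fermat.Agent.Lib.Red.ChartV0

open Polynomial AlgebraicCurve Fermat.Agent.S24 Fermat.Agent.Lib.Red.PlaceRed
  Fermat.Agent.Lib.Red.Chart Fermat.Agent.Lib.FF

noncomputable section

variable {L F k Ft : Type*} [Field L] [Field F] [Algebra L F] [Field k] [Field Ft] [Algebra k Ft]
variable {A : ValuationSubring L} {π : A →+* k} {Ow : ValuationSubring F} {red : Ow →+* Ft}

/-- **Abstract V0 builder**: all fields of `IsChart` except `lift`, `red_reg`, `ev`, `cons` from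
`IsFF1` on both sides and the basic properties of the residue map. -/
theorem isChart_of_ff [Infinite k] (x : Ow) (hsurj : Function.Surjective π)
    (hR : RedData A π Ow red) (hunit : ∀ u : Ow, red u ≠ 0 → IsUnit u)
    (hscale : ∀ f : Ow, red f = 0 →
      ∃ (a : A) (g : Ow), π a = 0 ∧ (f : F) = algebraMap L F (a : L) * (g : F))
    (hF : IsFF1 L F (x : F)) (hFt : IsFF1 k Ft (red x))
    (lift : ∀ s : Ft, RegChart k (red x) s → ∃ y : Ow, red y = s ∧ RegChart L (x : F) (y : F))
    (red_reg : ∀ y : Ow, RegChart L (x : F) (y : F) → RegChart k (red x) (red y))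
    (ev : ∀ y : Ow, RegChart L (x : F) (y : F) → ∀ (P : Place L F) (c : k),
      EvK A π P (x : F) c → ∃ c', EvK A π P (y : F) c')
    (cons : ∀ y : Ow, RegChart L (x : F) (y : F) → red y ≠ 0 →
      ∀ (γ : k) (s : Finset (Place L F)) (Tt : Finset (Place k Ft)),
        (∀ P, P ∈ s ↔ EvK A π P (x : F) γ ∧ P.ord (y : F) ≠ 0) →
        (∀ Q, Q ∈ Tt ↔ 0 < Q.ord (red x - algebraMap k Ft γ)) →
          ∑ P ∈ s, P.ord (y : F) = ∑ Q ∈ Tt, Q.ord (red y)) :
    IsChart A π Ow red x where
  surj := hsurj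
  mem := hR.mem
  red_alg := fun a f hf => by
    have e : f = ⟨algebraMap L F (a : L), hR.mem a⟩ := Subtype.ext hf
    rw [e, hR.red_alg]
  isUnit := hunit
  scale := hscale
  fin := fun y hy => by
    have := hF.hasPrincipalDivisors
    exact Tube.finite_ord_ne_zero y hy
  fin_t := fun g hg => by
    have := hFt.hasPrincipalDivisors
    exact Tube.finite_ord_ne_zero g hg
  resK := fun P f hf => by
    obtain ⟨c, hc⟩ := hF.resK P ⟨f, hf⟩
    exact ⟨c, Tube.lt_one_of_mem_maximalIdeal P hc⟩
  resK_t := fun Q g hg => by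
    obtain ⟨c, hc⟩ := hFt.resK Q ⟨g, hg⟩
    exact ⟨c, Tube.lt_one_of_mem_maximalIdeal Q hc⟩
  nonconst := fun c => Tube.ne_algebraMap_of_transcendental hFt.transcendental c
  exists_zero := fun γ => hFt.exists_zero_sub γ
  approx := fun S n => hFt.exists_ord_eq' S n
  lift := lift
  red_reg := red_reg
  ev := ev
  cons := cons

end

end Fermat.Agent.Lib.Red.ChartV0

namespace Fermat.Agent.Lib.Red.InstChartV0

open HahnSeries ModularCurve Polynomial AlgebraicCurve Fermat.Agent.S28 IntermediateField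
  Fermat.Agent.S24 Fermat.Agent.Lib.Red.PlaceRed Fermat.Agent.Lib.FF Fermat.Agent.Lib.Red

noncomputable section

variable {L : Type*} [Field L] [Algebra ℚ L] {A : ValuationSubring L} {k : Type} [Field k]
  {π : A →+* k} {N : ℕ} [NeZero N]

/-- The field `scale` of `IsChart` for the Gauss valuation ring: a function with zero reduction
is a constant of `𝔪_A` times a Gauss-integral function. -/
theorem scale_Ow (hπ : ∀ a : A, ¬ IsUnit a → π a = 0) (hNk : (N : k) ≠ 0)
    (f : Ow A π N hNk) (hf : redF A π N hπ hNk f = 0) :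
    ∃ (a : A) (g : Ow A π N hNk), π a = 0 ∧
      (f : ↥(laurentBaseChange L (modularFunctionFieldFull N))) =
        algebraMap L ↥(laurentBaseChange L (modularFunctionFieldFull N)) (a : L) *
          (g : ↥(laurentBaseChange L (modularFunctionFieldFull N))) := by
  by_cases hf0 : (f : ↥(laurentBaseChange L (modularFunctionFieldFull N))) = 0
  · refine ⟨0, 0, map_zero π, ?_⟩
    rw [hf0]
    show (0 : ↥(laurentBaseChange L (modularFunctionFieldFull N))) =
      algebraMap L ↥(laurentBaseChange L (modularFunctionFieldFull N)) 0 * 0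
    rw [mul_zero]
  obtain ⟨a, ha, hmem, hne⟩ := exists_scaling_Ow hπ hNk _ hf0
  set g : Ow A π N hNk := ⟨_, hmem⟩ with hg
  obtain ⟨u, hu⟩ := isUnit_of_redF_ne_zero hπ hNk g hne
  -- `a⁻¹ = f / g` is Gauss-integral
  have hainv : algebraMap L ↥(laurentBaseChange L (modularFunctionFieldFull N)) a⁻¹ ∈
      Ow A π N hNk := by
    have h1 : algebraMap L ↥(laurentBaseChange L (modularFunctionFieldFull N)) a⁻¹ =
        ((f * ((u⁻¹ : (Ow A π N hNk)ˣ) : Ow A π N hNk) : Ow A π N hNk) :
          ↥(laurentBaseChange L (modularFunctionFieldFull N))) := by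
      have h2 : ((((u⁻¹ : (Ow A π N hNk)ˣ) : Ow A π N hNk)) :
          ↥(laurentBaseChange L (modularFunctionFieldFull N))) *
          (algebraMap L ↥(laurentBaseChange L (modularFunctionFieldFull N)) a *
            (f : ↥(laurentBaseChange L (modularFunctionFieldFull N)))) = 1 := by
        have h3 : ((u⁻¹ : (Ow A π N hNk)ˣ) : Ow A π N hNk) * g = 1 := by
          rw [← hu]
          exact Units.inv_mul u
        exact congrArg Subtype.val h3
      have ha' : algebraMap L ↥(laurentBaseChange L (modularFunctionFieldFull N)) a ≠ 0 := by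
        simpa using ha
      rw [map_inv₀]
      show _ = (f : ↥(laurentBaseChange L (modularFunctionFieldFull N))) *
        ((((u⁻¹ : (Ow A π N hNk)ˣ) : Ow A π N hNk)) :
          ↥(laurentBaseChange L (modularFunctionFieldFull N)))
      symm
      apply eq_inv_of_mul_eq_one_left
      rw [← h2]
      ring
    rw [h1]
    exact Subtype.property _
  have haA : a⁻¹ ∈ A := (algebraMap_mem_Ow_iff hπ hNk a⁻¹).mp hainv
  refine ⟨⟨a⁻¹, haA⟩, g, ?_, ?_⟩
  · -- `π (a⁻¹) = 0` since `red f = 0` and `red g ≠ 0`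
    have hfe : f = (⟨algebraMap L _ ((⟨a⁻¹, haA⟩ : A) : L),
        (algebraMap_mem_Ow_iff hπ hNk _).mpr haA⟩ : Ow A π N hNk) * g := by
      apply Subtype.ext
      show (f : ↥(laurentBaseChange L (modularFunctionFieldFull N))) =
        algebraMap L ↥(laurentBaseChange L (modularFunctionFieldFull N)) a⁻¹ *
          (algebraMap L ↥(laurentBaseChange L (modularFunctionFieldFull N)) a *
            (f : ↥(laurentBaseChange L (modularFunctionFieldFull N))))
      rw [← mul_assoc, ← map_mul, inv_mul_cancel₀ ha, map_one, one_mul]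
    have h4 := congrArg (redF A π N hπ hNk) hfe
    rw [hf, map_mul, redF_algebraMap hπ hNk ⟨a⁻¹, haA⟩] at h4
    rcases mul_eq_zero.mp h4.symm with h5 | h5
    · exact (map_eq_zero _).mp h5
    · exact absurd h5 hne
  · show (f : ↥(laurentBaseChange L (modularFunctionFieldFull N))) =
      algebraMap L ↥(laurentBaseChange L (modularFunctionFieldFull N)) a⁻¹ *
        (algebraMap L ↥(laurentBaseChange L (modularFunctionFieldFull N)) a *
          (f : ↥(laurentBaseChange L (modularFunctionFieldFull N))))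
    rw [← mul_assoc, ← map_mul, inv_mul_cancel₀ ha, map_one, one_mul]

variable (B : BaseFn.Data A π N)

/-- **The place reduction map** of `L·F_N` along the Gauss valuation, from `IsChart` for the two
charts: `r_* div(y) = div(ȳ)` for every Gauss-integral `y` with `ȳ ≠ 0`. -/
theorem exists_reduction (hπ : ∀ a : A, ¬ IsUnit a → π a = 0) (hNk : (N : k) ≠ 0)
    (hx : IsChart A π (Ow A π N hNk) (redF A π N hπ hNk) ⟨B.x, B.x_mem_Ow hNk⟩)
    (hx' : IsChart A π (Ow A π N hNk) (redF A π N hπ hNk) ⟨(B.x)⁻¹, B.x_inv_mem_Ow hπ hNk⟩) :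
    ∃ r : Place L ↥(laurentBaseChange L (modularFunctionFieldFull N)) →
        Place k ↥(modularFunctionFieldFullC k N),
      ∀ y : Ow A π N hNk, redF A π N hπ hNk y ≠ 0 →
        ∀ D : Place L ↥(laurentBaseChange L (modularFunctionFieldFull N)) →₀ ℤ,
          (∀ P, D P = P.ord (y : ↥(laurentBaseChange L (modularFunctionFieldFull N)))) →
          ∀ Q, Finsupp.mapDomain r D Q = Q.ord (redF A π N hπ hNk y) := by
  obtain ⟨r, -, -, hr⟩ := exists_reduction_of_charts hx hx'
    (mul_inv_cancel₀ (B.x_ne_zero hπ hNk))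
  exact ⟨r, hr⟩

variable [IsAlgClosed L] [IsAlgClosed k]

/-- **`IsChart` for the chart `x`**, from `T3` (place form) and `cons`. -/
theorem isChart_x (hπ : ∀ a : A, ¬ IsUnit a → π a = 0) (hsurj : Function.Surjective π)
    (hNk : (N : k) ≠ 0)
    (hT3 : ∀ s : ↥(modularFunctionFieldFullC k N),
      (∀ Q : Place k ↥(modularFunctionFieldFullC k N), 0 ≤ Q.ord (B.xt hπ hNk) → 0 ≤ Q.ord s) →
      ∃ y : Ow A π N hNk, redF A π N hπ hNk y = s ∧
        ∀ P : Place L ↥(laurentBaseChange L (modularFunctionFieldFull N)),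
          0 ≤ P.ord B.x → 0 ≤ P.ord (y : ↥(laurentBaseChange L (modularFunctionFieldFull N))))
    (hcons : ∀ y : Ow A π N hNk,
      RegChart L B.x (y : ↥(laurentBaseChange L (modularFunctionFieldFull N))) →
      redF A π N hπ hNk y ≠ 0 →
      ∀ (γ : k) (s : Finset (Place L ↥(laurentBaseChange L (modularFunctionFieldFull N))))
        (Tt : Finset (Place k ↥(modularFunctionFieldFullC k N))),
        (∀ P, P ∈ s ↔ EvK A π P B.x γ ∧
          P.ord (y : ↥(laurentBaseChange L (modularFunctionFieldFull N))) ≠ 0) →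
        (∀ Q, Q ∈ Tt ↔
          0 < Q.ord (B.xt hπ hNk - algebraMap k ↥(modularFunctionFieldFullC k N) γ)) →
          ∑ P ∈ s, P.ord (y : ↥(laurentBaseChange L (modularFunctionFieldFull N))) =
            ∑ Q ∈ Tt, Q.ord (redF A π N hπ hNk y)) :
    IsChart A π (Ow A π N hNk) (redF A π N hπ hNk) ⟨B.x, B.x_mem_Ow hNk⟩ :=
  ChartV0.isChart_of_ff _ hsurj (redData hπ hNk) (isUnit_of_redF_ne_zero hπ hNk)
    (scale_Ow hπ hNk) (InstGenusX.isFF1_x B hπ hsurj hNk) (InstGenusX.isFF1_xt B hπ hsurj hNk)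
    hT3 (InstChartX.red_reg_x B hπ hsurj hNk) (InstChartX.ev_x B hπ hsurj hNk) hcons

/-- **`IsChart` for the chart `x⁻¹`**, from `T3'` (place form) and `cons`. -/
theorem isChart_x_inv (hπ : ∀ a : A, ¬ IsUnit a → π a = 0) (hsurj : Function.Surjective π)
    (hNk : (N : k) ≠ 0)
    (hT3' : ∀ s : ↥(modularFunctionFieldFullC k N),
      (∀ Q : Place k ↥(modularFunctionFieldFullC k N), Q.ord (B.xt hπ hNk) ≤ 0 → 0 ≤ Q.ord s) →
      ∃ y : Ow A π N hNk, redF A π N hπ hNk y = s ∧
        ∀ P : Place L ↥(laurentBaseChange L (modularFunctionFieldFull N)),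
          P.ord B.x ≤ 0 → 0 ≤ P.ord (y : ↥(laurentBaseChange L (modularFunctionFieldFull N))))
    (hcons : ∀ y : Ow A π N hNk,
      RegChart L (B.x)⁻¹ (y : ↥(laurentBaseChange L (modularFunctionFieldFull N))) →
      redF A π N hπ hNk y ≠ 0 →
      ∀ (γ : k) (s : Finset (Place L ↥(laurentBaseChange L (modularFunctionFieldFull N))))
        (Tt : Finset (Place k ↥(modularFunctionFieldFullC k N))),
        (∀ P, P ∈ s ↔ EvK A π P (B.x)⁻¹ γ ∧
          P.ord (y : ↥(laurentBaseChange L (modularFunctionFieldFull N))) ≠ 0) →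
        (∀ Q, Q ∈ Tt ↔
          0 < Q.ord ((B.xt hπ hNk)⁻¹ - algebraMap k ↥(modularFunctionFieldFullC k N) γ)) →
          ∑ P ∈ s, P.ord (y : ↥(laurentBaseChange L (modularFunctionFieldFull N))) =
            ∑ Q ∈ Tt, Q.ord (redF A π N hπ hNk y)) :
    IsChart A π (Ow A π N hNk) (redF A π N hπ hNk) ⟨(B.x)⁻¹, B.x_inv_mem_Ow hπ hNk⟩ := by
  have hred : redF A π N hπ hNk ⟨(B.x)⁻¹, B.x_inv_mem_Ow hπ hNk⟩ = (B.xt hπ hNk)⁻¹ :=
    InstChartX.redF_x_inv B hπ hNk
  refine ChartV0.isChart_of_ff _ hsurj (redData hπ hNk) (isUnit_of_redF_ne_zero hπ hNk)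
    (scale_Ow hπ hNk) (InstGenusX.isFF1_x B hπ hsurj hNk).inv ?_ ?_
    (InstChartX.red_reg_x_inv B hπ hsurj hNk) (InstChartX.ev_x_inv B hπ hsurj hNk) ?_
  · rw [hred]
    exact (InstGenusX.isFF1_xt B hπ hsurj hNk).inv
  · intro s hs
    obtain ⟨y, hy, hreg⟩ := hT3' s (fun Q hQ => hs Q (by rw [hred, Place.ord_inv]; omega))
    refine ⟨y, hy, fun P hP => hreg P ?_⟩
    have hP' : 0 ≤ P.ord (B.x)⁻¹ := hP
    rw [Place.ord_inv] at hP'
    omega
  · intro y hy hy0 γ s Tt hs hTt
    refine hcons y hy hy0 γ s Tt hs (fun Q => ?_)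
    rw [hTt Q, hred]

end

end Fermat.Agent.Lib.Red.InstChartV0
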