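/-
ESJ / RED (PLACE, modular instance for an arbitrary base function `B : BaseFn.Data A π N`):
the place reduction map `r : Pl(L·F_N) → Pl(F̄_N)` with `r_* div(y) = div(ȳ)` for all
Gauss-integral `y` with `ȳ ≠ 0`, from good reduction `T3`, `T3'` of the two charts `x`, `x⁻¹`
(in the place form of `InstGenusX.genusFF_le_modular`).

This is `PlaceRedMain.exists_reduction_of_gauss` (helper37) instantiated at `Ow A π N hNk`,
`redF`, `x = B.x`; all the other inputs (V0, `IsFF1` on both sides, separability on both sides,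
a good basis) are on main.
-/
import Mathlib
import Fermat.Agent.Lib.Red.InstChartV0
import Fermat.Agent.Lib.Red.PlaceRedMain
import Fermat.Agent.Lib.FF.ModLSepX

set_option autoImplicit false

namespace Fermat.Agent.Lib.Red.InstPlaceX

open HahnSeries ModularCurve Polynomial AlgebraicCurve Fermat.Agent.S28 IntermediateField
  Fermat.Agent.S24 Fermat.Agent.Lib.Red.PlaceRed Fermat.Agent.Lib.FF Fermat.Agent.Lib.Red

noncomputable section

variable {L : Type*} [Field L] [Algebra ℚ L] {A : ValuationSubring L} {k : Type} [Field k]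
  {π : A →+* k} {N : ℕ} [NeZero N] [IsAlgClosed L] [IsAlgClosed k] (B : BaseFn.Data A π N)

set_option synthInstance.maxHeartbeats 400000 in
set_option maxHeartbeats 1000000 in
/-- **The place reduction of the modular curve along the Gauss valuation, from `T3`, `T3'`.** -/
theorem exists_reduction_of_T3 (hπ : ∀ a : A, ¬ IsUnit a → π a = 0)
    (hsurj : Function.Surjective π) (hNk : (N : k) ≠ 0)
    (hT3 : ∀ s : ↥(modularFunctionFieldFullC k N),
      (∀ Q : Place k ↥(modularFunctionFieldFullC k N), 0 ≤ Q.ord (B.xt hπ hNk) → 0 ≤ Q.ord s) →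
      ∃ y : Ow A π N hNk, redF A π N hπ hNk y = s ∧
        ∀ P : Place L ↥(laurentBaseChange L (modularFunctionFieldFull N)),
          0 ≤ P.ord B.x → 0 ≤ P.ord (y : ↥(laurentBaseChange L (modularFunctionFieldFull N))))
    (hT3' : ∀ s : ↥(modularFunctionFieldFullC k N),
      (∀ Q : Place k ↥(modularFunctionFieldFullC k N), Q.ord (B.xt hπ hNk) ≤ 0 → 0 ≤ Q.ord s) →
      ∃ y : Ow A π N hNk, redF A π N hπ hNk y = s ∧
        ∀ P : Place L ↥(laurentBaseChange L (modularFunctionFieldFull N)),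
          P.ord B.x ≤ 0 → 0 ≤ P.ord (y : ↥(laurentBaseChange L (modularFunctionFieldFull N)))) :
    ∃ r : Place L ↥(laurentBaseChange L (modularFunctionFieldFull N)) →
        Place k ↥(modularFunctionFieldFullC k N),
      (∀ (P : Place L ↥(laurentBaseChange L (modularFunctionFieldFull N))) (γ : k),
        EvK A π P B.x γ →
          0 < (r P).ord (B.xt hπ hNk - algebraMap k ↥(modularFunctionFieldFullC k N) γ)) ∧
      (∀ P : Place L ↥(laurentBaseChange L (modularFunctionFieldFull N)),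
        EvK A π P (B.x)⁻¹ 0 → 0 < (r P).ord (B.xt hπ hNk)⁻¹) ∧
      ∀ y : Ow A π N hNk, redF A π N hπ hNk y ≠ 0 →
        ∀ D : Place L ↥(laurentBaseChange L (modularFunctionFieldFull N)) →₀ ℤ,
          (∀ P, D P = P.ord (y : ↥(laurentBaseChange L (modularFunctionFieldFull N)))) →
          ∀ Q, Finsupp.mapDomain r D Q = Q.ord (redF A π N hπ hNk y) := by
  obtain ⟨n, ⟨G⟩⟩ := B.exists_goodBasis hπ hsurj hNk
  haveI := ModL.isSeparable_x B hπ hsurj hNk
  haveI := ModL.isSeparable_xt B hπ hNk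
  have hxx' : (⟨B.x, B.x_mem_Ow hNk⟩ : Ow A π N hNk) * ⟨(B.x)⁻¹, B.x_inv_mem_Ow hπ hNk⟩ = 1 :=
    Subtype.ext (mul_inv_cancel₀ (B.x_ne_zero hπ hNk))
  obtain ⟨r, h1, h2, h3⟩ := PlaceRedMain.exists_reduction_of_gauss hπ hsurj (redData hπ hNk)
    (algebraMap_mem_Ow_iff hπ hNk) (redF_eq_zero_iff hπ hNk) (InstChartV0.scale_Ow hπ hNk)
    (⟨B.x, B.x_mem_Ow hNk⟩ : Ow A π N hNk) ⟨(B.x)⁻¹, B.x_inv_mem_Ow hπ hNk⟩ hxx'
    (InstGenusX.isFF1_x B hπ hsurj hNk) (InstGenusX.isFF1_xt B hπ hsurj hNk)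
    (L⟮B.x⟯) rfl (k⟮B.xt hπ hNk⟯) rfl G hT3 hT3'
  refine ⟨r, h1, fun P hP => ?_, h3⟩
  have h := h2 P hP
  rwa [InstChartX.redF_x_inv B hπ hNk] at h

end

end Fermat.Agent.Lib.Red.InstPlaceX
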