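/-
helper86 — good bases in towers (abstract; Mathlib + `Lib/Red/Ortho` only).

Three valued fields `(F₀, O₀, red₀ : O₀ → E₀)`, `(F₁, O₁, red₁ : O₁ → E₁)`,
`(F₂, O₂, red₂ : O₂ → E₂)` in a tower `F₀ → F₁ → F₂`, `E₀ → E₁ → E₂`.

* `compat_trans`     : compatibility is transitive;
* `goodBasisTrans`   : good bases multiply: a good basis `c j` of the top step and a good basis
  `b i` of the bottom step give the good basis `b i * c j` of the whole tower;
* `goodBasisTrans_b` : the formula for its members.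
-/
import Mathlib
import Fermat.Agent.Lib.Red.Ortho

set_option autoImplicit false
set_option linter.unusedSectionVars false

namespace Fermat.Agent.Lib.Red.OrthoTower

open scoped BigOperators

open Module Fermat.Agent.Lib.Red.Ortho

noncomputable section

variable {F₀ F₁ F₂ E₀ E₁ E₂ : Type*} [Field F₀] [Field F₁] [Field F₂] [Field E₀] [Field E₁]
  [Field E₂]
  [Algebra F₀ F₁] [Algebra F₁ F₂] [Algebra F₀ F₂] [IsScalarTower F₀ F₁ F₂]
  [Algebra E₀ E₁] [Algebra E₁ E₂] [Algebra E₀ E₂] [IsScalarTower E₀ E₁ E₂]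
  {O₀ : ValuationSubring F₀} {red₀ : O₀ →+* E₀}
  {O₁ : ValuationSubring F₁} {red₁ : O₁ →+* E₁}
  {O₂ : ValuationSubring F₂} {red₂ : O₂ →+* E₂}

/-- Compatibility is transitive. -/
theorem compat_trans (h21 : Compat O₂ red₂ O₁ red₁) (h10 : Compat O₁ red₁ O₀ red₀) :
    Compat O₂ red₂ O₀ red₀ where
  ker := h21.ker
  mem_iff c := by
    rw [h10.mem_iff, h21.mem_iff, ← IsScalarTower.algebraMap_apply]
  red_comp c h := by
    have h1 : algebraMap F₀ F₁ (c : F₀) ∈ O₁ := h10.algebraMap_mem c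
    have h2 : algebraMap F₁ F₂ (algebraMap F₀ F₁ (c : F₀)) ∈ O₂ :=
      h21.algebraMap_mem ⟨_, h1⟩
    have e : (⟨algebraMap F₀ F₂ (c : F₀), h⟩ : O₂) =
        ⟨algebraMap F₁ F₂ (algebraMap F₀ F₁ (c : F₀)), h2⟩ :=
      Subtype.ext (IsScalarTower.algebraMap_apply F₀ F₁ F₂ _)
    rw [e, h21.red_comp ⟨_, h1⟩ h2, h10.red_comp c h1, ← IsScalarTower.algebraMap_apply]

variable {ι₁ ι₂ : Type*} [Fintype ι₁] [Fintype ι₂]

/-- **Good bases multiply in towers.** -/
def goodBasisTrans (G21 : GoodBasis O₂ red₂ O₁ red₁ ι₂) (G10 : GoodBasis O₁ red₁ O₀ red₀ ι₁) :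
    GoodBasis O₂ red₂ O₀ red₀ (ι₁ × ι₂) where
  compat := compat_trans G21.compat G10.compat
  surj := G21.surj
  b := fun p => ⟨algebraMap F₁ F₂ ((G10.b p.1 : O₁) : F₁),
    G21.compat.algebraMap_mem (G10.b p.1)⟩ * G21.b p.2
  ind := by
    have h := linearIndependent_smul G10.ind G21.ind
    convert h using 1
    funext p
    rw [map_mul, G21.compat.red_algebraMap, Algebra.smul_def]
  span := by
    intro y
    obtain ⟨d, hd⟩ := G21.span y
    choose e he using fun j => G10.span (d j)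
    refine ⟨fun p => e p.2 p.1, ?_⟩
    rw [hd, Fintype.sum_prod_type, Finset.sum_comm]
    refine Finset.sum_congr rfl fun j _ => ?_
    rw [he j, map_sum, Finset.sum_mul]
    refine Finset.sum_congr rfl fun i _ => ?_
    show algebraMap F₁ F₂ (algebraMap F₀ F₁ (e j i) * ((G10.b i : O₁) : F₁)) * (G21.b j : F₂) =
      algebraMap F₀ F₂ (e j i) * (algebraMap F₁ F₂ ((G10.b i : O₁) : F₁) * (G21.b j : F₂))
    rw [map_mul, ← IsScalarTower.algebraMap_apply, mul_assoc]

@[simp] theorem goodBasisTrans_b (G21 : GoodBasis O₂ red₂ O₁ red₁ ι₂)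
    (G10 : GoodBasis O₁ red₁ O₀ red₀ ι₁) (p : ι₁ × ι₂) :
    (((goodBasisTrans G21 G10).b p : O₂) : F₂) =
      algebraMap F₁ F₂ ((G10.b p.1 : O₁) : F₁) * (G21.b p.2 : F₂) := rfl

end

end Fermat.Agent.Lib.Red.OrthoTower
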