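/-
helper86 — RED-DISC in towers: good reduction of both charts (T3 / T3′, place form) for a valued
field EXTENSION `(F₁, O₁, red₁)` of the trunk field `(L·F_N, Ow, redF)`, from a RELATIVE good
basis of `F₁` over `L·F_N` (G1-T3: `F₁ = L·F1a(M, a)`).

* `lift_chart_tower` (abstract): `Disc.lift_chart` for a three-step tower `F₀ → F₁ → F₂` with good
  bases of both steps and separable residue extensions;
* `lift_x_ext`, `lift_inv_ext` : the modular instance — base function `B : BaseFn.Data A π N`,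
  trunk good basis inside, the extension `(F₁, O₁, red₁)` enters only through
  `G₁ : Ortho.GoodBasis O₁ red₁ Ow redF ι`, separability of the residue extension, and the
  branch hypothesis (BR) for the image of `B.x` in `F₁`.
-/
import Mathlib
import Fermat.Agent.Lib.Red.OrthoTower
import Fermat.Agent.Lib.Red.DiscInst

set_option autoImplicit false
set_option linter.style.haveILetI false
set_option linter.unusedSectionVars false

namespace Fermat.Agent.Lib.Red.DiscTower

open Polynomial Module AlgebraicCurve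
open Fermat.Agent.Lib.Red.Ortho Fermat.Agent.Lib.Red.OrthoTower

section Abstract

variable {L k : Type*} [Field L] [Field k] {A : ValuationSubring L} {π : A →+* k}
variable {F₀ F₁ F₂ E₀ E₁ E₂ : Type*} [Field F₀] [Field F₁] [Field F₂] [Field E₀] [Field E₁]
  [Field E₂]
  [Algebra F₀ F₁] [Algebra F₁ F₂] [Algebra E₀ E₁] [Algebra E₁ E₂]
  [Algebra L F₀] [Algebra L F₁] [Algebra L F₂] [IsScalarTower L F₀ F₁] [IsScalarTower L F₁ F₂]
  [Algebra k E₀] [Algebra k E₁] [Algebra k E₂] [IsScalarTower k E₀ E₁] [IsScalarTower k E₁ E₂]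
  {O₀ : ValuationSubring F₀} {red₀ : O₀ →+* E₀} {O₁ : ValuationSubring F₁} {red₁ : O₁ →+* E₁}
  {O₂ : ValuationSubring F₂} {red₂ : O₂ →+* E₂}
  {ι₁ ι₂ : Type*} [Fintype ι₁] [Fintype ι₂] [DecidableEq ι₁] [DecidableEq ι₂]

/-- **Good reduction in place form for a chart, in a tower.**  `F₀ = L(u)` is the rational
field of the chart, `F₁` the intermediate (trunk) field with a good basis over `F₀`, `F₂` the top
field with a good basis over `F₁`; the residue extensions are separable. -/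
theorem lift_chart_tower [IsAlgClosed L] [CharZero L] [IsAlgClosed k]
    [Algebra.IsSeparable E₀ E₁] [Algebra.IsSeparable E₁ E₂]
    (hA : ∀ a : L, algebraMap L F₀ a ∈ O₀ ↔ a ∈ A)
    (hredA : ∀ (a : A) (h : algebraMap L F₀ (a : L) ∈ O₀),
      red₀ ⟨_, h⟩ = algebraMap k E₀ (π a))
    (hπ : Function.Surjective π)
    (u : O₀) (huL : Transcendental L (u : F₀)) (hu : Transcendental k (red₀ u))
    (hgenL : ∀ z : F₀, ∃ r s : L[X], z = aeval (u : F₀) r / aeval (u : F₀) s)
    (hgenk : ∀ z : E₀, ∃ r s : k[X], z = aeval (red₀ u) r / aeval (red₀ u) s)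
    (G10 : GoodBasis O₁ red₁ O₀ red₀ ι₁) (G21 : GoodBasis O₂ red₂ O₁ red₁ ι₂)
    (hbr : ∀ γ : k, ∃ c₀ : A, π c₀ = γ ∧ ∀ c : A, π c = γ → c ≠ c₀ →
      ∀ P : Place L F₂,
        0 < P.ord (algebraMap F₁ F₂ (algebraMap F₀ F₁ (u : F₀)) - algebraMap L F₂ (c : L)) →
        P.ord (algebraMap F₁ F₂ (algebraMap F₀ F₁ (u : F₀)) - algebraMap L F₂ (c : L)) = 1)
    (s : E₂)
    (hs : ∀ Q : Place k E₂,
      0 ≤ Q.ord (algebraMap E₁ E₂ (algebraMap E₀ E₁ (red₀ u))) → 0 ≤ Q.ord s) :
    ∃ y : O₂, red₂ y = s ∧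
      ∀ P : Place L F₂,
        0 ≤ P.ord (algebraMap F₁ F₂ (algebraMap F₀ F₁ (u : F₀))) → 0 ≤ P.ord (y : F₂) := by
  letI : Algebra F₀ F₂ := ((algebraMap F₁ F₂).comp (algebraMap F₀ F₁)).toAlgebra
  letI : Algebra E₀ E₂ := ((algebraMap E₁ E₂).comp (algebraMap E₀ E₁)).toAlgebra
  haveI : IsScalarTower F₀ F₁ F₂ := IsScalarTower.of_algebraMap_eq fun _ => rfl
  haveI : IsScalarTower E₀ E₁ E₂ := IsScalarTower.of_algebraMap_eq fun _ => rfl
  haveI : IsScalarTower L F₀ F₂ := IsScalarTower.of_algebraMap_eq fun a => by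
    show algebraMap L F₂ a = algebraMap F₁ F₂ (algebraMap F₀ F₁ (algebraMap L F₀ a))
    rw [← IsScalarTower.algebraMap_apply L F₀ F₁, ← IsScalarTower.algebraMap_apply L F₁ F₂]
  haveI : IsScalarTower k E₀ E₂ := IsScalarTower.of_algebraMap_eq fun a => by
    show algebraMap k E₂ a = algebraMap E₁ E₂ (algebraMap E₀ E₁ (algebraMap k E₀ a))
    rw [← IsScalarTower.algebraMap_apply k E₀ E₁, ← IsScalarTower.algebraMap_apply k E₁ E₂]
  haveI : Algebra.IsSeparable E₀ E₂ := Algebra.IsSeparable.trans E₀ E₁ E₂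
  exact Disc.lift_chart (compat_trans G21.compat G10.compat) hA hredA hπ u huL hu hgenL hgenk
    (goodBasisTrans G21 G10) hbr s hs

end Abstract

section Modular

open HahnSeries ModularCurve IntermediateField Fermat.Agent.Lib.Red Fermat.Agent.Lib.Red.Disc

variable {L : Type*} [Field L] [Algebra ℚ L] {A : ValuationSubring L} {k : Type} [Field k]
  {π : A →+* k} {N : ℕ} [NeZero N]

set_option synthInstance.maxHeartbeats 400000 in
set_option maxHeartbeats 1000000 in
/-- **(T3) for an extension of the trunk field, chart `x`.**  `F₁ ⊇ L·F_N` with a valuation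
ring `O₁` and residue map `red₁ : O₁ → E₁ ⊇ F̃_N`; the only inputs on `F₁` are a good basis of
`(F₁, O₁, red₁)` over `(L·F_N, Ow, redF)`, separability of `E₁ / F̃_N` and the branch hypothesis
for the image of `B.x` in `F₁`. -/
theorem lift_x_ext [IsAlgClosed L] [IsAlgClosed k] (B : BaseFn.Data A π N)
    (hπ : ∀ a : A, ¬ IsUnit a → π a = 0) (hsurj : Function.Surjective π) (hNk : (N : k) ≠ 0)
    {F₁ E₁ : Type*} [Field F₁] [Field E₁]
    [Algebra ↥(laurentBaseChange L (modularFunctionFieldFull N)) F₁]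
    [Algebra ↥(modularFunctionFieldFullC k N) E₁]
    [Algebra L F₁] [IsScalarTower L ↥(laurentBaseChange L (modularFunctionFieldFull N)) F₁]
    [Algebra k E₁] [IsScalarTower k ↥(modularFunctionFieldFullC k N) E₁]
    {O₁ : ValuationSubring F₁} {red₁ : O₁ →+* E₁} {ι : Type*} [Fintype ι] [DecidableEq ι]
    (G₁ : GoodBasis O₁ red₁ (Ow A π N hNk) (redF A π N hπ hNk) ι)
    [Algebra.IsSeparable ↥(modularFunctionFieldFullC k N) E₁]
    (hbr : ∀ γ : k, ∃ c₀ : A, π c₀ = γ ∧ ∀ c : A, π c = γ → c ≠ c₀ →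
      ∀ P : Place L F₁,
        0 < P.ord (algebraMap ↥(laurentBaseChange L (modularFunctionFieldFull N)) F₁ B.x -
          algebraMap L F₁ (c : L)) →
        P.ord (algebraMap ↥(laurentBaseChange L (modularFunctionFieldFull N)) F₁ B.x -
          algebraMap L F₁ (c : L)) = 1)
    (s : E₁)
    (hs : ∀ Q : Place k E₁,
      0 ≤ Q.ord (algebraMap ↥(modularFunctionFieldFullC k N) E₁ (B.xt hπ hNk)) → 0 ≤ Q.ord s) :
    ∃ y : O₁, red₁ y = s ∧
      ∀ P : Place L F₁,
        0 ≤ P.ord (algebraMap ↥(laurentBaseChange L (modularFunctionFieldFull N)) F₁ B.x) →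
          0 ≤ P.ord (y : F₁) := by
  obtain ⟨n, ⟨G⟩⟩ := B.exists_goodBasis hπ hsurj hNk
  haveI : CharZero L := charZero_of_injective_algebraMap (algebraMap ℚ L).injective
  haveI := isSeparable_xt B hπ hNk
  have hred := redv_uGen B hπ hNk
  have h1 : Transcendental k (B.redv hπ hNk (uGen B hNk)) := by
    rw [hred]
    exact transcendental_gen (B.transcendental_xt hπ hNk)
  have h2 : ∀ z : ↥(k⟮B.xt hπ hNk⟯), ∃ r s : k[X], z =
      aeval (B.redv hπ hNk (uGen B hNk)) r / aeval (B.redv hπ hNk (uGen B hNk)) s := by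
    rw [hred]
    exact exists_aeval_gen_div (B.xt hπ hNk)
  have h3 : ∀ Q : Place k E₁,
      0 ≤ Q.ord (algebraMap ↥(modularFunctionFieldFullC k N) E₁
        (algebraMap ↥(k⟮B.xt hπ hNk⟯) ↥(modularFunctionFieldFullC k N)
          (B.redv hπ hNk (uGen B hNk)))) → 0 ≤ Q.ord s := by
    rw [hred]
    exact hs
  exact lift_chart_tower (algebraMap_mem_Ov_iff B hπ hNk) (redv_algebraMap B hπ hNk) hsurj
    (uGen B hNk) (transcendental_gen (B.transcendental_x hπ hNk)) h1 (exists_aeval_gen_div B.x)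
    h2 G G₁ hbr s h3

set_option synthInstance.maxHeartbeats 400000 in
set_option maxHeartbeats 1000000 in
/-- **(T3′) for an extension of the trunk field, chart `1/x`.** -/
theorem lift_inv_ext [IsAlgClosed L] [IsAlgClosed k] (B : BaseFn.Data A π N)
    (hπ : ∀ a : A, ¬ IsUnit a → π a = 0) (hsurj : Function.Surjective π) (hNk : (N : k) ≠ 0)
    {F₁ E₁ : Type*} [Field F₁] [Field E₁]
    [Algebra ↥(laurentBaseChange L (modularFunctionFieldFull N)) F₁]
    [Algebra ↥(modularFunctionFieldFullC k N) E₁]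
    [Algebra L F₁] [IsScalarTower L ↥(laurentBaseChange L (modularFunctionFieldFull N)) F₁]
    [Algebra k E₁] [IsScalarTower k ↥(modularFunctionFieldFullC k N) E₁]
    {O₁ : ValuationSubring F₁} {red₁ : O₁ →+* E₁} {ι : Type*} [Fintype ι] [DecidableEq ι]
    (G₁ : GoodBasis O₁ red₁ (Ow A π N hNk) (redF A π N hπ hNk) ι)
    [Algebra.IsSeparable ↥(modularFunctionFieldFullC k N) E₁]
    (hbr : ∀ γ : k, ∃ c₀ : A, π c₀ = γ ∧ ∀ c : A, π c = γ → c ≠ c₀ →
      ∀ P : Place L F₁,
        0 < P.ord ((algebraMap ↥(laurentBaseChange L (modularFunctionFieldFull N)) F₁ B.x)⁻¹ -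
          algebraMap L F₁ (c : L)) →
        P.ord ((algebraMap ↥(laurentBaseChange L (modularFunctionFieldFull N)) F₁ B.x)⁻¹ -
          algebraMap L F₁ (c : L)) = 1)
    (s : E₁)
    (hs : ∀ Q : Place k E₁,
      Q.ord (algebraMap ↥(modularFunctionFieldFullC k N) E₁ (B.xt hπ hNk)) ≤ 0 → 0 ≤ Q.ord s) :
    ∃ y : O₁, red₁ y = s ∧
      ∀ P : Place L F₁,
        P.ord (algebraMap ↥(laurentBaseChange L (modularFunctionFieldFull N)) F₁ B.x) ≤ 0 →
          0 ≤ P.ord (y : F₁) := by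
  obtain ⟨n, ⟨G⟩⟩ := B.exists_goodBasis hπ hsurj hNk
  haveI : CharZero L := charZero_of_injective_algebraMap (algebraMap ℚ L).injective
  haveI := isSeparable_xt B hπ hNk
  have hred := redv_uInv B hπ hNk
  have hxt0 : AdjoinSimple.gen k (B.xt hπ hNk) ≠ 0 := by
    intro h0
    exact transcendental_gen (B.transcendental_xt hπ hNk) (h0 ▸ isAlgebraic_zero)
  have h1 : Transcendental k (B.redv hπ hNk (uInv B hπ hNk)) := by
    rw [hred]
    exact transcendental_inv_of (transcendental_gen (B.transcendental_xt hπ hNk))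
  have h2 : ∀ z : ↥(k⟮B.xt hπ hNk⟯), ∃ r s : k[X], z =
      aeval (B.redv hπ hNk (uInv B hπ hNk)) r / aeval (B.redv hπ hNk (uInv B hπ hNk)) s := by
    rw [hred]
    exact exists_aeval_inv_div _ hxt0 (exists_aeval_gen_div (B.xt hπ hNk))
  -- the two chart elements, transported to `F₁` and `E₁`
  have e4 : algebraMap ↥(laurentBaseChange L (modularFunctionFieldFull N)) F₁
      (algebraMap ↥(L⟮B.x⟯) ↥(laurentBaseChange L (modularFunctionFieldFull N))
        ((uInv B hπ hNk : B.Ov hNk) : ↥(L⟮B.x⟯))) =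
      (algebraMap ↥(laurentBaseChange L (modularFunctionFieldFull N)) F₁ B.x)⁻¹ := by
    rw [← map_inv₀]
    rfl
  have e5 : algebraMap ↥(modularFunctionFieldFullC k N) E₁
      (algebraMap ↥(k⟮B.xt hπ hNk⟯) ↥(modularFunctionFieldFullC k N)
        (AdjoinSimple.gen k (B.xt hπ hNk))⁻¹) =
      (algebraMap ↥(modularFunctionFieldFullC k N) E₁ (B.xt hπ hNk))⁻¹ := by
    rw [← map_inv₀]
    rfl
  have h3 : ∀ Q : Place k E₁,
      0 ≤ Q.ord (algebraMap ↥(modularFunctionFieldFullC k N) E₁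
        (algebraMap ↥(k⟮B.xt hπ hNk⟯) ↥(modularFunctionFieldFullC k N)
          (B.redv hπ hNk (uInv B hπ hNk)))) → 0 ≤ Q.ord s := by
    rw [hred, e5]
    intro Q hQ
    refine hs Q ?_
    rw [Q.ord_inv] at hQ
    omega
  obtain ⟨y, hy, hy'⟩ := lift_chart_tower (algebraMap_mem_Ov_iff B hπ hNk)
    (redv_algebraMap B hπ hNk) hsurj (uInv B hπ hNk)
    (transcendental_inv_of (transcendental_gen (B.transcendental_x hπ hNk))) h1
    (exists_aeval_inv_div _ (gen_ne_zero' (B.x_ne_zero hπ hNk)) (exists_aeval_gen_div B.x))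
    h2 G G₁ (by rw [e4]; exact hbr) s h3
  refine ⟨y, hy, fun P hP => hy' P ?_⟩
  rw [e4, P.ord_inv]
  omega

end Modular

end Fermat.Agent.Lib.Red.DiscTower
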