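/-
helper91 — RED-DISC: the branch hypothesis of `DiscPlace.lift_regular` for the base function
`x = xL ℚ̄ N = J(q^N)` of the modular curve, residue characteristic `≥ 5` (in the form
`(1728 : k) ≠ 0`), for both charts `x` and `x⁻¹`.
-/
import Mathlib
import Fermat.Agent.Lib.Red.DiscPlace
import Fermat.Agent.Lib.Red.BranchInst

set_option autoImplicit false

namespace Fermat.Agent.Lib.Red.DiscBranchInst

open ModularCurve AlgebraicCurve Fermat.Agent.S28 Fermat.Agent.S24

noncomputable section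

/-- `1728 = 2^6 · 3^3` is nonzero in characteristic `ℓ ≥ 5`. -/
theorem ne_zero_1728 (k : Type*) [Field k] (ℓ : ℕ) [CharP k ℓ] (hℓ : ℓ.Prime) (h5 : 5 ≤ ℓ) :
    (1728 : k) ≠ 0 := by
  intro h
  have h1 : ((1728 : ℕ) : k) = 0 := by exact_mod_cast h
  rw [CharP.cast_eq_zero_iff k ℓ] at h1
  have h2 : (1728 : ℕ) = 2 ^ 6 * 3 ^ 3 := by norm_num
  rw [h2] at h1
  rcases (Nat.Prime.dvd_mul hℓ).1 h1 with h3 | h3
  · have := Nat.le_of_dvd (by norm_num) (hℓ.dvd_of_dvd_pow h3)
    omega
  · have := Nat.le_of_dvd (by norm_num) (hℓ.dvd_of_dvd_pow h3)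
    omega

variable (N : ℕ) [NeZero N] (A : ValuationSubring KQ) {k : Type*} [Field k] (π : A →+* k)

/-- The branch set `{0, 1728}` of `x = J_N` lies in `A`. -/
theorem branchSet_mem (b : KQ) (hb : b ∈ ({0, 1728} : Finset KQ)) : b ∈ A := by
  rw [Finset.mem_insert, Finset.mem_singleton] at hb
  rcases hb with rfl | rfl
  · exact A.zero_mem
  · exact (1728 : A).2

/-- The reduction is injective on the branch set `{0, 1728}` when `1728 ≠ 0` in `k`. -/
theorem branchSet_inj (h1728 : (1728 : k) ≠ 0) (b b' : A)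
    (hb : (b : KQ) ∈ ({0, 1728} : Finset KQ)) (hb' : (b' : KQ) ∈ ({0, 1728} : Finset KQ))
    (h : π b = π b') : b = b' := by
  have h0 : ∀ a : A, (a : KQ) = 0 → π a = 0 := by
    intro a ha
    have : a = 0 := Subtype.ext ha
    rw [this, map_zero]
  have h1 : ∀ a : A, (a : KQ) = 1728 → π a = 1728 := by
    intro a ha
    have : a = 1728 := Subtype.ext ha
    rw [this, map_ofNat]
  rw [Finset.mem_insert, Finset.mem_singleton] at hb hb'
  rcases hb with hb | hb <;> rcases hb' with hb' | hb'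
  · exact Subtype.ext (hb.trans hb'.symm)
  · rw [h0 b hb, h1 b' hb'] at h
    exact absurd h.symm h1728
  · rw [h1 b hb, h0 b' hb'] at h
    exact absurd h h1728
  · exact Subtype.ext (hb.trans hb'.symm)

/-- `x - c` has only simple zeros for `c ∉ {0, 1728}`. -/
theorem branchSet_unramified
    (P : Place KQ ↥(laurentBaseChange KQ (modularFunctionFieldFull N))) (c : KQ)
    (hc : c ∉ ({0, 1728} : Finset KQ))
    (hP : 0 < P.ord (xL KQ N - algebraMap KQ _ c)) :
    P.ord (xL KQ N - algebraMap KQ _ c) = 1 := by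
  rw [Finset.mem_insert, Finset.mem_singleton, not_or] at hc
  exact BranchInst.ord_xL_sub_generic N c hc.1 hc.2 P hP

/-- **Branch hypothesis for the chart `x = J_N`** (residue characteristic `≥ 5`). -/
theorem branch_xL (hπ : Function.Surjective π) (h1728 : (1728 : k) ≠ 0) :
    ∀ γ : k, ∃ c₀ : A, π c₀ = γ ∧ ∀ c : A, π c = γ → c ≠ c₀ →
      ∀ P : Place KQ ↥(laurentBaseChange KQ (modularFunctionFieldFull N)),
        0 < P.ord (xL KQ N - algebraMap KQ _ (c : KQ)) →
        P.ord (xL KQ N - algebraMap KQ _ (c : KQ)) = 1 :=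
  DiscPlace.branch_of_finset A π hπ (xL KQ N) {0, 1728} (branchSet_inj A π h1728)
    (branchSet_unramified N)

/-- **Branch hypothesis for the chart at infinity `x⁻¹ = 1 / J_N`** (residue characteristic
`≥ 5`). -/
theorem branch_xL_inv (hπ : Function.Surjective π) (h1728 : (1728 : k) ≠ 0)
    (hx0 : xL KQ N ≠ 0) :
    ∀ γ : k, ∃ c₀ : A, π c₀ = γ ∧ ∀ c : A, π c = γ → c ≠ c₀ →
      ∀ P : Place KQ ↥(laurentBaseChange KQ (modularFunctionFieldFull N)),
        0 < P.ord ((xL KQ N)⁻¹ - algebraMap KQ _ (c : KQ)) →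
        P.ord ((xL KQ N)⁻¹ - algebraMap KQ _ (c : KQ)) = 1 := by
  classical
  exact DiscPlace.branch_inv_of_finset A π hπ (xL KQ N) hx0 {0, 1728} (branchSet_mem A)
    (branchSet_inj A π h1728) (branchSet_unramified N)

end

end Fermat.Agent.Lib.Red.DiscBranchInst
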