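import Mathlib
import Fermat.Agent.Lib.Red.InstGenusGA
import Fermat.Agent.Lib.Red.BaseData
import Fermat.Agent.Lib.Red.BranchInst
import Fermat.Agent.Lib.FF.ModLSep
import Fermat.Agent.Lib.FF.CharP.ModLInst

/-!
# RED, second route (G-A): the genus inequality, instances

* `genusFF_le_of_data` : the genus inequality `genusFF L (L·F_N) ≤ genusFF k F̃_N` for every
  place reduction `r`, from base-function data `B : BaseFn.Data A π N` and the branch data
  (a finite set `Bv ⊆ A` of branch values on which `π` is injective).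
* `genusFF_le_JN` : the instance `x = J(q^N)`, branch values `{0, 1728}`, when `1728 ≠ 0` in `k`.
* `genusFF_le_of_five_le` : for a valuation ring `A` of `ℚ̄` over a prime `ℓ ≥ 5`, `ℓ ∤ N`,
  and every place reduction `r` mod `A`:
  `genusFF ℚ̄ (modularFunctionFieldBar N) ≤ genusFF k (modularFunctionFieldFullC k N)`.
-/

set_option autoImplicit false
set_option linter.style.haveILetI false

namespace Fermat.Agent.Lib.Red.GenusGA

open AlgebraicCurve IntermediateField KaehlerDifferential Fermat.Agent.Lib.FF ModularCurve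
  Fermat.Agent.Lib.Red.OneStep Fermat.Agent.Lib.Red

noncomputable section

section Data

variable {L : Type*} [Field L] [Algebra ℚ L] {A : ValuationSubring L} {k : Type} [Field k]
  {π : A →+* k} {N : ℕ} [NeZero N]

set_option maxHeartbeats 1000000 in
set_option synthInstance.maxHeartbeats 400000 in
/-- **The genus inequality (G-A) from base-function data.**  Branch values of `x` in the finite
set `Bv ⊆ A`, on which `π` is injective.  Then for every place reduction `r`:
`genusFF L F ≤ genusFF k F̃`. -/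
theorem genusFF_le_of_data [IsAlgClosed L] [IsAlgClosed k] (B : BaseFn.Data A π N)
    (hπ : ∀ a : A, ¬ IsUnit a → π a = 0) (hsurj : Function.Surjective π) (hNk : (N : k) ≠ 0)
    (Bv : Finset L) (hBvA : ∀ b ∈ Bv, b ∈ A)
    (hBvinj : ∀ b b' : A, (b : L) ∈ Bv → (b' : L) ∈ Bv → π b = π b' → b = b')
    (hB : ∀ (P : Place L ↥(laurentBaseChange L (modularFunctionFieldFull N))) (c : L), c ∉ Bv →
      0 < P.ord (B.x - algebraMap L ↥(laurentBaseChange L (modularFunctionFieldFull N)) c) →
      P.ord (B.x - algebraMap L ↥(laurentBaseChange L (modularFunctionFieldFull N)) c) = 1)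
    (r : Place L ↥(laurentBaseChange L (modularFunctionFieldFull N)) →
      Place k ↥(modularFunctionFieldFullC k N))
    (hr : IsPlaceReductionAlong A π N r) :
    genusFF L ↥(laurentBaseChange L (modularFunctionFieldFull N)) ≤
      genusFF k ↥(modularFunctionFieldFullC k N) := by
  haveI : FiniteDimensional L⟮B.x⟯ ↥(laurentBaseChange L (modularFunctionFieldFull N)) :=
    B.finite_L hπ hsurj hNk
  haveI : FiniteDimensional k⟮B.xt hπ hNk⟯ ↥(modularFunctionFieldFullC k N) :=
    B.finite_k hπ hsurj hNk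
  have hF : IsFF1 L ↥(laurentBaseChange L (modularFunctionFieldFull N)) B.x :=
    isFF1_of_isAlgClosed B.x (B.transcendental_x hπ hNk)
  have hFt : IsFF1 k ↥(modularFunctionFieldFullC k N) (B.xt hπ hNk) :=
    isFF1_of_isAlgClosed _ (B.transcendental_xt hπ hNk)
  have hle : k⟮xk k N⟯ ≤ k⟮B.xt hπ hNk⟯ := by
    rw [IntermediateField.adjoin_simple_le_iff]
    exact (BaseFn.mem_adjoin_xt_iff hπ hNk B.X B.hX _).mpr B.hJk
  haveI : Algebra.IsSeparable k⟮B.xt hπ hNk⟯ ↥(modularFunctionFieldFullC k N) :=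
    ModL.isSeparable_of_le k N hNk k⟮B.xt hπ hNk⟯ hle
  have hsep : Submodule.span ↥(modularFunctionFieldFullC k N)
      {D k ↥(modularFunctionFieldFullC k N) (B.xt hπ hNk)} = ⊤ :=
    span_D_eq_top_of_isSeparable (B.xt hπ hNk)
  exact genusFF_le_of_base hπ hsurj hNk ⟨B.x, B.x_mem_Ow hNk⟩ hF hFt (B.finrank_eq hπ hsurj hNk)
    Bv hBvA hBvinj hB hsep r hr

end Data

section JN

variable {A : ValuationSubring (AlgebraicClosure ℚ)} {k : Type} [Field k]
  {π : A →+* k} {N : ℕ} [NeZero N]

set_option maxHeartbeats 1000000 in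
set_option synthInstance.maxHeartbeats 400000 in
/-- **The genus inequality (G-A) for `x = J(q^N)`**: branch values `{0, 1728}`, distinct in `k`. -/
theorem genusFF_le_JN [IsAlgClosed k]
    (hπ : ∀ a : A, ¬ IsUnit a → π a = 0) (hsurj : Function.Surjective π) (hNk : (N : k) ≠ 0)
    (h1728 : (1728 : k) ≠ 0)
    (r : Place (AlgebraicClosure ℚ)
        ↥(laurentBaseChange (AlgebraicClosure ℚ) (modularFunctionFieldFull N)) →
      Place k ↥(modularFunctionFieldFullC k N))
    (hr : IsPlaceReductionAlong A π N r) :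
    genusFF (AlgebraicClosure ℚ)
        ↥(laurentBaseChange (AlgebraicClosure ℚ) (modularFunctionFieldFull N)) ≤
      genusFF k ↥(modularFunctionFieldFullC k N) := by
  classical
  have h1728A : ((1728 : A) : AlgebraicClosure ℚ) = 1728 := rfl
  have hπ1728 : π (1728 : A) = (1728 : k) := map_ofNat π 1728
  have key : ∀ b : A, (b : AlgebraicClosure ℚ) ∈ ({0, 1728} : Finset (AlgebraicClosure ℚ)) →
      (b = 0 ∧ π b = 0) ∨ (b = 1728 ∧ π b = 1728) := by
    intro b hb
    rw [Finset.mem_insert, Finset.mem_singleton] at hb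
    rcases hb with hb | hb
    · have : b = 0 := Subtype.ext hb
      exact Or.inl ⟨this, by rw [this, map_zero]⟩
    · have : b = 1728 := Subtype.ext (hb.trans h1728A.symm)
      exact Or.inr ⟨this, by rw [this, hπ1728]⟩
  refine genusFF_le_of_data (BaseFn.Data.ofJ A π N) hπ hsurj hNk
    ({0, 1728} : Finset (AlgebraicClosure ℚ)) ?_ ?_ ?_ r hr
  · intro b hb
    rw [Finset.mem_insert, Finset.mem_singleton] at hb
    rcases hb with rfl | rfl
    · exact A.zero_mem
    · exact (1728 : A).2
  · intro b b' hb hb' hbb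
    rcases key b hb with ⟨h1, h2⟩ | ⟨h1, h2⟩ <;> rcases key b' hb' with ⟨h3, h4⟩ | ⟨h3, h4⟩
    · rw [h1, h3]
    · rw [h2, h4] at hbb
      exact absurd hbb.symm h1728
    · rw [h2, h4] at hbb
      exact absurd hbb h1728
    · rw [h1, h3]
  · intro P c hc hP
    rw [Finset.mem_insert, Finset.mem_singleton, not_or] at hc
    rw [BaseFn.Data.ofJ_x] at hP ⊢
    exact BranchInst.ord_xL_sub_generic N c hc.1 hc.2 P hP

set_option maxHeartbeats 1000000 in
set_option synthInstance.maxHeartbeats 400000 in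
/-- **(GA\*) for `ℓ ≥ 5`**: for a valuation ring `A` of `ℚ̄` over a prime `ℓ ≥ 5` not dividing
`N` and every place reduction `r` mod `A`, the genus does not drop:
`genusFF ℚ̄ (ℚ̄·F_N) ≤ genusFF k F̃_N`. -/
theorem genusFF_le_of_five_le (N ℓ : ℕ) [NeZero N] (hℓ : ℓ.Prime) (hℓN : ¬ ℓ ∣ N) (h5 : 5 ≤ ℓ)
    (A : ValuationSubring (AlgebraicClosure ℚ)) (hA : A.LiesOverPrime ℓ)
    (r : Place (AlgebraicClosure ℚ) ↥(modularFunctionFieldBar N) →
      Place (IsLocalRing.ResidueField A)
        ↥(modularFunctionFieldFullC (IsLocalRing.ResidueField A) N))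
    (hr : IsPlaceReductionModL A N r) :
    genusFF (AlgebraicClosure ℚ) ↥(modularFunctionFieldBar N) ≤
      genusFF (IsLocalRing.ResidueField A)
        ↥(modularFunctionFieldFullC (IsLocalRing.ResidueField A) N) := by
  haveI : IsAlgClosed (IsLocalRing.ResidueField A) :=
    Fermat.Agent.Lib.FF.CharP.isAlgClosed_residueField A
  haveI : CharP (IsLocalRing.ResidueField A) ℓ := by
    rw [CharP.charP_iff_prime_eq_zero hℓ]
    have h1 : ((ℓ : A) : AlgebraicClosure ℚ) ∈ A.nonunits := by
      have h2 : ((ℓ : A) : AlgebraicClosure ℚ) = (ℓ : AlgebraicClosure ℚ) := by push_cast; rfl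
      rw [h2]
      exact hA
    have h3 : (ℓ : A) ∈ IsLocalRing.maximalIdeal A := ValuationSubring.coe_mem_nonunits_iff.mp h1
    have h4 : IsLocalRing.residue A (ℓ : A) = 0 := (IsLocalRing.residue_eq_zero_iff _).mpr h3
    rwa [map_natCast] at h4
  have hπ : ∀ a : A, ¬ IsUnit a → IsLocalRing.residue A a = 0 := fun a ha =>
    (IsLocalRing.residue_eq_zero_iff a).mpr ((IsLocalRing.mem_maximalIdeal a).mpr ha)
  have hsurj : Function.Surjective (IsLocalRing.residue A) := IsLocalRing.residue_surjective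
  have hNk : (N : IsLocalRing.ResidueField A) ≠ 0 := by
    rw [Ne, CharP.cast_eq_zero_iff (IsLocalRing.ResidueField A) ℓ]
    exact hℓN
  have h1728 : (1728 : IsLocalRing.ResidueField A) ≠ 0 := by
    have hc : ((1728 : ℕ) : IsLocalRing.ResidueField A) ≠ 0 := by
      rw [Ne, CharP.cast_eq_zero_iff (IsLocalRing.ResidueField A) ℓ]
      intro hdvd
      have h6 : (1728 : ℕ) = 2 ^ 6 * 3 ^ 3 := by norm_num
      rw [h6] at hdvd
      rcases (Nat.Prime.dvd_mul hℓ).mp hdvd with h | h
      · have := (Nat.prime_dvd_prime_iff_eq hℓ Nat.prime_two).mp (hℓ.dvd_of_dvd_pow h)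
        omega
      · have := (Nat.prime_dvd_prime_iff_eq hℓ Nat.prime_three).mp (hℓ.dvd_of_dvd_pow h)
        omega
    exact_mod_cast hc
  exact genusFF_le_JN hπ hsurj hNk h1728 r hr

end JN

end

end Fermat.Agent.Lib.Red.GenusGA
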