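/-
ESJ / RED (V2): trace, norm and characteristic polynomial of an `A[x]`-integral function have
coefficients in `A[x]`, and reduce to the trace, norm and characteristic polynomial of the
reduction.

* `Ortho.isIntegral_charpoly_coeff` (Mathlib only): the characteristic polynomial of a matrix
  integral over `R` has `R`-integral coefficients;
* `evF`, `evFbar` : the evaluation maps `A[X] → L·F_N`, `A[X] → F̄`  (`p ↦ p(x)`, `p ↦ p̄(x̄)`);
* `exists_poly_of_isIntegral` : an element of `Ov` integral over `L[x]` is `p(x)`, `p ∈ A[X]`,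
  and its reduction is `p̄(x̄)`;
* `exists_poly_trace`, `exists_poly_norm`, `exists_charpoly`.
-/
import Mathlib
import Fermat.Agent.Lib.Red.Integral

set_option autoImplicit false

namespace Fermat.Agent.Lib.Red

open HahnSeries ModularCurve Polynomial AlgebraicCurve Fermat.Agent.S28 IntermediateField

open scoped IntermediateField.algebraAdjoinAdjoin

noncomputable section

/-- The coefficients of the characteristic polynomial of a matrix which is integral over `R` are
integral over `R`. -/
theorem Ortho.isIntegral_charpoly_coeff {R K n : Type*} [CommRing R] [Field K] [Algebra R K]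
    [Fintype n] [DecidableEq n] (M : Matrix n n K) (hM : IsIntegral R M) (i : ℕ) :
    IsIntegral R (M.charpoly.coeff i) := by
  set Ω := AlgebraicClosure K
  obtain ⟨p, hp, hpM⟩ := hM
  set M' : Matrix n n Ω := M.map (algebraMap K Ω) with hM'
  have hq : M'.charpoly = M.charpoly.map (algebraMap K Ω) := Matrix.charpoly_map M _
  have hpM' : Polynomial.aeval M' p = 0 := by
    have h1 : M' = (AlgHom.mapMatrix (IsScalarTower.toAlgHom R K Ω)) M := rfl
    rw [h1, Polynomial.aeval_algHom_apply]
    have : Polynomial.aeval M p = 0 := hpM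
    rw [this, map_zero]
  have hroot : ∀ x : Ω, M'.charpoly.IsRoot x → IsIntegral R x := by
    intro x hx
    have h1 : Module.End.HasEigenvalue (Matrix.toLin' M') x :=
      (Module.End.hasEigenvalue_iff_isRoot_charpoly _ _).mpr (by rwa [Matrix.charpoly_toLin'])
    have h2 : (minpoly Ω (Matrix.toLin' M')).IsRoot x := Module.End.isRoot_of_hasEigenvalue h1
    rw [Matrix.minpoly_toLin'] at h2
    have h3 : minpoly Ω M' ∣ p.map (algebraMap R Ω) :=
      minpoly.dvd _ _ (by rw [Polynomial.aeval_map_algebraMap]; exact hpM')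
    have h4 : (p.map (algebraMap R Ω)).IsRoot x := h2.dvd h3
    refine ⟨p, hp, ?_⟩
    rw [← Polynomial.eval_map]
    exact h4
  have h5 : IsIntegral R (M'.charpoly.coeff i) :=
    Polynomial.isIntegral_coeff_of_factors _
      (by rw [(Matrix.charpoly_monic M').leadingCoeff]; exact isIntegral_one)
      (IsAlgClosed.splits _) hroot i
  rw [hq, Polynomial.coeff_map] at h5
  exact (isIntegral_algHom_iff (IsScalarTower.toAlgHom R K Ω)
    (algebraMap K Ω).injective).mp h5

/-- The characteristic polynomial of multiplication by an `R`-integral element has `R`-integral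
coefficients. -/
theorem Ortho.isIntegral_charpoly_leftMulMatrix_coeff {R K F ι : Type*} [CommRing R] [Field K]
    [Field F] [Algebra R K] [Algebra K F] [Algebra R F] [IsScalarTower R K F] [Fintype ι]
    [DecidableEq ι] (b : Module.Basis ι K F) {y : F} (hy : IsIntegral R y) (i : ℕ) :
    IsIntegral R ((Algebra.leftMulMatrix b y).charpoly.coeff i) :=
  Ortho.isIntegral_charpoly_coeff _ (hy.map ((Algebra.leftMulMatrix b).restrictScalars R)) i

/-- The characteristic polynomial of left multiplication does not depend on the basis. -/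
theorem Ortho.charpoly_leftMulMatrix_eq {K F ι ι' : Type*} [Field K] [Field F] [Algebra K F]
    [Fintype ι] [DecidableEq ι] [Fintype ι'] [DecidableEq ι'] (b : Module.Basis ι K F)
    (b' : Module.Basis ι' K F) (y : F) :
    (Algebra.leftMulMatrix b y).charpoly = (Algebra.leftMulMatrix b' y).charpoly := by
  have := Module.Finite.of_basis b
  rw [← Algebra.toMatrix_lmul_eq, ← Algebra.toMatrix_lmul_eq, LinearMap.charpoly_toMatrix,
    LinearMap.charpoly_toMatrix]

variable {L : Type*} [Field L] [Algebra ℚ L] (A : ValuationSubring L) {k : Type} [Field k]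
  (π : A →+* k) (N : ℕ) [NeZero N]

/-- Evaluation at `x = J(q^N)`: `A[X] → L·F_N`. -/
def evF : Polynomial A →+* ↥(laurentBaseChange L (modularFunctionFieldFull N)) :=
  (Polynomial.aeval (R := L) (xL L N)).toRingHom.comp (Polynomial.mapRingHom A.subtype)

/-- Evaluation at `x̄`: `A[X] → F̄`, `p ↦ p̄(x̄)`. -/
def evFbar : Polynomial A →+* ↥(modularFunctionFieldFullC k N) :=
  (Polynomial.aeval (R := k) (xk k N)).toRingHom.comp (Polynomial.mapRingHom π)

variable {A π N}

theorem evF_apply (p : Polynomial A) :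
    evF A N p = Polynomial.aeval (xL L N) (p.map A.subtype) := rfl

omit [Algebra ℚ L] in
theorem evFbar_apply (p : Polynomial A) :
    evFbar A π N p = Polynomial.aeval (xk k N) (p.map π) := rfl

theorem evF_mem_Ow (hNk : (N : k) ≠ 0) (p : Polynomial A) : evF A N p ∈ Ow A π N hNk :=
  aeval_map_mem_Ow hNk p

theorem redF_evF (hπ : ∀ a : A, ¬ IsUnit a → π a = 0) (hNk : (N : k) ≠ 0) (p : Polynomial A) :
    redF A π N hπ hNk ⟨evF A N p, evF_mem_Ow hNk p⟩ = evFbar A π N p :=
  redF_aeval_map hπ hNk p

/-- If an element of `Ov` is `p(x)` with `p ∈ A[X]`, its reduction is `p̄(x̄)`. -/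
theorem algebraMap_redv_eq (hπ : ∀ a : A, ¬ IsUnit a → π a = 0) (hNk : (N : k) ≠ 0)
    (c : Ov A π N hNk) (p : Polynomial A)
    (h : algebraMap ↥(L⟮xL L N⟯) ↥(laurentBaseChange L (modularFunctionFieldFull N))
      (c : ↥(L⟮xL L N⟯)) = evF A N p) :
    algebraMap ↥(k⟮xk k N⟯) ↥(modularFunctionFieldFullC k N) (redv A π N hπ hNk c) =
      evFbar A π N p := by
  have h2 : algebraMap ↥(k⟮xk k N⟯) ↥(modularFunctionFieldFullC k N) (redv A π N hπ hNk c) =
      redF A π N hπ hNk (OvToOw A π N hNk c) := rfl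
  have h3 : OvToOw A π N hNk c = ⟨evF A N p, evF_mem_Ow hNk p⟩ := Subtype.ext h
  rw [h2, h3, redF_evF]

/-- An element of `Ov` which is integral over `L[x]` is `p(x)` for some `p ∈ A[X]`, and its
reduction is `p̄(x̄)`. -/
theorem exists_poly_of_isIntegral (hπ : ∀ a : A, ¬ IsUnit a → π a = 0) (hNk : (N : k) ≠ 0)
    (c : Ov A π N hNk)
    (hc : IsIntegral ↥(Algebra.adjoin L {xL L N}) (c : ↥(L⟮xL L N⟯))) :
    ∃ p : Polynomial A,
      algebraMap ↥(L⟮xL L N⟯) ↥(laurentBaseChange L (modularFunctionFieldFull N))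
        (c : ↥(L⟮xL L N⟯)) = evF A N p ∧
      algebraMap ↥(k⟮xk k N⟯) ↥(modularFunctionFieldFullC k N) (redv A π N hπ hNk c) =
        evFbar A π N p := by
  have := isIntegrallyClosed_adjoin_xL L N
  obtain ⟨r, hr⟩ := IsIntegrallyClosed.isIntegral_iff.mp hc
  have h1 : algebraMap ↥(L⟮xL L N⟯) ↥(laurentBaseChange L (modularFunctionFieldFull N))
      (c : ↥(L⟮xL L N⟯)) ∈ AX A N := by
    refine mem_AX_of_mem_adjoin hπ hNk ?_ c.2
    rw [← hr]
    exact r.2
  obtain ⟨p, hp⟩ := h1
  exact ⟨p, hp.symm, algebraMap_redv_eq hπ hNk c p hp.symm⟩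

/-- **Trace.** The trace to `L(x)` of a Gauss-integral function integral over `L[x]` is `p(x)`
with `p ∈ A[X]`, and the trace of its reduction is `p̄(x̄)`. -/
theorem exists_poly_trace (hπ : ∀ a : A, ¬ IsUnit a → π a = 0) (hsurj : Function.Surjective π)
    (hNk : (N : k) ≠ 0) (y : Ow A π N hNk)
    (hy : IsIntegral ↥(Algebra.adjoin L {xL L N})
      (y : ↥(laurentBaseChange L (modularFunctionFieldFull N)))) :
    ∃ p : Polynomial A,
      algebraMap ↥(L⟮xL L N⟯) ↥(laurentBaseChange L (modularFunctionFieldFull N))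
        (Algebra.trace ↥(L⟮xL L N⟯) ↥(laurentBaseChange L (modularFunctionFieldFull N))
          (y : ↥(laurentBaseChange L (modularFunctionFieldFull N)))) = evF A N p ∧
      algebraMap ↥(k⟮xk k N⟯) ↥(modularFunctionFieldFullC k N)
        (Algebra.trace ↥(k⟮xk k N⟯) ↥(modularFunctionFieldFullC k N) (redF A π N hπ hNk y)) =
        evFbar A π N p := by
  have := finite_L hπ hsurj hNk
  have h1 : IsIntegral ↥(Algebra.adjoin L {xL L N})
      (Algebra.trace ↥(L⟮xL L N⟯) ↥(laurentBaseChange L (modularFunctionFieldFull N))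
        (y : ↥(laurentBaseChange L (modularFunctionFieldFull N)))) := Algebra.isIntegral_trace hy
  obtain ⟨p, hp1, hp2⟩ := exists_poly_of_isIntegral hπ hNk ⟨_, trace_mem hπ hsurj hNk y⟩ h1
  exact ⟨p, hp1, by rw [← hp2, red_trace hπ hsurj hNk y]⟩

/-- **Norm.** The norm to `L(x)` of a Gauss-integral function integral over `L[x]` is `p(x)`
with `p ∈ A[X]`, and the norm of its reduction is `p̄(x̄)`. -/
theorem exists_poly_norm (hπ : ∀ a : A, ¬ IsUnit a → π a = 0) (hsurj : Function.Surjective π)
    (hNk : (N : k) ≠ 0) (y : Ow A π N hNk)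
    (hy : IsIntegral ↥(Algebra.adjoin L {xL L N})
      (y : ↥(laurentBaseChange L (modularFunctionFieldFull N)))) :
    ∃ p : Polynomial A,
      algebraMap ↥(L⟮xL L N⟯) ↥(laurentBaseChange L (modularFunctionFieldFull N))
        (Algebra.norm ↥(L⟮xL L N⟯)
          (y : ↥(laurentBaseChange L (modularFunctionFieldFull N)))) = evF A N p ∧
      algebraMap ↥(k⟮xk k N⟯) ↥(modularFunctionFieldFullC k N)
        (Algebra.norm ↥(k⟮xk k N⟯) (redF A π N hπ hNk y)) = evFbar A π N p := by
  have h1 : IsIntegral ↥(Algebra.adjoin L {xL L N})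
      (Algebra.norm ↥(L⟮xL L N⟯)
        (y : ↥(laurentBaseChange L (modularFunctionFieldFull N)))) := Algebra.isIntegral_norm _ hy
  obtain ⟨p, hp1, hp2⟩ := exists_poly_of_isIntegral hπ hNk ⟨_, norm_mem hπ hsurj hNk y⟩ h1
  exact ⟨p, hp1, by rw [← hp2, red_norm hπ hsurj hNk y]⟩

/-- **Characteristic polynomial.** For a Gauss-integral function `y` integral over `L[x]` there
is one monic `P ∈ A[X][T]` of degree `[F : L(x)]` which evaluates (coefficientwise, at `x`) to
the characteristic polynomial of `y` over `L(x)` and (at `x̄`) to the characteristic polynomial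
of the reduction of `y` over `k(x̄)`. -/
theorem exists_charpoly (hπ : ∀ a : A, ¬ IsUnit a → π a = 0) (hsurj : Function.Surjective π)
    (hNk : (N : k) ≠ 0) (y : Ow A π N hNk)
    (hy : IsIntegral ↥(Algebra.adjoin L {xL L N})
      (y : ↥(laurentBaseChange L (modularFunctionFieldFull N)))) :
    ∃ P : Polynomial (Polynomial A), P.Monic ∧
      P.natDegree = Module.finrank ↥(L⟮xL L N⟯)
        ↥(laurentBaseChange L (modularFunctionFieldFull N)) ∧
      (∀ (ι' : Type) [Fintype ι'] [DecidableEq ι']
        (b : Module.Basis ι' ↥(L⟮xL L N⟯) ↥(laurentBaseChange L (modularFunctionFieldFull N))),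
        (Algebra.leftMulMatrix b
          (y : ↥(laurentBaseChange L (modularFunctionFieldFull N)))).charpoly.map
          (algebraMap ↥(L⟮xL L N⟯) ↥(laurentBaseChange L (modularFunctionFieldFull N))) =
          P.map (evF A N)) ∧
      (∀ (ι' : Type) [Fintype ι'] [DecidableEq ι']
        (b : Module.Basis ι' ↥(k⟮xk k N⟯) ↥(modularFunctionFieldFullC k N)),
        (Algebra.leftMulMatrix b (redF A π N hπ hNk y)).charpoly.map
          (algebraMap ↥(k⟮xk k N⟯) ↥(modularFunctionFieldFullC k N)) =
          P.map (evFbar A π N)) := by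
  classical
  obtain ⟨ι, _, G, -⟩ := exists_goodBasis hπ hsurj hNk
  set χ₀ := (G.mulMatrix y).charpoly with hχ₀
  have hχm : χ₀.Monic := G.charpoly_monic y
  -- integrality of the coefficients
  have hint : ∀ i, IsIntegral ↥(Algebra.adjoin L {xL L N})
      ((χ₀.coeff i : Ov A π N hNk) : ↥(L⟮xL L N⟯)) := by
    intro i
    have h1 : ((χ₀.coeff i : Ov A π N hNk) : ↥(L⟮xL L N⟯)) =
        (Algebra.leftMulMatrix G.basisF
          (y : ↥(laurentBaseChange L (modularFunctionFieldFull N)))).charpoly.coeff i := by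
      rw [← G.charpoly_map_subtype, Polynomial.coeff_map]
      rfl
    rw [h1]
    exact Ortho.isIntegral_charpoly_leftMulMatrix_coeff G.basisF hy i
  choose p hp1 hp2 using fun i => exists_poly_of_isIntegral hπ hNk (χ₀.coeff i) (hint i)
  -- the lift
  set φ : Ov A π N hNk →+* ↥(laurentBaseChange L (modularFunctionFieldFull N)) :=
    (algebraMap ↥(L⟮xL L N⟯) ↥(laurentBaseChange L (modularFunctionFieldFull N))).comp
      (Ov A π N hNk).subtype with hφ
  have hlift : χ₀.map φ ∈ Polynomial.lifts (evF A N) := by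
    rw [Polynomial.lifts_iff_coeff_lifts]
    intro n
    rw [Polynomial.coeff_map]
    exact ⟨p n, (hp1 n).symm⟩
  obtain ⟨P, hP, hPdeg, hPm⟩ := Polynomial.lifts_and_natDegree_eq_and_monic hlift (hχm.map φ)
  have hcoeff : ∀ n, evF A N (P.coeff n) = φ (χ₀.coeff n) := by
    intro n
    have := congrArg (fun Q => Q.coeff n) hP
    simpa only [Polynomial.coeff_map] using this
  refine ⟨P, hPm, ?_, ?_, ?_⟩
  · rw [hPdeg, hχm.natDegree_map, hχ₀, Matrix.charpoly_natDegree_eq_dim,
      Module.finrank_eq_card_basis G.basisF]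
  · intro ι' _ _ b
    rw [Ortho.charpoly_leftMulMatrix_eq b G.basisF, ← G.charpoly_map_subtype, Polynomial.map_map,
      hP]
  · intro ι' _ _ b
    rw [Ortho.charpoly_leftMulMatrix_eq b G.basisE, ← G.charpoly_map_red, Polynomial.map_map]
    apply Polynomial.ext
    intro n
    rw [Polynomial.coeff_map, Polynomial.coeff_map, RingHom.comp_apply]
    exact algebraMap_redv_eq hπ hNk (χ₀.coeff n) (P.coeff n) (hcoeff n).symm

end

end Fermat.Agent.Lib.Red
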