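/-
ESJ / RED-23 (task 276, port of `Lib/Red/NormRed.lean` to an arbitrary base function).

For `B : BaseFn.Data A π N`: trace, norm and characteristic polynomial of a Gauss-integral
function integral over `L[x]` have coefficients in `A[x]`, and reduce to the trace, norm and
characteristic polynomial of the reduction.

* `B.OvToOw`, `B.trace_mem`, `B.red_trace`, `B.norm_mem`, `B.red_norm` (the `Basis.lean` part);
* `B.evF`, `B.evFbar hπ hNk` : the evaluation maps `A[X] → L·F_N`, `A[X] → F̄`;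
* `B.exists_poly_of_isIntegral`, `B.exists_poly_trace`, `B.exists_poly_norm`,
  `B.exists_charpoly`.

The abstract lemmas `Ortho.isIntegral_charpoly_coeff`, `Ortho.isIntegral_charpoly_leftMulMatrix_coeff`,
`Ortho.charpoly_leftMulMatrix_eq` of `NormRed.lean` are reused.
-/
import Mathlib
import Fermat.Agent.Lib.Red.IntegralX
import Fermat.Agent.Lib.Red.NormRed

set_option autoImplicit false
set_option linter.unusedSectionVars false

namespace Fermat.Agent.Lib.Red.BaseFn.Data

open HahnSeries ModularCurve Polynomial AlgebraicCurve Fermat.Agent.S28 IntermediateField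
open Fermat.Agent.Lib.Red

open scoped IntermediateField.algebraAdjoinAdjoin

noncomputable section

variable {L : Type*} [Field L] [Algebra ℚ L] {A : ValuationSubring L} {k : Type} [Field k]
  {π : A →+* k} {N : ℕ} [NeZero N] (B : Data A π N)

/-! ### Trace and norm (the `Basis.lean` part) -/

/-- The inclusion `Ov → Ow`. -/
def OvToOw (hNk : (N : k) ≠ 0) : B.Ov hNk →+* Ow A π N hNk :=
  OvXToOw A π N hNk B.X B.hX

theorem coe_OvToOw (hNk : (N : k) ≠ 0) (c : B.Ov hNk) :
    ((B.OvToOw hNk c : Ow A π N hNk) : ↥(laurentBaseChange L (modularFunctionFieldFull N))) =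
      algebraMap ↥(L⟮B.x⟯) ↥(laurentBaseChange L (modularFunctionFieldFull N))
        (c : ↥(L⟮B.x⟯)) := rfl

theorem algebraMap_redv (hπ : ∀ a : A, ¬ IsUnit a → π a = 0) (hNk : (N : k) ≠ 0)
    (c : B.Ov hNk) :
    algebraMap ↥(k⟮B.xt hπ hNk⟯) ↥(modularFunctionFieldFullC k N) (B.redv hπ hNk c) =
      redF A π N hπ hNk (B.OvToOw hNk c) := rfl

/-- The trace to `L(x)` of a Gauss-integral function is Gauss-integral. -/
theorem trace_mem (hπ : ∀ a : A, ¬ IsUnit a → π a = 0) (hsurj : Function.Surjective π)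
    (hNk : (N : k) ≠ 0) (y : Ow A π N hNk) :
    Algebra.trace ↥(L⟮B.x⟯) ↥(laurentBaseChange L (modularFunctionFieldFull N))
      (y : ↥(laurentBaseChange L (modularFunctionFieldFull N))) ∈ B.Ov hNk := by
  classical
  obtain ⟨n, ⟨G⟩⟩ := B.exists_goodBasis hπ hsurj hNk
  exact G.trace_mem y

/-- **Reduction of the trace.** -/
theorem red_trace (hπ : ∀ a : A, ¬ IsUnit a → π a = 0) (hsurj : Function.Surjective π)
    (hNk : (N : k) ≠ 0) (y : Ow A π N hNk) :
    B.redv hπ hNk ⟨_, B.trace_mem hπ hsurj hNk y⟩ =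
      Algebra.trace ↥(k⟮B.xt hπ hNk⟯) ↥(modularFunctionFieldFullC k N)
        (redF A π N hπ hNk y) := by
  classical
  obtain ⟨n, ⟨G⟩⟩ := B.exists_goodBasis hπ hsurj hNk
  exact G.red_trace y

/-- The norm to `L(x)` of a Gauss-integral function is Gauss-integral. -/
theorem norm_mem (hπ : ∀ a : A, ¬ IsUnit a → π a = 0) (hsurj : Function.Surjective π)
    (hNk : (N : k) ≠ 0) (y : Ow A π N hNk) :
    Algebra.norm ↥(L⟮B.x⟯)
      (y : ↥(laurentBaseChange L (modularFunctionFieldFull N))) ∈ B.Ov hNk := by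
  classical
  obtain ⟨n, ⟨G⟩⟩ := B.exists_goodBasis hπ hsurj hNk
  exact G.norm_mem y

/-- **Reduction of the norm.** -/
theorem red_norm (hπ : ∀ a : A, ¬ IsUnit a → π a = 0) (hsurj : Function.Surjective π)
    (hNk : (N : k) ≠ 0) (y : Ow A π N hNk) :
    B.redv hπ hNk ⟨_, B.norm_mem hπ hsurj hNk y⟩ =
      Algebra.norm ↥(k⟮B.xt hπ hNk⟯) (redF A π N hπ hNk y) := by
  classical
  obtain ⟨n, ⟨G⟩⟩ := B.exists_goodBasis hπ hsurj hNk
  exact G.red_norm y

/-! ### Evaluation maps -/

/-- Evaluation at `x`: `A[X] → L·F_N`. -/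
def evF : Polynomial A →+* ↥(laurentBaseChange L (modularFunctionFieldFull N)) :=
  (Polynomial.aeval (R := L) B.x).toRingHom.comp (Polynomial.mapRingHom A.subtype)

/-- Evaluation at `x̄`: `A[X] → F̄`, `p ↦ p̄(x̄)`. -/
def evFbar (hπ : ∀ a : A, ¬ IsUnit a → π a = 0) (hNk : (N : k) ≠ 0) :
    Polynomial A →+* ↥(modularFunctionFieldFullC k N) :=
  (Polynomial.aeval (R := k) (B.xt hπ hNk)).toRingHom.comp (Polynomial.mapRingHom π)

theorem evF_apply (p : Polynomial A) :
    B.evF p = Polynomial.aeval B.x (p.map A.subtype) := rfl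

theorem evFbar_apply (hπ : ∀ a : A, ¬ IsUnit a → π a = 0) (hNk : (N : k) ≠ 0)
    (p : Polynomial A) :
    B.evFbar hπ hNk p = Polynomial.aeval (B.xt hπ hNk) (p.map π) := rfl

theorem evF_mem_Ow (hNk : (N : k) ≠ 0) (p : Polynomial A) : B.evF p ∈ Ow A π N hNk :=
  B.aeval_map_mem_Ow hNk p

theorem redF_evF (hπ : ∀ a : A, ¬ IsUnit a → π a = 0) (hNk : (N : k) ≠ 0) (p : Polynomial A) :
    redF A π N hπ hNk ⟨B.evF p, B.evF_mem_Ow hNk p⟩ = B.evFbar hπ hNk p :=
  B.redF_aeval_map hπ hNk p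

/-- If an element of `Ov` is `p(x)` with `p ∈ A[X]`, its reduction is `p̄(x̄)`. -/
theorem algebraMap_redv_eq (hπ : ∀ a : A, ¬ IsUnit a → π a = 0) (hNk : (N : k) ≠ 0)
    (c : B.Ov hNk) (p : Polynomial A)
    (h : algebraMap ↥(L⟮B.x⟯) ↥(laurentBaseChange L (modularFunctionFieldFull N))
      (c : ↥(L⟮B.x⟯)) = B.evF p) :
    algebraMap ↥(k⟮B.xt hπ hNk⟯) ↥(modularFunctionFieldFullC k N) (B.redv hπ hNk c) =
      B.evFbar hπ hNk p := by
  have h3 : B.OvToOw hNk c = ⟨B.evF p, B.evF_mem_Ow hNk p⟩ := Subtype.ext h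
  rw [B.algebraMap_redv hπ hNk c, h3, B.redF_evF hπ hNk p]

/-- An element of `Ov` which is integral over `L[x]` is `p(x)` for some `p ∈ A[X]`, and its
reduction is `p̄(x̄)`. -/
theorem exists_poly_of_isIntegral (hπ : ∀ a : A, ¬ IsUnit a → π a = 0) (hNk : (N : k) ≠ 0)
    (c : B.Ov hNk)
    (hc : IsIntegral ↥(Algebra.adjoin L {B.x}) (c : ↥(L⟮B.x⟯))) :
    ∃ p : Polynomial A,
      algebraMap ↥(L⟮B.x⟯) ↥(laurentBaseChange L (modularFunctionFieldFull N))
        (c : ↥(L⟮B.x⟯)) = B.evF p ∧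
      algebraMap ↥(k⟮B.xt hπ hNk⟯) ↥(modularFunctionFieldFullC k N) (B.redv hπ hNk c) =
        B.evFbar hπ hNk p := by
  have := B.isIntegrallyClosed_adjoin_x hπ hNk
  obtain ⟨r, hr⟩ := IsIntegrallyClosed.isIntegral_iff.mp hc
  have h1 : algebraMap ↥(L⟮B.x⟯) ↥(laurentBaseChange L (modularFunctionFieldFull N))
      (c : ↥(L⟮B.x⟯)) ∈ B.AX := by
    refine B.mem_AX_of_mem_adjoin hπ hNk ?_ c.2
    rw [← hr]
    exact r.2
  obtain ⟨p, hp⟩ := h1
  exact ⟨p, hp.symm, B.algebraMap_redv_eq hπ hNk c p hp.symm⟩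

/-- **Trace.** The trace to `L(x)` of a Gauss-integral function integral over `L[x]` is `p(x)`
with `p ∈ A[X]`, and the trace of its reduction is `p̄(x̄)`. -/
theorem exists_poly_trace (hπ : ∀ a : A, ¬ IsUnit a → π a = 0) (hsurj : Function.Surjective π)
    (hNk : (N : k) ≠ 0) (y : Ow A π N hNk)
    (hy : IsIntegral ↥(Algebra.adjoin L {B.x})
      (y : ↥(laurentBaseChange L (modularFunctionFieldFull N)))) :
    ∃ p : Polynomial A,
      algebraMap ↥(L⟮B.x⟯) ↥(laurentBaseChange L (modularFunctionFieldFull N))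
        (Algebra.trace ↥(L⟮B.x⟯) ↥(laurentBaseChange L (modularFunctionFieldFull N))
          (y : ↥(laurentBaseChange L (modularFunctionFieldFull N)))) = B.evF p ∧
      algebraMap ↥(k⟮B.xt hπ hNk⟯) ↥(modularFunctionFieldFullC k N)
        (Algebra.trace ↥(k⟮B.xt hπ hNk⟯) ↥(modularFunctionFieldFullC k N)
          (redF A π N hπ hNk y)) = B.evFbar hπ hNk p := by
  have := B.finite_L hπ hsurj hNk
  have h1 : IsIntegral ↥(Algebra.adjoin L {B.x})
      (Algebra.trace ↥(L⟮B.x⟯) ↥(laurentBaseChange L (modularFunctionFieldFull N))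
        (y : ↥(laurentBaseChange L (modularFunctionFieldFull N)))) := Algebra.isIntegral_trace hy
  obtain ⟨p, hp1, hp2⟩ := B.exists_poly_of_isIntegral hπ hNk ⟨_, B.trace_mem hπ hsurj hNk y⟩ h1
  exact ⟨p, hp1, by rw [← hp2, B.red_trace hπ hsurj hNk y]⟩

/-- **Norm.** The norm to `L(x)` of a Gauss-integral function integral over `L[x]` is `p(x)`
with `p ∈ A[X]`, and the norm of its reduction is `p̄(x̄)`. -/
theorem exists_poly_norm (hπ : ∀ a : A, ¬ IsUnit a → π a = 0) (hsurj : Function.Surjective π)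
    (hNk : (N : k) ≠ 0) (y : Ow A π N hNk)
    (hy : IsIntegral ↥(Algebra.adjoin L {B.x})
      (y : ↥(laurentBaseChange L (modularFunctionFieldFull N)))) :
    ∃ p : Polynomial A,
      algebraMap ↥(L⟮B.x⟯) ↥(laurentBaseChange L (modularFunctionFieldFull N))
        (Algebra.norm ↥(L⟮B.x⟯)
          (y : ↥(laurentBaseChange L (modularFunctionFieldFull N)))) = B.evF p ∧
      algebraMap ↥(k⟮B.xt hπ hNk⟯) ↥(modularFunctionFieldFullC k N)
        (Algebra.norm ↥(k⟮B.xt hπ hNk⟯) (redF A π N hπ hNk y)) = B.evFbar hπ hNk p := by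
  have h1 : IsIntegral ↥(Algebra.adjoin L {B.x})
      (Algebra.norm ↥(L⟮B.x⟯)
        (y : ↥(laurentBaseChange L (modularFunctionFieldFull N)))) := Algebra.isIntegral_norm _ hy
  obtain ⟨p, hp1, hp2⟩ := B.exists_poly_of_isIntegral hπ hNk ⟨_, B.norm_mem hπ hsurj hNk y⟩ h1
  exact ⟨p, hp1, by rw [← hp2, B.red_norm hπ hsurj hNk y]⟩

/-- **Characteristic polynomial.** For a Gauss-integral function `y` integral over `L[x]` there
is one monic `P ∈ A[X][T]` of degree `[F : L(x)]` which evaluates (coefficientwise, at `x`) to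
the characteristic polynomial of `y` over `L(x)` and (at `x̄`) to the characteristic polynomial
of the reduction of `y` over `k(x̄)`. -/
theorem exists_charpoly (hπ : ∀ a : A, ¬ IsUnit a → π a = 0) (hsurj : Function.Surjective π)
    (hNk : (N : k) ≠ 0) (y : Ow A π N hNk)
    (hy : IsIntegral ↥(Algebra.adjoin L {B.x})
      (y : ↥(laurentBaseChange L (modularFunctionFieldFull N)))) :
    ∃ P : Polynomial (Polynomial A), P.Monic ∧
      P.natDegree = Module.finrank ↥(L⟮B.x⟯)
        ↥(laurentBaseChange L (modularFunctionFieldFull N)) ∧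
      (∀ (ι' : Type) [Fintype ι'] [DecidableEq ι']
        (b : Module.Basis ι' ↥(L⟮B.x⟯) ↥(laurentBaseChange L (modularFunctionFieldFull N))),
        (Algebra.leftMulMatrix b
          (y : ↥(laurentBaseChange L (modularFunctionFieldFull N)))).charpoly.map
          (algebraMap ↥(L⟮B.x⟯) ↥(laurentBaseChange L (modularFunctionFieldFull N))) =
          P.map B.evF) ∧
      (∀ (ι' : Type) [Fintype ι'] [DecidableEq ι']
        (b : Module.Basis ι' ↥(k⟮B.xt hπ hNk⟯) ↥(modularFunctionFieldFullC k N)),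
        (Algebra.leftMulMatrix b (redF A π N hπ hNk y)).charpoly.map
          (algebraMap ↥(k⟮B.xt hπ hNk⟯) ↥(modularFunctionFieldFullC k N)) =
          P.map (B.evFbar hπ hNk)) := by
  classical
  obtain ⟨n, ⟨G⟩⟩ := B.exists_goodBasis hπ hsurj hNk
  set χ₀ := (G.mulMatrix y).charpoly with hχ₀
  have hχm : χ₀.Monic := G.charpoly_monic y
  -- integrality of the coefficients
  have hint : ∀ i, IsIntegral ↥(Algebra.adjoin L {B.x})
      ((χ₀.coeff i : B.Ov hNk) : ↥(L⟮B.x⟯)) := by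
    intro i
    have h1 : ((χ₀.coeff i : B.Ov hNk) : ↥(L⟮B.x⟯)) =
        (Algebra.leftMulMatrix G.basisF
          (y : ↥(laurentBaseChange L (modularFunctionFieldFull N)))).charpoly.coeff i := by
      rw [← G.charpoly_map_subtype, Polynomial.coeff_map]
      rfl
    rw [h1]
    exact Ortho.isIntegral_charpoly_leftMulMatrix_coeff G.basisF hy i
  choose p hp1 hp2 using fun i => B.exists_poly_of_isIntegral hπ hNk (χ₀.coeff i) (hint i)
  -- the lift
  set φ : B.Ov hNk →+* ↥(laurentBaseChange L (modularFunctionFieldFull N)) :=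
    (algebraMap ↥(L⟮B.x⟯) ↥(laurentBaseChange L (modularFunctionFieldFull N))).comp
      (B.Ov hNk).subtype with hφ
  have hlift : χ₀.map φ ∈ Polynomial.lifts B.evF := by
    rw [Polynomial.lifts_iff_coeff_lifts]
    intro n
    rw [Polynomial.coeff_map]
    exact ⟨p n, (hp1 n).symm⟩
  obtain ⟨P, hP, hPdeg, hPm⟩ := Polynomial.lifts_and_natDegree_eq_and_monic hlift (hχm.map φ)
  have hcoeff : ∀ n, B.evF (P.coeff n) = φ (χ₀.coeff n) := by
    intro n
    have := congrArg (fun Q => Q.coeff n) hP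
    simpa only [Polynomial.coeff_map] using this
  refine ⟨P, hPm, ?_, ?_, ?_⟩
  · rw [hPdeg, hχm.natDegree_map, hχ₀, Matrix.charpoly_natDegree_eq_dim,
      Module.finrank_eq_card_basis G.basisF]
  · intro ι' _ _ b
    rw [Ortho.charpoly_leftMulMatrix_eq b G.basisF, ← G.charpoly_map_subtype, Polynomial.map_map,
      hP]
  · intro ι' _ _ b
    rw [Ortho.charpoly_leftMulMatrix_eq b G.basisE, ← G.charpoly_map_red, Polynomial.map_map]
    apply Polynomial.ext
    intro n
    rw [Polynomial.coeff_map, Polynomial.coeff_map, RingHom.comp_apply]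
    exact B.algebraMap_redv_eq hπ hNk (χ₀.coeff n) (P.coeff n) (hcoeff n).symm

end

end Fermat.Agent.Lib.Red.BaseFn.Data
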