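/-
ESJ / RED (V2 for the chart at infinity, generic in the base function `B : BaseFn.Data A π N`).

`Lib/Red/NormRedX.lean` gives, for a Gauss-integral `y` integral over `L[x]`, a polynomial
`p ∈ A[X]` with `N_{F/L(x)}(y) = p(x)` and `N_{F̄/k(x̄)}(ȳ) = p̄(x̄)`.  Here is the same statement
on the chart `x⁻¹`: for `y` integral over `L[x⁻¹]`, `N(y) = p(x⁻¹)` and `N(ȳ) = p̄(x̄⁻¹)`
(the norms are still taken over the same fields `L(x)`, `k(x̄)`), together with the
non-vanishing of `p̄` when `ȳ ≠ 0` — the input `hN`, `hNt`, `hp` of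
`PlaceRedCons.cons_of_norm` (with `q = 1`) for both charts.

* `ChartNorm.mem_adjoin_of_isIntegral`, `ChartNorm.norm_mem_adjoin` (abstract);
* `exists_poly_of_mem_inv`, `exists_poly_norm_inv`, `exists_poly_norm_inv_ne`,
  `exists_poly_norm_ne` (the chart `x`, in `aeval` form, with `p̄ ≠ 0`).
-/
import Mathlib
import Fermat.Agent.Lib.Red.InstChartX
import Fermat.Agent.Lib.Red.NormRedX

set_option autoImplicit false

namespace Fermat.Agent.Lib.Red.ChartNorm

open Polynomial IntermediateField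

open scoped IntermediateField.algebraAdjoinAdjoin

noncomputable section

variable {L F : Type*} [Field L] [Field F] [Algebra L F] {t : F}

/-- An element of `L(t)` integral over `L[t]` lies in `L[t]`. -/
theorem mem_adjoin_of_isIntegral (ht : Transcendental L t) (c : ↥(L⟮t⟯))
    (hint : IsIntegral ↥(Algebra.adjoin L {t}) c) : (c : F) ∈ Algebra.adjoin L {t} := by
  have := Orth.isIntegrallyClosed_adjoin ht
  obtain ⟨r, hr⟩ := IsIntegrallyClosed.isIntegral_iff.mp hint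
  have h : (r : F) = (c : F) := congrArg Subtype.val hr
  rw [← h]
  exact r.2

/-- The norm to `K = L(t)` of an element integral over `L[t]` lies in `L[t]`. -/
theorem norm_mem_adjoin (ht : Transcendental L t) (K : IntermediateField L F) (hK : L⟮t⟯ = K)
    {y : F} (hy : IsIntegral ↥(Algebra.adjoin L {t}) y) :
    ((Algebra.norm ↥K y : ↥K) : F) ∈ Algebra.adjoin L {t} := by
  subst hK
  exact mem_adjoin_of_isIntegral ht _ (Algebra.isIntegral_norm _ hy)

/-- The norm of a nonzero element of a finite field extension is nonzero. -/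
theorem algebraMap_norm_ne_zero {K E : Type*} [Field K] [Field E] [Algebra K E]
    [FiniteDimensional K E] {y : E} (hy : y ≠ 0) : algebraMap K E (Algebra.norm K y) ≠ 0 := by
  intro h0
  rw [map_eq_zero] at h0
  exact hy (Algebra.norm_eq_zero_iff.mp h0)

end

end Fermat.Agent.Lib.Red.ChartNorm

namespace Fermat.Agent.Lib.Red.NormInvX

open HahnSeries ModularCurve Polynomial AlgebraicCurve Fermat.Agent.S28 IntermediateField
  Fermat.Agent.S24 Fermat.Agent.Lib.Red

noncomputable section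

variable {L : Type*} [Field L] [Algebra ℚ L] {A : ValuationSubring L} {k : Type} [Field k]
  {π : A →+* k} {N : ℕ} [NeZero N] (B : BaseFn.Data A π N)

/-- An element of the Gauss ring of `L(x)` lying in `L[x⁻¹]` is `p(x⁻¹)` with `p ∈ A[X]`, and its
reduction is `p̄(x̄⁻¹)`. -/
theorem exists_poly_of_mem_inv (hπ : ∀ a : A, ¬ IsUnit a → π a = 0) (hNk : (N : k) ≠ 0)
    (c : B.Ov hNk)
    (hc : algebraMap ↥(L⟮B.x⟯) ↥(laurentBaseChange L (modularFunctionFieldFull N))
      (c : ↥(L⟮B.x⟯)) ∈ Algebra.adjoin L {(B.x)⁻¹}) :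
    ∃ p : Polynomial A,
      algebraMap ↥(L⟮B.x⟯) ↥(laurentBaseChange L (modularFunctionFieldFull N))
        (c : ↥(L⟮B.x⟯)) = Polynomial.aeval (B.x)⁻¹ (p.map A.subtype) ∧
      algebraMap ↥(k⟮B.xt hπ hNk⟯) ↥(modularFunctionFieldFullC k N) (B.redv hπ hNk c) =
        Polynomial.aeval (B.xt hπ hNk)⁻¹ (p.map π) := by
  have hS := InstChartX.setting_x_inv B hπ hNk
  have hcO : algebraMap ↥(L⟮B.x⟯) ↥(laurentBaseChange L (modularFunctionFieldFull N))
      (c : ↥(L⟮B.x⟯)) ∈ (Ow A π N hNk).toSubring := c.2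
  obtain ⟨p, hp⟩ := Chart.mem_polyRing_iff.mp (Chart.mem_polyRing_of_mem_adjoin hS hc hcO)
  refine ⟨p, hp.symm, ?_⟩
  have hmem : Polynomial.aeval (B.x)⁻¹ (p.map A.subtype) ∈ Ow A π N hNk := hS.aeval_map_mem p
  have h3 : B.OvToOw hNk c = ⟨_, hmem⟩ := Subtype.ext hp.symm
  rw [B.algebraMap_redv hπ hNk c, h3,
    (redData hπ hNk).red_aeval_map (B.x_inv_mem_Ow hπ hNk) p hmem,
    InstChartX.redF_x_inv B hπ hNk]

set_option synthInstance.maxHeartbeats 200000 in
/-- **Norm on the chart at infinity.**  The norm to `L(x)` of a Gauss-integral function integral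
over `L[x⁻¹]` is `p(x⁻¹)` with `p ∈ A[X]`, and the norm of its reduction is `p̄(x̄⁻¹)`. -/
theorem exists_poly_norm_inv (hπ : ∀ a : A, ¬ IsUnit a → π a = 0)
    (hsurj : Function.Surjective π) (hNk : (N : k) ≠ 0) (y : Ow A π N hNk)
    (hy : IsIntegral ↥(Algebra.adjoin L {(B.x)⁻¹})
      (y : ↥(laurentBaseChange L (modularFunctionFieldFull N)))) :
    ∃ p : Polynomial A,
      algebraMap ↥(L⟮B.x⟯) ↥(laurentBaseChange L (modularFunctionFieldFull N))
        (Algebra.norm ↥(L⟮B.x⟯)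
          (y : ↥(laurentBaseChange L (modularFunctionFieldFull N)))) =
        Polynomial.aeval (B.x)⁻¹ (p.map A.subtype) ∧
      algebraMap ↥(k⟮B.xt hπ hNk⟯) ↥(modularFunctionFieldFullC k N)
        (Algebra.norm ↥(k⟮B.xt hπ hNk⟯) (redF A π N hπ hNk y)) =
        Polynomial.aeval (B.xt hπ hNk)⁻¹ (p.map π) := by
  have h1 := ChartNorm.norm_mem_adjoin
    (Transfer.transcendental_inv (B.transcendental_x hπ hNk)) _ (InstChartX.adjoin_x_inv B) hy
  obtain ⟨p, hp1, hp2⟩ := exists_poly_of_mem_inv B hπ hNk ⟨_, B.norm_mem hπ hsurj hNk y⟩ h1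
  exact ⟨p, hp1, by rw [← hp2, B.red_norm hπ hsurj hNk y]⟩

/-- The norm of a nonzero element of `F̄` to `k(x̄)` is nonzero. -/
theorem norm_redF_ne_zero (hπ : ∀ a : A, ¬ IsUnit a → π a = 0)
    (hsurj : Function.Surjective π) (hNk : (N : k) ≠ 0) (y : Ow A π N hNk)
    (hy0 : redF A π N hπ hNk y ≠ 0) :
    algebraMap ↥(k⟮B.xt hπ hNk⟯) ↥(modularFunctionFieldFullC k N)
      (Algebra.norm ↥(k⟮B.xt hπ hNk⟯) (redF A π N hπ hNk y)) ≠ 0 := by
  have : FiniteDimensional ↥(k⟮B.xt hπ hNk⟯) ↥(modularFunctionFieldFullC k N) :=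
    B.finite_k hπ hsurj hNk
  exact ChartNorm.algebraMap_norm_ne_zero hy0

/-- `exists_poly_norm_inv` with `p̄ ≠ 0` when `ȳ ≠ 0`. -/
theorem exists_poly_norm_inv_ne (hπ : ∀ a : A, ¬ IsUnit a → π a = 0)
    (hsurj : Function.Surjective π) (hNk : (N : k) ≠ 0) (y : Ow A π N hNk)
    (hy : IsIntegral ↥(Algebra.adjoin L {(B.x)⁻¹})
      (y : ↥(laurentBaseChange L (modularFunctionFieldFull N))))
    (hy0 : redF A π N hπ hNk y ≠ 0) :
    ∃ p : Polynomial A, p.map π ≠ 0 ∧
      algebraMap ↥(L⟮B.x⟯) ↥(laurentBaseChange L (modularFunctionFieldFull N))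
        (Algebra.norm ↥(L⟮B.x⟯)
          (y : ↥(laurentBaseChange L (modularFunctionFieldFull N)))) =
        Polynomial.aeval (B.x)⁻¹ (p.map A.subtype) ∧
      algebraMap ↥(k⟮B.xt hπ hNk⟯) ↥(modularFunctionFieldFullC k N)
        (Algebra.norm ↥(k⟮B.xt hπ hNk⟯) (redF A π N hπ hNk y)) =
        Polynomial.aeval (B.xt hπ hNk)⁻¹ (p.map π) := by
  obtain ⟨p, hp1, hp2⟩ := exists_poly_norm_inv B hπ hsurj hNk y hy
  refine ⟨p, fun h0 => ?_, hp1, hp2⟩
  apply norm_redF_ne_zero B hπ hsurj hNk y hy0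
  rw [hp2, h0, map_zero]

/-- The chart `x`: `N(y) = p(x)`, `N(ȳ) = p̄(x̄)`, and `p̄ ≠ 0` when `ȳ ≠ 0` (`aeval` form of
`BaseFn.Data.exists_poly_norm`). -/
theorem exists_poly_norm_ne (hπ : ∀ a : A, ¬ IsUnit a → π a = 0)
    (hsurj : Function.Surjective π) (hNk : (N : k) ≠ 0) (y : Ow A π N hNk)
    (hy : IsIntegral ↥(Algebra.adjoin L {B.x})
      (y : ↥(laurentBaseChange L (modularFunctionFieldFull N))))
    (hy0 : redF A π N hπ hNk y ≠ 0) :
    ∃ p : Polynomial A, p.map π ≠ 0 ∧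
      algebraMap ↥(L⟮B.x⟯) ↥(laurentBaseChange L (modularFunctionFieldFull N))
        (Algebra.norm ↥(L⟮B.x⟯)
          (y : ↥(laurentBaseChange L (modularFunctionFieldFull N)))) =
        Polynomial.aeval B.x (p.map A.subtype) ∧
      algebraMap ↥(k⟮B.xt hπ hNk⟯) ↥(modularFunctionFieldFullC k N)
        (Algebra.norm ↥(k⟮B.xt hπ hNk⟯) (redF A π N hπ hNk y)) =
        Polynomial.aeval (B.xt hπ hNk) (p.map π) := by
  obtain ⟨p, hp1, hp2⟩ := B.exists_poly_norm hπ hsurj hNk y hy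
  refine ⟨p, fun h0 => ?_, hp1, hp2⟩
  apply norm_redF_ne_zero B hπ hsurj hNk y hy0
  rw [hp2, B.evFbar_apply hπ hNk, h0, map_zero]

end

end Fermat.Agent.Lib.Red.NormInvX
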