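/-
helper83 — RED2-4 (task 270): the characteristic-zero inputs of the second RED route for the
base function `x = jBar N` on the modular function field `ℚ̄(j(q^d) : d ∣ N)`:
values, poles, branch values `⊆ {0, 1728}`, and the divisor of `dj` with degree `2g - 2`.
-/
import Mathlib
import Fermat.Agent.Lib.FF.CanonicalFF1
import Fermat.Agent.Lib.FF.RRModular
import Fermat.Agent.S24.Final

set_option autoImplicit false
set_option linter.style.haveILetI false

namespace Fermat.Agent.Lib.Red.SpecInst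

open AlgebraicCurve ModularCurve IntermediateField Fermat.Agent.Lib.FF Fermat.Agent.S24

variable (N : ℕ) [NeZero N]

/-- Every place of `X₀(N)` is a pole of `j` or a zero of `j - c` for some constant `c`. -/
theorem value_jBar (P : Place KQ (FN N)) :
    P.ord (jBar N) < 0 ∨ ∃ c : KQ, 0 < P.ord (jBar N - algebraMap KQ (FN N) c) := by
  haveI := finiteDimensional_jBar N
  haveI : Algebra.IsAlgebraic KQ⟮jBar N⟯ (FN N) := Algebra.IsAlgebraic.of_finite _ _
  exact ARest.exists_value (jBar N) (transcendental_jBar N) P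

/-- The poles of `j` are finite in number and their orders add up to `[F_N : ℚ̄(j)]`. -/
theorem poles_jBar : ∃ hfin : {P : Place KQ (FN N) | P.ord (jBar N) < 0}.Finite,
    ∑ P ∈ hfin.toFinset, (-P.ord (jBar N)) = (Module.finrank KQ⟮jBar N⟯ (FN N) : ℤ) := by
  haveI := finiteDimensional_jBar N
  exact Transfer.polesOf_finite_sum (jBar N) (transcendental_jBar N)

/-- `j` is unramified outside `0, 1728, ∞`. -/
theorem unramified_jBar (c : KQ) (hc0 : c ≠ 0) (hc1 : c ≠ 1728) (P : Place KQ (FN N))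
    (hP : 0 < P.ord (jBar N - algebraMap KQ (FN N) c)) :
    P.ord (jBar N - algebraMap KQ (FN N) c) = 1 := by
  classical
  haveI := finiteDimensional_jBar N
  obtain ⟨hcard, hfr⟩ := Final.card_placesOver_generic N c hc0 hc1
  obtain ⟨hZfin, hZsum⟩ := Transfer.placesOver_finite_sum (jBar N) (transcendental_jBar N) c
  have hcard' : (hZfin.toFinset.card : ℤ) = (Module.finrank KQ⟮jBar N⟯ (FN N) : ℤ) := by
    rw [hfr, ← hcard]
    have : Nat.card (placesOver (K := KQ) (jBar N) c) = hZfin.toFinset.card := by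
      rw [← Set.ncard_eq_toFinset_card _ hZfin]
      exact Nat.card_coe_set_eq _
    rw [this]
  have h0 : ∑ w ∈ hZfin.toFinset, (w.ord (jBar N - algebraMap KQ (FN N) c) - 1) = 0 := by
    rw [Finset.sum_sub_distrib, hZsum, ← hcard']
    simp
  have hnn : ∀ w ∈ hZfin.toFinset, 0 ≤ w.ord (jBar N - algebraMap KQ (FN N) c) - 1 := by
    intro w hw
    have hw' : 0 < w.ord (jBar N - algebraMap KQ (FN N) c) := (Set.Finite.mem_toFinset hZfin).mp hw
    omega
  have := (Finset.sum_eq_zero_iff_of_nonneg hnn).mp h0 P ((Set.Finite.mem_toFinset hZfin).mpr hP)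
  omega

/-- The branch values of `j` are among `0, 1728` (and `∞`). -/
theorem branch_jBar (c : KQ) (P : Place KQ (FN N))
    (h : 2 ≤ P.ord (jBar N - algebraMap KQ (FN N) c)) : c = 0 ∨ c = 1728 := by
  by_contra hc
  rw [not_or] at hc
  have := unramified_jBar N c hc.1 hc.2 P (by omega)
  omega

/-- **The divisor of `dj`** on `X₀(N)` over `ℚ̄`: `ord_P (dj) = ord_P (j - c) - 1` at the zeros
of `j - c`, `= ord_P j - 1` at the poles, and its degree is `2g - 2`. -/
theorem exists_divisor_D_jBar : ∃ W : Divisor KQ (FN N),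
    (∀ P : Place KQ (FN N), P.ord (jBar N) < 0 → W P = P.ord (jBar N) - 1) ∧
    (∀ (P : Place KQ (FN N)) (c : KQ), 0 < P.ord (jBar N - algebraMap KQ (FN N) c) →
      W P = P.ord (jBar N - algebraMap KQ (FN N) c) - 1) ∧
    Divisor.degree W = 2 * (genusFF KQ (FN N) : ℤ) - 2 := by
  haveI := finiteDimensional_jBar N
  haveI : Algebra.IsAlgebraic KQ⟮jBar N⟯ (FN N) := Algebra.IsAlgebraic.of_finite _ _
  haveI : Algebra.IsSeparable KQ⟮jBar N⟯ (FN N) := Res.isSeparable_adjoin_of_charZero (jBar N)
  obtain ⟨W, -, hdeg, -, heq⟩ := Res.exists_divisor_D_of_isSeparable (Res.isFF1_modular N) (jBar N)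
  refine ⟨W, fun P hP => ?_, fun P c hP => ?_, hdeg⟩
  · have h1 := heq 0 P
    rw [map_zero, sub_zero] at h1
    exact h1 (Int.cast_ne_zero.mpr hP.ne)
  · exact heq c P (Int.cast_ne_zero.mpr hP.ne')

end Fermat.Agent.Lib.Red.SpecInst
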