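/-
RED2-2 (helper84; consumer helper25): THE DIFFERENT INEQUALITY `r_*(dx) ≤ (dx̄)`, pointwise, from
the spec `r_* div(u) = div(red u)` and the no-excess facts of RED2-1 (taken as hypotheses).

* `Fermat.Agent.Lib.Red.SpecGenus.mapDomain_le_core`.

Auxiliary lemmas live in `Fermat.Agent.Lib.Red.SpecDiffAux`.
-/
import Mathlib
import Fermat.Agent.Lib.Red.TorsionOneStep

set_option autoImplicit false

namespace Fermat.Agent.Lib.Red.SpecDiffAux

open AlgebraicCurve Fermat.Agent.Lib.Red.OneStep

section Push

variable {α β : Type*}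

/-- The push-forward as a sum over any finite set containing the support. -/
theorem mapDomain_apply_eq_sum_of_subset [DecidableEq β] (r : α → β) (D : α →₀ ℤ) (Q : β)
    (s : Finset α) (hs : D.support ⊆ s) :
    Finsupp.mapDomain r D Q = ∑ P ∈ s.filter (fun P => r P = Q), D P := by
  rw [mapDomain_apply_eq_sum]
  refine Finset.sum_subset (Finset.filter_subset_filter _ hs) fun P hP hP' => ?_
  rw [Finset.mem_filter] at hP hP'
  by_contra h0
  exact hP' ⟨Finsupp.mem_support_iff.mpr h0, hP.2⟩

/-- Strict monotonicity of the push-forward at a point. -/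
theorem mapDomain_lt_mapDomain (r : α → β) (D E : α →₀ ℤ) (Q : β)
    (hle : ∀ P, r P = Q → D P ≤ E P) (P₁ : α) (h1 : r P₁ = Q) (hlt : D P₁ < E P₁) :
    Finsupp.mapDomain r D Q < Finsupp.mapDomain r E Q := by
  classical
  rw [mapDomain_apply_eq_sum_of_subset r D Q (D.support ∪ E.support) Finset.subset_union_left,
    mapDomain_apply_eq_sum_of_subset r E Q (D.support ∪ E.support) Finset.subset_union_right]
  refine Finset.sum_lt_sum (fun P hP => hle P (Finset.mem_filter.mp hP).2) ⟨P₁, ?_, hlt⟩
  rw [Finset.mem_filter, Finset.mem_union, Finsupp.mem_support_iff, Finsupp.mem_support_iff]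
  refine ⟨?_, h1⟩
  by_contra hcon
  rw [not_or, not_not, not_not] at hcon
  omega

theorem mapDomain_eq_zero_of (r : α → β) (D : α →₀ ℤ) (Q : β) (h : ∀ P, r P = Q → D P = 0) :
    Finsupp.mapDomain r D Q = 0 := by
  classical
  rw [mapDomain_apply_eq_sum]
  exact Finset.sum_eq_zero fun P hP => h P (Finset.mem_filter.mp hP).2

end Push

section Ord

variable {K F : Type*} [Field K] [Field F] [Algebra K F]

/-- Subtracting a constant does not change a negative order. -/
theorem ord_sub_const_of_neg (v : Place K F) {y : F} (hy : v.ord y < 0) (κ : K) :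
    v.ord (y - algebraMap K F κ) = v.ord y := by
  have hy0 : y ≠ 0 := by
    rintro rfl
    rw [Place.ord_zero] at hy
    exact lt_irrefl _ hy
  rw [← neg_sub, ord_neg, ord_sub_eq_of_lt v hy0
    (Or.inr (by rw [Fermat.Agent.S24.ord_algebraMap]; exact hy))]

/-- Two constants differing from `y` by functions of positive order are equal. -/
theorem const_eq_of_ord_pos (v : Place K F) {y : F} {κ γ : K}
    (h1 : 0 < v.ord (y - algebraMap K F κ)) (h2 : 0 < v.ord (y - algebraMap K F γ)) :
    κ = γ := by
  by_contra hne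
  have hf : y - algebraMap K F γ ≠ 0 := by
    intro h0
    rw [h0, Place.ord_zero] at h2
    exact lt_irrefl _ h2
  have hg : y - algebraMap K F κ ≠ 0 := by
    intro h0
    rw [h0, Place.ord_zero] at h1
    exact lt_irrefl _ h1
  have e : (y - algebraMap K F γ) - (y - algebraMap K F κ) = algebraMap K F (κ - γ) := by
    rw [map_sub]
    ring
  have hfg : (y - algebraMap K F γ) - (y - algebraMap K F κ) ≠ 0 := by
    rw [e]
    exact (map_ne_zero _).mpr (sub_ne_zero.mpr hne)
  have h3 := Fermat.Agent.S24.ord_sub_ge v hf hg hfg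
  rw [e, Fermat.Agent.S24.ord_algebraMap] at h3
  rcases min_le_iff.mp h3 with h4 | h4 <;> omega

end Ord

end Fermat.Agent.Lib.Red.SpecDiffAux

namespace Fermat.Agent.Lib.Red.SpecGenus

open AlgebraicCurve Fermat.Agent.Lib.Red.OneStep Fermat.Agent.Lib.Red.SpecDiffAux

variable {L F k Ft : Type*} [Field L] [Field F] [Algebra L F] [Field k] [Field Ft] [Algebra k Ft]
variable {O : ValuationSubring F} {red : O →+* Ft} {r : Place L F → Place k Ft}

/-- **The different inequality** `r_*(dx) ≤ (dx̄)`, pointwise: `W` has the local shape of the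
divisor of `dx` (`ord − 1` at poles and at the points over a value `c`), `Wt` dominates the local
shape of the divisor of `dx̄`, the branch values of `x` are integral and pairwise distinct modulo
the maximal ideal. -/
theorem mapDomain_le_core [HasPrincipalDivisors L F] (h : IsRed O red r) (x : O)
    (hNE : ∀ P : Place L F, P.ord (x : F) < 0 → (r P).ord (red x) < 0)
    (hZ : ∀ (c : L) (hc : algebraMap L F c ∈ O) (P : Place L F),
      0 < P.ord ((x : F) - algebraMap L F c) →
        0 < (r P).ord (red (x - ⟨algebraMap L F c, hc⟩)))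
    (hNI : ∀ c : L, algebraMap L F c ∉ O → ∀ P : Place L F,
      0 < P.ord ((x : F) - algebraMap L F c) → (r P).ord (red x) < 0)
    (hval : ∀ P : Place L F, P.ord (x : F) < 0 ∨
      ∃ c : L, 0 < P.ord ((x : F) - algebraMap L F c))
    (hvalt : ∀ Q : Place k Ft, Q.ord (red x) < 0 ∨
      ∃ γ : k, 0 < Q.ord (red x - algebraMap k Ft γ))
    (W : Divisor L F) (Wt : Divisor k Ft)
    (hWpole : ∀ P : Place L F, P.ord (x : F) < 0 → W P = P.ord (x : F) - 1)
    (hWzero : ∀ (P : Place L F) (c : L), 0 < P.ord ((x : F) - algebraMap L F c) →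
      W P = P.ord ((x : F) - algebraMap L F c) - 1)
    (hWtpole : ∀ Q : Place k Ft, Q.ord (red x) < 0 → Q.ord (red x) - 1 ≤ Wt Q)
    (hWtzero : ∀ (Q : Place k Ft) (γ : k), 0 < Q.ord (red x - algebraMap k Ft γ) →
      Q.ord (red x - algebraMap k Ft γ) - 1 ≤ Wt Q)
    (hbr_int : ∀ (c : L) (P : Place L F), 2 ≤ P.ord ((x : F) - algebraMap L F c) →
      algebraMap L F c ∈ O)
    (hbr_sep : ∀ (c c' : L) (P P' : Place L F), 2 ≤ P.ord ((x : F) - algebraMap L F c) →
      2 ≤ P'.ord ((x : F) - algebraMap L F c') →
      ∀ (hc : algebraMap L F c ∈ O) (hc' : algebraMap L F c' ∈ O),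
        red ⟨algebraMap L F c, hc⟩ = red ⟨algebraMap L F c', hc'⟩ → c = c')
    (Q : Place k Ft) : Finsupp.mapDomain r W Q ≤ Wt Q := by
  classical
  have hconst : ∀ (c : L) (hc : algebraMap L F c ∈ O),
      ∃ κ : k, red ⟨algebraMap L F c, hc⟩ = algebraMap k Ft κ :=
    fun c hc => h.const _ (isConst_mk c hc)
  rcases hvalt Q with hQ | ⟨γ, hQ⟩
  · -- (A) `Q` is a pole of `red x`
    have hx0 : red x ≠ 0 := by
      intro h0
      rw [h0, Place.ord_zero] at hQ
      exact lt_irrefl _ hQ
    obtain ⟨u, hu⟩ := h.isUnit_of_red_ne_zero hx0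
    have hspec := h.spec' u Q
    rw [hu] at hspec
    -- in the tube of `Q` no value of `x` is integral
    have hnoint : ∀ (c : L) (P : Place L F), r P = Q →
        0 < P.ord ((x : F) - algebraMap L F c) → algebraMap L F c ∉ O := by
      intro c P hP hpos hc
      have h1 := hZ c hc P hpos
      rw [hP, map_sub] at h1
      obtain ⟨κ, hκ⟩ := hconst c hc
      rw [hκ, ord_sub_const_of_neg Q hQ κ] at h1
      omega
    have hle : ∀ P, r P = Q → W P ≤ pdiv L (x : F) P := by
      intro P hP
      rw [pdiv_apply]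
      rcases hval P with hpole | ⟨c, hc⟩
      · rw [hWpole P hpole]
        omega
      · have hcO := hnoint c P hP hc
        have h1 : P.ord ((x : F) - algebraMap L F c) = 1 := by
          by_contra hne
          exact hcO (hbr_int c P (by omega))
        rw [hWzero P c hc, h1, sub_self]
        by_contra hneg
        rw [not_le] at hneg
        have h2 := ord_sub_const_of_neg P hneg c
        omega
    obtain ⟨P₁, hP₁, hpole₁⟩ : ∃ P₁, r P₁ = Q ∧ P₁.ord (x : F) < 0 := by
      by_contra hcon
      have h1 : 0 ≤ Finsupp.mapDomain r (pdiv L (x : F)) Q :=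
        mapDomain_nonneg_of r _ Q (fun P hP => by
          rw [pdiv_apply]
          by_contra hneg
          exact hcon ⟨P, hP, not_le.mp hneg⟩)
      rw [hspec] at h1
      omega
    have hlt := mapDomain_lt_mapDomain r W (pdiv L (x : F)) Q hle P₁ hP₁ (by
      rw [pdiv_apply, hWpole P₁ hpole₁]
      omega)
    rw [hspec] at hlt
    have h3 := hWtpole Q hQ
    omega
  · -- (B) `red x` takes the value `γ` at `Q`
    have hxγ0 : red x - algebraMap k Ft γ ≠ 0 := by
      intro h0
      rw [h0, Place.ord_zero] at hQ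
      exact lt_irrefl _ hQ
    have hQx : 0 ≤ Q.ord (red x) := by
      by_contra hneg
      rw [not_le] at hneg
      have h1 := ord_sub_const_of_neg Q hneg γ
      omega
    -- the tube of `Q`: no poles, all values integral and reducing to `γ`
    have htube : ∀ P, r P = Q → 0 ≤ P.ord (x : F) ∧
        ∀ c : L, 0 < P.ord ((x : F) - algebraMap L F c) →
          ∃ hc : algebraMap L F c ∈ O, red ⟨algebraMap L F c, hc⟩ = algebraMap k Ft γ := by
      intro P hP
      refine ⟨?_, fun c hc => ?_⟩
      · by_contra hneg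
        rw [not_le] at hneg
        have h1 := hNE P hneg
        rw [hP] at h1
        omega
      · have hcO : algebraMap L F c ∈ O := by
          by_contra hcO
          have h1 := hNI c hcO P hc
          rw [hP] at h1
          omega
        refine ⟨hcO, ?_⟩
        have h1 := hZ c hcO P hc
        rw [hP, map_sub] at h1
        obtain ⟨κ, hκ⟩ := hconst c hcO
        rw [hκ] at h1 ⊢
        rw [const_eq_of_ord_pos Q h1 hQ]
    by_cases hram : ∃ P, r P = Q ∧ W P ≠ 0
    · obtain ⟨P₀, hP₀, hW₀⟩ := hram
      obtain ⟨c₀, hc₀⟩ : ∃ c₀ : L, 0 < P₀.ord ((x : F) - algebraMap L F c₀) := by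
        rcases hval P₀ with hpole | hc
        · exact absurd hpole (not_lt.mpr (htube P₀ hP₀).1)
        · exact hc
      have hW₀' := hWzero P₀ c₀ hc₀
      have h2₀ : 2 ≤ P₀.ord ((x : F) - algebraMap L F c₀) := by omega
      obtain ⟨hc₀O, hred₀⟩ := (htube P₀ hP₀).2 c₀ hc₀
      have hured : red (x - ⟨algebraMap L F c₀, hc₀O⟩) = red x - algebraMap k Ft γ := by
        rw [map_sub, hred₀]
      obtain ⟨u, hu⟩ := h.isUnit_of_red_ne_zero (y := x - ⟨algebraMap L F c₀, hc₀O⟩) (by
        rw [hured]
        exact hxγ0)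
      have hspec := h.spec' u Q
      rw [hu, hured] at hspec
      have hcoe : ((x - ⟨algebraMap L F c₀, hc₀O⟩ : O) : F) = (x : F) - algebraMap L F c₀ := rfl
      rw [hcoe] at hspec
      have hle : ∀ P, r P = Q → W P ≤ pdiv L ((x : F) - algebraMap L F c₀) P := by
        intro P hP
        rw [pdiv_apply]
        have hnn : 0 ≤ P.ord ((x : F) - algebraMap L F c₀) :=
          ord_sub_const_nonneg P (htube P hP).1 c₀
        rcases hval P with hpole | ⟨c, hc⟩
        · exact absurd hpole (not_lt.mpr (htube P hP).1)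
        · rw [hWzero P c hc]
          by_cases h2 : 2 ≤ P.ord ((x : F) - algebraMap L F c)
          · obtain ⟨hcO, hredc⟩ := (htube P hP).2 c hc
            have hcc : c = c₀ := hbr_sep c c₀ P P₀ h2 h2₀ hcO hc₀O (by rw [hredc, hred₀])
            rw [hcc]
            omega
          · omega
      have hlt := mapDomain_lt_mapDomain r W (pdiv L ((x : F) - algebraMap L F c₀)) Q hle P₀ hP₀
        (by
          rw [pdiv_apply, hW₀']
          omega)
      rw [hspec] at hlt
      have h3 := hWtzero Q γ hQ
      omega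
    · have h0 : Finsupp.mapDomain r W Q = 0 :=
        mapDomain_eq_zero_of r W Q fun P hP => by
          by_contra hne
          exact hram ⟨P, hP, hne⟩
      have h3 := hWtzero Q γ hQ
      omega

end Fermat.Agent.Lib.Red.SpecGenus
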