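import Mathlib
import Fermat.Agent.Lib.Red.TorsionOneStep
import Fermat.Agent.Lib.FF.SettingP
import Fermat.Agent.Lib.FF.RRNonSpecial

/-!
# RED2-3: the genus step and the non-special hypothesis of ONESTEP (abstract)

* `genusFF_le_of_mapDomain_le`: if `W`, `Wt` are divisors of degrees `2g - 2`, `2g~ - 2` on
  `F`, `Ft` (all places of degree one) and `r_* W ≤ Wt` pointwise, then `g ≤ g~`.
* `hns_of`: the hypothesis `hns` of `OneStep.principal_of_torsion` from non-special divisors
  (`IsFF1.exists_nonspecial'`) and tube coordinates outside a finite set.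
* `exists_bad_finset`: outside a finite set of places the function `xt - γ` has a simple zero
  for a suitable constant `γ`.
-/

set_option autoImplicit false

namespace Fermat.Agent.Lib.Red.SpecNSAux

open AlgebraicCurve

variable {L F k Ft : Type*} [Field L] [Field F] [Algebra L F] [Field k] [Field Ft] [Algebra k Ft]

/-- The degree of a divisor on a function field all of whose places have degree one is the sum
of its coefficients. -/
theorem degree_eq_sum_of_deg_eq_one {K E : Type*} [Field K] [Field E] [Algebra K E]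
    (hdeg : ∀ P : Place K E, P.deg = 1) (D : Divisor K E) :
    Divisor.degree D = ∑ P ∈ D.support, D P := by
  rw [Divisor.degree, Finsupp.liftAddHom_apply, Finsupp.sum]
  refine Finset.sum_congr rfl fun P _ => ?_
  simp [hdeg P]

/-- Push-forward along a map of places preserves the degree when all places have degree one. -/
theorem degree_mapDomain_of_deg_eq_one (hdegL : ∀ P : Place L F, P.deg = 1)
    (hdegk : ∀ Q : Place k Ft, Q.deg = 1) (r : Place L F → Place k Ft) (D : Divisor L F) :
    Divisor.degree (Finsupp.mapDomain r D) = Divisor.degree D := by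
  induction D using Finsupp.induction with
  | zero => simp
  | single_add P n D _ _ ih =>
    rw [Finsupp.mapDomain_add, map_add, map_add, ih, Finsupp.mapDomain_single,
      Divisor.degree_single, Divisor.degree_single, hdegL, hdegk]

/-- The degree is monotone on divisors of a function field whose places have degree one. -/
theorem degree_le_degree_of_le {K E : Type*} [Field K] [Field E] [Algebra K E]
    (hdeg : ∀ P : Place K E, P.deg = 1) {D D' : Divisor K E} (h : ∀ P, D P ≤ D' P) :
    Divisor.degree D ≤ Divisor.degree D' := by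
  have h0 : 0 ≤ Divisor.degree (D' - D) := by
    rw [degree_eq_sum_of_deg_eq_one hdeg]
    refine Finset.sum_nonneg fun P _ => ?_
    rw [Finsupp.sub_apply]
    exact sub_nonneg.mpr (h P)
  rw [map_sub] at h0
  exact sub_nonneg.mp h0

end Fermat.Agent.Lib.Red.SpecNSAux

namespace Fermat.Agent.Lib.Red.SpecGenus

open AlgebraicCurve Fermat.Agent.Lib.Red.OneStep Fermat.Agent.Lib.FF
open Fermat.Agent.Lib.Red.SpecNSAux

variable {L F k Ft : Type*} [Field L] [Field F] [Algebra L F] [Field k] [Field Ft] [Algebra k Ft]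
variable {O : ValuationSubring F} {red : O →+* Ft} {r : Place L F → Place k Ft}

/-- **The genus step**: a pointwise inequality `r_* W ≤ Wt` between divisors of degrees
`2g - 2` and `2g~ - 2` gives `g ≤ g~`. -/
theorem genusFF_le_of_mapDomain_le (hdegL : ∀ P : Place L F, P.deg = 1)
    (hdegk : ∀ Q : Place k Ft, Q.deg = 1) (W : Divisor L F) (Wt : Divisor k Ft)
    (hW : Divisor.degree W = 2 * (genusFF L F : ℤ) - 2)
    (hWt : Divisor.degree Wt = 2 * (genusFF k Ft : ℤ) - 2)
    (hle : ∀ Q, Finsupp.mapDomain r W Q ≤ Wt Q) : genusFF L F ≤ genusFF k Ft := by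
  have h1 : Divisor.degree (Finsupp.mapDomain r W) ≤ Divisor.degree Wt :=
    degree_le_degree_of_le hdegk hle
  rw [degree_mapDomain_of_deg_eq_one hdegL hdegk, hW, hWt] at h1
  have h2 : (genusFF L F : ℤ) ≤ (genusFF k Ft : ℤ) := by omega
  exact_mod_cast h2

/-- **The non-special hypothesis of ONESTEP**: `g ≤ g~` places outside a given finite set,
each carrying a tube coordinate, such that every function with at most simple poles along them
is constant. -/
theorem hns_of {xt : Ft} [Infinite k] (hFt : IsFF1 k Ft xt) (g : ℕ) (hg : g ≤ genusFF k Ft)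
    (S₀ : Finset (Place k Ft))
    (htube : ∀ Q : Place k Ft, Q ∉ S₀ →
      ∃ t : O, Q.ord (red t) = 1 ∧ ∀ P, r P = Q → 0 ≤ P.ord (t : F))
    (S : Finset (Place k Ft)) :
    ∃ Qs : Finset (Place k Ft), Qs.card = g ∧ Disjoint Qs S ∧
      (∀ Q ∈ Qs, ∃ t : O, Q.ord (red t) = 1 ∧ ∀ P, r P = Q → 0 ≤ P.ord (t : F)) ∧
      ∀ w : Ft, w ≠ 0 → (∀ Q ∈ Qs, -1 ≤ Q.ord w) → (∀ Q, Q ∉ Qs → 0 ≤ Q.ord w) →
        ∃ κ : k, w = algebraMap k Ft κ := by
  classical
  obtain ⟨T, hcard, hdisj, hT⟩ := hFt.exists_nonspecial' (S ∪ S₀) g hg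
  rw [Finset.disjoint_union_right] at hdisj
  refine ⟨T, hcard, hdisj.1, fun Q hQ => ?_, fun w _ h1 h2 => hT w h1 h2⟩
  exact htube Q (Finset.disjoint_left.mp hdisj.2 hQ)

/-- **The finite exceptional set**: outside the poles of `xt` and the support of `Wt` some
`xt - γ` has a simple zero. -/
theorem exists_bad_finset {xt : Ft} (Wt : Divisor k Ft)
    (hpolfin : {Q : Place k Ft | Q.ord xt < 0}.Finite)
    (hvalt : ∀ Q : Place k Ft, Q.ord xt < 0 ∨ ∃ γ : k, 0 < Q.ord (xt - algebraMap k Ft γ))
    (hWtzero : ∀ (Q : Place k Ft) (γ : k), 0 < Q.ord (xt - algebraMap k Ft γ) →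
      Q.ord (xt - algebraMap k Ft γ) - 1 ≤ Wt Q) :
    ∃ S₀ : Finset (Place k Ft), ∀ Q ∉ S₀, ∃ γ : k, Q.ord (xt - algebraMap k Ft γ) = 1 := by
  classical
  refine ⟨hpolfin.toFinset ∪ Wt.support, fun Q hQ => ?_⟩
  rw [Finset.mem_union, not_or, Set.Finite.mem_toFinset, Set.mem_ofPred_eq,
    Finsupp.mem_support_iff, not_not] at hQ
  rcases hvalt Q with h | ⟨γ, hγ⟩
  · exact absurd h hQ.1
  · refine ⟨γ, ?_⟩
    have := hWtzero Q γ hγ
    rw [hQ.2] at this
    omega

end Fermat.Agent.Lib.Red.SpecGenus
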