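/-
ESJ / RED, second route (RED2-1): NO EXCESS from the spec of a place reduction.

Setting of `OneStep.IsRed O red r` (helper71).  Let `x : O` be a function whose pole divisor has
the same degree `n > 0` as the pole divisor of its reduction `red x`.  Then the place reduction
`r` is compatible with the reduction of the `x`-line:

* `pole_of_pole`   : poles of `x` reduce to poles of `red x`;
* `zero_of_zero`   : a point with integral value `x = c` reduces to a point with `x̄ = c̄`;
* `pole_of_nonint` : a point with non-integral value `x = c` reduces to a pole of `red x`;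
* `exists_tube_coord` : where `red x - γ` has a simple zero, `x - c` (`c̄ = γ`) is a tube
  coordinate in the sense of `OneStep.principal_of_torsion`.
-/
import Mathlib
import Fermat.Agent.Lib.Red.TorsionOneStep

set_option autoImplicit false

namespace Fermat.Agent.Lib.Red.SpecGenus

open AlgebraicCurve Fermat.Agent.Lib.Red.OneStep

variable {L F k Ft : Type*} [Field L] [Field F] [Algebra L F] [Field k] [Field Ft] [Algebra k Ft]
variable {O : ValuationSubring F} {red : O →+* Ft} {r : Place L F → Place k Ft}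

/-! ### Small facts on `ord` -/

theorem ord_sub_const_of_neg (v : Place L F) {y : F} (hy : v.ord y < 0) (c : L) :
    v.ord (y - algebraMap L F c) = v.ord y := by
  rcases eq_or_ne c 0 with rfl | hc
  · rw [map_zero, sub_zero]
  have hy0 : y ≠ 0 := by
    rintro rfl
    rw [Place.ord_zero] at hy
    exact lt_irrefl _ hy
  have h1 : v.ord (algebraMap L F c - y) = v.ord y := by
    refine ord_sub_eq_of_lt v hy0 (Or.inr ?_)
    rw [Fermat.Agent.S24.ord_algebraMap]
    exact hy
  rw [← neg_sub, OneStep.ord_neg, h1]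

theorem ord_nonneg_of_ord_sub_const_nonneg (v : Place L F) {y : F} {c : L}
    (hy : 0 ≤ v.ord (y - algebraMap L F c)) : 0 ≤ v.ord y := by
  by_contra hneg
  rw [not_le] at hneg
  rw [ord_sub_const_of_neg v hneg c] at hy
  omega

theorem ord_sub_const_neg_iff (v : Place L F) (y : F) (c : L) :
    v.ord (y - algebraMap L F c) < 0 ↔ v.ord y < 0 := by
  constructor
  · intro h
    by_contra hnn
    rw [not_lt] at hnn
    have := ord_sub_const_nonneg v hnn c
    omega
  · intro h
    rw [ord_sub_const_of_neg v h c]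
    exact h

/-! ### The polar multiplicity of a tube -/

section Excess

variable [HasPrincipalDivisors L F]

open Classical in
/-- the polar multiplicity of `x` in the tube of `Q` -/
noncomputable def polMult (r : Place L F → Place k Ft) (x : F)
    (Pol : Finset (Place L F)) (Q : Place k Ft) : ℤ :=
  ∑ P ∈ Pol.filter (fun P => r P = Q), (-P.ord x)

omit [HasPrincipalDivisors L F] in
theorem polMult_nonneg (x : F) (Pol : Finset (Place L F))
    (hPol : ∀ P, P ∈ Pol ↔ P.ord x < 0) (Q : Place k Ft) : 0 ≤ polMult r x Pol Q := by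
  classical
  unfold polMult
  refine Finset.sum_nonneg fun P hP => ?_
  have := (hPol P).1 (Finset.mem_filter.1 hP).1
  omega

omit [HasPrincipalDivisors L F] in
theorem le_polMult (x : F) (Pol : Finset (Place L F))
    (hPol : ∀ P, P ∈ Pol ↔ P.ord x < 0) {P₀ : Place L F} (hP₀ : P₀.ord x < 0) :
    -P₀.ord x ≤ polMult r x Pol (r P₀) := by
  classical
  unfold polMult
  have hmem : P₀ ∈ Pol.filter (fun P => r P = r P₀) :=
    Finset.mem_filter.2 ⟨(hPol P₀).2 hP₀, rfl⟩
  refine Finset.single_le_sum (f := fun P => -P.ord x) (fun P hP => ?_) hmem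
  have := (hPol P).1 (Finset.mem_filter.1 hP).1
  show 0 ≤ -P.ord x
  omega

/-- **Key identity.**  For a unit `u` of `O` with the same poles (and pole orders) as `x`:
`ord_Q (red u) + polMult Q` is the number of zeros of `u` in the tube of `Q`; in particular it is
`≥ 0` and `≥ ord_P u` for every `P` in the tube. -/
theorem ord_le_of_unit (h : IsRed O red r) (x : F) (Pol : Finset (Place L F))
    (hPol : ∀ P, P ∈ Pol ↔ P.ord x < 0) (u : Oˣ)
    (hu : ∀ P : Place L F, P.ord ((u : O) : F) < 0 → P.ord x < 0)
    (hu' : ∀ P : Place L F, P.ord x < 0 → P.ord ((u : O) : F) = P.ord x)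
    (Q : Place k Ft) :
    0 ≤ Q.ord (red u) + polMult r x Pol Q ∧
      ∀ P : Place L F, r P = Q → P.ord ((u : O) : F) ≤ Q.ord (red u) + polMult r x Pol Q := by
  classical
  set D := pdiv L ((u : O) : F) with hD
  have hspec : Finsupp.mapDomain r D Q = Q.ord (red u) := h.spec' u Q
  rw [mapDomain_apply_eq_sum] at hspec
  set s := D.support.filter (fun P => r P = Q) with hs
  have hsplit := Finset.sum_filter_add_sum_filter_not s (fun P => D P < 0) (fun P => D P)
  -- the negative part is `- polMult`
  have hneg : ∑ P ∈ s.filter (fun P => D P < 0), D P = -polMult r x Pol Q := by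
    unfold polMult
    rw [← Finset.sum_neg_distrib]
    refine Finset.sum_congr ?_ ?_
    · ext P
      simp only [Finset.mem_filter, hs, Finsupp.mem_support_iff, hD, pdiv_apply]
      constructor
      · rintro ⟨⟨-, hQ⟩, hlt⟩
        exact ⟨(hPol P).2 (hu P hlt), hQ⟩
      · rintro ⟨hP, hQ⟩
        have hx := (hPol P).1 hP
        have := hu' P hx
        exact ⟨⟨by omega, hQ⟩, by omega⟩
    · intro P hP
      have hx := (hPol P).1 (Finset.mem_filter.1 hP).1
      rw [hD, pdiv_apply, hu' P hx, neg_neg]
  have hnn : ∀ P ∈ s.filter (fun P => ¬ D P < 0), 0 ≤ D P := by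
    intro P hP
    have := (Finset.mem_filter.1 hP).2
    omega
  have hpos : 0 ≤ ∑ P ∈ s.filter (fun P => ¬ D P < 0), D P := Finset.sum_nonneg hnn
  have heq : ∑ P ∈ s.filter (fun P => ¬ D P < 0), D P = Q.ord (red u) + polMult r x Pol Q := by
    rw [← hspec, ← hsplit, hneg]
    ring
  refine ⟨by rw [← heq]; exact hpos, fun P hPQ => ?_⟩
  rw [← heq]
  by_cases hP : D P ≤ 0
  · rw [hD, pdiv_apply] at hP
    omega
  · have hmem : P ∈ s.filter (fun P => ¬ D P < 0) := by
      refine Finset.mem_filter.2 ⟨Finset.mem_filter.2 ⟨Finsupp.mem_support_iff.2 ?_, hPQ⟩, ?_⟩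
      · omega
      · omega
    have := Finset.single_le_sum (f := fun P => D P) hnn hmem
    rw [hD, pdiv_apply] at this
    exact this

variable (h : IsRed O red r) (x : O) (n : ℕ) (hn : 0 < n)
  (hpol : ∃ hfin : {P : Place L F | P.ord (x : F) < 0}.Finite,
    ∑ P ∈ hfin.toFinset, (-P.ord (x : F)) = n)
  (hpolt : ∃ hfin : {Q : Place k Ft | Q.ord (red x) < 0}.Finite,
    ∑ Q ∈ hfin.toFinset, (-Q.ord (red x)) = n)

include hn hpolt in
omit [HasPrincipalDivisors L F] in
theorem red_ne_zero : red x ≠ 0 := by
  obtain ⟨hfin, hsum⟩ := hpolt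
  intro h0
  have hempty : hfin.toFinset = ∅ := by
    refine Finset.eq_empty_of_forall_notMem fun Q hQ => ?_
    have hQ' : Q.ord (red x) < 0 := (Set.Finite.mem_toFinset hfin).1 hQ
    rw [h0, Place.ord_zero] at hQ'
    exact lt_irrefl _ hQ'
  rw [hempty, Finset.sum_empty] at hsum
  have : (n : ℤ) = 0 := hsum.symm
  omega

include hn hpolt in
omit [HasPrincipalDivisors L F] in
/-- `red x` is not a constant (it has a pole). -/
theorem exists_pole_red : ∃ Q : Place k Ft, Q.ord (red x) < 0 := by
  obtain ⟨hfin, hsum⟩ := hpolt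
  by_contra hno
  push Not at hno
  have hempty : hfin.toFinset = ∅ := by
    refine Finset.eq_empty_of_forall_notMem fun Q hQ => ?_
    have hQ' : Q.ord (red x) < 0 := (Set.Finite.mem_toFinset hfin).1 hQ
    have := hno Q
    omega
  rw [hempty, Finset.sum_empty] at hsum
  have : (n : ℤ) = 0 := hsum.symm
  omega

include h hn hpol hpolt in
/-- **No excess**: the polar multiplicity of `x` in the tube of `Q` is the pole order of
`red x` at `Q` (zero if `red x` is regular at `Q`). -/
theorem polMult_eq (Pol : Finset (Place L F)) (hPol : ∀ P, P ∈ Pol ↔ P.ord (x : F) < 0)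
    (Q : Place k Ft) : polMult r (x : F) Pol Q = max 0 (-Q.ord (red x)) := by
  classical
  have hx0 : red x ≠ 0 := red_ne_zero x n hn hpolt
  obtain ⟨u, hu⟩ := h.isUnit_of_red_ne_zero hx0
  obtain ⟨hfin, hsum⟩ := hpol
  obtain ⟨hfint, hsumt⟩ := hpolt
  have hPolEq : Pol = hfin.toFinset := by
    ext P
    rw [hPol, Set.Finite.mem_toFinset]
    rfl
  -- pointwise inequality
  have hle : ∀ Q : Place k Ft, max 0 (-Q.ord (red x)) ≤ polMult r (x : F) Pol Q := by
    intro Q
    have h1 := (ord_le_of_unit h (x : F) Pol hPol u (fun P hP => by rw [hu] at hP; exact hP)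
      (fun P _ => by rw [hu]) Q).1
    rw [hu] at h1
    have h2 := polMult_nonneg (r := r) (x : F) Pol hPol Q
    rcases max_cases (0 : ℤ) (-Q.ord (red x)) with ⟨h3, -⟩ | ⟨h3, -⟩
    · rw [h3]; exact h2
    · rw [h3]; omega
  -- the two sums
  set T : Finset (Place k Ft) := hfint.toFinset ∪ Pol.image r ∪ {Q} with hT
  have hsumA : ∑ Q' ∈ T, polMult r (x : F) Pol Q' = n := by
    unfold polMult
    rw [Finset.sum_fiberwise_of_maps_to (g := r) (f := fun P => -P.ord (x : F))
      (fun P hP => by
        rw [hT]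
        exact Finset.mem_union_left _ (Finset.mem_union_right _ (Finset.mem_image_of_mem r hP)))]
    rw [hPolEq]
    exact hsum
  have hsumB : ∑ Q' ∈ T, max 0 (-Q'.ord (red x)) = n := by
    rw [← hsumt]
    symm
    have hsub : hfint.toFinset ⊆ T := by
      rw [hT]
      exact Finset.subset_union_left.trans Finset.subset_union_left
    rw [← Finset.sum_subset hsub (f := fun Q' => max 0 (-Q'.ord (red x)))]
    · refine Finset.sum_congr rfl fun Q' hQ' => ?_
      have : Q'.ord (red x) < 0 := (Set.Finite.mem_toFinset hfint).1 hQ'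
      rw [max_eq_right (by omega)]
    · intro Q' _ hQ'
      have : ¬ Q'.ord (red x) < 0 := fun hlt => hQ' ((Set.Finite.mem_toFinset hfint).2 hlt)
      rw [max_eq_left (by omega)]
  have hall := (Finset.sum_eq_sum_iff_of_le (fun Q' _ => hle Q')).1 (hsumB.trans hsumA.symm)
  exact (hall Q (by rw [hT]; exact Finset.mem_union_right _ (Finset.mem_singleton_self Q))).symm

include h hn hpol hpolt in
/-- **(NE)** poles of `x` reduce to poles of `red x`. -/
theorem pole_of_pole (P : Place L F) (hP : P.ord (x : F) < 0) : (r P).ord (red x) < 0 := by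
  classical
  obtain ⟨hfin, hsum⟩ := hpol
  have hPol : ∀ P, P ∈ hfin.toFinset ↔ P.ord (x : F) < 0 := fun P => by
    rw [Set.Finite.mem_toFinset]; rfl
  have h1 := polMult_eq h x n hn ⟨hfin, hsum⟩ hpolt hfin.toFinset hPol (r P)
  have h2 := le_polMult (r := r) (x : F) hfin.toFinset hPol hP
  by_contra hnn
  rw [max_eq_left (by omega)] at h1
  omega

include h hn hpol hpolt in
/-- the number of zeros of a unit with the poles of `x`: general form of the value lemmas -/
theorem ord_le_ord_red_add (u : Oˣ)
    (hu : ∀ P : Place L F, P.ord ((u : O) : F) < 0 → P.ord (x : F) < 0)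
    (hu' : ∀ P : Place L F, P.ord (x : F) < 0 → P.ord ((u : O) : F) = P.ord (x : F))
    (P : Place L F) :
    P.ord ((u : O) : F) ≤ (r P).ord (red u) + max 0 (-(r P).ord (red x)) := by
  classical
  obtain ⟨hfin, hsum⟩ := hpol
  have hPol : ∀ P, P ∈ hfin.toFinset ↔ P.ord (x : F) < 0 := fun P => by
    rw [Set.Finite.mem_toFinset]; rfl
  have h1 := polMult_eq h x n hn ⟨hfin, hsum⟩ hpolt hfin.toFinset hPol (r P)
  have h2 := (ord_le_of_unit h (x : F) hfin.toFinset hPol u hu hu' (r P)).2 P rfl
  rw [h1] at h2
  exact h2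

include h hn hpol hpolt in
/-- **(VAL, integral values)** a point where `x` takes the integral value `c` reduces to a point
where `red x` takes the value `c̄`. -/
theorem zero_of_zero (c : L) (hc : algebraMap L F c ∈ O) (P : Place L F)
    (hP : 0 < P.ord ((x : F) - algebraMap L F c)) :
    0 < (r P).ord (red (x - ⟨algebraMap L F c, hc⟩)) := by
  set y : O := x - ⟨algebraMap L F c, hc⟩ with hy
  have hyF : (y : F) = (x : F) - algebraMap L F c := rfl
  obtain ⟨κ, hκ⟩ := h.const ⟨algebraMap L F c, hc⟩ (isConst_mk c hc)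
  have hredy : red y = red x - algebraMap k Ft κ := by rw [hy, map_sub, hκ]
  -- `red y ≠ 0` since `red x` has a pole
  have hy0 : red y ≠ 0 := by
    intro h0
    obtain ⟨Q, hQ⟩ := exists_pole_red x n hn hpolt
    have : red x = algebraMap k Ft κ := by
      rw [hredy] at h0
      exact sub_eq_zero.1 h0
    rw [this, Fermat.Agent.S24.ord_algebraMap] at hQ
    exact lt_irrefl _ hQ
  obtain ⟨u, hu⟩ := h.isUnit_of_red_ne_zero hy0
  have key := ord_le_ord_red_add h x n hn hpol hpolt u
    (fun P' hP' => by
      rw [hu, hyF] at hP'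
      exact (ord_sub_const_neg_iff P' _ c).1 hP')
    (fun P' hP' => by
      rw [hu, hyF]
      exact ord_sub_const_of_neg P' hP' c) P
  rw [hu, hyF] at key
  by_cases hpole : (r P).ord (red x) < 0
  · -- then `ord (red y) = ord (red x)` and the bound gives `ord_P (x - c) ≤ 0`
    have h1 : (r P).ord (red y) = (r P).ord (red x) := by
      rw [hredy]
      exact ord_sub_const_of_neg (r P) hpole κ
    rw [h1, max_eq_right (by omega)] at key
    omega
  · rw [max_eq_left (by omega)] at key
    omega

include h hn hpol hpolt in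
/-- **(VAL, non-integral values)** a point where `x` takes a non-integral value reduces to a
pole of `red x`. -/
theorem pole_of_nonint (c : L) (hc : algebraMap L F c ∉ O) (P : Place L F)
    (hP : 0 < P.ord ((x : F) - algebraMap L F c)) : (r P).ord (red x) < 0 := by
  have hc0 : c ≠ 0 := by
    rintro rfl
    apply hc
    rw [map_zero]
    exact O.zero_mem
  have hcF : algebraMap L F c ≠ 0 := (map_ne_zero _).2 hc0
  have hinv : algebraMap L F c⁻¹ ∈ O := by
    rw [map_inv₀]
    exact (O.mem_or_inv_mem _).resolve_left hc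
  set d : O := ⟨algebraMap L F c⁻¹, hinv⟩ with hd
  have hdnu : ¬ IsUnit d := by
    rintro ⟨w, hw⟩
    apply hc
    have h1 : (((w⁻¹ : Oˣ) : O) : F) = algebraMap L F c := by
      rw [coe_units_inv, hw, hd]
      show (algebraMap L F c⁻¹)⁻¹ = _
      rw [map_inv₀, inv_inv]
    rw [← h1]
    exact ((w⁻¹ : Oˣ) : O).2
  have hredd : red d = 0 := h.ker d hdnu
  set y : O := 1 - x * d with hy
  have hredy : red y = 1 := by rw [hy, map_sub, map_one, map_mul, hredd, mul_zero, sub_zero]
  have hyF : (y : F) = algebraMap L F (-c⁻¹) * ((x : F) - algebraMap L F c) := by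
    show 1 - (x : F) * algebraMap L F c⁻¹ = _
    rw [map_neg, map_inv₀]
    field_simp
    ring
  have hc' : -c⁻¹ ≠ 0 := neg_ne_zero.2 (inv_ne_zero hc0)
  obtain ⟨u, hu⟩ := h.isUnit_of_red_ne_zero (y := y) (by rw [hredy]; exact one_ne_zero)
  have key := ord_le_ord_red_add h x n hn hpol hpolt u
    (fun P' hP' => by
      rw [hu, hyF, ord_const_mul P' hc'] at hP'
      exact (ord_sub_const_neg_iff P' _ c).1 hP')
    (fun P' hP' => by
      rw [hu, hyF, ord_const_mul P' hc']
      exact ord_sub_const_of_neg P' hP' c) P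
  rw [hu, hredy, Place.ord_one, hyF, ord_const_mul P hc'] at key
  by_contra hnn
  rw [max_eq_left (by omega)] at key
  omega

include h hn hpol hpolt in
/-- **Tube coordinate.**  At a place `Q` where `red x - γ` has a simple zero, the function
`t = x - c` with `c̄ = γ` has `ord_Q (red t) = 1` and is regular on the tube of `Q`. -/
theorem exists_tube_coord
    (hlift : ∀ γ : k, ∃ (c : L) (hc : algebraMap L F c ∈ O),
      red ⟨algebraMap L F c, hc⟩ = algebraMap k Ft γ)
    (Q : Place k Ft) (γ : k) (hQ : Q.ord (red x - algebraMap k Ft γ) = 1) :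
    ∃ t : O, Q.ord (red t) = 1 ∧ ∀ P, r P = Q → 0 ≤ P.ord (t : F) := by
  obtain ⟨c, hc, hcγ⟩ := hlift γ
  refine ⟨x - ⟨algebraMap L F c, hc⟩, by rw [map_sub, hcγ]; exact hQ, fun P hPQ => ?_⟩
  show 0 ≤ P.ord ((x : F) - algebraMap L F c)
  refine ord_sub_const_nonneg P ?_ c
  by_contra hneg
  rw [not_le] at hneg
  have h1 := pole_of_pole h x n hn hpol hpolt P hneg
  rw [hPQ] at h1
  have h2 : 0 ≤ Q.ord (red x) := ord_nonneg_of_ord_sub_const_nonneg Q (c := γ) (by omega)
  omega

end Excess

end Fermat.Agent.Lib.Red.SpecGenus
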